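import Mathlib

/-!
# P-S44, block R1 / N-alpha: the literals (N-OUT) of the node ring and (N-Sm) of the smooth-point
ring (helper50, N-lead)

`IsNodeRing S p u u'` is the RING-THEORETIC half of the output literal (N-OUT) of board `S44_R1`:
the local ring `S = R_s` of the arithmetic surface `X_0(pM)/O_0` at a supersingular node `s`
(thickness one).  `IsSmoothPtRing S p t` is the companion literal (N-Sm) for the local ring at a
smooth closed point of the special fibre.  They are the single seam between

* the PRODUCERS: `Node/NodeLocal` (helper5, abstract N2), `Node/SmoothAbs` (helper61), the instance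
  files of N1/N2/N4, and the etale lift C3-ET (which has to reproduce the SAME literal for `R*_s`);
* the CONSUMERS: the UFD/edge lemmas (helper54 `Edge/UFD`, `Edge/PthPower(Div)`; helper62
  `edge_main`, `edge_val`; helper86), N5 (TAME) and C3-EDGE.

The lemmas below are exactly the hypotheses of the consumers, derived once and for all:
`u ∈ jacobson ⊥`, `S ⧸ (u)` is a discrete valuation ring (hence a PID) with uniformiser the class
of `u'`, the kernel of `S → S ⧸ (u)` is `(u)`, a prime element not associated to `u`, `u'` does not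
divide `p`; everything is symmetric in `(u, u')` (`IsNodeRing.symm`).
-/

set_option autoImplicit false
set_option linter.unusedSectionVars false
set_option linter.style.haveILetI false

namespace Fermat.Agent.S40x.Node

open IsLocalRing

/-! ### A Noetherian local domain with maximal ideal `(z, t)`, `z` prime, `z ∤ t` -/

section QuotDVR

variable {S : Type*} [CommRing S] [IsDomain S] [IsNoetherianRing S] [IsLocalRing S] {z t : S}

theorem mk_eq_zero_iff {z x : S} : Ideal.Quotient.mk (Ideal.span {z}) x = 0 ↔ z ∣ x := by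
  rw [Ideal.Quotient.eq_zero_iff_mem, Ideal.mem_span_singleton]

/-- the kernel of the reduction modulo `z` (hypothesis `hker` of `edge_main`). -/
theorem ker_mk (z : S) : RingHom.ker (Ideal.Quotient.mk (Ideal.span {z})) = Ideal.span {z} :=
  Ideal.mk_ker

theorem mem_maximalIdeal_of_eq (hmax : maximalIdeal S = Ideal.span {z, t}) :
    z ∈ maximalIdeal S := by
  rw [hmax]
  exact Ideal.subset_span (Set.mem_insert _ _)

/-- hypothesis `hzJ` of the (U)-lemmas. -/
theorem mem_jacobson_of_eq (hmax : maximalIdeal S = Ideal.span {z, t}) :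
    z ∈ (⊥ : Ideal S).jacobson := by
  rw [IsLocalRing.jacobson_eq_maximalIdeal ⊥ bot_ne_top]
  exact mem_maximalIdeal_of_eq hmax

theorem quot_isDomain (hz : Prime z) : IsDomain (S ⧸ Ideal.span {z}) := by
  haveI : (Ideal.span {z}).IsPrime := (Ideal.span_singleton_prime hz.ne_zero).mpr hz
  exact Ideal.Quotient.isDomain _

theorem quot_isLocalRing (hz : Prime z) : IsLocalRing (S ⧸ Ideal.span {z}) := by
  haveI := quot_isDomain hz
  haveI : Nontrivial (S ⧸ Ideal.span {z}) := inferInstance
  exact IsLocalRing.of_surjective' (Ideal.Quotient.mk (Ideal.span {z}))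
    Ideal.Quotient.mk_surjective

/-- the maximal ideal of `S ⧸ (z)` is generated by the class of `t`. -/
theorem quot_maximalIdeal_eq (hmax : maximalIdeal S = Ideal.span {z, t}) (hz : Prime z) :
    haveI := quot_isLocalRing hz
    maximalIdeal (S ⧸ Ideal.span {z}) =
      Ideal.span {Ideal.Quotient.mk (Ideal.span {z}) t} := by
  haveI := quot_isLocalRing hz
  set mk := Ideal.Quotient.mk (Ideal.span {z}) with hmk
  have hsurj : Function.Surjective mk := Ideal.Quotient.mk_surjective
  have hmap : (maximalIdeal S).map mk = Ideal.span {mk t} := by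
    rw [hmax, Ideal.map_span, Set.image_pair]
    have h0 : mk z = 0 := mk_eq_zero_iff.mpr dvd_rfl
    rw [h0]
    apply le_antisymm
    · rw [Ideal.span_le]
      rintro x (rfl | rfl)
      · exact Ideal.zero_mem _
      · exact Ideal.subset_span rfl
    · rw [Ideal.span_le]
      rintro x rfl
      exact Ideal.subset_span (Set.mem_insert_of_mem _ rfl)
  rw [← hmap]
  symm
  apply IsLocalRing.eq_maximalIdeal
  have hle : RingHom.ker mk ≤ maximalIdeal S := by
    rw [hmk, Ideal.mk_ker, Ideal.span_le]
    rintro x rfl
    exact mem_maximalIdeal_of_eq hmax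
  rcases Ideal.map_eq_top_or_isMaximal_of_surjective mk hsurj
    (IsLocalRing.maximalIdeal.isMaximal S) with h1 | h1
  · exfalso
    have h2 : maximalIdeal S = ⊤ := by
      have := Ideal.comap_map_of_surjective mk hsurj (maximalIdeal S)
      rw [h1, Ideal.comap_top] at this
      have h3 : Ideal.comap mk ⊥ ≤ maximalIdeal S := hle
      rw [sup_of_le_left h3] at this
      exact this.symm
    exact (IsLocalRing.maximalIdeal.isMaximal S).ne_top h2
  · exact h1

/-- **`S ⧸ (z)` is a discrete valuation ring.** -/
theorem quot_isDiscreteValuationRing (hmax : maximalIdeal S = Ideal.span {z, t}) (hz : Prime z)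
    (hzt : ¬ z ∣ t) :
    haveI := quot_isDomain hz
    IsDiscreteValuationRing (S ⧸ Ideal.span {z}) := by
  haveI := quot_isDomain hz
  haveI := quot_isLocalRing hz
  have hmax' := quot_maximalIdeal_eq hmax hz
  have hnf : ¬ IsField (S ⧸ Ideal.span {z}) := by
    rw [IsLocalRing.isField_iff_maximalIdeal_eq, hmax', Ideal.span_singleton_eq_bot]
    exact fun h0 => hzt (mk_eq_zero_iff.mp h0)
  refine ((IsDiscreteValuationRing.TFAE (S ⧸ Ideal.span {z}) hnf).out 0 4).mpr ?_
  rw [hmax']
  exact ⟨⟨_, rfl⟩⟩

/-- hypothesis `hpid` of the (U)-lemmas (helper62's form). -/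
theorem quot_isPrincipalIdealRing (hmax : maximalIdeal S = Ideal.span {z, t}) (hz : Prime z)
    (hzt : ¬ z ∣ t) : IsPrincipalIdealRing (S ⧸ Ideal.span {z}) := by
  haveI := quot_isDomain hz
  haveI := quot_isDiscreteValuationRing hmax hz hzt
  infer_instance

/-- the class of `t` is a uniformiser of `S ⧸ (z)`. -/
theorem quot_irreducible_mk (hmax : maximalIdeal S = Ideal.span {z, t}) (hz : Prime z)
    (hzt : ¬ z ∣ t) : Irreducible (Ideal.Quotient.mk (Ideal.span {z}) t) := by
  haveI := quot_isDomain hz
  haveI := quot_isDiscreteValuationRing hmax hz hzt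
  rw [IsDiscreteValuationRing.irreducible_iff_uniformizer]
  exact quot_maximalIdeal_eq hmax hz

end QuotDVR

/-! ### The node ring -/

/-- **(N-OUT), ring-theoretic half**: a Noetherian local domain with maximal ideal `(u, u')`,
`u u' = p ψ` with `ψ` a unit, `u` and `u'` non-associated prime elements. -/
structure IsNodeRing (S : Type*) [CommRing S] [IsDomain S] [IsNoetherianRing S] [IsLocalRing S]
    (p : ℕ) (u u' : S) : Prop where
  /-- (n1) thickness one: `u u' = p ψ`, `ψ` a unit -/
  mul_eq : ∃ ψ : Sˣ, u * u' = (p : S) * ψ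
  /-- (n1) the maximal ideal is `(u, u')` -/
  maximalIdeal_eq : maximalIdeal S = Ideal.span {u, u'}
  /-- (n2) `u` is a prime element (`S ⧸ (u)` embeds into the residue field of `v_∞`) -/
  prime_u : Prime u
  /-- (n2) `u'` is a prime element -/
  prime_u' : Prime u'
  /-- `v_∞ ≠ v_0` -/
  not_associated : ¬ Associated u u'

namespace IsNodeRing

variable {S : Type*} [CommRing S] [IsDomain S] [IsNoetherianRing S] [IsLocalRing S]
  {p : ℕ} {u u' : S}

/-- The literal is symmetric in the two branches. -/
theorem symm (h : IsNodeRing S p u u') : IsNodeRing S p u' u where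
  mul_eq := by
    obtain ⟨ψ, hψ⟩ := h.mul_eq
    exact ⟨ψ, by rw [mul_comm, hψ]⟩
  maximalIdeal_eq := by rw [h.maximalIdeal_eq, Set.pair_comm]
  prime_u := h.prime_u'
  prime_u' := h.prime_u
  not_associated := fun h' => h.not_associated h'.symm

theorem u_mem_maximalIdeal (h : IsNodeRing S p u u') : u ∈ maximalIdeal S :=
  mem_maximalIdeal_of_eq h.maximalIdeal_eq

theorem u'_mem_maximalIdeal (h : IsNodeRing S p u u') : u' ∈ maximalIdeal S :=
  h.symm.u_mem_maximalIdeal

/-- hypothesis `hzJ` of the (U)-lemmas. -/
theorem u_mem_jacobson (h : IsNodeRing S p u u') : u ∈ (⊥ : Ideal S).jacobson :=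
  mem_jacobson_of_eq h.maximalIdeal_eq

theorem not_dvd (h : IsNodeRing S p u u') : ¬ u ∣ u' := fun hd =>
  h.not_associated (h.prime_u.irreducible.associated_of_dvd h.prime_u'.irreducible hd)

/-- `p` lies in the maximal ideal. -/
theorem natCast_mem_maximalIdeal (h : IsNodeRing S p u u') : (p : S) ∈ maximalIdeal S := by
  obtain ⟨ψ, hψ⟩ := h.mul_eq
  have h1 : (p : S) = u * u' * ((ψ⁻¹ : Sˣ) : S) := by
    rw [hψ, mul_assoc, Units.mul_inv, mul_one]
  rw [h1]
  exact Ideal.mul_mem_right _ _ (Ideal.mul_mem_right _ _ h.u_mem_maximalIdeal)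

/-- **First half of (n4)**: a prime element not associated to `u`, `u'` does not divide `p`
(so `p` is a unit of the DVR `S_(π)`, which therefore contains `K_0`). -/
theorem not_dvd_natCast (h : IsNodeRing S p u u') {π : S} (hπ : Prime π)
    (h1 : ¬ Associated π u) (h2 : ¬ Associated π u') : ¬ π ∣ (p : S) := by
  intro hd
  obtain ⟨ψ, hψ⟩ := h.mul_eq
  have h3 : π ∣ u * u' := by
    rw [hψ]
    exact Dvd.dvd.mul_right hd _
  rcases hπ.dvd_or_dvd h3 with h4 | h4
  · exact h1 (hπ.irreducible.associated_of_dvd h.prime_u.irreducible h4)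
  · exact h2 (hπ.irreducible.associated_of_dvd h.prime_u'.irreducible h4)

/-! ### The quotient `S ⧸ (u)` -/

theorem quotient_isDomain (h : IsNodeRing S p u u') : IsDomain (S ⧸ Ideal.span {u}) :=
  quot_isDomain h.prime_u

theorem mk_u'_ne_zero (h : IsNodeRing S p u u') :
    Ideal.Quotient.mk (Ideal.span {u}) u' ≠ 0 := fun h0 => h.not_dvd (mk_eq_zero_iff.mp h0)

theorem quotient_isLocalRing (h : IsNodeRing S p u u') : IsLocalRing (S ⧸ Ideal.span {u}) :=
  quot_isLocalRing h.prime_u

/-- the maximal ideal of `S ⧸ (u)` is generated by the class of `u'`. -/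
theorem quotient_maximalIdeal_eq (h : IsNodeRing S p u u') :
    haveI := h.quotient_isLocalRing
    maximalIdeal (S ⧸ Ideal.span {u}) =
      Ideal.span {Ideal.Quotient.mk (Ideal.span {u}) u'} :=
  quot_maximalIdeal_eq h.maximalIdeal_eq h.prime_u

/-- **`S ⧸ (u)` is a discrete valuation ring** (the local ring of the component `C_∞` at the
point `P_s`). -/
theorem quotient_isDiscreteValuationRing (h : IsNodeRing S p u u') :
    haveI := h.quotient_isDomain
    IsDiscreteValuationRing (S ⧸ Ideal.span {u}) :=
  quot_isDiscreteValuationRing h.maximalIdeal_eq h.prime_u h.not_dvd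

/-- hypothesis `hpid` of the (U)-lemmas (helper62's form). -/
theorem quotient_isPrincipalIdealRing (h : IsNodeRing S p u u') :
    IsPrincipalIdealRing (S ⧸ Ideal.span {u}) :=
  quot_isPrincipalIdealRing h.maximalIdeal_eq h.prime_u h.not_dvd

/-- hypothesis `hpid` of helper54's `ufm_of_quotient_principal`. -/
theorem quotient_isPrincipal (h : IsNodeRing S p u u') (I : Ideal (S ⧸ Ideal.span {u})) :
    I.IsPrincipal :=
  h.quotient_isPrincipalIdealRing.principal I

/-- hypothesis `hunif` of the edge lemmas: the class of `u'` is a uniformiser of `S ⧸ (u)`. -/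
theorem irreducible_mk_u' (h : IsNodeRing S p u u') :
    Irreducible (Ideal.Quotient.mk (Ideal.span {u}) u') :=
  quot_irreducible_mk h.maximalIdeal_eq h.prime_u h.not_dvd

end IsNodeRing

/-! ### The smooth-point ring -/

/-- **(N-Sm), ring-theoretic half**: the local ring of the arithmetic surface at a smooth closed
point of the special fibre: a Noetherian local domain with maximal ideal `(p, t)`, `p` a prime
element, `p ∤ t` (so `S ⧸ (p)` is the DVR of the component at the point, uniformiser `t`). -/
structure IsSmoothPtRing (S : Type*) [CommRing S] [IsDomain S] [IsNoetherianRing S]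
    [IsLocalRing S] (p : ℕ) (t : S) : Prop where
  maximalIdeal_eq : maximalIdeal S = Ideal.span {(p : S), t}
  prime_p : Prime (p : S)
  not_dvd : ¬ (p : S) ∣ t

namespace IsSmoothPtRing

variable {S : Type*} [CommRing S] [IsDomain S] [IsNoetherianRing S] [IsLocalRing S]
  {p : ℕ} {t : S}

theorem natCast_mem_maximalIdeal (h : IsSmoothPtRing S p t) : (p : S) ∈ maximalIdeal S :=
  mem_maximalIdeal_of_eq h.maximalIdeal_eq

/-- hypothesis `hzJ` of the (U)-lemmas with `z := p`. -/
theorem natCast_mem_jacobson (h : IsSmoothPtRing S p t) : (p : S) ∈ (⊥ : Ideal S).jacobson :=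
  mem_jacobson_of_eq h.maximalIdeal_eq

theorem quotient_isDomain (h : IsSmoothPtRing S p t) : IsDomain (S ⧸ Ideal.span {(p : S)}) :=
  quot_isDomain h.prime_p

theorem quotient_isLocalRing (h : IsSmoothPtRing S p t) :
    IsLocalRing (S ⧸ Ideal.span {(p : S)}) :=
  quot_isLocalRing h.prime_p

theorem quotient_maximalIdeal_eq (h : IsSmoothPtRing S p t) :
    haveI := h.quotient_isLocalRing
    maximalIdeal (S ⧸ Ideal.span {(p : S)}) =
      Ideal.span {Ideal.Quotient.mk (Ideal.span {(p : S)}) t} :=
  quot_maximalIdeal_eq h.maximalIdeal_eq h.prime_p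

/-- **`S ⧸ (p)` is a discrete valuation ring** (the local ring of the component at the point). -/
theorem quotient_isDiscreteValuationRing (h : IsSmoothPtRing S p t) :
    haveI := h.quotient_isDomain
    IsDiscreteValuationRing (S ⧸ Ideal.span {(p : S)}) :=
  quot_isDiscreteValuationRing h.maximalIdeal_eq h.prime_p h.not_dvd

theorem quotient_isPrincipalIdealRing (h : IsSmoothPtRing S p t) :
    IsPrincipalIdealRing (S ⧸ Ideal.span {(p : S)}) :=
  quot_isPrincipalIdealRing h.maximalIdeal_eq h.prime_p h.not_dvd

theorem quotient_isPrincipal (h : IsSmoothPtRing S p t)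
    (I : Ideal (S ⧸ Ideal.span {(p : S)})) : I.IsPrincipal :=
  h.quotient_isPrincipalIdealRing.principal I

theorem irreducible_mk (h : IsSmoothPtRing S p t) :
    Irreducible (Ideal.Quotient.mk (Ideal.span {(p : S)}) t) :=
  quot_irreducible_mk h.maximalIdeal_eq h.prime_p h.not_dvd

end IsSmoothPtRing

end Fermat.Agent.S40x.Node
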