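import Fermat.Agent.S40x.Node.NodeInst

/-!
# P-S44, block R1 / N-alpha, `(n0)`: the fraction field of the chart ring `B_0` is the fixed field
(helper5)

Setting of `Node/NodeInst` (`R : RedSetup2 A S k (κ₁ × κ₂)`, `C : ChartCoord R`, `Γ` a set of
semilinear automorphisms).

* `fixedField Γ : Subfield F` : the `Γ`-fixed elements of `F` (for `Γ = inertiaAct P N` this is
  `Node/Vocab.F0 P N`, same carrier);
* `toFixed C Γ : B0 C Γ →+* fixedField Γ`, the `Algebra (B0 C Γ) (fixedField Γ)` structure;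
* `exists_fixed_denominator` : every fixed `f` is a quotient `b1 / b2` of elements of `B_0`
  (`f` is algebraic over `K[t]`; the space of denominators `g ∈ L(d C∞)` with `g f ∈ L(b' C∞)` is a
  non-zero `Γ`-stable subspace, so it contains a non-zero FIXED element by semilinear descent;
  scale into `S.O` by a fixed constant);
* `isFractionRing_B0` : `IsFractionRing (B0 C Γ) (fixedField Γ)`;
* for a prime `m` of `B_0`: `locToFixed`, the algebra structure
  `Algebra (Localization.AtPrime m) (fixedField Γ)`, the scalar tower and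
  `isFractionRing_localization : IsFractionRing (Localization.AtPrime m) (fixedField Γ)`
  (hypothesis `[IsFractionRing S F0]` of the consumers `tame_of_isNodeRing`, `tame_node`).
-/

set_option autoImplicit false
set_option linter.unusedSectionVars false
set_option linter.style.haveILetI false

noncomputable section

namespace Fermat.Agent.S40x.Node.NodeFrac

open AlgebraicCurve IsLocalRing Module
open Fermat.Agent.S34x Fermat.Agent.S34x.C0two Fermat.Agent.S34x.Lattice2
open Fermat.Agent.S19x.Geo.LatticeFixed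
open Fermat.Agent.S33x.H1.LatticeFixed2 Fermat.Agent.S33x.H1.FixedDecomp
open Fermat.Agent.S33x.H1 Fermat.Agent.S33x.W.InstW
open Fermat.Agent.S40x.Node.NodeInst

/-! ### The fixed field -/

section FixedField

variable {K : Type*} [Field K] {F : Type*} [Field F] [Algebra K F]
  (Γ : Set (SemilinearAut K F))

theorem isFixed_one : IsFixed Γ (1 : F) := fun s _ => smul_one s

theorem isFixed_mul {f g : F} (hf : IsFixed Γ f) (hg : IsFixed Γ g) : IsFixed Γ (f * g) :=
  fun s hs => by rw [smul_mul', hf s hs, hg s hs]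

theorem isFixed_neg {f : F} (hf : IsFixed Γ f) : IsFixed Γ (-f) :=
  fun s hs => by rw [smul_neg, hf s hs]

theorem isFixed_inv {f : F} (hf : IsFixed Γ f) : IsFixed Γ f⁻¹ :=
  fun s hs => by rw [smul_inv'', hf s hs]

/-- **the fixed field** of `Γ`. -/
def fixedField : Subfield F where
  carrier := {f | IsFixed Γ f}
  mul_mem' := fun hf hg => isFixed_mul Γ hf hg
  one_mem' := isFixed_one Γ
  add_mem' := fun hf hg => hf.add hg
  zero_mem' := IsFixed.zero
  neg_mem' := fun hf => isFixed_neg Γ hf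
  inv_mem' := fun _ hf => isFixed_inv Γ hf

theorem mem_fixedField {f : F} : f ∈ fixedField Γ ↔ IsFixed Γ f := Iff.rfl

end FixedField

variable {K : Type*} [Field K] {A : ValuationSubring K} {F : Type*} [Field F] [Algebra K F]
  {S : SmallRing F} {k κ₁ κ₂ : Type*} [Field k] [CommRing κ₁] [CommRing κ₂] [Algebra k κ₁]
  [Algebra k κ₂] {R : RedSetup2 A S k (κ₁ × κ₂)} (C : ChartCoord R)
  (Γ : Set (SemilinearAut K F))

/-! ### `B_0` inside the fixed field -/

/-- the inclusion `B_0 → F^Γ`. -/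
def toFixed : B0 C Γ →+* fixedField Γ where
  toFun x := ⟨(x : F), coe_isFixed x⟩
  map_one' := rfl
  map_mul' _ _ := rfl
  map_zero' := rfl
  map_add' _ _ := rfl

instance algebraB0Fixed : Algebra (B0 C Γ) (fixedField Γ) := (toFixed C Γ).toAlgebra

@[simp] theorem coe_algebraMap_fixed (x : B0 C Γ) :
    ((algebraMap (B0 C Γ) (fixedField Γ) x : fixedField Γ) : F) = (x : F) := rfl

theorem algebraMap_fixed_injective :
    Function.Injective (algebraMap (B0 C Γ) (fixedField Γ)) := by
  intro a b h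
  apply Subtype.ext
  have := congrArg (fun z : fixedField Γ => (z : F)) h
  simpa using this

instance faithfulSMul_B0Fixed : FaithfulSMul (B0 C Γ) (fixedField Γ) :=
  (faithfulSMul_iff_algebraMap_injective _ _).mpr (algebraMap_fixed_injective C Γ)

/-! ### Denominators -/

variable {C Γ}

/-- **Every fixed function is a quotient of two elements of `B_0`.** -/
theorem exists_fixed_denominator (hD : FixData2 R Γ)
    (hF : Submodule.span K {f : F | IsFixed Γ f} = ⊤)
    (hstab : ∀ b, ∀ s ∈ Γ, ∀ f ∈ C.LN 0 b, s • f ∈ C.LN 0 b)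
    [Algebra.IsAlgebraic (Algebra.adjoin K {C.t}) F] {f : F} (hf : IsFixed Γ f) :
    ∃ b1 b2 : B0 C Γ, b2 ≠ 0 ∧ f * (b2 : F) = (b1 : F) := by
  by_cases hf0 : f = 0
  · exact ⟨0, 1, one_ne_zero, by rw [hf0, zero_mul]; rfl⟩
  -- a polynomial denominator
  obtain ⟨y, hy0, hyint⟩ :=
    (Algebra.IsAlgebraic.isAlgebraic (R := Algebra.adjoin K {C.t}) f).exists_integral_multiple
  have hyF : (y : F) ≠ 0 := fun h => hy0 (Subtype.ext h)
  have hyint' : IsIntegral (Algebra.adjoin K {C.t}) (y : F) := by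
    have : (y : F) = algebraMap (Algebra.adjoin K {C.t}) F y := rfl
    rw [this]
    exact isIntegral_algebraMap
  have hyf : y • f = (y : F) * f := rfl
  rw [hyf] at hyint
  obtain ⟨d, hd⟩ := (isIntegral_iff_exists_mem_twoPole C.t_mul_tinv).mp hyint'
  obtain ⟨b', hb'⟩ := (isIntegral_iff_exists_mem_twoPole C.t_mul_tinv).mp hyint
  -- the space of denominators
  set V : Submodule K F := C.LN 0 d ⊓ (C.LN 0 b').comap (LinearMap.mulRight K f) with hV
  have hmemV : ∀ g : F, g ∈ V ↔ g ∈ C.LN 0 d ∧ g * f ∈ C.LN 0 b' := by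
    intro g
    rw [hV, Submodule.mem_inf, Submodule.mem_comap, LinearMap.mulRight_apply]
  have hyV : (y : F) ∈ V := (hmemV _).mpr ⟨hd, hb'⟩
  have hstabV : ∀ s ∈ Γ, ∀ g ∈ V, s • g ∈ V := by
    intro s hs g hg
    obtain ⟨hg1, hg2⟩ := (hmemV g).mp hg
    refine (hmemV _).mpr ⟨hstab d s hs g hg1, ?_⟩
    have : s • g * f = s • (g * f) := by rw [smul_mul', hf s hs]
    rw [this]
    exact hstab b' s hs _ hg2
  have hspan := span_fixed_of_stable hF V hstabV
  -- a non-zero fixed denominator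
  obtain ⟨g, hgV, hgfix, hg0⟩ : ∃ g : F, g ∈ V ∧ IsFixed Γ g ∧ g ≠ 0 := by
    by_contra hcon
    push Not at hcon
    have hle : Submodule.span K {g | g ∈ V ∧ IsFixed Γ g} ≤ ⊥ := by
      rw [Submodule.span_le]
      intro g hg
      rw [SetLike.mem_coe, Submodule.mem_bot]
      exact hcon g hg.1 hg.2
    rw [hspan] at hle
    exact hyF ((Submodule.mem_bot K).mp (hle hyV))
  obtain ⟨hg1, hg2⟩ := (hmemV g).mp hgV
  have hgf0 : g * f ≠ 0 := mul_ne_zero hg0 hf0
  have hgffix : IsFixed Γ (g * f) := isFixed_mul Γ hgfix hf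
  -- scale into `S.O`
  obtain ⟨c1, hc10, hc1fix, hc1O, -⟩ := hD.scal_fixed g hg0 hgfix
  obtain ⟨c2, hc20, hc2fix, hc2O, -⟩ := hD.scal_fixed (g * f) hgf0 hgffix
  obtain ⟨c, hc0, hcfix, hcg, hcgf⟩ : ∃ c : K, c ≠ 0 ∧ IsFixedK Γ c ∧ c • g ∈ S.O ∧
      c • (g * f) ∈ S.O := by
    rcases A.mem_or_inv_mem (c2 / c1) with h | h
    · refine ⟨c2, hc20, hc2fix, ?_, hc2O⟩
      have : c2 • g = ((⟨c2 / c1, h⟩ : A) : K) • (c1 • g) := by
        rw [smul_smul]
        show c2 • g = (c2 / c1 * c1) • g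
        rw [div_mul_cancel₀ _ hc10]
      rw [this]
      exact ksmul_mem_O2 R _ hc1O
    · refine ⟨c1, hc10, hc1fix, hc1O, ?_⟩
      have : c1 • (g * f) = ((⟨(c2 / c1)⁻¹, h⟩ : A) : K) • (c2 • (g * f)) := by
        rw [smul_smul]
        show c1 • (g * f) = ((c2 / c1)⁻¹ * c2) • (g * f)
        rw [inv_div, div_mul_cancel₀ _ hc20]
      rw [this]
      exact ksmul_mem_O2 R _ hc2O
  refine ⟨⟨c • (g * f), mem_B0_of_mem ((C.LN 0 b').smul_mem c hg2) hcgf
      (IsFixed.smul hcfix hgffix)⟩,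
    ⟨c • g, mem_B0_of_mem ((C.LN 0 d).smul_mem c hg1) hcg (IsFixed.smul hcfix hgfix)⟩, ?_, ?_⟩
  · intro h
    have h1 := congrArg (fun z : B0 C Γ => (z : F)) h
    simp only [ZeroMemClass.coe_zero] at h1
    rcases smul_eq_zero.mp h1 with h2 | h2
    · exact hc0 h2
    · exact hg0 h2
  · show f * (c • g) = c • (g * f)
    rw [mul_smul_comm, mul_comm]

/-- **`F^Γ` is the fraction field of `B_0`.** -/
theorem isFractionRing_B0 (hD : FixData2 R Γ)
    (hF : Submodule.span K {f : F | IsFixed Γ f} = ⊤)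
    (hstab : ∀ b, ∀ s ∈ Γ, ∀ f ∈ C.LN 0 b, s • f ∈ C.LN 0 b)
    [Algebra.IsAlgebraic (Algebra.adjoin K {C.t}) F] :
    IsFractionRing (B0 C Γ) (fixedField Γ) := by
  refine IsFractionRing.of_field (B0 C Γ) (fixedField Γ) fun z => ?_
  obtain ⟨b1, b2, hb2, h⟩ := exists_fixed_denominator hD hF hstab z.2
  refine ⟨b1, b2, ?_⟩
  have hb2' : algebraMap (B0 C Γ) (fixedField Γ) b2 ≠ 0 := fun h0 =>
    hb2 (algebraMap_fixed_injective C Γ (by rw [h0, map_zero]))
  rw [eq_div_iff hb2']
  exact Subtype.ext h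

/-! ### The localisations of `B_0` inside the fixed field -/

section Loc

variable (m : Ideal (B0 C Γ)) [m.IsPrime]

/-- the elements outside a prime ideal are units of the fixed field. -/
theorem isUnit_algebraMap_of_notMem (y : m.primeCompl) :
    IsUnit (algebraMap (B0 C Γ) (fixedField Γ) (y : B0 C Γ)) := by
  refine IsUnit.mk0 _ fun h0 => ?_
  have : (y : B0 C Γ) = 0 := algebraMap_fixed_injective C Γ (by rw [h0, map_zero])
  exact y.2 (this ▸ m.zero_mem)

/-- the inclusion of the local ring `(B_0)_m` into the fixed field. -/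
def locToFixed : Localization.AtPrime m →+* fixedField Γ :=
  IsLocalization.lift (M := m.primeCompl) (g := algebraMap (B0 C Γ) (fixedField Γ))
    (isUnit_algebraMap_of_notMem m)

instance algebraLocFixed : Algebra (Localization.AtPrime m) (fixedField Γ) :=
  (locToFixed m).toAlgebra

theorem algebraMap_loc_algebraMap (x : B0 C Γ) :
    algebraMap (Localization.AtPrime m) (fixedField Γ)
        (algebraMap (B0 C Γ) (Localization.AtPrime m) x) =
      algebraMap (B0 C Γ) (fixedField Γ) x :=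
  IsLocalization.lift_eq _ x

instance isScalarTower_loc :
    IsScalarTower (B0 C Γ) (Localization.AtPrime m) (fixedField Γ) :=
  IsScalarTower.of_algebraMap_eq fun x => (algebraMap_loc_algebraMap m x).symm

/-- **`(n0)`**: the fixed field is the fraction field of the local ring `(B_0)_m`. -/
theorem isFractionRing_localization (hD : FixData2 R Γ)
    (hF : Submodule.span K {f : F | IsFixed Γ f} = ⊤)
    (hstab : ∀ b, ∀ s ∈ Γ, ∀ f ∈ C.LN 0 b, s • f ∈ C.LN 0 b)
    [Algebra.IsAlgebraic (Algebra.adjoin K {C.t}) F] :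
    IsFractionRing (Localization.AtPrime m) (fixedField Γ) := by
  haveI := isFractionRing_B0 hD hF hstab
  exact IsFractionRing.isFractionRing_of_isDomain_of_isLocalization m.primeCompl
    (Localization.AtPrime m) (fixedField Γ)

end Loc

/-! ### The fixed constants are `W[1/ϖ]` -/

/-- every fixed constant becomes a fixed element of `A` after multiplication by a power of a
fixed element `ϖ ≠ 0` of the maximal ideal (rank one); with `ϖ = p`: `K_0 = W[1/p]`, the hypothesis
`hK0` of `tame_of_isNodeRing_of_places`. -/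
theorem exists_mul_pow_mem (R : RedSetup2 A S k (κ₁ × κ₂)) {ϖ : A} (hϖm : ϖ ∈ maximalIdeal A)
    (hϖfix : IsFixedK Γ (ϖ : K)) {c : K} (hc : IsFixedK Γ c) :
    ∃ (x : A) (n : ℕ), IsFixedK Γ (x : K) ∧ c * (ϖ : K) ^ n = (x : K) := by
  by_cases hcA : c ∈ A
  · exact ⟨⟨c, hcA⟩, 0, hc, by rw [pow_zero, mul_one]⟩
  · have hci : c⁻¹ ∈ A := (A.mem_or_inv_mem c).resolve_left hcA
    have hc0 : c ≠ 0 := fun h => hcA (h ▸ A.zero_mem)
    have hci0 : (⟨c⁻¹, hci⟩ : A) ≠ 0 := fun h =>
      inv_ne_zero hc0 (congrArg (fun z : A => (z : K)) h)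
    obtain ⟨j, a, ha⟩ := R.rank_one ϖ hϖm ⟨c⁻¹, hci⟩ hci0
    have haK : (ϖ : K) ^ j = c⁻¹ * (a : K) := by
      have := congrArg (fun z : A => (z : K)) ha
      simpa using this
    have hca : c * (ϖ : K) ^ j = (a : K) := by
      rw [haK, ← mul_assoc, mul_inv_cancel₀ hc0, one_mul]
    exact ⟨a, j, hca ▸ hc.mul (hϖfix.pow j), hca⟩

end Fermat.Agent.S40x.Node.NodeFrac

end
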