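import Mathlib
import Fermat.Agent.S40x.Edge.UFD

/-!
# S40/S44 project, block R1, leaf N2 (abstract half): the local ring of a node

Mathlib + the landed `S40x/Edge/UFD` only.  Hypothesis style, no instance.

`B` is a domain (the chart ring over the discrete valuation ring `O0`), `p u u' Ψ : B`,
`ρ1 : B →+* B1`, `ρ2 : B →+* B2` are the two reductions (onto the coordinate rings of the two
components of the special fibre), with

* `hker : ρ1 f = 0 → ρ2 f = 0 → p ∣ f` (the special fibre is reduced),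
* `hrel : u * u' = p * Ψ`, `ρ1 u = 0`, `ρ2 u' = 0`.

A *node* is a pair of prime ideals `m1`, `m2` of `B1`, `B2` with the same pull-back `m` to `B`,
such that the glue ideal is the point ideal locally (`hnode`, `hnode'`).  If `Ψ ∉ m`
(thickness one) then for `S` the localisation of `B` at `m`:

* `exists_mul_eq_of_rho1` / `exists_mul_eq_of_rho2`: `ρ1 f = 0 → ∃ c, Ψ * f = u * c`;
* `map_eq_zero_iff_dvd`: the kernel of the local reduction `r1 : S →+* D1` is `(u)`;
* `local_surjective`: `r1` is surjective;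
* `maximalIdeal_eq_span_pair`: the maximal ideal of `S` is `(u, u')`;
* `maximalIdeal_eq_span_red`: the maximal ideal of `D1` is generated by the image of `u'`;
* `isPrincipalIdealRing_of_maximalIdeal`: a Noetherian local domain with principal maximal ideal is
  a principal ideal ring;
* `ufm_local`, `prime_u`: `S` is a unique factorisation domain in which `u` is prime;
* `associated_of_prime_dvd_p`: a prime of `S` dividing `p` is associated to `u` or to `u'`.
-/

set_option autoImplicit false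
set_option linter.unusedSectionVars false

namespace Fermat.Agent.S40x.Node.NodeLocal

open Ideal IsLocalRing

/-! ### The global lemma (NODE-GEN) -/

section Gen

variable {B B1 B2 : Type*} [CommRing B] [IsDomain B] [CommRing B1] [CommRing B2]
  (ρ1 : B →+* B1) (ρ2 : B →+* B2) {p u u' Ψ : B}

/-- **NODE-GEN**: an element killed by `ρ1` becomes a multiple of `u` after multiplication
by `Ψ`. -/
theorem exists_mul_eq_of_rho1 (hp : p ≠ 0)
    (hker : ∀ f, ρ1 f = 0 → ρ2 f = 0 → p ∣ f) (hrel : u * u' = p * Ψ) (h2 : ρ2 u' = 0)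
    {f : B} (hf : ρ1 f = 0) : ∃ c, Ψ * f = u * c := by
  by_cases hu' : u' = 0
  · have h0 : Ψ = 0 := by
      have : p * Ψ = 0 := by rw [← hrel, hu', mul_zero]
      exact (mul_eq_zero.mp this).resolve_left hp
    exact ⟨0, by rw [h0]; ring⟩
  · obtain ⟨c, hc⟩ := hker (u' * f) (by rw [map_mul, hf, mul_zero])
      (by rw [map_mul, h2, zero_mul])
    refine ⟨c, mul_left_cancel₀ hu' ?_⟩
    calc u' * (Ψ * f) = Ψ * (u' * f) := by ring
      _ = Ψ * (p * c) := by rw [hc]
      _ = (p * Ψ) * c := by ring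
      _ = (u * u') * c := by rw [hrel]
      _ = u' * (u * c) := by ring

/-- **NODE-GEN**, mirrored. -/
theorem exists_mul_eq_of_rho2 (hp : p ≠ 0)
    (hker : ∀ f, ρ1 f = 0 → ρ2 f = 0 → p ∣ f) (hrel : u * u' = p * Ψ) (h1 : ρ1 u = 0)
    {f : B} (hf : ρ2 f = 0) : ∃ c, Ψ * f = u' * c :=
  exists_mul_eq_of_rho1 ρ2 ρ1 hp (fun f h2 h1 => hker f h1 h2)
    (by rw [mul_comm]; exact hrel) h1 hf

/-- The decomposition behind `(n1)`: if `ρ1 (s * b)` lifts to an element killed by `ρ2`, then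
`Ψ * s * b ∈ (u, u')`. -/
theorem exists_decomp (hp : p ≠ 0)
    (hker : ∀ f, ρ1 f = 0 → ρ2 f = 0 → p ∣ f) (hrel : u * u' = p * Ψ) (h1 : ρ1 u = 0)
    (h2 : ρ2 u' = 0) {b s z : B} (hz2 : ρ2 z = 0) (hz1 : ρ1 z = ρ1 (s * b)) :
    ∃ c c', Ψ * (s * b) = u * c + u' * c' := by
  obtain ⟨c', hc'⟩ := exists_mul_eq_of_rho2 ρ1 ρ2 hp hker hrel h1 hz2
  obtain ⟨c, hc⟩ := exists_mul_eq_of_rho1 ρ1 ρ2 hp hker hrel h2
    (f := s * b - z) (by rw [map_sub, hz1, sub_self])
  refine ⟨c, c', ?_⟩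
  rw [← hc, ← hc']
  ring

end Gen

/-! ### A Noetherian local domain with principal maximal ideal -/

section PID

theorem isPrincipalIdealRing_of_maximalIdeal (D : Type*) [CommRing D] [IsDomain D]
    [IsNoetherianRing D] [IsLocalRing D] (h : (maximalIdeal D).IsPrincipal) :
    IsPrincipalIdealRing D := by
  refine ⟨fun I => ?_⟩
  by_cases hI : I = ⊥
  · rw [hI]
    exact bot_isPrincipal
  · obtain ⟨n, hn⟩ := exists_maximalIdeal_pow_eq_of_principal D h I hI
    obtain ⟨x, hx⟩ := h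
    refine ⟨⟨x ^ n, ?_⟩⟩
    rw [hn, hx]
    change Ideal.span {x} ^ n = Ideal.span {x ^ n}
    rw [Ideal.span_singleton_pow]

end PID

/-! ### The local ring at a node -/

section Local

variable {B B1 B2 : Type*} [CommRing B] [IsDomain B] [CommRing B1] [IsDomain B1]
  [CommRing B2] [IsDomain B2]
  (ρ1 : B →+* B1) (ρ2 : B →+* B2) {p u u' Ψ : B}
  {S : Type*} [CommRing S] [Algebra B S] (m : Ideal B) [m.IsPrime] [IsLocalization.AtPrime S m]
  {D1 : Type*} [CommRing D1] [Algebra B1 D1] (m1 : Ideal B1) [m1.IsPrime]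
  [IsLocalization.AtPrime D1 m1]
  (r1 : S →+* D1)

/-- the local reduction kills exactly the multiples of `u` -/
theorem map_eq_zero_iff_dvd (hr1 : ∀ b, r1 (algebraMap B S b) = algebraMap B1 D1 (ρ1 b))
    (hinj : Function.Injective (algebraMap B1 D1)) (hp : p ≠ 0) (hker : ∀ f, ρ1 f = 0 → ρ2 f = 0 → p ∣ f) (hrel : u * u' = p * Ψ)
    (h1 : ρ1 u = 0) (h2 : ρ2 u' = 0) (hΨ : Ψ ∉ m) (x : S) :
    r1 x = 0 ↔ algebraMap B S u ∣ x := by
  constructor
  · intro hx
    obtain ⟨b, s, rfl⟩ := IsLocalization.exists_mk'_eq m.primeCompl x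
    have hs : IsUnit (algebraMap B S (s : B)) := IsLocalization.map_units S s
    have hΨu : IsUnit (algebraMap B S Ψ) :=
      IsLocalization.map_units S (⟨Ψ, hΨ⟩ : m.primeCompl)
    have hmul : IsLocalization.mk' S b s * algebraMap B S (s : B) = algebraMap B S b :=
      IsLocalization.mk'_spec S b s
    have hb0 : algebraMap B1 D1 (ρ1 b) = 0 := by
      rw [← hr1, ← hmul, map_mul, hx, zero_mul]
    have hb : ρ1 b = 0 := hinj (by rw [hb0, map_zero])
    obtain ⟨c, hc⟩ := exists_mul_eq_of_rho1 ρ1 ρ2 hp hker hrel h2 hb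
    have hS : algebraMap B S Ψ * algebraMap B S b = algebraMap B S u * algebraMap B S c := by
      rw [← map_mul, hc, map_mul]
    have hdvd : algebraMap B S u ∣ algebraMap B S b :=
      (hΨu.dvd_mul_left).mp ⟨_, hS⟩
    rw [← hmul] at hdvd
    exact (hs.dvd_mul_right).mp hdvd
  · rintro ⟨y, rfl⟩
    rw [map_mul, hr1, h1, map_zero, zero_mul]

/-- the local reduction is surjective -/
theorem local_surjective (hr1 : ∀ b, r1 (algebraMap B S b) = algebraMap B1 D1 (ρ1 b))
    (hsurj : Function.Surjective ρ1) (hm1 : m1.comap ρ1 = m) :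
    Function.Surjective r1 := by
  intro y
  obtain ⟨b1, s1, rfl⟩ := IsLocalization.exists_mk'_eq m1.primeCompl y
  obtain ⟨b, rfl⟩ := hsurj b1
  obtain ⟨s, hs⟩ := hsurj (s1 : B1)
  have hsm : s ∈ m.primeCompl := by
    intro hmem
    have hmem' : s ∈ m1.comap ρ1 := by rw [hm1]; exact hmem
    rw [Ideal.mem_comap, hs] at hmem'
    exact s1.2 hmem'
  refine ⟨IsLocalization.mk' S b ⟨s, hsm⟩, ?_⟩
  rw [IsLocalization.eq_mk'_iff_mul_eq, ← hs, ← hr1, ← map_mul]
  have : IsLocalization.mk' S b ⟨s, hsm⟩ * algebraMap B S s = algebraMap B S b :=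
    IsLocalization.mk'_spec S b ⟨s, hsm⟩
  rw [this, hr1]

variable [IsLocalRing S]

/-- **(n1)** the maximal ideal of the node ring is `(u, u')` -/
theorem maximalIdeal_eq_span_pair
    (hp : p ≠ 0) (hker : ∀ f, ρ1 f = 0 → ρ2 f = 0 → p ∣ f) (hrel : u * u' = p * Ψ)
    (h1 : ρ1 u = 0) (h2 : ρ2 u' = 0) (hΨ : Ψ ∉ m) (hum : u ∈ m) (hu'm : u' ∈ m)
    (hnode : ∀ b ∈ m, ∃ s ∉ m, ∃ z, ρ2 z = 0 ∧ ρ1 z = ρ1 (s * b)) :
    maximalIdeal S = Ideal.span {algebraMap B S u, algebraMap B S u'} := by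
  apply le_antisymm
  · rw [← IsLocalization.AtPrime.map_eq_maximalIdeal m S, Ideal.map_le_iff_le_comap]
    intro b hb
    rw [Ideal.mem_comap]
    obtain ⟨s, hs, z, hz2, hz1⟩ := hnode b hb
    obtain ⟨c, c', hcc⟩ := exists_decomp ρ1 ρ2 hp hker hrel h1 h2 hz2 hz1
    have hunit : IsUnit (algebraMap B S (Ψ * s)) :=
      IsLocalization.map_units S (⟨Ψ * s, (m.primeCompl).mul_mem hΨ hs⟩ : m.primeCompl)
    have hS : algebraMap B S (Ψ * s) * algebraMap B S b =
        algebraMap B S u * algebraMap B S c + algebraMap B S u' * algebraMap B S c' := by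
      rw [← map_mul, ← map_mul, ← map_mul, ← map_add, ← hcc]
      congr 1
      ring
    have hmem : algebraMap B S (Ψ * s) * algebraMap B S b ∈
        Ideal.span {algebraMap B S u, algebraMap B S u'} := by
      rw [hS]
      refine Ideal.add_mem _ (Ideal.mul_mem_right _ _ (Ideal.subset_span (by simp)))
        (Ideal.mul_mem_right _ _ (Ideal.subset_span (by simp)))
    obtain ⟨v, hv⟩ := hunit.exists_left_inv
    have : algebraMap B S b = v * (algebraMap B S (Ψ * s) * algebraMap B S b) := by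
      rw [← mul_assoc, hv, one_mul]
    rw [this]
    exact Ideal.mul_mem_left _ _ hmem
  · rw [Ideal.span_le]
    rintro x (rfl | rfl)
    · exact (IsLocalization.AtPrime.to_map_mem_maximal_iff S m u).mpr hum
    · exact (IsLocalization.AtPrime.to_map_mem_maximal_iff S m u').mpr hu'm

/-- **(n3)** the maximal ideal of the local ring of the component at the node is generated by
the reduction of `u'` -/
theorem maximalIdeal_eq_span_red [IsLocalRing D1]
    (hsurj : Function.Surjective ρ1) (hm1 : m1.comap ρ1 = m)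
    (hp : p ≠ 0) (hker : ∀ f, ρ1 f = 0 → ρ2 f = 0 → p ∣ f) (hrel : u * u' = p * Ψ)
    (h1 : ρ1 u = 0) (h2 : ρ2 u' = 0) (hΨ : Ψ ∉ m) (hu'm : u' ∈ m)
    (hnode : ∀ b ∈ m, ∃ s ∉ m, ∃ z, ρ2 z = 0 ∧ ρ1 z = ρ1 (s * b)) :
    maximalIdeal D1 = Ideal.span {algebraMap B1 D1 (ρ1 u')} := by
  apply le_antisymm
  · rw [← IsLocalization.AtPrime.map_eq_maximalIdeal m1 D1, Ideal.map_le_iff_le_comap]
    intro t ht
    rw [Ideal.mem_comap]
    obtain ⟨b, rfl⟩ := hsurj t
    have hb : b ∈ m := by rw [← hm1]; exact ht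
    obtain ⟨s, hs, z, hz2, hz1⟩ := hnode b hb
    obtain ⟨c, c', hcc⟩ := exists_decomp ρ1 ρ2 hp hker hrel h1 h2 hz2 hz1
    have h := congrArg ρ1 hcc
    rw [map_add, map_mul ρ1 u, h1, zero_mul, zero_add, map_mul ρ1 u'] at h
    have hΨs : ρ1 (Ψ * s) ∈ m1.primeCompl := by
      intro hmem
      have : Ψ * s ∈ m := by rw [← hm1]; exact hmem
      exact (m.primeCompl).mul_mem hΨ hs this
    have hunit : IsUnit (algebraMap B1 D1 (ρ1 (Ψ * s))) :=
      IsLocalization.map_units D1 (⟨_, hΨs⟩ : m1.primeCompl)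
    have hD : algebraMap B1 D1 (ρ1 (Ψ * s)) * algebraMap B1 D1 (ρ1 b) =
        algebraMap B1 D1 (ρ1 u') * algebraMap B1 D1 (ρ1 c') := by
      rw [← map_mul, ← map_mul, ← map_mul, ← h]
      congr 2
      ring
    obtain ⟨v, hv⟩ := hunit.exists_left_inv
    have : algebraMap B1 D1 (ρ1 b) =
        v * (algebraMap B1 D1 (ρ1 (Ψ * s)) * algebraMap B1 D1 (ρ1 b)) := by
      rw [← mul_assoc, hv, one_mul]
    rw [this, hD]
    exact Ideal.mul_mem_left _ _ (Ideal.mul_mem_right _ _ (Ideal.mem_span_singleton_self _))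
  · rw [Ideal.span_le]
    rintro x rfl
    refine (IsLocalization.AtPrime.to_map_mem_maximal_iff D1 m1 (ρ1 u')).mpr ?_
    have : u' ∈ m1.comap ρ1 := by rw [hm1]; exact hu'm
    exact this

/-- `u ≠ 0` -/
theorem u_ne_zero (hp : p ≠ 0) (hrel : u * u' = p * Ψ) (hΨ : Ψ ∉ m) : u ≠ 0 := by
  rintro rfl
  rw [zero_mul] at hrel
  rcases mul_eq_zero.mp hrel.symm with h | h
  · exact hp h
  · exact hΨ (h ▸ m.zero_mem)

/-- `u' ≠ 0` -/
theorem u'_ne_zero (hp : p ≠ 0) (hrel : u * u' = p * Ψ) (hΨ : Ψ ∉ m) : u' ≠ 0 := by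
  rintro rfl
  rw [mul_zero] at hrel
  rcases mul_eq_zero.mp hrel.symm with h | h
  · exact hp h
  · exact hΨ (h ▸ m.zero_mem)

/-- **(n2)** `u` is a prime element of the node ring (no Noetherian hypothesis) -/
theorem prime_u [IsDomain D1]
    (hr1 : ∀ b, r1 (algebraMap B S b) = algebraMap B1 D1 (ρ1 b))
    (hinj : Function.Injective (algebraMap B1 D1)) (hp : p ≠ 0)
    (hker : ∀ f, ρ1 f = 0 → ρ2 f = 0 → p ∣ f) (hrel : u * u' = p * Ψ)
    (h1 : ρ1 u = 0) (h2 : ρ2 u' = 0) (hΨ : Ψ ∉ m) :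
    Prime (algebraMap B S u) := by
  have : IsDomain S := IsLocalization.isDomain_of_atPrime S m
  have hinjS : Function.Injective (algebraMap B S) :=
    IsLocalization.injective S (Ideal.primeCompl_le_nonZeroDivisors m)
  have hu0 : algebraMap B S u ≠ 0 := fun h0 =>
    u_ne_zero m hp hrel hΨ (hinjS (by rw [h0, map_zero]))
  exact Edge.prime_of_red hu0 r1
    (map_eq_zero_iff_dvd ρ1 ρ2 m r1 hr1 hinj hp hker hrel h1 h2 hΨ)

/-- **(U)** the node ring is a unique factorisation domain -/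
theorem ufm_local [IsNoetherianRing B] [IsLocalRing D1]
    (hr1 : ∀ b, r1 (algebraMap B S b) = algebraMap B1 D1 (ρ1 b))
    (hsurj : Function.Surjective ρ1) (hm1 : m1.comap ρ1 = m)
    (hp : p ≠ 0) (hker : ∀ f, ρ1 f = 0 → ρ2 f = 0 → p ∣ f) (hrel : u * u' = p * Ψ)
    (h1 : ρ1 u = 0) (h2 : ρ2 u' = 0) (hΨ : Ψ ∉ m) (hu'm : u' ∈ m)
    (hnode : ∀ b ∈ m, ∃ s ∉ m, ∃ z, ρ2 z = 0 ∧ ρ1 z = ρ1 (s * b)) :
    UniqueFactorizationMonoid S := by
  have : IsDomain S := IsLocalization.isDomain_of_atPrime S m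
  have : IsDomain D1 := IsLocalization.isDomain_of_atPrime D1 m1
  have : IsNoetherianRing S := IsLocalization.isNoetherianRing m.primeCompl S inferInstance
  have : IsNoetherianRing B1 := isNoetherianRing_of_surjective B B1 ρ1 hsurj
  have : IsNoetherianRing D1 := IsLocalization.isNoetherianRing m1.primeCompl D1 inferInstance
  have hinj : Function.Injective (algebraMap B1 D1) :=
    IsLocalization.injective D1 (Ideal.primeCompl_le_nonZeroDivisors m1)
  have hinjS : Function.Injective (algebraMap B S) :=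
    IsLocalization.injective S (Ideal.primeCompl_le_nonZeroDivisors m)
  have hum : u ∈ m := by
    have : u ∈ m1.comap ρ1 := by rw [Ideal.mem_comap, h1]; exact m1.zero_mem
    rwa [hm1] at this
  have hprinc : (maximalIdeal D1).IsPrincipal :=
    ⟨⟨_, maximalIdeal_eq_span_red ρ1 ρ2 m m1 hsurj hm1 hp hker hrel h1 h2 hΨ hu'm hnode⟩⟩
  have : IsPrincipalIdealRing D1 := isPrincipalIdealRing_of_maximalIdeal D1 hprinc
  have hu0 : algebraMap B S u ≠ 0 := fun h0 =>
    u_ne_zero m hp hrel hΨ (hinjS (by rw [h0, map_zero]))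
  exact Edge.ufm_of_red_of_isLocalRing hu0
    ((IsLocalization.AtPrime.to_map_mem_maximal_iff S m u).mpr hum) r1
    (map_eq_zero_iff_dvd ρ1 ρ2 m r1 hr1 hinj hp hker hrel h1 h2 hΨ)
    (local_surjective ρ1 m m1 r1 hr1 hsurj hm1)

/-- `Ψ` is a unit of the node ring -/
theorem isUnit_psi (hΨ : Ψ ∉ m) : IsUnit (algebraMap B S Ψ) :=
  IsLocalization.map_units S (⟨Ψ, hΨ⟩ : m.primeCompl)

end Local

/-- **(n4), first half**: a prime element of the node ring which divides `p` is associated to `u`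
or to `u'` (so `p` is a unit at every other prime) -/
theorem associated_of_prime_dvd_p {B S : Type*} [CommRing B] [CommRing S] [IsDomain S]
    [Algebra B S] {p u u' Ψ : B} (hrel : u * u' = p * Ψ)
    (hu : Prime (algebraMap B S u)) (hu' : Prime (algebraMap B S u'))
    {π : S} (hπ : Prime π) (hdvd : π ∣ algebraMap B S p) :
    Associated π (algebraMap B S u) ∨ Associated π (algebraMap B S u') := by
  have h : π ∣ algebraMap B S u * algebraMap B S u' := by
    rw [← map_mul, hrel, map_mul]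
    exact Dvd.dvd.mul_right hdvd _
  rcases hπ.dvd_or_dvd h with h | h
  · exact Or.inl (hπ.associated_of_dvd hu h)
  · exact Or.inr (hπ.associated_of_dvd hu' h)


/-! ### Existence of the local reduction -/

section Exist

variable {B B1 : Type*} [CommRing B] [CommRing B1] (ρ1 : B →+* B1)
  (S : Type*) [CommRing S] [Algebra B S] (m : Ideal B) [m.IsPrime] [IsLocalization.AtPrime S m]
  (D1 : Type*) [CommRing D1] [Algebra B1 D1] (m1 : Ideal B1) [m1.IsPrime]
  [IsLocalization.AtPrime D1 m1]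

theorem exists_local_red (hm1 : m1.comap ρ1 = m) :
    ∃ r1 : S →+* D1, ∀ b, r1 (algebraMap B S b) = algebraMap B1 D1 (ρ1 b) := by
  have hle : m.primeCompl ≤ m1.primeCompl.comap ρ1 := by
    intro x hx hmem
    apply hx
    have : x ∈ m1.comap ρ1 := hmem
    rwa [hm1] at this
  exact ⟨IsLocalization.map D1 ρ1 hle, fun b => IsLocalization.map_eq hle b⟩

end Exist

/-! ### The hypothesis `hnode` from reducedness of the glue ring -/

section Reduced

/-- In a reduced Artinian quotient, an element of a prime is killed by an element outside it. -/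
theorem exists_mul_map_eq_zero {A R' : Type*} [CommRing A] [CommRing R'] [IsArtinianRing R']
    [IsReduced R'] (φ : A →+* R') (hφ : Function.Surjective φ) (n : Ideal R') [n.IsPrime]
    {t : A} (ht : φ t ∈ n) : ∃ s, φ s ∉ n ∧ φ (s * t) = 0 := by
  have hF : IsField (Localization.AtPrime n) :=
    IsArtinianRing.isField_of_isReduced_of_isLocalRing (Localization.AtPrime n)
  have hmem : algebraMap R' (Localization.AtPrime n) (φ t) ∈
      maximalIdeal (Localization.AtPrime n) :=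
    (IsLocalization.AtPrime.to_map_mem_maximal_iff (Localization.AtPrime n) n (φ t)).mpr ht
  have h0 : algebraMap R' (Localization.AtPrime n) (φ t) = 0 := by
    by_contra hne
    let _ := hF.toField
    exact hmem (IsUnit.mk0 _ hne)
  obtain ⟨c, hc⟩ := (IsLocalization.map_eq_zero_iff n.primeCompl (Localization.AtPrime n) _).mp h0
  obtain ⟨s, hs⟩ := hφ (c : R')
  exact ⟨s, by rw [hs]; exact c.2, by rw [map_mul, hs]; exact hc⟩

end Reduced

/-! ### Goursat form: the nodes are the primes of the reduced Artinian glue ring `R'` -/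

section Glue

variable {B B1 B2 R' : Type*} [CommRing B] [CommRing B1] [CommRing B2] [CommRing R']
  (ρ1 : B →+* B1) (ρ2 : B →+* B2) (φ1 : B1 →+* R') (φ2 : B2 →+* R')

/-- the two branches of a node have the same pull-back to `B` -/
theorem comap_eq_of_glue (hglue : ∀ b, φ1 (ρ1 b) = φ2 (ρ2 b)) (n : Ideal R') :
    (n.comap φ1).comap ρ1 = (n.comap φ2).comap ρ2 := by
  ext b
  simp only [Ideal.mem_comap, hglue]

/-- `hnode` for the first branch -/
theorem hnode_of_glue [IsArtinianRing R'] [IsReduced R']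
    (hsurj1 : Function.Surjective ρ1) (hφ1 : Function.Surjective φ1)
    (hlift : ∀ f1 f2, φ1 f1 = φ2 f2 → ∃ z, ρ1 z = f1 ∧ ρ2 z = f2)
    (n : Ideal R') [n.IsPrime] :
    ∀ b ∈ (n.comap φ1).comap ρ1, ∃ s ∉ (n.comap φ1).comap ρ1, ∃ z,
      ρ2 z = 0 ∧ ρ1 z = ρ1 (s * b) := by
  intro b hb
  have hb' : φ1 (ρ1 b) ∈ n := hb
  obtain ⟨s1, hs1, h0⟩ := exists_mul_map_eq_zero φ1 hφ1 n hb'
  obtain ⟨s, rfl⟩ := hsurj1 s1
  refine ⟨s, hs1, ?_⟩
  obtain ⟨z, hz1, hz2⟩ := hlift (ρ1 (s * b)) 0 (by rw [map_mul, h0, map_zero])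
  exact ⟨z, hz2, hz1⟩

/-- `hnode` for the second branch -/
theorem hnode_of_glue' [IsArtinianRing R'] [IsReduced R']
    (hsurj2 : Function.Surjective ρ2) (hφ2 : Function.Surjective φ2)
    (hlift : ∀ f1 f2, φ1 f1 = φ2 f2 → ∃ z, ρ1 z = f1 ∧ ρ2 z = f2)
    (n : Ideal R') [n.IsPrime] :
    ∀ b ∈ (n.comap φ2).comap ρ2, ∃ s ∉ (n.comap φ2).comap ρ2, ∃ z,
      ρ1 z = 0 ∧ ρ2 z = ρ2 (s * b) :=
  hnode_of_glue ρ2 ρ1 φ2 φ1 hsurj2 hφ2
    (fun f2 f1 h => by
      obtain ⟨z, h1, h2⟩ := hlift f1 f2 h.symm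
      exact ⟨z, h2, h1⟩) n

end Glue

/-! ### Summary: the node datum from the glue hypotheses -/

section Summary

variable {B B1 B2 : Type*} [CommRing B] [IsDomain B] [IsNoetherianRing B]
  [CommRing B1] [IsDomain B1] [CommRing B2] [IsDomain B2]
  (ρ1 : B →+* B1) (ρ2 : B →+* B2) {p u u' Ψ : B}
  (m : Ideal B) [m.IsPrime] (m1 : Ideal B1) [m1.IsPrime] (m2 : Ideal B2) [m2.IsPrime]

/-- **(N-OUT), abstract form** for the concrete localisations `S = B_m`, `D1 = (B1)_{m1}`,
`D2 = (B2)_{m2}`. -/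
theorem node_datum
    (hsurj1 : Function.Surjective ρ1) (hsurj2 : Function.Surjective ρ2)
    (hm1 : m1.comap ρ1 = m) (hm2 : m2.comap ρ2 = m)
    (hp : p ≠ 0) (hker : ∀ f, ρ1 f = 0 → ρ2 f = 0 → p ∣ f) (hrel : u * u' = p * Ψ)
    (h1 : ρ1 u = 0) (h2 : ρ2 u' = 0) (hΨ : Ψ ∉ m)
    (hnode : ∀ b ∈ m, ∃ s ∉ m, ∃ z, ρ2 z = 0 ∧ ρ1 z = ρ1 (s * b))
    (hnode' : ∀ b ∈ m, ∃ s ∉ m, ∃ z, ρ1 z = 0 ∧ ρ2 z = ρ2 (s * b)) :
    ∃ (r1 : Localization.AtPrime m →+* Localization.AtPrime m1)
      (r2 : Localization.AtPrime m →+* Localization.AtPrime m2),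
      (∀ b, r1 (algebraMap B _ b) = algebraMap B1 _ (ρ1 b)) ∧
      (∀ b, r2 (algebraMap B _ b) = algebraMap B2 _ (ρ2 b)) ∧
      Function.Surjective r1 ∧ Function.Surjective r2 ∧
      (∀ x, r1 x = 0 ↔ algebraMap B (Localization.AtPrime m) u ∣ x) ∧
      (∀ x, r2 x = 0 ↔ algebraMap B (Localization.AtPrime m) u' ∣ x) ∧
      UniqueFactorizationMonoid (Localization.AtPrime m) ∧
      Prime (algebraMap B (Localization.AtPrime m) u) ∧
      Prime (algebraMap B (Localization.AtPrime m) u') ∧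
      IsUnit (algebraMap B (Localization.AtPrime m) Ψ) ∧
      maximalIdeal (Localization.AtPrime m) =
        Ideal.span {algebraMap B (Localization.AtPrime m) u,
          algebraMap B (Localization.AtPrime m) u'} ∧
      maximalIdeal (Localization.AtPrime m1) = Ideal.span {r1 (algebraMap B _ u')} ∧
      maximalIdeal (Localization.AtPrime m2) = Ideal.span {r2 (algebraMap B _ u)} ∧
      IsPrincipalIdealRing (Localization.AtPrime m1) ∧
      IsPrincipalIdealRing (Localization.AtPrime m2) := by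
  obtain ⟨r1, hr1⟩ := exists_local_red ρ1 (Localization.AtPrime m) m
    (Localization.AtPrime m1) m1 hm1
  obtain ⟨r2, hr2⟩ := exists_local_red ρ2 (Localization.AtPrime m) m
    (Localization.AtPrime m2) m2 hm2
  have hinj1 : Function.Injective (algebraMap B1 (Localization.AtPrime m1)) :=
    IsLocalization.injective _ (Ideal.primeCompl_le_nonZeroDivisors m1)
  have hinj2 : Function.Injective (algebraMap B2 (Localization.AtPrime m2)) :=
    IsLocalization.injective _ (Ideal.primeCompl_le_nonZeroDivisors m2)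
  have hker' : ∀ f, ρ2 f = 0 → ρ1 f = 0 → p ∣ f := fun f a b => hker f b a
  have hrel' : u' * u = p * Ψ := by rw [mul_comm]; exact hrel
  have hum : u ∈ m := by
    have : u ∈ m1.comap ρ1 := by rw [Ideal.mem_comap, h1]; exact m1.zero_mem
    rwa [hm1] at this
  have hu'm : u' ∈ m := by
    have : u' ∈ m2.comap ρ2 := by rw [Ideal.mem_comap, h2]; exact m2.zero_mem
    rwa [hm2] at this
  have : IsDomain (Localization.AtPrime m1) := IsLocalization.isDomain_of_atPrime _ m1
  have : IsDomain (Localization.AtPrime m2) := IsLocalization.isDomain_of_atPrime _ m2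
  have : IsNoetherianRing B1 := isNoetherianRing_of_surjective B B1 ρ1 hsurj1
  have : IsNoetherianRing B2 := isNoetherianRing_of_surjective B B2 ρ2 hsurj2
  have : IsNoetherianRing (Localization.AtPrime m1) :=
    IsLocalization.isNoetherianRing m1.primeCompl _ inferInstance
  have : IsNoetherianRing (Localization.AtPrime m2) :=
    IsLocalization.isNoetherianRing m2.primeCompl _ inferInstance
  have e1 : maximalIdeal (Localization.AtPrime m1) = Ideal.span {r1 (algebraMap B _ u')} := by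
    rw [hr1]
    exact maximalIdeal_eq_span_red ρ1 ρ2 m m1 hsurj1 hm1 hp hker hrel h1 h2 hΨ hu'm hnode
  have e2 : maximalIdeal (Localization.AtPrime m2) = Ideal.span {r2 (algebraMap B _ u)} := by
    rw [hr2]
    exact maximalIdeal_eq_span_red ρ2 ρ1 m m2 hsurj2 hm2 hp hker' hrel' h2 h1 hΨ hum hnode'
  refine ⟨r1, r2, hr1, hr2, local_surjective ρ1 m m1 r1 hr1 hsurj1 hm1,
    local_surjective ρ2 m m2 r2 hr2 hsurj2 hm2,
    map_eq_zero_iff_dvd ρ1 ρ2 m r1 hr1 hinj1 hp hker hrel h1 h2 hΨ,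
    map_eq_zero_iff_dvd ρ2 ρ1 m r2 hr2 hinj2 hp hker' hrel' h2 h1 hΨ,
    ufm_local ρ1 ρ2 m m1 r1 hr1 hsurj1 hm1 hp hker hrel h1 h2 hΨ hu'm hnode,
    prime_u ρ1 ρ2 m r1 hr1 hinj1 hp hker hrel h1 h2 hΨ,
    prime_u ρ2 ρ1 m r2 hr2 hinj2 hp hker' hrel' h2 h1 hΨ,
    isUnit_psi m hΨ,
    maximalIdeal_eq_span_pair ρ1 ρ2 m hp hker hrel h1 h2 hΨ hum hu'm hnode, e1, e2,
    isPrincipalIdealRing_of_maximalIdeal _ ⟨⟨_, e1⟩⟩,
    isPrincipalIdealRing_of_maximalIdeal _ ⟨⟨_, e2⟩⟩⟩

end Summary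

end Fermat.Agent.S40x.Node.NodeLocal
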