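import Mathlib
import Fermat.Agent.S40x.Node.NodeLocal
import Fermat.Agent.S40x.Node.NodeDatum
import Fermat.Prelude.Def_AlgebraicCurve_DivisorClassGroup

/-!
# S40/S44 project, block R1, leaf N2 (abstract half, continued): `IsNodeRing` from the glue
hypotheses, and the valuation half `(v1)`

Mathlib + the landed `S40x/Node/NodeLocal`, `S40x/Node/NodeDatum` only.

* `isNodeRing` : in the setting of `Node/NodeLocal` with `p = (q : B)`, `q : ℕ`, and `ρ1 u' ≠ 0`,
  the localisation `S` of the chart ring `B` at the node ideal `m` satisfies the literal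
  `IsNodeRing S q u u'` of `Node/NodeDatum` (the seam to the UFD and edge lemmas).
* `isNodeRing_localization` : the same for `S = Localization.AtPrime m`, `B` Noetherian.
* `(v1)` for a valuation subring `O` of a field `F0 ⊇ S` which contains `B` and in which every
  element of `B` with non-zero reduction is a unit:
  `algebraMap_mem`, `inv_mem_of_not_dvd`, `valuation_le_one`, `valuation_eq_one_of_not_dvd`,
  `valuation_lt_one_iff_dvd` (so `O ∩ Frac S` is the localisation of `S` at the prime `(u)` and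
  the `u`-adic multiplicity is the normalised valuation).
* weak `(n3)` for a place `P` of the residue field `κ` and the reduction `ρ : S →+* κ`:
  `ord_map_unit`, `ord_map_u'_eq_one` (`P.ord (ρ u') = 1` from ONE element of order one),
  `exists_decomp_of_not_dvd` (`r = ε * u' ^ n + u * y` for `r ∉ (u)`), `ord_map_eq_of_decomp`,
  `exists_ord_map_eq` (the order at `P` of the reduction is the `u'`-adic order modulo `u`).
-/

set_option autoImplicit false
set_option linter.unusedSectionVars false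

namespace Fermat.Agent.S40x.Node.NodeLocalDatum

open IsLocalRing
open Fermat.Agent.S40x.Node
open Fermat.Agent.S40x.Node.NodeLocal

section Ring

variable {B B1 B2 : Type*} [CommRing B] [IsDomain B] [CommRing B1] [IsDomain B1]
  [CommRing B2] [IsDomain B2]
  (ρ1 : B →+* B1) (ρ2 : B →+* B2) {u u' Ψ : B} (q : ℕ)
  {S : Type*} [CommRing S] [IsDomain S] [IsNoetherianRing S] [IsLocalRing S] [Algebra B S]
  (m : Ideal B) [m.IsPrime] [IsLocalization.AtPrime S m]
  {D1 : Type*} [CommRing D1] [IsDomain D1] [Algebra B1 D1]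
  {D2 : Type*} [CommRing D2] [IsDomain D2] [Algebra B2 D2]
  (r1 : S →+* D1) (r2 : S →+* D2)

/-- **(N-OUT), ring-theoretic half**, from the glue hypotheses. -/
theorem isNodeRing
    (hr1 : ∀ b, r1 (algebraMap B S b) = algebraMap B1 D1 (ρ1 b))
    (hr2 : ∀ b, r2 (algebraMap B S b) = algebraMap B2 D2 (ρ2 b))
    (hinj1 : Function.Injective (algebraMap B1 D1))
    (hinj2 : Function.Injective (algebraMap B2 D2))
    (hq : (q : B) ≠ 0) (hker : ∀ f, ρ1 f = 0 → ρ2 f = 0 → (q : B) ∣ f)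
    (hrel : u * u' = (q : B) * Ψ) (h1 : ρ1 u = 0) (h2 : ρ2 u' = 0) (hΨ : Ψ ∉ m)
    (hum : u ∈ m) (hu'm : u' ∈ m) (hu'1 : ρ1 u' ≠ 0)
    (hnode : ∀ b ∈ m, ∃ s ∉ m, ∃ z, ρ2 z = 0 ∧ ρ1 z = ρ1 (s * b)) :
    IsNodeRing S q (algebraMap B S u) (algebraMap B S u') where
  mul_eq := by
    refine ⟨(isUnit_psi (S := S) m hΨ).unit, ?_⟩
    rw [IsUnit.unit_spec, ← map_mul, hrel, map_mul, map_natCast]
  maximalIdeal_eq :=
    maximalIdeal_eq_span_pair ρ1 ρ2 m hq hker hrel h1 h2 hΨ hum hu'm hnode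
  prime_u := prime_u ρ1 ρ2 m r1 hr1 hinj1 hq hker hrel h1 h2 hΨ
  prime_u' := prime_u ρ2 ρ1 m r2 hr2 hinj2 hq (fun f a b => hker f b a)
    (by rw [mul_comm]; exact hrel) h2 h1 hΨ
  not_associated := by
    intro hass
    have hd : algebraMap B S u ∣ algebraMap B S u' := hass.dvd
    have h0 : r1 (algebraMap B S u') = 0 :=
      (map_eq_zero_iff_dvd ρ1 ρ2 m r1 hr1 hinj1 hq hker hrel h1 h2 hΨ _).mpr hd
    rw [hr1] at h0
    exact hu'1 (hinj1 (by rw [h0, map_zero]))

end Ring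

section Concrete

variable {B B1 B2 : Type*} [CommRing B] [IsDomain B] [IsNoetherianRing B]
  [CommRing B1] [IsDomain B1] [CommRing B2] [IsDomain B2]
  (ρ1 : B →+* B1) (ρ2 : B →+* B2) {u u' Ψ : B} (q : ℕ)
  (m : Ideal B) [m.IsPrime]

/-- `IsNodeRing` for the concrete localisation `B_m`; the auxiliary targets of the local
reductions are the fraction fields of `B1`, `B2`, so no node ideals of `B1`, `B2` are needed:
`hker1 : ρ1 b = 0 → b ∈ m` and `hker2`. -/
theorem isNodeRing_localization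
    (hker1 : ∀ b, ρ1 b = 0 → b ∈ m) (hker2 : ∀ b, ρ2 b = 0 → b ∈ m)
    (hq : (q : B) ≠ 0) (hker : ∀ f, ρ1 f = 0 → ρ2 f = 0 → (q : B) ∣ f)
    (hrel : u * u' = (q : B) * Ψ) (h1 : ρ1 u = 0) (h2 : ρ2 u' = 0) (hΨ : Ψ ∉ m)
    (hu'1 : ρ1 u' ≠ 0)
    (hnode : ∀ b ∈ m, ∃ s ∉ m, ∃ z, ρ2 z = 0 ∧ ρ1 z = ρ1 (s * b)) :
    IsNodeRing (Localization.AtPrime m) q (algebraMap B _ u) (algebraMap B _ u') := by
  have hle1 : m.primeCompl ≤ (nonZeroDivisors B1).comap ρ1 := by
    intro x hx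
    rw [Submonoid.mem_comap, mem_nonZeroDivisors_iff_ne_zero]
    exact fun h0 => hx (hker1 x h0)
  have hle2 : m.primeCompl ≤ (nonZeroDivisors B2).comap ρ2 := by
    intro x hx
    rw [Submonoid.mem_comap, mem_nonZeroDivisors_iff_ne_zero]
    exact fun h0 => hx (hker2 x h0)
  exact isNodeRing ρ1 ρ2 q m
    (IsLocalization.map (FractionRing B1) ρ1 hle1 : Localization.AtPrime m →+* FractionRing B1)
    (IsLocalization.map (FractionRing B2) ρ2 hle2 : Localization.AtPrime m →+* FractionRing B2)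
    (fun b => IsLocalization.map_eq hle1 b) (fun b => IsLocalization.map_eq hle2 b)
    (IsFractionRing.injective B1 _) (IsFractionRing.injective B2 _)
    hq hker hrel h1 h2 hΨ (hker1 u h1) (hker2 u' h2) hu'1 hnode

end Concrete

/-! ### The valuation half `(v1)` -/

section Val

variable {B B1 B2 : Type*} [CommRing B] [IsDomain B] [CommRing B1] [CommRing B2]
  (ρ1 : B →+* B1) (ρ2 : B →+* B2) {p u u' Ψ : B}
  {S : Type*} [CommRing S] [Algebra B S] (m : Ideal B) [m.IsPrime] [IsLocalization.AtPrime S m]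
  {F0 : Type*} [Field F0] [Algebra B F0] [Algebra S F0] [IsScalarTower B S F0]
  (O : ValuationSubring F0)

/-- an element of `S` is a quotient `b / s` in `F0` -/
theorem exists_eq_div (hinjF : Function.Injective (algebraMap B F0)) (x : S) :
    ∃ b s : B, s ∉ m ∧ x * algebraMap B S s = algebraMap B S b ∧
      algebraMap B F0 s ≠ 0 ∧ algebraMap S F0 x = algebraMap B F0 b * (algebraMap B F0 s)⁻¹ := by
  obtain ⟨b, s, rfl⟩ := IsLocalization.exists_mk'_eq m.primeCompl x
  have hmul : IsLocalization.mk' S b s * algebraMap B S (s : B) = algebraMap B S b :=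
    IsLocalization.mk'_spec S b s
  have hs0 : algebraMap B F0 (s : B) ≠ 0 := by
    intro h0
    have : (s : B) = 0 := hinjF (by rw [h0, map_zero])
    exact s.2 (this ▸ m.zero_mem)
  refine ⟨b, s, s.2, hmul, hs0, ?_⟩
  have h := congrArg (algebraMap S F0) hmul
  rw [map_mul, ← IsScalarTower.algebraMap_apply, ← IsScalarTower.algebraMap_apply] at h
  rw [← h, mul_assoc, mul_inv_cancel₀ hs0, mul_one]

/-- **(v1), first half**: `S ⊆ O`. -/
theorem algebraMap_mem (hinjF : Function.Injective (algebraMap B F0))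
    (hB : ∀ b : B, algebraMap B F0 b ∈ O)
    (hρ : ∀ b : B, ρ1 b ≠ 0 → (algebraMap B F0 b)⁻¹ ∈ O)
    (hker1 : ∀ b, ρ1 b = 0 → b ∈ m) (x : S) : algebraMap S F0 x ∈ O := by
  obtain ⟨b, s, hs, -, -, hx⟩ := exists_eq_div m hinjF x
  rw [hx]
  exact mul_mem (hB b) (hρ s fun h0 => hs (hker1 s h0))

/-- **(v1), second half**: an element of `S` not divisible by `u` is a unit of `O`. -/
theorem inv_mem_of_not_dvd (hinjF : Function.Injective (algebraMap B F0))
    (hB : ∀ b : B, algebraMap B F0 b ∈ O)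
    (hρ : ∀ b : B, ρ1 b ≠ 0 → (algebraMap B F0 b)⁻¹ ∈ O)
    (hp : p ≠ 0) (hker : ∀ f, ρ1 f = 0 → ρ2 f = 0 → p ∣ f) (hrel : u * u' = p * Ψ)
    (h2 : ρ2 u' = 0) (hΨ : Ψ ∉ m) {x : S} (hx : ¬ algebraMap B S u ∣ x) :
    (algebraMap S F0 x)⁻¹ ∈ O := by
  obtain ⟨b, s, hs, hmul, hs0, hxF⟩ := exists_eq_div m hinjF x
  have hb : ρ1 b ≠ 0 := by
    intro hb0
    apply hx
    obtain ⟨c, hc⟩ := exists_mul_eq_of_rho1 ρ1 ρ2 hp hker hrel h2 hb0
    have hΨu : IsUnit (algebraMap B S Ψ) :=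
      IsLocalization.map_units S (⟨Ψ, hΨ⟩ : m.primeCompl)
    have hsu : IsUnit (algebraMap B S s) :=
      IsLocalization.map_units S (⟨s, hs⟩ : m.primeCompl)
    have hS : algebraMap B S Ψ * algebraMap B S b = algebraMap B S u * algebraMap B S c := by
      rw [← map_mul, hc, map_mul]
    have hdvd : algebraMap B S u ∣ algebraMap B S b := (hΨu.dvd_mul_left).mp ⟨_, hS⟩
    rw [← hmul] at hdvd
    exact (hsu.dvd_mul_right).mp hdvd
  rw [hxF, mul_inv, inv_inv]
  exact mul_mem (hρ b hb) (hB s)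

theorem valuation_le_one (hinjF : Function.Injective (algebraMap B F0))
    (hB : ∀ b : B, algebraMap B F0 b ∈ O)
    (hρ : ∀ b : B, ρ1 b ≠ 0 → (algebraMap B F0 b)⁻¹ ∈ O)
    (hker1 : ∀ b, ρ1 b = 0 → b ∈ m) (x : S) : O.valuation (algebraMap S F0 x) ≤ 1 :=
  (O.valuation_le_one_iff _).mpr (algebraMap_mem ρ1 m O hinjF hB hρ hker1 x)

theorem valuation_eq_one_of_not_dvd (hinjF : Function.Injective (algebraMap B F0))
    (hB : ∀ b : B, algebraMap B F0 b ∈ O)
    (hρ : ∀ b : B, ρ1 b ≠ 0 → (algebraMap B F0 b)⁻¹ ∈ O)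
    (hker1 : ∀ b, ρ1 b = 0 → b ∈ m)
    (hp : p ≠ 0) (hker : ∀ f, ρ1 f = 0 → ρ2 f = 0 → p ∣ f) (hrel : u * u' = p * Ψ)
    (h2 : ρ2 u' = 0) (hΨ : Ψ ∉ m) {x : S} (hx : ¬ algebraMap B S u ∣ x) :
    O.valuation (algebraMap S F0 x) = 1 := by
  have h1 := valuation_le_one ρ1 m O hinjF hB hρ hker1 x
  have h2' : O.valuation (algebraMap S F0 x)⁻¹ ≤ 1 :=
    (O.valuation_le_one_iff _).mpr
      (inv_mem_of_not_dvd ρ1 ρ2 m O hinjF hB hρ hp hker hrel h2 hΨ hx)
  have hx0 : algebraMap S F0 x ≠ 0 := by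
    intro h0
    apply hx
    obtain ⟨b, s, hs, hmul, hs0, hxF⟩ := exists_eq_div m hinjF x
    rw [h0] at hxF
    have hb0 : algebraMap B F0 b = 0 := by
      rcases mul_eq_zero.mp hxF.symm with h | h
      · exact h
      · exact absurd (inv_eq_zero.mp h) hs0
    have hb : b = 0 := hinjF (by rw [hb0, map_zero])
    have hsu : IsUnit (algebraMap B S s) :=
      IsLocalization.map_units S (⟨s, hs⟩ : m.primeCompl)
    have : x * algebraMap B S s = 0 := by rw [hmul, hb, map_zero]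
    have hx' : x = 0 := (hsu.mul_left_eq_zero).mp this
    rw [hx']
    exact dvd_zero _
  rw [map_inv₀] at h2'
  have h3 : 1 ≤ O.valuation (algebraMap S F0 x) := by
    have hv0 : O.valuation (algebraMap S F0 x) ≠ 0 := (O.valuation.ne_zero_iff).mpr hx0
    exact (inv_le_one₀ (zero_lt_iff.mpr hv0)).mp h2'
  exact le_antisymm h1 h3

/-- **(n2)**: the multiples of `u` in `S` are the elements of positive valuation. -/
theorem valuation_lt_one_iff_dvd (hinjF : Function.Injective (algebraMap B F0))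
    (hB : ∀ b : B, algebraMap B F0 b ∈ O)
    (hρ : ∀ b : B, ρ1 b ≠ 0 → (algebraMap B F0 b)⁻¹ ∈ O)
    (hker1 : ∀ b, ρ1 b = 0 → b ∈ m)
    (hp : p ≠ 0) (hker : ∀ f, ρ1 f = 0 → ρ2 f = 0 → p ∣ f) (hrel : u * u' = p * Ψ)
    (h2 : ρ2 u' = 0) (hΨ : Ψ ∉ m) (hu : O.valuation (algebraMap B F0 u) < 1) (x : S) :
    O.valuation (algebraMap S F0 x) < 1 ↔ algebraMap B S u ∣ x := by
  constructor
  · intro hlt
    by_contra hx
    have := valuation_eq_one_of_not_dvd ρ1 ρ2 m O hinjF hB hρ hker1 hp hker hrel h2 hΨ hx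
    exact absurd hlt (by rw [this]; exact lt_irrefl _)
  · rintro ⟨y, rfl⟩
    rw [map_mul, ← IsScalarTower.algebraMap_apply, map_mul]
    calc O.valuation (algebraMap B F0 u) * O.valuation (algebraMap S F0 y)
        ≤ O.valuation (algebraMap B F0 u) * 1 :=
          mul_le_mul' le_rfl (valuation_le_one ρ1 m O hinjF hB hρ hker1 y)
      _ < 1 := by rw [mul_one]; exact hu

end Val

/-! ### The weak `(n3)`: orders at the place of the component through the node -/

section Ord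

open AlgebraicCurve

variable {k κ : Type*} [Field k] [Field κ] [Algebra k κ] (P : Place k κ)
  {S : Type*} [CommRing S] (ρ : S →+* κ) {u u' : S}

/-- units of `S` reduce to units at `P` -/
theorem ord_map_unit (hP1 : ∀ x : S, 0 ≤ P.ord (ρ x)) {ε : S} (hε : IsUnit ε) :
    P.ord (ρ ε) = 0 := by
  obtain ⟨ε', hε'⟩ := hε.exists_right_inv
  have h1 : ρ ε * ρ ε' = 1 := by rw [← map_mul, hε', map_one]
  have hne : ρ ε ≠ 0 := left_ne_zero_of_mul_eq_one h1
  have hne' : ρ ε' ≠ 0 := right_ne_zero_of_mul_eq_one h1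
  have h2 : P.ord (ρ ε) + P.ord (ρ ε') = 0 := by
    rw [← P.ord_mul hne hne', h1, P.ord_one]
  have := hP1 ε
  have := hP1 ε'
  omega

/-- **weak (n3)**: `P.ord (ρ u') = 1` as soon as ONE element of `S` reduces to a uniformiser. -/
theorem ord_map_u'_eq_one [IsLocalRing S] (hmax : maximalIdeal S = Ideal.span {u, u'})
    (hu : ρ u = 0) (hP1 : ∀ x : S, 0 ≤ P.ord (ρ x)) (hP2 : 0 < P.ord (ρ u'))
    (ht : ∃ t : S, P.ord (ρ t) = 1) : P.ord (ρ u') = 1 := by
  obtain ⟨t, ht⟩ := ht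
  have htm : t ∈ maximalIdeal S := by
    rw [IsLocalRing.mem_maximalIdeal, mem_nonunits_iff]
    intro hunit
    have := ord_map_unit P ρ hP1 hunit
    omega
  rw [hmax, Ideal.mem_span_pair] at htm
  obtain ⟨a, b, hab⟩ := htm
  have hρt : ρ t = ρ b * ρ u' := by
    rw [← hab, map_add, map_mul, map_mul, hu, mul_zero, zero_add]
  have hne : ρ t ≠ 0 := by
    intro h0
    rw [h0, P.ord_zero] at ht
    omega
  have hb : ρ b ≠ 0 := fun h0 => hne (by rw [hρt, h0, zero_mul])
  have hu' : ρ u' ≠ 0 := fun h0 => hne (by rw [hρt, h0, mul_zero])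
  have h1 : P.ord (ρ b) + P.ord (ρ u') = 1 := by rw [← P.ord_mul hb hu', ← hρt, ht]
  have := hP1 b
  omega

/-- the order at `P` of an element written as `ε * u' ^ n + u * y` -/
theorem ord_map_eq_of_decomp (hu : ρ u = 0) (hP1 : ∀ x : S, 0 ≤ P.ord (ρ x))
    (hord : P.ord (ρ u') = 1) {r ε y : S} {n : ℕ} (hε : IsUnit ε)
    (hr : r = ε * u' ^ n + u * y) : P.ord (ρ r) = n := by
  have hu' : ρ u' ≠ 0 := by
    intro h0
    rw [h0, P.ord_zero] at hord
    omega
  have hεne : ρ ε ≠ 0 := by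
    obtain ⟨ε', hε'⟩ := hε.exists_right_inv
    have h1 : ρ ε * ρ ε' = 1 := by rw [← map_mul, hε', map_one]
    exact left_ne_zero_of_mul_eq_one h1
  have hρr : ρ r = ρ ε * ρ u' ^ n := by
    rw [hr, map_add, map_mul, map_mul, map_pow, hu, zero_mul, add_zero]
  have hpow : P.ord (ρ u' ^ n) = n := by
    have := P.ord_zpow (ρ u') (n : ℤ)
    rw [zpow_natCast, hord, mul_one] at this
    exact this
  rw [hρr, P.ord_mul hεne (pow_ne_zero n hu'), ord_map_unit P ρ hP1 hε, hpow, zero_add]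

end Ord

section Decomp

variable {S : Type*} [CommRing S] [IsDomain S] [IsNoetherianRing S] [IsLocalRing S]
  {q : ℕ} {u u' : S}

theorem quot_mk_eq_zero_iff_dvd {u x : S} :
    Ideal.Quotient.mk (Ideal.span {u}) x = 0 ↔ u ∣ x := by
  rw [Ideal.Quotient.eq_zero_iff_mem, Ideal.mem_span_singleton]

/-- in a node ring, an element outside `(u)` is `ε * u' ^ n` modulo `u`, `ε` a unit:
`n` is its order in the discrete valuation ring `S ⧸ (u)` -/
theorem exists_decomp_of_not_dvd (h : IsNodeRing S q u u') {r : S} (hr : ¬ u ∣ r) :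
    ∃ (n : ℕ) (ε y : S), IsUnit ε ∧ r = ε * u' ^ n + u * y := by
  have hdom := h.quotient_isDomain
  have hdvr := h.quotient_isDiscreteValuationRing
  have hirr := h.irreducible_mk_u'
  have hne : Ideal.Quotient.mk (Ideal.span {u}) r ≠ 0 := fun h0 =>
    hr (quot_mk_eq_zero_iff_dvd.mp h0)
  obtain ⟨n, e, he⟩ := IsDiscreteValuationRing.eq_unit_mul_pow_irreducible hne hirr
  obtain ⟨ε, hε⟩ := Ideal.Quotient.mk_surjective (e : S ⧸ Ideal.span {u})
  have hεu : IsUnit ε := by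
    by_contra hnu
    have hmem : ε ∈ maximalIdeal S := by
      rwa [IsLocalRing.mem_maximalIdeal, mem_nonunits_iff]
    rw [h.maximalIdeal_eq, Ideal.mem_span_pair] at hmem
    obtain ⟨a, b, hab⟩ := hmem
    have h1 : (e : S ⧸ Ideal.span {u}) =
        Ideal.Quotient.mk (Ideal.span {u}) b * Ideal.Quotient.mk (Ideal.span {u}) u' := by
      rw [← hε, ← hab, map_add, map_mul, map_mul,
        quot_mk_eq_zero_iff_dvd.mpr (dvd_refl u), mul_zero, zero_add]
    have h2 : IsUnit (Ideal.Quotient.mk (Ideal.span {u}) u') :=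
      isUnit_of_mul_isUnit_right (h1 ▸ e.isUnit)
    exact hirr.not_isUnit h2
  have h0 : Ideal.Quotient.mk (Ideal.span {u}) (r - ε * u' ^ n) = 0 := by
    rw [map_sub, map_mul, map_pow, hε, he, sub_self]
  obtain ⟨y, hy⟩ := quot_mk_eq_zero_iff_dvd.mp h0
  exact ⟨n, ε, y, hεu, by rw [← hy]; ring⟩

end Decomp

section OrdNode

open AlgebraicCurve

variable {k κ : Type*} [Field k] [Field κ] [Algebra k κ] (P : Place k κ)
  {S : Type*} [CommRing S] [IsDomain S] [IsNoetherianRing S] [IsLocalRing S]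
  (ρ : S →+* κ) {q : ℕ} {u u' : S}

/-- **weak (n3), consumer form**: on `S ∖ (u)` the order at `P` of the reduction is the order in
the discrete valuation ring `S ⧸ (u)` (uniformiser the class of `u'`). -/
theorem exists_ord_map_eq (h : IsNodeRing S q u u') (hu : ρ u = 0)
    (hP1 : ∀ x : S, 0 ≤ P.ord (ρ x)) (hP2 : 0 < P.ord (ρ u'))
    (ht : ∃ t : S, P.ord (ρ t) = 1) {r : S} (hr : ¬ u ∣ r) :
    ∃ (n : ℕ) (ε y : S), IsUnit ε ∧ r = ε * u' ^ n + u * y ∧ P.ord (ρ r) = n := by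
  obtain ⟨n, ε, y, hε, hdec⟩ := exists_decomp_of_not_dvd h hr
  have hord := ord_map_u'_eq_one P ρ h.maximalIdeal_eq hu hP1 hP2 ht
  exact ⟨n, ε, y, hε, hdec, ord_map_eq_of_decomp P ρ hu hP1 hord hε hdec⟩

/-- `(P1)` from the chart ring: `ρ (S) ⊆ O_P` as soon as `ρ (B) ⊆ O_P` and the elements of `B`
outside the node ideal reduce to units at `P`. -/
theorem ord_map_nonneg_of_chart {B : Type*} [CommRing B] [Algebra B S] (m : Ideal B) [m.IsPrime]
    [IsLocalization.AtPrime S m]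
    (hB : ∀ b : B, 0 ≤ P.ord (ρ (algebraMap B S b)))
    (hs : ∀ s : B, s ∉ m → P.ord (ρ (algebraMap B S s)) = 0) (x : S) : 0 ≤ P.ord (ρ x) := by
  obtain ⟨b, s, rfl⟩ := IsLocalization.exists_mk'_eq m.primeCompl x
  have hmul : IsLocalization.mk' S b s * algebraMap B S (s : B) = algebraMap B S b :=
    IsLocalization.mk'_spec S b s
  by_cases h0 : ρ (IsLocalization.mk' S b s) = 0
  · rw [h0, P.ord_zero]
  · have hsu : IsUnit (ρ (algebraMap B S (s : B))) :=
      (IsLocalization.map_units S s).map ρ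
    have h1 : P.ord (ρ (IsLocalization.mk' S b s)) + P.ord (ρ (algebraMap B S (s : B))) =
        P.ord (ρ (algebraMap B S b)) := by
      rw [← P.ord_mul h0 hsu.ne_zero, ← map_mul, hmul]
    have := hB b
    have := hs s s.2
    omega

end OrdNode

end Fermat.Agent.S40x.Node.NodeLocalDatum
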