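import Mathlib
import Fermat.Agent.S40x.Node.NodeDatum
import Fermat.Agent.S40x.R2.Transitive

/-!
# P-S44, seam [N] → [ET] (row [ET] of board `S44_C3_ASM`)

Downstairs the node ring `S = R_s ⊆ F_0` (literal `IsNodeRing S p u u'`) sits inside the valuation
subring `O = O_{v_∞} ∩ F_0`, and an element of `S` prime to `u` is a unit of `O` (this is (n2) of
the node datum).  If `v` is an order function of `O` (`Transitive.IsOrd`) normalised by `v p = 1`
(value group `ℤ` on `F_0`, `e = 1`), then `v` is the `u`-adic order on `S`: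

* `node_ord`   : `v u = 1` and `v r = 0` for `u ∤ r`
  (= the hypotheses `hvu`, `hv0` of `R2/NodeCover/PrimeOrd.primeOrd_lift_package`);
* `node_ord'`  : the mirrored statement for `(O_zero, u')`, via `IsNodeRing.symm`;
* `node_pos_iff_dvd` : `0 < v r ↔ u ∣ r` for `r ∈ S`, `r ≠ 0`;
* `smooth_ord`, `smooth_pos_iff_dvd` : the same for `IsSmoothPtRing S p t` with `z := (p : S)`.

The general core is `ord_of_prime` (any prime element `z` of a domain `S ⊆ O` with `v z = 1`...).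
-/

set_option autoImplicit false
set_option linter.unusedSectionVars false

namespace Fermat.Agent.S40x.Node.NodeOrdSeam

open Fermat.Agent.S40x.Node Fermat.Agent.S40x.R2.Transitive

variable {F0 : Type*} [Field F0] {S : Type*} [CommRing S] [IsDomain S] [Algebra S F0]
  [IsFractionRing S F0]

theorem algebraMap_ne_zero {r : S} (hr : r ≠ 0) : algebraMap S F0 r ≠ 0 := fun h =>
  hr (IsFractionRing.injective S F0 (by rw [h, map_zero]))

/-- an element of `S` prime to `z` has order `0` -/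
theorem ord_eq_zero_of_not_dvd {z : S} {O : ValuationSubring F0} {v : F0 → ℤ} (hv : IsOrd O v)
    (hle : ∀ r : S, algebraMap S F0 r ∈ O)
    (hinv : ∀ r : S, ¬ z ∣ r → (algebraMap S F0 r)⁻¹ ∈ O) {r : S} (hr : ¬ z ∣ r) :
    v (algebraMap S F0 r) = 0 := by
  have hr0 : r ≠ 0 := fun h0 => hr (h0 ▸ dvd_zero z)
  exact (hv.eq_zero_iff (algebraMap_ne_zero hr0)).2 ⟨hle r, hinv r hr⟩

/-- elements of `S` have non-negative order -/
theorem ord_nonneg {O : ValuationSubring F0} {v : F0 → ℤ} (hv : IsOrd O v)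
    (hle : ∀ r : S, algebraMap S F0 r ∈ O) {r : S} (hr : r ≠ 0) : 0 ≤ v (algebraMap S F0 r) :=
  (hv.nonneg_iff (algebraMap_ne_zero hr)).2 (hle r)

/-- **General core.**  If `v z = 1`, `S ⊆ O` and elements prime to `z` are units of `O`, then
for `r ≠ 0` in `S`: `0 < v r ↔ z ∣ r`. -/
theorem pos_iff_dvd {z : S} {O : ValuationSubring F0} {v : F0 → ℤ} (hv : IsOrd O v)
    (hle : ∀ r : S, algebraMap S F0 r ∈ O)
    (hinv : ∀ r : S, ¬ z ∣ r → (algebraMap S F0 r)⁻¹ ∈ O) (hz0 : z ≠ 0)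
    (hz : v (algebraMap S F0 z) = 1) {r : S} (hr : r ≠ 0) :
    0 < v (algebraMap S F0 r) ↔ z ∣ r := by
  constructor
  · intro hpos
    by_contra hnd
    rw [ord_eq_zero_of_not_dvd hv hle hinv hnd] at hpos
    exact lt_irrefl _ hpos
  · rintro ⟨r', rfl⟩
    have hr'0 : r' ≠ 0 := right_ne_zero_of_mul hr
    rw [map_mul, hv.map_mul (algebraMap_ne_zero hz0) (algebraMap_ne_zero hr'0), hz]
    have := ord_nonneg hv hle hr'0
    omega

section Node

variable [IsNoetherianRing S] [IsLocalRing S] {p : ℕ} {u u' : S}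

/-- **Seam [N] → [ET] at a node**: `v` is the `u`-adic order on the node ring.
These are exactly `hvu`, `hv0` of `PrimeOrd.primeOrd_lift_package`. -/
theorem node_ord (h : IsNodeRing S p u u') {O : ValuationSubring F0} {v : F0 → ℤ}
    (hv : IsOrd O v) (hle : ∀ r : S, algebraMap S F0 r ∈ O)
    (hinv : ∀ r : S, ¬ u ∣ r → (algebraMap S F0 r)⁻¹ ∈ O) (hp : v (p : F0) = 1) :
    v (algebraMap S F0 u) = 1 ∧ ∀ r : S, ¬ u ∣ r → v (algebraMap S F0 r) = 0 := by
  refine ⟨?_, fun r hr => ord_eq_zero_of_not_dvd hv hle hinv hr⟩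
  obtain ⟨ψ, hψ⟩ := h.mul_eq
  have hu0 : u ≠ 0 := h.prime_u.ne_zero
  have hu'0 : u' ≠ 0 := h.prime_u'.ne_zero
  have hψ0 : (ψ : S) ≠ 0 := ψ.ne_zero
  have hnψ : ¬ u ∣ (ψ : S) := fun hd => h.prime_u.not_isUnit (isUnit_of_dvd_unit hd ψ.isUnit)
  have hp0 : (p : S) ≠ 0 := by
    intro h0
    rw [h0, zero_mul] at hψ
    exact mul_ne_zero hu0 hu'0 hψ
  have e := congrArg (fun x : S => v (algebraMap S F0 x)) hψ
  simp only [map_mul] at e
  rw [hv.map_mul (algebraMap_ne_zero hu0) (algebraMap_ne_zero hu'0),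
    hv.map_mul (algebraMap_ne_zero hp0) (algebraMap_ne_zero hψ0),
    ord_eq_zero_of_not_dvd hv hle hinv h.not_dvd, ord_eq_zero_of_not_dvd hv hle hinv hnψ,
    map_natCast, hp] at e
  linarith

/-- the mirrored statement for the other branch `(O_zero, u')`. -/
theorem node_ord' (h : IsNodeRing S p u u') {O : ValuationSubring F0} {v : F0 → ℤ}
    (hv : IsOrd O v) (hle : ∀ r : S, algebraMap S F0 r ∈ O)
    (hinv : ∀ r : S, ¬ u' ∣ r → (algebraMap S F0 r)⁻¹ ∈ O) (hp : v (p : F0) = 1) :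
    v (algebraMap S F0 u') = 1 ∧ ∀ r : S, ¬ u' ∣ r → v (algebraMap S F0 r) = 0 :=
  node_ord h.symm hv hle hinv hp

/-- converse direction at a node: for `r ≠ 0` in `S`, `0 < v r ↔ u ∣ r`. -/
theorem node_pos_iff_dvd (h : IsNodeRing S p u u') {O : ValuationSubring F0} {v : F0 → ℤ}
    (hv : IsOrd O v) (hle : ∀ r : S, algebraMap S F0 r ∈ O)
    (hinv : ∀ r : S, ¬ u ∣ r → (algebraMap S F0 r)⁻¹ ∈ O) (hp : v (p : F0) = 1) {r : S}
    (hr : r ≠ 0) : 0 < v (algebraMap S F0 r) ↔ u ∣ r :=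
  pos_iff_dvd hv hle hinv h.prime_u.ne_zero (node_ord h hv hle hinv hp).1 hr

theorem node_pos_iff_dvd' (h : IsNodeRing S p u u') {O : ValuationSubring F0} {v : F0 → ℤ}
    (hv : IsOrd O v) (hle : ∀ r : S, algebraMap S F0 r ∈ O)
    (hinv : ∀ r : S, ¬ u' ∣ r → (algebraMap S F0 r)⁻¹ ∈ O) (hp : v (p : F0) = 1) {r : S}
    (hr : r ≠ 0) : 0 < v (algebraMap S F0 r) ↔ u' ∣ r :=
  node_pos_iff_dvd h.symm hv hle hinv hp hr

/-- **Seam [N] → [ET] at a smooth point**: `v` is the `p`-adic order on the smooth-point ring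
(`z := (p : S)`). -/
theorem smooth_ord {t : S} (_h : IsSmoothPtRing S p t) {O : ValuationSubring F0} {v : F0 → ℤ}
    (hv : IsOrd O v) (hle : ∀ r : S, algebraMap S F0 r ∈ O)
    (hinv : ∀ r : S, ¬ (p : S) ∣ r → (algebraMap S F0 r)⁻¹ ∈ O) (hp : v (p : F0) = 1) :
    v (algebraMap S F0 (p : S)) = 1 ∧ ∀ r : S, ¬ (p : S) ∣ r → v (algebraMap S F0 r) = 0 := by
  refine ⟨?_, fun r hr => ord_eq_zero_of_not_dvd hv hle hinv hr⟩
  rw [map_natCast, hp]

theorem smooth_pos_iff_dvd {t : S} (h : IsSmoothPtRing S p t) {O : ValuationSubring F0}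
    {v : F0 → ℤ} (hv : IsOrd O v) (hle : ∀ r : S, algebraMap S F0 r ∈ O)
    (hinv : ∀ r : S, ¬ (p : S) ∣ r → (algebraMap S F0 r)⁻¹ ∈ O) (hp : v (p : F0) = 1) {r : S}
    (hr : r ≠ 0) : 0 < v (algebraMap S F0 r) ↔ (p : S) ∣ r :=
  pos_iff_dvd hv hle hinv h.prime_p.ne_zero (smooth_ord h hv hle hinv hp).1 hr

end Node

end Fermat.Agent.S40x.Node.NodeOrdSeam
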