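import Fermat.Agent.S40x.Node.NodeInst

/-!
# P-S44, block R1 / N-alpha, item (n5): the residue field of the node ring is `k` (helper50)

Vocabulary of `Node/NodeInst`: `B_0 = B0 C Γ` the inertia-fixed chart ring over `W = A^Γ`,
`s : Goursat.Nodes C.BbarT hL2.h2` a node of the glue ring, `nodeIdeal hL2 s` its ideal in `B_0`,
`R_s := Localization.AtPrime (nodeIdeal hL2 s)` the node ring.

* `evB hL2 s : B_0 →+* k` : evaluation at the node (`ker = nodeIdeal`), `evB_algebraMap` : on a
  constant `c : W` it is the residue `R.π c`;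
* `evB_surjective`, `nodeIdeal_isMaximal` (from `FixData2.residue_surj`: the residue field of `W`
  is all of `k`);
* `evS hL2 s : R_s →+* k` : evaluation at the node on the node ring, `ker_evS = maximalIdeal R_s`;
* `exists_const_sub_mem` : **every element of `R_s` is congruent modulo the maximal ideal to a
  constant `c : W`** (hypothesis `hres` of `Tame/DecOfNodeRing`, "constant residue field");
* `residueFieldEquiv : ResidueField R_s ≃+* k`, `isAlgClosed_residueField` : the instance
  `[IsAlgClosed (ResidueField R)]` of `R2/NodeCover/SimpleRoot.conjugates_structure` (C3-ET) for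
  `R = R_s`;
* `charP_residueField`, `natCast_mem_maximalIdeal` (hypothesis `hpm` of the same consumer).
-/

set_option autoImplicit false
set_option linter.unusedSectionVars false
set_option linter.style.haveILetI false

noncomputable section

namespace Fermat.Agent.S40x.Node.NodeRes

open AlgebraicCurve IsLocalRing Module
open Fermat.Agent.S34x Fermat.Agent.S34x.C0two Fermat.Agent.S34x.Lattice2
open Fermat.Agent.S19x.Geo.LatticeFixed (IsFixed IsFixedK)
open Fermat.Agent.S33x.H1.LatticeFixed2 Fermat.Agent.S33x.H1.FixedDecomp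
open Fermat.Agent.S33x.W.InstW
open Fermat.Agent.S40x.Node.NodeInst

variable {K : Type*} [Field K] {A : ValuationSubring K} {F : Type*} [Field F] [Algebra K F]
  {S : SmallRing F} {k κ₁ κ₂ : Type*} [Field k] [CommRing κ₁] [CommRing κ₂] [Algebra k κ₁]
  [Algebra k κ₂] {R : RedSetup2 A S k (κ₁ × κ₂)} {C : ChartCoord R}
  {Γ : Set (SemilinearAut K F)}

/-- transport of algebraic closedness along a ring isomorphism, universe polymorphic
(`IsAlgClosed.of_ringEquiv` asks for one universe). -/
theorem isAlgClosed_of_ringEquiv {k₁ k₂ : Type*} [Field k₁] [Field k₂] [IsAlgClosed k₁]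
    (e : k₁ ≃+* k₂) : IsAlgClosed k₂ := by
  apply IsAlgClosed.of_exists_root
  intro p _ hp
  have hpe : (p.map e.symm.toRingHom).degree ≠ 0 := by
    rw [Polynomial.degree_map]
    exact ne_of_gt (Polynomial.degree_pos_of_irreducible hp)
  obtain ⟨x, hx⟩ := IsAlgClosed.exists_root (k := k₁) (p.map e.symm.toRingHom) hpe
  refine ⟨e x, ?_⟩
  rw [Polynomial.IsRoot, Polynomial.eval_map] at hx
  apply e.symm.injective
  rw [map_zero, ← hx]
  have := Polynomial.hom_eval₂ p (RingHom.id k₂) e.symm.toRingHom (e x)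
  simpa using this

variable [IsAlgClosed k] (hL2 : C.IsL2)

/-- **evaluation at the node `s`** on the chart ring `B_0`. -/
def evB (s : Goursat.Nodes C.BbarT hL2.h2) : B0 C Γ →+* k :=
  (chi1 hL2 s).toRingHom.comp (rho1 C Γ)

theorem evB_apply (s : Goursat.Nodes C.BbarT hL2.h2) (x : B0 C Γ) :
    evB (Γ := Γ) hL2 s x = chi1 hL2 s (rho1 C Γ x) := rfl

theorem evB_apply' (s : Goursat.Nodes C.BbarT hL2.h2) (x : B0 C Γ) :
    evB (Γ := Γ) hL2 s x = chi2 hL2 s (rho2 C Γ x) := by
  rw [evB_apply, chi1_rho1_eq]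

theorem ker_evB (s : Goursat.Nodes C.BbarT hL2.h2) :
    RingHom.ker (evB (Γ := Γ) hL2 s) = nodeIdeal (Γ := Γ) hL2 s := rfl

theorem evB_eq_zero_iff (s : Goursat.Nodes C.BbarT hL2.h2) (x : B0 C Γ) :
    evB (Γ := Γ) hL2 s x = 0 ↔ x ∈ nodeIdeal (Γ := Γ) hL2 s := Iff.rfl

/-- the reduction of a constant. -/
theorem rho1_algebraMap (c : fixedSubring (A := A) Γ) :
    rho1 C Γ (algebraMap (fixedSubring (A := A) Γ) (B0 C Γ) c) = algebraMap k C.B₁ (R.π (c : A)) := by
  apply Subtype.ext
  rw [coe_rho1, resB_apply]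
  have h1 : ((algebraMap (fixedSubring (A := A) Γ) (B0 C Γ) c : B0 C Γ) : F) =
      algebraMap K F (((c : A) : K)) := by
    show algebraMap (fixedSubring (A := A) Γ) F c = _
    rw [Algebra.algebraMap_eq_smul_one, fixedSubring_smul_eq, ← Algebra.algebraMap_eq_smul_one]
  have h2 : (⟨((algebraMap (fixedSubring (A := A) Γ) (B0 C Γ) c : B0 C Γ) : F), coe_mem_O _⟩ : S.O) =
      ⟨algebraMap K F (((c : A) : K)), R.algebraMap_mem (c : A)⟩ := Subtype.ext h1
  rw [h2, R.res_algebraMap]
  rfl

/-- **evaluation of a constant** `c : W` at the node is its residue. -/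
theorem evB_algebraMap (s : Goursat.Nodes C.BbarT hL2.h2) (c : fixedSubring (A := A) Γ) :
    evB (Γ := Γ) hL2 s (algebraMap (fixedSubring (A := A) Γ) (B0 C Γ) c) = R.π (c : A) := by
  rw [evB_apply, rho1_algebraMap, AlgHom.commutes]
  rfl

/-- every element of `k` is the residue of a fixed constant. -/
theorem exists_const (hD : FixData2 R Γ) (cbar : k) :
    ∃ c : fixedSubring (A := A) Γ, R.π (c : A) = cbar := by
  obtain ⟨a, ha, hπ⟩ := hD.exists_fixed_coeff cbar
  exact ⟨⟨a, ha⟩, hπ⟩

theorem evB_surjective (hD : FixData2 R Γ) (s : Goursat.Nodes C.BbarT hL2.h2) :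
    Function.Surjective (evB (Γ := Γ) hL2 s) := by
  intro cbar
  obtain ⟨c, hc⟩ := exists_const hD cbar
  exact ⟨algebraMap _ _ c, by rw [evB_algebraMap, hc]⟩

/-- **the node ideal is maximal.** -/
theorem nodeIdeal_isMaximal (hD : FixData2 R Γ) (s : Goursat.Nodes C.BbarT hL2.h2) :
    (nodeIdeal (Γ := Γ) hL2 s).IsMaximal := by
  rw [← ker_evB]
  exact RingHom.ker_isMaximal_of_surjective _ (evB_surjective hL2 hD s)

/-- every element of `B_0` is congruent to a constant modulo the node ideal. -/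
theorem exists_const_sub_mem_nodeIdeal (hD : FixData2 R Γ) (s : Goursat.Nodes C.BbarT hL2.h2)
    (x : B0 C Γ) :
    ∃ c : fixedSubring (A := A) Γ,
      x - algebraMap (fixedSubring (A := A) Γ) (B0 C Γ) c ∈ nodeIdeal (Γ := Γ) hL2 s := by
  obtain ⟨c, hc⟩ := exists_const hD (evB (Γ := Γ) hL2 s x)
  refine ⟨c, ?_⟩
  rw [← evB_eq_zero_iff, map_sub, evB_algebraMap, hc, sub_self]

/-! ### The node ring -/

/-- **evaluation at the node `s`** on the node ring `R_s`. -/
def evS (s : Goursat.Nodes C.BbarT hL2.h2) :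
    Localization.AtPrime (nodeIdeal (Γ := Γ) hL2 s) →+* k :=
  IsLocalization.lift (M := (nodeIdeal (Γ := Γ) hL2 s).primeCompl) (g := evB (Γ := Γ) hL2 s)
    (fun y => isUnit_iff_ne_zero.mpr fun h0 => y.2 ((evB_eq_zero_iff hL2 s _).mp h0))

@[simp] theorem evS_algebraMap (s : Goursat.Nodes C.BbarT hL2.h2) (x : B0 C Γ) :
    evS (Γ := Γ) hL2 s (algebraMap (B0 C Γ) _ x) = evB (Γ := Γ) hL2 s x :=
  IsLocalization.lift_eq _ x

theorem evS_surjective (hD : FixData2 R Γ) (s : Goursat.Nodes C.BbarT hL2.h2) :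
    Function.Surjective (evS (Γ := Γ) hL2 s) := by
  intro cbar
  obtain ⟨x, hx⟩ := evB_surjective hL2 hD s cbar
  exact ⟨algebraMap _ _ x, by rw [evS_algebraMap, hx]⟩

/-- the kernel of the evaluation is the maximal ideal of the node ring. -/
theorem ker_evS (hD : FixData2 R Γ) (s : Goursat.Nodes C.BbarT hL2.h2) :
    RingHom.ker (evS (Γ := Γ) hL2 s) =
      maximalIdeal (Localization.AtPrime (nodeIdeal (Γ := Γ) hL2 s)) :=
  eq_maximalIdeal (RingHom.ker_isMaximal_of_surjective _ (evS_surjective hL2 hD s))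

theorem evS_eq_zero_iff (hD : FixData2 R Γ) (s : Goursat.Nodes C.BbarT hL2.h2)
    (r : Localization.AtPrime (nodeIdeal (Γ := Γ) hL2 s)) :
    evS (Γ := Γ) hL2 s r = 0 ↔
      r ∈ maximalIdeal (Localization.AtPrime (nodeIdeal (Γ := Γ) hL2 s)) := by
  rw [← ker_evS hL2 hD s, RingHom.mem_ker]

/-- evaluation of a constant on the node ring. -/
theorem evS_algebraMap_const (s : Goursat.Nodes C.BbarT hL2.h2) (c : fixedSubring (A := A) Γ) :
    evS (Γ := Γ) hL2 s (algebraMap (fixedSubring (A := A) Γ)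
      (Localization.AtPrime (nodeIdeal (Γ := Γ) hL2 s)) c) = R.π (c : A) := by
  rw [IsScalarTower.algebraMap_apply (fixedSubring (A := A) Γ) (B0 C Γ)
    (Localization.AtPrime (nodeIdeal (Γ := Γ) hL2 s)), evS_algebraMap, evB_algebraMap]

/-- **(n5) constant residue field**: every element of the node ring `R_s` is congruent modulo the
maximal ideal to a constant `c : W = A^Γ`. -/
theorem exists_const_sub_mem (hD : FixData2 R Γ) (s : Goursat.Nodes C.BbarT hL2.h2)
    (r : Localization.AtPrime (nodeIdeal (Γ := Γ) hL2 s)) :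
    ∃ c : fixedSubring (A := A) Γ,
      r - algebraMap (fixedSubring (A := A) Γ) (Localization.AtPrime (nodeIdeal (Γ := Γ) hL2 s)) c ∈
        maximalIdeal (Localization.AtPrime (nodeIdeal (Γ := Γ) hL2 s)) := by
  obtain ⟨c, hc⟩ := exists_const hD (evS (Γ := Γ) hL2 s r)
  refine ⟨c, ?_⟩
  rw [← evS_eq_zero_iff hL2 hD s, map_sub, evS_algebraMap_const, hc, sub_self]

/-- **the residue field of the node ring is `k`.** -/
def residueFieldEquiv (hD : FixData2 R Γ) (s : Goursat.Nodes C.BbarT hL2.h2) :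
    ResidueField (Localization.AtPrime (nodeIdeal (Γ := Γ) hL2 s)) ≃+* k :=
  (Ideal.quotEquivOfEq (ker_evS hL2 hD s).symm).trans
    (RingHom.quotientKerEquivOfSurjective (evS_surjective hL2 hD s))

theorem residueFieldEquiv_residue (hD : FixData2 R Γ) (s : Goursat.Nodes C.BbarT hL2.h2)
    (r : Localization.AtPrime (nodeIdeal (Γ := Γ) hL2 s)) :
    residueFieldEquiv hL2 hD s (residue _ r) = evS (Γ := Γ) hL2 s r := rfl

/-- **the residue field of the node ring is algebraically closed** (instance hypothesis of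
`R2/NodeCover/SimpleRoot.conjugates_structure`). -/
theorem isAlgClosed_residueField (hD : FixData2 R Γ) (s : Goursat.Nodes C.BbarT hL2.h2) :
    IsAlgClosed (ResidueField (Localization.AtPrime (nodeIdeal (Γ := Γ) hL2 s))) :=
  isAlgClosed_of_ringEquiv (residueFieldEquiv hL2 hD s).symm

/-- the residue characteristic of the node ring. -/
theorem charP_residueField (hD : FixData2 R Γ) (s : Goursat.Nodes C.BbarT hL2.h2) (p : ℕ)
    [CharP k p] : CharP (ResidueField (Localization.AtPrime (nodeIdeal (Γ := Γ) hL2 s))) p :=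
  charP_of_injective_ringHom (f := (residueFieldEquiv hL2 hD s).symm.toRingHom)
    (residueFieldEquiv hL2 hD s).symm.injective p

/-- `p` lies in the maximal ideal of the node ring (hypothesis `hpm` of
`R2/NodeCover/SimpleRoot.conjugates_structure`), without thickness data. -/
theorem natCast_mem_maximalIdeal (hD : FixData2 R Γ) (s : Goursat.Nodes C.BbarT hL2.h2) (p : ℕ)
    [CharP k p] :
    ((p : ℕ) : Localization.AtPrime (nodeIdeal (Γ := Γ) hL2 s)) ∈
      maximalIdeal (Localization.AtPrime (nodeIdeal (Γ := Γ) hL2 s)) := by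
  rw [← evS_eq_zero_iff hL2 hD s, map_natCast]
  exact CharP.cast_eq_zero k p

end Fermat.Agent.S40x.Node.NodeRes

end
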