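import Fermat.Agent.S40x.Node.NodeRing
import Fermat.Agent.S40x.Node.NodeFrac
import Fermat.Agent.S40x.Node.NodeRes
import Fermat.Agent.S40x.Node.NodeLocalDatum
import Fermat.Agent.S40x.Node.NodeOrdSeam
import Fermat.Agent.S40x.NodeRing.Basic

/-!
# P-S44, block R1, item X12: THE EXPORT of the node datum (helper62)

ONE import for the consumers (C3-ET, C3-ASM, C3-CFE) of the downstairs node ring
`R_s = (B_0)_{m_s} ⊆ F_0 = F^Γ`.

## Part A (abstract): the literal `NodeDown`

`NodeDown S F0 p u u' Oinf Ozero vinf vzero` bundles, for ONE node, everything the upstairs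
constructions consume about the downstairs ring `S`:

* `node`      : `IsNodeRing S p u u'` (`Node/NodeDatum`, (N-OUT));
* `frac`      : `IsFractionRing S F0`;
* `algClosed` : the residue field of `S` is algebraically closed;
* `inf_mem`, `inf_unit`, `zero_mem`, `zero_unit` : the two branches (`S ⊆ O`, `S ∖ (u) ⊆ Oˣ`);
* `isOrd_inf`, `isOrd_zero`, `vinf_p`, `vzero_p` : order functions (`R2/Transitive.IsOrd`) of the
  two branches normalised by `v p = 1`.

Derived, in the binder shapes of helper4's `NodeRing/Bundle` (`ET.*`), helper2's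
`R2/NodeCover/EtBundle` (`et_node_bundle`, `et_node_slope`, `hK0_Rstar`) and helper22's
`R2/Asm/Core`: `isNode` (helper4's predicate `NodeRing.IsNode u u'`), `ufm`, `isIntegrallyClosed`,
`faithfulSMul`, `natCast_mem` (`hpm`), `exists_unit` (`ψ`, `hψ`), `vinf_u`, `vinf_eq_zero`,
`vzero_u'`, `vzero_eq_zero` (`hvinf_u`, `hvinf_0`, `hvzero_u'`, `hvzero_0`), `pos_iff_dvd_inf`,
`pos_iff_dvd_zero`, `natCast_inv_notMem_inf`, `natCast_inv_notMem_zero`.

## Part B (context bundle): the instance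

Inside `Cech.CtxMq.Ctx R C p q x Dt` + `CtxGal R C Γ` + `FixData2 R Γ` + `hF` (discharged at the
concrete level `M q` over `Qbar` by `Node/FixedQb.bundle_Mq`), for a node `s` of the glue ring and
`Rs := Localization.AtPrime (nodeIdeal h.hL2 s)`:

* `isNoetherianRing_B0`, `isAlgebraic_adjoin_t`, `stable_LN`;
* `isFractionRing_Rs` : `IsFractionRing Rs (fixedField Γ)` (X2);
* `isAlgClosed_residueField_Rs`, `natCast_mem_maximalIdeal_Rs` (X7);
* `natCast_dvd_of_rho_eq_zero` (ker);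
* `mem_of_chart₁`, `inv_mem_of_chart₁`, `mem_of_chart₂`, `inv_mem_of_chart₂` : (v1) for ANY
  valuation subring `O` of `fixedField Γ` containing `B_0` in which the elements of `B_0` with
  non-zero reduction on the first (second) component are units (X3, chart level → `Rs`);
* `exists_const_mul_pow` : `K_0 = K^Γ ⊆ Rs[1/p]` ((n4), shape `hK0R` of `hK0_Rstar`);
* `nodeDown` : **the export**: `NodeDown Rs (fixedField Γ) p u u' Oinf Ozero vinf vzero` from the
  thickness data (X9) and the chart-level branch facts.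
-/

set_option autoImplicit false
set_option linter.unusedSectionVars false
set_option linter.style.haveILetI false

noncomputable section

namespace Fermat.Agent.S40x.Node.Export

open IsLocalRing
open Fermat.Agent.S40x.Node Fermat.Agent.S40x.R2.Transitive

/-! ## Part A: the abstract literal -/

section Abstract

variable {S : Type*} [CommRing S] [IsDomain S] [IsNoetherianRing S] [IsLocalRing S]
  {p : ℕ} {u u' : S}

/-- bridge to helper4's predicate (`NodeRing/Basic`). -/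
theorem isNode_of_isNodeRing (h : IsNodeRing S p u u') : NodeRing.IsNode u u' where
  max_eq := h.maximalIdeal_eq
  prime_z := h.prime_u
  prime_z' := h.prime_u'
  not_dvd := h.not_dvd

/-- the converse bridge (for the upstairs rings `R*_s`, which come with `NodeRing.IsNode`). -/
theorem isNodeRing_of_isNode (h : NodeRing.IsNode u u') (hmul : ∃ ψ : Sˣ, u * u' = (p : S) * ψ) :
    IsNodeRing S p u u' where
  mul_eq := hmul
  maximalIdeal_eq := h.max_eq
  prime_u := h.prime_z
  prime_u' := h.prime_z'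
  not_associated := h.not_associated

theorem ufm_of_isNodeRing (h : IsNodeRing S p u u') : UniqueFactorizationMonoid S :=
  (isNode_of_isNodeRing h).ufd

theorem isIntegrallyClosed_of_isNodeRing (h : IsNodeRing S p u u') : IsIntegrallyClosed S := by
  haveI := ufm_of_isNodeRing h
  infer_instance

variable (S) in
/-- **the downstairs datum of ONE node**, as consumed by C3-ET / C3-ASM. -/
structure NodeDown (F0 : Type*) [Field F0] [Algebra S F0] (p : ℕ) (u u' : S)
    (Oinf Ozero : ValuationSubring F0) (vinf vzero : F0 → ℤ) : Prop where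
  node : IsNodeRing S p u u'
  frac : IsFractionRing S F0
  algClosed : IsAlgClosed (ResidueField S)
  inf_mem : ∀ r : S, algebraMap S F0 r ∈ Oinf
  inf_unit : ∀ r : S, ¬ u ∣ r → (algebraMap S F0 r)⁻¹ ∈ Oinf
  zero_mem : ∀ r : S, algebraMap S F0 r ∈ Ozero
  zero_unit : ∀ r : S, ¬ u' ∣ r → (algebraMap S F0 r)⁻¹ ∈ Ozero
  isOrd_inf : IsOrd Oinf vinf
  isOrd_zero : IsOrd Ozero vzero
  vinf_p : vinf ((p : ℕ) : F0) = 1
  vzero_p : vzero ((p : ℕ) : F0) = 1

namespace NodeDown

variable {F0 : Type*} [Field F0] [Algebra S F0] {Oinf Ozero : ValuationSubring F0}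
  {vinf vzero : F0 → ℤ}

/-- the mirrored datum (roles of the two branches exchanged). -/
theorem symm (h : NodeDown S F0 p u u' Oinf Ozero vinf vzero) :
    NodeDown S F0 p u' u Ozero Oinf vzero vinf where
  node := h.node.symm
  frac := h.frac
  algClosed := h.algClosed
  inf_mem := h.zero_mem
  inf_unit := h.zero_unit
  zero_mem := h.inf_mem
  zero_unit := h.inf_unit
  isOrd_inf := h.isOrd_zero
  isOrd_zero := h.isOrd_inf
  vinf_p := h.vzero_p
  vzero_p := h.vinf_p

theorem isNode (h : NodeDown S F0 p u u' Oinf Ozero vinf vzero) : NodeRing.IsNode u u' :=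
  isNode_of_isNodeRing h.node

theorem ufm (h : NodeDown S F0 p u u' Oinf Ozero vinf vzero) : UniqueFactorizationMonoid S :=
  ufm_of_isNodeRing h.node

theorem isIntegrallyClosed (h : NodeDown S F0 p u u' Oinf Ozero vinf vzero) :
    IsIntegrallyClosed S :=
  isIntegrallyClosed_of_isNodeRing h.node

theorem faithfulSMul (h : NodeDown S F0 p u u' Oinf Ozero vinf vzero) : FaithfulSMul S F0 := by
  haveI := h.frac
  exact (faithfulSMul_iff_algebraMap_injective S F0).mpr (IsFractionRing.injective S F0)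

/-- `hpm` of `ET.*`. -/
theorem natCast_mem (h : NodeDown S F0 p u u' Oinf Ozero vinf vzero) :
    (p : S) ∈ maximalIdeal S :=
  h.node.natCast_mem_maximalIdeal

/-- `ψ`, `hψ` of `ET.mul_eq'`, `not_dvd_natCast_Rstar`, `hK0_Rstar`. -/
theorem exists_unit (h : NodeDown S F0 p u u' Oinf Ozero vinf vzero) :
    ∃ ψ : Sˣ, u * u' = (p : S) * ψ :=
  h.node.mul_eq

/-- `hvinf_u`, `hvinf_0` of `et_node_bundle` / `hvu`, `hv0` of `ET.ord_package'`. -/
theorem vinf_u (h : NodeDown S F0 p u u' Oinf Ozero vinf vzero) :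
    vinf (algebraMap S F0 u) = 1 := by
  haveI := h.frac
  exact (NodeOrdSeam.node_ord h.node h.isOrd_inf h.inf_mem h.inf_unit h.vinf_p).1

theorem vinf_eq_zero (h : NodeDown S F0 p u u' Oinf Ozero vinf vzero) (r : S) (hr : ¬ u ∣ r) :
    vinf (algebraMap S F0 r) = 0 := by
  haveI := h.frac
  exact (NodeOrdSeam.node_ord h.node h.isOrd_inf h.inf_mem h.inf_unit h.vinf_p).2 r hr

/-- `hvzero_u'`, `hvzero_0` of `et_node_bundle`. -/
theorem vzero_u' (h : NodeDown S F0 p u u' Oinf Ozero vinf vzero) :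
    vzero (algebraMap S F0 u') = 1 :=
  h.symm.vinf_u

theorem vzero_eq_zero (h : NodeDown S F0 p u u' Oinf Ozero vinf vzero) (r : S) (hr : ¬ u' ∣ r) :
    vzero (algebraMap S F0 r) = 0 :=
  h.symm.vinf_eq_zero r hr

/-- (n2): on `S`, positive order at the first branch means divisibility by `u`. -/
theorem pos_iff_dvd_inf (h : NodeDown S F0 p u u' Oinf Ozero vinf vzero) {r : S} (hr : r ≠ 0) :
    0 < vinf (algebraMap S F0 r) ↔ u ∣ r := by
  haveI := h.frac
  exact NodeOrdSeam.node_pos_iff_dvd h.node h.isOrd_inf h.inf_mem h.inf_unit h.vinf_p hr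

theorem pos_iff_dvd_zero (h : NodeDown S F0 p u u' Oinf Ozero vinf vzero) {r : S} (hr : r ≠ 0) :
    0 < vzero (algebraMap S F0 r) ↔ u' ∣ r :=
  h.symm.pos_iff_dvd_inf hr

theorem natCast_ne_zero (h : NodeDown S F0 p u u' Oinf Ozero vinf vzero) :
    ((p : ℕ) : F0) ≠ 0 := by
  intro h0
  have h1 := h.isOrd_inf.map_one
  have h2 := h.vinf_p
  rw [h0] at h2
  -- `vinf 0 = 1` is not contradictory by itself: use `p ≠ 0` in `S`
  haveI := h.frac
  obtain ⟨ψ, hψ⟩ := h.node.mul_eq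
  have hp0 : (p : S) ≠ 0 := by
    intro hp0
    rw [hp0, zero_mul] at hψ
    exact mul_ne_zero h.node.prime_u.ne_zero h.node.prime_u'.ne_zero hψ
  apply hp0
  apply IsFractionRing.injective S F0
  rw [map_natCast, h0, map_zero]

/-- `(v0)`: `p` is not a unit of the first branch. -/
theorem natCast_inv_notMem_inf (h : NodeDown S F0 p u u' Oinf Ozero vinf vzero) :
    (((p : ℕ) : F0))⁻¹ ∉ Oinf := by
  intro hmem
  have hp0 := h.natCast_ne_zero
  have h1 := (h.isOrd_inf.nonneg_iff (inv_ne_zero hp0)).mpr hmem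
  rw [h.isOrd_inf.map_inv hp0, h.vinf_p] at h1
  omega

theorem natCast_inv_notMem_zero (h : NodeDown S F0 p u u' Oinf Ozero vinf vzero) :
    (((p : ℕ) : F0))⁻¹ ∉ Ozero :=
  h.symm.natCast_inv_notMem_inf

end NodeDown

end Abstract

/-! ## Part B: the instance inside the context bundle -/

section Ctx

open AlgebraicCurve Module IntermediateField
open Fermat.Agent.S34x Fermat.Agent.S34x.C0two Fermat.Agent.S34x.Lattice2
open Fermat.Agent.S19x.Geo.LatticeFixed (IsFixed IsFixedK)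
open Fermat.Agent.S33x.H1.LatticeFixed2 Fermat.Agent.S33x.H1.FixedDecomp
open Fermat.Agent.S33x.W.InstW
open Fermat.Agent.S40x.Node.NodeInst Fermat.Agent.S40x.Node.NodeFrac
open Fermat.Agent.S33x.Cech.CtxMq Fermat.Agent.S33x.W.InstWCtx

variable {K : Type*} [Field K] [IsAlgClosed K] [CharZero K] {A : ValuationSubring K}
  {F : Type*} [Field F] [Algebra K F] {S : SmallRing F}
  {k : Type*} [Field k] [IsAlgClosed k] {E : Type*} [Field E] [Algebra k E]
  {R : RedSetup2 A S k (E × E)} {C : ChartCoord R} {p q : ℕ} {x : E} {Dt : Divisor K F}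
  (h : Ctx R C p q x Dt) {Γ : Set (SemilinearAut K F)} (hG : CtxGal R C Γ)
  (hD : FixData2 R Γ) (hF : Submodule.span K {f : F | IsFixed Γ f} = ⊤)

include h in
open scoped IntermediateField.algebraAdjoinAdjoin in
/-- `F` is algebraic over `K[t]`. -/
theorem isAlgebraic_adjoin_t : Algebra.IsAlgebraic (Algebra.adjoin K {C.t}) F := by
  haveI := h.fin_t
  exact ⟨fun f => (IsAlgebraic.of_finite K⟮C.t⟯ f).restrictScalars (Algebra.adjoin K {C.t})⟩

include hG in
/-- the spaces `L(b C∞)` are `Γ`-stable. -/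
theorem stable_LN (b : ℕ) : ∀ s ∈ Γ, ∀ f ∈ C.LN 0 b, s • f ∈ C.LN 0 b :=
  Fermat.Agent.S33x.H1.StableLN.stable_LN C hG.smul_t 0 b

include h hG hD hF in
/-- (N1): the chart ring `B_0` is Noetherian. -/
theorem isNoetherianRing_B0 : IsNoetherianRing (B0 C Γ) :=
  FixedNoeth.isNoetherianRing_fixedBoo' h hG hD hF

variable (s : Goursat.Nodes C.BbarT h.hL2.h2)

include hG hD hF in
/-- **X2**: the fixed field is the fraction field of the node ring. -/
theorem isFractionRing_Rs :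
    IsFractionRing (Localization.AtPrime (nodeIdeal (Γ := Γ) h.hL2 s)) (fixedField Γ) := by
  haveI := isAlgebraic_adjoin_t h
  exact isFractionRing_localization _ hD hF (fun b => stable_LN hG b)

include hD in
/-- **X7**: the residue field of the node ring is algebraically closed. -/
theorem isAlgClosed_residueField_Rs :
    IsAlgClosed (ResidueField (Localization.AtPrime (nodeIdeal (Γ := Γ) h.hL2 s))) :=
  NodeRes.isAlgClosed_residueField h.hL2 hD s

include hD in
/-- `p` lies in the maximal ideal of the node ring. -/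
theorem natCast_mem_maximalIdeal_Rs :
    ((p : ℕ) : Localization.AtPrime (nodeIdeal (Γ := Γ) h.hL2 s)) ∈
      maximalIdeal (Localization.AtPrime (nodeIdeal (Γ := Γ) h.hL2 s)) := by
  haveI := h.charP
  exact NodeRes.natCast_mem_maximalIdeal h.hL2 hD s p

variable (hp : ∀ c : A, IsFixedK Γ (c : K) → c ∈ maximalIdeal A → ((p : ℕ) : A) ∣ c)

include h hD hp in
/-- (ker): an element of `B_0` with zero reduction on both components is divisible by `p`. -/
theorem natCast_dvd_of_rho_eq_zero {f : B0 C Γ} (hf1 : rho1 C Γ f = 0) (hf2 : rho2 C Γ f = 0) :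
    ((p : ℕ) : B0 C Γ) ∣ f := by
  haveI := NodeRing.finite_quotient h
  rw [← NodeRing.unifB_natCast (NodeRing.isFixedK_natCast p)]
  exact unif_dvd_of_rho_eq_zero hD (NodeRing.isFixedK_natCast p) (NodeRing.natCast_ne_zero h) hp
    hf1 hf2

include h in
theorem natCast_B0_ne_zero : ((p : ℕ) : B0 C Γ) ≠ 0 := by
  haveI := NodeRing.finite_quotient h
  rw [← NodeRing.unifB_natCast (NodeRing.isFixedK_natCast p)]
  exact unifB_ne_zero (NodeRing.isFixedK_natCast p) (NodeRing.natCast_ne_zero h)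

/-! ### (v1): from the chart ring to the node ring -/

/-- **X3, first branch, `Rs ⊆ O`.** -/
theorem mem_of_chart₁ (O : ValuationSubring (fixedField Γ))
    (hB : ∀ b : B0 C Γ, algebraMap (B0 C Γ) (fixedField Γ) b ∈ O)
    (hρ : ∀ b : B0 C Γ, rho1 C Γ b ≠ 0 → (algebraMap (B0 C Γ) (fixedField Γ) b)⁻¹ ∈ O)
    (r : Localization.AtPrime (nodeIdeal (Γ := Γ) h.hL2 s)) :
    algebraMap (Localization.AtPrime (nodeIdeal (Γ := Γ) h.hL2 s)) (fixedField Γ) r ∈ O :=
  NodeLocalDatum.algebraMap_mem (rho1 C Γ) (nodeIdeal (Γ := Γ) h.hL2 s) O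
    (algebraMap_fixed_injective C Γ) hB hρ
    (fun b hb => by rw [mem_nodeIdeal_iff, hb, map_zero]) r

/-- **X3, second branch, `Rs ⊆ O`.** -/
theorem mem_of_chart₂ (O : ValuationSubring (fixedField Γ))
    (hB : ∀ b : B0 C Γ, algebraMap (B0 C Γ) (fixedField Γ) b ∈ O)
    (hρ : ∀ b : B0 C Γ, rho2 C Γ b ≠ 0 → (algebraMap (B0 C Γ) (fixedField Γ) b)⁻¹ ∈ O)
    (r : Localization.AtPrime (nodeIdeal (Γ := Γ) h.hL2 s)) :
    algebraMap (Localization.AtPrime (nodeIdeal (Γ := Γ) h.hL2 s)) (fixedField Γ) r ∈ O :=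
  NodeLocalDatum.algebraMap_mem (rho2 C Γ) (nodeIdeal (Γ := Γ) h.hL2 s) O
    (algebraMap_fixed_injective C Γ) hB hρ
    (fun b hb => by rw [mem_nodeIdeal_iff', hb, map_zero]) r

section Thick

variable {u u' Ψ : B0 C Γ} (hrel : u * u' = ((p : ℕ) : B0 C Γ) * Ψ)
  (h1 : rho1 C Γ u = 0) (h2 : rho2 C Γ u' = 0)
  (hΨ : Ψ ∉ nodeIdeal (Γ := Γ) h.hL2 s)

include h hD hp hrel h2 hΨ in
/-- **X3, first branch, `Rs ∖ (u) ⊆ Oˣ`.** -/
theorem inv_mem_of_chart₁ (O : ValuationSubring (fixedField Γ))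
    (hB : ∀ b : B0 C Γ, algebraMap (B0 C Γ) (fixedField Γ) b ∈ O)
    (hρ : ∀ b : B0 C Γ, rho1 C Γ b ≠ 0 → (algebraMap (B0 C Γ) (fixedField Γ) b)⁻¹ ∈ O)
    (r : Localization.AtPrime (nodeIdeal (Γ := Γ) h.hL2 s))
    (hr : ¬ algebraMap (B0 C Γ) _ u ∣ r) :
    (algebraMap (Localization.AtPrime (nodeIdeal (Γ := Γ) h.hL2 s)) (fixedField Γ) r)⁻¹ ∈ O :=
  NodeLocalDatum.inv_mem_of_not_dvd (S := Localization.AtPrime (nodeIdeal (Γ := Γ) h.hL2 s))
    (rho1 C Γ) (rho2 C Γ) (nodeIdeal (Γ := Γ) h.hL2 s) O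
    (algebraMap_fixed_injective C Γ) hB hρ (natCast_B0_ne_zero h)
    (fun _ hf1 hf2 => natCast_dvd_of_rho_eq_zero h hD hp hf1 hf2) hrel h2 hΨ hr

include h hD hp hrel h1 hΨ in
/-- **X3, second branch, `Rs ∖ (u') ⊆ Oˣ`.** -/
theorem inv_mem_of_chart₂ (O : ValuationSubring (fixedField Γ))
    (hB : ∀ b : B0 C Γ, algebraMap (B0 C Γ) (fixedField Γ) b ∈ O)
    (hρ : ∀ b : B0 C Γ, rho2 C Γ b ≠ 0 → (algebraMap (B0 C Γ) (fixedField Γ) b)⁻¹ ∈ O)
    (r : Localization.AtPrime (nodeIdeal (Γ := Γ) h.hL2 s))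
    (hr : ¬ algebraMap (B0 C Γ) _ u' ∣ r) :
    (algebraMap (Localization.AtPrime (nodeIdeal (Γ := Γ) h.hL2 s)) (fixedField Γ) r)⁻¹ ∈ O :=
  NodeLocalDatum.inv_mem_of_not_dvd (S := Localization.AtPrime (nodeIdeal (Γ := Γ) h.hL2 s))
    (rho2 C Γ) (rho1 C Γ) (nodeIdeal (Γ := Γ) h.hL2 s) O
    (algebraMap_fixed_injective C Γ) hB hρ (natCast_B0_ne_zero h)
    (fun _ hf2 hf1 => natCast_dvd_of_rho_eq_zero h hD hp hf1 hf2)
    (by rw [mul_comm]; exact hrel) h1 hΨ hr

include h hG hD hF hp hrel h1 h2 hΨ in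
/-- **X12, THE EXPORT**: the downstairs datum of the node `s`, from the thickness data (X9) and
the chart-level branch facts of two valuation subrings of the fixed field with order functions
normalised by `v p = 1`. -/
theorem nodeDown (hu' : rho1 C Γ u' ≠ 0)
    {Oinf Ozero : ValuationSubring (fixedField Γ)} {vinf vzero : fixedField Γ → ℤ}
    (hBinf : ∀ b : B0 C Γ, algebraMap (B0 C Γ) (fixedField Γ) b ∈ Oinf)
    (hρinf : ∀ b : B0 C Γ, rho1 C Γ b ≠ 0 → (algebraMap (B0 C Γ) (fixedField Γ) b)⁻¹ ∈ Oinf)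
    (hBzero : ∀ b : B0 C Γ, algebraMap (B0 C Γ) (fixedField Γ) b ∈ Ozero)
    (hρzero : ∀ b : B0 C Γ, rho2 C Γ b ≠ 0 → (algebraMap (B0 C Γ) (fixedField Γ) b)⁻¹ ∈ Ozero)
    (hvinf : IsOrd Oinf vinf) (hvzero : IsOrd Ozero vzero)
    (hvinf_p : vinf ((p : ℕ) : fixedField Γ) = 1) (hvzero_p : vzero ((p : ℕ) : fixedField Γ) = 1) :
    haveI : IsNoetherianRing (B0 C Γ) := isNoetherianRing_B0 h hG hD hF
    NodeDown (Localization.AtPrime (nodeIdeal (Γ := Γ) h.hL2 s)) (fixedField Γ) p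
      (algebraMap (B0 C Γ) _ u) (algebraMap (B0 C Γ) _ u') Oinf Ozero vinf vzero := by
  haveI : IsNoetherianRing (B0 C Γ) := isNoetherianRing_B0 h hG hD hF
  exact
    { node := NodeRing.isNodeRing h hG hD hF hp s hrel h1 h2 hΨ hu'
      frac := isFractionRing_Rs h hG hD hF s
      algClosed := isAlgClosed_residueField_Rs h hD s
      inf_mem := mem_of_chart₁ h s Oinf hBinf hρinf
      inf_unit := inv_mem_of_chart₁ h hD s hp hrel h2 hΨ Oinf hBinf hρinf
      zero_mem := mem_of_chart₂ h s Ozero hBzero hρzero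
      zero_unit := inv_mem_of_chart₂ h hD s hp hrel h1 hΨ Ozero hBzero hρzero
      isOrd_inf := hvinf
      isOrd_zero := hvzero
      vinf_p := hvinf_p
      vzero_p := hvzero_p }

end Thick

/-! ### (n4): the fixed constants lie in `Rs[1/p]` -/

include h in
/-- every fixed constant `c ∈ K_0 = K^Γ` is `a / p ^ n` with `a ∈ Rs` (even `a ∈ W = A^Γ`). -/
theorem exists_const_mul_pow {c : K} (hc : IsFixedK Γ c) :
    ∃ (a : Localization.AtPrime (nodeIdeal (Γ := Γ) h.hL2 s)) (n : ℕ),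
      algebraMap K F c * ((p : ℕ) : F) ^ n =
        ((algebraMap (Localization.AtPrime (nodeIdeal (Γ := Γ) h.hL2 s)) (fixedField Γ) a :
          fixedField Γ) : F) := by
  obtain ⟨y, n, hy, hyc⟩ := exists_mul_pow_mem (Γ := Γ) R (ϖ := ((p : ℕ) : A))
    (NodeRing.natCast_mem_maximalIdeal h) (NodeRing.isFixedK_natCast p) hc
  refine ⟨algebraMap (B0 C Γ) _ (algebraMap (fixedSubring (A := A) Γ) (B0 C Γ) ⟨y, hy⟩), n, ?_⟩
  rw [algebraMap_loc_algebraMap, coe_algebraMap_fixed]
  have h1 : ((algebraMap (fixedSubring (A := A) Γ) (B0 C Γ) ⟨y, hy⟩ : B0 C Γ) : F) =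
      algebraMap K F (y : K) := rfl
  rw [h1, ← hyc, map_mul, map_pow]
  congr 2
  have h2 : ((((p : ℕ) : A) : A) : K) = ((p : ℕ) : K) := by simp
  rw [h2, map_natCast]

include h in
/-- the same in the binder shape `hK0R` of `R2/NodeCover/EtBundle.hK0_Rstar` (downstairs:
`E0 := fixedField Γ`, `j := (fixedField Γ).subtype`). -/
theorem exists_const_mul_pow' {c : K} (hc : IsFixedK Γ c) :
    ∃ (a : Localization.AtPrime (nodeIdeal (Γ := Γ) h.hL2 s)) (n : ℕ),
      algebraMap K F c * (fixedField Γ).subtype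
          (algebraMap (Localization.AtPrime (nodeIdeal (Γ := Γ) h.hL2 s)) (fixedField Γ)
            (((p : ℕ) : Localization.AtPrime (nodeIdeal (Γ := Γ) h.hL2 s)) ^ n)) =
        (fixedField Γ).subtype
          (algebraMap (Localization.AtPrime (nodeIdeal (Γ := Γ) h.hL2 s)) (fixedField Γ) a) := by
  obtain ⟨a, n, ha⟩ := exists_const_mul_pow h s hc
  refine ⟨a, n, ?_⟩
  rw [map_pow, map_natCast, map_pow, map_natCast]
  exact ha

end Ctx

/-! ## Part C: two valuation rings

When the reduction datum is `redSetupTwoVal R₁ R₂ hπ` (two valuation subrings `O₁`, `O₂` of `F`,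
as at the concrete level: `O₁ = valInfty`, `O₂ = valZero`), the two branches are the restrictions
`O₁.comap (fixedField Γ).subtype`, `O₂.comap (fixedField Γ).subtype` (`= Node/OrdF0.Oinf`, `Ozero`
for `F' := fixedField Γ`, and `= Node/SmoothBInst.Oinf Γ O₁`), and the chart-level branch facts
hold by construction. -/

section TwoVal

open AlgebraicCurve Module
open Fermat.Agent.S34x Fermat.Agent.S34x.C0two Fermat.Agent.S34x.Lattice2
open Fermat.Agent.S19x.Geo.LatticeFixed (IsFixed IsFixedK)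
open Fermat.Agent.S33x.H1.LatticeFixed2 Fermat.Agent.S33x.H1.FixedDecomp
open Fermat.Agent.S33x.W.InstW
open Fermat.Agent.S40x.Node.NodeInst Fermat.Agent.S40x.Node.NodeFrac
open Fermat.Agent.S33x.Cech.CtxMq Fermat.Agent.S33x.W.InstWCtx

section Chart

variable {K : Type*} [Field K] {A : ValuationSubring K} {F : Type*} [Field F] [Algebra K F]
  {O₁ O₂ : ValuationSubring F} {k κ₁ κ₂ : Type*} [Field k] [Field κ₁] [Field κ₂]
  [Algebra k κ₁] [Algebra k κ₂]
  {R₁ : Gateway.C0.RedSetup A O₁ k κ₁} {R₂ : Gateway.C0.RedSetup A O₂ k κ₂} {hπ : R₁.π = R₂.π}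
  {C : ChartCoord (redSetupTwoVal R₁ R₂ hπ)} {Γ : Set (SemilinearAut K F)}

/-- `B_0 ⊆ O₁ ∩ F^Γ`. -/
theorem algebraMap_mem_comap₁ (b : B0 C Γ) :
    algebraMap (B0 C Γ) (fixedField Γ) b ∈ O₁.comap (fixedField Γ).subtype :=
  (coe_mem_O b).1

/-- `B_0 ⊆ O₂ ∩ F^Γ`. -/
theorem algebraMap_mem_comap₂ (b : B0 C Γ) :
    algebraMap (B0 C Γ) (fixedField Γ) b ∈ O₂.comap (fixedField Γ).subtype :=
  (coe_mem_O b).2

/-- an element of a valuation subring with non-zero residue is a unit. -/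
theorem inv_mem_of_res_ne_zero {κ : Type*} [Field κ] [Algebra k κ] {O : ValuationSubring F}
    (R' : Gateway.C0.RedSetup A O k κ) {f : F} (hf : f ∈ O) (hres : R'.res ⟨f, hf⟩ ≠ 0) :
    f⁻¹ ∈ O := by
  rw [Ne, R'.res_ker, not_lt] at hres
  have hle : O.valuation f ≤ 1 := (O.valuation_le_one_iff _).mpr hf
  have h1 : O.valuation f = 1 := le_antisymm hle hres
  rw [← O.valuation_le_one_iff, map_inv₀, h1, inv_one]

/-- an element of `B_0` with non-zero reduction on the first component is a unit of `O₁`. -/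
theorem inv_mem_comap₁ {b : B0 C Γ} (hb : rho1 C Γ b ≠ 0) :
    (algebraMap (B0 C Γ) (fixedField Γ) b)⁻¹ ∈ O₁.comap (fixedField Γ).subtype := by
  have h1 : R₁.res ⟨(b : F), (coe_mem_O b).1⟩ ≠ 0 := by
    intro h0
    apply hb
    apply Subtype.ext
    show ((rho1 C Γ b : C.B₁) : κ₁) = 0
    rw [coe_rho1, resB_apply]
    exact h0
  exact inv_mem_of_res_ne_zero R₁ (coe_mem_O b).1 h1

/-- an element of `B_0` with non-zero reduction on the second component is a unit of `O₂`. -/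
theorem inv_mem_comap₂ {b : B0 C Γ} (hb : rho2 C Γ b ≠ 0) :
    (algebraMap (B0 C Γ) (fixedField Γ) b)⁻¹ ∈ O₂.comap (fixedField Γ).subtype := by
  have h1 : R₂.res ⟨(b : F), (coe_mem_O b).2⟩ ≠ 0 := by
    intro h0
    apply hb
    apply Subtype.ext
    show ((rho2 C Γ b : C.B₂) : κ₂) = 0
    rw [coe_rho2, resB_apply]
    exact h0
  exact inv_mem_of_res_ne_zero R₂ (coe_mem_O b).2 h1

end Chart

variable {K : Type*} [Field K] [IsAlgClosed K] [CharZero K] {A : ValuationSubring K}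
  {F : Type*} [Field F] [Algebra K F] {O₁ O₂ : ValuationSubring F}
  {k : Type*} [Field k] [IsAlgClosed k] {E : Type*} [Field E] [Algebra k E]
  {R₁ : Gateway.C0.RedSetup A O₁ k E} {R₂ : Gateway.C0.RedSetup A O₂ k E} {hπ : R₁.π = R₂.π}
  {C : ChartCoord (redSetupTwoVal R₁ R₂ hπ)} {p q : ℕ} {x : E} {Dt : Divisor K F}
  (h : Ctx (redSetupTwoVal R₁ R₂ hπ) C p q x Dt) {Γ : Set (SemilinearAut K F)}
  (hG : CtxGal (redSetupTwoVal R₁ R₂ hπ) C Γ)

include h hG in
/-- **X12, THE EXPORT for two valuation rings**: the only inputs left are the thickness data (X9),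
the uniformiser hypothesis `hp` and the two order functions (`Node/OrdF0` at the concrete level). -/
theorem nodeDown_twoVal (hD : FixData2 (redSetupTwoVal R₁ R₂ hπ) Γ)
    (hF : Submodule.span K {f : F | IsFixed Γ f} = ⊤)
    (hp : ∀ c : A, IsFixedK Γ (c : K) → c ∈ maximalIdeal A → ((p : ℕ) : A) ∣ c)
    (s : Goursat.Nodes C.BbarT h.hL2.h2)
    {u u' Ψ : B0 C Γ} (hrel : u * u' = ((p : ℕ) : B0 C Γ) * Ψ)
    (h1 : rho1 C Γ u = 0) (h2 : rho2 C Γ u' = 0)
    (hΨ : Ψ ∉ nodeIdeal (Γ := Γ) h.hL2 s) (hu' : rho1 C Γ u' ≠ 0)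
    {vinf vzero : fixedField Γ → ℤ}
    (hvinf : IsOrd (O₁.comap (fixedField Γ).subtype) vinf)
    (hvzero : IsOrd (O₂.comap (fixedField Γ).subtype) vzero)
    (hvinf_p : vinf ((p : ℕ) : fixedField Γ) = 1) (hvzero_p : vzero ((p : ℕ) : fixedField Γ) = 1) :
    haveI : IsNoetherianRing (B0 C Γ) := isNoetherianRing_B0 h hG hD hF
    NodeDown (Localization.AtPrime (nodeIdeal (Γ := Γ) h.hL2 s)) (fixedField Γ) p
      (algebraMap (B0 C Γ) _ u) (algebraMap (B0 C Γ) _ u')
      (O₁.comap (fixedField Γ).subtype) (O₂.comap (fixedField Γ).subtype) vinf vzero :=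
  nodeDown h hG hD hF s hp hrel h1 h2 hΨ hu' algebraMap_mem_comap₁
    (fun _ hb => inv_mem_comap₁ hb) algebraMap_mem_comap₂ (fun _ hb => inv_mem_comap₂ hb)
    hvinf hvzero hvinf_p hvzero_p

end TwoVal

end Fermat.Agent.S40x.Node.Export

end
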