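import Mathlib
import Fermat.Agent.S40x.Node.NodeDatum

/-!
# P-S44, block R1, leaf N4-Et: the etale lift of a smooth-point ring / node ring (helper62)

`R` a Noetherian local domain, `Q ∈ R[X]` monic, `c ∈ R` a simple root of `Q` modulo the maximal
ideal (`Q(c) ∈ m`, `Q'(c)` a unit), `AdjoinRoot Q` a domain.  Put

* `maxIdeal Q c hc = (m, θ - c)`, the kernel of `AdjoinRoot Q → R ⧸ m`, `θ ↦ c`;
* `Loc Q c hc` the localisation of `AdjoinRoot Q` at it, `incl : R →+* Loc Q c hc`.

Then (`R → Loc` is a local-etale extension with trivial residue extension):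

* `maximalIdeal_loc` : `maximalIdeal Loc = (maximalIdeal R).map incl`  (`θ - c ∈ m Loc`);
* `mem_of_incl_mem_map` **(CONTRACTION)** : `incl x ∈ I.map incl → x ∈ I` for EVERY ideal `I` of `R`
  (hands-on faithful flatness through the power basis); `incl_injective`, `dvd_of_incl_dvd`,
  `pow_dvd_of_incl_pow_dvd`;
* `prime_incl` : if `m = (z, t)`, `z` prime, `z ∤ t` then `incl z` is a prime element of `Loc` and
  `incl z ∤ incl t`;
* `isSmoothPtRing_loc`, `isNodeRing_loc` : the literals `IsSmoothPtRing`, `IsNodeRing` of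
  `Node/NodeDatum` lift to `Loc`;
* `exists_sub_mem_maximalIdeal` : `Loc = incl R + m Loc` (residue field unchanged).
-/

set_option autoImplicit false
set_option linter.unusedSectionVars false
set_option linter.style.haveILetI false

noncomputable section

namespace Fermat.Agent.S40x.Node.SmoothEt

open IsLocalRing Polynomial

/-! ### Two general lemmas -/

section General

variable {R : Type*} [CommRing R]

/-- an `R`-linear functional maps `I A` into `I`. -/
theorem linearMap_mem_of_mem_map {A : Type*} [CommRing A] [Algebra R A] (I : Ideal R) {y : A}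
    (hy : y ∈ I.map (algebraMap R A)) (φ : A →ₗ[R] R) : φ y ∈ I := by
  unfold Ideal.map at hy
  induction hy using Submodule.span_induction generalizing φ with
  | mem x hx =>
    obtain ⟨a, ha, rfl⟩ := hx
    have : φ (algebraMap R A a) = a * φ 1 := by
      rw [Algebra.algebraMap_eq_smul_one, map_smul, smul_eq_mul]
    rw [this]
    exact I.mul_mem_right _ ha
  | zero => rw [map_zero]; exact I.zero_mem
  | add x y _ _ hx hy => rw [map_add]; exact I.add_mem (hx φ) (hy φ)
  | smul r x _ hx =>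
    have : φ (r • x) = (φ.comp (LinearMap.mulLeft R r)) x := by
      simp [smul_eq_mul]
    rw [this]
    exact hx _

/-- a Noetherian local ring whose maximal ideal is generated by one non-nilpotent element is a
domain. -/
theorem isDomain_of_maximalIdeal_eq_span {B : Type*} [CommRing B] [IsNoetherianRing B]
    [IsLocalRing B] {τ : B} (hmax : maximalIdeal B = Ideal.span {τ}) (hnil : ∀ n : ℕ, τ ^ n ≠ 0) :
    IsDomain B := by
  have key : ∀ x : B, x ≠ 0 → ∃ (n : ℕ) (w : B), IsUnit w ∧ x = τ ^ n * w := by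
    intro x hx
    have hK := Ideal.iInf_pow_eq_bot_of_isLocalRing (maximalIdeal B)
      (IsLocalRing.maximalIdeal.isMaximal B).ne_top
    have hex : ∃ i : ℕ, x ∉ maximalIdeal B ^ i := by
      by_contra hall
      push Not at hall
      have : x ∈ ⨅ i, maximalIdeal B ^ i := (Ideal.mem_iInf).mpr hall
      rw [hK] at this
      exact hx ((Submodule.mem_bot B).mp this)
    classical
    set i := Nat.find hex with hi
    have hi1 : x ∉ maximalIdeal B ^ i := Nat.find_spec hex
    have hi0 : i ≠ 0 := by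
      intro h0
      rw [h0, pow_zero, Ideal.one_eq_top] at hi1
      exact hi1 (Submodule.mem_top)
    obtain ⟨n, hn⟩ : ∃ n, i = n + 1 := Nat.exists_eq_succ_of_ne_zero hi0
    have hmem : x ∈ maximalIdeal B ^ n := by
      by_contra hnot
      have := Nat.find_min' hex hnot
      omega
    rw [hmax, Ideal.span_singleton_pow, Ideal.mem_span_singleton] at hmem
    obtain ⟨w, hw⟩ := hmem
    refine ⟨n, w, ?_, hw⟩
    by_contra hwu
    have hwm : w ∈ maximalIdeal B := (IsLocalRing.mem_maximalIdeal w).mpr hwu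
    rw [hmax, Ideal.mem_span_singleton] at hwm
    obtain ⟨w', rfl⟩ := hwm
    apply hi1
    rw [hn, hmax, Ideal.span_singleton_pow, Ideal.mem_span_singleton]
    exact ⟨w', by rw [hw, pow_succ]; ring⟩
  have hnzd : NoZeroDivisors B := by
    refine ⟨fun {x y} hxy => ?_⟩
    by_contra hne
    push Not at hne
    obtain ⟨n, w, hw, rfl⟩ := key x hne.1
    obtain ⟨m, w', hw', rfl⟩ := key y hne.2
    have h1 : τ ^ (n + m) * (w * w') = 0 := by rw [← hxy, pow_add]; ring
    have h2 : τ ^ (n + m) = 0 := (hw.mul hw').mul_left_eq_zero.mp h1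
    exact hnil _ h2
  exact NoZeroDivisors.to_isDomain B

end General

/-! ### The local-etale extension -/

section Etale

variable {R : Type*} [CommRing R] [IsLocalRing R] (Q : R[X]) (c : R)

/-- evaluation `AdjoinRoot Q → R ⧸ m`, `θ ↦ c`. -/
def evalRes (hc : Q.eval c ∈ maximalIdeal R) : AdjoinRoot Q →+* ResidueField R :=
  AdjoinRoot.lift (residue R) (residue R c) (by
    rw [Polynomial.eval₂_at_apply, residue_eq_zero_iff]; exact hc)

variable {Q c}

@[simp]
theorem evalRes_of (hc : Q.eval c ∈ maximalIdeal R) (x : R) :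
    evalRes Q c hc (AdjoinRoot.of Q x) = residue R x :=
  AdjoinRoot.lift_of _

@[simp]
theorem evalRes_root (hc : Q.eval c ∈ maximalIdeal R) :
    evalRes Q c hc (AdjoinRoot.root Q) = residue R c :=
  AdjoinRoot.lift_root _

variable (Q c) in
/-- the maximal ideal `(m, θ - c)` of `AdjoinRoot Q`. -/
def maxIdeal (hc : Q.eval c ∈ maximalIdeal R) : Ideal (AdjoinRoot Q) :=
  RingHom.ker (evalRes Q c hc)

instance maxIdeal_isPrime (hc : Q.eval c ∈ maximalIdeal R) : (maxIdeal Q c hc).IsPrime :=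
  RingHom.ker_isPrime _

theorem mem_maxIdeal_iff (hc : Q.eval c ∈ maximalIdeal R) {a : AdjoinRoot Q} :
    a ∈ maxIdeal Q c hc ↔ evalRes Q c hc a = 0 := Iff.rfl

theorem of_mem_maxIdeal_iff (hc : Q.eval c ∈ maximalIdeal R) {x : R} :
    AdjoinRoot.of Q x ∈ maxIdeal Q c hc ↔ x ∈ maximalIdeal R := by
  rw [mem_maxIdeal_iff, evalRes_of, residue_eq_zero_iff]

theorem root_sub_mem_maxIdeal (hc : Q.eval c ∈ maximalIdeal R) :
    AdjoinRoot.root Q - AdjoinRoot.of Q c ∈ maxIdeal Q c hc := by
  rw [mem_maxIdeal_iff, map_sub, evalRes_of, evalRes_root, sub_self]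

theorem map_le_maxIdeal (hc : Q.eval c ∈ maximalIdeal R) :
    (maximalIdeal R).map (AdjoinRoot.of Q) ≤ maxIdeal Q c hc := by
  rw [Ideal.map_le_iff_le_comap]
  intro x hx
  exact (of_mem_maxIdeal_iff hc).mpr hx

/-- every element of `AdjoinRoot Q` is congruent to an element of `R` modulo `θ - c`. -/
theorem exists_eq_add_mul (a : AdjoinRoot Q) :
    ∃ (r : R) (a₁ : AdjoinRoot Q),
      a = AdjoinRoot.of Q r + (AdjoinRoot.root Q - AdjoinRoot.of Q c) * a₁ := by
  obtain ⟨P, rfl⟩ := AdjoinRoot.mk_surjective a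
  refine ⟨P.eval c, AdjoinRoot.mk Q (P /ₘ (X - C c)), ?_⟩
  have h := Polynomial.modByMonic_add_div P (X - C c)
  rw [Polynomial.modByMonic_X_sub_C_eq_C_eval] at h
  conv_lhs => rw [← h]
  rw [map_add, map_mul, map_sub, AdjoinRoot.mk_C, AdjoinRoot.mk_X, AdjoinRoot.mk_C]

/-- elements of the maximal ideal: `a = r + (θ - c) a₁` with `r ∈ m`. -/
theorem exists_eq_add_mul_of_mem (hc : Q.eval c ∈ maximalIdeal R) {a : AdjoinRoot Q}
    (ha : a ∈ maxIdeal Q c hc) :
    ∃ (r : R) (a₁ : AdjoinRoot Q), r ∈ maximalIdeal R ∧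
      a = AdjoinRoot.of Q r + (AdjoinRoot.root Q - AdjoinRoot.of Q c) * a₁ := by
  obtain ⟨r, a₁, h⟩ := exists_eq_add_mul (c := c) a
  refine ⟨r, a₁, ?_, h⟩
  rw [mem_maxIdeal_iff, h, map_add, map_mul, map_sub, evalRes_of, evalRes_of, evalRes_root,
    sub_self, zero_mul, add_zero, residue_eq_zero_iff] at ha
  exact ha

/-- **Taylor**: `0 = Q(c) + (θ - c) w` with `w ≡ Q'(c)` modulo `θ - c`. -/
theorem exists_taylor :
    ∃ k : AdjoinRoot Q, AdjoinRoot.of Q (Q.eval c) + (AdjoinRoot.root Q - AdjoinRoot.of Q c) *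
      (AdjoinRoot.of Q (Q.derivative.eval c) + k * (AdjoinRoot.root Q - AdjoinRoot.of Q c)) = 0 := by
  obtain ⟨k, hk⟩ := Polynomial.binomExpansion (Q.map (AdjoinRoot.of Q)) (AdjoinRoot.of Q c)
    (AdjoinRoot.root Q - AdjoinRoot.of Q c)
  refine ⟨k, ?_⟩
  have h0 : (Q.map (AdjoinRoot.of Q)).eval (AdjoinRoot.of Q c +
      (AdjoinRoot.root Q - AdjoinRoot.of Q c)) = 0 := by
    rw [add_sub_cancel, Polynomial.eval_map, AdjoinRoot.eval₂_root]
  rw [h0, Polynomial.eval_map_apply, Polynomial.derivative_map, Polynomial.eval_map_apply] at hk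
  rw [hk]
  ring

variable (Q c) in
/-- the localisation of `AdjoinRoot Q` at `(m, θ - c)`. -/
abbrev Loc (hc : Q.eval c ∈ maximalIdeal R) : Type _ := Localization.AtPrime (maxIdeal Q c hc)

variable (Q c) in
/-- the structure map `R → Loc`. -/
def incl (hc : Q.eval c ∈ maximalIdeal R) : R →+* Loc Q c hc :=
  (algebraMap (AdjoinRoot Q) (Loc Q c hc)).comp (AdjoinRoot.of Q)

theorem incl_apply (hc : Q.eval c ∈ maximalIdeal R) (x : R) :
    incl Q c hc x = algebraMap (AdjoinRoot Q) (Loc Q c hc) (AdjoinRoot.of Q x) := rfl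

theorem incl_eq_algebraMap (hc : Q.eval c ∈ maximalIdeal R) :
    incl Q c hc = algebraMap R (Loc Q c hc) := by
  ext x
  rw [incl_apply, IsScalarTower.algebraMap_apply R (AdjoinRoot Q) (Loc Q c hc),
    AdjoinRoot.algebraMap_eq]

/-- an element outside `(m, θ - c)` becomes a unit of `Loc`. -/
theorem isUnit_algebraMap_of_notMem (hc : Q.eval c ∈ maximalIdeal R) {s : AdjoinRoot Q}
    (hs : s ∉ maxIdeal Q c hc) : IsUnit (algebraMap (AdjoinRoot Q) (Loc Q c hc) s) :=
  IsLocalization.map_units (Loc Q c hc) (⟨s, hs⟩ : (maxIdeal Q c hc).primeCompl)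

/-- `θ - c ∈ m Loc` (this is where `Q'(c)` is a unit). -/
theorem root_sub_mem_map (hc : Q.eval c ∈ maximalIdeal R)
    (hc' : IsUnit (Q.derivative.eval c)) :
    algebraMap (AdjoinRoot Q) (Loc Q c hc) (AdjoinRoot.root Q - AdjoinRoot.of Q c) ∈
      (maximalIdeal R).map (incl Q c hc) := by
  obtain ⟨k, hk⟩ := exists_taylor (Q := Q) (c := c)
  set δ := AdjoinRoot.root Q - AdjoinRoot.of Q c with hδ
  set w := AdjoinRoot.of Q (Q.derivative.eval c) + k * δ with hw
  have hwM : w ∉ maxIdeal Q c hc := by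
    rw [mem_maxIdeal_iff, hw, map_add, map_mul, hδ, map_sub, evalRes_of, evalRes_of, evalRes_root,
      sub_self, mul_zero, add_zero, residue_eq_zero_iff]
    exact fun h => (IsLocalRing.mem_maximalIdeal _).mp h hc'
  obtain ⟨v, hv⟩ := (isUnit_algebraMap_of_notMem hc hwM).exists_right_inv
  have h1 : algebraMap (AdjoinRoot Q) (Loc Q c hc) δ =
      -(incl Q c hc (Q.eval c)) * v := by
    have h2 := congrArg (algebraMap (AdjoinRoot Q) (Loc Q c hc)) hk
    rw [map_add, map_mul, map_zero] at h2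
    have h3 : algebraMap (AdjoinRoot Q) (Loc Q c hc) δ *
        algebraMap (AdjoinRoot Q) (Loc Q c hc) w = -(incl Q c hc (Q.eval c)) := by
      rw [incl_apply]; linear_combination h2
    calc algebraMap (AdjoinRoot Q) (Loc Q c hc) δ
        = algebraMap (AdjoinRoot Q) (Loc Q c hc) δ *
          (algebraMap (AdjoinRoot Q) (Loc Q c hc) w * v) := by rw [hv, mul_one]
      _ = -(incl Q c hc (Q.eval c)) * v := by rw [← mul_assoc, h3]
  rw [h1]
  exact Ideal.mul_mem_right _ _ (neg_mem (Ideal.mem_map_of_mem _ hc))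

/-- **the maximal ideal of `Loc` is `m Loc`.** -/
theorem maximalIdeal_loc (hc : Q.eval c ∈ maximalIdeal R) (hc' : IsUnit (Q.derivative.eval c)) :
    maximalIdeal (Loc Q c hc) = (maximalIdeal R).map (incl Q c hc) := by
  apply le_antisymm
  · rw [← Localization.AtPrime.map_eq_maximalIdeal, Ideal.map_le_iff_le_comap]
    intro a ha
    obtain ⟨r, a₁, hr, rfl⟩ := exists_eq_add_mul_of_mem hc ha
    rw [Ideal.mem_comap, map_add, map_mul]
    exact Ideal.add_mem _ (Ideal.mem_map_of_mem (incl Q c hc) hr)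
      (Ideal.mul_mem_right _ _ (root_sub_mem_map hc hc'))
  · rw [Ideal.map_le_iff_le_comap]
    intro x hx
    rw [Ideal.mem_comap, ← Localization.AtPrime.map_eq_maximalIdeal, incl_apply]
    exact Ideal.mem_map_of_mem _ ((of_mem_maxIdeal_iff hc).mpr hx)

/-- an element outside `(m, θ - c)` has a coordinate functional with unit value
(`Q` monic: power basis). -/
theorem exists_linearMap_isUnit (hQ : Q.Monic) (hc : Q.eval c ∈ maximalIdeal R)
    {s : AdjoinRoot Q} (hs : s ∉ maxIdeal Q c hc) :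
    ∃ φ : AdjoinRoot Q →ₗ[R] R, IsUnit (φ s) := by
  by_contra hno
  push Not at hno
  apply hs
  set b := (AdjoinRoot.powerBasis' hQ).basis with hb
  have hsum : s = ∑ i, b.repr s i • b i := (b.sum_repr s).symm
  rw [hsum]
  refine Ideal.sum_mem _ (fun i _ => ?_)
  have hi : b.repr s i ∈ maximalIdeal R := by
    have := hno (b.coord i)
    rw [Module.Basis.coord_apply] at this
    exact (IsLocalRing.mem_maximalIdeal _).mpr this
  rw [Algebra.smul_def, AdjoinRoot.algebraMap_eq]
  exact Ideal.mul_mem_right _ _ ((of_mem_maxIdeal_iff hc).mpr hi)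

section Domain

variable [IsDomain (AdjoinRoot Q)]

theorem primeCompl_le_nonZeroDivisors (hc : Q.eval c ∈ maximalIdeal R) :
    (maxIdeal Q c hc).primeCompl ≤ nonZeroDivisors (AdjoinRoot Q) := by
  intro s hs
  refine mem_nonZeroDivisors_of_ne_zero ?_
  rintro rfl
  exact hs (Ideal.zero_mem _)

instance loc_isDomain (hc : Q.eval c ∈ maximalIdeal R) : IsDomain (Loc Q c hc) :=
  IsLocalization.isDomain_localization (primeCompl_le_nonZeroDivisors hc)

theorem algebraMap_loc_injective (hc : Q.eval c ∈ maximalIdeal R) :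
    Function.Injective (algebraMap (AdjoinRoot Q) (Loc Q c hc)) :=
  IsLocalization.injective _ (primeCompl_le_nonZeroDivisors hc)

/-- **CONTRACTION**: `I Loc ∩ R = I` for every ideal `I` of `R`. -/
theorem mem_of_incl_mem_map (hQ : Q.Monic) (hc : Q.eval c ∈ maximalIdeal R) (I : Ideal R) {x : R}
    (hx : incl Q c hc x ∈ I.map (incl Q c hc)) : x ∈ I := by
  have hmap : I.map (incl Q c hc) =
      (I.map (AdjoinRoot.of Q)).map (algebraMap (AdjoinRoot Q) (Loc Q c hc)) := by
    rw [Ideal.map_map]; rfl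
  rw [hmap, IsLocalization.mem_map_algebraMap_iff (maxIdeal Q c hc).primeCompl] at hx
  obtain ⟨⟨⟨j, hj⟩, ⟨s, hs⟩⟩, hjs⟩ := hx
  simp only at hjs
  rw [incl_apply, ← map_mul] at hjs
  have hjs' : AdjoinRoot.of Q x * s = j := algebraMap_loc_injective hc hjs
  obtain ⟨φ, hφ⟩ := exists_linearMap_isUnit hQ hc hs
  have hj' : j ∈ I.map (algebraMap R (AdjoinRoot Q)) := by
    rw [AdjoinRoot.algebraMap_eq]; exact hj
  have h1 := linearMap_mem_of_mem_map I hj' φ
  rw [← hjs', ← AdjoinRoot.algebraMap_eq, ← Algebra.smul_def, map_smul, smul_eq_mul] at h1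
  obtain ⟨v, hv⟩ := hφ.exists_right_inv
  have : x = x * φ s * v := by rw [mul_assoc, hv, mul_one]
  rw [this]
  exact I.mul_mem_right _ h1

theorem incl_injective (hQ : Q.Monic) (hc : Q.eval c ∈ maximalIdeal R) :
    Function.Injective (incl Q c hc) := by
  rw [injective_iff_map_eq_zero]
  intro x hx
  have : incl Q c hc x ∈ (⊥ : Ideal R).map (incl Q c hc) := by
    rw [hx]; exact Ideal.zero_mem _
  exact (Submodule.mem_bot R).mp (mem_of_incl_mem_map hQ hc ⊥ this)

theorem dvd_of_incl_dvd (hQ : Q.Monic) (hc : Q.eval c ∈ maximalIdeal R) {z x : R}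
    (h : incl Q c hc z ∣ incl Q c hc x) : z ∣ x := by
  rw [← Ideal.mem_span_singleton] at h ⊢
  apply mem_of_incl_mem_map hQ hc
  rwa [Ideal.map_span, Set.image_singleton]

theorem pow_dvd_of_incl_pow_dvd (hQ : Q.Monic) (hc : Q.eval c ∈ maximalIdeal R) {z x : R} {n : ℕ}
    (h : incl Q c hc z ^ n ∣ incl Q c hc x) : z ^ n ∣ x := by
  rw [← map_pow] at h
  exact dvd_of_incl_dvd hQ hc h

/-- the exact exponent of `z` is unchanged. -/
theorem incl_pow_dvd_iff (hQ : Q.Monic) (hc : Q.eval c ∈ maximalIdeal R) {z x : R} {n : ℕ} :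
    incl Q c hc z ^ n ∣ incl Q c hc x ↔ z ^ n ∣ x :=
  ⟨pow_dvd_of_incl_pow_dvd hQ hc, fun h => by
    rw [← map_pow]; exact map_dvd _ h⟩

/-- the order in the DVR `R ⧸ (z)` is unchanged: membership in `(z, t ^ n)`. -/
theorem incl_mem_span_pair_iff (hQ : Q.Monic) (hc : Q.eval c ∈ maximalIdeal R) {z t x : R} {n : ℕ} :
    incl Q c hc x ∈ Ideal.span {incl Q c hc z, incl Q c hc t ^ n} ↔ x ∈ Ideal.span {z, t ^ n} := by
  have hmap : (Ideal.span {z, t ^ n}).map (incl Q c hc) =
      Ideal.span {incl Q c hc z, incl Q c hc t ^ n} := by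
    rw [Ideal.map_span, Set.image_pair, map_pow]
  rw [← hmap]
  exact ⟨mem_of_incl_mem_map hQ hc _, Ideal.mem_map_of_mem _⟩

/-- the maximal ideal contracts to the maximal ideal (`incl` is a local homomorphism). -/
theorem incl_mem_maximalIdeal_iff (hQ : Q.Monic) (hc : Q.eval c ∈ maximalIdeal R)
    (hc' : IsUnit (Q.derivative.eval c)) {x : R} :
    incl Q c hc x ∈ maximalIdeal (Loc Q c hc) ↔ x ∈ maximalIdeal R := by
  rw [maximalIdeal_loc hc hc']
  exact ⟨mem_of_incl_mem_map hQ hc _, Ideal.mem_map_of_mem _⟩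

/-- units are detected in `R`. -/
theorem isUnit_incl_iff (hQ : Q.Monic) (hc : Q.eval c ∈ maximalIdeal R)
    (hc' : IsUnit (Q.derivative.eval c)) {x : R} :
    IsUnit (incl Q c hc x) ↔ IsUnit x := by
  have h := incl_mem_maximalIdeal_iff hQ hc hc' (x := x)
  rw [IsLocalRing.mem_maximalIdeal, IsLocalRing.mem_maximalIdeal, mem_nonunits_iff,
    mem_nonunits_iff, not_iff_not] at h
  exact h

variable [IsNoetherianRing R]

instance loc_isNoetherianRing (hc : Q.eval c ∈ maximalIdeal R) : IsNoetherianRing (Loc Q c hc) :=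
  IsLocalization.isNoetherianRing (maxIdeal Q c hc).primeCompl _ inferInstance

/-- **`incl z` is a prime element of `Loc`** when `m = (z, t)`, `z` prime, `z ∤ t`. -/
theorem prime_incl [IsDomain R] (hQ : Q.Monic) (hc : Q.eval c ∈ maximalIdeal R)
    (hc' : IsUnit (Q.derivative.eval c)) {z t : R}
    (hmax : maximalIdeal R = Ideal.span {z, t}) (hz : Prime z) (hzt : ¬ z ∣ t) :
    Prime (incl Q c hc z) := by
  set L := Loc Q c hc with hL
  set i := incl Q c hc with hi
  have hmaxL : maximalIdeal L = Ideal.span {i z, i t} := by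
    rw [maximalIdeal_loc hc hc', hmax, Ideal.map_span, Set.image_pair]
  have hizm : i z ∈ maximalIdeal L := by
    rw [hmaxL]; exact Ideal.subset_span (Set.mem_insert _ _)
  have hne_top : Ideal.span {i z} ≠ ⊤ := by
    intro h
    have : (1 : L) ∈ Ideal.span {i z} := by rw [h]; exact Submodule.mem_top
    rw [Ideal.mem_span_singleton] at this
    exact (IsLocalRing.mem_maximalIdeal _).mp hizm (isUnit_of_dvd_one this)
  set B := L ⧸ Ideal.span {i z} with hB
  set mk := Ideal.Quotient.mk (Ideal.span {i z}) with hmk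
  have hsurj : Function.Surjective mk := Ideal.Quotient.mk_surjective
  haveI : Nontrivial B := Ideal.Quotient.nontrivial_iff.mpr hne_top
  haveI : IsLocalRing B := IsLocalRing.of_surjective' mk hsurj
  -- the maximal ideal of `B` is generated by the class of `t`
  have hmaxB : maximalIdeal B = Ideal.span {mk (i t)} := by
    have hmap : (maximalIdeal L).map mk = Ideal.span {mk (i t)} := by
      rw [hmaxL, Ideal.map_span, Set.image_pair]
      have h0 : mk (i z) = 0 :=
        Ideal.Quotient.eq_zero_iff_mem.mpr (Ideal.mem_span_singleton_self _)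
      rw [h0]
      apply le_antisymm
      · rw [Ideal.span_le]
        rintro x (rfl | rfl)
        · exact Ideal.zero_mem _
        · exact Ideal.subset_span rfl
      · rw [Ideal.span_le]
        rintro x rfl
        exact Ideal.subset_span (Set.mem_insert_of_mem _ rfl)
    rw [← hmap]
    symm
    apply IsLocalRing.eq_maximalIdeal
    have hle : RingHom.ker mk ≤ maximalIdeal L := by
      rw [hmk, Ideal.mk_ker, Ideal.span_le]
      rintro x rfl
      exact hizm
    rcases Ideal.map_eq_top_or_isMaximal_of_surjective mk hsurj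
      (IsLocalRing.maximalIdeal.isMaximal L) with h1 | h1
    · exfalso
      have h2 : maximalIdeal L = ⊤ := by
        have := Ideal.comap_map_of_surjective mk hsurj (maximalIdeal L)
        rw [h1, Ideal.comap_top] at this
        have h3 : Ideal.comap mk ⊥ ≤ maximalIdeal L := hle
        rw [sup_of_le_left h3] at this
        exact this.symm
      exact (IsLocalRing.maximalIdeal.isMaximal L).ne_top h2
    · exact h1
  -- the class of `t` is not nilpotent (contraction)
  have hnil : ∀ n : ℕ, mk (i t) ^ n ≠ 0 := by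
    intro n h0
    rw [← map_pow, ← map_pow, Ideal.Quotient.eq_zero_iff_mem, Ideal.mem_span_singleton] at h0
    exact hzt (hz.dvd_of_dvd_pow (dvd_of_incl_dvd hQ hc h0))
  have hdom : IsDomain B := isDomain_of_maximalIdeal_eq_span hmaxB hnil
  have hz0 : i z ≠ 0 := fun h0 => hz.ne_zero (incl_injective hQ hc (by rw [h0, map_zero]))
  rw [← Ideal.span_singleton_prime hz0]
  exact (Ideal.Quotient.isDomain_iff_prime _).mp hdom

theorem not_incl_dvd (hQ : Q.Monic) (hc : Q.eval c ∈ maximalIdeal R) {z t : R} (hzt : ¬ z ∣ t) :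
    ¬ incl Q c hc z ∣ incl Q c hc t := fun h => hzt (dvd_of_incl_dvd hQ hc h)

end Domain

/-- **residue field unchanged**: `Loc = incl R + m Loc`. -/
theorem exists_sub_mem_maximalIdeal (hc : Q.eval c ∈ maximalIdeal R) (y : Loc Q c hc) :
    ∃ r : R, y - incl Q c hc r ∈ maximalIdeal (Loc Q c hc) := by
  obtain ⟨a, ⟨s, hs⟩, rfl⟩ := IsLocalization.exists_mk'_eq (maxIdeal Q c hc).primeCompl y
  obtain ⟨ra, a₁, ha⟩ := exists_eq_add_mul (c := c) a
  obtain ⟨rs, s₁, hs'⟩ := exists_eq_add_mul (c := c) s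
  -- `rs` is a unit of `R`
  have hrs : IsUnit rs := by
    by_contra hnu
    apply hs
    have hm : rs ∈ maximalIdeal R := (IsLocalRing.mem_maximalIdeal _).mpr hnu
    rw [hs']
    exact Ideal.add_mem _ ((of_mem_maxIdeal_iff hc).mpr hm)
      (Ideal.mul_mem_right _ _ (root_sub_mem_maxIdeal hc))
  obtain ⟨v, hv⟩ := hrs.exists_right_inv
  refine ⟨ra * v, ?_⟩
  set δ := AdjoinRoot.root Q - AdjoinRoot.of Q c with hδ
  set alg := algebraMap (AdjoinRoot Q) (Loc Q c hc) with halg
  have hunit : IsUnit (alg s) := isUnit_algebraMap_of_notMem hc hs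
  -- `(y - ra v) * s = a - ra v s ∈ M`
  have hnum : a - AdjoinRoot.of Q (ra * v) * s ∈ maxIdeal Q c hc := by
    have : a - AdjoinRoot.of Q (ra * v) * s =
        δ * (a₁ - AdjoinRoot.of Q (ra * v) * s₁) +
          AdjoinRoot.of Q (ra * (1 - v * rs)) := by
      rw [ha, hs']
      simp only [map_mul, map_sub, map_one]
      ring
    rw [this]
    refine Ideal.add_mem _ (Ideal.mul_mem_right _ _ (root_sub_mem_maxIdeal hc)) ?_
    have h0 : ra * (1 - v * rs) = 0 := by rw [mul_comm v rs, hv, sub_self, mul_zero]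
    rw [h0, map_zero]
    exact Ideal.zero_mem _
  have hmem : alg (a - AdjoinRoot.of Q (ra * v) * s) ∈ maximalIdeal (Loc Q c hc) := by
    rw [← Localization.AtPrime.map_eq_maximalIdeal]
    exact Ideal.mem_map_of_mem _ hnum
  obtain ⟨w, hw⟩ := hunit.exists_right_inv
  set x := AdjoinRoot.of Q (ra * v) with hx
  have h1 : IsLocalization.mk' (Loc Q c hc) a (⟨s, hs⟩ : (maxIdeal Q c hc).primeCompl) * alg s =
      alg a := IsLocalization.mk'_spec _ _ _
  have h2 : IsLocalization.mk' (Loc Q c hc) a (⟨s, hs⟩ : (maxIdeal Q c hc).primeCompl) =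
      alg a * w := by
    calc IsLocalization.mk' (Loc Q c hc) a (⟨s, hs⟩ : (maxIdeal Q c hc).primeCompl)
        = IsLocalization.mk' (Loc Q c hc) a (⟨s, hs⟩ : (maxIdeal Q c hc).primeCompl) *
          (alg s * w) := by rw [hw, mul_one]
      _ = (IsLocalization.mk' (Loc Q c hc) a (⟨s, hs⟩ : (maxIdeal Q c hc).primeCompl) * alg s) *
          w := by ring
      _ = alg a * w := by rw [h1]
  have h3 : alg (a - x * s) * w = alg a * w - alg x * (alg s * w) := by
    rw [RingHom.map_sub, RingHom.map_mul]; ring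
  have hy : IsLocalization.mk' (Loc Q c hc) a (⟨s, hs⟩ : (maxIdeal Q c hc).primeCompl) -
      incl Q c hc (ra * v) = alg (a - x * s) * w := by
    rw [h2, h3, hw, mul_one, incl_apply]
  rw [hy]
  exact Ideal.mul_mem_right _ _ hmem

end Etale

/-! ### The literals of `Node/NodeDatum` lift to `Loc` -/

section Literals

variable {R : Type*} [CommRing R] [IsDomain R] [IsNoetherianRing R] [IsLocalRing R]
  {Q : R[X]} {c : R} [IsDomain (AdjoinRoot Q)]

/-- **(N-Sm) lifts**: `IsSmoothPtRing R p t → IsSmoothPtRing Loc p (incl t)`. -/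
theorem isSmoothPtRing_loc (hQ : Q.Monic) (hc : Q.eval c ∈ maximalIdeal R)
    (hc' : IsUnit (Q.derivative.eval c)) {p : ℕ} {t : R} (h : IsSmoothPtRing R p t) :
    IsSmoothPtRing (Loc Q c hc) p (incl Q c hc t) where
  maximalIdeal_eq := by
    rw [maximalIdeal_loc hc hc', h.maximalIdeal_eq, Ideal.map_span, Set.image_pair, map_natCast]
  prime_p := by
    have := prime_incl hQ hc hc' h.maximalIdeal_eq h.prime_p h.not_dvd
    rwa [map_natCast] at this
  not_dvd := by
    have := not_incl_dvd hQ hc h.not_dvd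
    rwa [map_natCast] at this

/-- **(N-OUT) lifts**: `IsNodeRing R p u u' → IsNodeRing Loc p (incl u) (incl u')`. -/
theorem isNodeRing_loc (hQ : Q.Monic) (hc : Q.eval c ∈ maximalIdeal R)
    (hc' : IsUnit (Q.derivative.eval c)) {p : ℕ} {u u' : R} (h : IsNodeRing R p u u') :
    IsNodeRing (Loc Q c hc) p (incl Q c hc u) (incl Q c hc u') where
  mul_eq := by
    obtain ⟨ψ, hψ⟩ := h.mul_eq
    refine ⟨Units.map (incl Q c hc).toMonoidHom ψ, ?_⟩
    rw [← map_mul, hψ, map_mul, map_natCast]
    rfl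
  maximalIdeal_eq := by
    rw [maximalIdeal_loc hc hc', h.maximalIdeal_eq, Ideal.map_span, Set.image_pair]
  prime_u := prime_incl hQ hc hc' h.maximalIdeal_eq h.prime_u h.not_dvd
  prime_u' := prime_incl hQ hc hc' h.symm.maximalIdeal_eq h.prime_u' h.symm.not_dvd
  not_associated := fun hass => not_incl_dvd hQ hc h.not_dvd hass.dvd

end Literals

end Fermat.Agent.S40x.Node.SmoothEt
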