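/-
helper30 (P-S44, block R1 / N-alpha, leaf N1, abstract half; Mathlib only).

A subalgebra `B` of a commutative `W`-algebra `F` which is the union of an increasing chain of
`W`-submodules `M b`, with `M b₁` finitely generated and `M (b+1) = M b + t * M b` for `b ≥ b₁`
(`t ∈ B`), is a finitely generated `W`-algebra (generated by `t` and generators of `M b₁`); hence
a Noetherian ring when `W` is Noetherian (Hilbert's basis theorem).

Consumer: `Node/FixedNoeth` (the ring `B_0` of inertia-fixed functions of the chart ring `B_∞` over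
`O_0 = A^Γ`, with `M b = (L(b C_∞) ∩ O)^Γ`).
-/
import Mathlib

set_option autoImplicit false

namespace Fermat.Agent.S40x.Node.FiltNoeth

variable {W F : Type*} [CommRing W] [CommRing F] [Algebra W F]

/-- generation in degree one from `b₁` on: every `M b` lies in the subalgebra generated by `t`
and `M b₁`. -/
theorem le_adjoin (t : F) (M : ℕ → Submodule W F) (hmono : ∀ b, M b ≤ M (b + 1)) (b₁ : ℕ)
    (hgen : ∀ b, b₁ ≤ b → ∀ x ∈ M (b + 1), ∃ y ∈ M b, ∃ z ∈ M b, x = y + t * z) (b : ℕ) :
    M b ≤ Subalgebra.toSubmodule (Algebra.adjoin W (insert t (M b₁ : Set F))) := by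
  have hmono' : Monotone M := monotone_nat_of_le_succ hmono
  have hb₁ : M b₁ ≤ Subalgebra.toSubmodule (Algebra.adjoin W (insert t (M b₁ : Set F))) :=
    fun x hx => Algebra.subset_adjoin (Set.mem_insert_of_mem _ hx)
  have ht : t ∈ Algebra.adjoin W (insert t (M b₁ : Set F)) :=
    Algebra.subset_adjoin (Set.mem_insert _ _)
  by_cases hb : b ≤ b₁
  · exact (hmono' hb).trans hb₁
  · push Not at hb
    obtain ⟨d, rfl⟩ := Nat.exists_eq_add_of_le hb.le
    clear hb
    induction d with
    | zero => exact hb₁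
    | succ d ih =>
      intro x hx
      obtain ⟨y, hy, z, hz, rfl⟩ := hgen (b₁ + d) (Nat.le_add_right _ _) x hx
      exact Subalgebra.add_mem _ (ih hy) (Subalgebra.mul_mem _ ht (ih hz))

/-- **finite generation**: `B = W[t, M b₁]`. -/
theorem fg_of_filtration (B : Subalgebra W F) {t : F} (ht : t ∈ B) (M : ℕ → Submodule W F)
    (hMB : ∀ b, M b ≤ Subalgebra.toSubmodule B) (hBM : ∀ x ∈ B, ∃ b, x ∈ M b)
    (hmono : ∀ b, M b ≤ M (b + 1)) (b₁ : ℕ) (hfg : (M b₁).FG)
    (hgen : ∀ b, b₁ ≤ b → ∀ x ∈ M (b + 1), ∃ y ∈ M b, ∃ z ∈ M b, x = y + t * z) : B.FG := by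
  classical
  obtain ⟨s, hs⟩ := hfg
  refine ⟨insert t s, le_antisymm ?_ ?_⟩
  · rw [Algebra.adjoin_le_iff]
    intro x hx
    rw [Finset.coe_insert] at hx
    rcases hx with rfl | hx
    · exact ht
    · exact hMB b₁ (hs ▸ Submodule.subset_span hx)
  · intro x hx
    obtain ⟨b, hb⟩ := hBM x hx
    have h1 := le_adjoin t M hmono b₁ hgen b hb
    have h2 : Algebra.adjoin W (insert t (M b₁ : Set F)) ≤
        Algebra.adjoin W ((insert t s : Finset F) : Set F) := by
      rw [Algebra.adjoin_le_iff]
      intro y hy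
      rcases hy with rfl | hy
      · exact Algebra.subset_adjoin (by simp)
      · have hy' : y ∈ Submodule.span W (s : Set F) := hs ▸ hy
        have h3 : Submodule.span W (s : Set F) ≤
            Subalgebra.toSubmodule (Algebra.adjoin W ((insert t s : Finset F) : Set F)) :=
          Submodule.span_le.mpr fun z hz => Algebra.subset_adjoin (by simp [hz])
        exact h3 hy'
    exact h2 h1

/-- **Noetherianity** of the union of a filtration generated in degree one. -/
theorem isNoetherianRing_of_filtration [IsNoetherianRing W] (B : Subalgebra W F) {t : F}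
    (ht : t ∈ B) (M : ℕ → Submodule W F) (hMB : ∀ b, M b ≤ Subalgebra.toSubmodule B)
    (hBM : ∀ x ∈ B, ∃ b, x ∈ M b) (hmono : ∀ b, M b ≤ M (b + 1)) (b₁ : ℕ) (hfg : (M b₁).FG)
    (hgen : ∀ b, b₁ ≤ b → ∀ x ∈ M (b + 1), ∃ y ∈ M b, ∃ z ∈ M b, x = y + t * z) :
    IsNoetherianRing B := by
  have hB : B.FG := fg_of_filtration B ht M hMB hBM hmono b₁ hfg hgen
  have : Algebra.FiniteType W B := (Subalgebra.fg_iff_finiteType B).mp hB
  exact Algebra.FiniteType.isNoetherianRing W B

end Fermat.Agent.S40x.Node.FiltNoeth
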