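/-
helper30 (P-S44, block R1 / N-alpha, leaf N1): the ring `B_0` of `Γ`-fixed functions of the chart
ring `B_∞ = ⋃_b L(b C_∞) ∩ O` is a finitely generated algebra over `W = A^Γ`, hence NOETHERIAN
(and a domain) when `W` is Noetherian (e.g. `W ≃ inertiaInt P`, a DVR).

* `fixedLat_succ` : **fixed graded Nakayama**, abstract (`RedSetup2`, `FixData2`): if the reduction
  of `V ∩ O` is `red(U ∩ O) + t̄ · red(U ∩ O)` then every fixed element of `V ∩ O` is
  `x₁ + t x₂` with `xᵢ` fixed elements of `U ∩ O` (`t` fixed, `t ∈ O`, `t U ≤ V`).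
* `exists_redLat_succ` : inside the context bundle, the reductions of `L(b C_∞) ∩ O` are
  eventually generated in degree one (`ReesFG` + `Ctx.exists_hgen` + the specialisation `C.SC`).
* `exists_fixedLat_succ` : `M (b+1) = M b + t M b` for `b ≥ b₁`, `M b = (L(b C_∞) ∩ O)^Γ`.
* `isDiscreteValuationRing_fixedSubring`, `isNoetherianRing_fixedSubring` : `W = A^Γ` is a DVR
  under `FixData2` (fixed uniformiser + rank one).
* `fg_fixedBoo`, `isNoetherianRing_fixedBoo(')` : `B_0 = fixedAlg Γ (BooAlg C)` is a finitely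
  generated `W`-algebra (generated by `t` and `M b₁`), hence a Noetherian ring.
-/
import Fermat.Agent.S40x.Node.FiltNoeth
import Fermat.Agent.S33x.W.InstWCtx
import Fermat.Agent.S34x.ReesFG

set_option autoImplicit false
set_option linter.unusedSectionVars false
set_option linter.style.haveILetI false

noncomputable section

namespace Fermat.Agent.S40x.Node.FixedNoeth

open AlgebraicCurve Module IsLocalRing
open Fermat.Agent.S34x Fermat.Agent.S34x.C0two Fermat.Agent.S34x.Lattice2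
open Fermat.Agent.S19x.Geo.LatticeFixed (IsFixed IsFixedK span_fixed_of_stable)
open Fermat.Agent.S33x.H1.LatticeFixed2 Fermat.Agent.S33x.H1.FixedDecomp
open Fermat.Agent.S33x.Cech.CtxMq Fermat.Agent.S33x.W.InstW Fermat.Agent.S33x.W.InstWCtx

/-! ### Fixed graded Nakayama (abstract) -/

section Abstract

variable {K : Type*} [Field K] {A : ValuationSubring K} {F : Type*} [Field F] [Algebra K F]
  {S : SmallRing F} {k κ : Type*} [Field k] [CommRing κ] [Algebra k κ]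
  {R : RedSetup2 A S k κ} {Γ : Set (SemilinearAut K F)}

/-- **Fixed graded Nakayama.** -/
theorem fixedLat_succ (hD : FixData2 R Γ) {t : F} (htO : t ∈ S.O) (htfix : IsFixed Γ t)
    (U V : Submodule K F) [FiniteDimensional K U] [FiniteDimensional K V]
    (hUV : U ≤ V) (htUV : ∀ x ∈ U, t * x ∈ V)
    (hfgV : (R.lat V).FG) (hVfix : V ≤ Submodule.span K {f | f ∈ V ∧ IsFixed Γ f})
    (hfgU : (R.lat U).FG) (hUfix : U ≤ Submodule.span K {f | f ∈ U ∧ IsFixed Γ f})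
    (hred : ∀ y ∈ R.redLat V, ∃ y₁ ∈ R.redLat U, ∃ y₂ ∈ R.redLat U,
      y = y₁ + R.res ⟨t, htO⟩ * y₂)
    {x : F} (hx : x ∈ fixedLat Γ R V) :
    ∃ x₁ ∈ fixedLat Γ R U, ∃ x₂ ∈ fixedLat Γ R U, x = x₁ + t * x₂ := by
  classical
  obtain ⟨ϖ, hϖm, hϖ0, hϖfix, hϖdvd⟩ := hD.unif
  set ϖW : fixedSubring (A := A) Γ := ⟨ϖ, hϖfix⟩ with hϖW
  have hϖWm : ϖW ∈ maximalIdeal (fixedSubring (A := A) Γ) :=
    (mem_maximalIdeal_fixedSubring_iff _).2 hϖm
  set N : Submodule (fixedSubring (A := A) Γ) F :=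
    fixedLat Γ R U ⊔ (fixedLat Γ R U).map (LinearMap.mulLeft (fixedSubring (A := A) Γ) t) with hN
  have hle : fixedLat Γ R V ≤ N := by
    refine Submodule.le_of_le_smul_of_le_jacobson_bot (fixedLat_fg hD V hfgV hVfix)
      (span_unif_le_jacobson hϖWm) ?_
    intro x hx
    obtain ⟨y₁, hy₁, y₂, hy₂, hxy⟩ := hred _ ⟨x, hx.2.1, hx.1, rfl⟩
    obtain ⟨f₁, hf₁O, hf₁U, hf₁fix, hf₁res⟩ := exists_fixed_lift2 hD U hfgU hUfix hy₁
    obtain ⟨f₂, hf₂O, hf₂U, hf₂fix, hf₂res⟩ := exists_fixed_lift2 hD U hfgU hUfix hy₂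
    have htf₂O : t * f₂ ∈ S.O := S.O.mul_mem htO hf₂O
    have hsO : f₁ + t * f₂ ∈ S.O := S.O.add_mem hf₁O htf₂O
    have hdO : x - (f₁ + t * f₂) ∈ S.O := S.O.sub_mem hx.2.1 hsO
    have hdV : x - (f₁ + t * f₂) ∈ V :=
      V.sub_mem hx.1 (V.add_mem (hUV hf₁U) (htUV f₂ hf₂U))
    have htf₂fix : IsFixed Γ (t * f₂) := fun s hs => by
      rw [smul_mul', htfix s hs, hf₂fix s hs]
    have hdfix : IsFixed Γ (x - (f₁ + t * f₂)) := hx.2.2.sub (hf₁fix.add htf₂fix)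
    have hdres : R.res ⟨x - (f₁ + t * f₂), hdO⟩ = 0 := by
      have h1 : (⟨x - (f₁ + t * f₂), hdO⟩ : S.O) =
          ⟨x, hx.2.1⟩ - (⟨f₁, hf₁O⟩ + ⟨t, htO⟩ * ⟨f₂, hf₂O⟩) := rfl
      rw [h1, map_sub, map_add, map_mul, hxy, hf₁res, hf₂res, sub_self]
    obtain ⟨g, hgV, hgO, hgfix, hg⟩ :=
      hD.exists_eq_unif_smul_mem hϖfix hϖ0 hϖdvd V hdV hdO hdfix hdres
    have hx' : x = (f₁ + t * f₂) + ϖW • g := by
      rw [fixedSubring_smul_eq]
      show x = (f₁ + t * f₂) + (ϖ : K) • g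
      rw [← hg]
      ring
    rw [hx']
    refine Submodule.add_mem _ (Submodule.mem_sup_left ?_) (Submodule.mem_sup_right ?_)
    · rw [hN]
      exact Submodule.add_mem_sup ⟨hf₁U, hf₁O, hf₁fix⟩
        (Submodule.mem_map_of_mem (f := LinearMap.mulLeft (fixedSubring (A := A) Γ) t)
          (show f₂ ∈ fixedLat Γ R U from ⟨hf₂U, hf₂O, hf₂fix⟩))
    · exact Submodule.smul_mem_smul (Ideal.subset_span rfl) ⟨hgV, hgO, hgfix⟩
  obtain ⟨x₁, hx₁, z, hz, rfl⟩ := Submodule.mem_sup.mp (hle hx)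
  obtain ⟨x₂, hx₂, rfl⟩ := Submodule.mem_map.mp hz
  exact ⟨x₁, hx₁, x₂, hx₂, rfl⟩

end Abstract

/-! ### `W = A^Γ` is a discrete valuation ring -/

section DVR

variable {K : Type*} [Field K] {A : ValuationSubring K} {F : Type*} [Field F] [Algebra K F]
  {S : SmallRing F} {k κ : Type*} [Field k] [CommRing κ] [Algebra k κ]
  {R : RedSetup2 A S k κ} {Γ : Set (SemilinearAut K F)}

/-- in a local domain whose maximal ideal is generated by `ϖ`, a divisor of a power of `ϖ` is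
associated to a power of `ϖ`. -/
theorem associated_pow_of_dvd_pow {W : Type*} [CommRing W] [IsDomain W] [IsLocalRing W] {ϖ : W}
    (hϖ0 : ϖ ≠ 0) (hmax : maximalIdeal W = Ideal.span {ϖ}) :
    ∀ (j : ℕ) (w : W), w ∣ ϖ ^ j → ∃ n : ℕ, Associated (ϖ ^ n) w := by
  have hϖm : ϖ ∈ maximalIdeal W := hmax ▸ Ideal.subset_span rfl
  intro j
  induction j with
  | zero =>
    intro w hw
    rw [pow_zero] at hw
    exact ⟨0, by rw [pow_zero]; exact (associated_one_iff_isUnit.mpr (isUnit_of_dvd_one hw)).symm⟩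
  | succ j ih =>
    intro w hw
    by_cases hu : IsUnit w
    · exact ⟨0, by rw [pow_zero]; exact (associated_one_iff_isUnit.mpr hu).symm⟩
    · have hwm : w ∈ maximalIdeal W := (mem_maximalIdeal w).mpr hu
      rw [hmax, Ideal.mem_span_singleton] at hwm
      obtain ⟨w', rfl⟩ := hwm
      have h1 : w' ∣ ϖ ^ j := by
        rw [pow_succ'] at hw
        exact (mul_dvd_mul_iff_left hϖ0).mp hw
      obtain ⟨n, hn⟩ := ih w' h1
      exact ⟨n + 1, by rw [pow_succ']; exact hn.mul_left ϖ⟩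

/-- **`W = A^Γ` is a discrete valuation ring** under `FixData2` (rank one + fixed uniformiser). -/
theorem isDiscreteValuationRing_fixedSubring (hD : FixData2 R Γ) :
    IsDiscreteValuationRing (fixedSubring (A := A) Γ) := by
  obtain ⟨ϖ, hϖ0, hmax⟩ := maximalIdeal_fixedSubring_eq_span hD
  have hϖm : ϖ ∈ maximalIdeal (fixedSubring (A := A) Γ) := hmax ▸ Ideal.subset_span rfl
  have hϖnu : ¬ IsUnit ϖ := (mem_maximalIdeal ϖ).mp hϖm
  apply IsDiscreteValuationRing.ofHasUnitMulPowIrreducibleFactorization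
  refine ⟨ϖ, ⟨hϖnu, fun a b hab => ?_⟩, fun {w} hw => ?_⟩
  · by_contra hcon
    push Not at hcon
    have ha : a ∈ maximalIdeal (fixedSubring (A := A) Γ) := (mem_maximalIdeal a).mpr hcon.1
    have hb : b ∈ maximalIdeal (fixedSubring (A := A) Γ) := (mem_maximalIdeal b).mpr hcon.2
    rw [hmax, Ideal.mem_span_singleton] at ha hb
    obtain ⟨a', rfl⟩ := ha
    obtain ⟨b', rfl⟩ := hb
    have h1 : ϖ * 1 = ϖ * (ϖ * (a' * b')) := by
      rw [mul_one]
      calc ϖ = ϖ * a' * (ϖ * b') := hab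
        _ = ϖ * (ϖ * (a' * b')) := by ring
    have h2 : 1 = ϖ * (a' * b') := mul_left_cancel₀ hϖ0 h1
    exact hϖnu (IsUnit.of_mul_eq_one _ h2.symm)
  · -- rank one: `w ∣ ϖ ^ j` in `A`, hence in `W`
    have hϖA : (ϖ : A) ∈ maximalIdeal A := (mem_maximalIdeal_fixedSubring_iff ϖ).mp hϖm
    have hwA : (w : A) ≠ 0 := fun h0 => hw (Subtype.ext h0)
    obtain ⟨j, hj⟩ := R.rank_one (ϖ : A) hϖA (w : A) hwA
    have hj' : w ∣ ϖ ^ j := dvd_fixedSubring hw (by simpa using hj)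
    exact associated_pow_of_dvd_pow hϖ0 hmax j w hj'

/-- `W = A^Γ` is a Noetherian ring under `FixData2`. -/
theorem isNoetherianRing_fixedSubring (hD : FixData2 R Γ) :
    IsNoetherianRing (fixedSubring (A := A) Γ) := by
  haveI := isDiscreteValuationRing_fixedSubring hD
  infer_instance

end DVR

/-! ### Inside the context bundle -/

section Ctx

variable {K : Type*} [Field K] [IsAlgClosed K] [CharZero K] {A : ValuationSubring K}
  {F : Type*} [Field F] [Algebra K F] {S : SmallRing F}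
  {k : Type*} [Field k] [IsAlgClosed k] {E : Type*} [Field E] [Algebra k E]
  {R : RedSetup2 A S k (E × E)} {C : ChartCoord R} {p q : ℕ} {x : E} {Dt : Divisor K F}
  (h : Ctx R C p q x Dt) {Γ : Set (SemilinearAut K F)} (hG : CtxGal R C Γ)

include h in
/-- the reductions of `L(b C∞) ∩ O` are eventually generated in degree one. -/
theorem exists_redLat_succ : ∃ b₁, ∀ b, b₁ ≤ b → ∀ y ∈ R.redLat (C.LN 0 (b + 1)),
    ∃ y₁ ∈ R.redLat (C.LN 0 b), ∃ y₂ ∈ R.redLat (C.LN 0 b),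
      y = y₁ + R.res ⟨C.t, C.t_mem⟩ * y₂ := by
  haveI := h.fin_t
  haveI : ∀ b, FiniteDimensional k (C.Pk 0 b) := fun b => h.finite_Pk 0 b
  obtain ⟨b₀, hgen⟩ := h.exists_hgen
  obtain ⟨b₁, hb₁⟩ := Fermat.Agent.S33x.H1.InstC1.exists_S1 C h.ht h.hDt h.hcart hgen
  refine ⟨b₁, fun b hb y hy => ?_⟩
  obtain ⟨f, hfO, hfL, rfl⟩ := hy
  obtain ⟨y', hy', z', hz', hxyz⟩ := hb₁ b hb f ⟨hfL, hfO⟩
  refine ⟨R.res ⟨y', hy'.2⟩, ⟨y', hy'.2, hy'.1, rfl⟩, R.res ⟨z', hz'.2⟩,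
    ⟨z', hz'.2, hz'.1, rfl⟩, ?_⟩
  have e : (⟨f, hfO⟩ : S.O) = ⟨y', hy'.2⟩ + ⟨C.t, C.t_mem⟩ * ⟨z', hz'.2⟩ := Subtype.ext hxyz
  rw [e, map_add, map_mul]

include h hG in
/-- **`M (b+1) = M b + t M b`** for `b ≥ b₁`, `M b = (L(b C∞) ∩ O)^Γ`. -/
theorem exists_fixedLat_succ (hD : FixData2 R Γ)
    (hF : Submodule.span K {f : F | IsFixed Γ f} = ⊤) :
    ∃ b₁, ∀ b, b₁ ≤ b → ∀ x ∈ fixedLat Γ R (C.LN 0 (b + 1)),
      ∃ x₁ ∈ fixedLat Γ R (C.LN 0 b), ∃ x₂ ∈ fixedLat Γ R (C.LN 0 b), x = x₁ + C.t * x₂ := by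
  obtain ⟨b₁, hb₁⟩ := exists_redLat_succ h
  refine ⟨b₁, fun b hb x hx => ?_⟩
  haveI : ∀ a b, FiniteDimensional K (C.LN a b) := fun a b => finite_LN h a b
  have hfix : ∀ b, C.LN 0 b ≤ Submodule.span K {f | f ∈ C.LN 0 b ∧ IsFixed Γ f} := fun b =>
    le_of_eq (span_fixed_of_stable hF (C.LN 0 b) (Fermat.Agent.S33x.H1.StableLN.stable_LN C hG.smul_t 0 b)).symm
  refine fixedLat_succ hD C.t_mem (fun s hs => hG.smul_t s hs) (C.LN 0 b) (C.LN 0 (b + 1))
    (C.LN_mono le_rfl (Nat.le_succ b)) (fun y hy => ?_) (fg_lat_LN' h 0 (b + 1)) (hfix (b + 1))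
    (fg_lat_LN' h 0 b) (hfix b) (hb₁ b hb) hx
  have h1 := C.LN_mul C.t_mem_LN hy
  rwa [zero_add, add_comm 1 b] at h1

/-- `M b = (L(b C∞) ∩ O)^Γ` exhausts `B_0 = fixedAlg Γ (BooAlg C)`. -/
theorem mem_fixedBoo_iff {f : F} :
    f ∈ fixedAlg Γ (Fermat.Agent.S33x.H1.InstC4.BooAlg C) ↔ ∃ b, f ∈ fixedLat Γ R (C.LN 0 b) := by
  rw [mem_fixedAlg, Fermat.Agent.S33x.H1.InstC4.mem_BooAlg]
  constructor
  · rintro ⟨⟨b, hb⟩, hfix⟩
    exact ⟨b, hb.1, hb.2, hfix⟩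
  · rintro ⟨b, hb⟩
    exact ⟨⟨b, hb.1, hb.2.1⟩, hb.2.2⟩

include h hG in
/-- **`B_0 = (B_∞)^Γ` is a finitely generated `W`-algebra** (`W = A^Γ`). -/
theorem fg_fixedBoo (hD : FixData2 R Γ) (hF : Submodule.span K {f : F | IsFixed Γ f} = ⊤) :
    (fixedAlg Γ (Fermat.Agent.S33x.H1.InstC4.BooAlg C)).FG := by
  obtain ⟨b₁, hb₁⟩ := exists_fixedLat_succ h hG hD hF
  haveI : ∀ a b, FiniteDimensional K (C.LN a b) := fun a b => finite_LN h a b
  refine FiltNoeth.fg_of_filtration (fixedAlg Γ (Fermat.Agent.S33x.H1.InstC4.BooAlg C)) (t := C.t) ?_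
    (fun b => fixedLat Γ R (C.LN 0 b)) ?_ ?_ ?_ b₁ ?_ hb₁
  · exact mem_fixedBoo_iff.mpr ⟨1, C.t_mem_LN, C.t_mem, fun s hs => hG.smul_t s hs⟩
  · intro b f hf
    exact mem_fixedBoo_iff.mpr ⟨b, hf⟩
  · intro f hf
    exact mem_fixedBoo_iff.mp hf
  · intro b
    exact fixedLat_mono (C.LN_mono le_rfl (Nat.le_succ b))
  · exact fixedLat_fg hD (C.LN 0 b₁) (fg_lat_LN' h 0 b₁)
      (le_of_eq (span_fixed_of_stable hF (C.LN 0 b₁)
        (Fermat.Agent.S33x.H1.StableLN.stable_LN C hG.smul_t 0 b₁)).symm)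

include h hG in
/-- **(N1) `B_0 = (B_∞)^Γ` is a Noetherian ring** when `W = A^Γ` is. -/
theorem isNoetherianRing_fixedBoo [IsNoetherianRing (fixedSubring (A := A) Γ)]
    (hD : FixData2 R Γ) (hF : Submodule.span K {f : F | IsFixed Γ f} = ⊤) :
    IsNoetherianRing (fixedAlg Γ (Fermat.Agent.S33x.H1.InstC4.BooAlg C)) := by
  have hB := fg_fixedBoo h hG hD hF
  have : Algebra.FiniteType (fixedSubring (A := A) Γ) (fixedAlg Γ (Fermat.Agent.S33x.H1.InstC4.BooAlg C)) :=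
    (Subalgebra.fg_iff_finiteType _).mp hB
  exact Algebra.FiniteType.isNoetherianRing (fixedSubring (A := A) Γ) _

include h hG in
/-- **(N1), unconditional form**: `W = A^Γ` is a DVR under `FixData2`. -/
theorem isNoetherianRing_fixedBoo' (hD : FixData2 R Γ)
    (hF : Submodule.span K {f : F | IsFixed Γ f} = ⊤) :
    IsNoetherianRing (fixedAlg Γ (Fermat.Agent.S33x.H1.InstC4.BooAlg C)) := by
  haveI := isNoetherianRing_fixedSubring hD
  exact isNoetherianRing_fixedBoo h hG hD hF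

end Ctx

end Fermat.Agent.S40x.Node.FixedNoeth
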