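/-
helper30 (P-S44, block R1 / N-alpha, leaf N1, the OTHER half chart and the overlap): the rings of
`Γ`-fixed functions of the chart rings `B_0-chart = ⋃_a L(a C_0) ∩ O` (`BzeroAlg C`, poles only in
the fibre `t = 0`; contains the cusps over `t = ∞`) and `B_× = ⋃ L(a C_0 + b C_∞) ∩ O` (`BxAlg C`)
are finitely generated algebras over `W = A^Γ`, hence Noetherian domains.

Everything follows from `FixedNoeth.exists_fixedLat_succ` by the twist
`f ∈ (L(a C_0 + c C_∞) ∩ O)^Γ ↔ t^a f ∈ (L((a+c) C_∞) ∩ O)^Γ` (`t` is a `Γ`-fixed unit of `O`).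

* `fixedLat_twist`, `exists_fixedLat_succ_zero` : `M' (a+1) = M' a + t⁻¹ M' a`, `a ≥ b₁`,
  `M' a = (L(a C_0) ∩ O)^Γ`;
* `fg_fixedBzero`, `isNoetherianRing_fixedBzero'` : `fixedAlg Γ (BzeroAlg C)`;
* `fg_fixedBx`, `isNoetherianRing_fixedBx'` : `fixedAlg Γ (BxAlg C) = W[t, t⁻¹, M b₁]`.
-/
import Fermat.Agent.S40x.Node.FixedNoeth

set_option autoImplicit false
set_option linter.unusedSectionVars false
set_option linter.style.haveILetI false

noncomputable section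

namespace Fermat.Agent.S40x.Node.FixedNoethZero

open AlgebraicCurve Module IsLocalRing
open Fermat.Agent.S34x Fermat.Agent.S34x.C0two Fermat.Agent.S34x.Lattice2
open Fermat.Agent.S19x.Geo.LatticeFixed (IsFixed IsFixedK span_fixed_of_stable)
open Fermat.Agent.S33x.H1.LatticeFixed2 Fermat.Agent.S33x.H1.FixedDecomp
open Fermat.Agent.S33x.Cech.CtxMq Fermat.Agent.S33x.W.InstW Fermat.Agent.S33x.W.InstWCtx
open Fermat.Agent.S40x.Node.FixedNoeth

/-! ### The twist on fixed lattices -/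

section Twist

variable {K : Type*} [Field K] {A : ValuationSubring K} {F : Type*} [Field F] [Algebra K F]
  {S : SmallRing F} {k κ : Type*} [Field k] [CommRing κ] [Algebra k κ]
  {R : RedSetup2 A S k κ} (C : ChartCoord R) {Γ : Set (SemilinearAut K F)}

theorem isFixed_pow_mul_iff (htfix : IsFixed Γ C.t) (a : ℕ) (f : F) :
    IsFixed Γ (C.t ^ a * f) ↔ IsFixed Γ f := by
  have hpow : IsFixed Γ (C.t ^ a) := fun s hs => by rw [smul_pow', htfix s hs]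
  constructor
  · intro h s hs
    have h1 := h s hs
    rw [smul_mul', hpow s hs] at h1
    exact mul_left_cancel₀ (pow_ne_zero a C.t_ne) h1
  · intro h s hs
    rw [smul_mul', hpow s hs, h s hs]

/-- `f ∈ (L(a C₀ + c C∞) ∩ O)^Γ ↔ tᵃ f ∈ (L((a+c) C∞) ∩ O)^Γ`. -/
theorem fixedLat_twist (htfix : IsFixed Γ C.t) (a c : ℕ) (f : F) :
    f ∈ fixedLat Γ R (C.LN a c) ↔ C.t ^ a * f ∈ fixedLat Γ R (C.LN 0 (a + c)) := by
  have h := Fermat.Agent.S33x.H1.InstC1.Lam_twist C a c f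
  rw [Fermat.Agent.S33x.H1.InstC1.mem_Lam, Fermat.Agent.S33x.H1.InstC1.mem_Lam] at h
  rw [mem_fixedLat, mem_fixedLat, isFixed_pow_mul_iff C htfix]
  constructor
  · rintro ⟨h1, h2, h3⟩
    exact ⟨(h.mp ⟨h1, h2⟩).1, (h.mp ⟨h1, h2⟩).2, h3⟩
  · rintro ⟨h1, h2, h3⟩
    exact ⟨(h.mpr ⟨h1, h2⟩).1, (h.mpr ⟨h1, h2⟩).2, h3⟩

end Twist

/-! ### Inside the context bundle -/

section Ctx

variable {K : Type*} [Field K] [IsAlgClosed K] [CharZero K] {A : ValuationSubring K}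
  {F : Type*} [Field F] [Algebra K F] {S : SmallRing F}
  {k : Type*} [Field k] [IsAlgClosed k] {E : Type*} [Field E] [Algebra k E]
  {R : RedSetup2 A S k (E × E)} {C : ChartCoord R} {p q : ℕ} {x : E} {Dt : Divisor K F}
  (h : Ctx R C p q x Dt) {Γ : Set (SemilinearAut K F)} (hG : CtxGal R C Γ)

include h hG in
/-- **`M' (a+1) = M' a + t⁻¹ M' a`** for `a ≥ b₁`, `M' a = (L(a C₀) ∩ O)^Γ`. -/
theorem exists_fixedLat_succ_zero (hD : FixData2 R Γ)
    (hF : Submodule.span K {f : F | IsFixed Γ f} = ⊤) :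
    ∃ b₁, ∀ a, b₁ ≤ a → ∀ f ∈ fixedLat Γ R (C.LN (a + 1) 0),
      ∃ f₁ ∈ fixedLat Γ R (C.LN a 0), ∃ f₂ ∈ fixedLat Γ R (C.LN a 0), f = f₁ + C.t⁻¹ * f₂ := by
  obtain ⟨b₁, hb₁⟩ := exists_fixedLat_succ h hG hD hF
  have htfix : IsFixed Γ C.t := fun s hs => hG.smul_t s hs
  refine ⟨b₁, fun a ha f hf => ?_⟩
  have h1 := (fixedLat_twist C htfix (a + 1) 0 f).mp hf
  rw [add_zero] at h1
  obtain ⟨x₁, hx₁, x₂, hx₂, hx⟩ := hb₁ a ha _ h1
  have hta : C.t ^ a ≠ 0 := pow_ne_zero a C.t_ne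
  -- `x₂ / tᵃ` and `x₁ / tᵃ` lie in `M' a`
  have hmem : ∀ y ∈ fixedLat Γ R (C.LN 0 a), (C.t ^ a)⁻¹ * y ∈ fixedLat Γ R (C.LN a 0) := by
    intro y hy
    rw [fixedLat_twist C htfix a 0, add_zero, ← mul_assoc, mul_inv_cancel₀ hta, one_mul]
    exact hy
  refine ⟨(C.t ^ a)⁻¹ * x₂, hmem x₂ hx₂, (C.t ^ a)⁻¹ * x₁, hmem x₁ hx₁, ?_⟩
  have h2 : f = (C.t ^ (a + 1))⁻¹ * (C.t ^ (a + 1) * f) := by
    rw [← mul_assoc, inv_mul_cancel₀ (pow_ne_zero _ C.t_ne), one_mul]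
  rw [h2, hx, pow_succ]
  field_simp [C.t_ne]
  ring

/-- `M' a = (L(a C₀) ∩ O)^Γ` exhausts `fixedAlg Γ (BzeroAlg C)`. -/
theorem mem_fixedBzero_iff {f : F} :
    f ∈ fixedAlg Γ (Fermat.Agent.S33x.H1.InstC4.BzeroAlg C) ↔
      ∃ a, f ∈ fixedLat Γ R (C.LN a 0) := by
  rw [mem_fixedAlg, Fermat.Agent.S33x.H1.InstC4.mem_BzeroAlg]
  constructor
  · rintro ⟨⟨a, ha⟩, hfix⟩
    exact ⟨a, ha.1, ha.2, hfix⟩
  · rintro ⟨a, ha⟩
    exact ⟨⟨a, ha.1, ha.2.1⟩, ha.2.2⟩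

/-- `(L(a C₀ + b C∞) ∩ O)^Γ` exhausts `fixedAlg Γ (BxAlg C)`. -/
theorem mem_fixedBx_iff {f : F} :
    f ∈ fixedAlg Γ (Fermat.Agent.S33x.H1.InstC4.BxAlg C) ↔
      ∃ a b, f ∈ fixedLat Γ R (C.LN a b) := by
  rw [mem_fixedAlg, Fermat.Agent.S33x.H1.InstC4.mem_BxAlg']
  constructor
  · rintro ⟨⟨a, b, hab⟩, hfix⟩
    exact ⟨a, b, hab.1, hab.2, hfix⟩
  · rintro ⟨a, b, hab⟩
    exact ⟨⟨a, b, hab.1, hab.2.1⟩, hab.2.2⟩

include h hG in
/-- **`(B_0-chart)^Γ` is a finitely generated `W`-algebra.** -/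
theorem fg_fixedBzero (hD : FixData2 R Γ) (hF : Submodule.span K {f : F | IsFixed Γ f} = ⊤) :
    (fixedAlg Γ (Fermat.Agent.S33x.H1.InstC4.BzeroAlg C)).FG := by
  obtain ⟨b₁, hb₁⟩ := exists_fixedLat_succ_zero h hG hD hF
  haveI : ∀ a b, FiniteDimensional K (C.LN a b) := fun a b => finite_LN h a b
  have htfix : IsFixed Γ C.t := fun s hs => hG.smul_t s hs
  refine FiltNoeth.fg_of_filtration (fixedAlg Γ (Fermat.Agent.S33x.H1.InstC4.BzeroAlg C))
    (t := C.t⁻¹) ?_ (fun a => fixedLat Γ R (C.LN a 0)) ?_ ?_ ?_ b₁ ?_ hb₁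
  · exact mem_fixedBzero_iff.mpr ⟨1, C.tinv_mem_LN, C.tinv_mem,
      fun s hs => by rw [smul_inv'', htfix s hs]⟩
  · intro a f hf
    exact mem_fixedBzero_iff.mpr ⟨a, hf⟩
  · intro f hf
    exact mem_fixedBzero_iff.mp hf
  · intro a
    exact fixedLat_mono (C.LN_mono (Nat.le_succ a) le_rfl)
  · exact fixedLat_fg hD (C.LN b₁ 0) (fg_lat_LN' h b₁ 0)
      (le_of_eq (span_fixed_of_stable hF (C.LN b₁ 0)
        (Fermat.Agent.S33x.H1.StableLN.stable_LN C hG.smul_t b₁ 0)).symm)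

include h hG in
/-- **(N1) for the other half chart**: `(B_0-chart)^Γ` is a Noetherian ring. -/
theorem isNoetherianRing_fixedBzero' (hD : FixData2 R Γ)
    (hF : Submodule.span K {f : F | IsFixed Γ f} = ⊤) :
    IsNoetherianRing (fixedAlg Γ (Fermat.Agent.S33x.H1.InstC4.BzeroAlg C)) := by
  haveI := isNoetherianRing_fixedSubring hD
  have hB := fg_fixedBzero h hG hD hF
  have : Algebra.FiniteType (fixedSubring (A := A) Γ)
      (fixedAlg Γ (Fermat.Agent.S33x.H1.InstC4.BzeroAlg C)) :=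
    (Subalgebra.fg_iff_finiteType _).mp hB
  exact Algebra.FiniteType.isNoetherianRing (fixedSubring (A := A) Γ) _

include h hG in
/-- **`(B_×)^Γ = W[t, t⁻¹, M b₁]` is a finitely generated `W`-algebra.** -/
theorem fg_fixedBx (hD : FixData2 R Γ) (hF : Submodule.span K {f : F | IsFixed Γ f} = ⊤) :
    (fixedAlg Γ (Fermat.Agent.S33x.H1.InstC4.BxAlg C)).FG := by
  classical
  obtain ⟨s, hs⟩ := fg_fixedBoo h hG hD hF
  have htfix : IsFixed Γ C.t := fun s hs => hG.smul_t s hs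
  have htinv : C.t⁻¹ ∈ fixedAlg Γ (Fermat.Agent.S33x.H1.InstC4.BxAlg C) :=
    mem_fixedBx_iff.mpr ⟨1, 0, C.tinv_mem_LN, C.tinv_mem,
      fun s hs => by rw [smul_inv'', htfix s hs]⟩
  have hle : fixedAlg Γ (Fermat.Agent.S33x.H1.InstC4.BooAlg C) ≤
      fixedAlg Γ (Fermat.Agent.S33x.H1.InstC4.BxAlg C) := fun f hf =>
    ⟨Fermat.Agent.S33x.H1.InstC4.BooAlg_le C hf.1, hf.2⟩
  refine ⟨insert C.t⁻¹ s, le_antisymm ?_ ?_⟩
  · rw [Algebra.adjoin_le_iff]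
    intro y hy
    rw [Finset.coe_insert] at hy
    rcases hy with rfl | hy
    · exact htinv
    · exact hle (hs ▸ Algebra.subset_adjoin hy)
  · intro f hf
    obtain ⟨a, b, hab⟩ := mem_fixedBx_iff.mp hf
    have h1 : C.t ^ a * f ∈ fixedAlg Γ (Fermat.Agent.S33x.H1.InstC4.BooAlg C) :=
      mem_fixedBoo_iff.mpr ⟨a + b, (fixedLat_twist C htfix a b f).mp hab⟩
    rw [← hs] at h1
    have h2 : Algebra.adjoin (fixedSubring (A := A) Γ) (s : Set F) ≤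
        Algebra.adjoin (fixedSubring (A := A) Γ) ((insert C.t⁻¹ s : Finset F) : Set F) :=
      Algebra.adjoin_mono (by simp)
    have h3 : C.t⁻¹ ∈
        Algebra.adjoin (fixedSubring (A := A) Γ) ((insert C.t⁻¹ s : Finset F) : Set F) :=
      Algebra.subset_adjoin (by simp)
    have h4 : f = C.t⁻¹ ^ a * (C.t ^ a * f) := by
      rw [← mul_assoc, ← mul_pow, inv_mul_cancel₀ C.t_ne, one_pow, one_mul]
    rw [h4]
    exact Subalgebra.mul_mem _ (Subalgebra.pow_mem _ h3 a) (h2 h1)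

include h hG in
/-- **(N1) for the overlap chart**: `(B_×)^Γ` is a Noetherian ring. -/
theorem isNoetherianRing_fixedBx' (hD : FixData2 R Γ)
    (hF : Submodule.span K {f : F | IsFixed Γ f} = ⊤) :
    IsNoetherianRing (fixedAlg Γ (Fermat.Agent.S33x.H1.InstC4.BxAlg C)) := by
  haveI := isNoetherianRing_fixedSubring hD
  have hB := fg_fixedBx h hG hD hF
  have : Algebra.FiniteType (fixedSubring (A := A) Γ)
      (fixedAlg Γ (Fermat.Agent.S33x.H1.InstC4.BxAlg C)) :=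
    (Subalgebra.fg_iff_finiteType _).mp hB
  exact Algebra.FiniteType.isNoetherianRing (fixedSubring (A := A) Γ) _

end Ctx

end Fermat.Agent.S40x.Node.FixedNoethZero
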