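/-
helper30 (P-S44, block R1 / N-alpha, leaf N1, fraction field of the OTHER half chart): every
`Γ`-fixed function is a quotient of two elements of `fixedAlg Γ (BzeroAlg C)` (the `Γ`-fixed part
of the half-chart ring `⋃_a L(a C_0) ∩ O`, which contains the cusps over `t = ∞`), and
`F_0 = F^Γ` is its fraction field.  Deduced from `FixedFrac.exists_fixed_denominator` by the twist
`g ∈ (L(m C_0) ∩ O)^Γ ↔ t^m g ∈ (L(m C_∞) ∩ O)^Γ`.
-/
import Fermat.Agent.S40x.Node.FixedFrac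
import Fermat.Agent.S40x.Node.FixedNoethZero

set_option autoImplicit false
set_option linter.unusedSectionVars false
set_option linter.style.haveILetI false

noncomputable section

namespace Fermat.Agent.S40x.Node.FixedFracZero

open AlgebraicCurve Module IsLocalRing
open Fermat.Agent.S34x Fermat.Agent.S34x.C0two Fermat.Agent.S34x.Lattice2
open Fermat.Agent.S19x.Geo.LatticeFixed (IsFixed IsFixedK)
open Fermat.Agent.S33x.H1.LatticeFixed2 Fermat.Agent.S33x.H1.FixedDecomp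
open Fermat.Agent.S33x.Cech.CtxMq Fermat.Agent.S33x.W.InstW Fermat.Agent.S33x.W.InstWCtx
open Fermat.Agent.S40x.Node.FixedNoeth Fermat.Agent.S40x.Node.FixedNoethZero
open Fermat.Agent.S40x.Node.FixedFrac

variable {K : Type*} [Field K] [IsAlgClosed K] [CharZero K] {A : ValuationSubring K}
  {F : Type*} [Field F] [Algebra K F] {S : SmallRing F}
  {k : Type*} [Field k] [IsAlgClosed k] {E : Type*} [Field E] [Algebra k E]
  {R : RedSetup2 A S k (E × E)} {C : ChartCoord R} {p q : ℕ} {x : E} {Dt : Divisor K F}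
  (h : Ctx R C p q x Dt) {Γ : Set (SemilinearAut K F)} (hG : CtxGal R C Γ)

include h hG in
/-- **every fixed function is a quotient of two elements of `fixedAlg Γ (BzeroAlg C)`.** -/
theorem exists_fixed_denominator_zero (hD : FixData2 R Γ)
    (hF : Submodule.span K {f : F | IsFixed Γ f} = ⊤) {f : F} (hf : IsFixed Γ f) :
    ∃ d b : F, d ≠ 0 ∧ d ∈ fixedAlg Γ (Fermat.Agent.S33x.H1.InstC4.BzeroAlg C) ∧
      b ∈ fixedAlg Γ (Fermat.Agent.S33x.H1.InstC4.BzeroAlg C) ∧ d * f = b := by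
  obtain ⟨d, b, hd0, hd, hb, hdb⟩ := exists_fixed_denominator h hG hD hF hf
  obtain ⟨m₁, hm₁⟩ := mem_fixedBoo_iff.mp hd
  obtain ⟨m₂, hm₂⟩ := mem_fixedBoo_iff.mp hb
  have htfix : IsFixed Γ C.t := fun s hs => hG.smul_t s hs
  set m := max m₁ m₂ with hm
  have hdm : d ∈ fixedLat Γ R (C.LN 0 m) :=
    fixedLat_mono (C.LN_mono le_rfl (le_max_left _ _)) hm₁
  have hbm : b ∈ fixedLat Γ R (C.LN 0 m) :=
    fixedLat_mono (C.LN_mono le_rfl (le_max_right _ _)) hm₂
  have htm : C.t ^ m ≠ 0 := pow_ne_zero m C.t_ne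
  have hmem : ∀ y ∈ fixedLat Γ R (C.LN 0 m), (C.t ^ m)⁻¹ * y ∈ fixedLat Γ R (C.LN m 0) := by
    intro y hy
    rw [fixedLat_twist C htfix m 0, add_zero, ← mul_assoc, mul_inv_cancel₀ htm, one_mul]
    exact hy
  refine ⟨(C.t ^ m)⁻¹ * d, (C.t ^ m)⁻¹ * b, mul_ne_zero (inv_ne_zero htm) hd0,
    mem_fixedBzero_iff.mpr ⟨m, hmem d hdm⟩, mem_fixedBzero_iff.mpr ⟨m, hmem b hbm⟩, ?_⟩
  rw [mul_assoc, hdb]

include h hG in
/-- **`F_0 = F^Γ` is the fraction field of `fixedAlg Γ (BzeroAlg C)`.** -/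
theorem isFractionRing_fixedBzero (hD : FixData2 R Γ)
    (hF : Submodule.span K {f : F | IsFixed Γ f} = ⊤) :
    letI := (toFixedSubfield (Γ := Γ) (Fermat.Agent.S33x.H1.InstC4.BzeroAlg C)).toAlgebra
    IsFractionRing (fixedAlg Γ (Fermat.Agent.S33x.H1.InstC4.BzeroAlg C)) (fixedSubfield Γ) :=
  isFractionRing_of_denominators _ fun _ hf => exists_fixed_denominator_zero h hG hD hF hf

end Fermat.Agent.S40x.Node.FixedFracZero
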