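/-
P-S44/S40, block R1, leaf (N0a) (helper9): VOCABULARY over the inertia field.

`Qbar = AlgebraicClosure ℚ`, `P` a valuation subring of `Qbar` over the prime `p`,
`I = P.inertiaSubgroupIn ℚ`.

* `K0 P : Subfield Qbar` : the fixed field of `I` (independent of any level);
  `O0 P : ValuationSubring (K0 P)` : its valuation ring `P ∩ K0`;
  `O0equiv : O0 P ≃+* inertiaInt P` (the landed `S56x/Flat/InertiaField.inertiaInt`), the algebra
  `inertiaInt P → K0 P` and `IsFractionRing (inertiaInt P) (K0 P)`;
  `maximalIdeal_inertiaInt` : the maximal ideal of `inertiaInt P` is `(p)`;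
  `res0`, `res0_surjective`, `ker_res0` : residue map `inertiaInt P → k`, onto, kernel `(p)`.
* `F0 P N : Subfield (FL Qbar N)` : the inertia-fixed functions of level `N`
  (`IsFixed (inertiaAct P N)`), `Algebra (K0 P) (F0 P N)`, `coe_algebraMap_F0`;
  `span_F0` : `F0` spans `FL Qbar N` over `Qbar`;
  `algebraMap_mem_F0_iff` : the constants of `F0` are `K0`;
  `linearIndependent_F0` : linear disjointness (a `K0`-independent family of `F0` stays
  `Qbar`-independent).
-/
import Mathlib
import Fermat.Agent.S33x.H1.FixData2Final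
import Fermat.Agent.S56x.Flat.InertiaField

set_option autoImplicit false
set_option linter.unusedSectionVars false
set_option linter.unusedVariables false
set_option linter.style.haveILetI false

noncomputable section

namespace Fermat.Agent.S40x.Node.Vocab

open AlgebraicCurve IsLocalRing ModularCurve
open Fermat.Agent.S19x.Geo.LatticeFixed (IsFixed IsFixedK)
open Fermat.Agent.S33x.H1.FixData2Inst
open Fermat.Agent.S56x.Flat.InertiaField

local notation "Qbar" => AlgebraicClosure ℚ

/-! ### The inertia field `K0` and its ring of integers -/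

section Constants

variable (P : ValuationSubring Qbar)

/-- `K0`: the fixed field of the inertia group of `P`. -/
def K0 : Subfield Qbar where
  carrier := {c | ∀ τ ∈ P.inertiaSubgroupIn ℚ, τ c = c}
  mul_mem' := fun ha hb τ hτ => by rw [map_mul, ha τ hτ, hb τ hτ]
  one_mem' := fun τ _ => map_one τ
  add_mem' := fun ha hb τ hτ => by rw [map_add, ha τ hτ, hb τ hτ]
  zero_mem' := fun τ _ => map_zero τ
  neg_mem' := fun ha τ hτ => by rw [map_neg, ha τ hτ]
  inv_mem' := fun c hc τ hτ => by rw [map_inv₀, hc τ hτ]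

theorem mem_K0 {c : Qbar} : c ∈ K0 P ↔ ∀ τ ∈ P.inertiaSubgroupIn ℚ, τ c = c := Iff.rfl

theorem mem_inertiaInt_iff {c : Qbar} : c ∈ inertiaInt P ↔ c ∈ P ∧ c ∈ K0 P := Iff.rfl

theorem mem_K0_of_mem_inertiaInt {c : Qbar} (hc : c ∈ inertiaInt P) : c ∈ K0 P := hc.2

theorem natCast_mem_K0 (n : ℕ) : (n : Qbar) ∈ K0 P := fun τ _ => map_natCast τ n

/-- `O0`: the valuation ring of `K0`. -/
def O0 : ValuationSubring (K0 P) := P.comap (K0 P).subtype

theorem mem_O0 {c : K0 P} : c ∈ O0 P ↔ (c : Qbar) ∈ P := Iff.rfl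

/-- `O0 ≃ inertiaInt P`. -/
def O0equiv : O0 P ≃+* inertiaInt P where
  toFun c := ⟨((c : K0 P) : Qbar), c.2, (c : K0 P).2⟩
  invFun c := ⟨⟨(c : Qbar), c.2.2⟩, c.2.1⟩
  left_inv _ := rfl
  right_inv _ := rfl
  map_mul' _ _ := rfl
  map_add' _ _ := rfl

@[simp] theorem coe_O0equiv (c : O0 P) : ((O0equiv P c : inertiaInt P) : Qbar) = ((c : K0 P) : Qbar) :=
  rfl

/-- the inclusion `inertiaInt P → K0 P`. -/
def intToK0 : inertiaInt P →+* K0 P where
  toFun c := ⟨(c : Qbar), c.2.2⟩
  map_one' := rfl
  map_mul' _ _ := rfl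
  map_zero' := rfl
  map_add' _ _ := rfl

instance algebraIntK0 : Algebra (inertiaInt P) (K0 P) := (intToK0 P).toAlgebra

@[simp] theorem coe_algebraMap_K0 (c : inertiaInt P) :
    ((algebraMap (inertiaInt P) (K0 P) c : K0 P) : Qbar) = (c : Qbar) := rfl

theorem algebraMap_K0_injective : Function.Injective (algebraMap (inertiaInt P) (K0 P)) := by
  intro a b h
  apply Subtype.ext
  have := congrArg (fun z : K0 P => (z : Qbar)) h
  simpa using this

/-- `K0` is the fraction field of `inertiaInt P`. -/
instance isFractionRingIntK0 : IsFractionRing (inertiaInt P) (K0 P) where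
  map_units := by
    rintro ⟨y, hy⟩
    have hy0 : y ≠ 0 := nonZeroDivisors.ne_zero hy
    refine IsUnit.mk0 _ ?_
    intro h
    exact hy0 ((algebraMap_K0_injective P) (by rw [h, map_zero]))
  surj := by
    intro z
    by_cases hz : (z : Qbar) ∈ P
    · refine ⟨(⟨(z : Qbar), hz, z.2⟩, 1), ?_⟩
      apply Subtype.ext
      simp
    · have hz0 : (z : Qbar) ≠ 0 := fun h => hz (h ▸ P.zero_mem)
      have hzi : (z : Qbar)⁻¹ ∈ P := (P.mem_or_inv_mem _).resolve_left hz
      have hzK : (z : Qbar)⁻¹ ∈ K0 P := (K0 P).inv_mem z.2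
      have hne : (⟨(z : Qbar)⁻¹, hzi, hzK⟩ : inertiaInt P) ≠ 0 := by
        intro h
        have := congrArg (fun c : inertiaInt P => (c : Qbar)) h
        exact inv_ne_zero hz0 (by simpa using this)
      refine ⟨(1, ⟨⟨(z : Qbar)⁻¹, hzi, hzK⟩, mem_nonZeroDivisors_of_ne_zero hne⟩), ?_⟩
      apply Subtype.ext
      simp [mul_inv_cancel₀ hz0]
  exists_of_eq := by
    intro a b h
    exact ⟨1, by rw [algebraMap_K0_injective P h]⟩

variable {p : ℕ} (hp : p.Prime) (hP : P.LiesOverPrime p)
include hp hP

/-- the maximal ideal of `inertiaInt P` is `(p)`. -/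
theorem maximalIdeal_inertiaInt :
    haveI := isDiscreteValuationRing_inertiaInt P hp hP
    maximalIdeal (inertiaInt P) = Ideal.span {((p : ℕ) : inertiaInt P)} := by
  haveI := isDiscreteValuationRing_inertiaInt P hp hP
  apply le_antisymm
  · intro c hc
    rw [mem_maximalIdeal, mem_nonunits_iff, isUnit_inertiaInt_iff, not_not] at hc
    exact Ideal.mem_span_singleton.2 (natCast_dvd_of_mem_nonunits P hp hP c hc)
  · rw [Ideal.span_singleton_le_iff_mem, mem_maximalIdeal, mem_nonunits_iff,
      isUnit_inertiaInt_iff, not_not]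
    have hpP : ((p : ℕ) : Qbar) ∈ P.nonunits := hP
    simpa using hpP

variable {k : Type*} [Field k] (π : P →+* k)

omit hp hP in
/-- the residue map on `inertiaInt P`. -/
def res0 : inertiaInt P →+* k :=
  π.comp (Subring.inclusion (fun c (hc : c ∈ inertiaInt P) => hc.1))

omit hp hP in
theorem res0_apply (c : inertiaInt P) : res0 P π c = π ⟨(c : Qbar), c.2.1⟩ := rfl

/-- the residue map `inertiaInt P → k` is onto. -/
theorem res0_surjective (hπ : Function.Surjective π)
    (hker : ∀ a : P, π a = 0 ↔ (a : Qbar) ∈ P.nonunits) :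
    Function.Surjective (res0 P π) := by
  intro y
  obtain ⟨a, rfl⟩ := hπ y
  obtain ⟨a₀, ha₀, hsub⟩ :=
    Fermat.Agent.S19x.Hens.InertiaResidue.exists_fixed_sub_mem_nonunits P hp hP a.2
  refine ⟨⟨a₀, ha₀⟩, ?_⟩
  rw [res0_apply, ← sub_eq_zero, ← map_sub, hker]
  exact hsub

/-- the kernel of the residue map on `inertiaInt P` is `(p)`. -/
theorem res0_eq_zero_iff (hker : ∀ a : P, π a = 0 ↔ (a : Qbar) ∈ P.nonunits)
    (c : inertiaInt P) : res0 P π c = 0 ↔ ((p : ℕ) : inertiaInt P) ∣ c := by
  rw [res0_apply, hker]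
  constructor
  · intro hc
    exact natCast_dvd_of_mem_nonunits P hp hP c hc
  · rintro ⟨d, rfl⟩
    have hpP : ((p : ℕ) : Qbar) ∈ P.nonunits := hP
    have := Fermat.Agent.Lib.mul_mem_nonunits_of_mem P hpP d.2.1
    simpa using this

end Constants

/-! ### Generic semilinear descent: linear disjointness -/

section Generic

variable {K : Type*} [Field K] {F : Type*} [Field F] [Algebra K F]
  (Γ : Set (SemilinearAut K F))

theorem IsFixed.one' : IsFixed Γ (1 : F) := fun s _ => smul_one s

theorem IsFixed.mul' {f g : F} (hf : IsFixed Γ f) (hg : IsFixed Γ g) : IsFixed Γ (f * g) :=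
  fun s hs => by rw [smul_mul', hf s hs, hg s hs]

theorem IsFixed.neg' {f : F} (hf : IsFixed Γ f) : IsFixed Γ (-f) :=
  fun s hs => by rw [smul_neg, hf s hs]

theorem IsFixed.inv' {f : F} (hf : IsFixed Γ f) : IsFixed Γ f⁻¹ :=
  fun s hs => by rw [smul_inv'', hf s hs]

theorem IsFixed.algebraMap' {c : K} (hc : IsFixedK Γ c) : IsFixed Γ (algebraMap K F c) :=
  fun s hs => by rw [SemilinearAut.smul_algebraMap, hc s hs]

theorem isFixedK_of_isFixed_algebraMap {c : K} (hc : IsFixed Γ (algebraMap K F c)) :
    IsFixedK Γ c := fun s hs => by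
  have h := hc s hs
  rw [SemilinearAut.smul_algebraMap] at h
  exact (algebraMap K F).injective h

open scoped Classical in
/-- **Linear disjointness**: a family of `Γ`-fixed elements of `F` which is linearly independent
over the `Γ`-fixed constants is linearly independent over `K`.  Formulated with finitely supported
relations: a `K`-relation with fixed `e i` forces a nontrivial relation with FIXED coefficients. -/
theorem exists_fixed_relation {ι : Type*} (e : ι → F) (he : ∀ i, IsFixed Γ (e i))
    (t : Finset ι) (c : ι → K) (hrel : ∑ i ∈ t, c i • e i = 0) (i₀ : ι) (hi₀ : i₀ ∈ t)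
    (hc₀ : c i₀ ≠ 0) :
    ∃ (t' : Finset ι) (d : ι → K), t' ⊆ t ∧ (∀ i, IsFixedK Γ (d i)) ∧
      ∑ i ∈ t', d i • e i = 0 ∧ ∃ j ∈ t', d j ≠ 0 := by
  induction h : t.card using Nat.strong_induction_on generalizing t c i₀ with
  | _ n ih =>
    -- normalise `c i₀ = 1`
    set c' : ι → K := fun i => (c i₀)⁻¹ * c i with hc'
    have hrel' : ∑ i ∈ t, c' i • e i = 0 := by
      have : ∑ i ∈ t, c' i • e i = (c i₀)⁻¹ • ∑ i ∈ t, c i • e i := by
        rw [Finset.smul_sum]
        exact Finset.sum_congr rfl fun i _ => by rw [hc', smul_smul]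
      rw [this, hrel, smul_zero]
    have hc'₀ : c' i₀ = 1 := by simp [hc', inv_mul_cancel₀ hc₀]
    by_cases hfix : ∀ i ∈ t, IsFixedK Γ (c' i)
    · refine ⟨t, fun i => if i ∈ t then c' i else 0, Finset.Subset.refl t, ?_, ?_, i₀, hi₀, ?_⟩
      · intro i
        by_cases hi : i ∈ t
        · simpa [hi] using hfix i hi
        · simpa [hi] using (IsFixedK.zero : IsFixedK Γ (0 : K))
      · rw [← hrel']
        exact Finset.sum_congr rfl fun i hi => by simp [hi]
      · simp [hi₀, hc'₀]
    · push Not at hfix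
      obtain ⟨i₁, hi₁, hnf⟩ := hfix
      unfold IsFixedK at hnf
      push Not at hnf
      obtain ⟨s, hs, hsne⟩ := hnf
      -- apply `s` and subtract
      set d : ι → K := fun i => SemilinearAut.baseAut s (c' i) - c' i with hd
      have hrel'' : ∑ i ∈ t.erase i₀, d i • e i = 0 := by
        have h1 : s • (∑ i ∈ t, c' i • e i) = ∑ i ∈ t, SemilinearAut.baseAut s (c' i) • e i := by
          rw [Finset.smul_sum]
          refine Finset.sum_congr rfl fun i _ => ?_
          rw [Fermat.Agent.S19x.Geo.LatticeFixed.smul_smul_semilinear, he i s hs]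
        rw [hrel', smul_zero] at h1
        have h2 : ∑ i ∈ t, d i • e i = 0 := by
          have : ∑ i ∈ t, d i • e i
              = ∑ i ∈ t, SemilinearAut.baseAut s (c' i) • e i - ∑ i ∈ t, c' i • e i := by
            rw [← Finset.sum_sub_distrib]
            exact Finset.sum_congr rfl fun i _ => by rw [hd, sub_smul]
          rw [this, ← h1, hrel', sub_zero]
        rw [← Finset.add_sum_erase t _ hi₀] at h2
        have hd₀ : d i₀ = 0 := by simp [hd, hc'₀]
        rwa [hd₀, zero_smul, zero_add] at h2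
      have hi₁' : i₁ ∈ t.erase i₀ := by
        refine Finset.mem_erase.2 ⟨?_, hi₁⟩
        rintro rfl
        apply hsne
        rw [hc'₀, map_one]
      have hd₁ : d i₁ ≠ 0 := by
        simp only [hd]
        exact sub_ne_zero.2 hsne
      have hlt : (t.erase i₀).card < n := by
        rw [← h]
        exact Finset.card_erase_lt_of_mem hi₀
      obtain ⟨t', d', ht', hd'fix, hd'rel, hd'ne⟩ :=
        ih _ hlt (t.erase i₀) d hrel'' i₁ hi₁' hd₁ rfl
      exact ⟨t', d', ht'.trans (Finset.erase_subset _ _), hd'fix, hd'rel, hd'ne⟩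

end Generic

/-! ### The inertia-fixed function field `F0` -/

section Functions

open Fermat.Agent.Gateway.Hecke

variable (P : ValuationSubring Qbar) (N : ℕ)

/-- `F0`: the inertia-fixed functions of level `N`. -/
def F0 : Subfield (laurentBaseChange Qbar (modularFunctionFieldFull N)) where
  carrier := {f | IsFixed (inertiaAct P N) f}
  mul_mem' := fun hf hg => IsFixed.mul' _ hf hg
  one_mem' := IsFixed.one' _
  add_mem' := fun hf hg => hf.add hg
  zero_mem' := IsFixed.zero
  neg_mem' := fun hf => IsFixed.neg' _ hf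
  inv_mem' := fun _ hf => IsFixed.inv' _ hf

theorem mem_F0 {f : laurentBaseChange Qbar (modularFunctionFieldFull N)} :
    f ∈ F0 P N ↔ IsFixed (inertiaAct P N) f := Iff.rfl

theorem isFixedK_inertiaAct_iff {c : Qbar} : IsFixedK (inertiaAct P N) c ↔ c ∈ K0 P := by
  constructor
  · intro hc τ hτ
    exact fixed_of_isFixedK (inertiaAct P N) (inertiaAct_baseAut' P N) hc τ hτ
  · intro hc s hs
    obtain ⟨σ, hσ, hσs⟩ := inertiaAct_baseAut P N s hs
    rw [hσs]
    exact hc σ hσ

theorem algebraMap_mem_F0_iff {c : Qbar} :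
    algebraMap Qbar (laurentBaseChange Qbar (modularFunctionFieldFull N)) c ∈ F0 P N ↔
      c ∈ K0 P := by
  rw [← isFixedK_inertiaAct_iff P N]
  exact ⟨isFixedK_of_isFixed_algebraMap _, IsFixed.algebraMap' _⟩

/-- the structure map `K0 → F0`. -/
def K0toF0 : K0 P →+* F0 P N where
  toFun c := ⟨algebraMap Qbar _ (c : Qbar), (algebraMap_mem_F0_iff P N).2 c.2⟩
  map_one' := by apply Subtype.ext; simp
  map_mul' a b := by apply Subtype.ext; simp
  map_zero' := by apply Subtype.ext; simp
  map_add' a b := by apply Subtype.ext; simp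

instance algebraK0F0 : Algebra (K0 P) (F0 P N) := (K0toF0 P N).toAlgebra

@[simp] theorem coe_algebraMap_F0 (c : K0 P) :
    ((algebraMap (K0 P) (F0 P N) c : F0 P N) :
        laurentBaseChange Qbar (modularFunctionFieldFull N)) =
      algebraMap Qbar _ (c : Qbar) := rfl

theorem coe_smul_F0 (c : K0 P) (f : F0 P N) :
    ((c • f : F0 P N) : laurentBaseChange Qbar (modularFunctionFieldFull N)) =
      (c : Qbar) • (f : laurentBaseChange Qbar (modularFunctionFieldFull N)) := by
  rw [Algebra.smul_def, Algebra.smul_def]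
  rfl

/-- `F0` spans the function field over `Qbar`. -/
theorem span_F0 :
    Submodule.span Qbar ((F0 P N : Subfield _) :
      Set (laurentBaseChange Qbar (modularFunctionFieldFull N))) = ⊤ :=
  span_fixed_inertiaAct P N

open scoped Classical in
/-- **Linear disjointness of `F0` and `Qbar` over `K0`.** -/
theorem linearIndependent_F0 {ι : Type*} (e : ι → F0 P N)
    (he : LinearIndependent (K0 P) e) :
    LinearIndependent Qbar
      (fun i => ((e i : F0 P N) : laurentBaseChange Qbar (modularFunctionFieldFull N))) := by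
  rw [linearIndependent_iff']
  intro t c hrel i₀ hi₀
  by_contra hc₀
  obtain ⟨t', d, -, hdfix, hdrel, j, hj, hdj⟩ :=
    exists_fixed_relation (inertiaAct P N)
      (fun i => ((e i : F0 P N) : laurentBaseChange Qbar (modularFunctionFieldFull N)))
      (fun i => (e i).2) t c hrel i₀ hi₀ hc₀
  have hdK : ∀ i, d i ∈ K0 P := fun i => (isFixedK_inertiaAct_iff P N).1 (hdfix i)
  rw [linearIndependent_iff'] at he
  have h0 := he t' (fun i => (⟨d i, hdK i⟩ : K0 P)) (by
    apply Subtype.ext
    rw [Subfield.coe_zero, ← hdrel]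
    have : ∀ s : Finset ι, ((∑ i ∈ s, (⟨d i, hdK i⟩ : K0 P) • e i : F0 P N) :
        laurentBaseChange Qbar (modularFunctionFieldFull N)) =
        ∑ i ∈ s, d i • ((e i : F0 P N) : laurentBaseChange Qbar (modularFunctionFieldFull N)) := by
      intro s
      induction s using Finset.induction_on with
      | empty => simp
      | insert a s ha ih =>
        rw [Finset.sum_insert ha, Finset.sum_insert ha, Subfield.coe_add, ih, coe_smul_F0]
    exact this t') j hj
  apply hdj
  have := congrArg (fun z : K0 P => (z : Qbar)) h0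
  simpa using this

end Functions

end Fermat.Agent.S40x.Node.Vocab
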