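/-
helper30 (P-S44, block R1 / N-alpha, leaf N1, CONCRETE discharge at `L = Qbar`, level `M q`).

Variable context of `S34x/Inst/TheoremBMq.lean` at `L := Qbar` (as `S33x/W/InstMqFixedB`):
`P` a valuation subring of `Qbar` over `q`, `H : ResidueFacts P π M q ..`, a good coordinate `x`
(`hx`, `Hx`, `hxk`, `hY`), a chart `C` with `C.t = tA M q x hx`, and
`Γ := FixData2Inst.inertiaAct P (M q)` (the literal of `Node/Vocab.F0`).

* `bundle_Mq` : ONE discharge lemma for every instance file written in the context bundle: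
  `∃ Dt, Ctx R C q q C.T.1 Dt ∧ CtxGal R C Γ ∧ FixData2 R Γ ∧ hF` (`R = redSetup2 H hA`);
* `isNoetherianRing_Boo_Mq`, `isNoetherianRing_Bzero_Mq` : (N1) for both half charts;
* `fixedSubfield_inertiaAct` : `FixedFrac.fixedSubfield (inertiaAct P N) = Vocab.F0 P N` (`rfl`);
* `toF0`, `isFractionRing_Boo_Mq`, `isFractionRing_Bzero_Mq` : `F0 P (M q)` is the fraction field
  of the inertia-fixed half-chart rings.
-/
import Fermat.Agent.S40x.Node.FixedFracZero
import Fermat.Agent.S40x.Node.Vocab
import Fermat.Agent.S33x.W.InstMqFixedB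

set_option autoImplicit false
set_option linter.style.haveILetI false
set_option linter.unusedSectionVars false
set_option linter.unusedVariables false

noncomputable section

namespace Fermat.Agent.S40x.Node.FixedQb

open AlgebraicCurve Module IntermediateField IsLocalRing ModularCurve
open Fermat.Agent.Gateway.C0 Fermat.Agent.S34x.C0two Fermat.Agent.S34x.Lattice2
open Fermat.Agent.S33x.Cech.CtxMq
open Fermat.Agent.S19x.Geo.LatticeFixed (IsFixed)
open Fermat.Agent.S33x.W.InstW (fixedAlg)
open Fermat.Agent.Gateway.Hecke Fermat.Agent.Gateway.ESC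
open Fermat.Agent.Gateway.Red Fermat.Agent.Gateway.GoodRed
open Fermat.Agent.Gateway.GoodRed.ConjFamily
open Fermat.Agent.S34x.TwoVal
open Fermat.Agent.S34x.Inst.L2 Fermat.Agent.S34x.Inst.IsL2Inst
open Fermat.Agent.S34x.Inst.RedSetupInst Fermat.Agent.S34x.Inst.ElementYRed
open Fermat.Agent.S34x.Inst.ElementYInt Fermat.Agent.S34x.Inst.Charts
open Fermat.Agent.S34x.Inst Fermat.Agent.S34x.Inst.TheoremBMq
open Fermat.Agent.S33x.H1.FixData2Inst Fermat.Agent.S33x.H1.FixData2Final
open Fermat.Agent.S40x.Node.Vocab Fermat.Agent.S40x.Node.FixedFrac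

attribute [-instance] IsScalarTower.of_algHom

local notation "Qbar" => AlgebraicClosure ℚ

/-! ### The fixed field is `F0` -/

theorem fixedSubfield_inertiaAct (P : ValuationSubring Qbar) (N : ℕ) :
    fixedSubfield (inertiaAct P N) = F0 P N := rfl

/-- the inclusion of the inertia-fixed part of an `P`-subalgebra into `F0 P N`. -/
def toF0 (P : ValuationSubring Qbar) (N : ℕ)
    (B : Subalgebra P (laurentBaseChange Qbar (modularFunctionFieldFull N))) :
    fixedAlg (inertiaAct P N) B →+* F0 P N :=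
  toFixedSubfield (Γ := inertiaAct P N) B

@[simp] theorem coe_toF0 (P : ValuationSubring Qbar) (N : ℕ)
    (B : Subalgebra P (laurentBaseChange Qbar (modularFunctionFieldFull N)))
    (b : fixedAlg (inertiaAct P N) B) :
    ((toF0 P N B b : F0 P N) : laurentBaseChange Qbar (modularFunctionFieldFull N)) = b := rfl

theorem toF0_injective (P : ValuationSubring Qbar) (N : ℕ)
    (B : Subalgebra P (laurentBaseChange Qbar (modularFunctionFieldFull N))) :
    Function.Injective (toF0 P N B) :=
  toFixedSubfield_injective (Γ := inertiaAct P N) B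

/-! ### The discharge -/

variable {P : ValuationSubring Qbar} {k : Type} [Field k] {π : P →+* k} [IsAlgClosed k]
variable {M q : ℕ} [NeZero M] [NeZero q] [Fact q.Prime] [CharP k q]
variable {hdeg : finrankAlong Qbar (heckeAlphaBar Qbar M q) = q + 1} {hq : q.Prime}
  {hqM : ¬ q ∣ M}
variable {hrk : ∀ x ∈ maximalIdeal P, ∀ c : P, c ≠ 0 → ∃ j : ℕ, c ∣ x ^ j}
  {hπ : Function.Surjective π}
variable (H : ResidueFacts P π M q hdeg hq hqM hrk hπ) (hA : P.LiesOverPrime q)
  (x : LaurentSeries ℤ) (hx : coeffMap (Int.castRingHom Qbar) x ∈ FBar Qbar M)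
  (Hx : GoodLevelFactsT P π M q hπ hqM (tInt M x hx))

include Hx hA in
/-- **ONE discharge lemma**: the context bundle, the inertia data, `FixData2` and `hF` at the
concrete level `M q` over `Qbar`, for `Γ = inertiaAct P (M q)`. -/
theorem bundle_Mq [PerfectRing k q] (C : ChartCoord (redSetup2 H hA))
    (hCt : C.t = tA M q x hx) (hxk : tbar k x ≠ 0) (hY : YFacts M q x hx) :
    ∃ Dt : Divisor Qbar (FL Qbar (M * q)),
      Ctx (redSetup2 H hA) C q q C.T.1 Dt ∧
      CtxGal (redSetup2 H hA) C (inertiaAct P (M * q)) ∧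
      Fermat.Agent.S33x.H1.LatticeFixed2.FixData2 (redSetup2 H hA) (inertiaAct P (M * q)) ∧
      Submodule.span Qbar {f : FL Qbar (M * q) | IsFixed (inertiaAct P (M * q)) f} = ⊤ := by
  haveI : Algebra.IsAlgebraic ℚ Qbar := AlgebraicClosure.isAlgebraic ℚ
  haveI : CharZero Qbar := algebraRat.charZero Qbar
  have ht : Transcendental Qbar C.t := by
    rw [hCt]
    exact Charts.transcendental_tα Qbar M q Hx.trans
  haveI hfin : FiniteDimensional Qbar⟮C.t⟯ (FL Qbar (M * q)) := by
    rw [hCt]
    exact finiteDimensional_tA x hx Hx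
  have hctx := ctx_of_chart H hA x hx Hx C hCt hxk hY (Dt := Charts.divT ht) (Charts.divT_apply ht)
  have hgal := ctxGal_inertia H hA x hx Hx C hCt
  rw [← inertiaAct_eq_setOf] at hgal
  exact ⟨Charts.divT ht, hctx, hgal, fixData2 H hA, span_fixed_inertiaAct P (M * q)⟩

include Hx hA in
/-- **(N1) at `Qbar`**: the inertia-fixed part of the half-chart ring `B_∞` is Noetherian. -/
theorem isNoetherianRing_Boo_Mq [PerfectRing k q] (C : ChartCoord (redSetup2 H hA))
    (hCt : C.t = tA M q x hx) (hxk : tbar k x ≠ 0) (hY : YFacts M q x hx) :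
    IsNoetherianRing (fixedAlg (inertiaAct P (M * q)) (Fermat.Agent.S33x.H1.InstC4.BooAlg C)) := by
  haveI : CharZero Qbar := algebraRat.charZero Qbar
  obtain ⟨Dt, hctx, hgal, hD, hF⟩ := bundle_Mq H hA x hx Hx C hCt hxk hY
  exact FixedNoeth.isNoetherianRing_fixedBoo' hctx hgal hD hF

include Hx hA in
/-- **(N1) at `Qbar`**, the other half chart. -/
theorem isNoetherianRing_Bzero_Mq [PerfectRing k q] (C : ChartCoord (redSetup2 H hA))
    (hCt : C.t = tA M q x hx) (hxk : tbar k x ≠ 0) (hY : YFacts M q x hx) :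
    IsNoetherianRing
      (fixedAlg (inertiaAct P (M * q)) (Fermat.Agent.S33x.H1.InstC4.BzeroAlg C)) := by
  haveI : CharZero Qbar := algebraRat.charZero Qbar
  obtain ⟨Dt, hctx, hgal, hD, hF⟩ := bundle_Mq H hA x hx Hx C hCt hxk hY
  exact FixedNoethZero.isNoetherianRing_fixedBzero' hctx hgal hD hF

include Hx hA in
/-- **`F0 P (M q)` is the fraction field of `B_0 = (B_∞)^I`.** -/
theorem isFractionRing_Boo_Mq [PerfectRing k q] (C : ChartCoord (redSetup2 H hA))
    (hCt : C.t = tA M q x hx) (hxk : tbar k x ≠ 0) (hY : YFacts M q x hx) :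
    letI := (toF0 P (M * q) (Fermat.Agent.S33x.H1.InstC4.BooAlg C)).toAlgebra
    IsFractionRing (fixedAlg (inertiaAct P (M * q)) (Fermat.Agent.S33x.H1.InstC4.BooAlg C))
      (F0 P (M * q)) := by
  haveI : CharZero Qbar := algebraRat.charZero Qbar
  obtain ⟨Dt, hctx, hgal, hD, hF⟩ := bundle_Mq H hA x hx Hx C hCt hxk hY
  exact isFractionRing_fixedBoo hctx hgal hD hF

include Hx hA in
/-- **`F0 P (M q)` is the fraction field of the other inertia-fixed half-chart ring.** -/
theorem isFractionRing_Bzero_Mq [PerfectRing k q] (C : ChartCoord (redSetup2 H hA))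
    (hCt : C.t = tA M q x hx) (hxk : tbar k x ≠ 0) (hY : YFacts M q x hx) :
    letI := (toF0 P (M * q) (Fermat.Agent.S33x.H1.InstC4.BzeroAlg C)).toAlgebra
    IsFractionRing (fixedAlg (inertiaAct P (M * q)) (Fermat.Agent.S33x.H1.InstC4.BzeroAlg C))
      (F0 P (M * q)) := by
  haveI : CharZero Qbar := algebraRat.charZero Qbar
  obtain ⟨Dt, hctx, hgal, hD, hF⟩ := bundle_Mq H hA x hx Hx C hCt hxk hY
  exact FixedFracZero.isFractionRing_fixedBzero hctx hgal hD hF

end Fermat.Agent.S40x.Node.FixedQb
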