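import Fermat.Agent.S40x.Node.NodeInst
import Fermat.Agent.S40x.Node.FixedNoeth
import Fermat.Agent.S33x.W.InstWCtx
import Fermat.Agent.S33x.Cech.Inst
import Fermat.Agent.S33x.Cech.InstQbCtx
import Fermat.Agent.S34x.Lattice2.AssembleCounts

/-!
# P-S44, block R1 / N-alpha, leaf N2 (instance half): discharge of the hypotheses of
`Node/NodeInst` inside the context bundle and at `L = Qbar` (helper26)

`Node/NodeInst` (helper50) is semi-abstract: it takes as hypotheses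

* `hlift` (fixed lifts of the reductions of `L(b C∞) ∩ O`),
* the instances `Module.Finite k ((C.B₁ × C.B₂) ⧸ B̄)` and `IsReduced (Goursat.R B̄ ..)`,
* a fixed uniformiser `ϖ` with `hϖfix`, `hϖ0`, `hϖ` (for (ker)).

Here they are discharged

* **inside the context bundle** `Cech.CtxMq.Ctx R C p q x Dt` + `CtxGal R C Γ` + `FixData2 R Γ` +
  `hF` (section `Ctx`): `hlift`, `finite_quotient`, `isReduced_R`, `rho1_surjective`,
  `rho2_surjective`, `hnode`, `exists_unif` ((ker) with the uniformiser of `FixData2`);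
* **at `L = Qbar`**, `A = P` over `q`, `R = redSetup2 H hA`, `C = TheoremBMq.chart H hA x hx Hx`,
  `Γ = inertiaAct P (M q)` (section `Qbar`): the four inputs `ctx`, `ctxGal`, `fixData2`, `hF`
  of the bundle, and (ker) with the uniformiser `q`: `natCast_dvd_of_rho_eq_zero`
  (`rho1 x = 0 → rho2 x = 0 → (q : B_0) ∣ x`), `natCast_ne_zero`, `rho_natCast`.
-/

set_option autoImplicit false
set_option linter.unusedSectionVars false
set_option linter.style.haveILetI false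

noncomputable section

namespace Fermat.Agent.S40x.Node.NodeInstQb

open AlgebraicCurve IsLocalRing Module IntermediateField
open Fermat.Agent.S34x Fermat.Agent.S34x.C0two Fermat.Agent.S34x.Lattice2
open Fermat.Agent.S19x.Geo.LatticeFixed (IsFixed IsFixedK)
open Fermat.Agent.S33x.H1.LatticeFixed2 Fermat.Agent.S33x.H1.FixedDecomp
open Fermat.Agent.S33x.Cech.CtxMq Fermat.Agent.S33x.W.InstW Fermat.Agent.S33x.W.InstWCtx
open Fermat.Agent.S40x.Node.NodeInst

/-! ### Inside the context bundle -/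

section Ctx

variable {K : Type*} [Field K] [IsAlgClosed K] [CharZero K] {A : ValuationSubring K}
  {F : Type*} [Field F] [Algebra K F] {S : SmallRing F}
  {k : Type*} [Field k] [IsAlgClosed k] {E : Type*} [Field E] [Algebra k E]
  {R : RedSetup2 A S k (E × E)} {C : ChartCoord R} {p q : ℕ} {x : E} {Dt : Divisor K F}
  (h : Ctx R C p q x Dt) {Γ : Set (SemilinearAut K F)} (hG : CtxGal R C Γ)

include h hG in
/-- **`hlift`** of `Node/NodeInst` inside the context bundle. -/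
theorem hlift (hD : FixData2 R Γ) (hF : Submodule.span K {f : F | IsFixed Γ f} = ⊤)
    (b : ℕ) (y : E × E) (hy : y ∈ R.redLat (C.LN 0 b)) :
    ∃ (f : F) (hf : f ∈ S.O), f ∈ C.LN 0 b ∧ IsFixed Γ f ∧ R.res ⟨f, hf⟩ = y := by
  haveI : ∀ b, FiniteDimensional K (C.LN 0 b) := fun b => finite_LN h 0 b
  exact hlift_of_fixData hD hF (fun b => fg_lat_LN' h 0 b)
    (fun b => Fermat.Agent.S33x.H1.StableLN.stable_LN C hG.smul_t 0 b) b y hy

include h in
/-- **the glue ring has finite codimension** in `B₁ × B₂` (the instance of `Node/NodeInst`). -/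
theorem finite_quotient :
    Module.Finite k ((C.B₁ × C.B₂) ⧸ Subalgebra.toSubmodule C.BbarT) := by
  haveI := h.fin_t
  haveI : ∀ b, FiniteDimensional k (C.Pk 0 b) := fun b => h.finite_Pk 0 b
  obtain ⟨b₀, hgen⟩ := h.exists_hgen
  obtain ⟨δ, -, b₁, hdimS, -⟩ := h.exists_counts
  exact (finite_quotient_BbarT C h.ht h.hDt h.hcart hgen h.hL2 h.hL2₀ h.he h.he₀ δ b₁ hdimS).1.1

include h in
/-- **the glueing ring `R = B₂ ⧸ I₂` is reduced** (the instance of `Node/NodeInst`). -/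
theorem isReduced_R : IsReduced (Goursat.R C.BbarT h.hL2.h2) := by
  haveI := finite_quotient h
  obtain ⟨r, hr, hN1⟩ := h.hN1
  exact Goursat.isReduced_R C.BbarT h.hL2.h1 h.hL2.h2 r hr hN1

include h hG in
theorem rho1_surjective (hD : FixData2 R Γ) (hF : Submodule.span K {f : F | IsFixed Γ f} = ⊤) :
    Function.Surjective (rho1 C Γ) :=
  NodeInst.rho1_surjective (hlift h hG hD hF) h.hL2

include h hG in
theorem rho2_surjective (hD : FixData2 R Γ) (hF : Submodule.span K {f : F | IsFixed Γ f} = ⊤) :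
    Function.Surjective (rho2 C Γ) :=
  NodeInst.rho2_surjective (hlift h hG hD hF) h.hL2

include h hG in
/-- **(hnode)** of `Node/NodeLocal` inside the context bundle. -/
theorem hnode (hD : FixData2 R Γ) (hF : Submodule.span K {f : F | IsFixed Γ f} = ⊤)
    (s : Goursat.Nodes C.BbarT h.hL2.h2) {b : B0 C Γ}
    (hb : b ∈ nodeIdeal (Γ := Γ) h.hL2 s) :
    ∃ c : B0 C Γ, c ∉ nodeIdeal (Γ := Γ) h.hL2 s ∧
      ∃ z : B0 C Γ, rho2 C Γ z = 0 ∧ rho1 C Γ z = rho1 C Γ (c * b) := by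
  haveI := finite_quotient h
  haveI := isReduced_R h
  exact NodeInst.hnode h.hL2 (hlift h hG hD hF) s hb

include h hG in
/-- **(hnode')**, the mirrored form: for `b` in the node ideal there are `c` outside the node ideal
and `z ∈ B_0` with `rho1 z = 0` and `rho2 z = rho2 (c * b)`. -/
theorem hnode' (hD : FixData2 R Γ) (hF : Submodule.span K {f : F | IsFixed Γ f} = ⊤)
    (s : Goursat.Nodes C.BbarT h.hL2.h2) {b : B0 C Γ}
    (hb : b ∈ nodeIdeal (Γ := Γ) h.hL2 s) :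
    ∃ c : B0 C Γ, c ∉ nodeIdeal (Γ := Γ) h.hL2 s ∧
      ∃ z : B0 C Γ, rho1 C Γ z = 0 ∧ rho2 C Γ z = rho2 C Γ (c * b) := by
  haveI := finite_quotient h
  haveI := isReduced_R h
  have hl := hlift h hG hD hF
  obtain ⟨c, hc1, hc2⟩ := exists_bump h.hL2 hl s
  refine ⟨c, ?_, ?_⟩
  · rw [mem_nodeIdeal_iff, hc1]
    exact one_ne_zero
  · have hmem : ((0 : C.B₁), (rho2 C Γ (c * b) : C.B₂)) ∈ C.BbarT := by
      rw [Goursat.mem_iff_forall_ev_eq C.BbarT h.hL2.h1 h.hL2.h2]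
      intro t
      rw [← chi1_eq_ev, ← chi2_eq_ev']
      show chi1 h.hL2 t 0 = chi2 h.hL2 t (rho2 C Γ (c * b))
      rw [map_zero, map_mul, map_mul, ← chi1_rho1_eq h.hL2 t c]
      by_cases hts : t = s
      · subst hts
        rw [(mem_nodeIdeal_iff' h.hL2 t b).mp hb, mul_zero]
      · rw [hc2 t hts, zero_mul]
    obtain ⟨z, hz⟩ := rho_surjective_BbarT hl hmem
    refine ⟨z, ?_, ?_⟩
    · rw [← rho_fst, hz]
    · rw [← rho_snd, hz]

/-- **(ker)** of `Node/NodeLocal` with the uniformiser of `FixData2`. -/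
theorem exists_unif (hD : FixData2 R Γ) :
    ∃ (ϖ : A) (hϖfix : IsFixedK Γ (ϖ : K)), ϖ ∈ maximalIdeal A ∧
      (unifB (C := C) hϖfix : B0 C Γ) ≠ 0 ∧ rho C Γ (unifB hϖfix) = 0 ∧
      ∀ x : B0 C Γ, rho1 C Γ x = 0 → rho2 C Γ x = 0 → unifB hϖfix ∣ x := by
  obtain ⟨ϖ, hϖm, hϖ0, hϖfix, hϖ⟩ := hD.unif
  exact ⟨ϖ, hϖfix, hϖm, unifB_ne_zero hϖfix hϖ0, rho_unifB hϖfix hϖm,
    fun x h1 h2 => unif_dvd_of_rho_eq_zero hD hϖfix hϖ0 hϖ h1 h2⟩

end Ctx

/-! ### The bundle of inputs of `Node/NodeLocal.node_datum` -/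

section Bundle

variable {K : Type*} [Field K] {A : ValuationSubring K} {F : Type*} [Field F] [Algebra K F]
  {S : SmallRing F} {k κ₁ κ₂ : Type*} [Field k] [IsAlgClosed k] [CommRing κ₁] [CommRing κ₂]
  [Algebra k κ₁] [Algebra k κ₂] {R : RedSetup2 A S k (κ₁ × κ₂)}

/-- **All the inputs of `Node/NodeLocal.node_datum` which do not involve the thickness data**
(`u`, `u'`, `Ψ`), for the chart ring `B_0 = B0 C Γ`, its two reductions `rho1`, `rho2`, and an
element `ϖ` of `B_0` (the uniformiser): (L2), finiteness and reducedness of the glueing ring,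
Noetherianity of `B_0`, surjectivity of `rho1`, `rho2`, (ker) for `ϖ`, and (hnode), (hnode') at
every node. -/
structure NodeInputs (C : ChartCoord R) (Γ : Set (SemilinearAut K F)) (ϖ : B0 C Γ) : Prop where
  hL2 : C.IsL2
  finite : Module.Finite k ((C.B₁ × C.B₂) ⧸ Subalgebra.toSubmodule C.BbarT)
  reduced : IsReduced (Goursat.R C.BbarT hL2.h2)
  noeth : IsNoetherianRing (B0 C Γ)
  surj1 : Function.Surjective (rho1 C Γ)
  surj2 : Function.Surjective (rho2 C Γ)
  unif_ne : ϖ ≠ 0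
  rho_unif : rho C Γ ϖ = 0
  hker : ∀ y : B0 C Γ, rho1 C Γ y = 0 → rho2 C Γ y = 0 → ϖ ∣ y
  hnode : ∀ (s : Goursat.Nodes C.BbarT hL2.h2) (b : B0 C Γ), b ∈ nodeIdeal (Γ := Γ) hL2 s →
    ∃ c : B0 C Γ, c ∉ nodeIdeal (Γ := Γ) hL2 s ∧
      ∃ z : B0 C Γ, rho2 C Γ z = 0 ∧ rho1 C Γ z = rho1 C Γ (c * b)
  hnode' : ∀ (s : Goursat.Nodes C.BbarT hL2.h2) (b : B0 C Γ), b ∈ nodeIdeal (Γ := Γ) hL2 s →
    ∃ c : B0 C Γ, c ∉ nodeIdeal (Γ := Γ) hL2 s ∧
      ∃ z : B0 C Γ, rho1 C Γ z = 0 ∧ rho2 C Γ z = rho2 C Γ (c * b)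

end Bundle

section CtxBundle

variable {K : Type*} [Field K] [IsAlgClosed K] [CharZero K] {A : ValuationSubring K}
  {F : Type*} [Field F] [Algebra K F] {S : SmallRing F}
  {k : Type*} [Field k] [IsAlgClosed k] {E : Type*} [Field E] [Algebra k E]
  {R : RedSetup2 A S k (E × E)} {C : ChartCoord R} {p q : ℕ} {x : E} {Dt : Divisor K F}
  (h : Ctx R C p q x Dt) {Γ : Set (SemilinearAut K F)} (hG : CtxGal R C Γ)

include h hG in
/-- the bundle of inputs inside the context bundle, for ANY element `ϖ` of `B_0` satisfying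
(ker). -/
theorem nodeInputs_of_ker (hD : FixData2 R Γ)
    (hF : Submodule.span K {f : F | IsFixed Γ f} = ⊤) {ϖ : B0 C Γ} (h0 : ϖ ≠ 0)
    (hρ : rho C Γ ϖ = 0) (hker : ∀ y : B0 C Γ, rho1 C Γ y = 0 → rho2 C Γ y = 0 → ϖ ∣ y) :
    NodeInputs C Γ ϖ where
  hL2 := h.hL2
  finite := finite_quotient h
  reduced := isReduced_R h
  noeth := Fermat.Agent.S40x.Node.FixedNoeth.isNoetherianRing_fixedBoo' h hG hD hF
  surj1 := rho1_surjective h hG hD hF
  surj2 := rho2_surjective h hG hD hF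
  unif_ne := h0
  rho_unif := hρ
  hker := hker
  hnode := fun s _ hb => hnode h hG hD hF s hb
  hnode' := fun s _ hb => hnode' h hG hD hF s hb

include h hG in
/-- the bundle of inputs inside the context bundle, with the uniformiser of `FixData2`. -/
theorem exists_nodeInputs (hD : FixData2 R Γ)
    (hF : Submodule.span K {f : F | IsFixed Γ f} = ⊤) : ∃ ϖ : B0 C Γ, NodeInputs C Γ ϖ := by
  obtain ⟨ϖ, hϖfix, -, h0, hρ, hker⟩ := exists_unif (C := C) hD
  exact ⟨_, nodeInputs_of_ker h hG hD hF h0 hρ hker⟩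

end CtxBundle

/-! ### (ker) with the uniformiser `ℓ` over `(Qbar, P)` -/

section KerNat

open Fermat.Agent.S56x.Flat.InertiaField Fermat.Agent.S19x.Hens.InertiaResidue
open Fermat.Agent.S33x.H1.FixData2Inst

local notation "Qb" => AlgebraicClosure ℚ

variable {P : ValuationSubring Qb} {ℓ : ℕ} {F : Type*} [Field F] [Algebra Qb F]
  {Sr : SmallRing F} {k κ₁ κ₂ : Type*} [Field k] [CommRing κ₁] [CommRing κ₂] [Algebra k κ₁]
  [Algebra k κ₂] {R : RedSetup2 P Sr k (κ₁ × κ₂)} {C : ChartCoord R}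
  {Γ : Set (SemilinearAut Qb F)}

/-- the natural number `ℓ` as an element of `P`, is fixed -/
theorem isFixedK_natCast
    (hΓ : ∀ s ∈ Γ, ∃ σ ∈ P.inertiaSubgroupIn ℚ, ∀ c : Qb, SemilinearAut.baseAut s c = σ c) :
    IsFixedK Γ ((((ℓ : ℕ) : P) : P) : Qb) :=
  isFixedK_of_mem_inertiaInt Γ hΓ (natCast_mem_inertiaInt P (ℓ := ℓ))

/-- the fixed uniformiser `ℓ` of `B_0` is the natural number `ℓ`. -/
theorem unifB_natCast
    (hΓ : ∀ s ∈ Γ, ∃ σ ∈ P.inertiaSubgroupIn ℚ, ∀ c : Qb, SemilinearAut.baseAut s c = σ c) :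
    (unifB (C := C) (isFixedK_natCast (ℓ := ℓ) hΓ) : B0 C Γ) = ((ℓ : ℕ) : B0 C Γ) := by
  apply Subtype.ext
  rw [coe_unifB]
  simp

/-- **(ker)** of `Node/NodeLocal` over `(Qbar, P)`, `P ∣ ℓ`, with `p := (ℓ : B_0)`: an element of
`B_0` whose two reductions vanish is divisible by `ℓ` in `B_0`. -/
theorem natCast_dvd_of_rho_eq_zero (hℓ : ℓ.Prime) (hP : P.LiesOverPrime ℓ)
    (hΓ : ∀ s ∈ Γ, ∃ σ ∈ P.inertiaSubgroupIn ℚ, ∀ c : Qb, SemilinearAut.baseAut s c = σ c)
    (hΓ' : ∀ σ ∈ P.inertiaSubgroupIn ℚ, ∃ s ∈ Γ, ∀ c : Qb, SemilinearAut.baseAut s c = σ c)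
    (hD : FixData2 R Γ) {y : B0 C Γ} (h1 : rho1 C Γ y = 0) (h2 : rho2 C Γ y = 0) :
    ((ℓ : ℕ) : B0 C Γ) ∣ y := by
  have hϖ0 : ((ℓ : ℕ) : P) ≠ 0 := by
    intro h
    exact natCast_ne_zero_Qbar P hℓ hP (by simpa using congrArg (fun z : P => (z : Qb)) h)
  have hϖ : ∀ c : P, IsFixedK Γ (c : Qb) → c ∈ maximalIdeal P → ((ℓ : ℕ) : P) ∣ c := by
    intro c hc hcm
    rw [← ValuationSubring.coe_mem_nonunits_iff] at hcm
    obtain ⟨d, hd, hcd⟩ := exists_eq_natCast_mul_of_fixed P hℓ hP hcm (fixed_of_isFixedK Γ hΓ' hc)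
    exact ⟨⟨d, hd.1⟩, Subtype.ext (by simpa using hcd)⟩
  have := unif_dvd_of_rho_eq_zero (C := C) hD (isFixedK_natCast (ℓ := ℓ) hΓ) hϖ0 hϖ h1 h2
  rw [unifB_natCast hΓ] at this
  exact this

/-- `ℓ ≠ 0` in `B_0`. -/
theorem natCast_ne_zero (hℓ : ℓ.Prime) : ((ℓ : ℕ) : B0 C Γ) ≠ 0 := by
  intro h
  have h1 := congrArg (fun z : B0 C Γ => (z : F)) h
  simp only [ZeroMemClass.coe_zero] at h1
  have h2 : algebraMap Qb F ((ℓ : ℕ) : Qb) = 0 := by
    rw [map_natCast]
    simpa using h1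
  have h3 : ((ℓ : ℕ) : Qb) = 0 := (map_eq_zero_iff _ (algebraMap Qb F).injective).mp h2
  exact hℓ.ne_zero (by exact_mod_cast h3)

/-- `ℓ` reduces to `0`. -/
theorem rho_natCast (hP : P.LiesOverPrime ℓ)
    (hΓ : ∀ s ∈ Γ, ∃ σ ∈ P.inertiaSubgroupIn ℚ, ∀ c : Qb, SemilinearAut.baseAut s c = σ c) :
    rho C Γ ((ℓ : ℕ) : B0 C Γ) = 0 := by
  rw [← unifB_natCast (C := C) (ℓ := ℓ) hΓ]
  refine rho_unifB _ ?_
  rw [← ValuationSubring.coe_mem_nonunits_iff]
  exact hP

end KerNat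

/-! ### The concrete context at `L = Qbar` -/

section Qbar

open ModularCurve
open Fermat.Agent.Gateway.Hecke Fermat.Agent.Gateway.ESC
open Fermat.Agent.Gateway.Red Fermat.Agent.Gateway.GoodRed
open Fermat.Agent.Gateway.GoodRed.ConjFamily
open Fermat.Agent.S34x.TwoVal
open Fermat.Agent.S34x.Inst.L2 Fermat.Agent.S34x.Inst.IsL2Inst
open Fermat.Agent.S34x.Inst.RedSetupInst Fermat.Agent.S34x.Inst.ElementYRed
open Fermat.Agent.S34x.Inst.ElementYInt Fermat.Agent.S34x.Inst.Charts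
open Fermat.Agent.S34x.Inst.TheoremBMq
open Fermat.Agent.S33x.Cech.CycKm
open Fermat.Agent.S33x.H1.FixData2Inst Fermat.Agent.S33x.H1.FixData2Final

attribute [-instance] IsScalarTower.of_algHom

local notation "Qb" => AlgebraicClosure ℚ

local instance isAlgebraicQb_nq : Algebra.IsAlgebraic ℚ (AlgebraicClosure ℚ) :=
  AlgebraicClosure.isAlgebraic ℚ

variable {P : ValuationSubring Qb} {k : Type} [Field k] {π : P →+* k} [IsAlgClosed k]
variable {M q : ℕ} [NeZero M] [NeZero q] [Fact q.Prime] [CharP k q]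
variable {hdeg : finrankAlong Qb (heckeAlphaBar Qb M q) = q + 1} {hq : q.Prime} {hqM : ¬ q ∣ M}
variable {hrk : ∀ x ∈ maximalIdeal P, ∀ c : P, c ≠ 0 → ∃ j : ℕ, c ∣ x ^ j}
  {hπ : Function.Surjective π}
variable (H : ResidueFacts P π M q hdeg hq hqM hrk hπ) (hA : P.LiesOverPrime q)
  (x : LaurentSeries ℤ) (hx : coeffMap (Int.castRingHom Qb) x ∈ FBar Qb M)
  (Hx : GoodLevelFactsT P π M q hπ hqM (tInt M x hx))

include Hx in
/-- **the context bundle** for the concrete chart `t = α t'` at level `M q` over `(Qbar, P)`. -/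
theorem exists_ctx [PerfectRing k q] (hxk : tbar k x ≠ 0) (hY : YFacts M q x hx) :
    ∃ Dt : Divisor Qb (FL Qb (M * q)),
      Ctx (redSetup2 H hA) (chart H hA x hx Hx) q q (chart H hA x hx Hx).T.1 Dt := by
  haveI : CharZero Qb := algebraRat.charZero Qb
  haveI := finiteDimensional_chart_t H hA x hx Hx
  have ht := transcendental_chart_t H hA x hx Hx
  exact ⟨_, ctx_of_chart H hA x hx Hx (chart H hA x hx Hx) (chart_t H hA x hx Hx) hxk hY
    (Fermat.Agent.S34x.Inst.Charts.divT_apply ht)⟩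

include Hx in
/-- **the inertia data** for `Γ = inertiaAct P (M q)` (image form). -/
theorem ctxGal :
    CtxGal (redSetup2 H hA) (chart H hA x hx Hx) (inertiaAct P (M * q)) := by
  rw [inertiaAct_eq_setOf]
  exact ctxGal_inertia H hA x hx Hx (chart H hA x hx Hx) (chart_t H hA x hx Hx)

include Hx in
/-- **`hlift`** of `Node/NodeInst` at `L = Qbar`. -/
theorem hlift_Qb [PerfectRing k q] (hxk : tbar k x ≠ 0) (hY : YFacts M q x hx)
    (b : ℕ) (y : Fk k M × Fk k M)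
    (hy : y ∈ (redSetup2 H hA).redLat ((chart H hA x hx Hx).LN 0 b)) :
    ∃ (f : FL Qb (M * q)) (hf : f ∈ (twoVal (valInfty P π M q hrk hπ hqM)
        (valZero P π M q hdeg hq hqM hrk hπ)).O),
      f ∈ (chart H hA x hx Hx).LN 0 b ∧ IsFixed (inertiaAct P (M * q)) f ∧
        (redSetup2 H hA).res ⟨f, hf⟩ = y := by
  haveI : CharZero Qb := algebraRat.charZero Qb
  obtain ⟨Dt, hctx⟩ := exists_ctx H hA x hx Hx hxk hY
  exact hlift hctx (ctxGal H hA x hx Hx) (fixData2 H hA) (span_fixed_inertiaAct P (M * q)) b y hy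

include Hx in
/-- **(ker)** at `L = Qbar` with `p := (q : B_0)`. -/
theorem natCast_dvd_of_rho_eq_zero_Qb
    {y : B0 (chart H hA x hx Hx) (inertiaAct P (M * q))}
    (h1 : rho1 (chart H hA x hx Hx) (inertiaAct P (M * q)) y = 0)
    (h2 : rho2 (chart H hA x hx Hx) (inertiaAct P (M * q)) y = 0) :
    ((q : ℕ) : B0 (chart H hA x hx Hx) (inertiaAct P (M * q))) ∣ y :=
  natCast_dvd_of_rho_eq_zero (Fact.out : q.Prime) hA (inertiaAct_baseAut P (M * q))
    (inertiaAct_baseAut' P (M * q)) (fixData2 H hA) h1 h2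

include Hx in
/-- **The bundle of inputs of `Node/NodeLocal.node_datum` at `L = Qbar`**, `R = redSetup2 H hA`,
`C = chart H hA x hx Hx`, `Γ = inertiaAct P (M q)`, with the uniformiser `p := (q : B_0)`. -/
theorem nodeInputs_Qb [PerfectRing k q] (hxk : tbar k x ≠ 0) (hY : YFacts M q x hx) :
    NodeInputs (chart H hA x hx Hx) (inertiaAct P (M * q))
      ((q : ℕ) : B0 (chart H hA x hx Hx) (inertiaAct P (M * q))) := by
  haveI : CharZero Qb := algebraRat.charZero Qb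
  obtain ⟨Dt, hctx⟩ := exists_ctx H hA x hx Hx hxk hY
  exact nodeInputs_of_ker hctx (ctxGal H hA x hx Hx) (fixData2 H hA)
    (span_fixed_inertiaAct P (M * q)) (natCast_ne_zero (Fact.out : q.Prime))
    (rho_natCast hA (inertiaAct_baseAut P (M * q)))
    (fun y h1 h2 => natCast_dvd_of_rho_eq_zero_Qb H hA x hx Hx h1 h2)

end Qbar

end Fermat.Agent.S40x.Node.NodeInstQb

end
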