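/-
P-S44/S40, block R1 / N-alpha, leaf N-PL (helper65): places of a function field `E / k` versus
maximal ideals of the half-chart rings.

`k` a field, `E / k` a field, `T ∈ E` transcendental over `k`, `E` finite separable over `k(T)`.
A *half-chart ring* is a `k`-subalgebra `B ≤ E` which is (as a set) the integral closure of
`k[T]` in `E` (`IsHalfChart T B`; for `B = (integralClosure (Algebra.adjoin k {T}) E).restrictScalars k`
this is `Iff.rfl`, so it applies verbatim to `ChartCoord.B₁`, `ChartCoord.B₂` of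
`S34x/Lattice2/L2.lean`).

* `IsHalfChart.isDedekindDomain`, `IsHalfChart.isFractionRing`;
* (i) for a place `P` of `E / k` with `0 ≤ ord_P T`: `hB.maxIdeal P hP = {b ∈ B | b(P) = 0}` is a
  maximal ideal, `n ≤ ord_P b ↔ b ∈ m_P ^ n`, `ord_P b = 1 ↔ b ∈ m_P \ m_P ^ 2`,
  `ord_P b` is the multiplicity of `m_P` in `(b)`, and `O_P` is the localisation of `B` at `m_P`
  (`mem_place_iff_exists_div`);
* (ii) every maximal ideal of `B` is `m_P` for a unique such place (`exists_place_of_isMaximal`,
  `maxIdeal_injective`);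
* (iii) every place has `0 ≤ ord_P T` or `0 < ord_P T⁻¹` (`ord_nonneg_or_inv_pos`), and the
  hypotheses transfer from `T` to `T⁻¹` (`transcendental_inv`, `finiteDimensional_inv`,
  `isSeparable_inv`), so the two half-charts see every place.
-/
import Mathlib
import Fermat.Prelude.Def_AlgebraicCurve_DivisorClassGroup
import Fermat.Agent.S24.PlacesDedekind
import Fermat.Agent.Gateway.GoodRed.PlacesIntegral
import Fermat.Agent.Gateway.Red.ChartModel

set_option autoImplicit false
set_option linter.unusedSectionVars false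
set_option linter.style.haveILetI false

noncomputable section

namespace Fermat.Agent.S40x.Node.PlaceIdeal

open AlgebraicCurve IsDedekindDomain IntermediateField
open Fermat.Agent.S24 Fermat.Agent.S24.ZP

variable {k E : Type*} [Field k] [Field E] [Algebra k E]

/-- `B` is (as a set) the integral closure of `k[T]` in `E`: a half-chart ring. -/
def IsHalfChart (T : E) (B : Subalgebra k E) : Prop :=
  ∀ x : E, x ∈ B ↔ IsIntegral (Algebra.adjoin k {T}) x

theorem isHalfChart_restrictScalars (T : E) :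
    IsHalfChart T ((integralClosure (Algebra.adjoin k {T}) E).restrictScalars k) :=
  fun _ => Iff.rfl

/-! ### (iii) the two half-charts -/

theorem adjoin_simple_inv_eq' (T : E) : k⟮T⁻¹⟯ = k⟮T⟯ := by
  apply le_antisymm <;> rw [adjoin_simple_le_iff]
  · exact inv_mem (mem_adjoin_simple_self k T)
  · have := inv_mem (mem_adjoin_simple_self k T⁻¹)
    rwa [inv_inv] at this

theorem transcendental_inv {T : E} (hT : Transcendental k T) : Transcendental k T⁻¹ := by
  intro h
  apply hT
  have := h.inv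
  rwa [inv_inv] at this

theorem finiteDimensional_inv (T : E) [FiniteDimensional k⟮T⟯ E] : FiniteDimensional k⟮T⁻¹⟯ E := by
  rw [adjoin_simple_inv_eq']; infer_instance

theorem isSeparable_inv (T : E) [Algebra.IsSeparable k⟮T⟯ E] : Algebra.IsSeparable k⟮T⁻¹⟯ E := by
  rw [adjoin_simple_inv_eq']; infer_instance

/-- every place sees `T` or is a zero of `T⁻¹`. -/
theorem ord_nonneg_or_inv_pos (T : E) (P : Place k E) : 0 ≤ P.ord T ∨ 0 < P.ord T⁻¹ := by
  rw [P.ord_inv]
  omega

theorem ord_nonneg_or_inv_nonneg (T : E) (P : Place k E) : 0 ≤ P.ord T ∨ 0 ≤ P.ord T⁻¹ := by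
  rw [P.ord_inv]
  omega

/-! ### the ring -/

section Ring

variable {T : E} {B : Subalgebra k E} (hB : IsHalfChart T B)
include hB

theorem IsHalfChart.T_mem : T ∈ B :=
  (hB T).mpr (isIntegral_algebraMap (x := (⟨T, Algebra.subset_adjoin rfl⟩ : Algebra.adjoin k {T})))

/-- the identity, as a ring isomorphism between the integral closure and `B`. -/
def IsHalfChart.equiv : ↥(integralClosure (Algebra.adjoin k {T}) E) ≃+* ↥B where
  toFun x := ⟨x.1, (hB x.1).mpr x.2⟩
  invFun x := ⟨x.1, (hB x.1).mp x.2⟩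
  left_inv _ := rfl
  right_inv _ := rfl
  map_mul' _ _ := rfl
  map_add' _ _ := rfl

@[simp] theorem IsHalfChart.coe_equiv (x : ↥(integralClosure (Algebra.adjoin k {T}) E)) :
    ((hB.equiv x : B) : E) = (x : E) := rfl

/-- `B ≤ O_P` for every place `P` with `0 ≤ ord_P T`. -/
theorem IsHalfChart.le_place (P : Place k E) (hP : 0 ≤ P.ord T) (b : B) :
    algebraMap B E b ∈ P.toValuationSubring := by
  by_cases hT0 : T = 0
  · subst hT0
    exact integralClosure_le_place (0 : E) P P.toValuationSubring.zero_mem ⟨b.1, (hB b.1).mp b.2⟩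
  · exact integralClosure_le_place T P ((ZP.ord_nonneg_iff P hT0).mp hP) ⟨b.1, (hB b.1).mp b.2⟩

theorem IsHalfChart.ord_nonneg (P : Place k E) (hP : 0 ≤ P.ord T) (b : B) : 0 ≤ P.ord (b : E) := by
  rcases eq_or_ne (b : E) 0 with h | h
  · rw [h, P.ord_zero]
  · exact (ZP.ord_nonneg_iff P h).mpr (hB.le_place P hP b)

variable (hT : Transcendental k T) [FiniteDimensional k⟮T⟯ E] [Algebra.IsSeparable k⟮T⟯ E]
include hT

theorem IsHalfChart.isDedekindDomain : IsDedekindDomain B := by
  haveI := Fermat.Agent.Gateway.GoodRed.PlacesIntegral.isDedekindDomain_integralClosure_of_separable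
    T hT
  haveI : IsNoetherianRing B := isNoetherianRing_of_ringEquiv _ hB.equiv
  haveI : Ring.DimensionLEOne B := Ring.DimensionLEOne.of_ringEquiv hB.equiv.symm
  haveI : IsIntegrallyClosed B := IsIntegrallyClosed.of_equiv hB.equiv
  exact { }

omit hT [Algebra.IsSeparable k⟮T⟯ E] in
theorem IsHalfChart.isFractionRing : IsFractionRing B E := by
  haveI := Fermat.Agent.Gateway.GoodRed.PlacesIntegral.isFractionRing_integralClosure_of_finite
    (k := k) (E := E) T
  refine IsFractionRing.of_field B E fun z => ?_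
  obtain ⟨a, s, -, rfl⟩ :=
    IsFractionRing.div_surjective (A := ↥(integralClosure (Algebra.adjoin k {T}) E)) z
  exact ⟨hB.equiv a, hB.equiv s, rfl⟩

end Ring

/-! ### (i) the maximal ideal of a place -/

section Ideal

variable {T : E} {B : Subalgebra k E} (hB : IsHalfChart T B)

/-- the inclusion `B → O_P` -/
def IsHalfChart.toPlace (P : Place k E) (hP : 0 ≤ P.ord T) : B →+* P.toValuationSubring :=
  (algebraMap B E).codRestrict P.toValuationSubring.toSubring (hB.le_place P hP)

@[simp] theorem IsHalfChart.coe_toPlace (P : Place k E) (hP : 0 ≤ P.ord T) (b : B) :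
    ((hB.toPlace P hP b : P.toValuationSubring) : E) = (b : E) := rfl

/-- `m_P = {b ∈ B | b(P) = 0}`. -/
def IsHalfChart.maxIdeal (P : Place k E) (hP : 0 ≤ P.ord T) : Ideal B :=
  (IsLocalRing.maximalIdeal P.toValuationSubring).comap (hB.toPlace P hP)

theorem IsHalfChart.mem_maxIdeal_iff (P : Place k E) (hP : 0 ≤ P.ord T) (b : B) :
    b ∈ hB.maxIdeal P hP ↔ (b : E) ∈ P.toValuationSubring.nonunits := by
  rw [IsHalfChart.maxIdeal, Ideal.mem_comap, ← ValuationSubring.coe_mem_nonunits_iff]
  rfl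

theorem IsHalfChart.mem_maxIdeal_iff_ord (P : Place k E) (hP : 0 ≤ P.ord T) {b : B}
    (hb : b ≠ 0) : b ∈ hB.maxIdeal P hP ↔ 0 < P.ord (b : E) := by
  have hb' : (b : E) ≠ 0 := fun h => hb (Subtype.ext h)
  rw [hB.mem_maxIdeal_iff, ZP.ord_pos_iff P hb']

theorem IsHalfChart.mem_maxIdeal_iff_ord' (P : Place k E) (hP : 0 ≤ P.ord T) (b : B) :
    b ∈ hB.maxIdeal P hP ↔ b = 0 ∨ 0 < P.ord (b : E) := by
  rcases eq_or_ne b 0 with rfl | hb
  · simp
  · rw [hB.mem_maxIdeal_iff_ord P hP hb]
    simp [hb]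

/-- `b ∉ m_P ↔ ord_P b = 0` (for `b ≠ 0`). -/
theorem IsHalfChart.notMem_maxIdeal_iff (P : Place k E) (hP : 0 ≤ P.ord T) {b : B}
    (hb : b ≠ 0) : b ∉ hB.maxIdeal P hP ↔ P.ord (b : E) = 0 := by
  rw [hB.mem_maxIdeal_iff_ord P hP hb]
  have := hB.ord_nonneg P hP b
  omega

theorem IsHalfChart.inv_mem_of_notMem (P : Place k E) (hP : 0 ≤ P.ord T) {b : B}
    (hb : b ∉ hB.maxIdeal P hP) : (b : E)⁻¹ ∈ P.toValuationSubring := by
  rw [hB.mem_maxIdeal_iff, ValuationSubring.mem_nonunits_iff_or, not_or, not_not] at hb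
  exact hb.2

theorem IsHalfChart.maxIdeal_isPrime (P : Place k E) (hP : 0 ≤ P.ord T) :
    (hB.maxIdeal P hP).IsPrime :=
  Ideal.IsPrime.comap _

variable (hT : Transcendental k T) [FiniteDimensional k⟮T⟯ E] [Algebra.IsSeparable k⟮T⟯ E]
include hT

/-- `m_P` as a height one prime of the Dedekind domain `B`. -/
theorem IsHalfChart.exists_prime (P : Place k E) (hP : 0 ≤ P.ord T) :
    haveI := hB.isDedekindDomain hT
    haveI := hB.isFractionRing
    ∃ w : HeightOneSpectrum B, w.asIdeal = hB.maxIdeal P hP ∧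
      PD.placeOfPrime (K := k) (F := E) w = P := by
  haveI := hB.isDedekindDomain hT
  haveI := hB.isFractionRing
  exact ⟨PD.primeOfPlace P (hB.le_place P hP), rfl, PD.placeOfPrime_primeOfPlace P _⟩

theorem IsHalfChart.maxIdeal_ne_bot (P : Place k E) (hP : 0 ≤ P.ord T) :
    hB.maxIdeal P hP ≠ ⊥ := by
  haveI := hB.isDedekindDomain hT
  haveI := hB.isFractionRing
  obtain ⟨w, hw, -⟩ := hB.exists_prime hT P hP
  rw [← hw]
  exact w.ne_bot

/-- **(i)** `m_P` is a maximal ideal of `B`. -/
theorem IsHalfChart.maxIdeal_isMaximal (P : Place k E) (hP : 0 ≤ P.ord T) :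
    (hB.maxIdeal P hP).IsMaximal := by
  haveI := hB.isDedekindDomain hT
  haveI := hB.isFractionRing
  obtain ⟨w, hw, -⟩ := hB.exists_prime hT P hP
  rw [← hw]
  exact w.isMaximal

/-- **(i)** `ord_P b` is the multiplicity of `m_P` in `(b)`. -/
theorem IsHalfChart.ord_eq_multiplicity (P : Place k E) (hP : 0 ≤ P.ord T) {b : B} (hb : b ≠ 0) :
    P.ord (b : E) = (multiplicity (hB.maxIdeal P hP) (Ideal.span {b}) : ℤ) := by
  haveI := hB.isDedekindDomain hT
  haveI := hB.isFractionRing
  obtain ⟨w, hw, hwP⟩ := hB.exists_prime hT P hP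
  rw [← hw]
  conv_lhs => rw [← hwP]
  exact PD.placeOfPrime_ord_algebraMap w hb

/-- **(i)** `n ≤ ord_P b ↔ b ∈ m_P ^ n` (the form used by the consumers). -/
theorem IsHalfChart.le_ord_iff_mem_pow (P : Place k E) (hP : 0 ≤ P.ord T) {b : B} (hb : b ≠ 0)
    (n : ℕ) : (n : ℤ) ≤ P.ord (b : E) ↔ b ∈ hB.maxIdeal P hP ^ n := by
  haveI := hB.isDedekindDomain hT
  haveI := hB.isFractionRing
  obtain ⟨w, hw, hwP⟩ := hB.exists_prime hT P hP
  rw [← hw]
  conv_lhs => rw [← hwP]
  have h1 : (b : E) = algebraMap B E b := rfl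
  rw [h1, PD.placeOfPrime_ord, w.valuation_of_algebraMap, ← w.intValuation_le_pow_iff_mem]
  have hne : w.intValuation b ≠ 0 := w.intValuation_ne_zero b hb
  rw [← WithZero.exp_log hne, WithZero.exp_le_exp, WithZero.log_exp]
  omega

/-- **(i)** uniformisers: `ord_P b = 1 ↔ b ∈ m_P \ m_P ^ 2`. -/
theorem IsHalfChart.ord_eq_one_iff (P : Place k E) (hP : 0 ≤ P.ord T) (b : B) :
    P.ord (b : E) = 1 ↔ b ∈ hB.maxIdeal P hP ∧ b ∉ hB.maxIdeal P hP ^ 2 := by
  rcases eq_or_ne b 0 with rfl | hb
  · simp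
  · have h1 := hB.le_ord_iff_mem_pow hT P hP hb 1
    have h2 := hB.le_ord_iff_mem_pow hT P hP hb 2
    rw [pow_one] at h1
    rw [← h1, ← h2]
    push_cast
    omega

/-- **(i)** `O_P` is the localisation of `B` at `m_P`. -/
theorem IsHalfChart.mem_place_iff_exists_div (P : Place k E) (hP : 0 ≤ P.ord T) (f : E) :
    f ∈ P.toValuationSubring ↔
      ∃ a b : B, b ∉ hB.maxIdeal P hP ∧ f = (a : E) / (b : E) := by
  haveI := hB.isDedekindDomain hT
  haveI := hB.isFractionRing
  constructor
  · intro hf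
    obtain ⟨w, hw, hwP⟩ := hB.exists_prime hT P hP
    have hf' : w.valuation E f ≤ 1 := by
      have : f ∈ (PD.placeOfPrime (K := k) (F := E) w).toValuationSubring := by rw [hwP]; exact hf
      exact this
    obtain ⟨n, d, hnd⟩ := w.exists_primeCompl_mul_eq_of_integer f hf'
    refine ⟨n, d, ?_, ?_⟩
    · rw [← hw]
      exact d.2
    · have hd0 : algebraMap B E (d : B) ≠ 0 := by
        intro h0
        have : (d : B) = 0 := (IsFractionRing.injective B E) (by rw [h0, map_zero])
        exact d.2 (this ▸ Ideal.zero_mem _)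
      show f = algebraMap B E n / algebraMap B E (d : B)
      rw [eq_div_iff hd0]
      exact hnd
  · rintro ⟨a, b, hb, rfl⟩
    rw [div_eq_mul_inv]
    exact P.toValuationSubring.mul_mem _ _ (hB.le_place P hP a) (hB.inv_mem_of_notMem P hP hb)

/-! ### (ii) every maximal ideal is the ideal of a unique place -/

/-- **(ii)** uniqueness. -/
theorem IsHalfChart.maxIdeal_injective {P Q : Place k E} (hP : 0 ≤ P.ord T) (hQ : 0 ≤ Q.ord T)
    (h : hB.maxIdeal P hP = hB.maxIdeal Q hQ) : P = Q := by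
  haveI := hB.isDedekindDomain hT
  haveI := hB.isFractionRing
  obtain ⟨w, hw, hwP⟩ := hB.exists_prime hT P hP
  obtain ⟨w', hw', hwQ⟩ := hB.exists_prime hT Q hQ
  have : w = w' := HeightOneSpectrum.ext (by rw [hw, hw', h])
  rw [← hwP, ← hwQ, this]

include hB in
omit [FiniteDimensional k⟮T⟯ E] [Algebra.IsSeparable k⟮T⟯ E] in
/-- the half-chart ring is not a field. -/
theorem IsHalfChart.not_isField : ¬ IsField B := by
  intro hf
  have h1 : IsField ↥(integralClosure (Algebra.adjoin k {T}) E) :=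
    MulEquiv.isField hf hB.equiv.toMulEquiv
  have hinj : Function.Injective (algebraMap (Algebra.adjoin k {T})
      ↥(integralClosure (Algebra.adjoin k {T}) E)) :=
    fun a b h => Subtype.ext
      (congrArg (fun x : ↥(integralClosure (Algebra.adjoin k {T}) E) => (x : E)) h)
  have h2 : IsField (Algebra.adjoin k {T}) := isField_of_isIntegral_of_isField hinj h1
  have h3 : IsField (Polynomial k) := MulEquiv.isField h2 (polyEquiv T hT).toMulEquiv
  exact Polynomial.not_isField k h3

include hB in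
omit [FiniteDimensional k⟮T⟯ E] [Algebra.IsSeparable k⟮T⟯ E] in
theorem IsHalfChart.ne_bot_of_isMaximal {m : Ideal B} (hm : m.IsMaximal) : m ≠ ⊥ :=
  Ring.ne_bot_of_isMaximal_of_not_isField hm (hB.not_isField hT)

/-- **(ii)** existence. -/
theorem IsHalfChart.exists_place_of_isMaximal (m : Ideal B) (hm : m.IsMaximal) :
    ∃ (P : Place k E) (hP : 0 ≤ P.ord T), hB.maxIdeal P hP = m := by
  haveI := hB.isDedekindDomain hT
  haveI := hB.isFractionRing
  have hne : m ≠ ⊥ := hB.ne_bot_of_isMaximal hT hm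
  set w : HeightOneSpectrum B := ⟨m, hm.isPrime, hne⟩ with hw
  set P : Place k E := PD.placeOfPrime (K := k) (F := E) w with hPdef
  have hTP : T ∈ P.toValuationSubring := PD.algebraMap_mem_placeOfPrime w ⟨T, hB.T_mem⟩
  have hP : 0 ≤ P.ord T := by
    rcases eq_or_ne T 0 with h0 | h0
    · rw [h0, P.ord_zero]
    · exact (ZP.ord_nonneg_iff P h0).mpr hTP
  refine ⟨P, hP, ?_⟩
  have := PD.primeOfPlace_placeOfPrime (K := k) (F := E) w (hB.le_place P hP)
  exact congrArg HeightOneSpectrum.asIdeal this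

end Ideal

/-! ### rational points (`k` algebraically closed) -/

section Rational

variable {T : E} {B : Subalgebra k E} (hB : IsHalfChart T B)
variable (hT : Transcendental k T) [FiniteDimensional k⟮T⟯ E] [Algebra.IsSeparable k⟮T⟯ E]

/-- the identity, as a `k`-algebra isomorphism between the integral closure and `B`. -/
def IsHalfChart.algEquiv : ↥(integralClosure (Algebra.adjoin k {T}) E) ≃ₐ[k] ↥B :=
  { hB.equiv with commutes' := fun _ => rfl }

include hB hT in
theorem IsHalfChart.finiteType : Algebra.FiniteType k B :=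
  (Fermat.Agent.Gateway.Red.finiteType_integralClosure_of_separable T hT).equiv hB.algEquiv

variable [IsAlgClosed k]

include hB hT in
/-- every maximal ideal of `B` is a `k`-rational point: every `b ∈ B` has a value in `k`. -/
theorem IsHalfChart.exists_sub_mem_of_isMaximal (m : Ideal B) (hm : m.IsMaximal) (b : B) :
    ∃ c : k, b - algebraMap k B c ∈ m := by
  haveI := hB.finiteType hT
  haveI := hm
  obtain ⟨c, hc⟩ := (PD.bijective_algebraMap_quotient_of_isMaximal (K := k) m).2
    (Ideal.Quotient.mk m b)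
  refine ⟨c, ?_⟩
  rw [← Ideal.Quotient.eq_zero_iff_mem, map_sub, ← hc]
  exact sub_self _

include hT in
/-- the value of `b ∈ B` at a place `P` with `0 ≤ ord_P T`. -/
theorem IsHalfChart.exists_sub_mem_maxIdeal (P : Place k E) (hP : 0 ≤ P.ord T) (b : B) :
    ∃ c : k, b - algebraMap k B c ∈ hB.maxIdeal P hP :=
  hB.exists_sub_mem_of_isMaximal hT _ (hB.maxIdeal_isMaximal hT P hP) b

omit [FiniteDimensional k⟮T⟯ E] [Algebra.IsSeparable k⟮T⟯ E] [IsAlgClosed k] in
/-- the value is unique. -/
theorem IsHalfChart.value_unique (P : Place k E) (hP : 0 ≤ P.ord T) (b : B) {c c' : k}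
    (hc : b - algebraMap k B c ∈ hB.maxIdeal P hP)
    (hc' : b - algebraMap k B c' ∈ hB.maxIdeal P hP) : c = c' := by
  by_contra hne
  have h1 : algebraMap k B (c' - c) ∈ hB.maxIdeal P hP := by
    have := (hB.maxIdeal P hP).sub_mem hc hc'
    rw [map_sub]
    convert this using 1
    ring
  have hu : IsUnit (algebraMap k B (c' - c)) :=
    (isUnit_iff_ne_zero.mpr (sub_ne_zero.mpr (Ne.symm hne))).map _
  exact (hB.maxIdeal_isPrime P hP).ne_top ((Ideal.eq_top_of_isUnit_mem _ h1 hu))

end Rational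

end Fermat.Agent.S40x.Node.PlaceIdeal
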