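/-
P-S44/S40, block R1 / N-alpha, leaf N-PL, INSTANCE half (helper65).

* abstract addenda to `Node/PlaceIdeal.lean`: `IsHalfChart` is insensitive to `T ↦ T ^ q`
  (`isHalfChart_pow_iff`), characters `χ : B →ₐ[k] k` are places (`exists_place_of_char`);
* `ChartCoord` level (both residue rings equal to one field `E`, `T₂ = T₁ ^ q`): the four
  half-chart rings `C.B₁`, `C.B₂`, `C.swap.B₁`, `C.swap.B₂` are half-chart rings for `T₁`, `T₁`,
  `T₁⁻¹`, `T₁⁻¹` (`isHalfChart_B₁`, …), so all of `Node/PlaceIdeal.lean` applies to them;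
* concrete level (`ChartInst.chart H hA Hx z hz`, `E = Fk k M`, `T₁ = x̄`): `chart_isHalfChart_B₁`, …
  and the standing hypotheses `Hx.trans_res`, `Hx.finite_res`, `Hx.sep_res`.
-/
import Fermat.Agent.S40x.Node.PlaceIdeal
import Fermat.Agent.S34x.Lattice2.L2
import Fermat.Agent.S34x.Lattice2.Swap
import Fermat.Agent.S34x.Lattice2.DimBridge
import Fermat.Agent.S34x.Inst.ChartInst

set_option autoImplicit false
set_option linter.unusedSectionVars false
set_option linter.style.haveILetI false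

noncomputable section

namespace Fermat.Agent.S40x.Node.PlaceIdealInst

open AlgebraicCurve IsDedekindDomain IntermediateField
open Fermat.Agent.S40x.Node.PlaceIdeal
open Fermat.Agent.S34x Fermat.Agent.S34x.C0two Fermat.Agent.S34x.Lattice2

/-! ### abstract addenda -/

section Addenda

variable {k E : Type*} [Field k] [Field E] [Algebra k E]

/-- the half-chart ring of `T ^ q` is the half-chart ring of `T`. -/
theorem isHalfChart_pow_iff (T : E) {q : ℕ} (hq : 0 < q) (B : Subalgebra k E) :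
    IsHalfChart (T ^ q) B ↔ IsHalfChart T B := by
  constructor
  · intro h x
    rw [h x, DimBridge.isIntegral_adjoin_pow_iff T hq]
  · intro h x
    rw [h x, DimBridge.isIntegral_adjoin_pow_iff T hq]

variable {T : E} {B : Subalgebra k E} (hB : IsHalfChart T B)
variable (hT : Transcendental k T) [FiniteDimensional k⟮T⟯ E] [Algebra.IsSeparable k⟮T⟯ E]

theorem ker_char_isMaximal (χ : B →ₐ[k] k) : (RingHom.ker χ.toRingHom).IsMaximal :=
  RingHom.ker_isMaximal_of_surjective χ.toRingHom fun c =>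
    ⟨algebraMap k B c, by simp⟩

include hT in
/-- **characters are places**: a `k`-point `χ` of the half-chart ring is the evaluation at a unique
place `P` with `0 ≤ ord_P T`. -/
theorem exists_place_of_char (χ : B →ₐ[k] k) :
    ∃ (P : Place k E) (hP : 0 ≤ P.ord T), hB.maxIdeal P hP = RingHom.ker χ.toRingHom :=
  hB.exists_place_of_isMaximal hT _ (ker_char_isMaximal χ)

/-- the character is the value at the place. -/
theorem char_eq_iff_sub_mem (χ : B →ₐ[k] k) {P : Place k E} {hP : 0 ≤ P.ord T}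
    (h : hB.maxIdeal P hP = RingHom.ker χ.toRingHom) (b : B) (c : k) :
    χ b = c ↔ b - algebraMap k B c ∈ hB.maxIdeal P hP := by
  rw [h, RingHom.mem_ker]
  show _ ↔ χ (b - algebraMap k B c) = 0
  rw [map_sub, AlgHom.commutes, sub_eq_zero]
  rfl

/-- `χ b = 0 ↔ 0 < ord_P b` for `b ≠ 0`. -/
theorem char_eq_zero_iff_ord_pos (χ : B →ₐ[k] k) {P : Place k E} {hP : 0 ≤ P.ord T}
    (h : hB.maxIdeal P hP = RingHom.ker χ.toRingHom) {b : B} (hb : b ≠ 0) :
    χ b = 0 ↔ 0 < P.ord (b : E) := by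
  rw [← hB.mem_maxIdeal_iff_ord P hP hb, h]
  rfl

end Addenda

/-! ### `ChartCoord` level -/

section Chart

variable {K : Type*} [Field K] {A : ValuationSubring K} {F : Type*} [Field F] [Algebra K F]
  {S : SmallRing F} {k E : Type*} [Field k] [Field E] [Algebra k E]
  {R : RedSetup2 A S k (E × E)} (C : ChartCoord R)

theorem Ti_fst_eq_inv : C.Ti.1 = (C.T.1)⁻¹ := by
  have h := congrArg Prod.fst C.T_mul_Ti
  exact eq_inv_of_mul_eq_one_right h

theorem isHalfChart_B₁ : IsHalfChart C.T.1 C.B₁ := fun _ => Iff.rfl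

theorem isHalfChart_swap_B₁ : IsHalfChart (C.T.1)⁻¹ C.swap.B₁ := by
  rw [← Ti_fst_eq_inv]
  exact fun _ => Iff.rfl

variable {q : ℕ} (hq : 0 < q) (hT2 : C.T.2 = C.T.1 ^ q)
include hq hT2

theorem Ti_snd_eq_inv_pow : C.Ti.2 = ((C.T.1)⁻¹) ^ q := by
  have h := congrArg Prod.snd C.T_mul_Ti
  have h' : C.T.2 * C.Ti.2 = 1 := h
  rw [eq_inv_of_mul_eq_one_right h', hT2, inv_pow]

theorem isHalfChart_B₂ : IsHalfChart C.T.1 C.B₂ := by
  rw [← isHalfChart_pow_iff C.T.1 hq, ← hT2]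
  exact fun _ => Iff.rfl

theorem isHalfChart_swap_B₂ : IsHalfChart (C.T.1)⁻¹ C.swap.B₂ := by
  rw [← isHalfChart_pow_iff (C.T.1)⁻¹ hq, ← Ti_snd_eq_inv_pow C hq hT2]
  exact fun _ => Iff.rfl

end Chart

/-! ### concrete level: the chart `t = α x` of `S34x/Inst/ChartInst.lean` -/

section Concrete

open Polynomial ModularCurve Module IsLocalRing
open Fermat.Agent.S28 Fermat.Agent.S28.Tower Fermat.Agent.Gateway.Hecke
open Fermat.Agent.Gateway.Red Fermat.Agent.Gateway.GoodRed Fermat.Agent.Gateway.ESC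
open Fermat.Agent.Gateway.GoodRed.ConjFamily
open Fermat.Agent.Gateway.C0 Fermat.Agent.S34x.TwoVal
open Fermat.Agent.S34x.Inst.RedSetupInst Fermat.Agent.S34x.Inst.L2
open Fermat.Agent.S34x.Inst.GaussInstMq Fermat.Agent.S34x.Inst.ChartInst

variable {L : Type} [Field L] [Algebra ℚ L] [IsAlgClosed L] [Algebra.IsAlgebraic ℚ L]
  {A : ValuationSubring L} {k : Type} [Field k] {π : A →+* k} [IsAlgClosed k]
  {M q : ℕ} [NeZero M] [Fact q.Prime] [CharP k q]
  {hdeg : finrankAlong L (heckeAlphaBar L M q) = q + 1} {hq : q.Prime} {hqM : ¬ q ∣ M}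
  {hrk : ∀ x ∈ maximalIdeal A, ∀ c : A, c ≠ 0 → ∃ j : ℕ, c ∣ x ^ j}
  {hπ : Function.Surjective π}
  (H : ResidueFacts A π M q hdeg hq hqM hrk hπ) (hA : A.LiesOverPrime q)
  {x : FBar L M} (Hx : GoodLevelFactsT A π M q hπ hqM x) (z : LaurentSeries ℤ)
  (hz : (x : LaurentSeries L) = coeffMap (Int.castRingHom L) z)

theorem chart_T_fst :
    (chart H hA Hx z hz).T.1 = resFk A π M q hπ hqM ⟨x, Hx.mem⟩ :=
  congrArg Prod.fst (chart_T H hA Hx z hz)

theorem chart_T_snd :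
    (chart H hA Hx z hz).T.2 = (chart H hA Hx z hz).T.1 ^ q := by
  rw [chart_T_fst]
  exact congrArg Prod.snd (chart_T H hA Hx z hz)

/-- `B₁` of the concrete chart is the half-chart ring of `x̄`. -/
theorem chart_isHalfChart_B₁ :
    IsHalfChart (resFk A π M q hπ hqM ⟨x, Hx.mem⟩) (chart H hA Hx z hz).B₁ := by
  rw [← chart_T_fst H hA Hx z hz]
  exact isHalfChart_B₁ _

/-- `B₂` of the concrete chart (integral closure of `k[x̄ ^ q]`) is the half-chart ring of `x̄`. -/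
theorem chart_isHalfChart_B₂ :
    IsHalfChart (resFk A π M q hπ hqM ⟨x, Hx.mem⟩) (chart H hA Hx z hz).B₂ := by
  rw [← chart_T_fst H hA Hx z hz]
  exact isHalfChart_B₂ _ (Fact.out : q.Prime).pos (chart_T_snd H hA Hx z hz)

/-- `swap.B₁` (chart `t ≠ 0`) is the half-chart ring of `x̄⁻¹`. -/
theorem chart_isHalfChart_swap_B₁ :
    IsHalfChart (resFk A π M q hπ hqM ⟨x, Hx.mem⟩)⁻¹ (chart H hA Hx z hz).swap.B₁ := by
  rw [← chart_T_fst H hA Hx z hz]
  exact isHalfChart_swap_B₁ _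

/-- `swap.B₂` is the half-chart ring of `x̄⁻¹`. -/
theorem chart_isHalfChart_swap_B₂ :
    IsHalfChart (resFk A π M q hπ hqM ⟨x, Hx.mem⟩)⁻¹ (chart H hA Hx z hz).swap.B₂ := by
  rw [← chart_T_fst H hA Hx z hz]
  exact isHalfChart_swap_B₂ _ (Fact.out : q.Prime).pos (chart_T_snd H hA Hx z hz)

include Hx in
/-- the standing hypotheses of `Node/PlaceIdeal.lean` for `x̄⁻¹`. -/
theorem transcendental_xbar_inv :
    Transcendental k (resFk A π M q hπ hqM ⟨x, Hx.mem⟩)⁻¹ :=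
  transcendental_inv Hx.trans_res

include Hx in
theorem finiteDimensional_xbar_inv :
    FiniteDimensional k⟮(resFk A π M q hπ hqM ⟨x, Hx.mem⟩)⁻¹⟯ (Fk k M) :=
  haveI := Hx.finite_res
  finiteDimensional_inv _

include Hx in
theorem isSeparable_xbar_inv :
    Algebra.IsSeparable k⟮(resFk A π M q hπ hqM ⟨x, Hx.mem⟩)⁻¹⟯ (Fk k M) :=
  haveI := Hx.sep_res
  isSeparable_inv _

include Hx in
/-- every place of `Fk k M` is seen by one of the two half-charts. -/
theorem ord_xbar_nonneg_or (P : Place k (Fk k M)) :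
    0 ≤ P.ord (resFk A π M q hπ hqM ⟨x, Hx.mem⟩) ∨
      0 < P.ord (resFk A π M q hπ hqM ⟨x, Hx.mem⟩)⁻¹ :=
  ord_nonneg_or_inv_pos _ P

/-- a `k`-point of `B₁` (e.g. `NodeInst.chi1 hL2 s`) is a place of the first component. -/
theorem chart_exists_place_of_char₁ (χ : (chart H hA Hx z hz).B₁ →ₐ[k] k) :
    ∃ (P : Place k (Fk k M)) (hP : 0 ≤ P.ord (resFk A π M q hπ hqM ⟨x, Hx.mem⟩)),
      (chart_isHalfChart_B₁ H hA Hx z hz).maxIdeal P hP = RingHom.ker χ.toRingHom :=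
  haveI := Hx.finite_res
  haveI := Hx.sep_res
  exists_place_of_char (chart_isHalfChart_B₁ H hA Hx z hz) Hx.trans_res χ

/-- a `k`-point of `B₂` (e.g. `NodeInst.chi2 hL2 s`) is a place of the second component. -/
theorem chart_exists_place_of_char₂ (χ : (chart H hA Hx z hz).B₂ →ₐ[k] k) :
    ∃ (P : Place k (Fk k M)) (hP : 0 ≤ P.ord (resFk A π M q hπ hqM ⟨x, Hx.mem⟩)),
      (chart_isHalfChart_B₂ H hA Hx z hz).maxIdeal P hP = RingHom.ker χ.toRingHom :=
  haveI := Hx.finite_res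
  haveI := Hx.sep_res
  exists_place_of_char (chart_isHalfChart_B₂ H hA Hx z hz) Hx.trans_res χ

/-- `n ≤ ord_P b ↔ b ∈ m_P ^ n` on `B₁` of the concrete chart. -/
theorem chart_le_ord_iff_mem_pow₁ (P : Place k (Fk k M))
    (hP : 0 ≤ P.ord (resFk A π M q hπ hqM ⟨x, Hx.mem⟩)) {b : (chart H hA Hx z hz).B₁}
    (hb : b ≠ 0) (n : ℕ) :
    (n : ℤ) ≤ P.ord (b : Fk k M) ↔
      b ∈ (chart_isHalfChart_B₁ H hA Hx z hz).maxIdeal P hP ^ n :=
  haveI := Hx.finite_res
  haveI := Hx.sep_res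
  (chart_isHalfChart_B₁ H hA Hx z hz).le_ord_iff_mem_pow Hx.trans_res P hP hb n

/-- `n ≤ ord_P b ↔ b ∈ m_P ^ n` on `B₂` of the concrete chart. -/
theorem chart_le_ord_iff_mem_pow₂ (P : Place k (Fk k M))
    (hP : 0 ≤ P.ord (resFk A π M q hπ hqM ⟨x, Hx.mem⟩)) {b : (chart H hA Hx z hz).B₂}
    (hb : b ≠ 0) (n : ℕ) :
    (n : ℤ) ≤ P.ord (b : Fk k M) ↔
      b ∈ (chart_isHalfChart_B₂ H hA Hx z hz).maxIdeal P hP ^ n :=
  haveI := Hx.finite_res
  haveI := Hx.sep_res
  (chart_isHalfChart_B₂ H hA Hx z hz).le_ord_iff_mem_pow Hx.trans_res P hP hb n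

end Concrete

end Fermat.Agent.S40x.Node.PlaceIdealInst
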