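import Fermat.Agent.S40x.Node.NodePlace
import Fermat.Agent.S40x.Node.PlaceIdealInst
import Fermat.Agent.S40x.Node.NodeInstQb
import Fermat.Agent.S40x.Node.FixedQb
import Fermat.Agent.S40x.Geo.Vocab

/-!
# P-S44, block R1: the node places `nodeInf`, `nodeZero` (helper47)

ONE canonical definition of the two sets of node places which are parameters of
`Geo/Vocab.IsDiagonal` and of `Geo/Main.geo_goodLevel`, for the blocks R1, C3 and DIAG.

## Generic level (`C : ChartCoord R`, `R : RedSetup2 A S k (κ₁ × κ₂)`, `κ₁`, `κ₂` fields)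

* `nodeSet₁ C := {P | C.T.1 ∈ O_P ∧ ¬ SmoothInst.IsNonNode₁ C P}` : the places of the first component
  lying on the chart at which all of `I₁ = {a | (a, 0) ∈ B̄}` vanishes; `nodeSet₂ C` likewise;
* `isNonNode₁_of_notMem` : off `nodeSet₁ C` a place of the chart satisfies the hypotheses of
  `SmoothInst.exists_isSmoothPtRing₁`; `chart_or_swap₁` : every place lies on the chart `C` or is a
  zero of `C.swap.T.1 = (C.T.1)⁻¹`;
* `mem_nodeSet₁_iff_exists_branch` : `P ∈ nodeSet₁ C ↔ ∃ s, NodePlace.IsBranch₁ hL2 s P`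
  (helper50's dichotomy), `mem_nodeSet₁_iff_maxIdeal` : `↔ ∃ s, m_P = ker (chi1 s)`;
* `nodePlace₁ s` : THE place of the first component at the node `s`; `nodeEquiv₁ : Nodes ≃ nodeSet₁ C`;
  `finite_nodeSet₁`, `ncard_nodeSet₁`;
* the same for the second component, with the half-chart coordinate `T'` of `C.B₂` as a parameter
  (`hB₂ : IsHalfChart T' C.B₂`; in the instance `T' = C.T.1` since `C.T.2 = C.T.1 ^ q` is not a
  separating element).

## Level `M q` over `ℚ̄` and the good level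

* `nodeInfMq H hA x hx Hx`, `nodeZeroMq H hA x hx Hx` : the node sets of the concrete chart
  `TheoremBMq.chart H hA x hx Hx`;
* **`nodeInf M₀ p hp hpM B hB h4`, `nodeZero M₀ p hp hpM B hB h4 :
  Set (Place (kB B) (FkB B M₀))`** : the node places of the two components at the good level
  (`4 ∣ M₀`, chart of the Hauptmodul `x₄`), in the vocabulary of `Geo/Vocab`.
-/

set_option autoImplicit false
set_option linter.unusedSectionVars false
set_option linter.style.haveILetI false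

noncomputable section

namespace Fermat.Agent.S40x.Node.NodePlaces

open AlgebraicCurve IsLocalRing Module IntermediateField
open Fermat.Agent.S34x Fermat.Agent.S34x.C0two Fermat.Agent.S34x.Lattice2
open Fermat.Agent.S40x.Node.NodeInst Fermat.Agent.S40x.Node.SmoothInst
open Fermat.Agent.S40x.Node.PlaceIdeal Fermat.Agent.S40x.Node.PlaceIdealInst
open Fermat.Agent.S40x.Node.NodePlace

/-! ### Characters of a half-chart ring and places -/

section Char

variable {k E : Type*} [Field k] [Field E] [Algebra k E] {T : E} {B : Subalgebra k E}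

/-- `P` is **the place of the character `χ`** of the half-chart ring `B`: the functions of `B`
vanishing at `P` are exactly those killed by `χ`. -/
def IsPlaceOfChar (χ : B →ₐ[k] k) (P : Place k E) : Prop :=
  ∀ b : B, χ b = 0 ↔ (b : E) ∈ P.toValuationSubring.nonunits

/-- `B ⊆ O_P` at the place of a character. -/
theorem IsPlaceOfChar.coe_mem {χ : B →ₐ[k] k} {P : Place k E} (h : IsPlaceOfChar χ P) (b : B) :
    (b : E) ∈ P.toValuationSubring := by
  have h1 : χ (b - algebraMap k B (χ b)) = 0 := by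
    rw [map_sub, AlgHom.commutes]
    exact sub_self _
  have h2 : ((b - algebraMap k B (χ b) : B) : E) ∈ P.toValuationSubring :=
    P.toValuationSubring.nonunits_subset ((h _).mp h1)
  have h3 : ((b - algebraMap k B (χ b) : B) : E) = (b : E) - algebraMap k E (χ b) := rfl
  rw [h3] at h2
  have h4 := P.toValuationSubring.add_mem _ _ h2 (P.algebraMap_mem' (χ b))
  rwa [sub_add_cancel] at h4

/-- the value of `b` at the place of `χ` is `χ b`. -/
theorem IsPlaceOfChar.sub_mem_nonunits {χ : B →ₐ[k] k} {P : Place k E} (h : IsPlaceOfChar χ P)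
    (b : B) : (b : E) - algebraMap k E (χ b) ∈ P.toValuationSubring.nonunits := by
  have h1 : χ (b - algebraMap k B (χ b)) = 0 := by
    rw [map_sub, AlgHom.commutes]
    exact sub_self _
  exact (h _).mp h1

theorem IsPlaceOfChar.ord_nonneg (hB : IsHalfChart T B) {χ : B →ₐ[k] k} {P : Place k E}
    (h : IsPlaceOfChar χ P) : 0 ≤ P.ord T := by
  have hT : T ∈ P.toValuationSubring := h.coe_mem ⟨T, hB.T_mem⟩
  rcases eq_or_ne T 0 with h0 | h0
  · rw [h0, P.ord_zero]
  · exact (Fermat.Agent.S24.ZP.ord_nonneg_iff P h0).mpr hT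

theorem IsPlaceOfChar.maxIdeal_eq (hB : IsHalfChart T B) {χ : B →ₐ[k] k} {P : Place k E}
    (h : IsPlaceOfChar χ P) :
    hB.maxIdeal P (h.ord_nonneg hB) = RingHom.ker χ.toRingHom := by
  ext b
  rw [hB.mem_maxIdeal_iff, ← h b]
  rfl

theorem isPlaceOfChar_of_maxIdeal_eq (hB : IsHalfChart T B) {χ : B →ₐ[k] k} {P : Place k E}
    (hP : 0 ≤ P.ord T) (h : hB.maxIdeal P hP = RingHom.ker χ.toRingHom) : IsPlaceOfChar χ P := by
  intro b
  rw [← hB.mem_maxIdeal_iff P hP b, h]
  rfl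

theorem isPlaceOfChar_iff_maxIdeal_eq (hB : IsHalfChart T B) {χ : B →ₐ[k] k} {P : Place k E}
    (hP : 0 ≤ P.ord T) :
    IsPlaceOfChar χ P ↔ hB.maxIdeal P hP = RingHom.ker χ.toRingHom :=
  ⟨fun h => h.maxIdeal_eq hB, isPlaceOfChar_of_maxIdeal_eq hB hP⟩

/-- a character is determined by its place. -/
theorem IsPlaceOfChar.char_unique {χ χ' : B →ₐ[k] k} {P : Place k E} (h : IsPlaceOfChar χ P)
    (h' : IsPlaceOfChar χ' P) : χ = χ' := by
  ext b
  have h1 : χ (b - algebraMap k B (χ b)) = 0 := by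
    rw [map_sub, AlgHom.commutes]
    exact sub_self _
  have h2 := (h' _).mpr ((h _).mp h1)
  rw [map_sub, AlgHom.commutes, sub_eq_zero] at h2
  exact h2.symm

variable (hB : IsHalfChart T B) (hT : Transcendental k T) [FiniteDimensional k⟮T⟯ E]
  [Algebra.IsSeparable k⟮T⟯ E]

include hB hT in
/-- the place of a character is unique. -/
theorem IsPlaceOfChar.place_unique {χ : B →ₐ[k] k} {P P' : Place k E} (h : IsPlaceOfChar χ P)
    (h' : IsPlaceOfChar χ P') : P = P' :=
  hB.maxIdeal_injective hT (h.ord_nonneg hB) (h'.ord_nonneg hB)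
    ((h.maxIdeal_eq hB).trans (h'.maxIdeal_eq hB).symm)

include hB hT in
/-- every character of a half-chart ring has a place. -/
theorem exists_isPlaceOfChar (χ : B →ₐ[k] k) : ∃ P : Place k E, IsPlaceOfChar χ P := by
  obtain ⟨P, hP, h⟩ := exists_place_of_char hB hT χ
  exact ⟨P, isPlaceOfChar_of_maxIdeal_eq hB hP h⟩

include hB hT in
theorem existsUnique_isPlaceOfChar (χ : B →ₐ[k] k) : ∃! P : Place k E, IsPlaceOfChar χ P := by
  obtain ⟨P, hP⟩ := exists_isPlaceOfChar hB hT χ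
  exact ⟨P, hP, fun P' hP' => IsPlaceOfChar.place_unique hB hT hP' hP⟩

end Char

/-! ### The node sets of a chart -/

section Chart

variable {K : Type*} [Field K] {A : ValuationSubring K} {F : Type*} [Field F] [Algebra K F]
  {S : SmallRing F} {k κ₁ κ₂ : Type*} [Field k] [Field κ₁] [Field κ₂] [Algebra k κ₁]
  [Algebra k κ₂] {R : RedSetup2 A S k (κ₁ × κ₂)}

/-- **the node places of the first component on the chart `C`**: the places `P` at which the chart
coordinate is regular and all of `I₁ = {a | (a, 0) ∈ B̄}` vanishes. -/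
def nodeSet₁ (C : ChartCoord R) : Set (Place k κ₁) :=
  {P | C.T.1 ∈ P.toValuationSubring ∧ ¬ IsNonNode₁ C P}

/-- **the node places of the second component on the chart `C`**. -/
def nodeSet₂ (C : ChartCoord R) : Set (Place k κ₂) :=
  {P | C.T.2 ∈ P.toValuationSubring ∧ ¬ IsNonNode₂ C P}

variable {C : ChartCoord R}

theorem mem_nodeSet₁_iff {P : Place k κ₁} :
    P ∈ nodeSet₁ C ↔ C.T.1 ∈ P.toValuationSubring ∧ ¬ IsNonNode₁ C P := Iff.rfl

theorem mem_nodeSet₂_iff {P : Place k κ₂} :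
    P ∈ nodeSet₂ C ↔ C.T.2 ∈ P.toValuationSubring ∧ ¬ IsNonNode₂ C P := Iff.rfl

theorem T_mem_of_mem_nodeSet₁ {P : Place k κ₁} (h : P ∈ nodeSet₁ C) :
    C.T.1 ∈ P.toValuationSubring := h.1

theorem T_mem_of_mem_nodeSet₂ {P : Place k κ₂} (h : P ∈ nodeSet₂ C) :
    C.T.2 ∈ P.toValuationSubring := h.1

/-- **off the node set**, a place of the chart is a non-node: with `hT` these are the two
hypotheses of `SmoothInst.exists_isSmoothPtRing₁` (and of `tame_smooth₁`). -/
theorem isNonNode₁_of_notMem {P : Place k κ₁} (hT : C.T.1 ∈ P.toValuationSubring)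
    (hP : P ∉ nodeSet₁ C) : IsNonNode₁ C P := by
  by_contra h
  exact hP ⟨hT, h⟩

theorem isNonNode₂_of_notMem {P : Place k κ₂} (hT : C.T.2 ∈ P.toValuationSubring)
    (hP : P ∉ nodeSet₂ C) : IsNonNode₂ C P := by
  by_contra h
  exact hP ⟨hT, h⟩

theorem notMem_nodeSet₁_of_isNonNode {P : Place k κ₁} (h : IsNonNode₁ C P) : P ∉ nodeSet₁ C :=
  fun hP => hP.2 h

theorem notMem_nodeSet₂_of_isNonNode {P : Place k κ₂} (h : IsNonNode₂ C P) : P ∉ nodeSet₂ C :=
  fun hP => hP.2 h

theorem notMem_nodeSet₁_of_T_notMem {P : Place k κ₁} (h : C.T.1 ∉ P.toValuationSubring) :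
    P ∉ nodeSet₁ C := fun hP => h hP.1

theorem notMem_nodeSet₂_of_T_notMem {P : Place k κ₂} (h : C.T.2 ∉ P.toValuationSubring) :
    P ∉ nodeSet₂ C := fun hP => h hP.1

theorem swap_T_fst (C : ChartCoord R) : C.swap.T.1 = (C.T.1)⁻¹ := by
  have h : C.T.1 * C.Ti.1 = 1 := congrArg Prod.fst C.T_mul_Ti
  rw [C.swap_T]
  exact eq_inv_of_mul_eq_one_right h

theorem swap_T_snd (C : ChartCoord R) : C.swap.T.2 = (C.T.2)⁻¹ := by
  have h : C.T.2 * C.Ti.2 = 1 := congrArg Prod.snd C.T_mul_Ti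
  rw [C.swap_T]
  exact eq_inv_of_mul_eq_one_right h

/-- every place of the first component lies on the chart `C` (`t ≠ ∞`) or is a zero of the
coordinate of the chart `C.swap` (`t ≠ 0`). -/
theorem chart_or_swap₁ (C : ChartCoord R) (P : Place k κ₁) :
    C.T.1 ∈ P.toValuationSubring ∨
      (C.T.1 ∉ P.toValuationSubring ∧ C.swap.T.1 ∈ P.toValuationSubring.nonunits) := by
  by_cases h : C.T.1 ∈ P.toValuationSubring
  · exact Or.inl h
  · refine Or.inr ⟨h, ?_⟩
    rw [swap_T_fst, ValuationSubring.mem_nonunits_iff, map_inv₀]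
    have h1 : ¬ P.toValuationSubring.valuation C.T.1 ≤ 1 := fun hle =>
      h ((P.toValuationSubring.valuation_le_one_iff _).mp hle)
    exact inv_lt_one_of_one_lt₀ (not_le.mp h1)

theorem chart_or_swap₂ (C : ChartCoord R) (P : Place k κ₂) :
    C.T.2 ∈ P.toValuationSubring ∨
      (C.T.2 ∉ P.toValuationSubring ∧ C.swap.T.2 ∈ P.toValuationSubring.nonunits) := by
  by_cases h : C.T.2 ∈ P.toValuationSubring
  · exact Or.inl h
  · refine Or.inr ⟨h, ?_⟩
    rw [swap_T_snd, ValuationSubring.mem_nonunits_iff, map_inv₀]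
    have h1 : ¬ P.toValuationSubring.valuation C.T.2 ≤ 1 := fun hle =>
      h ((P.toValuationSubring.valuation_le_one_iff _).mp hle)
    exact inv_lt_one_of_one_lt₀ (not_le.mp h1)

/-- **the smooth-point hypotheses off the nodes**: a place outside `nodeSet₁ C` satisfies the
hypotheses of `SmoothInst.exists_isSmoothPtRing₁` for the chart `C`, or for the chart `C.swap`
provided the places over `t = ∞` are non-nodes of `C.swap` (`hcusp`: the cusps over `t = ∞`). -/
theorem smooth_hyps₁ (C : ChartCoord R)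
    (hcusp : ∀ P : Place k κ₁, C.T.1 ∉ P.toValuationSubring → IsNonNode₁ C.swap P)
    {P : Place k κ₁} (hP : P ∉ nodeSet₁ C) :
    (C.T.1 ∈ P.toValuationSubring ∧ IsNonNode₁ C P) ∨
      (C.swap.T.1 ∈ P.toValuationSubring ∧ IsNonNode₁ C.swap P) := by
  rcases chart_or_swap₁ C P with h | ⟨h, h'⟩
  · exact Or.inl ⟨h, isNonNode₁_of_notMem h hP⟩
  · exact Or.inr ⟨P.toValuationSubring.nonunits_subset h', hcusp P h⟩

theorem smooth_hyps₂ (C : ChartCoord R)
    (hcusp : ∀ P : Place k κ₂, C.T.2 ∉ P.toValuationSubring → IsNonNode₂ C.swap P)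
    {P : Place k κ₂} (hP : P ∉ nodeSet₂ C) :
    (C.T.2 ∈ P.toValuationSubring ∧ IsNonNode₂ C P) ∨
      (C.swap.T.2 ∈ P.toValuationSubring ∧ IsNonNode₂ C.swap P) := by
  rcases chart_or_swap₂ C P with h | ⟨h, h'⟩
  · exact Or.inl ⟨h, isNonNode₂_of_notMem h hP⟩
  · exact Or.inr ⟨P.toValuationSubring.nonunits_subset h', hcusp P h⟩

theorem isHalfChart₁ (C : ChartCoord R) : IsHalfChart C.T.1 C.B₁ := fun _ => Iff.rfl

theorem isHalfChart₂ (C : ChartCoord R) : IsHalfChart C.T.2 C.B₂ := fun _ => Iff.rfl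

/-! ### Node places and nodes -/

section Branch

variable [IsAlgClosed k] (hL2 : C.IsL2)

theorem isBranch₁_iff {s : Goursat.Nodes C.BbarT hL2.h2} {P : Place k κ₁} :
    IsBranch₁ hL2 s P ↔ IsPlaceOfChar (chi1 hL2 s) P := Iff.rfl

theorem isBranch₂_iff {s : Goursat.Nodes C.BbarT hL2.h2} {P : Place k κ₂} :
    IsBranch₂ hL2 s P ↔ IsPlaceOfChar (chi2 hL2 s) P := Iff.rfl

/-- a place lying at a node lies on the chart. -/
theorem T_mem_of_isBranch₁ {s : Goursat.Nodes C.BbarT hL2.h2} {P : Place k κ₁}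
    (h : IsBranch₁ hL2 s P) : C.T.1 ∈ P.toValuationSubring :=
  IsPlaceOfChar.coe_mem (χ := chi1 hL2 s) h ⟨C.T.1, (isHalfChart₁ C).T_mem⟩

theorem T_mem_of_isBranch₂ {s : Goursat.Nodes C.BbarT hL2.h2} {P : Place k κ₂}
    (h : IsBranch₂ hL2 s P) : C.T.2 ∈ P.toValuationSubring :=
  IsPlaceOfChar.coe_mem (χ := chi2 hL2 s) h ⟨C.T.2, (isHalfChart₂ C).T_mem⟩

theorem mem_nodeSet₁_of_isBranch {s : Goursat.Nodes C.BbarT hL2.h2} {P : Place k κ₁}
    (h : IsBranch₁ hL2 s P) : P ∈ nodeSet₁ C :=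
  ⟨T_mem_of_isBranch₁ hL2 h, h.not_isNonNode⟩

theorem mem_nodeSet₂_of_isBranch {s : Goursat.Nodes C.BbarT hL2.h2} {P : Place k κ₂}
    (h : IsBranch₂ hL2 s P) : P ∈ nodeSet₂ C :=
  ⟨T_mem_of_isBranch₂ hL2 h, h.not_isNonNode⟩

variable [Module.Finite k ((C.B₁ × C.B₂) ⧸ Subalgebra.toSubmodule C.BbarT)]

/-- **the node places are the places lying at a node**, first component. -/
theorem mem_nodeSet₁_iff_exists_branch {P : Place k κ₁} :
    P ∈ nodeSet₁ C ↔ ∃ s : Goursat.Nodes C.BbarT hL2.h2, IsBranch₁ hL2 s P := by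
  constructor
  · rintro ⟨hT, hP⟩
    exact (isNonNode₁_or_exists_branch hL2 P hT).resolve_left hP
  · rintro ⟨s, hs⟩
    exact mem_nodeSet₁_of_isBranch hL2 hs

/-- **the node places are the places lying at a node**, second component. -/
theorem mem_nodeSet₂_iff_exists_branch {P : Place k κ₂} :
    P ∈ nodeSet₂ C ↔ ∃ s : Goursat.Nodes C.BbarT hL2.h2, IsBranch₂ hL2 s P := by
  constructor
  · rintro ⟨hT, hP⟩
    exact (isNonNode₂_or_exists_branch hL2 P hT).resolve_left hP
  · rintro ⟨s, hs⟩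
    exact mem_nodeSet₂_of_isBranch hL2 hs

/-- ideal form: `P ∈ nodeSet₁ C ↔ m_P = ker (chi1 s)` for a node `s` (`m_P` of `Node/PlaceIdeal`). -/
theorem mem_nodeSet₁_iff_maxIdeal {P : Place k κ₁} (hP : 0 ≤ P.ord C.T.1) :
    P ∈ nodeSet₁ C ↔ ∃ s : Goursat.Nodes C.BbarT hL2.h2,
      (isHalfChart₁ C).maxIdeal P hP = RingHom.ker (chi1 hL2 s).toRingHom := by
  rw [mem_nodeSet₁_iff_exists_branch hL2]
  exact exists_congr fun s => isPlaceOfChar_iff_maxIdeal_eq (isHalfChart₁ C) hP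

/-- ideal form for the second component, for any half-chart coordinate `T'` of `C.B₂`. -/
theorem mem_nodeSet₂_iff_maxIdeal {T' : κ₂} (hB₂ : IsHalfChart T' C.B₂) {P : Place k κ₂}
    (hP : 0 ≤ P.ord T') :
    P ∈ nodeSet₂ C ↔ ∃ s : Goursat.Nodes C.BbarT hL2.h2,
      hB₂.maxIdeal P hP = RingHom.ker (chi2 hL2 s).toRingHom := by
  rw [mem_nodeSet₂_iff_exists_branch hL2]
  exact exists_congr fun s => isPlaceOfChar_iff_maxIdeal_eq hB₂ hP

end Branch

/-! ### The place at a node, first component -/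

section Places₁

variable [IsAlgClosed k] (hL2 : C.IsL2) (hT : Transcendental k C.T.1)
  [FiniteDimensional k⟮C.T.1⟯ κ₁] [Algebra.IsSeparable k⟮C.T.1⟯ κ₁]

include hT in
/-- two places of the first component lying at the same node coincide. -/
theorem place_unique₁ {s : Goursat.Nodes C.BbarT hL2.h2} {P P' : Place k κ₁}
    (h : IsBranch₁ hL2 s P) (h' : IsBranch₁ hL2 s P') : P = P' :=
  IsPlaceOfChar.place_unique (isHalfChart₁ C) hT h h'

/-- **THE place of the first component at the node `s`.** -/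
def nodePlace₁ (s : Goursat.Nodes C.BbarT hL2.h2) : Place k κ₁ :=
  (exists_isPlaceOfChar (isHalfChart₁ C) hT (chi1 hL2 s)).choose

theorem isBranch₁_nodePlace₁ (s : Goursat.Nodes C.BbarT hL2.h2) :
    IsBranch₁ hL2 s (nodePlace₁ hL2 hT s) :=
  (exists_isPlaceOfChar (isHalfChart₁ C) hT (chi1 hL2 s)).choose_spec

theorem nodePlace₁_mem (s : Goursat.Nodes C.BbarT hL2.h2) : nodePlace₁ hL2 hT s ∈ nodeSet₁ C :=
  mem_nodeSet₁_of_isBranch hL2 (isBranch₁_nodePlace₁ hL2 hT s)

theorem eq_nodePlace₁_of_isBranch {s : Goursat.Nodes C.BbarT hL2.h2} {P : Place k κ₁}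
    (h : IsBranch₁ hL2 s P) : P = nodePlace₁ hL2 hT s :=
  place_unique₁ hL2 hT h (isBranch₁_nodePlace₁ hL2 hT s)

theorem isBranch₁_iff_eq_nodePlace₁ {s : Goursat.Nodes C.BbarT hL2.h2} {P : Place k κ₁} :
    IsBranch₁ hL2 s P ↔ P = nodePlace₁ hL2 hT s :=
  ⟨eq_nodePlace₁_of_isBranch hL2 hT, fun h => h ▸ isBranch₁_nodePlace₁ hL2 hT s⟩

theorem nodePlace₁_injective : Function.Injective (nodePlace₁ hL2 hT) := fun s s' h =>
  IsBranch₁.unique hL2 (isBranch₁_nodePlace₁ hL2 hT s)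
    (h ▸ isBranch₁_nodePlace₁ hL2 hT s')

variable [Module.Finite k ((C.B₁ × C.B₂) ⧸ Subalgebra.toSubmodule C.BbarT)]

theorem range_nodePlace₁ : Set.range (nodePlace₁ hL2 hT) = nodeSet₁ C := by
  ext P
  constructor
  · rintro ⟨s, rfl⟩
    exact nodePlace₁_mem hL2 hT s
  · intro hP
    obtain ⟨s, hs⟩ := (mem_nodeSet₁_iff_exists_branch hL2).mp hP
    exact ⟨s, (eq_nodePlace₁_of_isBranch hL2 hT hs).symm⟩

theorem mem_nodeSet₁_iff_exists_eq {P : Place k κ₁} :
    P ∈ nodeSet₁ C ↔ ∃ s : Goursat.Nodes C.BbarT hL2.h2, nodePlace₁ hL2 hT s = P := by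
  rw [← range_nodePlace₁ hL2 hT]
  rfl

/-- **nodes ↔ node places of the first component.** -/
def nodeEquiv₁ : Goursat.Nodes C.BbarT hL2.h2 ≃ nodeSet₁ C :=
  (Equiv.ofInjective _ (nodePlace₁_injective hL2 hT)).trans
    (Equiv.setCongr (range_nodePlace₁ hL2 hT))

@[simp] theorem coe_nodeEquiv₁ (s : Goursat.Nodes C.BbarT hL2.h2) :
    (nodeEquiv₁ hL2 hT s : Place k κ₁) = nodePlace₁ hL2 hT s := rfl

theorem isBranch₁_nodeEquiv₁_symm (P : nodeSet₁ C) :
    IsBranch₁ hL2 ((nodeEquiv₁ hL2 hT).symm P) (P : Place k κ₁) := by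
  have h := isBranch₁_nodePlace₁ hL2 hT ((nodeEquiv₁ hL2 hT).symm P)
  rw [← coe_nodeEquiv₁, Equiv.apply_symm_apply] at h
  exact h

include hL2 hT in
/-- **finiteness** of the set of node places of the first component. -/
theorem finite_nodeSet₁ : (nodeSet₁ C).Finite := by
  haveI := Goursat.finite_nodes C.BbarT hL2.h1 hL2.h2
  rw [← range_nodePlace₁ hL2 hT]
  exact Set.finite_range _

include hT in
theorem ncard_nodeSet₁ :
    (nodeSet₁ C).ncard = Nat.card (Goursat.Nodes C.BbarT hL2.h2) := by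
  rw [← Nat.card_coe_set_eq]
  exact (Nat.card_congr (nodeEquiv₁ hL2 hT)).symm

end Places₁

/-! ### The place at a node, second component

The coordinate `C.T.2` of the second component need not be a separating element (in the instance
`C.T.2 = C.T.1 ^ q`), so the half-chart coordinate `T'` of `C.B₂` is a parameter. -/

section Places₂

variable [IsAlgClosed k] (hL2 : C.IsL2) {T' : κ₂} (hB₂ : IsHalfChart T' C.B₂)
  (hT' : Transcendental k T') [FiniteDimensional k⟮T'⟯ κ₂] [Algebra.IsSeparable k⟮T'⟯ κ₂]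

include hB₂ hT' in
/-- two places of the second component lying at the same node coincide. -/
theorem place_unique₂ {s : Goursat.Nodes C.BbarT hL2.h2} {P P' : Place k κ₂}
    (h : IsBranch₂ hL2 s P) (h' : IsBranch₂ hL2 s P') : P = P' :=
  IsPlaceOfChar.place_unique hB₂ hT' h h'

/-- **THE place of the second component at the node `s`.** -/
def nodePlace₂ (s : Goursat.Nodes C.BbarT hL2.h2) : Place k κ₂ :=
  (exists_isPlaceOfChar hB₂ hT' (chi2 hL2 s)).choose

theorem isBranch₂_nodePlace₂ (s : Goursat.Nodes C.BbarT hL2.h2) :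
    IsBranch₂ hL2 s (nodePlace₂ hL2 hB₂ hT' s) :=
  (exists_isPlaceOfChar hB₂ hT' (chi2 hL2 s)).choose_spec

theorem nodePlace₂_mem (s : Goursat.Nodes C.BbarT hL2.h2) :
    nodePlace₂ hL2 hB₂ hT' s ∈ nodeSet₂ C :=
  mem_nodeSet₂_of_isBranch hL2 (isBranch₂_nodePlace₂ hL2 hB₂ hT' s)

theorem eq_nodePlace₂_of_isBranch {s : Goursat.Nodes C.BbarT hL2.h2} {P : Place k κ₂}
    (h : IsBranch₂ hL2 s P) : P = nodePlace₂ hL2 hB₂ hT' s :=
  place_unique₂ hL2 hB₂ hT' h (isBranch₂_nodePlace₂ hL2 hB₂ hT' s)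

theorem isBranch₂_iff_eq_nodePlace₂ {s : Goursat.Nodes C.BbarT hL2.h2} {P : Place k κ₂} :
    IsBranch₂ hL2 s P ↔ P = nodePlace₂ hL2 hB₂ hT' s :=
  ⟨eq_nodePlace₂_of_isBranch hL2 hB₂ hT', fun h => h ▸ isBranch₂_nodePlace₂ hL2 hB₂ hT' s⟩

theorem nodePlace₂_injective : Function.Injective (nodePlace₂ hL2 hB₂ hT') := fun s s' h =>
  IsBranch₂.unique hL2 (isBranch₂_nodePlace₂ hL2 hB₂ hT' s)
    (h ▸ isBranch₂_nodePlace₂ hL2 hB₂ hT' s')

variable [Module.Finite k ((C.B₁ × C.B₂) ⧸ Subalgebra.toSubmodule C.BbarT)]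

theorem range_nodePlace₂ : Set.range (nodePlace₂ hL2 hB₂ hT') = nodeSet₂ C := by
  ext P
  constructor
  · rintro ⟨s, rfl⟩
    exact nodePlace₂_mem hL2 hB₂ hT' s
  · intro hP
    obtain ⟨s, hs⟩ := (mem_nodeSet₂_iff_exists_branch hL2).mp hP
    exact ⟨s, (eq_nodePlace₂_of_isBranch hL2 hB₂ hT' hs).symm⟩

theorem mem_nodeSet₂_iff_exists_eq {P : Place k κ₂} :
    P ∈ nodeSet₂ C ↔ ∃ s : Goursat.Nodes C.BbarT hL2.h2, nodePlace₂ hL2 hB₂ hT' s = P := by
  rw [← range_nodePlace₂ hL2 hB₂ hT']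
  rfl

/-- **nodes ↔ node places of the second component.** -/
def nodeEquiv₂ : Goursat.Nodes C.BbarT hL2.h2 ≃ nodeSet₂ C :=
  (Equiv.ofInjective _ (nodePlace₂_injective hL2 hB₂ hT')).trans
    (Equiv.setCongr (range_nodePlace₂ hL2 hB₂ hT'))

@[simp] theorem coe_nodeEquiv₂ (s : Goursat.Nodes C.BbarT hL2.h2) :
    (nodeEquiv₂ hL2 hB₂ hT' s : Place k κ₂) = nodePlace₂ hL2 hB₂ hT' s := rfl

theorem isBranch₂_nodeEquiv₂_symm (P : nodeSet₂ C) :
    IsBranch₂ hL2 ((nodeEquiv₂ hL2 hB₂ hT').symm P) (P : Place k κ₂) := by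
  have h := isBranch₂_nodePlace₂ hL2 hB₂ hT' ((nodeEquiv₂ hL2 hB₂ hT').symm P)
  rw [← coe_nodeEquiv₂, Equiv.apply_symm_apply] at h
  exact h

include hL2 hB₂ hT' in
/-- **finiteness** of the set of node places of the second component. -/
theorem finite_nodeSet₂ : (nodeSet₂ C).Finite := by
  haveI := Goursat.finite_nodes C.BbarT hL2.h1 hL2.h2
  rw [← range_nodePlace₂ hL2 hB₂ hT']
  exact Set.finite_range _

include hB₂ hT' in
theorem ncard_nodeSet₂ :
    (nodeSet₂ C).ncard = Nat.card (Goursat.Nodes C.BbarT hL2.h2) := by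
  rw [← Nat.card_coe_set_eq]
  exact (Nat.card_congr (nodeEquiv₂ hL2 hB₂ hT')).symm

end Places₂

/-! ### The two branches of a node -/

section Match

variable [IsAlgClosed k] (hL2 : C.IsL2) (hT : Transcendental k C.T.1)
  [FiniteDimensional k⟮C.T.1⟯ κ₁] [Algebra.IsSeparable k⟮C.T.1⟯ κ₁]
  {T' : κ₂} (hB₂ : IsHalfChart T' C.B₂)
  (hT' : Transcendental k T') [FiniteDimensional k⟮T'⟯ κ₂] [Algebra.IsSeparable k⟮T'⟯ κ₂]
  [Module.Finite k ((C.B₁ × C.B₂) ⧸ Subalgebra.toSubmodule C.BbarT)]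

/-- **the node places of the two components correspond**: `P ↦ P'` iff `P` and `P'` are the two
branches of the same node. -/
def nodeMatch : nodeSet₁ C ≃ nodeSet₂ C :=
  (nodeEquiv₁ hL2 hT).symm.trans (nodeEquiv₂ hL2 hB₂ hT')

theorem nodeMatch_eq_iff (P : nodeSet₁ C) (P' : nodeSet₂ C) :
    nodeMatch hL2 hT hB₂ hT' P = P' ↔ ∃ s : Goursat.Nodes C.BbarT hL2.h2,
      IsBranch₁ hL2 s (P : Place k κ₁) ∧ IsBranch₂ hL2 s (P' : Place k κ₂) := by
  constructor
  · rintro rfl
    refine ⟨(nodeEquiv₁ hL2 hT).symm P, isBranch₁_nodeEquiv₁_symm hL2 hT P, ?_⟩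
    exact isBranch₂_nodePlace₂ hL2 hB₂ hT' _
  · rintro ⟨s, h1, h2⟩
    have e1 : (nodeEquiv₁ hL2 hT).symm P = s := by
      rw [Equiv.symm_apply_eq]
      exact Subtype.ext (eq_nodePlace₁_of_isBranch hL2 hT h1)
    apply Subtype.ext
    show (nodeEquiv₂ hL2 hB₂ hT' ((nodeEquiv₁ hL2 hT).symm P) : Place k κ₂) = P'
    rw [e1]
    exact (eq_nodePlace₂_of_isBranch hL2 hB₂ hT' h2).symm

end Match

end Chart

/-! ### Inside the context bundle `Cech.CtxMq.Ctx` -/

section Ctx

open Fermat.Agent.S33x.Cech.CtxMq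

variable {K : Type*} [Field K] [IsAlgClosed K] [CharZero K] {A : ValuationSubring K}
  {F : Type*} [Field F] [Algebra K F] {S : SmallRing F}
  {k : Type*} [Field k] [IsAlgClosed k] {E : Type*} [Field E] [Algebra k E]
  {R : RedSetup2 A S k (E × E)} {C : ChartCoord R} {p q : ℕ} {x : E} {Dt : Divisor K F}
  (h : Ctx R C p q x Dt)

include h

theorem T_fst_of_ctx : C.T.1 = x := congrArg Prod.fst h.hT

theorem T_snd_of_ctx : C.T.2 = C.T.1 ^ q := by
  rw [T_fst_of_ctx h]
  exact congrArg Prod.snd h.hT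

theorem transcendental_T₁_of_ctx : Transcendental k C.T.1 := by
  rw [T_fst_of_ctx h]
  exact h.hx

theorem finiteDimensional_T₁_of_ctx : FiniteDimensional k⟮C.T.1⟯ E := by
  rw [T_fst_of_ctx h]
  exact h.fin_x

theorem isSeparable_T₁_of_ctx : Algebra.IsSeparable k⟮C.T.1⟯ E := by
  rw [T_fst_of_ctx h]
  exact h.sep_x

/-- `C.B₂` (the integral closure of `k[T₁ ^ q]`) is the half-chart ring of `T₁`. -/
theorem isHalfChart_B₂_of_ctx : IsHalfChart C.T.1 C.B₂ :=
  isHalfChart_B₂ C h.hq (T_snd_of_ctx h)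

theorem finite_quotient_of_ctx :
    Module.Finite k ((C.B₁ × C.B₂) ⧸ Subalgebra.toSubmodule C.BbarT) :=
  Fermat.Agent.S40x.Node.NodeInstQb.finite_quotient h

/-- **finiteness** of the node places of the first component, inside the context bundle. -/
theorem finite_nodeSet₁_of_ctx : (nodeSet₁ C).Finite := by
  haveI := finite_quotient_of_ctx h
  haveI := finiteDimensional_T₁_of_ctx h
  haveI := isSeparable_T₁_of_ctx h
  exact finite_nodeSet₁ h.hL2 (transcendental_T₁_of_ctx h)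

/-- **finiteness** of the node places of the second component, inside the context bundle. -/
theorem finite_nodeSet₂_of_ctx : (nodeSet₂ C).Finite := by
  haveI := finite_quotient_of_ctx h
  haveI := finiteDimensional_T₁_of_ctx h
  haveI := isSeparable_T₁_of_ctx h
  exact finite_nodeSet₂ h.hL2 (isHalfChart_B₂_of_ctx h) (transcendental_T₁_of_ctx h)

/-- `P ∈ nodeSet₁ C ↔ P` lies at a node, inside the context bundle. -/
theorem mem_nodeSet₁_iff_of_ctx {P : Place k E} :
    P ∈ nodeSet₁ C ↔ ∃ s : Goursat.Nodes C.BbarT h.hL2.h2, IsBranch₁ h.hL2 s P := by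
  haveI := finite_quotient_of_ctx h
  exact mem_nodeSet₁_iff_exists_branch h.hL2

theorem mem_nodeSet₂_iff_of_ctx {P : Place k E} :
    P ∈ nodeSet₂ C ↔ ∃ s : Goursat.Nodes C.BbarT h.hL2.h2, IsBranch₂ h.hL2 s P := by
  haveI := finite_quotient_of_ctx h
  exact mem_nodeSet₂_iff_exists_branch h.hL2

/-- every node carries exactly one place of each component, inside the context bundle. -/
theorem existsUnique_branch₁_of_ctx (s : Goursat.Nodes C.BbarT h.hL2.h2) :
    ∃! P : Place k E, IsBranch₁ h.hL2 s P := by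
  haveI := finiteDimensional_T₁_of_ctx h
  haveI := isSeparable_T₁_of_ctx h
  exact existsUnique_isPlaceOfChar (isHalfChart₁ C) (transcendental_T₁_of_ctx h) (chi1 h.hL2 s)

theorem existsUnique_branch₂_of_ctx (s : Goursat.Nodes C.BbarT h.hL2.h2) :
    ∃! P : Place k E, IsBranch₂ h.hL2 s P := by
  haveI := finiteDimensional_T₁_of_ctx h
  haveI := isSeparable_T₁_of_ctx h
  exact existsUnique_isPlaceOfChar (isHalfChart_B₂_of_ctx h) (transcendental_T₁_of_ctx h)
    (chi2 h.hL2 s)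

/-- the two node sets have the cardinality of the set of nodes. -/
theorem ncard_nodeSet₁_of_ctx :
    (nodeSet₁ C).ncard = Nat.card (Goursat.Nodes C.BbarT h.hL2.h2) := by
  haveI := finite_quotient_of_ctx h
  haveI := finiteDimensional_T₁_of_ctx h
  haveI := isSeparable_T₁_of_ctx h
  exact ncard_nodeSet₁ h.hL2 (transcendental_T₁_of_ctx h)

theorem ncard_nodeSet₂_of_ctx :
    (nodeSet₂ C).ncard = Nat.card (Goursat.Nodes C.BbarT h.hL2.h2) := by
  haveI := finite_quotient_of_ctx h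
  haveI := finiteDimensional_T₁_of_ctx h
  haveI := isSeparable_T₁_of_ctx h
  exact ncard_nodeSet₂ h.hL2 (isHalfChart_B₂_of_ctx h) (transcendental_T₁_of_ctx h)

end Ctx

/-! ### Level `M q` over `ℚ̄` -/

section Mq

open ModularCurve
open Fermat.Agent.Gateway.Hecke Fermat.Agent.Gateway.ESC
open Fermat.Agent.Gateway.Red Fermat.Agent.Gateway.GoodRed
open Fermat.Agent.Gateway.GoodRed.ConjFamily
open Fermat.Agent.S34x.TwoVal
open Fermat.Agent.S34x.Inst.L2 Fermat.Agent.S34x.Inst.IsL2Inst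
open Fermat.Agent.S34x.Inst.RedSetupInst Fermat.Agent.S34x.Inst.ElementYRed
open Fermat.Agent.S34x.Inst.ElementYInt Fermat.Agent.S34x.Inst.Charts
open Fermat.Agent.S34x.Inst.TheoremBMq
open Fermat.Agent.S33x.Cech.CtxMq
open Fermat.Agent.S33x.H1.FixData2Inst

attribute [-instance] IsScalarTower.of_algHom

local notation "Qb" => AlgebraicClosure ℚ

local instance isAlgebraicQb_nodePlaces : Algebra.IsAlgebraic ℚ (AlgebraicClosure ℚ) :=
  AlgebraicClosure.isAlgebraic ℚ

variable {P : ValuationSubring Qb} {k : Type} [Field k] {π : P →+* k} [IsAlgClosed k]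
variable {M q : ℕ} [NeZero M] [NeZero q] [Fact q.Prime] [CharP k q]
variable {hdeg : finrankAlong Qb (heckeAlphaBar Qb M q) = q + 1} {hq : q.Prime} {hqM : ¬ q ∣ M}
variable {hrk : ∀ x ∈ maximalIdeal P, ∀ c : P, c ≠ 0 → ∃ j : ℕ, c ∣ x ^ j}
  {hπ : Function.Surjective π}
variable (H : ResidueFacts P π M q hdeg hq hqM hrk hπ) (hA : P.LiesOverPrime q)
  (x : LaurentSeries ℤ) (hx : coeffMap (Int.castRingHom Qb) x ∈ FBar Qb M)
  (Hx : GoodLevelFactsT P π M q hπ hqM (tInt M x hx))

/-- **the node places of the component `C_∞`** at level `M q`, chart `t = α t'` of the `ℤ`-series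
`x`. -/
def nodeInfMq : Set (Place k (Fk k M)) := nodeSet₁ (chart H hA x hx Hx)

/-- **the node places of the component `C_0`** at level `M q`. -/
def nodeZeroMq : Set (Place k (Fk k M)) := nodeSet₂ (chart H hA x hx Hx)

theorem nodeInfMq_def : nodeInfMq H hA x hx Hx = nodeSet₁ (chart H hA x hx Hx) := rfl

theorem nodeZeroMq_def : nodeZeroMq H hA x hx Hx = nodeSet₂ (chart H hA x hx Hx) := rfl

section AnyChart

variable (C : ChartCoord (redSetup2 H hA)) (hCt : C.t = tA M q x hx)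

include Hx hA hCt in
/-- the node sets of any chart with coordinate `t = α t'` are finite. -/
theorem finite_nodeSet_Mq [PerfectRing k q] (hxk : tbar k x ≠ 0) (hY : YFacts M q x hx) :
    (nodeSet₁ C).Finite ∧ (nodeSet₂ C).Finite := by
  haveI : CharZero Qb := algebraRat.charZero Qb
  obtain ⟨Dt, hctx, -, -, -⟩ := Fermat.Agent.S40x.Node.FixedQb.bundle_Mq H hA x hx Hx C hCt hxk hY
  exact ⟨finite_nodeSet₁_of_ctx hctx, finite_nodeSet₂_of_ctx hctx⟩

end AnyChart

include Hx hA in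
theorem finite_nodeInfMq [PerfectRing k q] (hxk : tbar k x ≠ 0) (hY : YFacts M q x hx) :
    (nodeInfMq H hA x hx Hx).Finite :=
  (finite_nodeSet_Mq H hA x hx Hx _ (chart_t H hA x hx Hx) hxk hY).1

include Hx hA in
theorem finite_nodeZeroMq [PerfectRing k q] (hxk : tbar k x ≠ 0) (hY : YFacts M q x hx) :
    (nodeZeroMq H hA x hx Hx).Finite :=
  (finite_nodeSet_Mq H hA x hx Hx _ (chart_t H hA x hx Hx) hxk hY).2

end Mq

/-! ### The good level: `nodeInf`, `nodeZero` in the vocabulary of `Geo/Vocab` -/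

section GoodLevel

open ModularCurve
open Fermat.Agent.Gateway.Hecke Fermat.Agent.Gateway.ESC Fermat.Agent.Gateway.Kummer
open Fermat.Agent.Gateway.Red Fermat.Agent.Gateway.GoodRed Fermat.Agent.Gateway.AuxLevel
open Fermat.Agent.S34x.TwoVal
open Fermat.Agent.S34x.Inst.RedSetupInst Fermat.Agent.S34x.Inst
open Fermat.Agent.S34x.Inst.ElementYRed Fermat.Agent.S34x.Inst.TheoremBMq
open Fermat.Agent.Gateway.S31Red
open Fermat.Agent.S33x.KummerPn Fermat.Agent.S33x.Cech.InstQbCtx
open Fermat.Agent.S40x.Geo.Vocab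

attribute [-instance] IsScalarTower.of_algHom

local notation "Qb" => AlgebraicClosure ℚ

variable (M₀ p : ℕ) [NeZero M₀] [NeZero p] (hp : p.Prime) (hpM : ¬ p ∣ M₀)
  (B : ValuationSubring Qb) (hB : B.LiesOverPrime p) (h4 : 4 ∣ M₀)

/-- **the node places of the component `C_∞`** of the special fibre of `X₀(M₀ p)` at `B`
(`4 ∣ M₀`, chart of the Hauptmodul `x₄`): the places of `κ_∞` at which `x̄₄` is regular and all of
`I₁` vanishes.  The first parameter of `Geo/Vocab.IsDiagonal`. -/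
def nodeInf : Set (Place (kB B) (FkB B M₀)) :=
  haveI : Algebra.IsAlgebraic ℚ Qb := AlgebraicClosure.isAlgebraic ℚ
  haveI : Fact p.Prime := ⟨hp⟩
  haveI : IsAlgClosed (ResidueField B) := FinalBase.isAlgClosed_residueField B
  haveI : CharP (ResidueField B) p := FinalBase.charP_residueField B hB
  nodeInfMq (ResidueInst.residueFacts B (residue B) M₀ p (hdegQb M₀ p hp hpM) hp hpM
    (FinalBase.rank_one B hp hB) (FinalBase.residue_surjective B)) hB L4.x4 (x4_hx h4) (x4_Hx h4)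

/-- **the node places of the component `C_0`**.  The second parameter of
`Geo/Vocab.IsDiagonal`. -/
def nodeZero : Set (Place (kB B) (FkB B M₀)) :=
  haveI : Algebra.IsAlgebraic ℚ Qb := AlgebraicClosure.isAlgebraic ℚ
  haveI : Fact p.Prime := ⟨hp⟩
  haveI : IsAlgClosed (ResidueField B) := FinalBase.isAlgClosed_residueField B
  haveI : CharP (ResidueField B) p := FinalBase.charP_residueField B hB
  nodeZeroMq (ResidueInst.residueFacts B (residue B) M₀ p (hdegQb M₀ p hp hpM) hp hpM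
    (FinalBase.rank_one B hp hB) (FinalBase.residue_surjective B)) hB L4.x4 (x4_hx h4) (x4_Hx h4)

/-- `nodeInf` is the node set of the level-`M₀ p` chart of `x₄`, in ANY instance context (the four
classes are propositions). -/
theorem nodeInf_eq [Algebra.IsAlgebraic ℚ Qb] [Fact p.Prime] [IsAlgClosed (ResidueField B)]
    [CharP (ResidueField B) p] :
    nodeInf M₀ p hp hpM B hB h4 =
      nodeSet₁ (chart (ResidueInst.residueFacts B (residue B) M₀ p (hdegQb M₀ p hp hpM) hp hpM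
        (FinalBase.rank_one B hp hB) (FinalBase.residue_surjective B)) hB L4.x4 (x4_hx h4)
        (x4_Hx h4)) := rfl

theorem nodeZero_eq [Algebra.IsAlgebraic ℚ Qb] [Fact p.Prime] [IsAlgClosed (ResidueField B)]
    [CharP (ResidueField B) p] :
    nodeZero M₀ p hp hpM B hB h4 =
      nodeSet₂ (chart (ResidueInst.residueFacts B (residue B) M₀ p (hdegQb M₀ p hp hpM) hp hpM
        (FinalBase.rank_one B hp hB) (FinalBase.residue_surjective B)) hB L4.x4 (x4_hx h4)
        (x4_Hx h4)) := rfl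

/-- **finiteness** of the two sets of node places at the good level (`p` odd). -/
theorem finite_nodeInf (hp2 : p ≠ 2) : (nodeInf M₀ p hp hpM B hB h4).Finite := by
  haveI : Algebra.IsAlgebraic ℚ Qb := AlgebraicClosure.isAlgebraic ℚ
  haveI : Fact p.Prime := ⟨hp⟩
  haveI : IsAlgClosed (ResidueField B) := FinalBase.isAlgClosed_residueField B
  haveI : CharP (ResidueField B) p := FinalBase.charP_residueField B hB
  haveI : PerfectRing (ResidueField B) p := inferInstance
  exact finite_nodeInfMq _ hB L4.x4 (x4_hx h4) (x4_Hx h4) x4_hxk (x4_hY h4 hp hp2)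

theorem finite_nodeZero (hp2 : p ≠ 2) : (nodeZero M₀ p hp hpM B hB h4).Finite := by
  haveI : Algebra.IsAlgebraic ℚ Qb := AlgebraicClosure.isAlgebraic ℚ
  haveI : Fact p.Prime := ⟨hp⟩
  haveI : IsAlgClosed (ResidueField B) := FinalBase.isAlgClosed_residueField B
  haveI : CharP (ResidueField B) p := FinalBase.charP_residueField B hB
  haveI : PerfectRing (ResidueField B) p := inferInstance
  exact finite_nodeZeroMq _ hB L4.x4 (x4_hx h4) (x4_Hx h4) x4_hxk (x4_hY h4 hp hp2)

end GoodLevel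

end Fermat.Agent.S40x.Node.NodePlaces
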