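/-
P-S44/S40, block R1, route alpha, leaf (N0b) (helper6, PRIMARY).

VALUE GROUP `ℤ` ON THE INERTIA-FIXED FUNCTIONS, and `ker (res | B_0) = p B_0`.

Abstract part (generic in the set `Γ` of semilinear automorphisms, so that both `Γ` = image of the
inertia group `I` (uniformiser `p`) and `Γ` = image of `G_1 = {τ ∈ I : τ ζ = ζ}` (uniformiser
`ζ - 1`) are covered):

* `IsUnif Γ ϖ` : `ϖ ∈ 𝔪_A`, `ϖ ≠ 0`, `ϖ` fixed, every fixed element of `𝔪_A` is divisible by `ϖ`
  (= the field `unif` of `FixData2`);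
* `exists_unit_mul_zpow` : (A1) every fixed `c ≠ 0` of `K` is `u * ϖ ^ m`, `u` a fixed unit of `A`,
  `m : ℤ` (`A` of rank one): `K^Γ` is discretely valued with uniformiser `ϖ`;
* `exists_zpow_smul_valuation_eq_one` : (A2) for a valuation subring `O` of `F` over `A` which is
  unramified on fixed functions (`hscal`, = (W2b)): every fixed `f ≠ 0` has `v (ϖ ^ m • f) = 1` for
  some `m : ℤ`; `zpow_unique` : `m` is unique;
* `HasOrd`, `ordAt` : (A3) the `ℤ`-valued order of `F^Γ` (defined through the valuation only) and its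
  calculus;
* `exists_eq_unif_smul_of_valuation_lt_one` : (A4).

Two valuations / chart rings: `ker_res_fixedAlg_*` (B1).  Concrete level `M q` over `Qbar`:
section `Concrete` (C1)-(C3).
-/
import Mathlib
import Fermat.Agent.S33x.W.InstW
import Fermat.Agent.S33x.W.ScalFixed2B
import Fermat.Agent.S33x.H1.FixData2Final
import Fermat.Agent.S34x.TwoVal.ResidueInst

set_option autoImplicit false
set_option linter.style.haveILetI false
set_option linter.unusedSectionVars false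
set_option linter.unusedVariables false

noncomputable section

namespace Fermat.Agent.S40x.Node.ValueGroupFixed

open AlgebraicCurve IsLocalRing
open Fermat.Agent.S19x.Geo.LatticeFixed (IsFixed IsFixedK)

/-! ### (A1) the fixed field of the constants is discretely valued -/

section Unif

variable {K : Type*} [Field K] {A : ValuationSubring K} {F : Type*} [Field F] [Algebra K F]
  (Γ : Set (SemilinearAut K F))

/-- `ϖ` is a `Γ`-fixed uniformiser of `A^Γ` (the field `unif` of `FixData2`). -/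
structure IsUnif (ϖ : A) : Prop where
  mem : ϖ ∈ maximalIdeal A
  ne_zero : ϖ ≠ 0
  fixed : IsFixedK Γ (ϖ : K)
  dvd : ∀ c : A, IsFixedK Γ (c : K) → c ∈ maximalIdeal A → ϖ ∣ c

variable {Γ} {ϖ : A}

theorem IsUnif.coe_ne_zero (hU : IsUnif Γ ϖ) : (ϖ : K) ≠ 0 :=
  fun h => hU.ne_zero (Subtype.ext h)

/-- a fixed element of `A` dividing `ϖ ^ j` is a fixed unit times a power of `ϖ`. -/
theorem IsUnif.exists_unit_mul_pow_of_dvd (hU : IsUnif Γ ϖ) :
    ∀ (j : ℕ) (c : A), IsFixedK Γ (c : K) → c ∣ ϖ ^ j →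
      ∃ (n : ℕ) (u : A), IsUnit u ∧ IsFixedK Γ (u : K) ∧ c = u * ϖ ^ n := by
  intro j
  induction j with
  | zero =>
    intro c hc hdvd
    rw [pow_zero] at hdvd
    exact ⟨0, c, isUnit_of_dvd_one hdvd, hc, by rw [pow_zero, mul_one]⟩
  | succ j ih =>
    intro c hc hdvd
    by_cases hcu : IsUnit c
    · exact ⟨0, c, hcu, hc, by rw [pow_zero, mul_one]⟩
    · have hcm : c ∈ maximalIdeal A := (mem_maximalIdeal c).mpr hcu
      obtain ⟨c', rfl⟩ := hU.dvd c hc hcm
      have hc'fix : IsFixedK Γ (c' : K) := by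
        have h1 : (c' : K) = ((ϖ * c' : A) : K) / (ϖ : K) := by
          have h0 : ((ϖ * c' : A) : K) = (ϖ : K) * (c' : K) := rfl
          rw [h0, mul_div_cancel_left₀ _ hU.coe_ne_zero]
        rw [h1]
        exact hc.div hU.fixed
      have hdvd' : c' ∣ ϖ ^ j := by
        rw [pow_succ'] at hdvd
        exact (mul_dvd_mul_iff_left hU.ne_zero).mp hdvd
      obtain ⟨n, u, hu, hufix, rfl⟩ := ih c' hc'fix hdvd'
      exact ⟨n + 1, u, hu, hufix, by ring⟩

/-- **(A1)** `K^Γ` is discretely valued with uniformiser `ϖ`: every fixed `c ≠ 0` is a fixed unit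
of `A` times an integral power of `ϖ`. -/
theorem IsUnif.exists_unit_mul_zpow (hU : IsUnif Γ ϖ)
    (hrk : ∀ x ∈ maximalIdeal A, ∀ c : A, c ≠ 0 → ∃ j : ℕ, c ∣ x ^ j)
    {c : K} (hc0 : c ≠ 0) (hc : IsFixedK Γ c) :
    ∃ (m : ℤ) (u : K), u ∈ A ∧ u⁻¹ ∈ A ∧ IsFixedK Γ u ∧ c = u * (ϖ : K) ^ m := by
  have key : ∀ d : K, d ≠ 0 → d ∈ A → IsFixedK Γ d →
      ∃ (n : ℕ) (u : K), u ∈ A ∧ u⁻¹ ∈ A ∧ IsFixedK Γ u ∧ d = u * (ϖ : K) ^ n := by
    intro d hd0 hdA hd
    have hd0' : (⟨d, hdA⟩ : A) ≠ 0 := fun h => hd0 (congrArg Subtype.val h)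
    obtain ⟨j, hj⟩ := hrk ϖ hU.mem ⟨d, hdA⟩ hd0'
    obtain ⟨n, u, hu, hufix, hdu⟩ := hU.exists_unit_mul_pow_of_dvd j ⟨d, hdA⟩ hd hj
    refine ⟨n, (u : K), u.2, ?_, hufix, ?_⟩
    · obtain ⟨w, hw⟩ := hu.exists_right_inv
      have h1 : (u : K) * (w : K) = 1 := by
        have := congrArg Subtype.val hw
        simpa using this
      have h2 : (u : K)⁻¹ = (w : K) := by
        rw [inv_eq_iff_eq_inv]
        exact (eq_inv_of_mul_eq_one_left h1)
      rw [h2]
      exact w.2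
    · have := congrArg Subtype.val hdu
      simpa using this
  rcases A.mem_or_inv_mem c with h | h
  · obtain ⟨n, u, hu, hui, hufix, hcu⟩ := key c hc0 h hc
    exact ⟨n, u, hu, hui, hufix, by rw [hcu, zpow_natCast]⟩
  · obtain ⟨n, u, hu, hui, hufix, hcu⟩ := key c⁻¹ (inv_ne_zero hc0) h hc.inv
    refine ⟨-(n : ℤ), u⁻¹, hui, by rwa [inv_inv], hufix.inv, ?_⟩
    rw [zpow_neg, zpow_natCast, ← mul_inv, ← hcu, inv_inv]

end Unif

/-! ### (A3) the `ℤ`-valued order relative to an element `t` with `0 < v t < 1` -/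

section Ord

variable {F : Type*} [Field F] (O : ValuationSubring F) (t : F)

/-- `v f` is an integral power of `v t`. -/
def HasOrd (f : F) : Prop := ∃ m : ℤ, O.valuation f = O.valuation t ^ m

open Classical in
/-- the exponent `m` with `v f = (v t) ^ m` (`0` if there is none). -/
def ordAt (f : F) : ℤ := if h : HasOrd O t f then h.choose else 0

variable {O t}

theorem HasOrd.valuation_eq {f : F} (h : HasOrd O t f) :
    O.valuation f = O.valuation t ^ ordAt O t f := by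
  unfold ordAt
  rw [dif_pos h]
  exact h.choose_spec

theorem valuation_pos (ht0 : t ≠ 0) : 0 < O.valuation t :=
  zero_lt_iff.mpr ((Valuation.ne_zero_iff _).mpr ht0)

theorem HasOrd.ne_zero (ht0 : t ≠ 0) {f : F} (h : HasOrd O t f) : f ≠ 0 := by
  obtain ⟨m, hm⟩ := h
  rintro rfl
  rw [map_zero] at hm
  exact (zpow_ne_zero m (valuation_pos ht0).ne') hm.symm

theorem zpow_unique (ht0 : t ≠ 0) (ht : O.valuation t < 1) {m n : ℤ}
    (h : O.valuation t ^ m = O.valuation t ^ n) : m = n :=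
  (zpow_right_strictAnti₀ (valuation_pos ht0) ht).injective h

theorem ordAt_eq_of_eq (ht0 : t ≠ 0) (ht : O.valuation t < 1) {f : F} {m : ℤ}
    (h : O.valuation f = O.valuation t ^ m) : ordAt O t f = m := by
  have h1 : HasOrd O t f := ⟨m, h⟩
  exact zpow_unique ht0 ht (h1.valuation_eq.symm.trans h)

theorem hasOrd_one : HasOrd O t (1 : F) := ⟨0, by rw [map_one, zpow_zero]⟩

theorem hasOrd_self : HasOrd O t t := ⟨1, by rw [zpow_one]⟩

theorem HasOrd.mul {f g : F} (hf : HasOrd O t f) (hg : HasOrd O t g) (ht0 : t ≠ 0) :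
    HasOrd O t (f * g) := by
  obtain ⟨m, hm⟩ := hf
  obtain ⟨n, hn⟩ := hg
  exact ⟨m + n, by rw [map_mul, hm, hn, zpow_add₀ (valuation_pos ht0).ne']⟩

theorem HasOrd.inv {f : F} (hf : HasOrd O t f) : HasOrd O t f⁻¹ := by
  obtain ⟨m, hm⟩ := hf
  exact ⟨-m, by rw [map_inv₀, hm, zpow_neg]⟩

theorem HasOrd.div {f g : F} (hf : HasOrd O t f) (hg : HasOrd O t g) (ht0 : t ≠ 0) :
    HasOrd O t (f / g) := by
  rw [div_eq_mul_inv]
  exact hf.mul hg.inv ht0

theorem HasOrd.pow {f : F} (hf : HasOrd O t f) (n : ℕ) : HasOrd O t (f ^ n) := by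
  obtain ⟨m, hm⟩ := hf
  exact ⟨m * n, by rw [map_pow, hm, zpow_mul, zpow_natCast]⟩

theorem HasOrd.zpow {f : F} (hf : HasOrd O t f) (n : ℤ) : HasOrd O t (f ^ n) := by
  obtain ⟨m, hm⟩ := hf
  exact ⟨m * n, by rw [map_zpow₀, hm, zpow_mul]⟩

section Calculus

variable (ht0 : t ≠ 0) (ht : O.valuation t < 1)
include ht0 ht

theorem ordAt_one : ordAt O t (1 : F) = 0 :=
  ordAt_eq_of_eq ht0 ht (by rw [map_one, zpow_zero])

theorem ordAt_self : ordAt O t t = 1 :=
  ordAt_eq_of_eq ht0 ht (by rw [zpow_one])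

theorem ordAt_mul {f g : F} (hf : HasOrd O t f) (hg : HasOrd O t g) :
    ordAt O t (f * g) = ordAt O t f + ordAt O t g :=
  ordAt_eq_of_eq ht0 ht (by
    rw [map_mul, hf.valuation_eq, hg.valuation_eq, zpow_add₀ (valuation_pos ht0).ne'])

theorem ordAt_inv {f : F} (hf : HasOrd O t f) : ordAt O t f⁻¹ = -ordAt O t f :=
  ordAt_eq_of_eq ht0 ht (by rw [map_inv₀, hf.valuation_eq, zpow_neg])

theorem ordAt_div {f g : F} (hf : HasOrd O t f) (hg : HasOrd O t g) :
    ordAt O t (f / g) = ordAt O t f - ordAt O t g := by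
  rw [div_eq_mul_inv, ordAt_mul ht0 ht hf hg.inv, ordAt_inv ht0 ht hg, sub_eq_add_neg]

theorem ordAt_pow {f : F} (hf : HasOrd O t f) (n : ℕ) :
    ordAt O t (f ^ n) = n * ordAt O t f :=
  ordAt_eq_of_eq ht0 ht (by
    rw [map_pow, hf.valuation_eq, mul_comm, zpow_mul, zpow_natCast])

theorem ordAt_zpow {f : F} (hf : HasOrd O t f) (n : ℤ) :
    ordAt O t (f ^ n) = n * ordAt O t f :=
  ordAt_eq_of_eq ht0 ht (by rw [map_zpow₀, hf.valuation_eq, mul_comm, zpow_mul])

theorem ordAt_self_zpow (n : ℤ) : ordAt O t (t ^ n) = n := by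
  rw [ordAt_zpow ht0 ht hasOrd_self, ordAt_self ht0 ht, mul_one]

/-- `0 ≤ ord f ↔ f ∈ O`. -/
theorem ordAt_nonneg_iff {f : F} (hf : HasOrd O t f) : 0 ≤ ordAt O t f ↔ f ∈ O := by
  rw [← O.valuation_le_one_iff, hf.valuation_eq]
  have h1 : (1 : O.ValueGroup) = O.valuation t ^ (0 : ℤ) := (zpow_zero _).symm
  conv_rhs => rw [h1]
  exact (zpow_le_zpow_iff_right_of_lt_one₀ (valuation_pos ht0) ht).symm

/-- `0 < ord f ↔ v f < 1`. -/
theorem ordAt_pos_iff {f : F} (hf : HasOrd O t f) : 0 < ordAt O t f ↔ O.valuation f < 1 := by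
  rw [hf.valuation_eq]
  have h1 : (1 : O.ValueGroup) = O.valuation t ^ (0 : ℤ) := (zpow_zero _).symm
  conv_rhs => rw [h1]
  exact (zpow_lt_zpow_iff_right_of_lt_one₀ (valuation_pos ht0) ht).symm

/-- `ord f = 0 ↔ v f = 1`. -/
theorem ordAt_eq_zero_iff {f : F} (hf : HasOrd O t f) : ordAt O t f = 0 ↔ O.valuation f = 1 := by
  constructor
  · intro h
    rw [hf.valuation_eq, h, zpow_zero]
  · intro h
    exact ordAt_eq_of_eq ht0 ht (by rw [h, zpow_zero])

/-- `ord f ≤ ord g ↔ v g ≤ v f`. -/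
theorem ordAt_le_iff {f g : F} (hf : HasOrd O t f) (hg : HasOrd O t g) :
    ordAt O t f ≤ ordAt O t g ↔ O.valuation g ≤ O.valuation f := by
  rw [hf.valuation_eq, hg.valuation_eq]
  exact (zpow_le_zpow_iff_right_of_lt_one₀ (valuation_pos ht0) ht).symm

/-- `ord f < ord g ↔ v g < v f`. -/
theorem ordAt_lt_iff {f g : F} (hf : HasOrd O t f) (hg : HasOrd O t g) :
    ordAt O t f < ordAt O t g ↔ O.valuation g < O.valuation f := by
  rw [hf.valuation_eq, hg.valuation_eq]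
  exact (zpow_lt_zpow_iff_right_of_lt_one₀ (valuation_pos ht0) ht).symm

/-- the ultrametric inequality. -/
theorem min_le_ordAt_add {f g : F} (hf : HasOrd O t f) (hg : HasOrd O t g)
    (hfg : HasOrd O t (f + g)) : min (ordAt O t f) (ordAt O t g) ≤ ordAt O t (f + g) := by
  rcases le_total (O.valuation f) (O.valuation g) with h | h
  · have h1 : O.valuation (f + g) ≤ O.valuation g :=
      (O.valuation.map_add f g).trans (max_le h le_rfl)
    exact (min_le_right _ _).trans ((ordAt_le_iff ht0 ht hg hfg).mpr h1)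
  · have h1 : O.valuation (f + g) ≤ O.valuation f :=
      (O.valuation.map_add f g).trans (max_le le_rfl h)
    exact (min_le_left _ _).trans ((ordAt_le_iff ht0 ht hf hfg).mpr h1)

/-- the sum of two elements of different orders. -/
theorem hasOrd_add_of_lt {f g : F} (hf : HasOrd O t f) (hg : HasOrd O t g)
    (h : ordAt O t f < ordAt O t g) :
    HasOrd O t (f + g) ∧ ordAt O t (f + g) = ordAt O t f := by
  have h1 : O.valuation g < O.valuation f := (ordAt_lt_iff ht0 ht hf hg).mp h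
  have h2 : O.valuation (f + g) = O.valuation f := O.valuation.map_add_eq_of_lt_left h1
  exact ⟨⟨ordAt O t f, h2.trans hf.valuation_eq⟩, ordAt_eq_of_eq ht0 ht (h2.trans hf.valuation_eq)⟩

/-- `f / t ^ ord f` is a unit of `O`. -/
theorem valuation_div_zpow_ordAt {f : F} (hf : HasOrd O t f) :
    O.valuation (f / t ^ ordAt O t f) = 1 := by
  rw [map_div₀, map_zpow₀, hf.valuation_eq]
  exact div_self (zpow_ne_zero _ (valuation_pos ht0).ne')

/-- an element of order `≥ n` is `t ^ n` times an element of `O`. -/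
theorem div_zpow_mem_of_le {f : F} (hf : HasOrd O t f) {n : ℤ} (hn : n ≤ ordAt O t f) :
    f / t ^ n ∈ O := by
  have h1 : HasOrd O t (f / t ^ n) := hf.div (hasOrd_self.zpow n) ht0
  rw [← ordAt_nonneg_iff ht0 ht h1, ordAt_div ht0 ht hf (hasOrd_self.zpow n),
    ordAt_self_zpow ht0 ht]
  exact sub_nonneg.mpr hn

end Calculus

end Ord

/-! ### `O ∩ F'` is a discrete valuation ring -/

section DVR

variable {F : Type*} [Field F] (O : ValuationSubring F) (F' : Subfield F) {t : F}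

/-- the restriction of `O` to the subfield `F'`. -/
abbrev restr : ValuationSubring F' := O.comap F'.subtype

variable {O F'}

theorem mem_restr {x : F'} : x ∈ restr O F' ↔ (x : F) ∈ O := Iff.rfl

/-- units of the restriction: the elements of valuation one. -/
theorem isUnit_restr_iff (x : restr O F') : IsUnit x ↔ O.valuation (((x : F') : F)) = 1 := by
  constructor
  · intro hu
    obtain ⟨y, hy⟩ := hu.exists_right_inv
    have h1 : (((x : F') : F)) * (((y : F') : F)) = 1 := by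
      have := congrArg (fun z : restr O F' => (((z : F') : F))) hy
      simpa using this
    have hx : O.valuation (((x : F') : F)) ≤ 1 := (O.valuation_le_one_iff _).mpr x.2
    have hy' : O.valuation (((y : F') : F)) ≤ 1 := (O.valuation_le_one_iff _).mpr y.2
    have h2 : O.valuation (((x : F') : F)) * O.valuation (((y : F') : F)) = 1 := by
      rw [← map_mul, h1, map_one]
    refine le_antisymm hx ?_
    by_contra hlt
    rw [not_le] at hlt
    have h3 : O.valuation (((x : F') : F)) * O.valuation (((y : F') : F)) < 1 :=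
      lt_of_le_of_lt (mul_le_of_le_one_right' hy') hlt
    exact absurd h2 (ne_of_lt h3)
  · intro hv
    have hx0 : ((x : F') : F) ≠ 0 := by
      intro h0
      rw [h0, map_zero] at hv
      exact zero_ne_one hv
    have hx0' : (x : F') ≠ 0 := fun h => hx0 (by rw [h]; rfl)
    have hinv : (x : F')⁻¹ ∈ restr O F' := by
      rw [mem_restr]
      have h1 : (((x : F')⁻¹ : F') : F) = (((x : F') : F))⁻¹ := rfl
      rw [h1, ← O.valuation_le_one_iff, map_inv₀, hv, inv_one]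
    refine isUnit_iff_exists_inv.mpr ⟨⟨(x : F')⁻¹, hinv⟩, ?_⟩
    apply Subtype.ext
    show (x : F') * (x : F')⁻¹ = 1
    exact mul_inv_cancel₀ hx0'

/-- **`O ∩ F'` is a discrete valuation ring with uniformiser `t`** as soon as every nonzero element
of `F'` has an order relative to `t ∈ F'` (`0 < v t < 1`). -/
theorem isDiscreteValuationRing_restr (htF' : t ∈ F') (ht0 : t ≠ 0) (ht : O.valuation t < 1)
    (hord : ∀ f ∈ F', f ≠ 0 → HasOrd O t f) :
    IsDiscreteValuationRing (restr O F') := by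
  have htO : t ∈ O := (O.valuation_le_one_iff t).mp ht.le
  let tR : restr O F' := ⟨⟨t, htF'⟩, htO⟩
  have htR0 : tR ≠ 0 := by
    intro h
    apply ht0
    have := congrArg (fun z : restr O F' => (((z : F') : F))) h
    exact this
  have htRnu : ¬ IsUnit tR := by
    rw [isUnit_restr_iff]
    exact ne_of_lt ht
  apply IsDiscreteValuationRing.ofHasUnitMulPowIrreducibleFactorization
  refine ⟨tR, ?_, ?_⟩
  · rw [irreducible_iff]
    refine ⟨htRnu, ?_⟩
    intro a b hab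
    have ha0 : a ≠ 0 := by
      rintro rfl
      rw [zero_mul] at hab
      exact htR0 hab
    have hb0 : b ≠ 0 := by
      rintro rfl
      rw [mul_zero] at hab
      exact htR0 hab
    have ha0' : ((a : F') : F) ≠ 0 := fun h => ha0 (Subtype.ext (Subtype.ext h))
    have hb0' : ((b : F') : F) ≠ 0 := fun h => hb0 (Subtype.ext (Subtype.ext h))
    have hoa := hord _ (a : F').2 ha0'
    have hob := hord _ (b : F').2 hb0'
    have hab' : t = ((a : F') : F) * ((b : F') : F) := by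
      have := congrArg (fun z : restr O F' => (((z : F') : F))) hab
      exact this
    have hsum : ordAt O t (((a : F') : F)) + ordAt O t (((b : F') : F)) = 1 := by
      rw [← ordAt_mul ht0 ht hoa hob, ← hab', ordAt_self ht0 ht]
    have hna : 0 ≤ ordAt O t (((a : F') : F)) := (ordAt_nonneg_iff ht0 ht hoa).mpr a.2
    have hnb : 0 ≤ ordAt O t (((b : F') : F)) := (ordAt_nonneg_iff ht0 ht hob).mpr b.2
    rw [isUnit_restr_iff, isUnit_restr_iff, ← ordAt_eq_zero_iff ht0 ht hoa,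
      ← ordAt_eq_zero_iff ht0 ht hob]
    omega
  · intro x hx
    have hx0' : ((x : F') : F) ≠ 0 := fun h => hx (Subtype.ext (Subtype.ext h))
    have hox := hord _ (x : F').2 hx0'
    have hnx : 0 ≤ ordAt O t (((x : F') : F)) := (ordAt_nonneg_iff ht0 ht hox).mpr x.2
    obtain ⟨n, hn⟩ := Int.eq_ofNat_of_zero_le hnx
    refine ⟨n, ?_⟩
    -- the unit `x / t ^ n`
    have hval : O.valuation (((x : F') : F) / t ^ n) = 1 := by
      have := valuation_div_zpow_ordAt ht0 ht hox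
      rwa [hn, zpow_natCast] at this
    have hyF' : ((x : F') : F) / t ^ n ∈ F' := F'.div_mem (x : F').2 (F'.pow_mem htF' n)
    have hyO : ((x : F') : F) / t ^ n ∈ O := (O.valuation_le_one_iff _).mp hval.le
    let y : restr O F' := ⟨⟨((x : F') : F) / t ^ n, hyF'⟩, hyO⟩
    have hyu : IsUnit y := (isUnit_restr_iff y).mpr hval
    have hxy : tR ^ n * y = x := by
      apply Subtype.ext
      apply Subtype.ext
      show t ^ n * (((x : F') : F) / t ^ n) = ((x : F') : F)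
      rw [mul_div_cancel₀ _ (pow_ne_zero n ht0)]
    exact ⟨hyu.unit, by rw [IsUnit.unit_spec]; exact hxy⟩

/-- the maximal ideal of `O ∩ F'` is generated by `t`. -/
theorem maximalIdeal_restr (htF' : t ∈ F') (ht0 : t ≠ 0) (ht : O.valuation t < 1)
    (hord : ∀ f ∈ F', f ≠ 0 → HasOrd O t f) :
    maximalIdeal (restr O F') =
      Ideal.span {(⟨⟨t, htF'⟩, (O.valuation_le_one_iff t).mp ht.le⟩ : restr O F')} := by
  apply le_antisymm
  · intro x hx
    rw [Ideal.mem_span_singleton]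
    by_cases hx0 : x = 0
    · rw [hx0]; exact dvd_zero _
    have hx0' : ((x : F') : F) ≠ 0 := fun h => hx0 (Subtype.ext (Subtype.ext h))
    have hox := hord _ (x : F').2 hx0'
    have hnu : ¬ IsUnit x := (mem_maximalIdeal x).mp hx
    rw [isUnit_restr_iff] at hnu
    have hlt : O.valuation (((x : F') : F)) < 1 :=
      lt_of_le_of_ne ((O.valuation_le_one_iff _).mpr x.2) hnu
    have hpos : (1 : ℤ) ≤ ordAt O t (((x : F') : F)) := (ordAt_pos_iff ht0 ht hox).mpr hlt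
    have hmem := div_zpow_mem_of_le ht0 ht hox hpos
    rw [zpow_one] at hmem
    refine ⟨⟨⟨((x : F') : F) / t, F'.div_mem (x : F').2 htF'⟩, hmem⟩, ?_⟩
    apply Subtype.ext
    apply Subtype.ext
    show ((x : F') : F) = t * (((x : F') : F) / t)
    rw [mul_div_cancel₀ _ ht0]
  · rw [Ideal.span_le]
    rintro x rfl
    show _ ∈ maximalIdeal (restr O F')
    rw [mem_maximalIdeal, mem_nonunits_iff, isUnit_restr_iff]
    exact ne_of_lt ht

end DVR

/-! ### (A2), (A4) value group `ℤ` on the fixed functions -/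

section Fixed

variable {K : Type*} [Field K] {A : ValuationSubring K} {F : Type*} [Field F] [Algebra K F]
  {Γ : Set (SemilinearAut K F)} {ϖ : A} (O : ValuationSubring F)

variable {O}

/-- units of `A` have valuation one in `F`. -/
theorem valuation_algebraMap_eq_one (hAO : ∀ a : A, algebraMap K F a ∈ O) {u : K} (hu0 : u ≠ 0)
    (hu : u ∈ A) (hui : u⁻¹ ∈ A) : O.valuation (algebraMap K F u) = 1 := by
  have h1 : O.valuation (algebraMap K F u) ≤ 1 := (O.valuation_le_one_iff _).mpr (hAO ⟨u, hu⟩)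
  have h2 : O.valuation (algebraMap K F u⁻¹) ≤ 1 :=
    (O.valuation_le_one_iff _).mpr (hAO ⟨u⁻¹, hui⟩)
  have h3 : algebraMap K F u ≠ 0 := (map_ne_zero _).mpr hu0
  have h4 : 0 < O.valuation (algebraMap K F u) := valuation_pos h3
  rw [map_inv₀, map_inv₀] at h2
  exact le_antisymm h1 ((inv_le_one₀ h4).mp h2)

theorem zpow_smul_eq (m : ℤ) (f : F) :
    ((ϖ : K) ^ m) • f = (algebraMap K F (ϖ : K)) ^ m * f := by
  rw [Algebra.smul_def, map_zpow₀]

variable (hU : IsUnif Γ ϖ)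
  (hrk : ∀ x ∈ maximalIdeal A, ∀ c : A, c ≠ 0 → ∃ j : ℕ, c ∣ x ^ j)
  (hAO : ∀ a : A, algebraMap K F a ∈ O)
  (hscal : ∀ f : F, f ≠ 0 → IsFixed Γ f →
    ∃ c : K, c ≠ 0 ∧ IsFixedK Γ c ∧ O.valuation (c • f) = 1)
include hU hrk hAO hscal

/-- **(A2) VALUE GROUP `ℤ` ON `F^Γ`**: every fixed `f ≠ 0` is a unit of `O` after multiplication by
an integral power of the uniformiser `ϖ` of `A^Γ`. -/
theorem exists_zpow_smul_valuation_eq_one {f : F} (hf0 : f ≠ 0) (hf : IsFixed Γ f) :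
    ∃ m : ℤ, O.valuation (((ϖ : K) ^ m) • f) = 1 := by
  obtain ⟨c, hc0, hcfix, hval⟩ := hscal f hf0 hf
  obtain ⟨m, u, hu, hui, hufix, hcu⟩ := hU.exists_unit_mul_zpow hrk hc0 hcfix
  have hu0 : u ≠ 0 := by
    rintro rfl
    rw [zero_mul] at hcu
    exact hc0 hcu
  refine ⟨m, ?_⟩
  have h1 : c • f = algebraMap K F u * (((ϖ : K) ^ m) • f) := by
    rw [hcu, Algebra.smul_def, Algebra.smul_def, map_mul, mul_assoc]
  rw [h1, map_mul, valuation_algebraMap_eq_one hAO hu0 hu hui, one_mul] at hval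
  exact hval

/-- every fixed `f ≠ 0` has an order relative to `ϖ`. -/
theorem hasOrd_of_fixed {f : F} (hf0 : f ≠ 0) (hf : IsFixed Γ f) :
    HasOrd O (algebraMap K F (ϖ : K)) f := by
  obtain ⟨m, hm⟩ := exists_zpow_smul_valuation_eq_one hU hrk hAO hscal hf0 hf
  refine ⟨-m, ?_⟩
  rw [zpow_smul_eq, map_mul, map_zpow₀] at hm
  have h0 : O.valuation (algebraMap K F (ϖ : K)) ^ m ≠ 0 :=
    zpow_ne_zero m (valuation_pos ((map_ne_zero _).mpr hU.coe_ne_zero)).ne'
  rw [zpow_neg]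
  exact eq_inv_of_mul_eq_one_right hm

/-- the exponent of (A2) is `- ord f`; in particular it is unique. -/
theorem eq_neg_ordAt_of_valuation_eq_one (hlt : O.valuation (algebraMap K F (ϖ : K)) < 1)
    {f : F} {m : ℤ} (hm : O.valuation (((ϖ : K) ^ m) • f) = 1) :
    m = -ordAt O (algebraMap K F (ϖ : K)) f := by
  have ht0 : algebraMap K F (ϖ : K) ≠ 0 := (map_ne_zero _).mpr hU.coe_ne_zero
  rw [zpow_smul_eq, map_mul, map_zpow₀] at hm
  have h1 : O.valuation f = O.valuation (algebraMap K F (ϖ : K)) ^ (-m) := by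
    rw [zpow_neg]
    exact eq_inv_of_mul_eq_one_right hm
  rw [ordAt_eq_of_eq ht0 hlt h1, neg_neg]

/-- **(A2), normalised form**: `v (ϖ ^ (- ord f) • f) = 1`. -/
theorem valuation_zpow_neg_ordAt_smul {f : F} (hf0 : f ≠ 0) (hf : IsFixed Γ f) :
    O.valuation (((ϖ : K) ^ (-ordAt O (algebraMap K F (ϖ : K)) f)) • f) = 1 := by
  have h := hasOrd_of_fixed hU hrk hAO hscal hf0 hf
  rw [zpow_smul_eq, map_mul, map_zpow₀, h.valuation_eq, ← zpow_add₀
    (valuation_pos ((map_ne_zero _).mpr hU.coe_ne_zero)).ne', neg_add_cancel, zpow_zero]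

/-- **(A4)** a fixed function of valuation `< 1` is `ϖ` times a fixed function of `O`
(`O` lies over `A`: `v ϖ < 1`). -/
theorem exists_eq_unif_smul_of_valuation_lt_one
    (hlt : O.valuation (algebraMap K F (ϖ : K)) < 1)
    {f : F} (hf : IsFixed Γ f) (hval : O.valuation f < 1) :
    ∃ g : F, g ∈ O ∧ IsFixed Γ g ∧ f = (ϖ : K) • g := by
  by_cases hf0 : f = 0
  · exact ⟨0, O.zero_mem, IsFixed.zero, by rw [hf0, smul_zero]⟩
  have ht0 : algebraMap K F (ϖ : K) ≠ 0 := (map_ne_zero _).mpr hU.coe_ne_zero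
  have h := hasOrd_of_fixed hU hrk hAO hscal hf0 hf
  have hpos : (1 : ℤ) ≤ ordAt O (algebraMap K F (ϖ : K)) f :=
    (ordAt_pos_iff ht0 hlt h).mpr hval
  have hmem := div_zpow_mem_of_le ht0 hlt h hpos
  rw [zpow_one] at hmem
  refine ⟨(ϖ : K)⁻¹ • f, ?_, IsFixed.smul hU.fixed.inv hf, ?_⟩
  · rw [Algebra.smul_def, map_inv₀, mul_comm, ← div_eq_mul_inv]
    exact hmem
  · rw [smul_smul, mul_inv_cancel₀ hU.coe_ne_zero, one_smul]

omit hscal in
/-- the order of a fixed constant `c = u ϖ ^ m` is `m`, at every valuation subring over `A`. -/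
theorem ordAt_algebraMap_of_eq (hlt : O.valuation (algebraMap K F (ϖ : K)) < 1)
    {c u : K} {m : ℤ} (hu0 : u ≠ 0) (hu : u ∈ A) (hui : u⁻¹ ∈ A) (hc : c = u * (ϖ : K) ^ m) :
    ordAt O (algebraMap K F (ϖ : K)) (algebraMap K F c) = m := by
  have ht0 : algebraMap K F (ϖ : K) ≠ 0 := (map_ne_zero _).mpr hU.coe_ne_zero
  apply ordAt_eq_of_eq ht0 hlt
  rw [hc, map_mul, map_zpow₀, map_mul, valuation_algebraMap_eq_one hAO hu0 hu hui, one_mul,
    map_zpow₀]

omit hscal in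
/-- the order of a fixed constant does not depend on the valuation subring over `A`. -/
theorem ordAt_algebraMap_eq {O' : ValuationSubring F} (hAO' : ∀ a : A, algebraMap K F a ∈ O')
    (hlt : O.valuation (algebraMap K F (ϖ : K)) < 1)
    (hlt' : O'.valuation (algebraMap K F (ϖ : K)) < 1)
    {c : K} (hc0 : c ≠ 0) (hc : IsFixedK Γ c) :
    ordAt O (algebraMap K F (ϖ : K)) (algebraMap K F c) =
      ordAt O' (algebraMap K F (ϖ : K)) (algebraMap K F c) := by
  obtain ⟨m, u, hu, hui, hufix, hcu⟩ := hU.exists_unit_mul_zpow hrk hc0 hc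
  have hu0 : u ≠ 0 := by
    rintro rfl
    rw [zero_mul] at hcu
    exact hc0 hcu
  rw [ordAt_algebraMap_of_eq hU hrk hAO hlt hu0 hu hui hcu,
    ordAt_algebraMap_of_eq hU hrk hAO' hlt' hu0 hu hui hcu]

omit hscal in
/-- fixed constants have an order. -/
theorem hasOrd_algebraMap {c : K} (hc0 : c ≠ 0) (hc : IsFixedK Γ c) :
    HasOrd O (algebraMap K F (ϖ : K)) (algebraMap K F c) := by
  obtain ⟨m, u, hu, hui, hufix, hcu⟩ := hU.exists_unit_mul_zpow hrk hc0 hc
  have hu0 : u ≠ 0 := by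
    rintro rfl
    rw [zero_mul] at hcu
    exact hc0 hcu
  exact ⟨m, by
    rw [hcu, map_mul, map_zpow₀, map_mul, valuation_algebraMap_eq_one hAO hu0 hu hui, one_mul,
      map_zpow₀]⟩

end Fixed

/-! ### (B1) `ker (res | B_0) = ϖ B_0` for the fixed parts of the chart rings -/

section Charts

open Fermat.Agent.S34x Fermat.Agent.S34x.C0two Fermat.Agent.S34x.Lattice2
open Fermat.Agent.S33x.H1.InstC1
open Fermat.Agent.S33x.W.InstW (fixedAlg mem_fixedAlg)

variable {K : Type*} [Field K] {A : ValuationSubring K} {F : Type*} [Field F] [Algebra K F]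
  {S : SmallRing F} {k κ : Type*} [Field k] [CommRing κ] [Algebra k κ]
  {R : RedSetup2 A S k κ} (C : ChartCoord R) {Γ : Set (SemilinearAut K F)} {ϖ : A}

/-- the two copies of `FixData2` (`S33x/W/LatticeFixed2`, `S33x/H1/LatticeFixed2`) agree. -/
theorem fixData2_of_W (hD : Fermat.Agent.S33x.W.LatticeFixed2.FixData2 R Γ) :
    Fermat.Agent.S33x.H1.LatticeFixed2.FixData2 R Γ :=
  ⟨hD.residue_surj, hD.unif, hD.scal_fixed⟩

/-- a uniformiser as in the field `unif` of `FixData2`. -/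
theorem exists_isUnif (hD : Fermat.Agent.S33x.H1.LatticeFixed2.FixData2 R Γ) :
    ∃ ϖ : A, IsUnif Γ ϖ := by
  obtain ⟨ϖ, h1, h2, h3, h4⟩ := hD.unif
  exact ⟨ϖ, h1, h2, h3, h4⟩

variable (hD : Fermat.Agent.S33x.H1.LatticeFixed2.FixData2 R Γ) (hU : IsUnif Γ ϖ)
include hD hU

/-- **(B1), level form**: a fixed element of `Lam(a,b) = L(a C₀ + b C∞) ∩ S.O` with zero reduction is
`ϖ` times a fixed element of `Lam(a,b)`. -/
theorem exists_eq_unif_smul_Lam {a b : ℕ} {x : F} (hx : x ∈ Lam C a b) (hfix : IsFixed Γ x)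
    (h0 : R.res ⟨x, hx.2⟩ = 0) :
    ∃ y : F, y ∈ Lam C a b ∧ IsFixed Γ y ∧ x = (ϖ : K) • y := by
  obtain ⟨g, hgV, hgO, hgfix, hg⟩ :=
    hD.exists_eq_unif_smul_mem hU.fixed hU.ne_zero hU.dvd (C.LN a b) hx.1 hx.2 hfix h0
  exact ⟨g, ⟨hgV, hgO⟩, hgfix, hg⟩

omit hD in
/-- conversely `ϖ S.O` reduces to zero. -/
theorem res_unif_smul_eq_zero {y : F} (hy : y ∈ S.O) :
    R.res ⟨(ϖ : K) • y, R.smul_mem_O ϖ hy⟩ = 0 :=
  Fermat.Agent.S33x.H1.InstBBasic.res_smul_eq_zero (R := R) hU.mem hy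

/-- **(B1)** for the overlap ring `Bx` of `H1/InstBBasic`: `ker (res | Bx^Γ) = ϖ Bx^Γ`. -/
theorem ker_res_fixedAlg_BxB {x : F}
    (hx : x ∈ fixedAlg Γ (Fermat.Agent.S33x.H1.InstBBasic.BxAlg C))
    (h0 : R.res ⟨x, Fermat.Agent.S33x.H1.InstBBasic.BxAlg_le_O C hx.1⟩ = 0) :
    ∃ y ∈ fixedAlg Γ (Fermat.Agent.S33x.H1.InstBBasic.BxAlg C), x = (ϖ : K) • y := by
  obtain ⟨a, b, hab⟩ := hx.1
  obtain ⟨y, hy, hyfix, hxy⟩ := exists_eq_unif_smul_Lam C hD hU hab hx.2 h0
  exact ⟨y, ⟨⟨a, b, hy⟩, hyfix⟩, hxy⟩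

/-- **(B1)** for the chart ring `B∞` of `H1/InstBBasic`. -/
theorem ker_res_fixedAlg_BooB {x : F}
    (hx : x ∈ fixedAlg Γ (Fermat.Agent.S33x.H1.InstBBasic.BooAlg C))
    (h0 : R.res ⟨x, Fermat.Agent.S33x.H1.InstBBasic.BxAlg_le_O C
      (Fermat.Agent.S33x.H1.InstBBasic.BooAlg_le_BxAlg C hx.1)⟩ = 0) :
    ∃ y ∈ fixedAlg Γ (Fermat.Agent.S33x.H1.InstBBasic.BooAlg C), x = (ϖ : K) • y := by
  obtain ⟨b, hb⟩ := hx.1
  obtain ⟨y, hy, hyfix, hxy⟩ := exists_eq_unif_smul_Lam C hD hU hb hx.2 h0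
  exact ⟨y, ⟨⟨b, hy⟩, hyfix⟩, hxy⟩

/-- **(B1)** for the chart ring `B₀` of `H1/InstBBasic`. -/
theorem ker_res_fixedAlg_BzeroB {x : F}
    (hx : x ∈ fixedAlg Γ (Fermat.Agent.S33x.H1.InstBBasic.BzeroAlg C))
    (h0 : R.res ⟨x, Fermat.Agent.S33x.H1.InstBBasic.BxAlg_le_O C
      (Fermat.Agent.S33x.H1.InstBBasic.BzeroAlg_le_BxAlg C hx.1)⟩ = 0) :
    ∃ y ∈ fixedAlg Γ (Fermat.Agent.S33x.H1.InstBBasic.BzeroAlg C), x = (ϖ : K) • y := by
  obtain ⟨a, ha⟩ := hx.1
  obtain ⟨y, hy, hyfix, hxy⟩ := exists_eq_unif_smul_Lam C hD hU ha hx.2 h0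
  exact ⟨y, ⟨⟨a, hy⟩, hyfix⟩, hxy⟩

/-- **(B1)** for the overlap ring `Bx` of `H1/InstC4`. -/
theorem ker_res_fixedAlg_BxC {x : F}
    (hx : x ∈ fixedAlg Γ (Fermat.Agent.S33x.H1.InstC4.BxAlg C))
    (h0 : R.res ⟨x, Fermat.Agent.S33x.H1.InstC4.mem_O_of_mem_BxAlg C hx.1⟩ = 0) :
    ∃ y ∈ fixedAlg Γ (Fermat.Agent.S33x.H1.InstC4.BxAlg C), x = (ϖ : K) • y := by
  obtain ⟨a, b, hab⟩ := (Fermat.Agent.S33x.H1.InstC4.mem_BxAlg' C).mp hx.1
  obtain ⟨y, hy, hyfix, hxy⟩ := exists_eq_unif_smul_Lam C hD hU hab hx.2 h0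
  exact ⟨y, ⟨(Fermat.Agent.S33x.H1.InstC4.mem_BxAlg' C).mpr ⟨a, b, hy⟩, hyfix⟩, hxy⟩

/-- **(B1)** for the chart ring `B∞` of `H1/InstC4`. -/
theorem ker_res_fixedAlg_BooC {x : F}
    (hx : x ∈ fixedAlg Γ (Fermat.Agent.S33x.H1.InstC4.BooAlg C))
    (h0 : R.res ⟨x, Fermat.Agent.S33x.H1.InstC4.mem_O_of_mem_BxAlg C
      (Fermat.Agent.S33x.H1.InstC4.BooAlg_le C hx.1)⟩ = 0) :
    ∃ y ∈ fixedAlg Γ (Fermat.Agent.S33x.H1.InstC4.BooAlg C), x = (ϖ : K) • y := by
  obtain ⟨b, hb⟩ := (Fermat.Agent.S33x.H1.InstC4.mem_BooAlg C).mp hx.1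
  obtain ⟨y, hy, hyfix, hxy⟩ := exists_eq_unif_smul_Lam C hD hU hb hx.2 h0
  exact ⟨y, ⟨(Fermat.Agent.S33x.H1.InstC4.mem_BooAlg C).mpr ⟨b, hy⟩, hyfix⟩, hxy⟩

/-- **(B1)** for the chart ring `B₀` of `H1/InstC4`. -/
theorem ker_res_fixedAlg_BzeroC {x : F}
    (hx : x ∈ fixedAlg Γ (Fermat.Agent.S33x.H1.InstC4.BzeroAlg C))
    (h0 : R.res ⟨x, Fermat.Agent.S33x.H1.InstC4.mem_O_of_mem_BxAlg C
      (Fermat.Agent.S33x.H1.InstC4.BzeroAlg_le C hx.1)⟩ = 0) :
    ∃ y ∈ fixedAlg Γ (Fermat.Agent.S33x.H1.InstC4.BzeroAlg C), x = (ϖ : K) • y := by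
  obtain ⟨a, ha⟩ := (Fermat.Agent.S33x.H1.InstC4.mem_BzeroAlg C).mp hx.1
  obtain ⟨y, hy, hyfix, hxy⟩ := exists_eq_unif_smul_Lam C hD hU ha hx.2 h0
  exact ⟨y, ⟨(Fermat.Agent.S33x.H1.InstC4.mem_BzeroAlg C).mpr ⟨a, hy⟩, hyfix⟩, hxy⟩

omit hD in
/-- **(B1), divisibility form**: in the ring `B^Γ` (`B` any `A`-subalgebra of `F`), an element which
is `ϖ` times an element of `B^Γ` is divisible by (the image of) `ϖ`. -/
theorem unif_dvd_of_eq_smul {B : Subalgebra A F} {b y : fixedAlg Γ B}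
    (h : (b : F) = (ϖ : K) • (y : F)) :
    algebraMap (Fermat.Agent.S33x.H1.FixedDecomp.fixedSubring (A := A) Γ) (fixedAlg Γ B)
      ⟨ϖ, hU.fixed⟩ ∣ b :=
  ⟨y, Subtype.ext (by
    rw [h]
    show (ϖ : K) • (y : F) = algebraMap K F (ϖ : K) * (y : F)
    rw [Algebra.smul_def])⟩

omit hD in
/-- the same with a natural number `p` such that `ϖ = p`. -/
theorem natCast_dvd_of_eq_smul {B : Subalgebra A F} {p : ℕ} (hp : (ϖ : K) = (p : K))
    {b y : fixedAlg Γ B} (h : (b : F) = (ϖ : K) • (y : F)) :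
    ((p : ℕ) : fixedAlg Γ B) ∣ b :=
  ⟨y, Subtype.ext (by
    rw [h, hp]
    show (p : K) • (y : F) = ((p : ℕ) : F) * (y : F)
    rw [Algebra.smul_def, map_natCast])⟩

/-- **(UNRAM) for the chart `t ≠ ∞`** (`B∞` of `H1/InstC4`), divisibility form: an element of
`B_0 = (B∞)^Γ` with zero reduction is divisible by `ϖ` in `B_0`. -/
theorem unif_dvd_of_res_eq_zero_BooC (b : fixedAlg Γ (Fermat.Agent.S33x.H1.InstC4.BooAlg C))
    (h0 : R.res ⟨(b : F), Fermat.Agent.S33x.H1.InstC4.mem_O_of_mem_BxAlg C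
      (Fermat.Agent.S33x.H1.InstC4.BooAlg_le C b.2.1)⟩ = 0) :
    algebraMap (Fermat.Agent.S33x.H1.FixedDecomp.fixedSubring (A := A) Γ)
      (fixedAlg Γ (Fermat.Agent.S33x.H1.InstC4.BooAlg C)) ⟨ϖ, hU.fixed⟩ ∣ b := by
  obtain ⟨y, hy, hxy⟩ := ker_res_fixedAlg_BooC C hD hU b.2 h0
  exact unif_dvd_of_eq_smul hU (y := ⟨y, hy⟩) hxy

/-- **(UNRAM) for the chart `t ≠ ∞`**, with `ϖ = p` a natural number: `p ∣ b` in `B_0`. -/
theorem natCast_dvd_of_res_eq_zero_BooC {p : ℕ} (hp : (ϖ : K) = (p : K))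
    (b : fixedAlg Γ (Fermat.Agent.S33x.H1.InstC4.BooAlg C))
    (h0 : R.res ⟨(b : F), Fermat.Agent.S33x.H1.InstC4.mem_O_of_mem_BxAlg C
      (Fermat.Agent.S33x.H1.InstC4.BooAlg_le C b.2.1)⟩ = 0) :
    ((p : ℕ) : fixedAlg Γ (Fermat.Agent.S33x.H1.InstC4.BooAlg C)) ∣ b := by
  obtain ⟨y, hy, hxy⟩ := ker_res_fixedAlg_BooC C hD hU b.2 h0
  exact natCast_dvd_of_eq_smul hU hp (y := ⟨y, hy⟩) hxy

omit hD in
/-- conversely, a multiple of `ϖ` in `B_0` has zero reduction. -/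
theorem res_eq_zero_of_unif_dvd_BooC (b : fixedAlg Γ (Fermat.Agent.S33x.H1.InstC4.BooAlg C))
    (h : algebraMap (Fermat.Agent.S33x.H1.FixedDecomp.fixedSubring (A := A) Γ)
      (fixedAlg Γ (Fermat.Agent.S33x.H1.InstC4.BooAlg C)) ⟨ϖ, hU.fixed⟩ ∣ b) :
    R.res ⟨(b : F), Fermat.Agent.S33x.H1.InstC4.mem_O_of_mem_BxAlg C
      (Fermat.Agent.S33x.H1.InstC4.BooAlg_le C b.2.1)⟩ = 0 := by
  obtain ⟨y, rfl⟩ := h
  have hyO : (y : F) ∈ S.O := Fermat.Agent.S33x.H1.InstC4.mem_O_of_mem_BxAlg C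
    (Fermat.Agent.S33x.H1.InstC4.BooAlg_le C y.2.1)
  have h1 := res_unif_smul_eq_zero (R := R) hU hyO
  have h2 : (ϖ : K) • (y : F) = ((algebraMap
      (Fermat.Agent.S33x.H1.FixedDecomp.fixedSubring (A := A) Γ)
      (fixedAlg Γ (Fermat.Agent.S33x.H1.InstC4.BooAlg C)) ⟨ϖ, hU.fixed⟩ * y :
        fixedAlg Γ (Fermat.Agent.S33x.H1.InstC4.BooAlg C)) : F) := by
    show (ϖ : K) • (y : F) = algebraMap K F (ϖ : K) * (y : F)
    rw [Algebra.smul_def]
  have h3 : (⟨(ϖ : K) • (y : F), R.smul_mem_O ϖ hyO⟩ : S.O) =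
      ⟨((algebraMap (Fermat.Agent.S33x.H1.FixedDecomp.fixedSubring (A := A) Γ)
        (fixedAlg Γ (Fermat.Agent.S33x.H1.InstC4.BooAlg C)) ⟨ϖ, hU.fixed⟩ * y :
          fixedAlg Γ (Fermat.Agent.S33x.H1.InstC4.BooAlg C)) : F),
        Fermat.Agent.S33x.H1.InstC4.mem_O_of_mem_BxAlg C
          (Fermat.Agent.S33x.H1.InstC4.BooAlg_le C (_ : fixedAlg Γ _).2.1)⟩ :=
    Subtype.ext h2
  rw [← h3]
  exact h1

end Charts

/-! ### One valuation: the package for a reduction set-up `Gateway.C0.RedSetup` -/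

section OneVal

open Fermat.Agent.Gateway.C0

variable {K : Type*} [Field K] {A : ValuationSubring K} {F : Type*} [Field F] [Algebra K F]
  {O : ValuationSubring F} {k κ : Type*} [Field k] [Field κ] [Algebra k κ]
  (R : RedSetup A O k κ) {Γ : Set (SemilinearAut K F)} {ϖ : A}

include R in
/-- `v ϖ < 1` for a reduction set-up. -/
theorem valuation_unif_lt_one (hU : IsUnif Γ ϖ) : O.valuation (algebraMap K F (ϖ : K)) < 1 :=
  R.base.algebraMap_lt ϖ hU.mem

/-- a uniformiser as in the field `unif` of `FixData`. -/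
theorem exists_isUnif_of_fixData (hD : Fermat.Agent.S19x.Geo.LatticeFixed.FixData R Γ) :
    ∃ ϖ : A, IsUnif Γ ϖ := by
  obtain ⟨ϖ, h1, h2, h3, h4⟩ := hD.unif
  exact ⟨ϖ, h1, h2, h3, h4⟩

/-- **value group `ℤ`** for `FixData` (one valuation, e.g. the good level). -/
theorem hasOrd_of_fixData (hD : Fermat.Agent.S19x.Geo.LatticeFixed.FixData R Γ) (hU : IsUnif Γ ϖ)
    {f : F} (hf0 : f ≠ 0) (hf : IsFixed Γ f) : HasOrd O (algebraMap K F (ϖ : K)) f :=
  hasOrd_of_fixed hU R.rank_one R.algebraMap_mem hD.scal_fixed hf0 hf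

end OneVal

/-! ### (C) the concrete level `M q` over `Qbar` -/

section Concrete

open ModularCurve
open Fermat.Agent.Gateway.Hecke Fermat.Agent.S34x.TwoVal Fermat.Agent.S34x.Inst.RedSetupInst
open Fermat.Agent.S33x.H1.FixData2Inst
open Fermat.Agent.S56x.Flat.InertiaField Fermat.Agent.S19x.Hens.InertiaResidue
open Fermat.Agent.S34x.TwoVal.ResidueInst

local notation "Qbar" => AlgebraicClosure ℚ

/-- the rational prime `q` as an element of `P`. -/
def primeElt (P : ValuationSubring Qbar) (q : ℕ) : P :=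
  ⟨(q : Qbar), (natCast_mem_inertiaInt P (ℓ := q)).1⟩

@[simp] theorem coe_primeElt (P : ValuationSubring Qbar) (q : ℕ) :
    ((primeElt P q : P) : Qbar) = (q : Qbar) := rfl

/-- **`q` is a uniformiser of the ring of integers of the inertia field**, in the vocabulary
`IsUnif` (any level `N`). -/
theorem isUnif_primeElt (P : ValuationSubring Qbar) {q : ℕ} (hq : q.Prime)
    (hA : P.LiesOverPrime q) (N : ℕ) : IsUnif (inertiaAct P N) (primeElt P q) where
  mem := by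
    rw [← ValuationSubring.coe_mem_nonunits_iff]
    exact hA
  ne_zero := fun h => natCast_ne_zero_Qbar P hq hA (congrArg (fun z : P => (z : Qbar)) h)
  fixed := isFixedK_of_mem_inertiaInt (inertiaAct P N) (inertiaAct_baseAut P N)
    (natCast_mem_inertiaInt P)
  dvd := by
    intro c hc hcm
    rw [← ValuationSubring.coe_mem_nonunits_iff] at hcm
    obtain ⟨d, hd, hcd⟩ := exists_eq_natCast_mul_of_fixed P hq hA hcm
      (fixed_of_isFixedK (inertiaAct P N) (inertiaAct_baseAut' P N) hc)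
    exact ⟨⟨d, hd.1⟩, Subtype.ext hcd⟩

variable (P : ValuationSubring Qbar) {k : Type} [Field k] (π : P →+* k) [IsAlgClosed k]
variable (M q : ℕ) [NeZero M] [Fact q.Prime] [CharP k q]
variable (hdeg : finrankAlong Qbar (heckeAlphaBar Qbar M q) = q + 1) (hq : q.Prime)
  (hqM : ¬ q ∣ M)
variable (hrk : ∀ x ∈ maximalIdeal P, ∀ c : P, c ≠ 0 → ∃ j : ℕ, c ∣ x ^ j)
  (hπ : Function.Surjective π)

/-- the constant `q` of the function field of level `M q`. -/
abbrev qF : FL Qbar (M * q) := algebraMap Qbar (FL Qbar (M * q)) (q : Qbar)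

/-- `v_∞ (f) ∈ ℤ`: the order at the Gauss valuation `valInfty`, normalised by `v_∞ (q) = 1`. -/
def vInf (f : FL Qbar (M * q)) : ℤ := ordAt (valInfty P π M q hrk hπ hqM) (qF M q) f

/-- `v_0 (f) ∈ ℤ`: the order at the Gauss valuation `valZero`, normalised by `v_0 (q) = 1`. -/
def vZero (f : FL Qbar (M * q)) : ℤ := ordAt (valZero P π M q hdeg hq hqM hrk hπ) (qF M q) f

include hq in
theorem qF_ne_zero : qF M q ≠ 0 :=
  (map_ne_zero _).mpr (Nat.cast_ne_zero.mpr hq.ne_zero)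

include hdeg hq in
theorem valInfty_qF_lt_one : (valInfty P π M q hrk hπ hqM).valuation (qF M q) < 1 := by
  have h := valuation_unif_lt_one (ϖ := primeElt P q)
    (redSetupInfty (residueFacts P π M q hdeg hq hqM hrk hπ) (liesOverPrime P π q hπ))
    (isUnif_primeElt P hq (liesOverPrime P π q hπ) (M * q))
  exact h

theorem valZero_qF_lt_one : (valZero P π M q hdeg hq hqM hrk hπ).valuation (qF M q) < 1 := by
  have h := valuation_unif_lt_one (ϖ := primeElt P q)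
    (redSetupZero (residueFacts P π M q hdeg hq hqM hrk hπ) (liesOverPrime P π q hπ))
    (isUnif_primeElt P hq (liesOverPrime P π q hπ) (M * q))
  exact h

include hdeg hq in
/-- **(C1) at `∞`**: an inertia-fixed function `f ≠ 0` of level `M q` becomes a unit of `valInfty`
after multiplication by an integral power of `q`. -/
theorem exists_zpow_valInfty_eq_one {f : FL Qbar (M * q)} (hf0 : f ≠ 0)
    (hf : IsFixed (inertiaAct P (M * q)) f) :
    ∃ m : ℤ, (valInfty P π M q hrk hπ hqM).valuation (((q : Qbar) ^ m) • f) = 1 :=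
  exists_zpow_smul_valuation_eq_one (ϖ := primeElt P q)
    (isUnif_primeElt P hq (liesOverPrime P π q hπ) (M * q)) hrk
    (redSetupInfty (residueFacts P π M q hdeg hq hqM hrk hπ)
      (liesOverPrime P π q hπ)).algebraMap_mem
    (fun g hg hgfix => Fermat.Agent.S33x.W.ScalFixed2B.scal_fixed_infty P π M q hdeg hq hqM hrk hπ
      (P.inertiaSubgroupIn ℚ : Set (Qbar ≃ₐ[ℚ] Qbar)) g hg hgfix) hf0 hf

/-- **(C1) at `0`**: an inertia-fixed function `f ≠ 0` of level `M q` becomes a unit of `valZero`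
after multiplication by an integral power of `q`. -/
theorem exists_zpow_valZero_eq_one {f : FL Qbar (M * q)} (hf0 : f ≠ 0)
    (hf : IsFixed (inertiaAct P (M * q)) f) :
    ∃ m : ℤ, (valZero P π M q hdeg hq hqM hrk hπ).valuation (((q : Qbar) ^ m) • f) = 1 :=
  exists_zpow_smul_valuation_eq_one (ϖ := primeElt P q)
    (isUnif_primeElt P hq (liesOverPrime P π q hπ) (M * q)) hrk
    (redSetupZero (residueFacts P π M q hdeg hq hqM hrk hπ)
      (liesOverPrime P π q hπ)).algebraMap_mem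
    (fun g hg hgfix => Fermat.Agent.S33x.W.ScalFixed2B.scal_fixed_zero P π M q hdeg hq hqM hrk hπ
      (P.inertiaSubgroupIn ℚ : Set (Qbar ≃ₐ[ℚ] Qbar)) g hg hgfix) hf0 hf

/-! #### (C2) the calculus of `vInf`, `vZero` on the inertia-fixed functions -/

include hdeg hq in
theorem hasOrd_vInf {f : FL Qbar (M * q)} (hf0 : f ≠ 0) (hf : IsFixed (inertiaAct P (M * q)) f) :
    HasOrd (valInfty P π M q hrk hπ hqM) (qF M q) f := by
  obtain ⟨m, hm⟩ := exists_zpow_valInfty_eq_one P π M q hdeg hq hqM hrk hπ hf0 hf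
  refine ⟨-m, ?_⟩
  have h1 : ((q : Qbar) ^ m) • f = (qF M q) ^ m * f := by
    rw [Algebra.smul_def, map_zpow₀]
  rw [h1, map_mul, map_zpow₀] at hm
  rw [zpow_neg]
  exact eq_inv_of_mul_eq_one_right hm

theorem hasOrd_vZero {f : FL Qbar (M * q)} (hf0 : f ≠ 0) (hf : IsFixed (inertiaAct P (M * q)) f) :
    HasOrd (valZero P π M q hdeg hq hqM hrk hπ) (qF M q) f := by
  obtain ⟨m, hm⟩ := exists_zpow_valZero_eq_one P π M q hdeg hq hqM hrk hπ hf0 hf
  refine ⟨-m, ?_⟩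
  have h1 : ((q : Qbar) ^ m) • f = (qF M q) ^ m * f := by
    rw [Algebra.smul_def, map_zpow₀]
  rw [h1, map_mul, map_zpow₀] at hm
  rw [zpow_neg]
  exact eq_inv_of_mul_eq_one_right hm

section API

variable {f g : FL Qbar (M * q)} (hf0 : f ≠ 0) (hf : IsFixed (inertiaAct P (M * q)) f)
  (hg0 : g ≠ 0) (hg : IsFixed (inertiaAct P (M * q)) g)

include hdeg hq hf0 hf in
/-- `v_∞ f = (v_∞ q) ^ (vInf f)`. -/
theorem valInfty_valuation_eq :
    (valInfty P π M q hrk hπ hqM).valuation f =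
      (valInfty P π M q hrk hπ hqM).valuation (qF M q) ^ vInf P π M q hqM hrk hπ f :=
  (hasOrd_vInf P π M q hdeg hq hqM hrk hπ hf0 hf).valuation_eq

include hf0 hf in
/-- `v_0 f = (v_0 q) ^ (vZero f)`. -/
theorem valZero_valuation_eq :
    (valZero P π M q hdeg hq hqM hrk hπ).valuation f =
      (valZero P π M q hdeg hq hqM hrk hπ).valuation (qF M q) ^
        vZero P π M q hdeg hq hqM hrk hπ f :=
  (hasOrd_vZero P π M q hdeg hq hqM hrk hπ hf0 hf).valuation_eq

include hdeg hq hf0 hf in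
/-- **normalised form at `∞`**: `f / q ^ (v_∞ f)` is a unit of `valInfty`. -/
theorem valInfty_zpow_neg_vInf_smul :
    (valInfty P π M q hrk hπ hqM).valuation
      (((q : Qbar) ^ (-vInf P π M q hqM hrk hπ f)) • f) = 1 := by
  have h := hasOrd_vInf P π M q hdeg hq hqM hrk hπ hf0 hf
  have h1 : ((q : Qbar) ^ (-vInf P π M q hqM hrk hπ f)) • f =
      (qF M q) ^ (-vInf P π M q hqM hrk hπ f) * f := by
    rw [Algebra.smul_def, map_zpow₀]
  rw [h1, map_mul, map_zpow₀, h.valuation_eq]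
  show _ ^ (-ordAt _ _ f) * _ ^ (ordAt _ _ f) = 1
  rw [← zpow_add₀ (valuation_pos (qF_ne_zero M q hq)).ne', neg_add_cancel, zpow_zero]

include hf0 hf in
/-- **normalised form at `0`**: `f / q ^ (v_0 f)` is a unit of `valZero`. -/
theorem valZero_zpow_neg_vZero_smul :
    (valZero P π M q hdeg hq hqM hrk hπ).valuation
      (((q : Qbar) ^ (-vZero P π M q hdeg hq hqM hrk hπ f)) • f) = 1 := by
  have h := hasOrd_vZero P π M q hdeg hq hqM hrk hπ hf0 hf
  have h1 : ((q : Qbar) ^ (-vZero P π M q hdeg hq hqM hrk hπ f)) • f =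
      (qF M q) ^ (-vZero P π M q hdeg hq hqM hrk hπ f) * f := by
    rw [Algebra.smul_def, map_zpow₀]
  rw [h1, map_mul, map_zpow₀, h.valuation_eq]
  show _ ^ (-ordAt _ _ f) * _ ^ (ordAt _ _ f) = 1
  rw [← zpow_add₀ (valuation_pos (qF_ne_zero M q hq)).ne', neg_add_cancel, zpow_zero]

include hdeg hq in
/-- uniqueness of the exponent at `∞`. -/
theorem eq_neg_vInf_of_valInfty_eq_one {m : ℤ}
    (hm : (valInfty P π M q hrk hπ hqM).valuation (((q : Qbar) ^ m) • f) = 1) :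
    m = -vInf P π M q hqM hrk hπ f := by
  have ht0 := qF_ne_zero M q hq
  have hlt := valInfty_qF_lt_one P π M q hdeg hq hqM hrk hπ
  have h1 : ((q : Qbar) ^ m) • f = (qF M q) ^ m * f := by
    rw [Algebra.smul_def, map_zpow₀]
  rw [h1, map_mul, map_zpow₀] at hm
  have h2 : (valInfty P π M q hrk hπ hqM).valuation f =
      (valInfty P π M q hrk hπ hqM).valuation (qF M q) ^ (-m) := by
    rw [zpow_neg]
    exact eq_inv_of_mul_eq_one_right hm
  show m = -ordAt _ _ f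
  rw [ordAt_eq_of_eq ht0 hlt h2, neg_neg]

/-- uniqueness of the exponent at `0`. -/
theorem eq_neg_vZero_of_valZero_eq_one {m : ℤ}
    (hm : (valZero P π M q hdeg hq hqM hrk hπ).valuation (((q : Qbar) ^ m) • f) = 1) :
    m = -vZero P π M q hdeg hq hqM hrk hπ f := by
  have ht0 := qF_ne_zero M q hq
  have hlt := valZero_qF_lt_one P π M q hdeg hq hqM hrk hπ
  have h1 : ((q : Qbar) ^ m) • f = (qF M q) ^ m * f := by
    rw [Algebra.smul_def, map_zpow₀]
  rw [h1, map_mul, map_zpow₀] at hm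
  have h2 : (valZero P π M q hdeg hq hqM hrk hπ).valuation f =
      (valZero P π M q hdeg hq hqM hrk hπ).valuation (qF M q) ^ (-m) := by
    rw [zpow_neg]
    exact eq_inv_of_mul_eq_one_right hm
  show m = -ordAt _ _ f
  rw [ordAt_eq_of_eq ht0 hlt h2, neg_neg]

include hdeg hq in
theorem vInf_qF : vInf P π M q hqM hrk hπ (qF M q) = 1 :=
  ordAt_self (qF_ne_zero M q hq) (valInfty_qF_lt_one P π M q hdeg hq hqM hrk hπ)

theorem vZero_qF : vZero P π M q hdeg hq hqM hrk hπ (qF M q) = 1 :=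
  ordAt_self (qF_ne_zero M q hq) (valZero_qF_lt_one P π M q hdeg hq hqM hrk hπ)

include hdeg hq in
theorem vInf_one : vInf P π M q hqM hrk hπ (1 : FL Qbar (M * q)) = 0 :=
  ordAt_one (qF_ne_zero M q hq) (valInfty_qF_lt_one P π M q hdeg hq hqM hrk hπ)

theorem vZero_one : vZero P π M q hdeg hq hqM hrk hπ (1 : FL Qbar (M * q)) = 0 :=
  ordAt_one (qF_ne_zero M q hq) (valZero_qF_lt_one P π M q hdeg hq hqM hrk hπ)

include hdeg hq hf0 hf hg0 hg in
theorem vInf_mul : vInf P π M q hqM hrk hπ (f * g) =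
    vInf P π M q hqM hrk hπ f + vInf P π M q hqM hrk hπ g :=
  ordAt_mul (qF_ne_zero M q hq) (valInfty_qF_lt_one P π M q hdeg hq hqM hrk hπ)
    (hasOrd_vInf P π M q hdeg hq hqM hrk hπ hf0 hf) (hasOrd_vInf P π M q hdeg hq hqM hrk hπ hg0 hg)

include hf0 hf hg0 hg in
theorem vZero_mul : vZero P π M q hdeg hq hqM hrk hπ (f * g) =
    vZero P π M q hdeg hq hqM hrk hπ f + vZero P π M q hdeg hq hqM hrk hπ g :=
  ordAt_mul (qF_ne_zero M q hq) (valZero_qF_lt_one P π M q hdeg hq hqM hrk hπ)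
    (hasOrd_vZero P π M q hdeg hq hqM hrk hπ hf0 hf)
    (hasOrd_vZero P π M q hdeg hq hqM hrk hπ hg0 hg)

include hdeg hq hf0 hf in
theorem vInf_inv : vInf P π M q hqM hrk hπ f⁻¹ = -vInf P π M q hqM hrk hπ f :=
  ordAt_inv (qF_ne_zero M q hq) (valInfty_qF_lt_one P π M q hdeg hq hqM hrk hπ)
    (hasOrd_vInf P π M q hdeg hq hqM hrk hπ hf0 hf)

include hf0 hf in
theorem vZero_inv : vZero P π M q hdeg hq hqM hrk hπ f⁻¹ = -vZero P π M q hdeg hq hqM hrk hπ f :=
  ordAt_inv (qF_ne_zero M q hq) (valZero_qF_lt_one P π M q hdeg hq hqM hrk hπ)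
    (hasOrd_vZero P π M q hdeg hq hqM hrk hπ hf0 hf)

include hdeg hq hf0 hf in
theorem vInf_pow (n : ℕ) : vInf P π M q hqM hrk hπ (f ^ n) = n * vInf P π M q hqM hrk hπ f :=
  ordAt_pow (qF_ne_zero M q hq) (valInfty_qF_lt_one P π M q hdeg hq hqM hrk hπ)
    (hasOrd_vInf P π M q hdeg hq hqM hrk hπ hf0 hf) n

include hf0 hf in
theorem vZero_pow (n : ℕ) :
    vZero P π M q hdeg hq hqM hrk hπ (f ^ n) = n * vZero P π M q hdeg hq hqM hrk hπ f :=
  ordAt_pow (qF_ne_zero M q hq) (valZero_qF_lt_one P π M q hdeg hq hqM hrk hπ)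
    (hasOrd_vZero P π M q hdeg hq hqM hrk hπ hf0 hf) n

include hdeg hq hf0 hf in
/-- `0 ≤ v_∞ f ↔ f ∈ valInfty`. -/
theorem vInf_nonneg_iff : 0 ≤ vInf P π M q hqM hrk hπ f ↔ f ∈ valInfty P π M q hrk hπ hqM :=
  ordAt_nonneg_iff (qF_ne_zero M q hq) (valInfty_qF_lt_one P π M q hdeg hq hqM hrk hπ)
    (hasOrd_vInf P π M q hdeg hq hqM hrk hπ hf0 hf)

include hf0 hf in
/-- `0 ≤ v_0 f ↔ f ∈ valZero`. -/
theorem vZero_nonneg_iff :
    0 ≤ vZero P π M q hdeg hq hqM hrk hπ f ↔ f ∈ valZero P π M q hdeg hq hqM hrk hπ :=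
  ordAt_nonneg_iff (qF_ne_zero M q hq) (valZero_qF_lt_one P π M q hdeg hq hqM hrk hπ)
    (hasOrd_vZero P π M q hdeg hq hqM hrk hπ hf0 hf)

include hdeg hq hf0 hf in
/-- `0 < v_∞ f ↔ v_∞ f < 1` (multiplicative valuation). -/
theorem vInf_pos_iff :
    0 < vInf P π M q hqM hrk hπ f ↔ (valInfty P π M q hrk hπ hqM).valuation f < 1 :=
  ordAt_pos_iff (qF_ne_zero M q hq) (valInfty_qF_lt_one P π M q hdeg hq hqM hrk hπ)
    (hasOrd_vInf P π M q hdeg hq hqM hrk hπ hf0 hf)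

include hf0 hf in
/-- `0 < v_0 f ↔ v_0 f < 1` (multiplicative valuation). -/
theorem vZero_pos_iff :
    0 < vZero P π M q hdeg hq hqM hrk hπ f ↔
      (valZero P π M q hdeg hq hqM hrk hπ).valuation f < 1 :=
  ordAt_pos_iff (qF_ne_zero M q hq) (valZero_qF_lt_one P π M q hdeg hq hqM hrk hπ)
    (hasOrd_vZero P π M q hdeg hq hqM hrk hπ hf0 hf)

include hdeg hq hf0 hf hg0 hg in
/-- the ultrametric inequality at `∞` (for `f + g ≠ 0`). -/
theorem min_le_vInf_add (hfg : f + g ≠ 0) :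
    min (vInf P π M q hqM hrk hπ f) (vInf P π M q hqM hrk hπ g) ≤
      vInf P π M q hqM hrk hπ (f + g) :=
  min_le_ordAt_add (qF_ne_zero M q hq) (valInfty_qF_lt_one P π M q hdeg hq hqM hrk hπ)
    (hasOrd_vInf P π M q hdeg hq hqM hrk hπ hf0 hf) (hasOrd_vInf P π M q hdeg hq hqM hrk hπ hg0 hg)
    (hasOrd_vInf P π M q hdeg hq hqM hrk hπ hfg (hf.add hg))

include hf0 hf hg0 hg in
/-- the ultrametric inequality at `0` (for `f + g ≠ 0`). -/
theorem min_le_vZero_add (hfg : f + g ≠ 0) :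
    min (vZero P π M q hdeg hq hqM hrk hπ f) (vZero P π M q hdeg hq hqM hrk hπ g) ≤
      vZero P π M q hdeg hq hqM hrk hπ (f + g) :=
  min_le_ordAt_add (qF_ne_zero M q hq) (valZero_qF_lt_one P π M q hdeg hq hqM hrk hπ)
    (hasOrd_vZero P π M q hdeg hq hqM hrk hπ hf0 hf)
    (hasOrd_vZero P π M q hdeg hq hqM hrk hπ hg0 hg)
    (hasOrd_vZero P π M q hdeg hq hqM hrk hπ hfg (hf.add hg))

end API

/-! #### constants, (A4) and (C3) at level `M q` -/

include hdeg hq in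
/-- **`v_∞ = v_0` on the inertia-fixed constants** (both are the `q`-adic order of `Qbar^I`). -/
theorem vInf_algebraMap_eq_vZero {c : Qbar} (hc0 : c ≠ 0)
    (hc : IsFixedK (inertiaAct P (M * q)) c) :
    vInf P π M q hqM hrk hπ (algebraMap Qbar (FL Qbar (M * q)) c) =
      vZero P π M q hdeg hq hqM hrk hπ (algebraMap Qbar (FL Qbar (M * q)) c) := by
  have h := ordAt_algebraMap_eq (ϖ := primeElt P q)
    (isUnif_primeElt P hq (liesOverPrime P π q hπ) (M * q)) hrk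
    (redSetupInfty (residueFacts P π M q hdeg hq hqM hrk hπ)
      (liesOverPrime P π q hπ)).algebraMap_mem
    (redSetupZero (residueFacts P π M q hdeg hq hqM hrk hπ)
      (liesOverPrime P π q hπ)).algebraMap_mem
    (valInfty_qF_lt_one P π M q hdeg hq hqM hrk hπ)
    (valZero_qF_lt_one P π M q hdeg hq hqM hrk hπ) hc0 hc
  exact h

include hdeg hq in
/-- **(A4) at `∞`**: an inertia-fixed function in the maximal ideal of `valInfty` is `q` times an
inertia-fixed function of `valInfty`. -/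
theorem exists_eq_q_smul_of_valInfty_lt_one {f : FL Qbar (M * q)}
    (hf : IsFixed (inertiaAct P (M * q)) f)
    (hval : (valInfty P π M q hrk hπ hqM).valuation f < 1) :
    ∃ g : FL Qbar (M * q), g ∈ valInfty P π M q hrk hπ hqM ∧
      IsFixed (inertiaAct P (M * q)) g ∧ f = (q : Qbar) • g := by
  have h := exists_eq_unif_smul_of_valuation_lt_one (ϖ := primeElt P q)
    (isUnif_primeElt P hq (liesOverPrime P π q hπ) (M * q)) hrk
    (redSetupInfty (residueFacts P π M q hdeg hq hqM hrk hπ)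
      (liesOverPrime P π q hπ)).algebraMap_mem
    (fun g hg hgfix => Fermat.Agent.S33x.W.ScalFixed2B.scal_fixed_infty P π M q hdeg hq hqM hrk hπ
      (P.inertiaSubgroupIn ℚ : Set (Qbar ≃ₐ[ℚ] Qbar)) g hg hgfix)
    (valInfty_qF_lt_one P π M q hdeg hq hqM hrk hπ) hf hval
  exact h

/-- **(A4) at `0`**: an inertia-fixed function in the maximal ideal of `valZero` is `q` times an
inertia-fixed function of `valZero`. -/
theorem exists_eq_q_smul_of_valZero_lt_one {f : FL Qbar (M * q)}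
    (hf : IsFixed (inertiaAct P (M * q)) f)
    (hval : (valZero P π M q hdeg hq hqM hrk hπ).valuation f < 1) :
    ∃ g : FL Qbar (M * q), g ∈ valZero P π M q hdeg hq hqM hrk hπ ∧
      IsFixed (inertiaAct P (M * q)) g ∧ f = (q : Qbar) • g := by
  have h := exists_eq_unif_smul_of_valuation_lt_one (ϖ := primeElt P q)
    (isUnif_primeElt P hq (liesOverPrime P π q hπ) (M * q)) hrk
    (redSetupZero (residueFacts P π M q hdeg hq hqM hrk hπ)
      (liesOverPrime P π q hπ)).algebraMap_mem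
    (fun g hg hgfix => Fermat.Agent.S33x.W.ScalFixed2B.scal_fixed_zero P π M q hdeg hq hqM hrk hπ
      (P.inertiaSubgroupIn ℚ : Set (Qbar ≃ₐ[ℚ] Qbar)) g hg hgfix)
    (valZero_qF_lt_one P π M q hdeg hq hqM hrk hπ) hf hval
  exact h

section C3

open Fermat.Agent.S34x Fermat.Agent.S34x.C0two Fermat.Agent.S34x.Lattice2
open Fermat.Agent.S33x.W.InstW (fixedAlg mem_fixedAlg)

variable {P π M q hdeg hq hqM hrk hπ}
variable (H : ResidueFacts P π M q hdeg hq hqM hrk hπ) (hA : P.LiesOverPrime q)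
  (C : ChartCoord (redSetup2 H hA))

/-- **(C3)** `ker (res | Bx^I) = q Bx^I` at level `M q` (overlap ring of `H1/InstBBasic`). -/
theorem ker_res_fixedAlg_BxB_Mq {x : FL Qbar (M * q)}
    (hx : x ∈ fixedAlg (inertiaAct P (M * q)) (Fermat.Agent.S33x.H1.InstBBasic.BxAlg C))
    (h0 : (redSetup2 H hA).res ⟨x, Fermat.Agent.S33x.H1.InstBBasic.BxAlg_le_O C hx.1⟩ = 0) :
    ∃ y ∈ fixedAlg (inertiaAct P (M * q)) (Fermat.Agent.S33x.H1.InstBBasic.BxAlg C),
      x = (q : Qbar) • y :=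
  ker_res_fixedAlg_BxB C (Fermat.Agent.S33x.H1.FixData2Final.fixData2 H hA)
    (isUnif_primeElt P hq hA (M * q)) hx h0

/-- **(C3)** for the chart ring `B∞` of `H1/InstBBasic`. -/
theorem ker_res_fixedAlg_BooB_Mq {x : FL Qbar (M * q)}
    (hx : x ∈ fixedAlg (inertiaAct P (M * q)) (Fermat.Agent.S33x.H1.InstBBasic.BooAlg C))
    (h0 : (redSetup2 H hA).res ⟨x, Fermat.Agent.S33x.H1.InstBBasic.BxAlg_le_O C
      (Fermat.Agent.S33x.H1.InstBBasic.BooAlg_le_BxAlg C hx.1)⟩ = 0) :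
    ∃ y ∈ fixedAlg (inertiaAct P (M * q)) (Fermat.Agent.S33x.H1.InstBBasic.BooAlg C),
      x = (q : Qbar) • y :=
  ker_res_fixedAlg_BooB C (Fermat.Agent.S33x.H1.FixData2Final.fixData2 H hA)
    (isUnif_primeElt P hq hA (M * q)) hx h0

/-- **(C3)** for the chart ring `B₀` of `H1/InstBBasic`. -/
theorem ker_res_fixedAlg_BzeroB_Mq {x : FL Qbar (M * q)}
    (hx : x ∈ fixedAlg (inertiaAct P (M * q)) (Fermat.Agent.S33x.H1.InstBBasic.BzeroAlg C))
    (h0 : (redSetup2 H hA).res ⟨x, Fermat.Agent.S33x.H1.InstBBasic.BxAlg_le_O C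
      (Fermat.Agent.S33x.H1.InstBBasic.BzeroAlg_le_BxAlg C hx.1)⟩ = 0) :
    ∃ y ∈ fixedAlg (inertiaAct P (M * q)) (Fermat.Agent.S33x.H1.InstBBasic.BzeroAlg C),
      x = (q : Qbar) • y :=
  ker_res_fixedAlg_BzeroB C (Fermat.Agent.S33x.H1.FixData2Final.fixData2 H hA)
    (isUnif_primeElt P hq hA (M * q)) hx h0

/-- **(C3)** for the overlap ring `Bx` of `H1/InstC4`. -/
theorem ker_res_fixedAlg_BxC_Mq {x : FL Qbar (M * q)}
    (hx : x ∈ fixedAlg (inertiaAct P (M * q)) (Fermat.Agent.S33x.H1.InstC4.BxAlg C))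
    (h0 : (redSetup2 H hA).res ⟨x, Fermat.Agent.S33x.H1.InstC4.mem_O_of_mem_BxAlg C hx.1⟩ = 0) :
    ∃ y ∈ fixedAlg (inertiaAct P (M * q)) (Fermat.Agent.S33x.H1.InstC4.BxAlg C),
      x = (q : Qbar) • y :=
  ker_res_fixedAlg_BxC C (Fermat.Agent.S33x.H1.FixData2Final.fixData2 H hA)
    (isUnif_primeElt P hq hA (M * q)) hx h0

/-- **(C3)** for the chart ring `B∞` of `H1/InstC4`. -/
theorem ker_res_fixedAlg_BooC_Mq {x : FL Qbar (M * q)}
    (hx : x ∈ fixedAlg (inertiaAct P (M * q)) (Fermat.Agent.S33x.H1.InstC4.BooAlg C))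
    (h0 : (redSetup2 H hA).res ⟨x, Fermat.Agent.S33x.H1.InstC4.mem_O_of_mem_BxAlg C
      (Fermat.Agent.S33x.H1.InstC4.BooAlg_le C hx.1)⟩ = 0) :
    ∃ y ∈ fixedAlg (inertiaAct P (M * q)) (Fermat.Agent.S33x.H1.InstC4.BooAlg C),
      x = (q : Qbar) • y :=
  ker_res_fixedAlg_BooC C (Fermat.Agent.S33x.H1.FixData2Final.fixData2 H hA)
    (isUnif_primeElt P hq hA (M * q)) hx h0

/-- **(C3)** for the chart ring `B₀` of `H1/InstC4`. -/
theorem ker_res_fixedAlg_BzeroC_Mq {x : FL Qbar (M * q)}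
    (hx : x ∈ fixedAlg (inertiaAct P (M * q)) (Fermat.Agent.S33x.H1.InstC4.BzeroAlg C))
    (h0 : (redSetup2 H hA).res ⟨x, Fermat.Agent.S33x.H1.InstC4.mem_O_of_mem_BxAlg C
      (Fermat.Agent.S33x.H1.InstC4.BzeroAlg_le C hx.1)⟩ = 0) :
    ∃ y ∈ fixedAlg (inertiaAct P (M * q)) (Fermat.Agent.S33x.H1.InstC4.BzeroAlg C),
      x = (q : Qbar) • y :=
  ker_res_fixedAlg_BzeroC C (Fermat.Agent.S33x.H1.FixData2Final.fixData2 H hA)
    (isUnif_primeElt P hq hA (M * q)) hx h0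

/-- **(UNRAM) at level `M q`, chart `t ≠ ∞`**: in `B_0 = (B∞)^I`, an element with zero reduction
(on both components) is divisible by `q`. -/
theorem natCast_dvd_of_res_eq_zero_BooC_Mq
    (b : fixedAlg (inertiaAct P (M * q)) (Fermat.Agent.S33x.H1.InstC4.BooAlg C))
    (h0 : (redSetup2 H hA).res ⟨(b : FL Qbar (M * q)),
      Fermat.Agent.S33x.H1.InstC4.mem_O_of_mem_BxAlg C
        (Fermat.Agent.S33x.H1.InstC4.BooAlg_le C b.2.1)⟩ = 0) :
    ((q : ℕ) : fixedAlg (inertiaAct P (M * q)) (Fermat.Agent.S33x.H1.InstC4.BooAlg C)) ∣ b :=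
  natCast_dvd_of_res_eq_zero_BooC C (Fermat.Agent.S33x.H1.FixData2Final.fixData2 H hA)
    (isUnif_primeElt P hq hA (M * q)) rfl b h0

end C3

/-! #### `O_{v_∞} ∩ F'` and `O_{v_0} ∩ F'` are discrete valuation rings with uniformiser `q`
for every subfield `F'` of inertia-fixed functions (e.g. `F' = F_0`, all of them) -/

section DVRMq

variable (F' : Subfield (FL Qbar (M * q)))
  (hF' : ∀ f ∈ F', IsFixed (inertiaAct P (M * q)) f)

theorem qF_mem (F' : Subfield (FL Qbar (M * q))) : qF M q ∈ F' := by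
  have h : qF M q = ((q : ℕ) : FL Qbar (M * q)) := map_natCast _ q
  rw [h]
  exact natCast_mem F' q

include hdeg hq hF' in
/-- **`O_{v_∞} ∩ F'` is a discrete valuation ring.** -/
theorem isDiscreteValuationRing_valInfty_restr :
    IsDiscreteValuationRing (restr (valInfty P π M q hrk hπ hqM) F') :=
  isDiscreteValuationRing_restr (qF_mem M q F') (qF_ne_zero M q hq)
    (valInfty_qF_lt_one P π M q hdeg hq hqM hrk hπ)
    (fun f hf hf0 => hasOrd_vInf P π M q hdeg hq hqM hrk hπ hf0 (hF' f hf))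

include hF' in
/-- **`O_{v_0} ∩ F'` is a discrete valuation ring.** -/
theorem isDiscreteValuationRing_valZero_restr :
    IsDiscreteValuationRing (restr (valZero P π M q hdeg hq hqM hrk hπ) F') :=
  isDiscreteValuationRing_restr (qF_mem M q F') (qF_ne_zero M q hq)
    (valZero_qF_lt_one P π M q hdeg hq hqM hrk hπ)
    (fun f hf hf0 => hasOrd_vZero P π M q hdeg hq hqM hrk hπ hf0 (hF' f hf))

include hdeg hq hF' in
/-- the maximal ideal of `O_{v_∞} ∩ F'` is `(q)`. -/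
theorem maximalIdeal_valInfty_restr :
    maximalIdeal (restr (valInfty P π M q hrk hπ hqM) F') =
      Ideal.span {(⟨⟨qF M q, qF_mem M q F'⟩, ((valInfty P π M q hrk hπ hqM).valuation_le_one_iff
        _).mp (valInfty_qF_lt_one P π M q hdeg hq hqM hrk hπ).le⟩ :
          restr (valInfty P π M q hrk hπ hqM) F')} :=
  maximalIdeal_restr (qF_mem M q F') (qF_ne_zero M q hq)
    (valInfty_qF_lt_one P π M q hdeg hq hqM hrk hπ)
    (fun f hf hf0 => hasOrd_vInf P π M q hdeg hq hqM hrk hπ hf0 (hF' f hf))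

include hF' in
/-- the maximal ideal of `O_{v_0} ∩ F'` is `(q)`. -/
theorem maximalIdeal_valZero_restr :
    maximalIdeal (restr (valZero P π M q hdeg hq hqM hrk hπ) F') =
      Ideal.span {(⟨⟨qF M q, qF_mem M q F'⟩,
        ((valZero P π M q hdeg hq hqM hrk hπ).valuation_le_one_iff
        _).mp (valZero_qF_lt_one P π M q hdeg hq hqM hrk hπ).le⟩ :
          restr (valZero P π M q hdeg hq hqM hrk hπ) F')} :=
  maximalIdeal_restr (qF_mem M q F') (qF_ne_zero M q hq)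
    (valZero_qF_lt_one P π M q hdeg hq hqM hrk hπ)
    (fun f hf hf0 => hasOrd_vZero P π M q hdeg hq hqM hrk hπ hf0 (hF' f hf))

end DVRMq

end Concrete

end Fermat.Agent.S40x.Node.ValueGroupFixed
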