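/-
P-S44/S40, block R1 / C3-ASM seam [N] (helper6): THE TWO ORDER FUNCTIONS ON `F_0` AS A FIELD TYPE.

Delivery of item [N] of `S44-IFACE-C3-ASM v1` (helper22) on top of (N0b) `Node/ValueGroupFixed`:
for EVERY subfield `F'` of the function field of level `M q` over `Qbar` all of whose elements are
inertia-fixed (`Vocab.F0 P (M q)`, `Cover.fixedBase`, `NodeFrac.fixedField`: same carrier),

* `Oinf F'`, `Ozero F'` : `ValuationSubring F'`, the restrictions of `valInfty`, `valZero`;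
* `vinf F'`, `vzero F'` : `F' → ℤ`, the orders normalised by `v (q) = 1`;
* `isOrd_vinf`, `isOrd_vzero` : `Transitive.IsOrd (Oinf F') (vinf F')` (the literal of
  `R2/Transitive`, consumed by `R2/Asm/Core` and `R2/Asm/KU`);
* `vinf_natCast`, `vzero_natCast` : `v (q) = 1`; `vinf_map_natCast` : `v (κ q) = 1` for every ring
  homomorphism `κ` into `F'` (hypothesis `hvp` of `Asm/KU`);
* `vinf_const_unit`, `vzero_const_unit`, `vinf_map_unit`, `vzero_map_unit` : `v = 0` on the units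
  of the ring of integers of the inertia field (hypothesis `hvu` of `Asm/KU`);
* `vinf_const_eq_vzero` : `v_∞ = v_0` on constants;
* `isDiscreteValuationRing_Oinf`, `isDiscreteValuationRing_Ozero`;
* section `VocabF0` : the instance `F' = Vocab.F0 P (M q)`, `κ = Vocab.K0toF0`.
-/
import Mathlib
import Fermat.Agent.S40x.Node.ValueGroupFixed
import Fermat.Agent.S40x.Node.Vocab
import Fermat.Agent.S40x.R2.Transitive
import Fermat.Agent.S40x.R2.KummerPeu
import Fermat.Agent.S40x.R2.Asm.KU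

set_option autoImplicit false
set_option linter.style.haveILetI false
set_option linter.unusedSectionVars false
set_option linter.unusedVariables false

noncomputable section

namespace Fermat.Agent.S40x.Node.OrdF0

open AlgebraicCurve IsLocalRing ModularCurve
open Fermat.Agent.S19x.Geo.LatticeFixed (IsFixed IsFixedK)
open Fermat.Agent.Gateway.Hecke Fermat.Agent.S34x.TwoVal Fermat.Agent.S34x.Inst.RedSetupInst
open Fermat.Agent.S33x.H1.FixData2Inst
open Fermat.Agent.S34x.TwoVal.ResidueInst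
open Fermat.Agent.S40x.Node.ValueGroupFixed
open Fermat.Agent.S40x.R2.Transitive (IsOrd)
open Fermat.Agent.S40x.Kummer (unitFixed)

local notation "Qbar" => AlgebraicClosure ℚ

variable (P : ValuationSubring Qbar) {k : Type} [Field k] (π : P →+* k) [IsAlgClosed k]
variable (M q : ℕ) [NeZero M] [Fact q.Prime] [CharP k q]
variable (hdeg : finrankAlong Qbar (heckeAlphaBar Qbar M q) = q + 1) (hq : q.Prime)
  (hqM : ¬ q ∣ M)
variable (hrk : ∀ x ∈ maximalIdeal P, ∀ c : P, c ≠ 0 → ∃ j : ℕ, c ∣ x ^ j)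
  (hπ : Function.Surjective π)
variable (F' : Subfield (FL Qbar (M * q)))

/-- `O_∞ ∩ F'`. -/
def Oinf : ValuationSubring F' := restr (valInfty P π M q hrk hπ hqM) F'

/-- `O_0 ∩ F'`. -/
def Ozero : ValuationSubring F' := restr (valZero P π M q hdeg hq hqM hrk hπ) F'

/-- `v_∞` on `F'`, normalised by `v_∞ (q) = 1`. -/
def vinf (f : F') : ℤ := vInf P π M q hqM hrk hπ (f : FL Qbar (M * q))

/-- `v_0` on `F'`, normalised by `v_0 (q) = 1`. -/
def vzero (f : F') : ℤ := vZero P π M q hdeg hq hqM hrk hπ (f : FL Qbar (M * q))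

theorem mem_Oinf {f : F'} :
    f ∈ Oinf P π M q hqM hrk hπ F' ↔ (f : FL Qbar (M * q)) ∈ valInfty P π M q hrk hπ hqM :=
  Iff.rfl

theorem mem_Ozero {f : F'} :
    f ∈ Ozero P π M q hdeg hq hqM hrk hπ F' ↔
      (f : FL Qbar (M * q)) ∈ valZero P π M q hdeg hq hqM hrk hπ :=
  Iff.rfl

variable (hF' : ∀ f ∈ F', IsFixed (inertiaAct P (M * q)) f)

include hdeg hq hF' in
/-- **`vinf` is an order function of `O_∞ ∩ F'`** (literal of `R2/Transitive`). -/
theorem isOrd_vinf : IsOrd (Oinf P π M q hqM hrk hπ F') (vinf P π M q hqM hrk hπ F') := by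
  refine ⟨fun x y hx hy => ?_, fun x hx => ?_⟩
  · have hx' : (x : FL Qbar (M * q)) ≠ 0 := fun h => hx (Subtype.ext h)
    have hy' : (y : FL Qbar (M * q)) ≠ 0 := fun h => hy (Subtype.ext h)
    exact vInf_mul P π M q hdeg hq hqM hrk hπ hx' (hF' _ x.2) hy' (hF' _ y.2)
  · have hx' : (x : FL Qbar (M * q)) ≠ 0 := fun h => hx (Subtype.ext h)
    exact vInf_nonneg_iff P π M q hdeg hq hqM hrk hπ hx' (hF' _ x.2)

include hF' in
/-- **`vzero` is an order function of `O_0 ∩ F'`** (literal of `R2/Transitive`). -/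
theorem isOrd_vzero :
    IsOrd (Ozero P π M q hdeg hq hqM hrk hπ F') (vzero P π M q hdeg hq hqM hrk hπ F') := by
  refine ⟨fun x y hx hy => ?_, fun x hx => ?_⟩
  · have hx' : (x : FL Qbar (M * q)) ≠ 0 := fun h => hx (Subtype.ext h)
    have hy' : (y : FL Qbar (M * q)) ≠ 0 := fun h => hy (Subtype.ext h)
    exact vZero_mul P π M q hdeg hq hqM hrk hπ hx' (hF' _ x.2) hy' (hF' _ y.2)
  · have hx' : (x : FL Qbar (M * q)) ≠ 0 := fun h => hx (Subtype.ext h)
    exact vZero_nonneg_iff P π M q hdeg hq hqM hrk hπ hx' (hF' _ x.2)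

theorem coe_natCast_eq_qF : (((q : ℕ) : F') : FL Qbar (M * q)) = qF M q := by
  have h : qF M q = ((q : ℕ) : FL Qbar (M * q)) := map_natCast _ q
  rw [h]
  rfl

include hdeg hq in
/-- `v_∞ (q) = 1`. -/
theorem vinf_natCast : vinf P π M q hqM hrk hπ F' ((q : ℕ) : F') = 1 := by
  show vInf P π M q hqM hrk hπ (((q : ℕ) : F') : FL Qbar (M * q)) = 1
  rw [coe_natCast_eq_qF]
  exact vInf_qF P π M q hdeg hq hqM hrk hπ

/-- `v_0 (q) = 1`. -/
theorem vzero_natCast : vzero P π M q hdeg hq hqM hrk hπ F' ((q : ℕ) : F') = 1 := by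
  show vZero P π M q hdeg hq hqM hrk hπ (((q : ℕ) : F') : FL Qbar (M * q)) = 1
  rw [coe_natCast_eq_qF]
  exact vZero_qF P π M q hdeg hq hqM hrk hπ

include hdeg hq in
/-- hypothesis `hvp` of `R2/Asm/KU` at `∞`, for every ring homomorphism `κ` into `F'`. -/
theorem vinf_map_natCast {K₀ : Type*} [Ring K₀] (κ : K₀ →+* F') :
    vinf P π M q hqM hrk hπ F' (κ (q : K₀)) = 1 := by
  rw [map_natCast]
  exact vinf_natCast P π M q hdeg hq hqM hrk hπ F'

/-- hypothesis `hvp` of `R2/Asm/KU` at `0`. -/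
theorem vzero_map_natCast {K₀ : Type*} [Ring K₀] (κ : K₀ →+* F') :
    vzero P π M q hdeg hq hqM hrk hπ F' (κ (q : K₀)) = 1 := by
  rw [map_natCast]
  exact vzero_natCast P π M q hdeg hq hqM hrk hπ F'

/-! ### Constants -/

/-- a unit of `P` has valuation one at every valuation subring of `F` over `P`. -/
theorem valuation_const_eq_one {O : ValuationSubring (FL Qbar (M * q))}
    (hPO : ∀ a : P, algebraMap Qbar (FL Qbar (M * q)) a ∈ O) {c : Qbar}
    (hc : P.valuation c = 1) : O.valuation (algebraMap Qbar (FL Qbar (M * q)) c) = 1 := by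
  have hc0 : c ≠ 0 := by
    rintro rfl
    rw [map_zero] at hc
    exact zero_ne_one hc
  have hcP : c ∈ P := (P.valuation_le_one_iff c).mp hc.le
  have hciP : c⁻¹ ∈ P := by
    rw [← P.valuation_le_one_iff, map_inv₀, hc, inv_one]
  exact valuation_algebraMap_eq_one hPO hc0 hcP hciP

include hdeg hq in
/-- `v_∞ = 0` on the units of the ring of integers of the inertia field (element form). -/
theorem vInf_const_unit {c : Qbar} (hc : c ∈ unitFixed P) :
    vInf P π M q hqM hrk hπ (algebraMap Qbar (FL Qbar (M * q)) c) = 0 := by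
  have h1 := valuation_const_eq_one P M q (O := valInfty P π M q hrk hπ hqM)
    (redSetupInfty (residueFacts P π M q hdeg hq hqM hrk hπ)
      (liesOverPrime P π q hπ)).algebraMap_mem hc.1
  exact ordAt_eq_of_eq (qF_ne_zero M q hq) (valInfty_qF_lt_one P π M q hdeg hq hqM hrk hπ)
    (by rw [h1, zpow_zero])

/-- `v_0 = 0` on the units of the ring of integers of the inertia field (element form). -/
theorem vZero_const_unit {c : Qbar} (hc : c ∈ unitFixed P) :
    vZero P π M q hdeg hq hqM hrk hπ (algebraMap Qbar (FL Qbar (M * q)) c) = 0 := by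
  have h1 := valuation_const_eq_one P M q (O := valZero P π M q hdeg hq hqM hrk hπ)
    (redSetupZero (residueFacts P π M q hdeg hq hqM hrk hπ)
      (liesOverPrime P π q hπ)).algebraMap_mem hc.1
  exact ordAt_eq_of_eq (qF_ne_zero M q hq) (valZero_qF_lt_one P π M q hdeg hq hqM hrk hπ)
    (by rw [h1, zpow_zero])

include hdeg hq in
/-- hypothesis `hvu` of `R2/Asm/KU` at `∞`: `κ : K₀ → F'` any map which is the constant embedding
on the element `u`. -/
theorem vinf_map_unit {x : F'} {c : Qbar}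
    (hx : (x : FL Qbar (M * q)) = algebraMap Qbar (FL Qbar (M * q)) c) (hc : c ∈ unitFixed P) :
    vinf P π M q hqM hrk hπ F' x = 0 := by
  show vInf P π M q hqM hrk hπ (x : FL Qbar (M * q)) = 0
  rw [hx]
  exact vInf_const_unit P π M q hdeg hq hqM hrk hπ hc

/-- hypothesis `hvu` of `R2/Asm/KU` at `0`. -/
theorem vzero_map_unit {x : F'} {c : Qbar}
    (hx : (x : FL Qbar (M * q)) = algebraMap Qbar (FL Qbar (M * q)) c) (hc : c ∈ unitFixed P) :
    vzero P π M q hdeg hq hqM hrk hπ F' x = 0 := by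
  show vZero P π M q hdeg hq hqM hrk hπ (x : FL Qbar (M * q)) = 0
  rw [hx]
  exact vZero_const_unit P π M q hdeg hq hqM hrk hπ hc

include hdeg hq in
/-- `v_∞ = v_0` on the inertia-fixed constants. -/
theorem vinf_const_eq_vzero {x : F'} {c : Qbar}
    (hx : (x : FL Qbar (M * q)) = algebraMap Qbar (FL Qbar (M * q)) c) (hc0 : c ≠ 0)
    (hc : ∀ τ ∈ P.inertiaSubgroupIn ℚ, τ c = c) :
    vinf P π M q hqM hrk hπ F' x = vzero P π M q hdeg hq hqM hrk hπ F' x := by
  show vInf P π M q hqM hrk hπ (x : FL Qbar (M * q)) =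
    vZero P π M q hdeg hq hqM hrk hπ (x : FL Qbar (M * q))
  rw [hx]
  refine vInf_algebraMap_eq_vZero P π M q hdeg hq hqM hrk hπ hc0 ?_
  intro s hs
  obtain ⟨σ, hσ, hσs⟩ := inertiaAct_baseAut P (M * q) s hs
  rw [hσs]
  exact hc σ hσ

/-! ### Discrete valuation rings -/

include hdeg hq hF' in
theorem isDiscreteValuationRing_Oinf :
    IsDiscreteValuationRing (Oinf P π M q hqM hrk hπ F') :=
  isDiscreteValuationRing_valInfty_restr P π M q hdeg hq hqM hrk hπ F' hF'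

include hF' in
theorem isDiscreteValuationRing_Ozero :
    IsDiscreteValuationRing (Ozero P π M q hdeg hq hqM hrk hπ F') :=
  isDiscreteValuationRing_valZero_restr P π M q hdeg hq hqM hrk hπ F' hF'

/-! ### The instance `F' = Vocab.F0 P (M q)`, `κ = Vocab.K0toF0` -/

section VocabF0

open Fermat.Agent.S40x.Node.Vocab

include hdeg hq in
/-- `IsOrd` at `∞` on `Vocab.F0`. -/
theorem isOrd_vinf_F0 :
    IsOrd (Oinf P π M q hqM hrk hπ (F0 P (M * q))) (vinf P π M q hqM hrk hπ (F0 P (M * q))) :=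
  isOrd_vinf P π M q hdeg hq hqM hrk hπ (F0 P (M * q)) (fun _ h => h)

/-- `IsOrd` at `0` on `Vocab.F0`. -/
theorem isOrd_vzero_F0 :
    IsOrd (Ozero P π M q hdeg hq hqM hrk hπ (F0 P (M * q)))
      (vzero P π M q hdeg hq hqM hrk hπ (F0 P (M * q))) :=
  isOrd_vzero P π M q hdeg hq hqM hrk hπ (F0 P (M * q)) (fun _ h => h)

include hdeg hq in
/-- `hvp` of `Asm/KU` at `∞` for `κ = K0toF0`. -/
theorem vinf_K0toF0_natCast :
    vinf P π M q hqM hrk hπ (F0 P (M * q)) (K0toF0 P (M * q) (q : K0 P)) = 1 :=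
  vinf_map_natCast P π M q hdeg hq hqM hrk hπ (F0 P (M * q)) (K0toF0 P (M * q))

/-- `hvp` of `Asm/KU` at `0` for `κ = K0toF0`. -/
theorem vzero_K0toF0_natCast :
    vzero P π M q hdeg hq hqM hrk hπ (F0 P (M * q)) (K0toF0 P (M * q) (q : K0 P)) = 1 :=
  vzero_map_natCast P π M q hdeg hq hqM hrk hπ (F0 P (M * q)) (K0toF0 P (M * q))

include hdeg hq in
/-- `hvu` of `Asm/KU` at `∞` for `κ = K0toF0`. -/
theorem vinf_K0toF0_unit (u : K0 P) (hu : (u : Qbar) ∈ unitFixed P) :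
    vinf P π M q hqM hrk hπ (F0 P (M * q)) (K0toF0 P (M * q) u) = 0 :=
  vinf_map_unit P π M q hdeg hq hqM hrk hπ (F0 P (M * q)) rfl hu

/-- `hvu` of `Asm/KU` at `0` for `κ = K0toF0`. -/
theorem vzero_K0toF0_unit (u : K0 P) (hu : (u : Qbar) ∈ unitFixed P) :
    vzero P π M q hdeg hq hqM hrk hπ (F0 P (M * q)) (K0toF0 P (M * q) u) = 0 :=
  vzero_map_unit P π M q hdeg hq hqM hrk hπ (F0 P (M * q)) rfl hu

include hdeg hq in
/-- `v_∞ = v_0` on `K0`. -/
theorem vinf_K0toF0_eq_vzero (c : K0 P) (hc0 : c ≠ 0) :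
    vinf P π M q hqM hrk hπ (F0 P (M * q)) (K0toF0 P (M * q) c) =
      vzero P π M q hdeg hq hqM hrk hπ (F0 P (M * q)) (K0toF0 P (M * q) c) :=
  vinf_const_eq_vzero P π M q hdeg hq hqM hrk hπ (F0 P (M * q)) rfl
    (fun h => hc0 (Subtype.ext h)) c.2

/-! #### Seam check: the sub-assembly [KU] of C3-ASM fed with [N] -/

include hdeg hq in
/-- **[KU] at `∞` on `Vocab.F0`** (`I°`-form): `q ∣ v_∞ (β^q)` for the Kummer constant. -/
theorem dvd_vinf_const_I0 (hP : P.LiesOverPrime q) {β : Qbar} (hβ0 : β ≠ 0)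
    (hβfix : ∀ τ ∈ P.inertiaSubgroupIn ℚ, τ (β ^ q) = β ^ q)
    (hI0 : ∀ τ ∈ P.inertiaSubgroupIn ℚ,
      (∀ b : Qbar, b ^ q ∈ unitFixed P → τ b = b) → τ β = β) :
    (q : ℤ) ∣ vinf P π M q hqM hrk hπ (F0 P (M * q)) (K0toF0 P (M * q) ⟨β ^ q, hβfix⟩) :=
  Fermat.Agent.S40x.R2.Asm.KU.dvd_ord_const_I0
    (isOrd_vinf_F0 P π M q hdeg hq hqM hrk hπ) (K0 P) (fun _ hc => hc) (K0toF0 P (M * q))
    (vinf_K0toF0_natCast P π M q hdeg hq hqM hrk hπ)
    (vinf_K0toF0_unit P π M q hdeg hq hqM hrk hπ) hq hP hβ0 hβfix hI0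

/-- **[KU] at `0` on `Vocab.F0`** (`I°`-form): `q ∣ v_0 (β^q)` for the Kummer constant. -/
theorem dvd_vzero_const_I0 (hP : P.LiesOverPrime q) {β : Qbar} (hβ0 : β ≠ 0)
    (hβfix : ∀ τ ∈ P.inertiaSubgroupIn ℚ, τ (β ^ q) = β ^ q)
    (hI0 : ∀ τ ∈ P.inertiaSubgroupIn ℚ,
      (∀ b : Qbar, b ^ q ∈ unitFixed P → τ b = b) → τ β = β) :
    (q : ℤ) ∣ vzero P π M q hdeg hq hqM hrk hπ (F0 P (M * q))
      (K0toF0 P (M * q) ⟨β ^ q, hβfix⟩) :=
  Fermat.Agent.S40x.R2.Asm.KU.dvd_ord_const_I0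
    (isOrd_vzero_F0 P π M q hdeg hq hqM hrk hπ) (K0 P) (fun _ hc => hc) (K0toF0 P (M * q))
    (vzero_K0toF0_natCast P π M q hdeg hq hqM hrk hπ)
    (vzero_K0toF0_unit P π M q hdeg hq hqM hrk hπ) hq hP hβ0 hβfix hI0

end VocabF0

end Fermat.Agent.S40x.Node.OrdF0
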