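import Fermat.Agent.S40x.Node.NodePlace

/-!
# P-S44, block R1 / N-alpha: the node set is nonempty / empty on both components at once (helper50)

Seam to DIAG / GEO (`hG3` of `Geo/Main.geo_goodLevel` needs `nodeInf.Nonempty`; red-team remark of
helper29, request of helper71).  Vocabulary of `Node/NodePlace`.

* `nonempty_nodes_iff` : the glue ring has a node iff `(1, 0) ∉ B̄` (iff `I₁ ≠ ⊤`): the criterion
  to be checked by the T-block (`δ = red_∞(u / p)` would be regular everywhere on the chart);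
* `exists_branch₁_of_not_mem`, `exists_branch₂_of_not_mem` : then both components carry a node
  place;
* `forall_isNonNode₂_of_forall_isNonNode₁` (and the mirror) : **(b)** if no place of the first
  component lies at a node, no place of the second component does: the two node sets are the
  images `s ↦ P_s`, `s ↦ P'_s` of the SAME index type `Goursat.Nodes`.
-/

set_option autoImplicit false
set_option linter.unusedSectionVars false
set_option linter.style.haveILetI false

noncomputable section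

namespace Fermat.Agent.S40x.Node.NodeNonempty

open AlgebraicCurve IsLocalRing Module IntermediateField
open Fermat.Agent.S34x Fermat.Agent.S34x.C0two Fermat.Agent.S34x.Lattice2
open Fermat.Agent.S40x.Node.NodeInst Fermat.Agent.S40x.Node.SmoothInst
open Fermat.Agent.S40x.Node.NodePlace

variable {K : Type*} [Field K] {A : ValuationSubring K} {F : Type*} [Field F] [Algebra K F]
  {S : SmallRing F} {k κ₁ κ₂ : Type*} [Field k] [Field κ₁] [Field κ₂] [Algebra k κ₁]
  [Algebra k κ₂] {R : RedSetup2 A S k (κ₁ × κ₂)} {C : ChartCoord R}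

variable [IsAlgClosed k] (hL2 : C.IsL2)

/-- a node forbids the idempotent `(1, 0)` in the glue ring. -/
theorem not_mem_of_node (s : Goursat.Nodes C.BbarT hL2.h2) :
    ((1, 0) : C.B₁ × C.B₂) ∉ C.BbarT := by
  intro h
  have h0 := chi1_eq_zero_of_mem hL2 s h
  rw [map_one] at h0
  exact one_ne_zero h0

variable [Module.Finite k ((C.B₁ × C.B₂) ⧸ Subalgebra.toSubmodule C.BbarT)]

/-- **the glue ring has a node iff `(1, 0) ∉ B̄`.** -/
theorem nonempty_nodes_iff :
    Nonempty (Goursat.Nodes C.BbarT hL2.h2) ↔ ((1, 0) : C.B₁ × C.B₂) ∉ C.BbarT := by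
  constructor
  · rintro ⟨s⟩
    exact not_mem_of_node hL2 s
  · intro h
    haveI : Module.Finite k (Goursat.R C.BbarT hL2.h2) := Goursat.finite_R C.BbarT hL2.h1 hL2.h2
    have hne : Goursat.φ C.BbarT hL2.h1 hL2.h2 1 ≠ 0 := fun h0 =>
      h ((phi_eq_zero_iff hL2 1).mp h0)
    haveI : Nontrivial (Goursat.R C.BbarT hL2.h2) := by
      refine ⟨⟨1, 0, ?_⟩⟩
      rw [← map_one (Goursat.φ C.BbarT hL2.h1 hL2.h2)]
      exact hne
    obtain ⟨m, hm⟩ := Ideal.exists_maximal (Goursat.R C.BbarT hL2.h2)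
    haveI := hm
    obtain ⟨χ, -⟩ := Goursat.exists_algHom_ker_eq (k := k) m
    exact ⟨χ⟩

/-- the mirrored criterion. -/
theorem nonempty_nodes_iff' :
    Nonempty (Goursat.Nodes C.BbarT hL2.h2) ↔ ((0, 1) : C.B₁ × C.B₂) ∉ C.BbarT := by
  rw [nonempty_nodes_iff hL2]
  have h1 : ((1, 1) : C.B₁ × C.B₂) ∈ C.BbarT := C.BbarT.one_mem
  constructor
  · intro h h'
    apply h
    have := C.BbarT.sub_mem h1 h'
    simpa using this
  · intro h h'
    apply h
    have := C.BbarT.sub_mem h1 h'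
    simpa using this

section Places

variable (hT₁ : Transcendental k C.T.1) [FiniteDimensional k⟮C.T.1⟯ κ₁]
  [Algebra.IsSeparable k⟮C.T.1⟯ κ₁]
  (hT₂ : Transcendental k C.T.2) [FiniteDimensional k⟮C.T.2⟯ κ₂]
  [Algebra.IsSeparable k⟮C.T.2⟯ κ₂]

include hT₁ in
/-- if `(1, 0) ∉ B̄` the first component carries a node place. -/
theorem exists_branch₁_of_not_mem (h : ((1, 0) : C.B₁ × C.B₂) ∉ C.BbarT) :
    ∃ (s : Goursat.Nodes C.BbarT hL2.h2) (P : Place k κ₁),
      C.T.1 ∈ P.toValuationSubring ∧ IsBranch₁ hL2 s P := by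
  obtain ⟨s⟩ := (nonempty_nodes_iff hL2).mpr h
  obtain ⟨P, hP, hs⟩ := exists_branch₁ hL2 hT₁ s
  exact ⟨s, P, hP, hs⟩

include hT₂ in
/-- if `(1, 0) ∉ B̄` the second component carries a node place. -/
theorem exists_branch₂_of_not_mem (h : ((1, 0) : C.B₁ × C.B₂) ∉ C.BbarT) :
    ∃ (s : Goursat.Nodes C.BbarT hL2.h2) (P : Place k κ₂),
      C.T.2 ∈ P.toValuationSubring ∧ IsBranch₂ hL2 s P := by
  obtain ⟨s⟩ := (nonempty_nodes_iff hL2).mpr h
  obtain ⟨P, hP, hs⟩ := exists_branch₂ hL2 hT₂ s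
  exact ⟨s, P, hP, hs⟩

include hL2 hT₁ in
/-- **(b)**: if every place of the first component (on the chart) is a non-node, so is every place
of the second component. -/
theorem forall_isNonNode₂_of_forall_isNonNode₁
    (h : ∀ P : Place k κ₁, C.T.1 ∈ P.toValuationSubring → IsNonNode₁ C P)
    (P : Place k κ₂) (hP : C.T.2 ∈ P.toValuationSubring) : IsNonNode₂ C P := by
  rcases isNonNode₂_or_exists_branch hL2 P hP with h2 | ⟨s, -⟩
  · exact h2
  · obtain ⟨P₁, hP₁, hs₁⟩ := exists_branch₁ hL2 hT₁ s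
    exact absurd (h P₁ hP₁) hs₁.not_isNonNode

include hL2 hT₂ in
/-- **(b)**, mirrored. -/
theorem forall_isNonNode₁_of_forall_isNonNode₂
    (h : ∀ P : Place k κ₂, C.T.2 ∈ P.toValuationSubring → IsNonNode₂ C P)
    (P : Place k κ₁) (hP : C.T.1 ∈ P.toValuationSubring) : IsNonNode₁ C P := by
  rcases isNonNode₁_or_exists_branch hL2 P hP with h1 | ⟨s, -⟩
  · exact h1
  · obtain ⟨P₂, hP₂, hs₂⟩ := exists_branch₂ hL2 hT₂ s
    exact absurd (h P₂ hP₂) hs₂.not_isNonNode

include hL2 hT₁ hT₂ in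
/-- the two node sets are empty together. -/
theorem exists_node_place₁_iff_exists_node_place₂ :
    (∃ P : Place k κ₁, C.T.1 ∈ P.toValuationSubring ∧ ¬ IsNonNode₁ C P) ↔
      ∃ P : Place k κ₂, C.T.2 ∈ P.toValuationSubring ∧ ¬ IsNonNode₂ C P := by
  constructor
  · rintro ⟨P, hP, hn⟩
    by_contra h
    exact hn (forall_isNonNode₁_of_forall_isNonNode₂ hL2 hT₂
      (fun Q hQ => by_contra fun hQn => h ⟨Q, hQ, hQn⟩) P hP)
  · rintro ⟨P, hP, hn⟩
    by_contra h
    exact hn (forall_isNonNode₂_of_forall_isNonNode₁ hL2 hT₁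
      (fun Q hQ => by_contra fun hQn => h ⟨Q, hQ, hQn⟩) P hP)

end Places

end Fermat.Agent.S40x.Node.NodeNonempty

end
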