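import Fermat.Agent.S40x.EdgeB.TameSmooth
import Fermat.Agent.S40x.Node.NodeDatum
import Fermat.Agent.S24.PlacesDedekind

/-!
# P-S44/S40, block R1, leaf N4 (helper61): the local ring at a NON-NODE point of a chart of the
special fibre (cusps included) and (TAME-Sm) = (b5)

Chart-level layer between the abstract algebra (`Node/SmoothAbs`, helper62's `EdgeB/TameSmooth`,
`EdgeB/PrimePlace`, helper50's literal `Node/NodeDatum.IsSmoothPtRing`) and the instance
(`Node/NodeInst`: `B := B0 C Γ`, `ρ := rho1 C Γ`, `B1 := C.B₁`, `π := unifB`).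

Setting (hypothesis style):
* `B1` a Dedekind domain with fraction field `E`, `k ⊆ B1` (the chart ring of ONE component of the
  special fibre), `P : Place k E` with `B1 ⊆ O_P` (`hB1P`; ANY such place: the cusps lying on the
  chart are included);
* `B` a (Noetherian) domain, `ρ : B →+* B1` surjective, `ρ π = 0`, and `e : B` with `ρ e` a unit
  at `P` and `hker : ρ b = 0 → ∃ c, b * e = π * c` (UNRAM; `e` exists iff `P` is not a node:
  `e :=` a lift of `(a, 0)`, `a ∈ I₁`, `a(P) ≠ 0`).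

Results, with `φ = phi P hB1P ρ : B →+* O_P`, `𝔪 = ptIdeal φ` and
`R_P = SmRing P hB1P ρ := Localization.AtPrime 𝔪`:
* `locP : R_P →+* O_P`, `locP_surjective`, `ker_locP` (kernel `(π)`), `locP_eq_zero_iff`,
  `prime_unif`, `ufd_smRing`;
* `exists_isSmoothPtRing` : **the DATUM** `IsSmoothPtRing R_P p t` (helper50's literal) for
  `π = (p : B)`, with `locP t` a uniformiser of `O_P` (so `P.ord (locP t) = 1`);
* `algF0`, `isScalarTower_algF0`, `isFractionRing_algF0` : `R_P ⊆ F0 = Frac B`;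
* for a valuation subring `O` of `F0` containing `B` with a reduction `red : O →+* E` killing the
  non-units and inducing `ρ` on `B`: `algebraMap_mem_O` (`R_P ⊆ O`), `red_algebraMap`
  (`red = locP` on `R_P`), `inv_mem_O_of_not_dvd` (`R_P ∖ π R_P ⊆ Oˣ`);
* **`tame_smooth_chart`**, **`tame_smooth_chart'`** : (TAME-Sm): if `p ∣ ord_v f` at every place
  `v` of `F0 / K0` (`K0 ⊆ B[1/π]`), then for the (any) exponent `a` normalising `f / π ^ a` to a
  unit of `O`: `p ∣ P.ord (red (f / π ^ a))`.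
-/

set_option autoImplicit false
set_option linter.unusedSectionVars false
set_option linter.style.haveILetI false

noncomputable section

namespace Fermat.Agent.S40x.Node.SmoothChart

open IsLocalRing AlgebraicCurve

/-! ### Localisation of a ring at the point cut out by a local target -/

section LocalTarget

variable {B D : Type*} [CommRing B] [CommRing D] [IsLocalRing D] (φ : B →+* D)

/-- the prime of `B` cut out by the closed point of the local ring `D` -/
def ptIdeal : Ideal B := (maximalIdeal D).comap φ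

instance ptIdeal_isPrime : (ptIdeal φ).IsPrime := Ideal.IsPrime.comap φ

theorem mem_ptIdeal {b : B} : b ∈ ptIdeal φ ↔ φ b ∈ maximalIdeal D := Iff.rfl

theorem isUnit_of_mem_primeCompl (s : (ptIdeal φ).primeCompl) : IsUnit (φ (s : B)) := by
  have h : φ (s : B) ∉ maximalIdeal D := s.2
  rwa [mem_maximalIdeal, mem_nonunits_iff, not_not] at h

/-- the local homomorphism `B_𝔪 → D` -/
def locHom : Localization.AtPrime (ptIdeal φ) →+* D :=
  IsLocalization.lift (M := (ptIdeal φ).primeCompl) (g := φ) (isUnit_of_mem_primeCompl φ)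

theorem locHom_algebraMap (b : B) :
    locHom φ (algebraMap B (Localization.AtPrime (ptIdeal φ)) b) = φ b :=
  IsLocalization.lift_eq _ b

theorem locHom_mk' (a : B) (s : (ptIdeal φ).primeCompl) :
    locHom φ (IsLocalization.mk' _ a s) * φ (s : B) = φ a := by
  rw [← locHom_algebraMap φ (s : B), ← map_mul, IsLocalization.mk'_spec, locHom_algebraMap]

variable {φ}

theorem locHom_surjective
    (h : ∀ y : D, ∃ a s : B, φ s ∉ maximalIdeal D ∧ y * φ s = φ a) :
    Function.Surjective (locHom φ) := by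
  intro y
  obtain ⟨a, s, hs, hys⟩ := h y
  refine ⟨IsLocalization.mk' _ a (⟨s, hs⟩ : (ptIdeal φ).primeCompl), ?_⟩
  have hu : IsUnit (φ s) := isUnit_of_mem_primeCompl φ ⟨s, hs⟩
  have h1 := locHom_mk' φ a (⟨s, hs⟩ : (ptIdeal φ).primeCompl)
  exact hu.mul_right_cancel (h1.trans hys.symm)

theorem ker_locHom {π e : B} (hπ : φ π = 0) (he : φ e ∉ maximalIdeal D)
    (hker : ∀ b, φ b = 0 → ∃ c, b * e = π * c) :
    RingHom.ker (locHom φ) =
      Ideal.span {algebraMap B (Localization.AtPrime (ptIdeal φ)) π} := by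
  apply le_antisymm
  · intro z hz
    obtain ⟨a, s, rfl⟩ := IsLocalization.exists_mk'_eq (ptIdeal φ).primeCompl z
    rw [RingHom.mem_ker] at hz
    have h1 : φ a = 0 := by
      rw [← locHom_mk' φ a s, hz, zero_mul]
    obtain ⟨c, hc⟩ := hker a h1
    have hu : e * (s : B) ∈ (ptIdeal φ).primeCompl := by
      intro h
      rcases (ptIdeal_isPrime φ).mem_or_mem h with h | h
      · exact he h
      · exact s.2 h
    rw [Ideal.mem_span_singleton']
    refine ⟨IsLocalization.mk' _ c (⟨e * s, hu⟩ : (ptIdeal φ).primeCompl), ?_⟩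
    rw [mul_comm, IsLocalization.mul_mk'_eq_mk'_of_mul]
    apply IsLocalization.mk'_eq_of_eq
    simp only
    linear_combination (s : B) * hc
  · rw [Ideal.span_le]
    intro z hz
    rw [Set.mem_singleton_iff] at hz
    rw [hz, SetLike.mem_coe, RingHom.mem_ker, locHom_algebraMap, hπ]

theorem algebraMap_mem_maximalIdeal {π : B} (hπ : φ π = 0) :
    algebraMap B (Localization.AtPrime (ptIdeal φ)) π ∈
      maximalIdeal (Localization.AtPrime (ptIdeal φ)) := by
  rw [IsLocalization.AtPrime.to_map_mem_maximal_iff _ (ptIdeal φ), mem_ptIdeal, hπ]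
  exact Ideal.zero_mem _

theorem algebraMap_mem_jacobson {π : B} (hπ : φ π = 0) :
    algebraMap B (Localization.AtPrime (ptIdeal φ)) π ∈
      (⊥ : Ideal (Localization.AtPrime (ptIdeal φ))).jacobson := by
  rw [IsLocalRing.jacobson_eq_maximalIdeal ⊥ bot_ne_top]
  exact algebraMap_mem_maximalIdeal hπ

/-- `locHom` is a local homomorphism: it maps the maximal ideal into the maximal ideal. -/
theorem locHom_mem_maximalIdeal {r : Localization.AtPrime (ptIdeal φ)}
    (hr : r ∈ maximalIdeal (Localization.AtPrime (ptIdeal φ))) :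
    locHom φ r ∈ maximalIdeal D := by
  obtain ⟨a, s, rfl⟩ := IsLocalization.exists_mk'_eq (ptIdeal φ).primeCompl r
  rw [IsLocalization.AtPrime.mk'_mem_maximal_iff _ (ptIdeal φ)] at hr
  have h1 := locHom_mk' φ a s
  have hu : IsUnit (φ (s : B)) := isUnit_of_mem_primeCompl φ s
  have h2 : locHom φ (IsLocalization.mk' _ a s) = φ a * ((hu.unit⁻¹ : Dˣ) : D) := by
    rw [← h1, mul_assoc]
    have : φ (s : B) * ((hu.unit⁻¹ : Dˣ) : D) = 1 := by
      have := hu.unit.mul_inv
      rwa [IsUnit.unit_spec] at this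
    rw [this, mul_one]
  rw [h2]
  exact Ideal.mul_mem_right _ _ hr

end LocalTarget

/-! ### The chart ring of a component and a place -/

section Chart

open Fermat.Agent.S24.PD IsDedekindDomain

variable {k E : Type*} [Field k] [Field E] [Algebra k E]
  {B1 : Type*} [CommRing B1] [IsDedekindDomain B1] [Algebra k B1] [Algebra B1 E]
  [IsScalarTower k B1 E] [IsFractionRing B1 E]
  (P : Place k E) (hB1P : ∀ b : B1, algebraMap B1 E b ∈ P.toValuationSubring)

/-- the chart ring maps to the valuation ring of a place at which it is regular -/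
def toPlaceRing : B1 →+* P.toValuationSubring :=
  (algebraMap B1 E).codRestrict P.toValuationSubring.toSubring hB1P

@[simp] theorem coe_toPlaceRing (b : B1) : (toPlaceRing P hB1P b : E) = algebraMap B1 E b := rfl

theorem toPlaceRing_injective : Function.Injective (toPlaceRing P hB1P) := by
  intro a b h
  apply IsFractionRing.injective B1 E
  have := congrArg (Subtype.val) h
  exact this

/-- every element of `O_P` is a fraction `n / d` of elements of the chart ring with `d(P) ≠ 0`. -/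
theorem exists_frac (y : P.toValuationSubring) :
    ∃ n d : B1, toPlaceRing P hB1P d ∉ maximalIdeal P.toValuationSubring ∧
      y * toPlaceRing P hB1P d = toPlaceRing P hB1P n := by
  have h1 : placeOfPrime (K := k) (F := E) (primeOfPlace P hB1P) = P :=
    placeOfPrime_primeOfPlace P hB1P
  have h2 : (y : E) ∈ (placeOfPrime (K := k) (F := E) (primeOfPlace P hB1P)).toValuationSubring := by
    rw [h1]; exact y.2
  rw [placeOfPrime_toValuationSubring, Valuation.mem_valuationSubring_iff] at h2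
  obtain ⟨n, d, hnd⟩ :=
    HeightOneSpectrum.exists_primeCompl_mul_eq_of_integer (primeOfPlace P hB1P) (y : E) h2
  refine ⟨n, d, ?_, ?_⟩
  · intro hmem
    exact d.2 ((mem_primeOfPlace_iff P hB1P d).mpr hmem)
  · apply Subtype.ext
    exact hnd

end Chart

/-! ### The local ring `R_P` at a non-node point -/

section Datum

open Fermat.Agent.S24.PD IsDedekindDomain
open Fermat.Agent.S40x.EdgeUFD Fermat.Agent.S40x.Node

variable {k E : Type*} [Field k] [Field E] [Algebra k E]
  {B1 : Type*} [CommRing B1] [IsDedekindDomain B1] [Algebra k B1] [Algebra B1 E]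
  [IsScalarTower k B1 E] [IsFractionRing B1 E]
  (P : Place k E) (hB1P : ∀ b : B1, algebraMap B1 E b ∈ P.toValuationSubring)
  {B : Type*} [CommRing B] (ρ : B →+* B1)

/-- the composite `B → B1 → O_P` -/
def phi : B →+* P.toValuationSubring := (toPlaceRing P hB1P).comp ρ

@[simp] theorem coe_phi (b : B) : ((phi P hB1P ρ b : P.toValuationSubring) : E) =
    algebraMap B1 E (ρ b) := rfl

theorem phi_eq_zero_iff (b : B) : phi P hB1P ρ b = 0 ↔ ρ b = 0 := by
  constructor
  · intro hb
    apply toPlaceRing_injective P hB1P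
    rw [map_zero]; exact hb
  · intro hb
    rw [phi, RingHom.comp_apply, hb, map_zero]

theorem phi_mem_maximalIdeal_iff (b : B) :
    phi P hB1P ρ b ∈ maximalIdeal P.toValuationSubring ↔
      algebraMap B1 E (ρ b) ∈ P.toValuationSubring.nonunits :=
  (ValuationSubring.coe_mem_nonunits_iff (A := P.toValuationSubring) (a := phi P hB1P ρ b)).symm

/-- **the local ring `R_P`** of the model at the point `P` of the special fibre -/
abbrev SmRing : Type _ := Localization.AtPrime (ptIdeal (phi P hB1P ρ))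

/-- **the reduction `R_P → O_P`** -/
def locP : SmRing P hB1P ρ →+* P.toValuationSubring := locHom (phi P hB1P ρ)

theorem locP_algebraMap (b : B) :
    locP P hB1P ρ (algebraMap B (SmRing P hB1P ρ) b) = phi P hB1P ρ b :=
  locHom_algebraMap _ b

theorem coe_locP_algebraMap (b : B) :
    ((locP P hB1P ρ (algebraMap B (SmRing P hB1P ρ) b) : P.toValuationSubring) : E) =
      algebraMap B1 E (ρ b) := by
  rw [locP_algebraMap]; rfl

variable {ρ}

theorem locP_surjective (hρ : Function.Surjective ρ) : Function.Surjective (locP P hB1P ρ) := by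
  apply locHom_surjective
  intro y
  obtain ⟨n, d, hd, hyd⟩ := exists_frac P hB1P y
  obtain ⟨a, rfl⟩ := hρ n
  obtain ⟨s, rfl⟩ := hρ d
  exact ⟨a, s, hd, hyd⟩

variable {π e : B}

theorem ker_locP (hπ : ρ π = 0)
    (hker : ∀ b, ρ b = 0 → ∃ c, b * e = π * c)
    (heP : algebraMap B1 E (ρ e) ∉ P.toValuationSubring.nonunits) :
    RingHom.ker (locP P hB1P ρ) = Ideal.span {algebraMap B (SmRing P hB1P ρ) π} :=
  ker_locHom ((phi_eq_zero_iff P hB1P ρ π).mpr hπ)
    (fun h => heP ((phi_mem_maximalIdeal_iff P hB1P ρ e).mp h))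
    (fun b hb => hker b ((phi_eq_zero_iff P hB1P ρ b).mp hb))

theorem locP_eq_zero_iff (hπ : ρ π = 0)
    (hker : ∀ b, ρ b = 0 → ∃ c, b * e = π * c)
    (heP : algebraMap B1 E (ρ e) ∉ P.toValuationSubring.nonunits) (r : SmRing P hB1P ρ) :
    locP P hB1P ρ r = 0 ↔ algebraMap B (SmRing P hB1P ρ) π ∣ r := by
  rw [← RingHom.mem_ker, ker_locP P hB1P hπ hker heP, Ideal.mem_span_singleton]

variable [IsDomain B]

theorem algebraMap_unif_ne_zero (hπ0 : π ≠ 0) : algebraMap B (SmRing P hB1P ρ) π ≠ 0 := by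
  intro h0
  apply hπ0
  apply IsLocalization.injective (SmRing P hB1P ρ)
    (ptIdeal (phi P hB1P ρ)).primeCompl_le_nonZeroDivisors
  rw [h0, map_zero]

/-- `π` is a prime element of `R_P` -/
theorem prime_unif (hπ0 : π ≠ 0) (hπ : ρ π = 0)
    (hker : ∀ b, ρ b = 0 → ∃ c, b * e = π * c)
    (heP : algebraMap B1 E (ρ e) ∉ P.toValuationSubring.nonunits) :
    Prime (algebraMap B (SmRing P hB1P ρ) π) := by
  rw [← Ideal.span_singleton_prime (algebraMap_unif_ne_zero P hB1P hπ0),
    ← ker_locP P hB1P hπ hker heP]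
  exact RingHom.ker_isPrime _

/-! ### `R_P` inside `F0 = Frac B` -/

section F0

variable {F0 : Type*} [Field F0] [Algebra B F0] [IsFractionRing B F0]

theorem isUnit_algebraMap_F0 (s : (ptIdeal (phi P hB1P ρ)).primeCompl) :
    IsUnit (algebraMap B F0 (s : B)) := by
  apply IsUnit.mk0
  intro h0
  have : (s : B) = 0 := (IsFractionRing.injective B F0) (by rw [h0, map_zero])
  exact s.2 (this ▸ Ideal.zero_mem _)

variable (F0) in
/-- the embedding `R_P → F0` as an algebra structure (use with `letI`) -/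
@[reducible] def algF0 : Algebra (SmRing P hB1P ρ) F0 :=
  (IsLocalization.lift (M := (ptIdeal (phi P hB1P ρ)).primeCompl) (g := algebraMap B F0)
    (isUnit_algebraMap_F0 P hB1P)).toAlgebra

theorem isScalarTower_algF0 :
    letI := algF0 P hB1P (ρ := ρ) F0
    IsScalarTower B (SmRing P hB1P ρ) F0 :=
  letI := algF0 P hB1P (ρ := ρ) F0
  IsScalarTower.of_algebraMap_eq fun b =>
    (IsLocalization.lift_eq (M := (ptIdeal (phi P hB1P ρ)).primeCompl) (g := algebraMap B F0)
      (isUnit_algebraMap_F0 P hB1P) b).symm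

theorem isFractionRing_algF0 :
    letI := algF0 P hB1P (ρ := ρ) F0
    IsFractionRing (SmRing P hB1P ρ) F0 :=
  letI := algF0 P hB1P (ρ := ρ) F0
  haveI := isScalarTower_algF0 P hB1P (ρ := ρ) (F0 := F0)
  IsFractionRing.isFractionRing_of_isDomain_of_isLocalization
    (ptIdeal (phi P hB1P ρ)).primeCompl (SmRing P hB1P ρ) F0

end F0

variable [IsNoetherianRing B]

/-- `R_P` is a unique factorisation domain -/
theorem ufd_smRing (hρ : Function.Surjective ρ) (hπ0 : π ≠ 0) (hπ : ρ π = 0)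
    (hker : ∀ b, ρ b = 0 → ∃ c, b * e = π * c)
    (heP : algebraMap B1 E (ρ e) ∉ P.toValuationSubring.nonunits) :
    UniqueFactorizationMonoid (SmRing P hB1P ρ) :=
  haveI : IsNoetherianRing (SmRing P hB1P ρ) :=
    IsLocalization.isNoetherianRing (ptIdeal (phi P hB1P ρ)).primeCompl _ inferInstance
  ufd_of_red (algebraMap_unif_ne_zero P hB1P hπ0)
    (algebraMap_mem_jacobson ((phi_eq_zero_iff P hB1P ρ π).mpr hπ)) (locP P hB1P ρ)
    (locP_surjective P hB1P hρ) (ker_locP P hB1P hπ hker heP)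

/-- **(N-Sm), the DATUM**: `R_P` satisfies helper50's literal `IsSmoothPtRing R_P p t`, where `t`
is any lift of a uniformiser of `O_P` (in particular `P.ord (locP t) = 1`). -/
theorem exists_isSmoothPtRing (hρ : Function.Surjective ρ) {p : ℕ} (hp0 : (p : B) ≠ 0)
    (hp : ρ (p : B) = 0) (hker : ∀ b, ρ b = 0 → ∃ c, b * e = (p : B) * c)
    (heP : algebraMap B1 E (ρ e) ∉ P.toValuationSubring.nonunits) :
    ∃ t : SmRing P hB1P ρ, IsSmoothPtRing (SmRing P hB1P ρ) p t ∧
      Irreducible (locP P hB1P ρ t) ∧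
      P.ord ((locP P hB1P ρ t : P.toValuationSubring) : E) = 1 := by
  obtain ⟨ϖ, hϖ⟩ := IsDiscreteValuationRing.exists_irreducible P.toValuationSubring
  obtain ⟨t, ht⟩ := locP_surjective P hB1P hρ ϖ
  have hcast : algebraMap B (SmRing P hB1P ρ) (p : B) = (p : SmRing P hB1P ρ) := map_natCast _ p
  have hprime := prime_unif P hB1P hp0 hp hker heP
  rw [hcast] at hprime
  have hzero := locP_eq_zero_iff P hB1P hp hker heP
  rw [hcast] at hzero
  refine ⟨t, ⟨?_, hprime, ?_⟩, by rw [ht]; exact hϖ, by rw [ht]; exact P.ord_coe_irreducible hϖ⟩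
  · -- the maximal ideal is `(p, t)`
    apply le_antisymm
    · intro r hr
      have h1 : locP P hB1P ρ r ∈ maximalIdeal P.toValuationSubring :=
        locHom_mem_maximalIdeal hr
      rw [hϖ.maximalIdeal_eq, Ideal.mem_span_singleton] at h1
      obtain ⟨c, hc⟩ := h1
      obtain ⟨c', rfl⟩ := locP_surjective P hB1P hρ c
      have h2 : locP P hB1P ρ (r - t * c') = 0 := by
        rw [map_sub, map_mul, ht, hc, sub_self]
      obtain ⟨d, hd⟩ := (hzero _).mp h2
      rw [Ideal.mem_span_pair]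
      exact ⟨d, c', by rw [mul_comm d, ← hd]; ring⟩
    · rw [Ideal.span_le]
      rintro x (hx | hx)
      · rw [hx, ← hcast]
        exact algebraMap_mem_maximalIdeal ((phi_eq_zero_iff P hB1P ρ _).mpr hp)
      · rw [Set.mem_singleton_iff] at hx
        rw [hx]
        by_contra hnot
        have hu : IsUnit t := by
          rwa [SetLike.mem_coe, mem_maximalIdeal, mem_nonunits_iff, not_not] at hnot
        have := hu.map (locP P hB1P ρ)
        rw [ht] at this
        exact hϖ.not_isUnit this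
  · intro hd
    have := (hzero t).mpr hd
    rw [ht] at this
    exact hϖ.ne_zero this

end Datum

/-! ### The valuation half: `R_P ⊆ O`, `red = locP` -/

/-- reduction of a quotient whose denominator has nonzero reduction -/
theorem red_div_aux {F0 E : Type*} [Field F0] [Field E] (O : ValuationSubring F0) (red : O →+* E)
    (hredm : ∀ z : O, ¬ IsUnit z → red z = 0) {x y : F0} (hx : x ∈ O) (hy : y ∈ O)
    (hy0 : red ⟨y, hy⟩ ≠ 0) :
    ∃ h : x / y ∈ O, red ⟨x / y, h⟩ = red ⟨x, hx⟩ / red ⟨y, hy⟩ := by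
  have hu : IsUnit (⟨y, hy⟩ : O) := by
    by_contra hnu
    exact hy0 (hredm _ hnu)
  obtain ⟨u, hu⟩ := hu
  have hyne : y ≠ 0 := by
    rintro rfl
    apply hy0
    have : (⟨0, hy⟩ : O) = 0 := rfl
    rw [this, map_zero]
  have h3 : y * (((u⁻¹ : Oˣ) : O) : F0) = 1 := by
    have h2 : ((u : O) : F0) = y := by rw [hu]
    have : ((u : O) : F0) * (((u⁻¹ : Oˣ) : O) : F0) = 1 := by
      rw [← MulMemClass.coe_mul, Units.mul_inv]; rfl
    rwa [h2] at this
  have hinv : y⁻¹ = (((u⁻¹ : Oˣ) : O) : F0) := inv_eq_of_mul_eq_one_right h3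
  have hmem : x / y ∈ O := by
    rw [div_eq_mul_inv, hinv]
    exact O.mul_mem _ _ hx (SetLike.coe_mem _)
  refine ⟨hmem, ?_⟩
  have hmul : (⟨x / y, hmem⟩ : O) * ⟨y, hy⟩ = ⟨x, hx⟩ := by
    apply Subtype.ext
    show x / y * y = x
    field_simp
  rw [eq_div_iff hy0, ← map_mul, hmul]

section Val

open Fermat.Agent.S24.PD IsDedekindDomain

variable {k E : Type*} [Field k] [Field E] [Algebra k E]
  {B1 : Type*} [CommRing B1] [IsDedekindDomain B1] [Algebra k B1] [Algebra B1 E]
  [IsScalarTower k B1 E] [IsFractionRing B1 E]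
  (P : Place k E) (hB1P : ∀ b : B1, algebraMap B1 E b ∈ P.toValuationSubring)
  {B : Type*} [CommRing B] [IsDomain B] {ρ : B →+* B1}
  {F0 : Type*} [Field F0] [Algebra B F0] [IsFractionRing B F0]
  (O : ValuationSubring F0) (hBO : ∀ b : B, algebraMap B F0 b ∈ O)
  (red : O →+* E) (hred : ∀ b : B, red ⟨algebraMap B F0 b, hBO b⟩ = algebraMap B1 E (ρ b))
  (hredm : ∀ z : O, ¬ IsUnit z → red z = 0)

include hred hredm in
/-- **(v1)**: `R_P ⊆ O`, and on `R_P` the reduction of `O` is `locP`. -/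
theorem exists_red_algebraMap (r : SmRing P hB1P ρ) :
    letI := algF0 P hB1P (ρ := ρ) F0
    ∃ h : algebraMap (SmRing P hB1P ρ) F0 r ∈ O,
      red ⟨_, h⟩ = ((locP P hB1P ρ r : P.toValuationSubring) : E) := by
  letI := algF0 P hB1P (ρ := ρ) F0
  haveI := isScalarTower_algF0 P hB1P (ρ := ρ) (F0 := F0)
  have hιB : ∀ b : B, algebraMap (SmRing P hB1P ρ) F0 (algebraMap B (SmRing P hB1P ρ) b) =
      algebraMap B F0 b := fun b => (IsScalarTower.algebraMap_apply B (SmRing P hB1P ρ) F0 b).symm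
  obtain ⟨b, s, rfl⟩ := IsLocalization.exists_mk'_eq (ptIdeal (phi P hB1P ρ)).primeCompl r
  have h1 : algebraMap (SmRing P hB1P ρ) F0 (IsLocalization.mk' (SmRing P hB1P ρ) b s) *
      algebraMap B F0 (s : B) = algebraMap B F0 b := by
    rw [← hιB (s : B), ← map_mul, IsLocalization.mk'_spec, hιB]
  have hsu : IsUnit (phi P hB1P ρ (s : B)) := isUnit_of_mem_primeCompl _ s
  have hsE : algebraMap B1 E (ρ (s : B)) ≠ 0 := by
    intro h0
    have : phi P hB1P ρ (s : B) = 0 := Subtype.ext h0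
    exact hsu.ne_zero this
  have hs0 : red ⟨algebraMap B F0 (s : B), hBO s⟩ ≠ 0 := by
    rw [hred]; exact hsE
  obtain ⟨hmem, hval⟩ := red_div_aux O red hredm (hBO b) (hBO s) hs0
  have hsF : algebraMap B F0 (s : B) ≠ 0 := (isUnit_algebraMap_F0 P hB1P s).ne_zero
  have e : algebraMap (SmRing P hB1P ρ) F0 (IsLocalization.mk' (SmRing P hB1P ρ) b s) =
      algebraMap B F0 b / algebraMap B F0 (s : B) := by
    rw [eq_div_iff hsF, h1]
  have hmem' : algebraMap (SmRing P hB1P ρ) F0 (IsLocalization.mk' (SmRing P hB1P ρ) b s) ∈ O := by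
    rw [e]; exact hmem
  refine ⟨hmem', ?_⟩
  have e2 : (⟨_, hmem'⟩ : O) = ⟨_, hmem⟩ := Subtype.ext e
  rw [e2, hval, hred, hred, div_eq_iff hsE]
  have := congrArg (Subtype.val) (locHom_mk' (phi P hB1P ρ) b s)
  exact this.symm

include hred hredm in
theorem algebraMap_mem_O (r : SmRing P hB1P ρ) :
    letI := algF0 P hB1P (ρ := ρ) F0
    algebraMap (SmRing P hB1P ρ) F0 r ∈ O :=
  (exists_red_algebraMap P hB1P O hBO red hred hredm r).1

include hred hredm in
/-- **(v1), second half**: the elements of `R_P` with non-zero reduction are units of `O`. -/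
theorem inv_mem_O_of_locP_ne_zero {r : SmRing P hB1P ρ} (hr : locP P hB1P ρ r ≠ 0) :
    letI := algF0 P hB1P (ρ := ρ) F0
    (algebraMap (SmRing P hB1P ρ) F0 r)⁻¹ ∈ O := by
  letI := algF0 P hB1P (ρ := ρ) F0
  obtain ⟨h, hval⟩ := exists_red_algebraMap P hB1P O hBO red hred hredm r
  have h0 : red ⟨_, h⟩ ≠ 0 := by
    rw [hval]
    intro h0
    exact hr (Subtype.ext h0)
  obtain ⟨hmem, -⟩ := red_div_aux O red hredm O.one_mem h h0
  rwa [one_div] at hmem

end Val

/-! ### (TAME-Sm) at a non-node place of the chart -/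

section Main

open Fermat.Agent.S24.PD IsDedekindDomain IsDiscreteValuationRing
open Fermat.Agent.S40x.EdgeUFD Fermat.Agent.S40x.PrimePlace Fermat.Agent.S40x.TameSmooth

variable {k E : Type*} [Field k] [Field E] [Algebra k E]
  {B1 : Type*} [CommRing B1] [IsDedekindDomain B1] [Algebra k B1] [Algebra B1 E]
  [IsScalarTower k B1 E] [IsFractionRing B1 E]

/-- `ordK` of helper62 for the valuation ring of a place is the `ord` of the place. -/
theorem ordK_place (P : Place k E) (y : E) :
    ordK (D := P.toValuationSubring) E y = P.ord y := rfl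

/-- **(TAME-Sm) = (b5), chart level.**  `P` a place of the component `E / k` at which the chart
ring `B1` is regular and which is not a node (`e`); if `p ∣ ord_v f` at every place `v` of
`F0 / K0`, then `f = π ^ a * g` with `g` a unit of `O` whose reduction has order divisible by `p`
at `P`. -/
theorem tame_smooth_chart
    (P : Place k E) (hB1P : ∀ b : B1, algebraMap B1 E b ∈ P.toValuationSubring)
    {B : Type*} [CommRing B] [IsDomain B] [IsNoetherianRing B]
    (ρ : B →+* B1) (hρ : Function.Surjective ρ)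
    {π e : B} (hπ0 : π ≠ 0) (hπ : ρ π = 0)
    (hker : ∀ b, ρ b = 0 → ∃ c, b * e = π * c)
    (heP : algebraMap B1 E (ρ e) ∉ P.toValuationSubring.nonunits)
    {F0 : Type*} [Field F0] [Algebra B F0] [IsFractionRing B F0]
    {K0 : Type*} [Field K0] [Algebra K0 F0]
    (hK0 : ∀ a : K0, ∃ (r : B) (n : ℕ),
      algebraMap K0 F0 a * (algebraMap B F0 π) ^ n = algebraMap B F0 r)
    (O : ValuationSubring F0) (hBO : ∀ b : B, algebraMap B F0 b ∈ O)
    (red : O →+* E) (hred : ∀ b : B, red ⟨algebraMap B F0 b, hBO b⟩ = algebraMap B1 E (ρ b))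
    (hredm : ∀ z : O, ¬ IsUnit z → red z = 0)
    {p : ℕ} (hp : 0 < p) {f : F0} (hf : f ≠ 0)
    (hplaces : ∀ v : Place K0 F0, (p : ℤ) ∣ v.ord f) :
    ∃ (a : ℤ) (hO : f / (algebraMap B F0 π) ^ a ∈ O),
      red ⟨f / (algebraMap B F0 π) ^ a, hO⟩ ≠ 0 ∧
        (p : ℤ) ∣ P.ord (red ⟨f / (algebraMap B F0 π) ^ a, hO⟩) := by
  classical
  set D := P.toValuationSubring with hD
  set R := SmRing P hB1P ρ with hR
  set loc : R →+* D := locP P hB1P ρ with hloc
  letI algRF : Algebra R F0 := algF0 P hB1P (ρ := ρ) F0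
  haveI : IsScalarTower B R F0 := isScalarTower_algF0 P hB1P (ρ := ρ) (F0 := F0)
  haveI : IsFractionRing R F0 := isFractionRing_algF0 P hB1P (ρ := ρ) (F0 := F0)
  have hBinj : Function.Injective (algebraMap B F0) := IsFractionRing.injective B F0
  have hιB : ∀ b : B, algebraMap R F0 (algebraMap B R b) = algebraMap B F0 b := fun b =>
    (IsScalarTower.algebraMap_apply B R F0 b).symm
  have hRinj : Function.Injective (algebraMap R F0) := IsFractionRing.injective R F0
  have hι0 : ∀ {r : R}, r ≠ 0 → algebraMap R F0 r ≠ 0 :=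
    fun hr h0 => hr (hRinj (by rw [h0, map_zero]))
  set pe : R := algebraMap B R π with hpe
  have hπF : algebraMap B F0 π ≠ 0 := fun h0 => hπ0 (hBinj (by rw [h0, map_zero]))
  have hpe0 : pe ≠ 0 := algebraMap_unif_ne_zero P hB1P hπ0
  have hz : Prime pe := prime_unif P hB1P hπ0 hπ hker heP
  haveI hUFD : UniqueFactorizationMonoid R := ufd_smRing P hB1P hρ hπ0 hπ hker heP
  have hker' : ∀ x, loc x = 0 → pe ∣ x := fun x hx =>
    (locP_eq_zero_iff P hB1P hπ hker heP x).mp hx
  have hRO : ∀ r : R, ∃ h : algebraMap R F0 r ∈ O, red ⟨_, h⟩ = ((loc r : D) : E) :=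
    fun r => exists_red_algebraMap P hB1P O hBO red hred hredm r
  -- write `f = f1 / f2`
  obtain ⟨f1, f2, hf2mem, rfl⟩ := IsFractionRing.div_surjective (A := R) f
  have hf2 : f2 ≠ 0 := nonZeroDivisors.ne_zero hf2mem
  have hf1 : f1 ≠ 0 := by
    rintro rfl; simp at hf
  have hfin1 : FiniteMultiplicity pe f1 := FiniteMultiplicity.of_not_isUnit hz.not_isUnit hf1
  have hfin2 : FiniteMultiplicity pe f2 := FiniteMultiplicity.of_not_isUnit hz.not_isUnit hf2
  obtain ⟨h1, hfh1, huh1⟩ := hfin1.exists_eq_pow_mul_and_not_dvd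
  obtain ⟨h2, hfh2, huh2⟩ := hfin2.exists_eq_pow_mul_and_not_dvd
  set a1 := multiplicity pe f1 with ha1
  set a2 := multiplicity pe f2 with ha2
  have hp' : ∀ q : R, Prime q → ¬ Associated q pe →
      (p : ℤ) ∣ (multiplicity q f1 : ℤ) - multiplicity q f2 := by
    intro q hq h1'
    have hK : ∀ a : K0, algebraMap K0 F0 a ∈ valuationSubring (F := F0) hq := by
      intro a
      obtain ⟨r, n, hr⟩ := hK0 a
      refine ⟨algebraMap B R r, pe ^ n, ?_, ?_⟩
      · intro h
        exact h1' (hq.associated_of_dvd hz (hq.dvd_of_dvd_pow h))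
      · rw [map_pow, hιB, hιB]; exact hr
    exact dvd_sub_of_forall_place hq hK hf1 hf2 hplaces
  obtain ⟨n1, n2, hn1, hn2, hcong⟩ := edge0_frac hz loc hker' hp hf1 hf2 hp' hfh1 hfh2
  have hh2 : algebraMap R F0 h2 ≠ 0 := hι0 (fun h0 => huh2 (h0 ▸ dvd_zero pe))
  have hkey : algebraMap R F0 f1 / algebraMap R F0 f2 / (algebraMap B F0 π) ^ ((a1 : ℤ) - a2) =
      algebraMap R F0 h1 / algebraMap R F0 h2 := by
    rw [zpow_sub₀ hπF, zpow_natCast, zpow_natCast]
    conv_lhs => rw [hfh1, hfh2]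
    simp only [map_mul, map_pow]
    rw [show algebraMap R F0 pe = algebraMap B F0 π from hιB π]
    field_simp
  have hl1 : loc h1 ≠ 0 := fun h0 => huh1 (hker' h1 h0)
  have hl2 : loc h2 ≠ 0 := fun h0 => huh2 (hker' h2 h0)
  obtain ⟨hm1, hr1⟩ := hRO h1
  obtain ⟨hm2, hr2⟩ := hRO h2
  have hl1E : ((loc h1 : D) : E) ≠ 0 := fun h0 => hl1 (Subtype.ext h0)
  have hl2E : ((loc h2 : D) : E) ≠ 0 := fun h0 => hl2 (Subtype.ext h0)
  have hr2' : red ⟨_, hm2⟩ ≠ 0 := by rw [hr2]; exact hl2E
  obtain ⟨hdiv, hreddiv⟩ := red_div_aux O red hredm hm1 hm2 hr2'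
  have hO : algebraMap R F0 f1 / algebraMap R F0 f2 / (algebraMap B F0 π) ^ ((a1 : ℤ) - a2) ∈ O := by
    rw [hkey]; exact hdiv
  have hval : red ⟨_, hO⟩ = ((loc h1 : D) : E) / ((loc h2 : D) : E) := by
    rw [← hr1, ← hr2, ← hreddiv]
    exact congrArg red (Subtype.ext hkey)
  refine ⟨(a1 : ℤ) - a2, hO, ?_, ?_⟩
  · rw [hval]; exact div_ne_zero hl1E hl2E
  · have e1 := ordK_algebraMap (D := P.toValuationSubring) E hn1
    have e2 := ordK_algebraMap (D := P.toValuationSubring) E hn2
    have e3 := ordK_div (D := P.toValuationSubring) E hl1E hl2E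
    rw [ValuationSubring.algebraMap_apply] at e1 e2
    rw [hval, ← ordK_place, e3, e1, e2]
    exact Int.modEq_zero_iff_dvd.mp hcong

/-- **(TAME-Sm), consumer form**: ANY exponent `a₀` which normalises `f` to an element of `O` with
nonzero reduction gives an order divisible by `p` at the non-node place `P`. -/
theorem tame_smooth_chart'
    (P : Place k E) (hB1P : ∀ b : B1, algebraMap B1 E b ∈ P.toValuationSubring)
    {B : Type*} [CommRing B] [IsDomain B] [IsNoetherianRing B]
    (ρ : B →+* B1) (hρ : Function.Surjective ρ)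
    {π e : B} (hπ0 : π ≠ 0) (hπ : ρ π = 0)
    (hker : ∀ b, ρ b = 0 → ∃ c, b * e = π * c)
    (heP : algebraMap B1 E (ρ e) ∉ P.toValuationSubring.nonunits)
    {F0 : Type*} [Field F0] [Algebra B F0] [IsFractionRing B F0]
    {K0 : Type*} [Field K0] [Algebra K0 F0]
    (hK0 : ∀ a : K0, ∃ (r : B) (n : ℕ),
      algebraMap K0 F0 a * (algebraMap B F0 π) ^ n = algebraMap B F0 r)
    (O : ValuationSubring F0) (hBO : ∀ b : B, algebraMap B F0 b ∈ O)
    (red : O →+* E) (hred : ∀ b : B, red ⟨algebraMap B F0 b, hBO b⟩ = algebraMap B1 E (ρ b))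
    (hredm : ∀ z : O, ¬ IsUnit z → red z = 0)
    {p : ℕ} (hp : 0 < p) {f : F0} (hf : f ≠ 0)
    (hplaces : ∀ v : Place K0 F0, (p : ℤ) ∣ v.ord f)
    (a₀ : ℤ) (hO₀ : f / (algebraMap B F0 π) ^ a₀ ∈ O)
    (h₀ : red ⟨f / (algebraMap B F0 π) ^ a₀, hO₀⟩ ≠ 0) :
    (p : ℤ) ∣ P.ord (red ⟨f / (algebraMap B F0 π) ^ a₀, hO₀⟩) := by
  obtain ⟨a, hO, hne, hdvd⟩ := tame_smooth_chart P hB1P ρ hρ hπ0 hπ hker heP hK0 O hBO red hred
    hredm hp hf hplaces
  have hπF : algebraMap B F0 π ≠ 0 := fun h0 =>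
    hπ0 ((IsFractionRing.injective B F0) (by rw [h0, map_zero]))
  -- `π` is not a unit of `O`
  have hπnu : ¬ IsUnit (⟨algebraMap B F0 π, hBO π⟩ : O) := by
    intro hu
    have h1 : red ⟨algebraMap B F0 π, hBO π⟩ = 0 := by rw [hred, hπ, map_zero]
    exact (hu.map red).ne_zero h1
  have hunit : ∀ {x : F0} (hx : x ∈ O), red ⟨x, hx⟩ ≠ 0 → IsUnit (⟨x, hx⟩ : O) := by
    intro x hx h
    by_contra hnu
    exact h (hredm _ hnu)
  -- a positive power of `π` times a unit of `O` is not a unit of `O`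
  have key : ∀ (m : ℕ) {x y : F0} (hx : x ∈ O) (hy : y ∈ O), IsUnit (⟨x, hx⟩ : O) →
      IsUnit (⟨y, hy⟩ : O) → x = y * (algebraMap B F0 π) ^ (m + 1) → False := by
    intro m x y hx hy hux huy hxy
    have hprod : (⟨x, hx⟩ : O) = ⟨y, hy⟩ * ⟨algebraMap B F0 π, hBO π⟩ ^ (m + 1) := by
      apply Subtype.ext
      show x = y * (algebraMap B F0 π) ^ (m + 1)
      exact hxy
    rw [hprod] at hux
    have h2 := isUnit_of_mul_isUnit_right hux
    exact hπnu ((isUnit_pow_iff (Nat.succ_ne_zero m)).mp h2)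
  have hu := hunit hO hne
  have hu₀ := hunit hO₀ h₀
  have haa : a = a₀ := by
    rcases lt_trichotomy a a₀ with h | h | h
    · exfalso
      obtain ⟨m, hm⟩ : ∃ m : ℕ, a₀ - a = m + 1 := ⟨(a₀ - a - 1).toNat, by omega⟩
      refine key m hO hO₀ hu hu₀ ?_
      have : a₀ = a + ((m + 1 : ℕ) : ℤ) := by push_cast; omega
      rw [this, zpow_add₀ hπF, zpow_natCast]
      field_simp
    · exact h
    · exfalso
      obtain ⟨m, hm⟩ : ∃ m : ℕ, a - a₀ = m + 1 := ⟨(a - a₀ - 1).toNat, by omega⟩
      refine key m hO₀ hO hu₀ hu ?_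
      have : a = a₀ + ((m + 1 : ℕ) : ℤ) := by push_cast; omega
      rw [this, zpow_add₀ hπF, zpow_natCast]
      field_simp
  subst haa
  exact hdvd

end Main

end Fermat.Agent.S40x.Node.SmoothChart
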