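import Fermat.Agent.S40x.Node.NodeInst
import Fermat.Agent.S40x.Node.SmoothChart
import Fermat.Agent.S24.ZP.PlaceSum

/-!
# P-S44/S40, block R1, leaf N4 (helper61): the smooth-point rings in the vocabulary of `Node/NodeInst`

Instance layer of `Node/SmoothChart` for helper50's chart ring `B0 C Γ = (B∞)^Γ` over `W = A^Γ`
(chart `t ≠ ∞` of the abstract two-component setting `R : RedSetup2 A S k (κ₁ × κ₂)`, `κ₁`, `κ₂`
fields).  Everything is generic in the chart coordinate `C`, so that `C.swap` (chart `t ≠ 0`)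
gives the places over `t = ∞`; NO place of the chart is excluded except the nodes (the cusps lying
on the chart are smooth points).

* `algebraMap_B₁_mem`, `algebraMap_B₂_mem` : `B₁ ⊆ O_P` as soon as `T₁ ∈ O_P`;
* `IsNonNode₁ C P` : some `a ∈ I₁ = {a | (a, 0) ∈ B̄}` is a unit at `P` (`IsNonNode₂` symmetric);
  `exists_e₁`, `exists_e₂` : the element `e ∈ B_0` vanishing on the other component and not at `P`;
  `hker₁`, `hker₂` : (UNRAM) `rho1 b = 0 → ∃ c, b * e = ϖ * c` from `NodeInst.unif_dvd_of_rho_eq_zero`;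
* `R₁ C Γ P hT`, `loc₁ C Γ P hT` (and `R₂`, `loc₂`) : the local ring `R_P` and its reduction onto
  `O_P`;
* `exists_isSmoothPtRing₁`, `exists_isSmoothPtRing₂` : **the DATUM** `IsSmoothPtRing R_P p t`,
  `loc t` a uniformiser of `O_P`, `P.ord (loc t) = 1`;
* `tame_smooth₁`, `tame_smooth₂` : **(TAME-Sm) = (b5)**.

Hypotheses = those of `Node/NodeInst` (`hD : FixData2 R Γ`, the fixed uniformiser `ϖ`, `hlift`,
`hL2 : C.IsL2`), `[IsNoetherianRing (B0 C Γ)]` (N1: `Node/FixedNoeth`, `Node/FixedNoethZero`) and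
`[IsDedekindDomain C.B₁] [IsFractionRing C.B₁ κ₁]` (from separability of `κ₁ / k(T₁)`:
`Gateway/GoodRed/PlacesIntegral`).
-/

set_option autoImplicit false
set_option linter.unusedSectionVars false
set_option linter.style.haveILetI false

noncomputable section

namespace Fermat.Agent.S40x.Node.SmoothInst

open AlgebraicCurve IsLocalRing
open Fermat.Agent.S34x Fermat.Agent.S34x.C0two Fermat.Agent.S34x.Lattice2
open Fermat.Agent.S19x.Geo.LatticeFixed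
open Fermat.Agent.S33x.H1.LatticeFixed2 Fermat.Agent.S33x.H1.FixedDecomp
open Fermat.Agent.S40x.Node.NodeInst Fermat.Agent.S40x.Node.SmoothChart

variable {K : Type*} [Field K] {A : ValuationSubring K} {F : Type*} [Field F] [Algebra K F]
  {S : SmallRing F} {k κ₁ κ₂ : Type*} [Field k] [Field κ₁] [Field κ₂] [Algebra k κ₁]
  [Algebra k κ₂] {R : RedSetup2 A S k (κ₁ × κ₂)} {C : ChartCoord R}
  {Γ : Set (SemilinearAut K F)}

/-! ### Places on the chart -/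

/-- the chart ring `B₁` is regular at every place at which the coordinate `T₁` is regular -/
theorem algebraMap_B₁_mem (P : Place k κ₁) (hT : C.T.1 ∈ P.toValuationSubring) (b : C.B₁) :
    algebraMap C.B₁ κ₁ b ∈ P.toValuationSubring :=
  Fermat.Agent.S24.ZP.integralClosure_le_place (K := k) (F := κ₁) C.T.1 P hT ⟨(b : κ₁), b.2⟩

theorem algebraMap_B₂_mem (P : Place k κ₂) (hT : C.T.2 ∈ P.toValuationSubring) (b : C.B₂) :
    algebraMap C.B₂ κ₂ b ∈ P.toValuationSubring :=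
  Fermat.Agent.S24.ZP.integralClosure_le_place (K := k) (F := κ₂) C.T.2 P hT ⟨(b : κ₂), b.2⟩

/-- **non-node, first component**: some function of `I₁ = {a | (a, 0) ∈ B̄}` does not vanish
at `P`. -/
def IsNonNode₁ (C : ChartCoord R) (P : Place k κ₁) : Prop :=
  ∃ a : C.B₁, ((a, 0) : C.B₁ × C.B₂) ∈ C.BbarT ∧ (a : κ₁) ∉ P.toValuationSubring.nonunits

/-- **non-node, second component** -/
def IsNonNode₂ (C : ChartCoord R) (P : Place k κ₂) : Prop :=
  ∃ b : C.B₂, ((0, b) : C.B₁ × C.B₂) ∈ C.BbarT ∧ (b : κ₂) ∉ P.toValuationSubring.nonunits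

/-! ### The element `e` and (UNRAM) -/

section Unram

variable (hD : FixData2 R Γ) {ϖ : A} (hϖfix : IsFixedK Γ (ϖ : K)) (hϖ0 : ϖ ≠ 0)
  (hϖ : ∀ c : A, IsFixedK Γ (c : K) → c ∈ maximalIdeal A → ϖ ∣ c)
  (hϖm : ϖ ∈ maximalIdeal A)
  (hlift : ∀ (b : ℕ) (y : κ₁ × κ₂), y ∈ R.redLat (C.LN 0 b) →
    ∃ (f : F) (hf : f ∈ S.O), f ∈ C.LN 0 b ∧ IsFixed Γ f ∧ R.res ⟨f, hf⟩ = y)

include hϖm in
theorem rho1_unifB : rho1 C Γ (unifB hϖfix) = 0 :=
  ((rho_eq_zero_iff' _).mp (rho_unifB (C := C) hϖfix hϖm)).1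

include hϖm in
theorem rho2_unifB : rho2 C Γ (unifB hϖfix) = 0 :=
  ((rho_eq_zero_iff' _).mp (rho_unifB (C := C) hϖfix hϖm)).2

include hlift in
theorem exists_e₁ {P : Place k κ₁} (hP : IsNonNode₁ C P) :
    ∃ e : B0 C Γ, rho2 C Γ e = 0 ∧
      algebraMap C.B₁ κ₁ (rho1 C Γ e) ∉ P.toValuationSubring.nonunits := by
  obtain ⟨a, ha, haP⟩ := hP
  obtain ⟨e, he⟩ := rho_surjective_BbarT hlift ha
  refine ⟨e, ?_, ?_⟩
  · rw [← rho_snd, he]
  · rw [← rho_fst, he]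
    exact haP

include hlift in
theorem exists_e₂ {P : Place k κ₂} (hP : IsNonNode₂ C P) :
    ∃ e : B0 C Γ, rho1 C Γ e = 0 ∧
      algebraMap C.B₂ κ₂ (rho2 C Γ e) ∉ P.toValuationSubring.nonunits := by
  obtain ⟨a, ha, haP⟩ := hP
  obtain ⟨e, he⟩ := rho_surjective_BbarT hlift ha
  refine ⟨e, ?_, ?_⟩
  · rw [← rho_fst, he]
  · rw [← rho_snd, he]
    exact haP

include hD hϖ0 hϖ in
/-- **(UNRAM)** at a non-node of the first component -/
theorem hker₁ {e : B0 C Γ} (he : rho2 C Γ e = 0) (b : B0 C Γ) (hb : rho1 C Γ b = 0) :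
    ∃ c, b * e = unifB hϖfix * c := by
  have h1 : rho1 C Γ (b * e) = 0 := by rw [map_mul, hb, zero_mul]
  have h2 : rho2 C Γ (b * e) = 0 := by rw [map_mul, he, mul_zero]
  exact unif_dvd_of_rho_eq_zero hD hϖfix hϖ0 hϖ h1 h2

include hD hϖ0 hϖ in
/-- **(UNRAM)** at a non-node of the second component -/
theorem hker₂ {e : B0 C Γ} (he : rho1 C Γ e = 0) (b : B0 C Γ) (hb : rho2 C Γ b = 0) :
    ∃ c, b * e = unifB hϖfix * c := by
  have h1 : rho1 C Γ (b * e) = 0 := by rw [map_mul, he, mul_zero]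
  have h2 : rho2 C Γ (b * e) = 0 := by rw [map_mul, hb, zero_mul]
  exact unif_dvd_of_rho_eq_zero hD hϖfix hϖ0 hϖ h1 h2

theorem unifB_eq_natCast {p : ℕ} (hϖp : (ϖ : K) = (p : K)) :
    (unifB (C := C) hϖfix : B0 C Γ) = (p : B0 C Γ) := by
  apply Subtype.ext
  rw [coe_unifB, hϖp, map_natCast]
  simp

end Unram

/-! ### The local rings at the non-node places and (TAME-Sm) -/

section Inst

variable (hD : FixData2 R Γ) {ϖ : A} (hϖfix : IsFixedK Γ (ϖ : K)) (hϖ0 : ϖ ≠ 0)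
  (hϖ : ∀ c : A, IsFixedK Γ (c : K) → c ∈ maximalIdeal A → ϖ ∣ c)
  (hϖm : ϖ ∈ maximalIdeal A)
  (hlift : ∀ (b : ℕ) (y : κ₁ × κ₂), y ∈ R.redLat (C.LN 0 b) →
    ∃ (f : F) (hf : f ∈ S.O), f ∈ C.LN 0 b ∧ IsFixed Γ f ∧ R.res ⟨f, hf⟩ = y)
  (hL2 : C.IsL2) [IsNoetherianRing (B0 C Γ)]

section First

variable [IsDedekindDomain C.B₁] [IsFractionRing C.B₁ κ₁]

variable (C Γ) in
/-- **the local ring `R_P`** of the model at a place `P` of the first component (chart `C`) -/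
abbrev R₁ (P : Place k κ₁) (hT : C.T.1 ∈ P.toValuationSubring) : Type _ :=
  SmRing P (algebraMap_B₁_mem P hT) (rho1 C Γ)

variable (C Γ) in
/-- the reduction `R_P → O_P` -/
abbrev loc₁ (P : Place k κ₁) (hT : C.T.1 ∈ P.toValuationSubring) :
    R₁ C Γ P hT →+* P.toValuationSubring :=
  locP P (algebraMap_B₁_mem P hT) (rho1 C Γ)

include hD hϖfix hϖ0 hϖ hϖm hlift hL2 in
/-- **(N-Sm), instance, first component: the DATUM** at every non-node place of the chart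
(cusps on the chart included). -/
theorem exists_isSmoothPtRing₁ {p : ℕ} (hϖp : (ϖ : K) = (p : K)) {P : Place k κ₁}
    (hT : C.T.1 ∈ P.toValuationSubring) (hP : IsNonNode₁ C P) :
    ∃ t : R₁ C Γ P hT, IsSmoothPtRing (R₁ C Γ P hT) p t ∧
      Irreducible (loc₁ C Γ P hT t) ∧
      P.ord ((loc₁ C Γ P hT t : P.toValuationSubring) : κ₁) = 1 := by
  obtain ⟨e, he2, heP⟩ := exists_e₁ hlift hP
  have hcast := unifB_eq_natCast (C := C) hϖfix hϖp
  refine exists_isSmoothPtRing P (algebraMap_B₁_mem P hT) (rho1_surjective hlift hL2) (e := e)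
    ?_ ?_ ?_ heP
  · rw [← hcast]; exact unifB_ne_zero hϖfix hϖ0
  · rw [← hcast]; exact rho1_unifB hϖfix hϖm
  · intro b hb
    rw [← hcast]
    exact hker₁ hD hϖfix hϖ0 hϖ he2 b hb

include hD hϖfix hϖ0 hϖ hϖm hlift hL2 in
/-- **(TAME-Sm) = (b5), instance, first component.** -/
theorem tame_smooth₁ {P : Place k κ₁} (hT : C.T.1 ∈ P.toValuationSubring)
    (hP : IsNonNode₁ C P)
    {F0 : Type*} [Field F0] [Algebra (B0 C Γ) F0] [IsFractionRing (B0 C Γ) F0]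
    {K0 : Type*} [Field K0] [Algebra K0 F0]
    (hK0 : ∀ a : K0, ∃ (r : B0 C Γ) (n : ℕ),
      algebraMap K0 F0 a * (algebraMap (B0 C Γ) F0 (unifB hϖfix)) ^ n =
        algebraMap (B0 C Γ) F0 r)
    (O : ValuationSubring F0) (hBO : ∀ b : B0 C Γ, algebraMap (B0 C Γ) F0 b ∈ O)
    (red : O →+* κ₁)
    (hred : ∀ b : B0 C Γ, red ⟨algebraMap (B0 C Γ) F0 b, hBO b⟩ = ((rho1 C Γ b : C.B₁) : κ₁))
    (hredm : ∀ z : O, ¬ IsUnit z → red z = 0)
    {p : ℕ} (hp : 0 < p) {f : F0} (hf : f ≠ 0)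
    (hplaces : ∀ v : Place K0 F0, (p : ℤ) ∣ v.ord f)
    (a₀ : ℤ) (hO₀ : f / (algebraMap (B0 C Γ) F0 (unifB hϖfix)) ^ a₀ ∈ O)
    (h₀ : red ⟨f / (algebraMap (B0 C Γ) F0 (unifB hϖfix)) ^ a₀, hO₀⟩ ≠ 0) :
    (p : ℤ) ∣ P.ord (red ⟨f / (algebraMap (B0 C Γ) F0 (unifB hϖfix)) ^ a₀, hO₀⟩) := by
  obtain ⟨e, he2, heP⟩ := exists_e₁ hlift hP
  exact tame_smooth_chart' P (algebraMap_B₁_mem P hT) (rho1 C Γ) (rho1_surjective hlift hL2)
    (unifB_ne_zero hϖfix hϖ0) (rho1_unifB hϖfix hϖm) (hker₁ hD hϖfix hϖ0 hϖ he2) heP hK0 O hBO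
    red hred hredm hp hf hplaces a₀ hO₀ h₀

end First

section Second

variable [IsDedekindDomain C.B₂] [IsFractionRing C.B₂ κ₂]

variable (C Γ) in
/-- **the local ring `R_P`** of the model at a place `P` of the second component (chart `C`) -/
abbrev R₂ (P : Place k κ₂) (hT : C.T.2 ∈ P.toValuationSubring) : Type _ :=
  SmRing P (algebraMap_B₂_mem P hT) (rho2 C Γ)

variable (C Γ) in
/-- the reduction `R_P → O_P` -/
abbrev loc₂ (P : Place k κ₂) (hT : C.T.2 ∈ P.toValuationSubring) :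
    R₂ C Γ P hT →+* P.toValuationSubring :=
  locP P (algebraMap_B₂_mem P hT) (rho2 C Γ)

include hD hϖfix hϖ0 hϖ hϖm hlift hL2 in
/-- **(N-Sm), instance, second component: the DATUM.** -/
theorem exists_isSmoothPtRing₂ {p : ℕ} (hϖp : (ϖ : K) = (p : K)) {P : Place k κ₂}
    (hT : C.T.2 ∈ P.toValuationSubring) (hP : IsNonNode₂ C P) :
    ∃ t : R₂ C Γ P hT, IsSmoothPtRing (R₂ C Γ P hT) p t ∧
      Irreducible (loc₂ C Γ P hT t) ∧
      P.ord ((loc₂ C Γ P hT t : P.toValuationSubring) : κ₂) = 1 := by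
  obtain ⟨e, he1, heP⟩ := exists_e₂ hlift hP
  have hcast := unifB_eq_natCast (C := C) hϖfix hϖp
  refine exists_isSmoothPtRing P (algebraMap_B₂_mem P hT) (rho2_surjective hlift hL2) (e := e)
    ?_ ?_ ?_ heP
  · rw [← hcast]; exact unifB_ne_zero hϖfix hϖ0
  · rw [← hcast]; exact rho2_unifB hϖfix hϖm
  · intro b hb
    rw [← hcast]
    exact hker₂ hD hϖfix hϖ0 hϖ he1 b hb

include hD hϖfix hϖ0 hϖ hϖm hlift hL2 in
/-- **(TAME-Sm) = (b5), instance, second component.** -/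
theorem tame_smooth₂ {P : Place k κ₂} (hT : C.T.2 ∈ P.toValuationSubring)
    (hP : IsNonNode₂ C P)
    {F0 : Type*} [Field F0] [Algebra (B0 C Γ) F0] [IsFractionRing (B0 C Γ) F0]
    {K0 : Type*} [Field K0] [Algebra K0 F0]
    (hK0 : ∀ a : K0, ∃ (r : B0 C Γ) (n : ℕ),
      algebraMap K0 F0 a * (algebraMap (B0 C Γ) F0 (unifB hϖfix)) ^ n =
        algebraMap (B0 C Γ) F0 r)
    (O : ValuationSubring F0) (hBO : ∀ b : B0 C Γ, algebraMap (B0 C Γ) F0 b ∈ O)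
    (red : O →+* κ₂)
    (hred : ∀ b : B0 C Γ, red ⟨algebraMap (B0 C Γ) F0 b, hBO b⟩ = ((rho2 C Γ b : C.B₂) : κ₂))
    (hredm : ∀ z : O, ¬ IsUnit z → red z = 0)
    {p : ℕ} (hp : 0 < p) {f : F0} (hf : f ≠ 0)
    (hplaces : ∀ v : Place K0 F0, (p : ℤ) ∣ v.ord f)
    (a₀ : ℤ) (hO₀ : f / (algebraMap (B0 C Γ) F0 (unifB hϖfix)) ^ a₀ ∈ O)
    (h₀ : red ⟨f / (algebraMap (B0 C Γ) F0 (unifB hϖfix)) ^ a₀, hO₀⟩ ≠ 0) :
    (p : ℤ) ∣ P.ord (red ⟨f / (algebraMap (B0 C Γ) F0 (unifB hϖfix)) ^ a₀, hO₀⟩) := by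
  obtain ⟨e, he1, heP⟩ := exists_e₂ hlift hP
  exact tame_smooth_chart' P (algebraMap_B₂_mem P hT) (rho2 C Γ) (rho2_surjective hlift hL2)
    (unifB_ne_zero hϖfix hϖ0) (rho2_unifB hϖfix hϖm) (hker₂ hD hϖfix hϖ0 hϖ he1) heP hK0 O hBO
    red hred hredm hp hf hplaces a₀ hO₀ h₀

end Second

end Inst

end Fermat.Agent.S40x.Node.SmoothInst
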