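import Fermat.Agent.S40x.Node.NodeInst
import Fermat.Agent.S40x.Node.SmoothInst
import Fermat.Agent.S40x.Node.PlaceIdeal

/-!
# P-S44, block R1 / N-alpha: nodes versus places, the node / non-node DICHOTOMY (helper50)

Vocabulary of `Node/NodeInst` (nodes `s : Goursat.Nodes C.BbarT hL2.h2`, characters `chi1 s`,
`chi2 s` of the chart rings `C.B₁`, `C.B₂` of the two components) and of `Node/SmoothInst`
(`IsNonNode₁ C P`, `IsNonNode₂ C P` for a place `P` of a component).

A place `P` of the first component at which the chart coordinate `T₁` is regular **lies at the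
node `s`** (`IsBranch₁ hL2 s P`) if the functions of `B₁` vanishing at `P` are exactly those killed
by `chi1 s`.

* `placeIdeal₁ P hT : Ideal C.B₁` : the functions vanishing at `P` (prime);
* `not_isNonNode₁_iff` : `P` is not a non-node iff `I₁ ≤ placeIdeal₁ P`;
* **`isNonNode₁_or_exists_branch`** : every place of the chart is a non-node or lies at a node
  (the maximal ideals of the finite-dimensional glue ring `R = B₁ / I₁` are the kernels of its
  characters; `k` algebraically closed), and the two cases exclude each other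
  (`IsBranch₁.not_isNonNode`); the node is unique (`IsBranch₁.unique`);
* `exists_branch₁` : conversely every node carries a place of the first component (through the
  dictionary places ↔ maximal ideals of `Node/PlaceIdeal`);
* the same for the second component (`chi2`, `IsNonNode₂`).

So the final export can split the places of both components into nodes (`NodeRing.isNodeRing`)
and non-nodes (`SmoothInst.exists_isSmoothPtRing₁/₂`).
-/

set_option autoImplicit false
set_option linter.unusedSectionVars false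
set_option linter.style.haveILetI false

noncomputable section

namespace Fermat.Agent.S40x.Node.NodePlace

open AlgebraicCurve IsLocalRing Module IntermediateField
open Fermat.Agent.S34x Fermat.Agent.S34x.C0two Fermat.Agent.S34x.Lattice2
open Fermat.Agent.S40x.Node.NodeInst Fermat.Agent.S40x.Node.SmoothInst
open Fermat.Agent.S40x.Node.PlaceIdeal

variable {K : Type*} [Field K] {A : ValuationSubring K} {F : Type*} [Field F] [Algebra K F]
  {S : SmallRing F} {k κ₁ κ₂ : Type*} [Field k] [Field κ₁] [Field κ₂] [Algebra k κ₁]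
  [Algebra k κ₂] {R : RedSetup2 A S k (κ₁ × κ₂)} {C : ChartCoord R}

/-! ### The ideal of a place -/

/-- the inclusion `B₁ → O_P`. -/
def toPlace₁ (P : Place k κ₁) (hT : C.T.1 ∈ P.toValuationSubring) :
    C.B₁ →+* P.toValuationSubring :=
  (algebraMap C.B₁ κ₁).codRestrict P.toValuationSubring.toSubring (algebraMap_B₁_mem P hT)

/-- the inclusion `B₂ → O_P`. -/
def toPlace₂ (P : Place k κ₂) (hT : C.T.2 ∈ P.toValuationSubring) :
    C.B₂ →+* P.toValuationSubring :=
  (algebraMap C.B₂ κ₂).codRestrict P.toValuationSubring.toSubring (algebraMap_B₂_mem P hT)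

/-- the functions of `B₁` vanishing at `P`. -/
def placeIdeal₁ (P : Place k κ₁) (hT : C.T.1 ∈ P.toValuationSubring) : Ideal C.B₁ :=
  (maximalIdeal P.toValuationSubring).comap (toPlace₁ P hT)

/-- the functions of `B₂` vanishing at `P`. -/
def placeIdeal₂ (P : Place k κ₂) (hT : C.T.2 ∈ P.toValuationSubring) : Ideal C.B₂ :=
  (maximalIdeal P.toValuationSubring).comap (toPlace₂ P hT)

theorem mem_placeIdeal₁_iff (P : Place k κ₁) (hT : C.T.1 ∈ P.toValuationSubring) (b : C.B₁) :
    b ∈ placeIdeal₁ P hT ↔ (b : κ₁) ∈ P.toValuationSubring.nonunits := by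
  rw [placeIdeal₁, Ideal.mem_comap, ← ValuationSubring.coe_mem_nonunits_iff]
  rfl

theorem mem_placeIdeal₂_iff (P : Place k κ₂) (hT : C.T.2 ∈ P.toValuationSubring) (b : C.B₂) :
    b ∈ placeIdeal₂ P hT ↔ (b : κ₂) ∈ P.toValuationSubring.nonunits := by
  rw [placeIdeal₂, Ideal.mem_comap, ← ValuationSubring.coe_mem_nonunits_iff]
  rfl

instance placeIdeal₁_isPrime (P : Place k κ₁) (hT : C.T.1 ∈ P.toValuationSubring) :
    (placeIdeal₁ (C := C) P hT).IsPrime :=
  Ideal.comap_isPrime _ _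

instance placeIdeal₂_isPrime (P : Place k κ₂) (hT : C.T.2 ∈ P.toValuationSubring) :
    (placeIdeal₂ (C := C) P hT).IsPrime :=
  Ideal.comap_isPrime _ _

/-! ### Branches of a node -/

section Branch

variable [IsAlgClosed k] (hL2 : C.IsL2)

/-- the place `P` of the first component **lies at the node `s`**. -/
def IsBranch₁ (s : Goursat.Nodes C.BbarT hL2.h2) (P : Place k κ₁) : Prop :=
  ∀ b : C.B₁, chi1 hL2 s b = 0 ↔ (b : κ₁) ∈ P.toValuationSubring.nonunits

/-- the place `P` of the second component **lies at the node `s`**. -/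
def IsBranch₂ (s : Goursat.Nodes C.BbarT hL2.h2) (P : Place k κ₂) : Prop :=
  ∀ b : C.B₂, chi2 hL2 s b = 0 ↔ (b : κ₂) ∈ P.toValuationSubring.nonunits

theorem phi_eq_zero_iff (a : C.B₁) :
    Goursat.φ C.BbarT hL2.h1 hL2.h2 a = 0 ↔ ((a, 0) : C.B₁ × C.B₂) ∈ C.BbarT := by
  rw [Goursat.mem_iff C.BbarT hL2.h1 hL2.h2]
  simp

theorem psi_eq_zero_iff (b : C.B₂) :
    Goursat.ψ C.BbarT hL2.h2 b = 0 ↔ ((0, b) : C.B₁ × C.B₂) ∈ C.BbarT := by
  rw [Goursat.mem_iff C.BbarT hL2.h1 hL2.h2]
  simp [eq_comm]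

theorem chi1_eq_zero_of_mem (s : Goursat.Nodes C.BbarT hL2.h2) {a : C.B₁}
    (ha : ((a, 0) : C.B₁ × C.B₂) ∈ C.BbarT) : chi1 hL2 s a = 0 := by
  show s (Goursat.φ C.BbarT hL2.h1 hL2.h2 a) = 0
  rw [(phi_eq_zero_iff hL2 a).mpr ha, map_zero]

theorem chi2_eq_zero_of_mem (s : Goursat.Nodes C.BbarT hL2.h2) {b : C.B₂}
    (hb : ((0, b) : C.B₁ × C.B₂) ∈ C.BbarT) : chi2 hL2 s b = 0 := by
  show s (Goursat.ψ C.BbarT hL2.h2 b) = 0
  rw [(psi_eq_zero_iff hL2 b).mpr hb, map_zero]

/-- a place lying at a node is not a non-node. -/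
theorem IsBranch₁.not_isNonNode {s : Goursat.Nodes C.BbarT hL2.h2} {P : Place k κ₁}
    (h : IsBranch₁ hL2 s P) : ¬ IsNonNode₁ C P := by
  rintro ⟨a, ha, haP⟩
  exact haP ((h a).mp (chi1_eq_zero_of_mem hL2 s ha))

theorem IsBranch₂.not_isNonNode {s : Goursat.Nodes C.BbarT hL2.h2} {P : Place k κ₂}
    (h : IsBranch₂ hL2 s P) : ¬ IsNonNode₂ C P := by
  rintro ⟨b, hb, hbP⟩
  exact hbP ((h b).mp (chi2_eq_zero_of_mem hL2 s hb))

/-- a `k`-character is determined by its kernel. -/
theorem algHom_eq_of_ker {B : Type*} [CommRing B] [Algebra k B] {χ χ' : B →ₐ[k] k}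
    (h : ∀ b : B, χ b = 0 → χ' b = 0) : χ = χ' := by
  ext b
  have h1 : χ (b - algebraMap k B (χ b)) = 0 := by
    rw [map_sub, AlgHom.commutes]
    exact sub_self _
  have h2 := h _ h1
  rw [map_sub, AlgHom.commutes, sub_eq_zero] at h2
  exact h2.symm

/-- the node at which a place lies is unique. -/
theorem IsBranch₁.unique {s s' : Goursat.Nodes C.BbarT hL2.h2} {P : Place k κ₁}
    (h : IsBranch₁ hL2 s P) (h' : IsBranch₁ hL2 s' P) : s = s' := by
  have h1 : chi1 hL2 s = chi1 hL2 s' :=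
    algHom_eq_of_ker fun b hb => (h' b).mpr ((h b).mp hb)
  ext x
  obtain ⟨a, rfl⟩ := Goursat.φ_surjective C.BbarT hL2.h1 hL2.h2 x
  exact DFunLike.congr_fun h1 a

theorem IsBranch₂.unique {s s' : Goursat.Nodes C.BbarT hL2.h2} {P : Place k κ₂}
    (h : IsBranch₂ hL2 s P) (h' : IsBranch₂ hL2 s' P) : s = s' := by
  have h1 : chi2 hL2 s = chi2 hL2 s' :=
    algHom_eq_of_ker fun b hb => (h' b).mpr ((h b).mp hb)
  ext x
  obtain ⟨b, rfl⟩ := Goursat.ψ_surjective C.BbarT hL2.h2 x
  exact DFunLike.congr_fun h1 b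

variable [Module.Finite k ((C.B₁ × C.B₂) ⧸ Subalgebra.toSubmodule C.BbarT)]

/-- a prime ideal of `B₁` containing `I₁` is the kernel of `chi1 s` for a node `s`. -/
theorem exists_node_of_le₁ (m : Ideal C.B₁) [hm : m.IsPrime]
    (hle : ∀ a : C.B₁, ((a, 0) : C.B₁ × C.B₂) ∈ C.BbarT → a ∈ m) :
    ∃ s : Goursat.Nodes C.BbarT hL2.h2, ∀ b : C.B₁, chi1 hL2 s b = 0 ↔ b ∈ m := by
  haveI : Module.Finite k (Goursat.R C.BbarT hL2.h2) := Goursat.finite_R C.BbarT hL2.h1 hL2.h2
  haveI : IsArtinianRing (Goursat.R C.BbarT hL2.h2) := IsArtinianRing.of_finite k _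
  set φ := Goursat.φ C.BbarT hL2.h1 hL2.h2 with hφ
  have hsurj : Function.Surjective φ := Goursat.φ_surjective C.BbarT hL2.h1 hL2.h2
  have hker : RingHom.ker φ.toRingHom ≤ m := by
    intro a ha
    exact hle a ((phi_eq_zero_iff hL2 a).mp ha)
  haveI hprime : (m.map φ.toRingHom).IsPrime := Ideal.map_isPrime_of_surjective hsurj hker
  haveI : (m.map φ.toRingHom).IsMaximal := IsArtinianRing.isMaximal_of_isPrime _
  obtain ⟨χ, hχ⟩ := Goursat.exists_algHom_ker_eq (k := k) (m.map φ.toRingHom)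
  refine ⟨χ, fun b => ?_⟩
  show χ (φ b) = 0 ↔ b ∈ m
  rw [hχ]
  constructor
  · intro hb
    have h1 : b ∈ (m.map φ.toRingHom).comap φ.toRingHom := hb
    rw [Ideal.comap_map_of_surjective φ.toRingHom hsurj] at h1
    have h2 : m ⊔ Ideal.comap φ.toRingHom ⊥ = m := by
      rw [sup_eq_left]
      exact hker
    rw [h2] at h1
    exact h1
  · intro hb
    exact Ideal.mem_map_of_mem _ hb

/-- a prime ideal of `B₂` containing `I₂` is the kernel of `chi2 s` for a node `s`. -/
theorem exists_node_of_le₂ (m : Ideal C.B₂) [hm : m.IsPrime]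
    (hle : ∀ b : C.B₂, ((0, b) : C.B₁ × C.B₂) ∈ C.BbarT → b ∈ m) :
    ∃ s : Goursat.Nodes C.BbarT hL2.h2, ∀ b : C.B₂, chi2 hL2 s b = 0 ↔ b ∈ m := by
  haveI : Module.Finite k (Goursat.R C.BbarT hL2.h2) := Goursat.finite_R C.BbarT hL2.h1 hL2.h2
  haveI : IsArtinianRing (Goursat.R C.BbarT hL2.h2) := IsArtinianRing.of_finite k _
  set ψ := Goursat.ψ C.BbarT hL2.h2 with hψ
  have hsurj : Function.Surjective ψ := Goursat.ψ_surjective C.BbarT hL2.h2
  have hker : RingHom.ker ψ.toRingHom ≤ m := by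
    intro b hb
    exact hle b ((psi_eq_zero_iff hL2 b).mp hb)
  haveI hprime : (m.map ψ.toRingHom).IsPrime := Ideal.map_isPrime_of_surjective hsurj hker
  haveI : (m.map ψ.toRingHom).IsMaximal := IsArtinianRing.isMaximal_of_isPrime _
  obtain ⟨χ, hχ⟩ := Goursat.exists_algHom_ker_eq (k := k) (m.map ψ.toRingHom)
  refine ⟨χ, fun b => ?_⟩
  show χ (ψ b) = 0 ↔ b ∈ m
  rw [hχ]
  constructor
  · intro hb
    have h1 : b ∈ (m.map ψ.toRingHom).comap ψ.toRingHom := hb
    rw [Ideal.comap_map_of_surjective ψ.toRingHom hsurj] at h1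
    have h2 : m ⊔ Ideal.comap ψ.toRingHom ⊥ = m := by
      rw [sup_eq_left]
      exact hker
    rw [h2] at h1
    exact h1
  · intro hb
    exact Ideal.mem_map_of_mem _ hb

/-- **the DICHOTOMY, first component**: every place of the chart is a non-node or lies at a
node. -/
theorem isNonNode₁_or_exists_branch (P : Place k κ₁) (hT : C.T.1 ∈ P.toValuationSubring) :
    IsNonNode₁ C P ∨ ∃ s : Goursat.Nodes C.BbarT hL2.h2, IsBranch₁ hL2 s P := by
  by_cases h : IsNonNode₁ C P
  · exact Or.inl h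
  · right
    have hle : ∀ a : C.B₁, ((a, 0) : C.B₁ × C.B₂) ∈ C.BbarT → a ∈ placeIdeal₁ P hT := by
      intro a ha
      rw [mem_placeIdeal₁_iff]
      by_contra hna
      exact h ⟨a, ha, hna⟩
    obtain ⟨s, hs⟩ := exists_node_of_le₁ hL2 (placeIdeal₁ P hT) hle
    exact ⟨s, fun b => (hs b).trans (mem_placeIdeal₁_iff P hT b)⟩

/-- **the DICHOTOMY, second component.** -/
theorem isNonNode₂_or_exists_branch (P : Place k κ₂) (hT : C.T.2 ∈ P.toValuationSubring) :
    IsNonNode₂ C P ∨ ∃ s : Goursat.Nodes C.BbarT hL2.h2, IsBranch₂ hL2 s P := by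
  by_cases h : IsNonNode₂ C P
  · exact Or.inl h
  · right
    have hle : ∀ b : C.B₂, ((0, b) : C.B₁ × C.B₂) ∈ C.BbarT → b ∈ placeIdeal₂ P hT := by
      intro b hb
      rw [mem_placeIdeal₂_iff]
      by_contra hnb
      exact h ⟨b, hb, hnb⟩
    obtain ⟨s, hs⟩ := exists_node_of_le₂ hL2 (placeIdeal₂ P hT) hle
    exact ⟨s, fun b => (hs b).trans (mem_placeIdeal₂_iff P hT b)⟩

end Branch

/-! ### Every node carries a place on each component -/

section Exists

variable [IsAlgClosed k] (hL2 : C.IsL2)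

/-- **every node carries a place of the first component** (dictionary of `Node/PlaceIdeal`). -/
theorem exists_branch₁ (hT : Transcendental k C.T.1) [FiniteDimensional k⟮C.T.1⟯ κ₁]
    [Algebra.IsSeparable k⟮C.T.1⟯ κ₁] (s : Goursat.Nodes C.BbarT hL2.h2) :
    ∃ P : Place k κ₁, C.T.1 ∈ P.toValuationSubring ∧ IsBranch₁ hL2 s P := by
  have hB : IsHalfChart C.T.1 C.B₁ := fun _ => Iff.rfl
  have hmax : (RingHom.ker (chi1 hL2 s).toRingHom).IsMaximal :=
    RingHom.ker_isMaximal_of_surjective _ fun c =>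
      ⟨algebraMap k C.B₁ c, (chi1 hL2 s).commutes c⟩
  obtain ⟨P, hP, hPm⟩ := hB.exists_place_of_isMaximal hT _ hmax
  have hTP : C.T.1 ∈ P.toValuationSubring := by
    have := hB.le_place P hP ⟨C.T.1, hB.T_mem⟩
    exact this
  refine ⟨P, hTP, fun b => ?_⟩
  rw [← hB.mem_maxIdeal_iff P hP b, hPm]
  rfl

/-- **every node carries a place of the second component.** -/
theorem exists_branch₂ (hT : Transcendental k C.T.2) [FiniteDimensional k⟮C.T.2⟯ κ₂]
    [Algebra.IsSeparable k⟮C.T.2⟯ κ₂] (s : Goursat.Nodes C.BbarT hL2.h2) :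
    ∃ P : Place k κ₂, C.T.2 ∈ P.toValuationSubring ∧ IsBranch₂ hL2 s P := by
  have hB : IsHalfChart C.T.2 C.B₂ := fun _ => Iff.rfl
  have hmax : (RingHom.ker (chi2 hL2 s).toRingHom).IsMaximal :=
    RingHom.ker_isMaximal_of_surjective _ fun c =>
      ⟨algebraMap k C.B₂ c, (chi2 hL2 s).commutes c⟩
  obtain ⟨P, hP, hPm⟩ := hB.exists_place_of_isMaximal hT _ hmax
  have hTP : C.T.2 ∈ P.toValuationSubring := by
    have := hB.le_place P hP ⟨C.T.2, hB.T_mem⟩
    exact this
  refine ⟨P, hTP, fun b => ?_⟩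
  rw [← hB.mem_maxIdeal_iff P hP b, hPm]
  rfl

end Exists

end Fermat.Agent.S40x.Node.NodePlace

end
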