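/-
P-S44/S40, block R1, export X13 (POLE) (helper65; literal fixed by helper35, msg 24800).

Vocabulary of `Node/NodeInst` + `Node/NodePlace` + `Node/SmoothInst` (semi-abstract: any chart
`C : ChartCoord R` over `RedSetup2 A S k (κ₁ × κ₂)`, `κ₁`, `κ₂` fields, `k` algebraically closed).
`δ ∈ κ₁` is the reduction `red_∞ (u / p)`; `P` a place of the first component seen by the chart
(`C.T.1 ∈ O_P`).

* **(POLE)(i)** `ord_eq_neg_one_of_branch` : if `P` lies at the node `s`, `ρ₁ Ψ = δ · ρ₁ u'`,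
  `χ₁ s (ρ₁ Ψ) ≠ 0` (thickness: `Ψ ∉ nodeIdeal s`) and `ord_P (ρ₁ u') = 1`, then `ord_P δ = -1`;
* **(POLE)(ii)** `ord_nonneg_of_isNonNode` : if `P` is a non-node and (T5) every `a ∈ I₁` has a
  power with `a ^ n · δ ∈ B₁`, then `0 ≤ ord_P δ`;
* `ord_neg_iff_exists_branch` : `ord_P δ < 0 ↔ P` lies at a node (for `P` seen by the chart);
* the same statements in the `B_0 = B0 C Γ` form (`Ψ, u' ∈ B_0`, `Ψ ∉ nodeIdeal hL2 s`), and for the
  second component (`δ' ∈ κ₂`, `ρ₂`, `χ₂`, `u`);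
* `exists_branch₂_of_isHalfChart` : every node carries a place of the second component, WITHOUT
  separability of `κ₂ / k(T₂)` (at the concrete level `T₂ = x̄ ^ q` is inseparable; use
  `PlaceIdealInst.isHalfChart_B₂`).
-/
import Fermat.Agent.S40x.Node.NodePlace

set_option autoImplicit false
set_option linter.unusedSectionVars false
set_option linter.style.haveILetI false

noncomputable section

namespace Fermat.Agent.S40x.Node.NodePole

open AlgebraicCurve IsLocalRing Module IntermediateField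
open Fermat.Agent.S34x Fermat.Agent.S34x.C0two Fermat.Agent.S34x.Lattice2
open Fermat.Agent.S40x.Node.NodeInst Fermat.Agent.S40x.Node.SmoothInst
open Fermat.Agent.S40x.Node.PlaceIdeal Fermat.Agent.S40x.Node.NodePlace

/-! ### generic: orders at a place -/

section Generic

variable {k E : Type*} [Field k] [Field E] [Algebra k E] (P : Place k E)

/-- an element of `O_P` which is not in the maximal ideal has order `0`. -/
theorem ord_eq_zero_of_mem_of_notMem {f : E} (hf : f ∈ P.toValuationSubring)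
    (hf' : f ∉ P.toValuationSubring.nonunits) : P.ord f = 0 := by
  have hf0 : f ≠ 0 := by
    rintro rfl
    exact hf' P.toValuationSubring.nonunits.zero_mem
  have h1 : 0 ≤ P.ord f := (Fermat.Agent.S24.ZP.ord_nonneg_iff P hf0).mpr hf
  have h2 : ¬ 0 < P.ord f := fun h => hf' ((Fermat.Agent.S24.ZP.ord_pos_iff P hf0).mp h)
  omega

/-- **(POLE)(i), core**: `Ψ = δ u'`, `Ψ` a unit at `P`, `ord_P u' = 1` ⟹ `ord_P δ = -1`. -/
theorem ord_eq_neg_one_of_mul {δ Ψ u' : E} (hrel : Ψ = δ * u') (hΨ : Ψ ∈ P.toValuationSubring)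
    (hΨ' : Ψ ∉ P.toValuationSubring.nonunits) (hord : P.ord u' = 1) : P.ord δ = -1 := by
  have h0 := ord_eq_zero_of_mem_of_notMem P hΨ hΨ'
  have hΨ0 : Ψ ≠ 0 := by
    rintro rfl
    exact hΨ' P.toValuationSubring.nonunits.zero_mem
  have hδ0 : δ ≠ 0 := by
    rintro rfl
    exact hΨ0 (by rw [hrel, zero_mul])
  have hu0 : u' ≠ 0 := by
    rintro rfl
    exact hΨ0 (by rw [hrel, mul_zero])
  rw [hrel, P.ord_mul hδ0 hu0, hord] at h0
  omega

/-- **(POLE)(ii), core**: `a` a unit at `P`, `a ^ n δ ∈ O_P` ⟹ `0 ≤ ord_P δ`. -/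
theorem ord_nonneg_of_pow_mul_mem {δ a : E} {n : ℕ} (ha : a ∈ P.toValuationSubring)
    (ha' : a ∉ P.toValuationSubring.nonunits) (h : a ^ n * δ ∈ P.toValuationSubring) :
    0 ≤ P.ord δ := by
  rcases eq_or_ne δ 0 with rfl | hδ0
  · rw [P.ord_zero]
  have ha0 : a ≠ 0 := by
    rintro rfl
    exact ha' P.toValuationSubring.nonunits.zero_mem
  have h1 : 0 ≤ P.ord (a ^ n * δ) :=
    (Fermat.Agent.S24.ZP.ord_nonneg_iff P (mul_ne_zero (pow_ne_zero n ha0) hδ0)).mpr h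
  rw [P.ord_mul (pow_ne_zero n ha0) hδ0, Fermat.Agent.S24.ZP.ord_pow,
    ord_eq_zero_of_mem_of_notMem P ha ha', mul_zero, zero_add] at h1
  exact h1

end Generic

variable {K : Type*} [Field K] {A : ValuationSubring K} {F : Type*} [Field F] [Algebra K F]
  {S : SmallRing F} {k κ₁ κ₂ : Type*} [Field k] [Field κ₁] [Field κ₂] [Algebra k κ₁]
  [Algebra k κ₂] {R : RedSetup2 A S k (κ₁ × κ₂)} {C : ChartCoord R}

/-! ### (POLE), first component -/

section First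

variable [IsAlgClosed k] (hL2 : C.IsL2)

/-- **(POLE)(i)**, `B₁` form. -/
theorem ord_eq_neg_one_of_branch {s : Goursat.Nodes C.BbarT hL2.h2} {P : Place k κ₁}
    (hs : IsBranch₁ hL2 s P) (hT : C.T.1 ∈ P.toValuationSubring) {δ : κ₁} {Ψb ub : C.B₁}
    (hrel : (Ψb : κ₁) = δ * (ub : κ₁)) (hΨ : chi1 hL2 s Ψb ≠ 0)
    (hord : P.ord (ub : κ₁) = 1) : P.ord δ = -1 :=
  ord_eq_neg_one_of_mul P hrel (algebraMap_B₁_mem P hT Ψb) (fun h => hΨ ((hs Ψb).mpr h)) hord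

/-- **(POLE)(ii)**, `B₁` form: `hT5` is the generic T5 of `Thick/PolesNodes`
(`E ∈ B∞`, `res E = (a, 0)` ⟹ `a ^ n δ ∈ B₁`). -/
theorem ord_nonneg_of_isNonNode {P : Place k κ₁} (hT : C.T.1 ∈ P.toValuationSubring)
    (hP : IsNonNode₁ C P) {δ : κ₁}
    (hT5 : ∀ a : C.B₁, ((a, 0) : C.B₁ × C.B₂) ∈ C.BbarT →
      ∃ (n : ℕ) (c : C.B₁), (a : κ₁) ^ n * δ = (c : κ₁)) : 0 ≤ P.ord δ := by
  obtain ⟨a, ha, haP⟩ := hP
  obtain ⟨n, c, hc⟩ := hT5 a ha
  refine ord_nonneg_of_pow_mul_mem P (algebraMap_B₁_mem P hT a) haP (n := n) ?_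
  show (a : κ₁) ^ n * δ ∈ P.toValuationSubring
  rw [hc]
  exact algebraMap_B₁_mem P hT c

variable [Module.Finite k ((C.B₁ × C.B₂) ⧸ Subalgebra.toSubmodule C.BbarT)]

/-- **(POLE)**: for a place seen by the chart, `δ` has a pole at `P` iff `P` lies at a node, and
then the pole is simple.  `hnode` = (POLE)(i) at every node (thickness), `hT5` = T5. -/
theorem ord_neg_iff_exists_branch {P : Place k κ₁} (hT : C.T.1 ∈ P.toValuationSubring) {δ : κ₁}
    (hnode : ∀ s : Goursat.Nodes C.BbarT hL2.h2, IsBranch₁ hL2 s P → P.ord δ = -1)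
    (hT5 : ∀ a : C.B₁, ((a, 0) : C.B₁ × C.B₂) ∈ C.BbarT →
      ∃ (n : ℕ) (c : C.B₁), (a : κ₁) ^ n * δ = (c : κ₁)) :
    P.ord δ < 0 ↔ ∃ s : Goursat.Nodes C.BbarT hL2.h2, IsBranch₁ hL2 s P := by
  constructor
  · intro h
    rcases isNonNode₁_or_exists_branch hL2 P hT with hnn | hs
    · have := ord_nonneg_of_isNonNode hT hnn hT5
      omega
    · exact hs
  · rintro ⟨s, hs⟩
    rw [hnode s hs]
    omega

/-- the order of `δ` at a place seen by the chart is `-1` (nodes) or `≥ 0` (non-nodes). -/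
theorem ord_eq_neg_one_or_nonneg {P : Place k κ₁} (hT : C.T.1 ∈ P.toValuationSubring) {δ : κ₁}
    (hnode : ∀ s : Goursat.Nodes C.BbarT hL2.h2, IsBranch₁ hL2 s P → P.ord δ = -1)
    (hT5 : ∀ a : C.B₁, ((a, 0) : C.B₁ × C.B₂) ∈ C.BbarT →
      ∃ (n : ℕ) (c : C.B₁), (a : κ₁) ^ n * δ = (c : κ₁)) :
    P.ord δ = -1 ∨ 0 ≤ P.ord δ := by
  rcases isNonNode₁_or_exists_branch hL2 P hT with hnn | ⟨s, hs⟩
  · exact Or.inr (ord_nonneg_of_isNonNode hT hnn hT5)
  · exact Or.inl (hnode s hs)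

end First

/-! ### (POLE), second component -/

section Second

variable [IsAlgClosed k] (hL2 : C.IsL2)

/-- **(POLE)(i)**, second component, `B₂` form. -/
theorem ord_eq_neg_one_of_branch₂ {s : Goursat.Nodes C.BbarT hL2.h2} {P : Place k κ₂}
    (hs : IsBranch₂ hL2 s P) (hT : C.T.2 ∈ P.toValuationSubring) {δ : κ₂} {Ψb ub : C.B₂}
    (hrel : (Ψb : κ₂) = δ * (ub : κ₂)) (hΨ : chi2 hL2 s Ψb ≠ 0)
    (hord : P.ord (ub : κ₂) = 1) : P.ord δ = -1 :=
  ord_eq_neg_one_of_mul P hrel (algebraMap_B₂_mem P hT Ψb) (fun h => hΨ ((hs Ψb).mpr h)) hord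

/-- **(POLE)(ii)**, second component. -/
theorem ord_nonneg_of_isNonNode₂ {P : Place k κ₂} (hT : C.T.2 ∈ P.toValuationSubring)
    (hP : IsNonNode₂ C P) {δ : κ₂}
    (hT5 : ∀ b : C.B₂, ((0, b) : C.B₁ × C.B₂) ∈ C.BbarT →
      ∃ (n : ℕ) (c : C.B₂), (b : κ₂) ^ n * δ = (c : κ₂)) : 0 ≤ P.ord δ := by
  obtain ⟨b, hb, hbP⟩ := hP
  obtain ⟨n, c, hc⟩ := hT5 b hb
  refine ord_nonneg_of_pow_mul_mem P (algebraMap_B₂_mem P hT b) hbP (n := n) ?_
  show (b : κ₂) ^ n * δ ∈ P.toValuationSubring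
  rw [hc]
  exact algebraMap_B₂_mem P hT c

variable [Module.Finite k ((C.B₁ × C.B₂) ⧸ Subalgebra.toSubmodule C.BbarT)]

theorem ord_neg_iff_exists_branch₂ {P : Place k κ₂} (hT : C.T.2 ∈ P.toValuationSubring) {δ : κ₂}
    (hnode : ∀ s : Goursat.Nodes C.BbarT hL2.h2, IsBranch₂ hL2 s P → P.ord δ = -1)
    (hT5 : ∀ b : C.B₂, ((0, b) : C.B₁ × C.B₂) ∈ C.BbarT →
      ∃ (n : ℕ) (c : C.B₂), (b : κ₂) ^ n * δ = (c : κ₂)) :
    P.ord δ < 0 ↔ ∃ s : Goursat.Nodes C.BbarT hL2.h2, IsBranch₂ hL2 s P := by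
  constructor
  · intro h
    rcases isNonNode₂_or_exists_branch hL2 P hT with hnn | hs
    · have := ord_nonneg_of_isNonNode₂ hT hnn hT5
      omega
    · exact hs
  · rintro ⟨s, hs⟩
    rw [hnode s hs]
    omega

end Second

/-! ### the `B_0` form (inputs in the shape of `Node/NodeThick`, `Node/NodeLocalDatum`) -/

section B0

variable [IsAlgClosed k] (hL2 : C.IsL2) (Γ : Set (SemilinearAut K F))

/-- **(POLE)(i)** with `Ψ, u' ∈ B_0`: `hPsi : Ψ ∉ nodeIdeal s` is the thickness statement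
(`Node/NodeThick.psi_notMem_nodeIdeal`), `hord` the uniformiser statement (X4). -/
theorem ord_eq_neg_one_of_notMem_nodeIdeal {s : Goursat.Nodes C.BbarT hL2.h2} {P : Place k κ₁}
    (hs : IsBranch₁ hL2 s P) (hT : C.T.1 ∈ P.toValuationSubring) {δ : κ₁} {Ψ u' : B0 C Γ}
    (hrel : ((rho1 C Γ Ψ : C.B₁) : κ₁) = δ * ((rho1 C Γ u' : C.B₁) : κ₁))
    (hPsi : Ψ ∉ nodeIdeal (Γ := Γ) hL2 s)
    (hord : P.ord ((rho1 C Γ u' : C.B₁) : κ₁) = 1) : P.ord δ = -1 :=
  ord_eq_neg_one_of_branch hL2 hs hT hrel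
    (fun h => hPsi ((mem_nodeIdeal_iff hL2 s Ψ).mpr h)) hord

/-- **(POLE)(i)**, second component, with `Ψ, u ∈ B_0`. -/
theorem ord_eq_neg_one_of_notMem_nodeIdeal₂ {s : Goursat.Nodes C.BbarT hL2.h2} {P : Place k κ₂}
    (hs : IsBranch₂ hL2 s P) (hT : C.T.2 ∈ P.toValuationSubring) {δ : κ₂} {Ψ u : B0 C Γ}
    (hrel : ((rho2 C Γ Ψ : C.B₂) : κ₂) = δ * ((rho2 C Γ u : C.B₂) : κ₂))
    (hPsi : Ψ ∉ nodeIdeal (Γ := Γ) hL2 s)
    (hord : P.ord ((rho2 C Γ u : C.B₂) : κ₂) = 1) : P.ord δ = -1 :=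
  ord_eq_neg_one_of_branch₂ hL2 hs hT hrel
    (fun h => hPsi ((mem_nodeIdeal_iff' hL2 s Ψ).mpr h)) hord

end B0

/-! ### every node carries a place of the second component (no separability over `k(T₂)`) -/

section Branch2

variable [IsAlgClosed k] (hL2 : C.IsL2)

/-- `NodePlace.exists_branch₂` asks for `κ₂ / k(T₂)` separable, which FAILS at the concrete level
(`T₂ = x̄ ^ q`).  Here `B₂` is only required to be the half-chart ring of SOME `T'` with
`κ₂ / k(T')` finite separable (`PlaceIdealInst.isHalfChart_B₂`: `T' = x̄`). -/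
theorem exists_branch₂_of_isHalfChart {T' : κ₂} (hB : IsHalfChart T' C.B₂)
    (hT' : Transcendental k T') [FiniteDimensional k⟮T'⟯ κ₂] [Algebra.IsSeparable k⟮T'⟯ κ₂]
    (s : Goursat.Nodes C.BbarT hL2.h2) :
    ∃ P : Place k κ₂, C.T.2 ∈ P.toValuationSubring ∧ IsBranch₂ hL2 s P := by
  have hmax : (RingHom.ker (chi2 hL2 s).toRingHom).IsMaximal :=
    RingHom.ker_isMaximal_of_surjective _ fun c =>
      ⟨algebraMap k C.B₂ c, (chi2 hL2 s).commutes c⟩
  obtain ⟨P, hP, hPm⟩ := hB.exists_place_of_isMaximal hT' _ hmax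
  have hT2 : C.T.2 ∈ C.B₂ :=
    (isHalfChart_restrictScalars (k := k) C.T.2).T_mem
  have hTP : C.T.2 ∈ P.toValuationSubring := hB.le_place P hP ⟨C.T.2, hT2⟩
  refine ⟨P, hTP, fun b => ?_⟩
  rw [← hB.mem_maxIdeal_iff P hP b, hPm]
  rfl

/-- the same for the first component (for symmetry; `T' = T₁` recovers
`NodePlace.exists_branch₁`). -/
theorem exists_branch₁_of_isHalfChart {T' : κ₁} (hB : IsHalfChart T' C.B₁)
    (hT' : Transcendental k T') [FiniteDimensional k⟮T'⟯ κ₁] [Algebra.IsSeparable k⟮T'⟯ κ₁]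
    (s : Goursat.Nodes C.BbarT hL2.h2) :
    ∃ P : Place k κ₁, C.T.1 ∈ P.toValuationSubring ∧ IsBranch₁ hL2 s P := by
  have hmax : (RingHom.ker (chi1 hL2 s).toRingHom).IsMaximal :=
    RingHom.ker_isMaximal_of_surjective _ fun c =>
      ⟨algebraMap k C.B₁ c, (chi1 hL2 s).commutes c⟩
  obtain ⟨P, hP, hPm⟩ := hB.exists_place_of_isMaximal hT' _ hmax
  have hT1 : C.T.1 ∈ C.B₁ :=
    (isHalfChart_restrictScalars (k := k) C.T.1).T_mem
  have hTP : C.T.1 ∈ P.toValuationSubring := hB.le_place P hP ⟨C.T.1, hT1⟩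
  refine ⟨P, hTP, fun b => ?_⟩
  rw [← hB.mem_maxIdeal_iff P hP b, hPm]
  rfl

end Branch2

end Fermat.Agent.S40x.Node.NodePole
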