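/-
P-S44/S40, block R1 / N-alpha (helper65): node places of BOTH components WITHOUT the separability of
`κ₂ / k(T₂)`, and the concrete instance.

`Node/NodePlace.exists_branch₂` and the statements of `Node/NodeNonempty` that use it
(`exists_branch₂_of_not_mem`, `forall_isNonNode₁_of_forall_isNonNode₂`,
`exists_node_place₁_iff_exists_node_place₂`) assume `[Algebra.IsSeparable k⟮C.T.2⟯ κ₂]`.  At the
concrete level `C.T.2 = x̄ ^ q` (`q` the residue characteristic), so `κ₂ / k(T₂)` is NOT separable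
and these statements cannot be instantiated.  Here the same statements are proved from
`IsHalfChart T' C.B₂` for SOME `T'` with `κ₂ / k(T')` finite separable (`T' = x̄`:
`PlaceIdealInst.isHalfChart_B₂`), and instantiated on `ChartInst.chart`.
-/
import Fermat.Agent.S40x.Node.NodePole
import Fermat.Agent.S40x.Node.NodeNonempty
import Fermat.Agent.S40x.Node.PlaceIdealInst

set_option autoImplicit false
set_option linter.unusedSectionVars false
set_option linter.style.haveILetI false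

noncomputable section

namespace Fermat.Agent.S40x.Node.BranchInst

open AlgebraicCurve IsLocalRing Module IntermediateField
open Fermat.Agent.S34x Fermat.Agent.S34x.C0two Fermat.Agent.S34x.Lattice2
open Fermat.Agent.S40x.Node.NodeInst Fermat.Agent.S40x.Node.SmoothInst
open Fermat.Agent.S40x.Node.PlaceIdeal Fermat.Agent.S40x.Node.NodePlace
open Fermat.Agent.S40x.Node.NodePole Fermat.Agent.S40x.Node.NodeNonempty

/-! ### semi-abstract level -/

section Abstract

variable {K : Type*} [Field K] {A : ValuationSubring K} {F : Type*} [Field F] [Algebra K F]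
  {S : SmallRing F} {k κ₁ κ₂ : Type*} [Field k] [Field κ₁] [Field κ₂] [Algebra k κ₁]
  [Algebra k κ₂] {R : RedSetup2 A S k (κ₁ × κ₂)} {C : ChartCoord R}

variable [IsAlgClosed k] (hL2 : C.IsL2)
  [Module.Finite k ((C.B₁ × C.B₂) ⧸ Subalgebra.toSubmodule C.BbarT)]
  {T₁' : κ₁} (hB₁ : IsHalfChart T₁' C.B₁) (hT₁ : Transcendental k T₁')
  [FiniteDimensional k⟮T₁'⟯ κ₁] [Algebra.IsSeparable k⟮T₁'⟯ κ₁]
  {T₂' : κ₂} (hB₂ : IsHalfChart T₂' C.B₂) (hT₂ : Transcendental k T₂')
  [FiniteDimensional k⟮T₂'⟯ κ₂] [Algebra.IsSeparable k⟮T₂'⟯ κ₂]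

include hB₁ hT₁ in
/-- if `(1, 0) ∉ B̄` the first component carries a node place. -/
theorem exists_branch₁_of_not_mem' (h : ((1, 0) : C.B₁ × C.B₂) ∉ C.BbarT) :
    ∃ (s : Goursat.Nodes C.BbarT hL2.h2) (P : Place k κ₁),
      C.T.1 ∈ P.toValuationSubring ∧ IsBranch₁ hL2 s P := by
  obtain ⟨s⟩ := (nonempty_nodes_iff hL2).mpr h
  obtain ⟨P, hP, hs⟩ := exists_branch₁_of_isHalfChart hL2 hB₁ hT₁ s
  exact ⟨s, P, hP, hs⟩

include hB₂ hT₂ in
/-- if `(1, 0) ∉ B̄` the second component carries a node place. -/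
theorem exists_branch₂_of_not_mem' (h : ((1, 0) : C.B₁ × C.B₂) ∉ C.BbarT) :
    ∃ (s : Goursat.Nodes C.BbarT hL2.h2) (P : Place k κ₂),
      C.T.2 ∈ P.toValuationSubring ∧ IsBranch₂ hL2 s P := by
  obtain ⟨s⟩ := (nonempty_nodes_iff hL2).mpr h
  obtain ⟨P, hP, hs⟩ := exists_branch₂_of_isHalfChart hL2 hB₂ hT₂ s
  exact ⟨s, P, hP, hs⟩

include hL2 hB₁ hT₁ in
/-- **(b)**: if every place of the first component (on the chart) is a non-node, so is every place
of the second component. -/
theorem forall_isNonNode₂_of_forall_isNonNode₁'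
    (h : ∀ P : Place k κ₁, C.T.1 ∈ P.toValuationSubring → IsNonNode₁ C P)
    (P : Place k κ₂) (hP : C.T.2 ∈ P.toValuationSubring) : IsNonNode₂ C P := by
  rcases isNonNode₂_or_exists_branch hL2 P hP with h2 | ⟨s, -⟩
  · exact h2
  · obtain ⟨P₁, hP₁, hs₁⟩ := exists_branch₁_of_isHalfChart hL2 hB₁ hT₁ s
    exact absurd (h P₁ hP₁) hs₁.not_isNonNode

include hL2 hB₂ hT₂ in
/-- **(b)**, mirrored. -/
theorem forall_isNonNode₁_of_forall_isNonNode₂'
    (h : ∀ P : Place k κ₂, C.T.2 ∈ P.toValuationSubring → IsNonNode₂ C P)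
    (P : Place k κ₁) (hP : C.T.1 ∈ P.toValuationSubring) : IsNonNode₁ C P := by
  rcases isNonNode₁_or_exists_branch hL2 P hP with h1 | ⟨s, -⟩
  · exact h1
  · obtain ⟨P₂, hP₂, hs₂⟩ := exists_branch₂_of_isHalfChart hL2 hB₂ hT₂ s
    exact absurd (h P₂ hP₂) hs₂.not_isNonNode

include hL2 hB₁ hT₁ hB₂ hT₂ in
/-- the two node sets are empty together. -/
theorem exists_node_place₁_iff_exists_node_place₂' :
    (∃ P : Place k κ₁, C.T.1 ∈ P.toValuationSubring ∧ ¬ IsNonNode₁ C P) ↔
      ∃ P : Place k κ₂, C.T.2 ∈ P.toValuationSubring ∧ ¬ IsNonNode₂ C P := by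
  constructor
  · rintro ⟨P, hP, hn⟩
    by_contra h
    exact hn (forall_isNonNode₁_of_forall_isNonNode₂' hL2 hB₂ hT₂
      (fun Q hQ => by_contra fun hQn => h ⟨Q, hQ, hQn⟩) P hP)
  · rintro ⟨P, hP, hn⟩
    by_contra h
    exact hn (forall_isNonNode₂_of_forall_isNonNode₁' hL2 hB₁ hT₁
      (fun Q hQ => by_contra fun hQn => h ⟨Q, hQ, hQn⟩) P hP)

/-- a place lies at a node iff it is not a non-node (first component). -/
theorem exists_branch₁_iff_not_isNonNode (P : Place k κ₁) (hT : C.T.1 ∈ P.toValuationSubring) :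
    (∃ s : Goursat.Nodes C.BbarT hL2.h2, IsBranch₁ hL2 s P) ↔ ¬ IsNonNode₁ C P := by
  constructor
  · rintro ⟨s, hs⟩
    exact hs.not_isNonNode
  · intro h
    exact (isNonNode₁_or_exists_branch hL2 P hT).resolve_left h

/-- a place lies at a node iff it is not a non-node (second component). -/
theorem exists_branch₂_iff_not_isNonNode (P : Place k κ₂) (hT : C.T.2 ∈ P.toValuationSubring) :
    (∃ s : Goursat.Nodes C.BbarT hL2.h2, IsBranch₂ hL2 s P) ↔ ¬ IsNonNode₂ C P := by
  constructor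
  · rintro ⟨s, hs⟩
    exact hs.not_isNonNode
  · intro h
    exact (isNonNode₂_or_exists_branch hL2 P hT).resolve_left h

end Abstract

/-! ### concrete level: `ChartInst.chart` -/

section Concrete

open Polynomial ModularCurve
open Fermat.Agent.S28 Fermat.Agent.S28.Tower Fermat.Agent.Gateway.Hecke
open Fermat.Agent.Gateway.Red Fermat.Agent.Gateway.GoodRed Fermat.Agent.Gateway.ESC
open Fermat.Agent.Gateway.GoodRed.ConjFamily
open Fermat.Agent.Gateway.C0 Fermat.Agent.S34x.TwoVal
open Fermat.Agent.S34x.Inst.RedSetupInst Fermat.Agent.S34x.Inst.L2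
open Fermat.Agent.S34x.Inst.GaussInstMq Fermat.Agent.S34x.Inst.ChartInst
open Fermat.Agent.S40x.Node.PlaceIdealInst

variable {L : Type} [Field L] [Algebra ℚ L] [IsAlgClosed L] [Algebra.IsAlgebraic ℚ L]
  {A : ValuationSubring L} {k : Type} [Field k] {π : A →+* k} [IsAlgClosed k]
  {M q : ℕ} [NeZero M] [Fact q.Prime] [CharP k q]
  {hdeg : finrankAlong L (heckeAlphaBar L M q) = q + 1} {hq : q.Prime} {hqM : ¬ q ∣ M}
  {hrk : ∀ x ∈ maximalIdeal A, ∀ c : A, c ≠ 0 → ∃ j : ℕ, c ∣ x ^ j}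
  {hπ : Function.Surjective π}
  (H : ResidueFacts A π M q hdeg hq hqM hrk hπ) (hA : A.LiesOverPrime q)
  {x : FBar L M} (Hx : GoodLevelFactsT A π M q hπ hqM x) (z : LaurentSeries ℤ)
  (hz : (x : LaurentSeries L) = coeffMap (Int.castRingHom L) z)
  (hL2 : (chart H hA Hx z hz).IsL2)

/-- every node carries a place of the first component (concrete chart). -/
theorem chart_exists_branch₁ (s : Goursat.Nodes (chart H hA Hx z hz).BbarT hL2.h2) :
    ∃ P : Place k (Fk k M), (chart H hA Hx z hz).T.1 ∈ P.toValuationSubring ∧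
      IsBranch₁ hL2 s P :=
  haveI := Hx.finite_res
  haveI := Hx.sep_res
  exists_branch₁_of_isHalfChart hL2 (chart_isHalfChart_B₁ H hA Hx z hz) Hx.trans_res s

/-- every node carries a place of the second component (concrete chart; `T₂ = x̄ ^ q`). -/
theorem chart_exists_branch₂ (s : Goursat.Nodes (chart H hA Hx z hz).BbarT hL2.h2) :
    ∃ P : Place k (Fk k M), (chart H hA Hx z hz).T.2 ∈ P.toValuationSubring ∧
      IsBranch₂ hL2 s P :=
  haveI := Hx.finite_res
  haveI := Hx.sep_res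
  exists_branch₂_of_isHalfChart hL2 (chart_isHalfChart_B₂ H hA Hx z hz) Hx.trans_res s

variable [Module.Finite k (((chart H hA Hx z hz).B₁ × (chart H hA Hx z hz).B₂) ⧸
  Subalgebra.toSubmodule (chart H hA Hx z hz).BbarT)]

include hL2 in
/-- the two node sets of the concrete chart are empty together. -/
theorem chart_exists_node_place₁_iff_exists_node_place₂ :
    (∃ P : Place k (Fk k M), (chart H hA Hx z hz).T.1 ∈ P.toValuationSubring ∧
        ¬ IsNonNode₁ (chart H hA Hx z hz) P) ↔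
      ∃ P : Place k (Fk k M), (chart H hA Hx z hz).T.2 ∈ P.toValuationSubring ∧
        ¬ IsNonNode₂ (chart H hA Hx z hz) P :=
  haveI := Hx.finite_res
  haveI := Hx.sep_res
  exists_node_place₁_iff_exists_node_place₂' hL2 (chart_isHalfChart_B₁ H hA Hx z hz)
    Hx.trans_res (chart_isHalfChart_B₂ H hA Hx z hz) Hx.trans_res

/-- if `(1, 0) ∉ B̄` both components of the concrete chart carry a node place. -/
theorem chart_exists_branch_of_not_mem
    (h : ((1, 0) : (chart H hA Hx z hz).B₁ × (chart H hA Hx z hz).B₂) ∉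
      (chart H hA Hx z hz).BbarT) :
    (∃ (s : Goursat.Nodes (chart H hA Hx z hz).BbarT hL2.h2) (P : Place k (Fk k M)),
        (chart H hA Hx z hz).T.1 ∈ P.toValuationSubring ∧ IsBranch₁ hL2 s P) ∧
      ∃ (s : Goursat.Nodes (chart H hA Hx z hz).BbarT hL2.h2) (P : Place k (Fk k M)),
        (chart H hA Hx z hz).T.2 ∈ P.toValuationSubring ∧ IsBranch₂ hL2 s P :=
  haveI := Hx.finite_res
  haveI := Hx.sep_res
  ⟨exists_branch₁_of_not_mem' hL2 (chart_isHalfChart_B₁ H hA Hx z hz) Hx.trans_res h,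
    exists_branch₂_of_not_mem' hL2 (chart_isHalfChart_B₂ H hA Hx z hz) Hx.trans_res h⟩

end Concrete

end Fermat.Agent.S40x.Node.BranchInst
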