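import Fermat.Agent.S40x.Node.SmoothInst
import Fermat.Agent.S34x.Inst.TheoremBMq

/-!
# P-S44, block R1 (N4, cusps): the places over `t = ∞` are non-nodes of the swap chart
(helper14, independent second of the cusp witnesses)

Concrete setting of `S34x/Inst/TheoremBMq` at level `M q`: `R := redSetup2 H hA`, `C` any chart with
coordinate `t = α t'`, `t' = tInt M x hx` (`x` an integer series with `x̄ ≠ 0`), and the
integrality fact `hy2 : IsIntegral L[t⁻¹] (y⁻¹)`, `y⁻¹ = β t' / (α t')^q` (`YFacts.y2`).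

The swap chart `C.swap` (coordinate `t⁻¹`, chart `t ≠ 0`) contains the places over `t = ∞` of
both components.  They are smooth points: two explicit witnesses

* `eInf  := (t⁻¹)^(q²-1) - (y⁻¹)^q  (= u' / t^(q²))` : `red_∞ = (x̄⁻¹)^(q²-1) - 1`, `red_0 = 0`;
* `eZero := y⁻¹ - 1                 (= u / t^q)`     : `red_∞ = 0`, `red_0 = (x̄⁻¹)^(q²-1) - 1`;

both integral over `L[t⁻¹]` and for both valuations.  Hence

* `isNonNode₁_swap` : `C.T.1 ∉ O_P → SmoothInst.IsNonNode₁ C.swap P`;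
* `isNonNode₂_swap` : `C.T.2 ∉ O_P → SmoothInst.IsNonNode₂ C.swap P`

(the hypotheses `hcusp` of `NodePlaces.smooth_hyps₁`, `smooth_hyps₂`).
-/

set_option autoImplicit false
set_option linter.unusedSectionVars false
set_option linter.style.haveILetI false

noncomputable section

namespace Fermat.Agent.S40x.Node.CuspWitnessB

open ModularCurve AlgebraicCurve IntermediateField IsLocalRing Module
open Fermat.Agent.Gateway.Hecke Fermat.Agent.Gateway.ESC
open Fermat.Agent.Gateway.Red Fermat.Agent.Gateway.GoodRed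
open Fermat.Agent.Gateway.GoodRed.ConjFamily
open Fermat.Agent.S34x Fermat.Agent.S34x.TwoVal Fermat.Agent.S34x.C0two Fermat.Agent.S34x.Lattice2
open Fermat.Agent.S34x.Inst.RedSetupInst Fermat.Agent.S34x.Inst.ElementYRed
open Fermat.Agent.S40x.Node.SmoothInst

attribute [-instance] IsScalarTower.of_algHom

/-! ### The two witnesses -/

section Defs

variable {L : Type} [Field L] [Algebra ℚ L] [IsAlgClosed L] (M q : ℕ) [NeZero M] [NeZero q]
  [Fact q.Prime] (x : LaurentSeries ℤ) (hx : coeffMap (Int.castRingHom L) x ∈ FBar L M)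

/-- `e_∞ := (t⁻¹)^(q²-1) - (y⁻¹)^q = u' / t^(q²)`. -/
def eInf : FL L (M * q) := (tA M q x hx)⁻¹ ^ (q ^ 2 - 1) - ((elY M q x hx)⁻¹) ^ q

/-- `e_0 := y⁻¹ - 1 = u / t^q`. -/
def eZero : FL L (M * q) := (elY M q x hx)⁻¹ - 1

end Defs

variable {L : Type} [Field L] [Algebra ℚ L] [IsAlgClosed L]
  {A : ValuationSubring L} {k : Type} [Field k] {π : A →+* k} [IsAlgClosed k]
variable {M q : ℕ} [NeZero M] [NeZero q] [Fact q.Prime] [CharP k q]
variable {hdeg : finrankAlong L (heckeAlphaBar L M q) = q + 1} {hq : q.Prime} {hqM : ¬ q ∣ M}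
variable {hrk : ∀ x ∈ maximalIdeal A, ∀ c : A, c ≠ 0 → ∃ j : ℕ, c ∣ x ^ j}
  {hπ : Function.Surjective π}
variable (H : ResidueFacts A π M q hdeg hq hqM hrk hπ) (hA : A.LiesOverPrime q)
  (x : LaurentSeries ℤ) (hx : coeffMap (Int.castRingHom L) x ∈ FBar L M)
  (C : ChartCoord (redSetup2 H hA)) (hCt : C.t = tA M q x hx) (hxk : tbar k x ≠ 0)
  (hy2 : IsIntegral (Algebra.adjoin L {(tA M q x hx)⁻¹}) (elY M q x hx)⁻¹)


include hxk in
theorem eInf_mem_Ov : eInf M q x hx ∈ Ov A π (FBar L (M * q)) :=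
  sub_mem (pow_mem (tA_inv_mem_Ov A π M q x hx hxk) _) (pow_mem (elY_inv_mem_Ov A π M q x hx hxk) _)

include hxk in
theorem eInf_mem_Ov0 : eInf M q x hx ∈ Ov0 A π M q hdeg hq hqM :=
  sub_mem (pow_mem (tA_inv_mem_Ov0 A π M q hdeg hq hqM x hx hxk) _)
    (pow_mem (elY_inv_mem_Ov0 A π M q hdeg hq hqM x hx hxk) _)

include hxk in
theorem eZero_mem_Ov : eZero M q x hx ∈ Ov A π (FBar L (M * q)) :=
  sub_mem (elY_inv_mem_Ov A π M q x hx hxk) (one_mem _)

include hxk in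
theorem eZero_mem_Ov0 : eZero M q x hx ∈ Ov0 A π M q hdeg hq hqM :=
  sub_mem (elY_inv_mem_Ov0 A π M q hdeg hq hqM x hx hxk) (one_mem _)

include hxk in
/-- `red_∞ e_∞ = (x̄⁻¹)^(q²-1) - 1`. -/
theorem redV_eInf :
    redV A π (FBar L (M * q)) ⟨eInf M q x hx, eInf_mem_Ov x hx hxk⟩ =
      (tbar k x)⁻¹ ^ (q ^ 2 - 1) - 1 := by
  have h1 : (⟨eInf M q x hx, eInf_mem_Ov x hx hxk⟩ : Ov A π (FBar L (M * q))) =
      ⟨(tA M q x hx)⁻¹, tA_inv_mem_Ov A π M q x hx hxk⟩ ^ (q ^ 2 - 1) -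
        ⟨(elY M q x hx)⁻¹, elY_inv_mem_Ov A π M q x hx hxk⟩ ^ q := rfl
  rw [h1, map_sub, map_pow, map_pow, redV_tA_inv A π M q x hx hxk,
    redV_elY_inv A π M q x hx hxk, one_pow]

include hxk in
/-- `red_0 e_∞ = 0`. -/
theorem red0_eInf :
    red0 A π M q hdeg hq hqM ⟨eInf M q x hx, eInf_mem_Ov0 x hx hxk⟩ = 0 := by
  have h1 : (⟨eInf M q x hx, eInf_mem_Ov0 x hx hxk⟩ : Ov0 A π M q hdeg hq hqM) =
      ⟨(tA M q x hx)⁻¹, tA_inv_mem_Ov0 A π M q hdeg hq hqM x hx hxk⟩ ^ (q ^ 2 - 1) -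
        ⟨(elY M q x hx)⁻¹, elY_inv_mem_Ov0 A π M q hdeg hq hqM x hx hxk⟩ ^ q := rfl
  rw [h1, map_sub, map_pow, map_pow, red0_tA_inv A π M q hdeg hq hqM x hx hxk,
    red0_elY_inv A π M q hdeg hq hqM x hx hxk, ← inv_pow, ← pow_mul, ← pow_mul, mul_comm,
    sub_self]

include hxk in
/-- `red_∞ e_0 = 0`. -/
theorem redV_eZero :
    redV A π (FBar L (M * q)) ⟨eZero M q x hx, eZero_mem_Ov x hx hxk⟩ = 0 := by
  have h1 : (⟨eZero M q x hx, eZero_mem_Ov x hx hxk⟩ : Ov A π (FBar L (M * q))) =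
      ⟨(elY M q x hx)⁻¹, elY_inv_mem_Ov A π M q x hx hxk⟩ - 1 := rfl
  rw [h1, map_sub, map_one, redV_elY_inv A π M q x hx hxk, sub_self]

include hxk in
/-- `red_0 e_0 = (x̄⁻¹)^(q²-1) - 1`. -/
theorem red0_eZero :
    red0 A π M q hdeg hq hqM ⟨eZero M q x hx, eZero_mem_Ov0 x hx hxk⟩ =
      (tbar k x)⁻¹ ^ (q ^ 2 - 1) - 1 := by
  have h1 : (⟨eZero M q x hx, eZero_mem_Ov0 x hx hxk⟩ : Ov0 A π M q hdeg hq hqM) =
      ⟨(elY M q x hx)⁻¹, elY_inv_mem_Ov0 A π M q hdeg hq hqM x hx hxk⟩ - 1 := rfl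
  rw [h1, map_sub, map_one, red0_elY_inv A π M q hdeg hq hqM x hx hxk]

/-! ### Membership in the swap chart ring -/

include hCt hy2 in
/-- every element of `L[t⁻¹, y⁻¹]` has poles only over `t = 0`. -/
theorem exists_mem_swap_LN {f : FL L (M * q)}
    (hf : f ∈ Algebra.adjoin L {(tA M q x hx)⁻¹, (elY M q x hx)⁻¹}) :
    ∃ b, f ∈ C.swap.LN 0 b := by
  have hint : IsIntegral (Algebra.adjoin L {C.swap.t}) f := by
    rw [ChartCoord.swap_t, hCt]
    have hle : Algebra.adjoin L {(tA M q x hx)⁻¹, (elY M q x hx)⁻¹} ≤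
        (integralClosure (Algebra.adjoin L {(tA M q x hx)⁻¹}) (FL L (M * q))).restrictScalars
          L := by
      refine Algebra.adjoin_le ?_
      rintro y (rfl | rfl)
      · exact isIntegral_gen (k := L) ((tA M q x hx)⁻¹)
      · exact hy2
    exact hle hf
  exact (isIntegral_iff_exists_mem_twoPole (k := L) C.swap.t_mul_tinv).mp hint

theorem eInf_mem_adjoin :
    eInf M q x hx ∈ Algebra.adjoin L {(tA M q x hx)⁻¹, (elY M q x hx)⁻¹} :=
  sub_mem (pow_mem (Algebra.subset_adjoin (by simp)) _)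
    (pow_mem (Algebra.subset_adjoin (by simp)) _)

theorem eZero_mem_adjoin :
    eZero M q x hx ∈ Algebra.adjoin L {(tA M q x hx)⁻¹, (elY M q x hx)⁻¹} :=
  sub_mem (Algebra.subset_adjoin (by simp)) (one_mem _)

include hxk in
theorem eInf_mem_O : eInf M q x hx ∈
    (twoVal (valInfty A π M q hrk hπ hqM) (valZero A π M q hdeg hq hqM hrk hπ)).O :=
  ⟨eInf_mem_Ov x hx hxk, eInf_mem_Ov0 x hx hxk⟩

include hxk in
theorem eZero_mem_O : eZero M q x hx ∈
    (twoVal (valInfty A π M q hrk hπ hqM) (valZero A π M q hdeg hq hqM hrk hπ)).O :=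
  ⟨eZero_mem_Ov x hx hxk, eZero_mem_Ov0 x hx hxk⟩

/-! ### The coordinate -/

include hCt in
/-- the Laurent series of `C.T.1` is `x̄`. -/
theorem coe_T_fst : (((C.T.1 : modularFunctionFieldFullC k M)) : LaurentSeries k) = tbar k x := by
  have h1 : (((C.T.1 : modularFunctionFieldFullC k M)) : LaurentSeries k) =
      redV A π (FL L (M * q)) ⟨C.t, C.t_mem.1⟩ := rfl
  rw [h1]
  have h2 : (⟨C.t, C.t_mem.1⟩ : Ov A π (FL L (M * q))) =
      ⟨tA M q x hx, tA_mem_Ov A π M q x hx⟩ := Subtype.ext hCt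
  rw [h2]
  exact redV_tA A π M q x hx

include hCt in
/-- the Laurent series of `C.T.2` is `x̄ ^ q`. -/
theorem coe_T_snd :
    (((C.T.2 : modularFunctionFieldFullC k M)) : LaurentSeries k) = tbar k x ^ q := by
  have h1 : (((C.T.2 : modularFunctionFieldFullC k M)) : LaurentSeries k) =
      red0 A π M q hdeg hq hqM ⟨C.t, C.t_mem.2⟩ := rfl
  rw [h1]
  have h2 : (⟨C.t, C.t_mem.2⟩ : Ov0 A π M q hdeg hq hqM) =
      ⟨tA M q x hx, tA_mem_Ov0 A π M q hdeg hq hqM x hx⟩ := Subtype.ext hCt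
  rw [h2]
  exact red0_tA A π M q hdeg hq hqM x hx

/-! ### A small valuation lemma -/

/-- if `y` is not integral at `P` then `(y⁻¹)^n - 1` (`n ≥ 1`) is a unit at `P`. -/
theorem inv_pow_sub_one_notMem_nonunits {E : Type*} [Field E] (O : ValuationSubring E) {y : E}
    (hy : y ∉ O) {n : ℕ} (hn : 0 < n) : y⁻¹ ^ n - 1 ∉ O.nonunits := by
  have h1 : ¬ O.valuation y ≤ 1 := fun hle => hy ((O.valuation_le_one_iff _).mp hle)
  have h2 : O.valuation y⁻¹ < 1 := by
    rw [map_inv₀]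
    exact inv_lt_one_of_one_lt₀ (not_le.mp h1)
  have h3 : O.valuation (y⁻¹ ^ n) < 1 := by
    rw [map_pow]
    exact pow_lt_one₀ zero_le h2 hn.ne'
  rw [ValuationSubring.mem_nonunits_iff]
  intro h4
  have h5 : O.valuation (y⁻¹ ^ n - (y⁻¹ ^ n - 1)) < 1 :=
    lt_of_le_of_lt (Valuation.map_sub _ _ _) (max_lt h3 h4)
  rw [sub_sub_cancel, map_one] at h5
  exact lt_irrefl _ h5

/-! ### The cusps over `t = ∞` are non-nodes of the swap chart -/

include hCt hxk hy2 in
/-- **first component**: every place of `κ_∞` at which `T₁ = x̄` has a pole is a non-node of the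
swap chart. -/
theorem isNonNode₁_swap (P : Place k (modularFunctionFieldFullC k M))
    (hP : C.T.1 ∉ P.toValuationSubring) : IsNonNode₁ C.swap P := by
  obtain ⟨b, hb⟩ := exists_mem_swap_LN H hA x hx C hCt hy2 (eInf_mem_adjoin x hx)
  have hO := eInf_mem_O (hdeg := hdeg) (hq := hq) (hqM := hqM) (hrk := hrk) (hπ := hπ) x hx hxk
  have hz : (redSetup2 H hA).res ⟨eInf M q x hx, hO⟩ ∈ C.swap.Bbar := C.swap.res_mem_Bbar hO hb
  have hz1 : (((redSetup2 H hA).res ⟨eInf M q x hx, hO⟩).1 : modularFunctionFieldFullC k M) =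
      (C.T.1)⁻¹ ^ (q ^ 2 - 1) - 1 := by
    apply Subtype.ext
    rw [coe_res_fst, AddSubgroupClass.coe_sub, SubmonoidClass.coe_pow, OneMemClass.coe_one]
    have h3 : (((C.T.1)⁻¹ : modularFunctionFieldFullC k M) : LaurentSeries k) =
        (tbar k x)⁻¹ := by
      rw [← coe_T_fst H hA x hx C hCt]
      rfl
    rw [h3]
    exact redV_eInf x hx hxk
  have hz2 : ((redSetup2 H hA).res ⟨eInf M q x hx, hO⟩).2 = 0 := by
    apply Subtype.ext
    rw [coe_res_snd]
    exact red0_eInf x hx hxk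
  have hmem := C.swap.mem_Btilde_iff_prod.mp (C.swap.Bbar_le_Btilde hz)
  refine ⟨⟨_, hmem.1⟩, ?_, ?_⟩
  · rw [ChartCoord.mem_BbarT_iff]
    have h4 : C.swap.incl ((⟨_, hmem.1⟩ : C.swap.B₁), (0 : C.swap.B₂)) =
        (redSetup2 H hA).res ⟨eInf M q x hx, hO⟩ :=
      Prod.ext rfl hz2.symm
    rw [h4]
    exact hz
  · show (((redSetup2 H hA).res ⟨eInf M q x hx, hO⟩).1 : modularFunctionFieldFullC k M) ∉ _
    rw [hz1]
    have hq2 : 0 < q ^ 2 - 1 := by
      have := (Fact.out : q.Prime).two_le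
      have : 4 ≤ q ^ 2 := by nlinarith
      omega
    exact inv_pow_sub_one_notMem_nonunits P.toValuationSubring hP hq2

include hCt hxk hy2 in
/-- **second component**: every place of `κ_0` at which `T₂ = x̄^q` has a pole is a non-node of the
swap chart. -/
theorem isNonNode₂_swap (P : Place k (modularFunctionFieldFullC k M))
    (hP : C.T.2 ∉ P.toValuationSubring) : IsNonNode₂ C.swap P := by
  obtain ⟨b, hb⟩ := exists_mem_swap_LN H hA x hx C hCt hy2 (eZero_mem_adjoin x hx)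
  have hO := eZero_mem_O (hdeg := hdeg) (hq := hq) (hqM := hqM) (hrk := hrk) (hπ := hπ) x hx hxk
  have hz : (redSetup2 H hA).res ⟨eZero M q x hx, hO⟩ ∈ C.swap.Bbar := C.swap.res_mem_Bbar hO hb
  -- the coordinate `x̄` of the second component
  have hz1 : ((redSetup2 H hA).res ⟨eZero M q x hx, hO⟩).1 = 0 := by
    apply Subtype.ext
    rw [coe_res_fst]
    exact redV_eZero x hx hxk
  have hmem := C.swap.mem_Btilde_iff_prod.mp (C.swap.Bbar_le_Btilde hz)
  refine ⟨⟨_, hmem.2⟩, ?_, ?_⟩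
  · rw [ChartCoord.mem_BbarT_iff]
    have h4 : C.swap.incl ((0 : C.swap.B₁), (⟨_, hmem.2⟩ : C.swap.B₂)) =
        (redSetup2 H hA).res ⟨eZero M q x hx, hO⟩ :=
      Prod.ext hz1.symm rfl
    rw [h4]
    exact hz
  · show (((redSetup2 H hA).res ⟨eZero M q x hx, hO⟩).2 : modularFunctionFieldFullC k M) ∉ _
    -- `x̄` itself is not integral at `P`
    have hxb : ∃ y : modularFunctionFieldFullC k M, (y : LaurentSeries k) = tbar k x ∧
        y ^ q = C.T.2 := by
      refine ⟨C.T.1, coe_T_fst H hA x hx C hCt, ?_⟩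
      apply Subtype.ext
      rw [SubmonoidClass.coe_pow, coe_T_fst H hA x hx C hCt, coe_T_snd H hA x hx C hCt]
    obtain ⟨y, hy, hyq⟩ := hxb
    have hyP : y ∉ P.toValuationSubring := by
      intro hmemP
      apply hP
      rw [← hyq]
      exact pow_mem hmemP q
    have hz2 : (((redSetup2 H hA).res ⟨eZero M q x hx, hO⟩).2 : modularFunctionFieldFullC k M) =
        y⁻¹ ^ (q ^ 2 - 1) - 1 := by
      apply Subtype.ext
      rw [coe_res_snd, AddSubgroupClass.coe_sub, SubmonoidClass.coe_pow, OneMemClass.coe_one]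
      have h3 : ((y⁻¹ : modularFunctionFieldFullC k M) : LaurentSeries k) = (tbar k x)⁻¹ := by
        rw [← hy]
        rfl
      rw [h3]
      exact red0_eZero x hx hxk
    rw [hz2]
    have hq2 : 0 < q ^ 2 - 1 := by
      have := (Fact.out : q.Prime).two_le
      have : 4 ≤ q ^ 2 := by nlinarith
      omega
    exact inv_pow_sub_one_notMem_nonunits P.toValuationSubring hyP hq2

/-! ### The hypotheses `hcusp` of `NodePlaces.smooth_hyps₁`, `smooth_hyps₂` -/

open Fermat.Agent.S34x.Inst.TheoremBMq in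
include hCt hxk in
/-- **`hcusp`, first component** (literal of `NodePlaces.smooth_hyps₁`). -/
theorem hcusp₁ (hY : YFacts M q x hx) :
    ∀ P : Place k (modularFunctionFieldFullC k M), C.T.1 ∉ P.toValuationSubring →
      IsNonNode₁ C.swap P :=
  fun P hP => isNonNode₁_swap H hA x hx C hCt hxk hY.y2 P hP

open Fermat.Agent.S34x.Inst.TheoremBMq in
include hCt hxk in
/-- **`hcusp`, second component** (literal of `NodePlaces.smooth_hyps₂`). -/
theorem hcusp₂ (hY : YFacts M q x hx) :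
    ∀ P : Place k (modularFunctionFieldFullC k M), C.T.2 ∉ P.toValuationSubring →
      IsNonNode₂ C.swap P :=
  fun P hP => isNonNode₂_swap H hA x hx C hCt hxk hY.y2 P hP

end Fermat.Agent.S40x.Node.CuspWitnessB

end
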