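/-
P-S44/S40, block R1, N-block, leaf (N3-D) (helper79): DENSE DOWNSTAIRS.

Consumer: C3-SLOPE, axiom (D) of the side datum (note 2653; compiled literal `SideDatum.dense` of
`S40x/R2/SlopeB/Side.lean`): the residue field of `(F, v_inf)` (resp. `(F, v_0)`) is the fraction
field of the image of the inertia-fixed chart ring `B_0 = InstW.fixedAlg Gam (BooAlg C)`
(resp. `BzeroAlg C`, hence also of `BxAlg C` and of every node ring `R_s` containing them).

* `isAlgebraic_adjoin_of_finite`, `isAlgebraic_adjoin_trans`, `isAlgebraic_adjoin_of_isAlgebraic`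
  (Mathlib only): a finite extension of `k(x)` is algebraic over `k[s]` as soon as `x` is.
* `HasFixedLifts C Gam` : every element of `red (L(b C_oo) cap O)` has a `Gam`-fixed lift.
* `dense_fst`, `dense_snd`, `dense_zero_fst`, `dense_zero_snd` : CHART FORM for a general chart
  with (L2): for every `xbar` in the residue ring of the component there are `r1 r2` in
  `fixedAlg Gam (BooAlg C)` (resp. `BzeroAlg C`) with `rho r2 != 0`, `xbar * rho r2 = rho r1`
  (`rho = (R.res .).1` or `.2`).  Proof: `xbar` is algebraic over `k[T]`, so `y * xbar` is integral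
  over `k[T]` for some `y != 0` in `k[T]` (`IsAlgebraic.exists_integral_multiple`); by (L2) `y` and
  `y * xbar` are components of elements of the reduced chart ring `Bbar`; lift them to fixed
  elements (`LatticeFixed2.exists_fixed_lift2`).
* `ChartDense R C Gam` : the four chart forms bundled; `chartDense`, `chartDense_W` : inside the
  context bundle `Cech.CtxMq.Ctx` + `CtxGal` + `FixData2` + `hF`.
* `dense_of_res` : VERBATIM (D) (valuation form) from a residue map `Gateway.C0.RedSetup`;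
  `dense_nonunits_of_dense` : the `nonunits` form of note 2653.
* `dense_boo_fst`, `dense_boo_snd`, `dense_bzero_fst`, `dense_bzero_snd`, `dense_bx_fst`,
  `dense_bx_snd` : (D) for the two valuations of `redSetupTwoVal`, for EVERY subring `R'` containing
  the fixed chart ring.
* `chartDense_Mq`, `dense_valInfty_boo_Mq`, `dense_valZero_boo_Mq`, `dense_valInfty_bzero_Mq`,
  `dense_valZero_bzero_Mq`, `dense_valInfty_bx_Mq`, `dense_valZero_bx_Mq` : the CONCRETE level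
  `M q` over `Qbar`, `Gam = inertiaAct P (M q)`; no hypothesis on fixed points left.
-/
import Fermat.Agent.S33x.W.InstWCtx
import Fermat.Agent.S33x.H1.FixData2Final

set_option autoImplicit false
set_option linter.unusedSectionVars false
set_option linter.style.haveILetI false

noncomputable section

namespace Fermat.Agent.S40x.Node.Dense

open AlgebraicCurve Module IntermediateField IsLocalRing
open Fermat.Agent.Gateway.C0 Fermat.Agent.S34x.C0two Fermat.Agent.S34x.Lattice2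
open Fermat.Agent.S33x.Cech.CtxMq Fermat.Agent.S33x.H1.InstC1 Fermat.Agent.S33x.H1.InstC4
open Fermat.Agent.S33x.W.InstW (fixedAlg mem_fixedAlg)
open Fermat.Agent.S19x.Geo.LatticeFixed (IsFixed span_fixed_of_stable)

/-! ### Algebraicity over `k[s]` -/

section Alg

variable {k : Type*} [Field k] {E : Type*} [Field E] [Algebra k E]

open scoped IntermediateField.algebraAdjoinAdjoin in
/-- a finite extension of `k(x)` is algebraic over `k[x]` -/
theorem isAlgebraic_adjoin_of_finite (x : E) [FiniteDimensional k⟮x⟯ E] (z : E) :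
    IsAlgebraic (Algebra.adjoin k {x}) z :=
  (IsAlgebraic.of_finite k⟮x⟯ z).restrictScalars (Algebra.adjoin k {x})

/-- transitivity of algebraicity along `k[s] ⊆ k[s, x] ⊇ k[x]` -/
theorem isAlgebraic_adjoin_trans {x s : E} (hx : IsAlgebraic (Algebra.adjoin k {s}) x) {z : E}
    (hz : IsAlgebraic (Algebra.adjoin k {x}) z) : IsAlgebraic (Algebra.adjoin k {s}) z :=
  IsAlgebraic.adjoin_of_forall_isAlgebraic (R := k) (S := E) (s := {x}) (t := {s})
    (fun y hy => by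
      have : y = x := hy.1
      rw [this]; exact hx) hz

theorem isAlgebraic_adjoin_self (s : E) : IsAlgebraic (Algebra.adjoin k {s}) s := by
  have h := _root_.isAlgebraic_algebraMap (R := Algebra.adjoin k {s}) (A := E)
    ⟨s, Algebra.self_mem_adjoin_singleton k s⟩
  exact h

/-- `x` is algebraic over `k[s]` as soon as `x ^ n * s = 1` or `x ^ n = s` for some `n > 0` -/
theorem isAlgebraic_adjoin_of_pow_eq {x s : E} {n : ℕ} (hn : 0 < n) (h : x ^ n = s) :
    IsAlgebraic (Algebra.adjoin k {s}) x := by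
  subst h
  exact IsAlgebraic.of_pow hn (isAlgebraic_adjoin_self (x ^ n))

theorem isAlgebraic_adjoin_of_pow_mul_eq_one {x s : E} {n : ℕ} (hn : 0 < n) (h : x ^ n * s = 1) :
    IsAlgebraic (Algebra.adjoin k {s}) x := by
  refine IsAlgebraic.of_pow hn ?_
  have : x ^ n = s⁻¹ := eq_inv_of_mul_eq_one_left h
  rw [this]
  exact (isAlgebraic_adjoin_self s).inv

/-- a finite extension of `k(x)` is algebraic over `k[s]` whenever `x` is -/
theorem isAlgebraic_adjoin_of_isAlgebraic {x s : E} [FiniteDimensional k⟮x⟯ E]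
    (hx : IsAlgebraic (Algebra.adjoin k {s}) x) (z : E) : IsAlgebraic (Algebra.adjoin k {s}) z :=
  isAlgebraic_adjoin_trans hx (isAlgebraic_adjoin_of_finite x z)

end Alg

/-! ### The chart form -/

section Core

variable {K : Type*} [Field K] {A : ValuationSubring K}
  {F : Type*} [Field F] [Algebra K F] {S : SmallRing F}
  {k κ₁ κ₂ : Type*} [Field k] [CommRing κ₁] [CommRing κ₂] [Algebra k κ₁] [Algebra k κ₂]
  {R : RedSetup2 A S k (κ₁ × κ₂)} (C : ChartCoord R) (Γ : Set (SemilinearAut K F))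

/-- the lifting hypothesis: every element of the reduction of `L(b C∞) ∩ O` has a `Γ`-fixed lift -/
def HasFixedLifts : Prop :=
  ∀ b : ℕ, ∀ y ∈ R.redLat (C.LN 0 b),
    ∃ (f : F) (hf : f ∈ S.O), f ∈ C.LN 0 b ∧ IsFixed Γ f ∧ R.res ⟨f, hf⟩ = y

variable {C Γ}

/-- every element of the reduced chart ring `B̄` is the reduction of a `Γ`-fixed element of `B∞` -/
theorem exists_fixed_of_mem_Bbar (hl : HasFixedLifts C Γ) {y : κ₁ × κ₂} (hy : y ∈ C.Bbar) :
    ∃ (f : F) (hf : f ∈ S.O), f ∈ fixedAlg Γ (BooAlg C) ∧ R.res ⟨f, hf⟩ = y := by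
  obtain ⟨b, hb⟩ := hy
  obtain ⟨f, hf, hfL, hfix, hres⟩ := hl b y hb
  exact ⟨f, hf, mem_fixedAlg.mpr ⟨(mem_BooAlg C).mpr ⟨b, hfL, hf⟩, hfix⟩, hres⟩

/-- **DENSE, chart form, first component** -/
theorem dense_fst (hl : HasFixedLifts C Γ) (hL2 : C.IsL2)
    (halg : ∀ z : κ₁, IsAlgebraic (Algebra.adjoin k {C.T.1}) z) (xbar : κ₁) :
    ∃ (r1 r2 : F) (h1 : r1 ∈ S.O) (h2 : r2 ∈ S.O),
      r1 ∈ fixedAlg Γ (BooAlg C) ∧ r2 ∈ fixedAlg Γ (BooAlg C) ∧
      (R.res ⟨r2, h2⟩).1 ≠ 0 ∧ xbar * (R.res ⟨r2, h2⟩).1 = (R.res ⟨r1, h1⟩).1 := by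
  obtain ⟨y, hy0, hyint⟩ := (halg xbar).exists_integral_multiple
  have hy1 : IsIntegral (Algebra.adjoin k {C.T.1}) (y : κ₁) := isIntegral_algebraMap (x := y)
  obtain ⟨g2, hg2⟩ := hL2.fst (y : κ₁) hy1
  obtain ⟨g1, hg1⟩ := hL2.fst (y • xbar) hyint
  obtain ⟨r2, h2, hr2, hres2⟩ := exists_fixed_of_mem_Bbar hl hg2
  obtain ⟨r1, h1, hr1, hres1⟩ := exists_fixed_of_mem_Bbar hl hg1
  refine ⟨r1, r2, h1, h2, hr1, hr2, ?_, ?_⟩
  · rw [hres2]
    exact fun h => hy0 (Subtype.ext h)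
  · rw [hres2, hres1]
    show xbar * (y : κ₁) = y • xbar
    rw [Algebra.smul_def, mul_comm]
    rfl

/-- **DENSE, chart form, second component** -/
theorem dense_snd (hl : HasFixedLifts C Γ) (hL2 : C.IsL2)
    (halg : ∀ z : κ₂, IsAlgebraic (Algebra.adjoin k {C.T.2}) z) (xbar : κ₂) :
    ∃ (r1 r2 : F) (h1 : r1 ∈ S.O) (h2 : r2 ∈ S.O),
      r1 ∈ fixedAlg Γ (BooAlg C) ∧ r2 ∈ fixedAlg Γ (BooAlg C) ∧
      (R.res ⟨r2, h2⟩).2 ≠ 0 ∧ xbar * (R.res ⟨r2, h2⟩).2 = (R.res ⟨r1, h1⟩).2 := by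
  obtain ⟨y, hy0, hyint⟩ := (halg xbar).exists_integral_multiple
  have hy1 : IsIntegral (Algebra.adjoin k {C.T.2}) (y : κ₂) := isIntegral_algebraMap (x := y)
  obtain ⟨g2, hg2⟩ := hL2.snd (y : κ₂) hy1
  obtain ⟨g1, hg1⟩ := hL2.snd (y • xbar) hyint
  obtain ⟨r2, h2, hr2, hres2⟩ := exists_fixed_of_mem_Bbar hl hg2
  obtain ⟨r1, h1, hr1, hres1⟩ := exists_fixed_of_mem_Bbar hl hg1
  refine ⟨r1, r2, h1, h2, hr1, hr2, ?_, ?_⟩
  · rw [hres2]
    exact fun h => hy0 (Subtype.ext h)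
  · rw [hres2, hres1]
    show xbar * (y : κ₂) = y • xbar
    rw [Algebra.smul_def, mul_comm]
    rfl

theorem fixedAlg_boo_le_bx {f : F} (hf : f ∈ fixedAlg Γ (BooAlg C)) :
    f ∈ fixedAlg Γ (BxAlg C) :=
  mem_fixedAlg.mpr ⟨BooAlg_le C (mem_fixedAlg.mp hf).1, (mem_fixedAlg.mp hf).2⟩

theorem fixedAlg_bzero_le_bx {f : F} (hf : f ∈ fixedAlg Γ (BzeroAlg C)) :
    f ∈ fixedAlg Γ (BxAlg C) :=
  mem_fixedAlg.mpr ⟨BzeroAlg_le C (mem_fixedAlg.mp hf).1, (mem_fixedAlg.mp hf).2⟩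

/-! #### the chart `t ≠ 0` -/

theorem BooAlg_swap : BooAlg C.swap = BzeroAlg C := by
  ext f
  rw [mem_BooAlg, mem_BzeroAlg]
  refine exists_congr fun a => ?_
  rw [mem_Lam, mem_Lam, C.swap_LN]

/-- **DENSE, chart form, `B₀`, first component** -/
theorem dense_zero_fst (hl : HasFixedLifts C.swap Γ) (hL2 : C.swap.IsL2)
    (halg : ∀ z : κ₁, IsAlgebraic (Algebra.adjoin k {C.Ti.1}) z) (xbar : κ₁) :
    ∃ (r1 r2 : F) (h1 : r1 ∈ S.O) (h2 : r2 ∈ S.O),
      r1 ∈ fixedAlg Γ (BzeroAlg C) ∧ r2 ∈ fixedAlg Γ (BzeroAlg C) ∧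
      (R.res ⟨r2, h2⟩).1 ≠ 0 ∧ xbar * (R.res ⟨r2, h2⟩).1 = (R.res ⟨r1, h1⟩).1 := by
  have h := dense_fst hl hL2 halg xbar
  rwa [BooAlg_swap] at h

/-- **DENSE, chart form, `B₀`, second component** -/
theorem dense_zero_snd (hl : HasFixedLifts C.swap Γ) (hL2 : C.swap.IsL2)
    (halg : ∀ z : κ₂, IsAlgebraic (Algebra.adjoin k {C.Ti.2}) z) (xbar : κ₂) :
    ∃ (r1 r2 : F) (h1 : r1 ∈ S.O) (h2 : r2 ∈ S.O),
      r1 ∈ fixedAlg Γ (BzeroAlg C) ∧ r2 ∈ fixedAlg Γ (BzeroAlg C) ∧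
      (R.res ⟨r2, h2⟩).2 ≠ 0 ∧ xbar * (R.res ⟨r2, h2⟩).2 = (R.res ⟨r1, h1⟩).2 := by
  have h := dense_snd hl hL2 halg xbar
  rwa [BooAlg_swap] at h

end Core

/-! ### Inside the context bundle -/

section Ctx

variable {K : Type*} [Field K] [IsAlgClosed K] [CharZero K] {A : ValuationSubring K}
  {F : Type*} [Field F] [Algebra K F] {S : SmallRing F}
  {k : Type*} [Field k] [IsAlgClosed k] {E : Type*} [Field E] [Algebra k E]
  {R : RedSetup2 A S k (E × E)} {C : ChartCoord R} {p q : ℕ} {x : E} {Dt : Divisor K F}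
  (h : Ctx R C p q x Dt) {Γ : Set (SemilinearAut K F)} (hG : CtxGal R C Γ)

include h hG in
/-- every element of the reduction of `L(a C₀ + b C∞) ∩ O` has an inertia-fixed lift
(`FixData2` of `H1/LatticeFixed2`) -/
theorem exists_fixed_lift_LN (hD : Fermat.Agent.S33x.H1.LatticeFixed2.FixData2 R Γ)
    (hF : Submodule.span K {f : F | IsFixed Γ f} = ⊤) (a b : ℕ) {y : E × E}
    (hy : y ∈ R.redLat (C.LN a b)) :
    ∃ (f : F) (hf : f ∈ S.O), f ∈ C.LN a b ∧ IsFixed Γ f ∧ R.res ⟨f, hf⟩ = y := by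
  haveI := Fermat.Agent.S33x.W.InstWCtx.finite_LN h a b
  exact Fermat.Agent.S33x.H1.LatticeFixed2.exists_fixed_lift2 hD (C.LN a b)
    (Fermat.Agent.S33x.W.InstWCtx.fg_lat_LN' h a b)
    (le_of_eq (span_fixed_of_stable hF (C.LN a b)
      (Fermat.Agent.S33x.H1.StableLN.stable_LN C hG.smul_t a b)).symm) hy

include h hG in
/-- the same with the `FixData2` of `W/LatticeFixed2` -/
theorem exists_fixed_lift_LN_W (hD : Fermat.Agent.S33x.W.LatticeFixed2.FixData2 R Γ)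
    (hF : Submodule.span K {f : F | IsFixed Γ f} = ⊤) (a b : ℕ) {y : E × E}
    (hy : y ∈ R.redLat (C.LN a b)) :
    ∃ (f : F) (hf : f ∈ S.O), f ∈ C.LN a b ∧ IsFixed Γ f ∧ R.res ⟨f, hf⟩ = y := by
  haveI := Fermat.Agent.S33x.W.InstWCtx.finite_LN h a b
  exact Fermat.Agent.S33x.W.LatticeFixed2.exists_fixed_lift2 hD (C.LN a b)
    (Fermat.Agent.S33x.W.InstWCtx.fg_lat_LN' h a b)
    (le_of_eq (span_fixed_of_stable hF (C.LN a b)
      (Fermat.Agent.S33x.H1.StableLN.stable_LN C hG.smul_t a b)).symm) hy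

include h in
theorem T_fst_eq : C.T.1 = x := by rw [h.hT]

include h in
theorem T_snd_eq : C.T.2 = x ^ q := by rw [h.hT]

include h in
theorem x_mul_Ti_fst : x ^ 1 * C.Ti.1 = 1 := by
  have h1 := congrArg Prod.fst C.T_mul_Ti
  rw [Prod.fst_mul, T_fst_eq h] at h1
  rw [pow_one]
  exact h1

include h in
theorem x_pow_mul_Ti_snd : x ^ q * C.Ti.2 = 1 := by
  have h1 := congrArg Prod.snd C.T_mul_Ti
  rw [Prod.snd_mul, T_snd_eq h] at h1
  exact h1

include h in
/-- the four algebraicity statements -/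
theorem isAlgebraic_T_fst (z : E) : IsAlgebraic (Algebra.adjoin k {C.T.1}) z := by
  haveI := h.fin_x
  exact isAlgebraic_adjoin_of_isAlgebraic (x := x)
    (isAlgebraic_adjoin_of_pow_eq one_pos (by rw [pow_one, T_fst_eq h])) z

include h in
theorem isAlgebraic_T_snd (z : E) : IsAlgebraic (Algebra.adjoin k {C.T.2}) z := by
  haveI := h.fin_x
  exact isAlgebraic_adjoin_of_isAlgebraic (x := x)
    (isAlgebraic_adjoin_of_pow_eq h.hq (T_snd_eq h).symm) z

include h in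
theorem isAlgebraic_Ti_fst (z : E) : IsAlgebraic (Algebra.adjoin k {C.Ti.1}) z := by
  haveI := h.fin_x
  exact isAlgebraic_adjoin_of_isAlgebraic (x := x)
    (isAlgebraic_adjoin_of_pow_mul_eq_one one_pos (x_mul_Ti_fst h)) z

include h in
theorem isAlgebraic_Ti_snd (z : E) : IsAlgebraic (Algebra.adjoin k {C.Ti.2}) z := by
  haveI := h.fin_x
  exact isAlgebraic_adjoin_of_isAlgebraic (x := x)
    (isAlgebraic_adjoin_of_pow_mul_eq_one h.hq (x_pow_mul_Ti_snd h)) z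

include h hG in
/-- `HasFixedLifts` on both charts (`FixData2` of `H1/LatticeFixed2`) -/
theorem hasFixedLifts (hD : Fermat.Agent.S33x.H1.LatticeFixed2.FixData2 R Γ)
    (hF : Submodule.span K {f : F | IsFixed Γ f} = ⊤) :
    HasFixedLifts C Γ ∧ HasFixedLifts C.swap Γ := by
  refine ⟨fun b y hy => exists_fixed_lift_LN h hG hD hF 0 b hy, fun b y hy => ?_⟩
  rw [C.swap_LN] at hy ⊢
  exact exists_fixed_lift_LN h hG hD hF b 0 hy

include h hG in
/-- `HasFixedLifts` on both charts (`FixData2` of `W/LatticeFixed2`) -/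
theorem hasFixedLifts_W (hD : Fermat.Agent.S33x.W.LatticeFixed2.FixData2 R Γ)
    (hF : Submodule.span K {f : F | IsFixed Γ f} = ⊤) :
    HasFixedLifts C Γ ∧ HasFixedLifts C.swap Γ := by
  refine ⟨fun b y hy => exists_fixed_lift_LN_W h hG hD hF 0 b hy, fun b y hy => ?_⟩
  rw [C.swap_LN] at hy ⊢
  exact exists_fixed_lift_LN_W h hG hD hF b 0 hy

/-- **DENSE, chart form** (the four variants), from the lifting property on both charts. -/
structure ChartDense (R : RedSetup2 A S k (E × E)) (C : ChartCoord R)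
    (Γ : Set (SemilinearAut K F)) : Prop where
  boo_fst : ∀ xbar : E, ∃ (r1 r2 : F) (h1 : r1 ∈ S.O) (h2 : r2 ∈ S.O),
      r1 ∈ fixedAlg Γ (BooAlg C) ∧ r2 ∈ fixedAlg Γ (BooAlg C) ∧
      (R.res ⟨r2, h2⟩).1 ≠ 0 ∧ xbar * (R.res ⟨r2, h2⟩).1 = (R.res ⟨r1, h1⟩).1
  boo_snd : ∀ xbar : E, ∃ (r1 r2 : F) (h1 : r1 ∈ S.O) (h2 : r2 ∈ S.O),
      r1 ∈ fixedAlg Γ (BooAlg C) ∧ r2 ∈ fixedAlg Γ (BooAlg C) ∧
      (R.res ⟨r2, h2⟩).2 ≠ 0 ∧ xbar * (R.res ⟨r2, h2⟩).2 = (R.res ⟨r1, h1⟩).2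
  bzero_fst : ∀ xbar : E, ∃ (r1 r2 : F) (h1 : r1 ∈ S.O) (h2 : r2 ∈ S.O),
      r1 ∈ fixedAlg Γ (BzeroAlg C) ∧ r2 ∈ fixedAlg Γ (BzeroAlg C) ∧
      (R.res ⟨r2, h2⟩).1 ≠ 0 ∧ xbar * (R.res ⟨r2, h2⟩).1 = (R.res ⟨r1, h1⟩).1
  bzero_snd : ∀ xbar : E, ∃ (r1 r2 : F) (h1 : r1 ∈ S.O) (h2 : r2 ∈ S.O),
      r1 ∈ fixedAlg Γ (BzeroAlg C) ∧ r2 ∈ fixedAlg Γ (BzeroAlg C) ∧
      (R.res ⟨r2, h2⟩).2 ≠ 0 ∧ xbar * (R.res ⟨r2, h2⟩).2 = (R.res ⟨r1, h1⟩).2

include h in
theorem chartDense_of_lifts (hl : HasFixedLifts C Γ ∧ HasFixedLifts C.swap Γ) :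
    ChartDense R C Γ where
  boo_fst := dense_fst hl.1 h.hL2 (isAlgebraic_T_fst h)
  boo_snd := dense_snd hl.1 h.hL2 (isAlgebraic_T_snd h)
  bzero_fst := dense_zero_fst hl.2 h.hL2₀ (isAlgebraic_Ti_fst h)
  bzero_snd := dense_zero_snd hl.2 h.hL2₀ (isAlgebraic_Ti_snd h)

include h hG in
/-- **DENSE, chart form, inside the context bundle** (`FixData2` of `H1/LatticeFixed2`). -/
theorem chartDense (hD : Fermat.Agent.S33x.H1.LatticeFixed2.FixData2 R Γ)
    (hF : Submodule.span K {f : F | IsFixed Γ f} = ⊤) : ChartDense R C Γ :=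
  chartDense_of_lifts h (hasFixedLifts h hG hD hF)

include h hG in
/-- **DENSE, chart form, inside the context bundle** (`FixData2` of `W/LatticeFixed2`). -/
theorem chartDense_W (hD : Fermat.Agent.S33x.W.LatticeFixed2.FixData2 R Γ)
    (hF : Submodule.span K {f : F | IsFixed Γ f} = ⊤) : ChartDense R C Γ :=
  chartDense_of_lifts h (hasFixedLifts_W h hG hD hF)

end Ctx

/-! ### The verbatim form (D) of the side datum -/

section Verbatim

variable {K : Type*} [Field K] {A : ValuationSubring K} {F : Type*} [Field F] [Algebra K F]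
  {O : ValuationSubring F} {k κ : Type*} [Field k] [Field κ] [Algebra k κ]

/-- **(D) from a residue map**: if every element of the residue field `κ` is a quotient of
residues of elements of a set `B0 ⊆ O`, then every unit of `O` is congruent to a quotient of
units of `O` lying in `B0`. -/
theorem dense_of_res (R₁ : Fermat.Agent.Gateway.C0.RedSetup A O k κ) (B0 : Set F)
    (hd : ∀ xbar : κ, ∃ (r1 r2 : F) (h1 : r1 ∈ O) (h2 : r2 ∈ O), r1 ∈ B0 ∧ r2 ∈ B0 ∧
      R₁.res ⟨r2, h2⟩ ≠ 0 ∧ xbar * R₁.res ⟨r2, h2⟩ = R₁.res ⟨r1, h1⟩) :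
    ∀ x : F, O.valuation x = 1 → ∃ r1 ∈ B0, ∃ r2 ∈ B0, O.valuation r1 = 1 ∧
      O.valuation r2 = 1 ∧ O.valuation (x * r2 - r1) < 1 := by
  intro x hx
  have hxO : x ∈ O := (O.valuation_le_one_iff x).mp hx.le
  have hval : ∀ (r : F) (hr : r ∈ O), R₁.res ⟨r, hr⟩ ≠ 0 → O.valuation r = 1 := by
    intro r hr hne
    refine le_antisymm ((O.valuation_le_one_iff r).mpr hr) (not_lt.mp fun hlt => hne ?_)
    exact (R₁.res_ker ⟨r, hr⟩).mpr hlt
  have hxbar : R₁.res ⟨x, hxO⟩ ≠ 0 := fun h0 =>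
    absurd ((R₁.res_ker ⟨x, hxO⟩).mp h0) (by rw [hx]; exact lt_irrefl _)
  obtain ⟨r1, r2, h1, h2, hr1, hr2, hne, heq⟩ := hd (R₁.res ⟨x, hxO⟩)
  refine ⟨r1, hr1, r2, hr2, hval r1 h1 ?_, hval r2 h2 hne, ?_⟩
  · rw [← heq]
    exact mul_ne_zero hxbar hne
  · have hmem : x * r2 - r1 ∈ O := sub_mem (O.mul_mem _ _ hxO h2) h1
    have h0 : R₁.res ⟨x * r2 - r1, hmem⟩ = 0 := by
      have e : (⟨x * r2 - r1, hmem⟩ : O) = ⟨x, hxO⟩ * ⟨r2, h2⟩ - ⟨r1, h1⟩ := rfl
      rw [e, map_sub, map_mul, heq, sub_self]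
    exact (R₁.res_ker ⟨x * r2 - r1, hmem⟩).mp h0

/-- conversion to the `nonunits` vocabulary of note 2653: `R0 = {r ∈ R' | r ∉ nonunits O}`. -/
theorem dense_nonunits_of_dense {F : Type*} [Field F] {O : ValuationSubring F} {R' : Set F}
    (hd : ∀ x : F, O.valuation x = 1 → ∃ r1 ∈ R', ∃ r2 ∈ R', O.valuation r1 = 1 ∧
      O.valuation r2 = 1 ∧ O.valuation (x * r2 - r1) < 1) :
    ∀ x : F, x ∈ O → x ∉ O.nonunits → ∃ r1 r2 : F, (r1 ∈ R' ∧ r1 ∉ O.nonunits) ∧
      (r2 ∈ R' ∧ r2 ∉ O.nonunits) ∧ x * r2 - r1 ∈ O.nonunits := by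
  intro x hxO hxn
  have hx1 : O.valuation x = 1 :=
    le_antisymm ((O.valuation_le_one_iff x).mpr hxO)
      (not_lt.mp fun hlt => hxn (O.mem_nonunits_iff.mpr hlt))
  obtain ⟨r1, hr1, r2, hr2, hv1, hv2, hv⟩ := hd x hx1
  refine ⟨r1, r2, ⟨hr1, fun hn => ?_⟩, ⟨hr2, fun hn => ?_⟩, O.mem_nonunits_iff.mpr hv⟩
  · exact absurd (O.mem_nonunits_iff.mp hn) (by rw [hv1]; exact lt_irrefl _)
  · exact absurd (O.mem_nonunits_iff.mp hn) (by rw [hv2]; exact lt_irrefl _)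

end Verbatim

/-! ### (D) for the small ring of two valuation subrings -/

section TwoVal

variable {K : Type*} [Field K] {A : ValuationSubring K} {F : Type*} [Field F] [Algebra K F]
  {O₁ O₂ : ValuationSubring F} {k E : Type*} [Field k] [Field E] [Algebra k E]
  (R₁ : Fermat.Agent.Gateway.C0.RedSetup A O₁ k E) (R₂ : Fermat.Agent.Gateway.C0.RedSetup A O₂ k E)
  (hπ : R₁.π = R₂.π) {C : ChartCoord (redSetupTwoVal R₁ R₂ hπ)} {Γ : Set (SemilinearAut K F)}
  (hd : ChartDense (redSetupTwoVal R₁ R₂ hπ) C Γ)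

include hd

/-- **(D) at the first valuation, chart ring `B∞`**: literal `SideDatum.dense` of
`S40x/R2/SlopeB/Side.lean`, for every subring `R'` containing the inertia-fixed part of `B∞`. -/
theorem dense_boo_fst (R' : Subring F) (hB : ∀ f, f ∈ fixedAlg Γ (BooAlg C) → f ∈ R') :
    ∀ x : F, O₁.valuation x = 1 → ∃ r1 ∈ R', ∃ r2 ∈ R', O₁.valuation r1 = 1 ∧
      O₁.valuation r2 = 1 ∧ O₁.valuation (x * r2 - r1) < 1 := by
  refine dense_of_res R₁ (R' : Set F) fun xbar => ?_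
  obtain ⟨r1, r2, h1, h2, hr1, hr2, hne, heq⟩ := hd.boo_fst xbar
  exact ⟨r1, r2, h1.1, h2.1, hB r1 hr1, hB r2 hr2, hne, heq⟩

/-- **(D) at the second valuation, chart ring `B∞`**. -/
theorem dense_boo_snd (R' : Subring F) (hB : ∀ f, f ∈ fixedAlg Γ (BooAlg C) → f ∈ R') :
    ∀ x : F, O₂.valuation x = 1 → ∃ r1 ∈ R', ∃ r2 ∈ R', O₂.valuation r1 = 1 ∧
      O₂.valuation r2 = 1 ∧ O₂.valuation (x * r2 - r1) < 1 := by
  refine dense_of_res R₂ (R' : Set F) fun xbar => ?_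
  obtain ⟨r1, r2, h1, h2, hr1, hr2, hne, heq⟩ := hd.boo_snd xbar
  exact ⟨r1, r2, h1.2, h2.2, hB r1 hr1, hB r2 hr2, hne, heq⟩

/-- **(D) at the first valuation, chart ring `B₀`**. -/
theorem dense_bzero_fst (R' : Subring F) (hB : ∀ f, f ∈ fixedAlg Γ (BzeroAlg C) → f ∈ R') :
    ∀ x : F, O₁.valuation x = 1 → ∃ r1 ∈ R', ∃ r2 ∈ R', O₁.valuation r1 = 1 ∧
      O₁.valuation r2 = 1 ∧ O₁.valuation (x * r2 - r1) < 1 := by
  refine dense_of_res R₁ (R' : Set F) fun xbar => ?_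
  obtain ⟨r1, r2, h1, h2, hr1, hr2, hne, heq⟩ := hd.bzero_fst xbar
  exact ⟨r1, r2, h1.1, h2.1, hB r1 hr1, hB r2 hr2, hne, heq⟩

/-- **(D) at the second valuation, chart ring `B₀`**. -/
theorem dense_bzero_snd (R' : Subring F) (hB : ∀ f, f ∈ fixedAlg Γ (BzeroAlg C) → f ∈ R') :
    ∀ x : F, O₂.valuation x = 1 → ∃ r1 ∈ R', ∃ r2 ∈ R', O₂.valuation r1 = 1 ∧
      O₂.valuation r2 = 1 ∧ O₂.valuation (x * r2 - r1) < 1 := by
  refine dense_of_res R₂ (R' : Set F) fun xbar => ?_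
  obtain ⟨r1, r2, h1, h2, hr1, hr2, hne, heq⟩ := hd.bzero_snd xbar
  exact ⟨r1, r2, h1.2, h2.2, hB r1 hr1, hB r2 hr2, hne, heq⟩

/-- **(D) at the first valuation, overlap ring `Bx`** (hence for every node ring). -/
theorem dense_bx_fst (R' : Subring F) (hB : ∀ f, f ∈ fixedAlg Γ (BxAlg C) → f ∈ R') :
    ∀ x : F, O₁.valuation x = 1 → ∃ r1 ∈ R', ∃ r2 ∈ R', O₁.valuation r1 = 1 ∧
      O₁.valuation r2 = 1 ∧ O₁.valuation (x * r2 - r1) < 1 :=
  dense_boo_fst R₁ R₂ hπ hd R' fun f hf => hB f (fixedAlg_boo_le_bx hf)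

/-- **(D) at the second valuation, overlap ring `Bx`**. -/
theorem dense_bx_snd (R' : Subring F) (hB : ∀ f, f ∈ fixedAlg Γ (BxAlg C) → f ∈ R') :
    ∀ x : F, O₂.valuation x = 1 → ∃ r1 ∈ R', ∃ r2 ∈ R', O₂.valuation r1 = 1 ∧
      O₂.valuation r2 = 1 ∧ O₂.valuation (x * r2 - r1) < 1 :=
  dense_boo_snd R₁ R₂ hπ hd R' fun f hf => hB f (fixedAlg_boo_le_bx hf)

end TwoVal

/-! ### The concrete level `M q` over `Qbar` -/

section Concrete

open ModularCurve
open Fermat.Agent.Gateway.Hecke Fermat.Agent.Gateway.ESC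
open Fermat.Agent.Gateway.Red Fermat.Agent.Gateway.GoodRed
open Fermat.Agent.Gateway.GoodRed.ConjFamily
open Fermat.Agent.S34x.TwoVal
open Fermat.Agent.S34x.Inst.L2 Fermat.Agent.S34x.Inst.IsL2Inst
open Fermat.Agent.S34x.Inst.RedSetupInst Fermat.Agent.S34x.Inst.ElementYRed
open Fermat.Agent.S34x.Inst.ElementYInt Fermat.Agent.S34x.Inst.Charts
open Fermat.Agent.S34x.Inst Fermat.Agent.S34x.Inst.TheoremBMq
open Fermat.Agent.S33x.H1.FixData2Final Fermat.Agent.S33x.H1.FixData2Inst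

attribute [-instance] IsScalarTower.of_algHom

local notation "Qbar" => AlgebraicClosure ℚ

variable {P : ValuationSubring Qbar} {k : Type} [Field k] {π : P →+* k} [IsAlgClosed k]
variable {M q : ℕ} [NeZero M] [NeZero q] [Fact q.Prime] [CharP k q]
variable {hdeg : finrankAlong Qbar (heckeAlphaBar Qbar M q) = q + 1} {hq : q.Prime}
  {hqM : ¬ q ∣ M}
variable {hrk : ∀ x ∈ maximalIdeal P, ∀ c : P, c ≠ 0 → ∃ j : ℕ, c ∣ x ^ j}
  {hπ : Function.Surjective π}
variable (H : ResidueFacts P π M q hdeg hq hqM hrk hπ) (hA : P.LiesOverPrime q)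
  (x : LaurentSeries ℤ) (hx : coeffMap (Int.castRingHom Qbar) x ∈ FBar Qbar M)
  (Hx : GoodLevelFactsT P π M q hπ hqM (tInt M x hx))

include Hx hA in
/-- **DENSE, chart form, at the concrete level `M q`, `L = Qbar`**, for the coefficientwise action
of the inertia group of `P`: no hypothesis on fixed points left. -/
theorem chartDense_Mq [PerfectRing k q] (C : ChartCoord (redSetup2 H hA))
    (hCt : C.t = tA M q x hx) (hxk : tbar k x ≠ 0) (hY : YFacts M q x hx) :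
    ChartDense (redSetup2 H hA) C (inertiaAct P (M * q)) := by
  haveI : Algebra.IsAlgebraic ℚ Qbar := AlgebraicClosure.isAlgebraic ℚ
  haveI : CharZero Qbar := algebraRat.charZero Qbar
  have ht : Transcendental Qbar C.t := by
    rw [hCt]
    exact Charts.transcendental_tα Qbar M q Hx.trans
  haveI hfin : FiniteDimensional Qbar⟮C.t⟯ (FL Qbar (M * q)) := by
    rw [hCt]
    exact finiteDimensional_tA x hx Hx
  have hctx := ctx_of_chart H hA x hx Hx C hCt hxk hY (Dt := Charts.divT ht) (Charts.divT_apply ht)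
  have hgal := ctxGal_inertia H hA x hx Hx C hCt
  rw [← inertiaAct_eq_setOf] at hgal
  have hF := span_fixed_setOf P (M * q)
  rw [← inertiaAct_eq_setOf] at hF
  exact chartDense hctx hgal (fixData2 H hA) hF

include Hx hA in
/-- **(D) DENSE downstairs at `v_∞`, chart ring `B∞`** (literal `SideDatum.dense`). -/
theorem dense_valInfty_boo_Mq [PerfectRing k q] (C : ChartCoord (redSetup2 H hA))
    (hCt : C.t = tA M q x hx) (hxk : tbar k x ≠ 0) (hY : YFacts M q x hx)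
    (R' : Subring (FL Qbar (M * q)))
    (hB : ∀ f, f ∈ fixedAlg (inertiaAct P (M * q)) (BooAlg C) → f ∈ R') :
    ∀ z : FL Qbar (M * q), (valInfty P π M q hrk hπ hqM).valuation z = 1 →
      ∃ r1 ∈ R', ∃ r2 ∈ R', (valInfty P π M q hrk hπ hqM).valuation r1 = 1 ∧
        (valInfty P π M q hrk hπ hqM).valuation r2 = 1 ∧
        (valInfty P π M q hrk hπ hqM).valuation (z * r2 - r1) < 1 :=
  dense_boo_fst (redSetupInfty H hA) (redSetupZero H hA) rfl (C := C)
    (chartDense_Mq H hA x hx Hx C hCt hxk hY) R' hB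

include Hx hA in
/-- **(D) DENSE downstairs at `v_0`, chart ring `B∞`**. -/
theorem dense_valZero_boo_Mq [PerfectRing k q] (C : ChartCoord (redSetup2 H hA))
    (hCt : C.t = tA M q x hx) (hxk : tbar k x ≠ 0) (hY : YFacts M q x hx)
    (R' : Subring (FL Qbar (M * q)))
    (hB : ∀ f, f ∈ fixedAlg (inertiaAct P (M * q)) (BooAlg C) → f ∈ R') :
    ∀ z : FL Qbar (M * q), (valZero P π M q hdeg hq hqM hrk hπ).valuation z = 1 →
      ∃ r1 ∈ R', ∃ r2 ∈ R', (valZero P π M q hdeg hq hqM hrk hπ).valuation r1 = 1 ∧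
        (valZero P π M q hdeg hq hqM hrk hπ).valuation r2 = 1 ∧
        (valZero P π M q hdeg hq hqM hrk hπ).valuation (z * r2 - r1) < 1 :=
  dense_boo_snd (redSetupInfty H hA) (redSetupZero H hA) rfl (C := C)
    (chartDense_Mq H hA x hx Hx C hCt hxk hY) R' hB

include Hx hA in
/-- **(D) DENSE downstairs at `v_∞`, chart ring `B₀`**. -/
theorem dense_valInfty_bzero_Mq [PerfectRing k q] (C : ChartCoord (redSetup2 H hA))
    (hCt : C.t = tA M q x hx) (hxk : tbar k x ≠ 0) (hY : YFacts M q x hx)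
    (R' : Subring (FL Qbar (M * q)))
    (hB : ∀ f, f ∈ fixedAlg (inertiaAct P (M * q)) (BzeroAlg C) → f ∈ R') :
    ∀ z : FL Qbar (M * q), (valInfty P π M q hrk hπ hqM).valuation z = 1 →
      ∃ r1 ∈ R', ∃ r2 ∈ R', (valInfty P π M q hrk hπ hqM).valuation r1 = 1 ∧
        (valInfty P π M q hrk hπ hqM).valuation r2 = 1 ∧
        (valInfty P π M q hrk hπ hqM).valuation (z * r2 - r1) < 1 :=
  dense_bzero_fst (redSetupInfty H hA) (redSetupZero H hA) rfl (C := C)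
    (chartDense_Mq H hA x hx Hx C hCt hxk hY) R' hB

include Hx hA in
/-- **(D) DENSE downstairs at `v_0`, chart ring `B₀`**. -/
theorem dense_valZero_bzero_Mq [PerfectRing k q] (C : ChartCoord (redSetup2 H hA))
    (hCt : C.t = tA M q x hx) (hxk : tbar k x ≠ 0) (hY : YFacts M q x hx)
    (R' : Subring (FL Qbar (M * q)))
    (hB : ∀ f, f ∈ fixedAlg (inertiaAct P (M * q)) (BzeroAlg C) → f ∈ R') :
    ∀ z : FL Qbar (M * q), (valZero P π M q hdeg hq hqM hrk hπ).valuation z = 1 →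
      ∃ r1 ∈ R', ∃ r2 ∈ R', (valZero P π M q hdeg hq hqM hrk hπ).valuation r1 = 1 ∧
        (valZero P π M q hdeg hq hqM hrk hπ).valuation r2 = 1 ∧
        (valZero P π M q hdeg hq hqM hrk hπ).valuation (z * r2 - r1) < 1 :=
  dense_bzero_snd (redSetupInfty H hA) (redSetupZero H hA) rfl (C := C)
    (chartDense_Mq H hA x hx Hx C hCt hxk hY) R' hB

include Hx hA in
/-- **(D) DENSE downstairs at `v_∞`, overlap ring `Bx`** (hence for every node ring `R_s`). -/
theorem dense_valInfty_bx_Mq [PerfectRing k q] (C : ChartCoord (redSetup2 H hA))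
    (hCt : C.t = tA M q x hx) (hxk : tbar k x ≠ 0) (hY : YFacts M q x hx)
    (R' : Subring (FL Qbar (M * q)))
    (hB : ∀ f, f ∈ fixedAlg (inertiaAct P (M * q)) (BxAlg C) → f ∈ R') :
    ∀ z : FL Qbar (M * q), (valInfty P π M q hrk hπ hqM).valuation z = 1 →
      ∃ r1 ∈ R', ∃ r2 ∈ R', (valInfty P π M q hrk hπ hqM).valuation r1 = 1 ∧
        (valInfty P π M q hrk hπ hqM).valuation r2 = 1 ∧
        (valInfty P π M q hrk hπ hqM).valuation (z * r2 - r1) < 1 :=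
  dense_bx_fst (redSetupInfty H hA) (redSetupZero H hA) rfl (C := C)
    (chartDense_Mq H hA x hx Hx C hCt hxk hY) R' hB

include Hx hA in
/-- **(D) DENSE downstairs at `v_0`, overlap ring `Bx`**. -/
theorem dense_valZero_bx_Mq [PerfectRing k q] (C : ChartCoord (redSetup2 H hA))
    (hCt : C.t = tA M q x hx) (hxk : tbar k x ≠ 0) (hY : YFacts M q x hx)
    (R' : Subring (FL Qbar (M * q)))
    (hB : ∀ f, f ∈ fixedAlg (inertiaAct P (M * q)) (BxAlg C) → f ∈ R') :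
    ∀ z : FL Qbar (M * q), (valZero P π M q hdeg hq hqM hrk hπ).valuation z = 1 →
      ∃ r1 ∈ R', ∃ r2 ∈ R', (valZero P π M q hdeg hq hqM hrk hπ).valuation r1 = 1 ∧
        (valZero P π M q hdeg hq hqM hrk hπ).valuation r2 = 1 ∧
        (valZero P π M q hdeg hq hqM hrk hπ).valuation (z * r2 - r1) < 1 :=
  dense_bx_snd (redSetupInfty H hA) (redSetupZero H hA) rfl (C := C)
    (chartDense_Mq H hA x hx Hx C hCt hxk hY) R' hB

end Concrete

end Fermat.Agent.S40x.Node.Dense
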