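/-
P-S44/S40, block R1, seam (N3-D) -> C3-SLOPE (helper79): the DOWNSTAIRS side datum, HALF-CHART forms.

Same statements as `Node/DenseSideDatum.lean`, with the WEAKER hypothesis that the subring `Rs`
contains only the inertia-fixed half-chart ring `NodeInst.B0 C Gam = fixedAlg Gam (BooAlg C)`
(chart `t != oo`; node rings and smooth-point rings of `Node/NodeInst`, `Node/SmoothInst` are
localisations of this ring), resp. `fixedAlg Gam (BzeroAlg C)` (chart `t != 0`, cusps over
`t = oo`).  Primary track = `R2/Slope/SideSlope.SideDatum` (helper76 `Node/SideDatumInst`),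
second track = `R2/SlopeB/Side.SideDatum` (helper12 `R2/SlopeB/PlaceInst`).

* `sideDatumInfty_of_boo_le`, `sideDatumZero_of_boo_le`, `sideDatumInftyB_of_boo_le`,
  `sideDatumZeroB_of_boo_le` : `hB : forall f, f in fixedAlg Gam (BooAlg C) -> f in Rs`;
* `sideDatumInfty_of_bzero_le`, `sideDatumZero_of_bzero_le`, `sideDatumInftyB_of_bzero_le`,
  `sideDatumZeroB_of_bzero_le` : `hB : forall f, f in fixedAlg Gam (BzeroAlg C) -> f in Rs`.
-/
import Fermat.Agent.S40x.Node.Dense
import Fermat.Agent.S40x.Node.SideDatumInst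
import Fermat.Agent.S40x.R2.SlopeB.PlaceInst

set_option autoImplicit false
set_option linter.unusedSectionVars false
set_option linter.style.haveILetI false

noncomputable section

namespace Fermat.Agent.S40x.Node.DenseSideDatumBoo

open AlgebraicCurve Module IntermediateField IsLocalRing ModularCurve
open Fermat.Agent.Gateway.C0 Fermat.Agent.S34x.C0two Fermat.Agent.S34x.Lattice2
open Fermat.Agent.S33x.H1.InstC1 Fermat.Agent.S33x.H1.InstC4
open Fermat.Agent.S33x.W.InstW (fixedAlg mem_fixedAlg)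
open Fermat.Agent.Gateway.Hecke Fermat.Agent.Gateway.ESC
open Fermat.Agent.Gateway.Red Fermat.Agent.Gateway.GoodRed
open Fermat.Agent.Gateway.GoodRed.ConjFamily
open Fermat.Agent.S34x.TwoVal
open Fermat.Agent.S34x.Inst.L2 Fermat.Agent.S34x.Inst.IsL2Inst
open Fermat.Agent.S34x.Inst.RedSetupInst Fermat.Agent.S34x.Inst.ElementYRed
open Fermat.Agent.S34x.Inst.ElementYInt Fermat.Agent.S34x.Inst.Charts
open Fermat.Agent.S34x.Inst Fermat.Agent.S34x.Inst.TheoremBMq
open Fermat.Agent.S33x.H1.FixData2Final Fermat.Agent.S33x.H1.FixData2Inst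
open Fermat.Agent.S40x.Node.Dense

attribute [-instance] IsScalarTower.of_algHom

local notation "Qbar" => AlgebraicClosure ℚ

variable {P : ValuationSubring Qbar} {k : Type} [Field k] {π : P →+* k} [IsAlgClosed k]
variable {M q : ℕ} [NeZero M] [NeZero q] [Fact q.Prime] [CharP k q]
variable {hdeg : finrankAlong Qbar (heckeAlphaBar Qbar M q) = q + 1} {hq : q.Prime}
  {hqM : ¬ q ∣ M}
variable {hrk : ∀ x ∈ maximalIdeal P, ∀ c : P, c ≠ 0 → ∃ j : ℕ, c ∣ x ^ j}
  {hπ : Function.Surjective π}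
variable (H : ResidueFacts P π M q hdeg hq hqM hrk hπ) (hA : P.LiesOverPrime q)
  (x : LaurentSeries ℤ) (hx : coeffMap (Int.castRingHom Qbar) x ∈ FBar Qbar M)
  (Hx : GoodLevelFactsT P π M q hπ hqM (tInt M x hx))

include Hx in
/-- **the downstairs side datum at `v_∞`** (primary track) for every subring containing the
inertia-fixed half-chart ring `BooAlg C`. -/
theorem sideDatumInfty_of_boo_le [PerfectRing k q] (C : ChartCoord (redSetup2 H hA))
    (hCt : C.t = tA M q x hx) (hxk : tbar k x ≠ 0) (hY : YFacts M q x hx)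
    (Pl : Place k (modularFunctionFieldFullC k M)) (Rs : Subring (FL Qbar (M * q)))
    (hB : ∀ f, f ∈ fixedAlg (inertiaAct P (M * q)) (BooAlg C) → f ∈ Rs) :
    Fermat.Agent.S40x.R2.Slope.SideDatum (algebraMap Qbar (FL Qbar (M * q)))
      (valInfty P π M q hrk hπ hqM).valuation Rs
      (Fermat.Agent.S40x.Node.SideDatumInst.ordRed (valInfty P π M q hrk hπ hqM) (resInfty H) Pl) :=
  Fermat.Agent.S40x.Node.SideDatumInst.sideDatumInfty H hA Pl Rs
    (dense_valInfty_boo_Mq H hA x hx Hx C hCt hxk hY Rs hB)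

include Hx in
/-- **the downstairs side datum at `v_0`** (primary track). -/
theorem sideDatumZero_of_boo_le [PerfectRing k q] (C : ChartCoord (redSetup2 H hA))
    (hCt : C.t = tA M q x hx) (hxk : tbar k x ≠ 0) (hY : YFacts M q x hx)
    (Pl : Place k (modularFunctionFieldFullC k M)) (Rs : Subring (FL Qbar (M * q)))
    (hB : ∀ f, f ∈ fixedAlg (inertiaAct P (M * q)) (BooAlg C) → f ∈ Rs) :
    Fermat.Agent.S40x.R2.Slope.SideDatum (algebraMap Qbar (FL Qbar (M * q)))
      (valZero P π M q hdeg hq hqM hrk hπ).valuation Rs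
      (Fermat.Agent.S40x.Node.SideDatumInst.ordRed (valZero P π M q hdeg hq hqM hrk hπ)
        (resZero H) Pl) :=
  Fermat.Agent.S40x.Node.SideDatumInst.sideDatumZero H hA Pl Rs
    (dense_valZero_boo_Mq H hA x hx Hx C hCt hxk hY Rs hB)

include Hx in
/-- **the downstairs side datum at `v_∞`** (second track, `SlopeB`). -/
theorem sideDatumInftyB_of_boo_le [PerfectRing k q] (C : ChartCoord (redSetup2 H hA))
    (hCt : C.t = tA M q x hx) (hxk : tbar k x ≠ 0) (hY : YFacts M q x hx)
    (Pl : Place k (modularFunctionFieldFullC k M)) (Rs : Subring (FL Qbar (M * q)))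
    (hB : ∀ f, f ∈ fixedAlg (inertiaAct P (M * q)) (BooAlg C) → f ∈ Rs) :
    Fermat.Agent.S40x.R2.SlopeB.Side.SideDatum (algebraMap Qbar (FL Qbar (M * q)))
      (valInfty P π M q hrk hπ hqM) Rs
      (Fermat.Agent.S40x.R2.SlopeB.PlaceInst.ordAt (valInfty P π M q hrk hπ hqM)
        (redSetupInfty H hA).res Pl) :=
  Fermat.Agent.S40x.R2.SlopeB.PlaceInst.sideDatum_of_redSetup (redSetupInfty H hA) Pl Rs
    (dense_valInfty_boo_Mq H hA x hx Hx C hCt hxk hY Rs hB)

include Hx in
/-- **the downstairs side datum at `v_0`** (second track, `SlopeB`). -/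
theorem sideDatumZeroB_of_boo_le [PerfectRing k q] (C : ChartCoord (redSetup2 H hA))
    (hCt : C.t = tA M q x hx) (hxk : tbar k x ≠ 0) (hY : YFacts M q x hx)
    (Pl : Place k (modularFunctionFieldFullC k M)) (Rs : Subring (FL Qbar (M * q)))
    (hB : ∀ f, f ∈ fixedAlg (inertiaAct P (M * q)) (BooAlg C) → f ∈ Rs) :
    Fermat.Agent.S40x.R2.SlopeB.Side.SideDatum (algebraMap Qbar (FL Qbar (M * q)))
      (valZero P π M q hdeg hq hqM hrk hπ) Rs
      (Fermat.Agent.S40x.R2.SlopeB.PlaceInst.ordAt (valZero P π M q hdeg hq hqM hrk hπ)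
        (redSetupZero H hA).res Pl) :=
  Fermat.Agent.S40x.R2.SlopeB.PlaceInst.sideDatum_of_redSetup (redSetupZero H hA) Pl Rs
    (dense_valZero_boo_Mq H hA x hx Hx C hCt hxk hY Rs hB)

include Hx in
/-- **the downstairs side datum at `v_∞`** (primary track) for every subring containing the
inertia-fixed half-chart ring `BzeroAlg C`. -/
theorem sideDatumInfty_of_bzero_le [PerfectRing k q] (C : ChartCoord (redSetup2 H hA))
    (hCt : C.t = tA M q x hx) (hxk : tbar k x ≠ 0) (hY : YFacts M q x hx)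
    (Pl : Place k (modularFunctionFieldFullC k M)) (Rs : Subring (FL Qbar (M * q)))
    (hB : ∀ f, f ∈ fixedAlg (inertiaAct P (M * q)) (BzeroAlg C) → f ∈ Rs) :
    Fermat.Agent.S40x.R2.Slope.SideDatum (algebraMap Qbar (FL Qbar (M * q)))
      (valInfty P π M q hrk hπ hqM).valuation Rs
      (Fermat.Agent.S40x.Node.SideDatumInst.ordRed (valInfty P π M q hrk hπ hqM) (resInfty H) Pl) :=
  Fermat.Agent.S40x.Node.SideDatumInst.sideDatumInfty H hA Pl Rs
    (dense_valInfty_bzero_Mq H hA x hx Hx C hCt hxk hY Rs hB)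

include Hx in
/-- **the downstairs side datum at `v_0`** (primary track). -/
theorem sideDatumZero_of_bzero_le [PerfectRing k q] (C : ChartCoord (redSetup2 H hA))
    (hCt : C.t = tA M q x hx) (hxk : tbar k x ≠ 0) (hY : YFacts M q x hx)
    (Pl : Place k (modularFunctionFieldFullC k M)) (Rs : Subring (FL Qbar (M * q)))
    (hB : ∀ f, f ∈ fixedAlg (inertiaAct P (M * q)) (BzeroAlg C) → f ∈ Rs) :
    Fermat.Agent.S40x.R2.Slope.SideDatum (algebraMap Qbar (FL Qbar (M * q)))
      (valZero P π M q hdeg hq hqM hrk hπ).valuation Rs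
      (Fermat.Agent.S40x.Node.SideDatumInst.ordRed (valZero P π M q hdeg hq hqM hrk hπ)
        (resZero H) Pl) :=
  Fermat.Agent.S40x.Node.SideDatumInst.sideDatumZero H hA Pl Rs
    (dense_valZero_bzero_Mq H hA x hx Hx C hCt hxk hY Rs hB)

include Hx in
/-- **the downstairs side datum at `v_∞`** (second track, `SlopeB`). -/
theorem sideDatumInftyB_of_bzero_le [PerfectRing k q] (C : ChartCoord (redSetup2 H hA))
    (hCt : C.t = tA M q x hx) (hxk : tbar k x ≠ 0) (hY : YFacts M q x hx)
    (Pl : Place k (modularFunctionFieldFullC k M)) (Rs : Subring (FL Qbar (M * q)))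
    (hB : ∀ f, f ∈ fixedAlg (inertiaAct P (M * q)) (BzeroAlg C) → f ∈ Rs) :
    Fermat.Agent.S40x.R2.SlopeB.Side.SideDatum (algebraMap Qbar (FL Qbar (M * q)))
      (valInfty P π M q hrk hπ hqM) Rs
      (Fermat.Agent.S40x.R2.SlopeB.PlaceInst.ordAt (valInfty P π M q hrk hπ hqM)
        (redSetupInfty H hA).res Pl) :=
  Fermat.Agent.S40x.R2.SlopeB.PlaceInst.sideDatum_of_redSetup (redSetupInfty H hA) Pl Rs
    (dense_valInfty_bzero_Mq H hA x hx Hx C hCt hxk hY Rs hB)

include Hx in
/-- **the downstairs side datum at `v_0`** (second track, `SlopeB`). -/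
theorem sideDatumZeroB_of_bzero_le [PerfectRing k q] (C : ChartCoord (redSetup2 H hA))
    (hCt : C.t = tA M q x hx) (hxk : tbar k x ≠ 0) (hY : YFacts M q x hx)
    (Pl : Place k (modularFunctionFieldFullC k M)) (Rs : Subring (FL Qbar (M * q)))
    (hB : ∀ f, f ∈ fixedAlg (inertiaAct P (M * q)) (BzeroAlg C) → f ∈ Rs) :
    Fermat.Agent.S40x.R2.SlopeB.Side.SideDatum (algebraMap Qbar (FL Qbar (M * q)))
      (valZero P π M q hdeg hq hqM hrk hπ) Rs
      (Fermat.Agent.S40x.R2.SlopeB.PlaceInst.ordAt (valZero P π M q hdeg hq hqM hrk hπ)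
        (redSetupZero H hA).res Pl) :=
  Fermat.Agent.S40x.R2.SlopeB.PlaceInst.sideDatum_of_redSetup (redSetupZero H hA) Pl Rs
    (dense_valZero_bzero_Mq H hA x hx Hx C hCt hxk hY Rs hB)

end Fermat.Agent.S40x.Node.DenseSideDatumBoo
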