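/-
P-S44/S40, block R1 / C3-ET, leaf "ETALE LIFT OF SMOOTH-POINT RINGS" (helper38; helper22 msg 23147
(3)); Mathlib + landed `S40x/Edge/UFD`, `S40x/Node/NodeDatum`.

`R` a local ring, `Q : R[X]` monic, `c : R` a SIMPLE root of `Q` modulo the maximal ideal
(`Q(c) ∈ 𝔪`, `Q'(c)` a unit).  The etale lift is `Loc Q c hc := (R[T]/(Q))` localised at the maximal
ideal `(𝔪, T - c)` (`maxIdeal`, the kernel of `evalRes : R[T]/(Q) → R/𝔪`, `T ↦ c̄`).

Part A (general):
* `isLocalHom_algebraMap`, `maximalIdeal_eq_map` (`𝔪_Loc = 𝔪 · Loc`; Taylor expansion),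
  `exists_sub_mem` (RESIDUE FIELD UNCHANGED), `flat_loc`, `faithfullyFlat_loc`,
  `comap_map` (CONTRACTION `I · Loc ∩ R = I`), `algebraMap_injective`, `mem_map_iff`, `dvd_iff`,
  Noetherian instance.
Part B: Noetherian local rings: `exists_eq_pow_mul_not_dvd` (Krull), `exists_eq_pow_mul_unit`,
  `eq_zero_or_eq_zero_of_principal`, `eq_zero_or_eq_zero_of_prime_regular`.
Part C: `IsRegPair R z t` (`z` prime, `𝔪 = (z, t)`, `z ∤ t`, i.e. `R ⧸ (z)` is a discrete valuation
  ring with uniformiser `t`): ONE shape for smooth points (`z = p`) and for each branch of a node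
  (`z = u`, `t = u'`).
* `IsRegPair.loc`: the etale lift of a regular pair is a regular pair (same `z`, same `t`);
* `IsRegPair.isDomain_loc`: the etale lift of a domain is a domain (NO irreducibility hypothesis
  on `Q`);
* `mem_span_pair_pow_iff`: `r ∈ (z, t ^ n)` can be tested upstairs (orders unchanged);
* `node_fields_loc`; `IsRegPair.quotient_isDiscreteValuationRing`, `IsRegPair.irreducible_mk`,
  `IsRegPair.ufd`.
Seam: `isSmoothPtRing_loc`, `isNodeRing_loc` for the literals of `Node/NodeDatum` (helper50).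
-/
import Mathlib
import Fermat.Agent.S40x.Edge.UFD
import Fermat.Agent.S40x.Node.NodeDatum

set_option autoImplicit false
set_option linter.unusedSectionVars false
set_option linter.style.haveILetI false

namespace Fermat.Agent.S40x.Node.EtaleLift

open IsLocalRing Polynomial Fermat.Agent.S40x.Node

/-! ### Part A: the etale lift of a local ring -/

section Lift

variable {R : Type*} [CommRing R] [IsLocalRing R] (Q : R[X]) (c : R)
  (hc : Q.eval c ∈ maximalIdeal R)

/-- evaluation at `c` followed by the residue map: `R[T]/(Q) → R/𝔪`, `T ↦ c̄`. -/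
noncomputable def evalRes : AdjoinRoot Q →+* ResidueField R :=
  AdjoinRoot.lift (residue R) (residue R c) (by
    rw [eval₂_at_apply]
    exact (residue_eq_zero_iff _).2 hc)

@[simp] theorem evalRes_of (r : R) : evalRes Q c hc (AdjoinRoot.of Q r) = residue R r :=
  AdjoinRoot.lift_of _

@[simp] theorem evalRes_root : evalRes Q c hc (AdjoinRoot.root Q) = residue R c :=
  AdjoinRoot.lift_root _

theorem evalRes_surjective : Function.Surjective (evalRes Q c hc) := by
  intro y
  obtain ⟨r, rfl⟩ := residue_surjective y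
  exact ⟨AdjoinRoot.of Q r, evalRes_of Q c hc r⟩

/-- the maximal ideal `(𝔪, T - c)` of `R[T]/(Q)` -/
noncomputable def maxIdeal : Ideal (AdjoinRoot Q) := RingHom.ker (evalRes Q c hc)

instance maxIdeal_isMaximal : (maxIdeal Q c hc).IsMaximal :=
  RingHom.ker_isMaximal_of_surjective _ (evalRes_surjective Q c hc)

theorem mem_maxIdeal_iff (s : AdjoinRoot Q) : s ∈ maxIdeal Q c hc ↔ evalRes Q c hc s = 0 :=
  RingHom.mem_ker

theorem of_mem_maxIdeal_iff (r : R) :
    AdjoinRoot.of Q r ∈ maxIdeal Q c hc ↔ r ∈ maximalIdeal R := by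
  rw [mem_maxIdeal_iff, evalRes_of, residue_eq_zero_iff]

theorem root_sub_mem_maxIdeal : AdjoinRoot.root Q - AdjoinRoot.of Q c ∈ maxIdeal Q c hc := by
  rw [mem_maxIdeal_iff, map_sub, evalRes_root, evalRes_of, sub_self]

/-- every element of `R[T]/(Q)` is `r + (T - c) s'` -/
theorem exists_eq_of_add (s : AdjoinRoot Q) :
    ∃ (r : R) (s' : AdjoinRoot Q),
      s = AdjoinRoot.of Q r + (AdjoinRoot.root Q - AdjoinRoot.of Q c) * s' := by
  obtain ⟨g, rfl⟩ := AdjoinRoot.mk_surjective s
  refine ⟨g.eval c, AdjoinRoot.mk Q (g /ₘ (X - C c)), ?_⟩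
  have h1 : g = C (g.eval c) + (X - C c) * (g /ₘ (X - C c)) := by
    conv_lhs => rw [← modByMonic_add_div g (X - C c), modByMonic_X_sub_C_eq_C_eval]
  conv_lhs => rw [h1]
  rw [map_add, map_mul, map_sub, AdjoinRoot.mk_C, AdjoinRoot.mk_C, AdjoinRoot.mk_X]

/-- the etale lift of the local ring `R` along `(Q, c)` -/
abbrev Loc : Type _ := Localization.AtPrime (maxIdeal Q c hc)

theorem algebraMap_loc_apply (r : R) :
    algebraMap R (Loc Q c hc) r =
      algebraMap (AdjoinRoot Q) (Loc Q c hc) (AdjoinRoot.of Q r) :=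
  IsScalarTower.algebraMap_apply R (AdjoinRoot Q) (Loc Q c hc) r

theorem algebraMap_mem_maximalIdeal_iff (r : R) :
    algebraMap R (Loc Q c hc) r ∈ maximalIdeal (Loc Q c hc) ↔ r ∈ maximalIdeal R := by
  rw [algebraMap_loc_apply, IsLocalization.AtPrime.to_map_mem_maximal_iff _ (maxIdeal Q c hc),
    of_mem_maxIdeal_iff]

instance isLocalHom_algebraMap : IsLocalHom (algebraMap R (Loc Q c hc)) := by
  constructor
  intro r hr
  by_contra h
  have h1 : r ∈ maximalIdeal R := h
  have h2 := (algebraMap_mem_maximalIdeal_iff Q c hc r).2 h1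
  exact h2 hr

/-- the image of `T - c` in the etale lift -/
noncomputable def rootSub : Loc Q c hc :=
  algebraMap (AdjoinRoot Q) (Loc Q c hc) (AdjoinRoot.root Q - AdjoinRoot.of Q c)

/-- **`T - c ∈ 𝔪 · Loc`** when `c` is a simple root of `Q` modulo `𝔪` (Taylor expansion). -/
theorem rootSub_mem_map (hc' : IsUnit (Q.derivative.eval c)) :
    rootSub Q c hc ∈ (maximalIdeal R).map (algebraMap R (Loc Q c hc)) := by
  set S := AdjoinRoot Q
  set y : S := AdjoinRoot.root Q - AdjoinRoot.of Q c with hy
  obtain ⟨k, hk⟩ := Polynomial.binomExpansion (Q.map (AdjoinRoot.of Q)) (AdjoinRoot.of Q c) y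
  have h0 : (Q.map (AdjoinRoot.of Q)).eval (AdjoinRoot.of Q c + y) = 0 := by
    rw [hy, add_sub_cancel, eval_map]
    exact AdjoinRoot.eval₂_root Q
  have h1 : (Q.map (AdjoinRoot.of Q)).eval (AdjoinRoot.of Q c) = AdjoinRoot.of Q (Q.eval c) := by
    rw [eval_map, eval₂_at_apply]
  have h2 : (Q.map (AdjoinRoot.of Q)).derivative.eval (AdjoinRoot.of Q c) =
      AdjoinRoot.of Q (Q.derivative.eval c) := by
    rw [derivative_map, eval_map, eval₂_at_apply]
  rw [h0, h1, h2] at hk
  -- `0 = Q(c) + y * w`, `w := Q'(c) + k y` a unit of the localisation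
  set w : S := AdjoinRoot.of Q (Q.derivative.eval c) + k * y with hw
  have hrel : y * w = - AdjoinRoot.of Q (Q.eval c) := by
    rw [hw]; linear_combination -hk
  have hwn : w ∉ maxIdeal Q c hc := by
    rw [mem_maxIdeal_iff, hw, map_add, map_mul, evalRes_of]
    have hy0 : evalRes Q c hc y = 0 := (mem_maxIdeal_iff Q c hc y).1 (root_sub_mem_maxIdeal Q c hc)
    rw [hy0, mul_zero, add_zero, residue_eq_zero_iff]
    exact fun h => h hc'
  have hwu : IsUnit (algebraMap S (Loc Q c hc) w) :=
    IsLocalization.map_units (Loc Q c hc) (⟨w, hwn⟩ : (maxIdeal Q c hc).primeCompl)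
  obtain ⟨v, hv⟩ := hwu.exists_right_inv
  have h3 : rootSub Q c hc = - algebraMap R (Loc Q c hc) (Q.eval c) * v := by
    rw [algebraMap_loc_apply, ← map_neg, ← hrel, map_mul, mul_assoc, hv, mul_one]
    rfl
  rw [h3]
  exact Ideal.mul_mem_right _ _ (neg_mem (Ideal.mem_map_of_mem _ hc))

/-- **the maximal ideal of the etale lift is `𝔪 · Loc`** -/
theorem maximalIdeal_eq_map (hc' : IsUnit (Q.derivative.eval c)) :
    maximalIdeal (Loc Q c hc) = (maximalIdeal R).map (algebraMap R (Loc Q c hc)) := by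
  apply le_antisymm
  · rw [← Localization.AtPrime.map_eq_maximalIdeal, Ideal.map_le_iff_le_comap]
    intro s hs
    rw [Ideal.mem_comap]
    obtain ⟨r, s', rfl⟩ := exists_eq_of_add Q c s
    have hr : r ∈ maximalIdeal R := by
      have h1 := (mem_maxIdeal_iff Q c hc _).1 hs
      rw [map_add, map_mul, evalRes_of,
        (mem_maxIdeal_iff Q c hc _).1 (root_sub_mem_maxIdeal Q c hc), zero_mul, add_zero,
        residue_eq_zero_iff] at h1
      exact h1
    rw [map_add, map_mul, ← algebraMap_loc_apply]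
    exact Ideal.add_mem _ (Ideal.mem_map_of_mem _ hr)
      (Ideal.mul_mem_right _ _ (rootSub_mem_map Q c hc hc'))
  · rw [Ideal.map_le_iff_le_comap]
    intro r hr
    exact (algebraMap_mem_maximalIdeal_iff Q c hc r).2 hr

/-- **residue field unchanged**: every element of the etale lift is congruent to an element of
`R` modulo the maximal ideal. -/
theorem exists_sub_mem (x : Loc Q c hc) :
    ∃ r : R, x - algebraMap R (Loc Q c hc) r ∈ maximalIdeal (Loc Q c hc) := by
  obtain ⟨s, d, rfl⟩ := IsLocalization.exists_mk'_eq (maxIdeal Q c hc).primeCompl x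
  obtain ⟨r, hr⟩ := residue_surjective (evalRes Q c hc s)
  obtain ⟨r', hr'⟩ := residue_surjective (evalRes Q c hc (d : AdjoinRoot Q))
  have hd0 : evalRes Q c hc (d : AdjoinRoot Q) ≠ 0 := fun h =>
    d.2 ((mem_maxIdeal_iff Q c hc _).2 h)
  have hr'u : IsUnit r' := by
    by_contra h
    have h1 : r' ∈ maximalIdeal R := h
    rw [← residue_eq_zero_iff, hr'] at h1
    exact hd0 h1
  obtain ⟨r'', hr''⟩ := hr'u.exists_right_inv
  refine ⟨r * r'', ?_⟩
  -- `(x - ι (r r'')) * d = s - (r r'') d ∈ maxIdeal`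
  have hdu : IsUnit (algebraMap (AdjoinRoot Q) (Loc Q c hc) (d : AdjoinRoot Q)) :=
    IsLocalization.map_units (Loc Q c hc) d
  have hmem : s - AdjoinRoot.of Q (r * r'') * (d : AdjoinRoot Q) ∈ maxIdeal Q c hc := by
    rw [mem_maxIdeal_iff, map_sub, map_mul, evalRes_of, ← hr, ← hr', ← map_mul, ← map_sub,
      residue_eq_zero_iff]
    have : r - r * r'' * r' = r * (1 - r' * r'') := by ring
    rw [this, hr'', sub_self, mul_zero]
    exact Ideal.zero_mem _
  have h2 : (IsLocalization.mk' (Loc Q c hc) s d - algebraMap R (Loc Q c hc) (r * r'')) *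
      algebraMap (AdjoinRoot Q) (Loc Q c hc) (d : AdjoinRoot Q) ∈ maximalIdeal (Loc Q c hc) := by
    rw [sub_mul, IsLocalization.mk'_spec, algebraMap_loc_apply, ← map_mul, ← map_sub]
    exact (IsLocalization.AtPrime.to_map_mem_maximal_iff _ (maxIdeal Q c hc) _).2 hmem
  obtain ⟨e, he⟩ := hdu.exists_right_inv
  have h3 := Ideal.mul_mem_right e _ h2
  rwa [mul_assoc, he, mul_one] at h3

instance isNoetherianRing_loc [IsNoetherianRing R] : IsNoetherianRing (Loc Q c hc) :=
  IsLocalization.isNoetherianRing (maxIdeal Q c hc).primeCompl _ inferInstance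

variable {Q}

/-- the etale lift is flat over `R` -/
theorem flat_loc (hQ : Q.Monic) : Module.Flat R (Loc Q c hc) := by
  have : Module.Free R (AdjoinRoot Q) := Module.Free.of_basis (AdjoinRoot.powerBasis' hQ).basis
  have : Module.Flat (AdjoinRoot Q) (Loc Q c hc) :=
    IsLocalization.flat _ (maxIdeal Q c hc).primeCompl
  exact Module.Flat.trans R (AdjoinRoot Q) (Loc Q c hc)

/-- the etale lift is faithfully flat over `R` -/
theorem faithfullyFlat_loc (hQ : Q.Monic) : Module.FaithfullyFlat R (Loc Q c hc) := by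
  have := flat_loc c hc hQ
  exact Module.FaithfullyFlat.of_flat_of_isLocalHom

/-- **CONTRACTION**: `I · Loc ∩ R = I` for every ideal `I` of `R`. -/
theorem comap_map (hQ : Q.Monic) (I : Ideal R) :
    (I.map (algebraMap R (Loc Q c hc))).comap (algebraMap R (Loc Q c hc)) = I := by
  have := faithfullyFlat_loc c hc hQ
  exact Ideal.comap_map_eq_self_of_faithfullyFlat I

theorem algebraMap_injective (hQ : Q.Monic) :
    Function.Injective (algebraMap R (Loc Q c hc)) := by
  have := faithfullyFlat_loc c hc hQ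
  exact FaithfulSMul.algebraMap_injective R (Loc Q c hc)

theorem mem_map_iff (hQ : Q.Monic) (I : Ideal R) (r : R) :
    algebraMap R (Loc Q c hc) r ∈ I.map (algebraMap R (Loc Q c hc)) ↔ r ∈ I := by
  conv_rhs => rw [← comap_map c hc hQ I]
  rfl

theorem dvd_iff (hQ : Q.Monic) (a b : R) :
    algebraMap R (Loc Q c hc) a ∣ algebraMap R (Loc Q c hc) b ↔ a ∣ b := by
  rw [← Ideal.mem_span_singleton, ← Ideal.mem_span_singleton, ← mem_map_iff c hc hQ,
    Ideal.map_span, Set.image_singleton]

end Lift

/-! ### Part B: local rings with principal maximal ideal -/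

section Principal

variable {L : Type*} [CommRing L] [IsLocalRing L] [IsNoetherianRing L] {τ : L}

/-- in a Noetherian local ring, a nonzero element is `x ^ n * e` with `x ∤ e`, for every `x` in
the maximal ideal (Krull intersection theorem). -/
theorem exists_eq_pow_mul_not_dvd {x : L} (hx : x ∈ maximalIdeal L) {a : L} (ha : a ≠ 0) :
    ∃ (n : ℕ) (e : L), a = x ^ n * e ∧ ¬ x ∣ e := by
  have hI : Ideal.span {x} ≠ ⊤ := by
    intro htop
    have h1 : (1 : L) ∈ Ideal.span {x} := by rw [htop]; exact Submodule.mem_top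
    rw [Ideal.mem_span_singleton] at h1
    exact hx (isUnit_of_dvd_one h1)
  have hK : ⨅ i, (Ideal.span {x}) ^ i = ⊥ := Ideal.iInf_pow_eq_bot_of_isLocalRing _ hI
  have hex : ∃ n, a ∉ Ideal.span {x} ^ n := by
    by_contra h
    apply ha
    have h' : ∀ n, a ∈ Ideal.span {x} ^ n := fun n => by
      by_contra hn
      exact h ⟨n, hn⟩
    have h1 : a ∈ ⨅ i, Ideal.span {x} ^ i := (Submodule.mem_iInf _).2 h'
    rw [hK] at h1
    exact h1
  classical
  have hn0 : a ∉ Ideal.span {x} ^ (Nat.find hex) := Nat.find_spec hex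
  have hpos : Nat.find hex ≠ 0 := by
    intro h0
    rw [h0, pow_zero, Ideal.one_eq_top] at hn0
    exact hn0 Submodule.mem_top
  obtain ⟨n, hn⟩ := Nat.exists_eq_succ_of_ne_zero hpos
  have hmem : a ∈ Ideal.span {x} ^ n := by
    by_contra h
    exact Nat.find_min hex (by omega : n < Nat.find hex) h
  rw [Ideal.span_singleton_pow, Ideal.mem_span_singleton] at hmem
  obtain ⟨e, he⟩ := hmem
  refine ⟨n, e, he, ?_⟩
  rintro ⟨e', rfl⟩
  apply hn0
  rw [hn, Ideal.span_singleton_pow, Ideal.mem_span_singleton]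
  exact ⟨e', by rw [he, Nat.succ_eq_add_one, pow_succ]; ring⟩

/-- a Noetherian local ring `L` with a non-zero-divisor `x` in the maximal ideal such that
`x ∣ a * b → x ∣ a ∨ x ∣ b` has no zero divisors -/
theorem eq_zero_or_eq_zero_of_prime_regular {x : L} (hx : x ∈ maximalIdeal L)
    (hreg : ∀ y : L, x * y = 0 → y = 0) (hprime : ∀ a b : L, x ∣ a * b → x ∣ a ∨ x ∣ b)
    {a b : L} (hab : a * b = 0) : a = 0 ∨ b = 0 := by
  by_contra h
  have ha : a ≠ 0 := fun h0 => h (Or.inl h0)
  have hb : b ≠ 0 := fun h0 => h (Or.inr h0)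
  obtain ⟨n, e, rfl, he⟩ := exists_eq_pow_mul_not_dvd hx ha
  obtain ⟨m, f, rfl, hf⟩ := exists_eq_pow_mul_not_dvd hx hb
  have h1 : x ^ (n + m) * (e * f) = 0 := by rw [← hab, pow_add]; ring
  have hreg' : ∀ (k : ℕ) (y : L), x ^ k * y = 0 → y = 0 := by
    intro k
    induction k with
    | zero => intro y hy; simpa using hy
    | succ k ih =>
      intro y hy
      apply hreg
      apply ih
      rw [← hy, pow_succ]; ring
  have h2 : e * f = 0 := hreg' _ _ h1
  rcases hprime e f (h2 ▸ dvd_zero x) with h3 | h3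
  · exact he h3
  · exact hf h3

/-- in a Noetherian local ring with maximal ideal `(τ)`, every nonzero element is `τ ^ n * unit`
(Krull intersection theorem). -/
theorem exists_eq_pow_mul_unit (hmax : maximalIdeal L = Ideal.span {τ}) {a : L} (ha : a ≠ 0) :
    ∃ (n : ℕ) (e : L), IsUnit e ∧ a = τ ^ n * e := by
  have hK : ⨅ i, (maximalIdeal L) ^ i = ⊥ :=
    Ideal.iInf_pow_eq_bot_of_isLocalRing _ Ideal.IsPrime.ne_top'
  have hex : ∃ n, a ∉ maximalIdeal L ^ n := by
    by_contra h
    apply ha
    have h' : ∀ n, a ∈ maximalIdeal L ^ n := fun n => by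
      by_contra hn
      exact h ⟨n, hn⟩
    have h1 : a ∈ ⨅ i, maximalIdeal L ^ i := (Submodule.mem_iInf _).2 h'
    rw [hK] at h1
    exact h1
  classical
  have hn0 : a ∉ maximalIdeal L ^ (Nat.find hex) := Nat.find_spec hex
  have hpos : Nat.find hex ≠ 0 := by
    intro h0
    rw [h0, pow_zero, Ideal.one_eq_top] at hn0
    exact hn0 Submodule.mem_top
  obtain ⟨n, hn⟩ := Nat.exists_eq_succ_of_ne_zero hpos
  have hmem : a ∈ maximalIdeal L ^ n := by
    by_contra h
    exact Nat.find_min hex (by omega : n < Nat.find hex) h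
  rw [hmax, Ideal.span_singleton_pow, Ideal.mem_span_singleton] at hmem
  obtain ⟨e, he⟩ := hmem
  refine ⟨n, e, ?_, he⟩
  by_contra hu
  have he' : e ∈ maximalIdeal L := hu
  rw [hmax, Ideal.mem_span_singleton] at he'
  obtain ⟨e', rfl⟩ := he'
  apply hn0
  rw [hn, hmax, Ideal.span_singleton_pow, Ideal.mem_span_singleton]
  exact ⟨e', by rw [he, Nat.succ_eq_add_one, pow_succ]; ring⟩

/-- a Noetherian local ring whose maximal ideal is generated by a non-nilpotent element has no
zero divisors -/
theorem eq_zero_or_eq_zero_of_principal (hmax : maximalIdeal L = Ideal.span {τ})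
    (hnil : ∀ n : ℕ, τ ^ n ≠ 0) {a b : L} (hab : a * b = 0) : a = 0 ∨ b = 0 := by
  by_contra h
  have ha : a ≠ 0 := fun h0 => h (Or.inl h0)
  have hb : b ≠ 0 := fun h0 => h (Or.inr h0)
  obtain ⟨n, e, he, rfl⟩ := exists_eq_pow_mul_unit hmax ha
  obtain ⟨m, f, hf, rfl⟩ := exists_eq_pow_mul_unit hmax hb
  have h1 : τ ^ (n + m) * (e * f) = 0 := by rw [← hab, pow_add]; ring
  exact hnil (n + m) ((he.mul hf).mul_left_eq_zero.1 h1)

end Principal

/-! ### Part C: the regular pair `(z, t)` and its etale lift -/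

/-- `R ⧸ (z)` is a discrete valuation ring with uniformiser the class of `t`: the shape of the
local ring of the arithmetic surface at a smooth point of the special fibre (`z = p`) and at each
branch of a node (`z = u`, `t = u'`). -/
structure IsRegPair (R : Type*) [CommRing R] [IsLocalRing R] (z t : R) : Prop where
  prime : Prime z
  max_eq : maximalIdeal R = Ideal.span {z, t}
  not_dvd : ¬ z ∣ t

section Pair

variable {R : Type*} [CommRing R] [IsLocalRing R] {Q : R[X]} (c : R)
  (hc : Q.eval c ∈ maximalIdeal R)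

/-- **the etale lift of a regular pair is a regular pair.** -/
theorem IsRegPair.loc [IsNoetherianRing R] (hQ : Q.Monic) (hc' : IsUnit (Q.derivative.eval c))
    {z t : R} (h : IsRegPair R z t) :
    IsRegPair (Loc Q c hc) (algebraMap R (Loc Q c hc) z) (algebraMap R (Loc Q c hc) t) := by
  set ι := algebraMap R (Loc Q c hc) with hι
  have hmaxL : maximalIdeal (Loc Q c hc) = Ideal.span {ι z, ι t} := by
    rw [maximalIdeal_eq_map Q c hc hc', h.max_eq, Ideal.map_span, Set.image_pair]
  have hzmem : ι z ∈ maximalIdeal (Loc Q c hc) := by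
    rw [hmaxL]
    exact Ideal.subset_span (Set.mem_insert _ _)
  have hndvd : ¬ ι z ∣ ι t := fun hd => h.not_dvd ((dvd_iff c hc hQ z t).1 hd)
  refine ⟨⟨?_, ?_, ?_⟩, hmaxL, hndvd⟩
  · intro h0
    exact h.prime.ne_zero (algebraMap_injective c hc hQ (by rw [← hι, h0, map_zero]))
  · exact hzmem
  · -- the quotient by `(ι z)` has no zero divisors
    intro a b hab
    set I : Ideal (Loc Q c hc) := Ideal.span {ι z} with hI
    have hItop : I ≠ ⊤ := by
      intro htop
      have h1 : (1 : Loc Q c hc) ∈ I := by rw [htop]; exact Submodule.mem_top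
      rw [hI, Ideal.mem_span_singleton] at h1
      exact hzmem (isUnit_of_dvd_one h1)
    have : Nontrivial (Loc Q c hc ⧸ I) := Ideal.Quotient.nontrivial_iff.2 hItop
    have : IsLocalRing (Loc Q c hc ⧸ I) :=
      IsLocalRing.of_surjective' (Ideal.Quotient.mk I) Ideal.Quotient.mk_surjective
    have hmaxq : maximalIdeal (Loc Q c hc ⧸ I) = Ideal.span {Ideal.Quotient.mk I (ι t)} := by
      rw [← IsLocalRing.map_maximalIdeal_of_surjective (Ideal.Quotient.mk I)
        Ideal.Quotient.mk_surjective, hmaxL, Ideal.map_span, Set.image_pair]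
      have h0 : Ideal.Quotient.mk I (ι z) = 0 :=
        Ideal.Quotient.eq_zero_iff_mem.2 (Ideal.subset_span rfl)
      rw [h0]
      apply le_antisymm
      · rw [Ideal.span_le]
        rintro x (rfl | rfl)
        · exact Ideal.zero_mem _
        · exact Ideal.subset_span rfl
      · exact Ideal.span_mono (by
          intro x hx
          rw [Set.mem_singleton_iff] at hx
          rw [hx]
          exact Set.mem_insert_of_mem _ rfl)
    have hnil : ∀ n : ℕ, (Ideal.Quotient.mk I (ι t)) ^ n ≠ 0 := by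
      intro n h0
      rw [← map_pow, Ideal.Quotient.eq_zero_iff_mem, hI, Ideal.mem_span_singleton, hι,
        ← map_pow, dvd_iff c hc hQ] at h0
      exact h.not_dvd (h.prime.dvd_of_dvd_pow h0)
    have h1 : Ideal.Quotient.mk I a * Ideal.Quotient.mk I b = 0 := by
      rw [← map_mul, Ideal.Quotient.eq_zero_iff_mem, hI, Ideal.mem_span_singleton]
      exact hab
    rcases eq_zero_or_eq_zero_of_principal hmaxq hnil h1 with h2 | h2
    · left
      rwa [Ideal.Quotient.eq_zero_iff_mem, hI, Ideal.mem_span_singleton] at h2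
    · right
      rwa [Ideal.Quotient.eq_zero_iff_mem, hI, Ideal.mem_span_singleton] at h2

/-- **the etale lift of a domain with a regular pair is a domain** (no irreducibility hypothesis
on `Q`). -/
theorem IsRegPair.isDomain_loc [IsDomain R] [IsNoetherianRing R] (hQ : Q.Monic)
    (hc' : IsUnit (Q.derivative.eval c)) {z t : R} (h : IsRegPair R z t) :
    IsDomain (Loc Q c hc) := by
  have hL := h.loc c hc hQ hc'
  have : Module.Flat R (Loc Q c hc) := flat_loc c hc hQ
  have hzreg : IsSMulRegular (Loc Q c hc) z :=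
    Module.Flat.isSMulRegular_of_nonZeroDivisors (mem_nonZeroDivisors_of_ne_zero h.prime.ne_zero)
  have hzmem : algebraMap R (Loc Q c hc) z ∈ maximalIdeal (Loc Q c hc) := by
    rw [hL.max_eq]
    exact Ideal.subset_span (Set.mem_insert _ _)
  have hnzd : NoZeroDivisors (Loc Q c hc) := ⟨fun {a b} hab =>
    eq_zero_or_eq_zero_of_prime_regular hzmem
      (fun y hy => hzreg (by
        show z • y = z • (0 : Loc Q c hc)
        rw [smul_zero, Algebra.smul_def]
        exact hy))
      (fun a b => hL.prime.dvd_or_dvd) hab⟩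
  exact NoZeroDivisors.to_isDomain _

/-- **ord compatibility**: `r ∈ (z, t ^ n)` can be tested in the etale lift (so the order at the
point of functions coming from downstairs is unchanged). -/
theorem mem_span_pair_pow_iff (hQ : Q.Monic) (z t r : R) (n : ℕ) :
    algebraMap R (Loc Q c hc) r ∈
        Ideal.span {algebraMap R (Loc Q c hc) z, algebraMap R (Loc Q c hc) t ^ n} ↔
      r ∈ Ideal.span {z, t ^ n} := by
  rw [← mem_map_iff c hc hQ (Ideal.span {z, t ^ n}) r, Ideal.map_span, Set.image_pair, map_pow]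

/-- **the five fields of `IsNodeRing`** (helper50, note 2641) are preserved by the etale lift
(independent second of helper4's `Etale.isNode_loc`). -/
theorem node_fields_loc [IsDomain R] [IsNoetherianRing R] (hQ : Q.Monic) (hc' : IsUnit (Q.derivative.eval c))
    {p : ℕ} {u u' : R} (hmul : ∃ ψ : Rˣ, u * u' = (p : R) * ψ)
    (hmax : maximalIdeal R = Ideal.span {u, u'}) (hu : Prime u) (hu' : Prime u')
    (hna : ¬ Associated u u') :
    (∃ ψ : (Loc Q c hc)ˣ, algebraMap R (Loc Q c hc) u * algebraMap R (Loc Q c hc) u' =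
        (p : Loc Q c hc) * ψ) ∧
      maximalIdeal (Loc Q c hc) =
        Ideal.span {algebraMap R (Loc Q c hc) u, algebraMap R (Loc Q c hc) u'} ∧
      Prime (algebraMap R (Loc Q c hc) u) ∧ Prime (algebraMap R (Loc Q c hc) u') ∧
      ¬ Associated (algebraMap R (Loc Q c hc) u) (algebraMap R (Loc Q c hc) u') := by
  have h1 : IsRegPair R u u' := ⟨hu, hmax, fun hd =>
    hna (hu.irreducible.associated_of_dvd hu'.irreducible hd)⟩
  have h2 : IsRegPair R u' u := ⟨hu', by rw [hmax, Set.pair_comm], fun hd =>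
    hna (hu'.irreducible.associated_of_dvd hu.irreducible hd).symm⟩
  have h1L := h1.loc c hc hQ hc'
  have h2L := h2.loc c hc hQ hc'
  refine ⟨?_, h1L.max_eq, h1L.prime, h2L.prime, fun ha => h1L.not_dvd ha.dvd⟩
  obtain ⟨ψ, hψ⟩ := hmul
  refine ⟨Units.map (algebraMap R (Loc Q c hc)).toMonoidHom ψ, ?_⟩
  rw [← map_mul, hψ, map_mul, map_natCast]
  rfl

end Pair

/-! ### Consequences of a regular pair -/

section Cons

variable {R : Type*} [CommRing R] [IsLocalRing R] {z t : R}

theorem IsRegPair.z_mem (h : IsRegPair R z t) : z ∈ maximalIdeal R := by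
  rw [h.max_eq]
  exact Ideal.subset_span (Set.mem_insert _ _)

theorem IsRegPair.quotient_isDomain (h : IsRegPair R z t) : IsDomain (R ⧸ Ideal.span {z}) := by
  have : (Ideal.span {z}).IsPrime := (Ideal.span_singleton_prime h.prime.ne_zero).mpr h.prime
  exact Ideal.Quotient.isDomain _

theorem IsRegPair.quotient_isLocalRing (h : IsRegPair R z t) :
    IsLocalRing (R ⧸ Ideal.span {z}) := by
  have := h.quotient_isDomain
  exact IsLocalRing.of_surjective' (Ideal.Quotient.mk (Ideal.span {z}))
    Ideal.Quotient.mk_surjective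

/-- the maximal ideal of `R ⧸ (z)` is generated by the class of `t` -/
theorem IsRegPair.quotient_maximalIdeal_eq (h : IsRegPair R z t) :
    haveI := h.quotient_isLocalRing
    maximalIdeal (R ⧸ Ideal.span {z}) = Ideal.span {Ideal.Quotient.mk (Ideal.span {z}) t} := by
  haveI := h.quotient_isLocalRing
  rw [← IsLocalRing.map_maximalIdeal_of_surjective (Ideal.Quotient.mk (Ideal.span {z}))
    Ideal.Quotient.mk_surjective, h.max_eq, Ideal.map_span, Set.image_pair]
  have h0 : Ideal.Quotient.mk (Ideal.span {z}) z = 0 :=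
    Ideal.Quotient.eq_zero_iff_mem.2 (Ideal.subset_span rfl)
  rw [h0]
  apply le_antisymm
  · rw [Ideal.span_le]
    rintro x (rfl | rfl)
    · exact Ideal.zero_mem _
    · exact Ideal.subset_span rfl
  · exact Ideal.span_mono (by
      intro x hx
      rw [Set.mem_singleton_iff] at hx
      rw [hx]
      exact Set.mem_insert_of_mem _ rfl)

/-- **`R ⧸ (z)` is a discrete valuation ring** -/
theorem IsRegPair.quotient_isDiscreteValuationRing [IsNoetherianRing R] (h : IsRegPair R z t) :
    haveI := h.quotient_isDomain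
    IsDiscreteValuationRing (R ⧸ Ideal.span {z}) := by
  haveI := h.quotient_isDomain
  haveI := h.quotient_isLocalRing
  have hmax := h.quotient_maximalIdeal_eq
  have hne : Ideal.Quotient.mk (Ideal.span {z}) t ≠ 0 := by
    rw [Ne, Ideal.Quotient.eq_zero_iff_mem, Ideal.mem_span_singleton]
    exact h.not_dvd
  have hnf : ¬ IsField (R ⧸ Ideal.span {z}) := by
    rw [IsLocalRing.isField_iff_maximalIdeal_eq, hmax, Ideal.span_singleton_eq_bot]
    exact hne
  have hprinc : (maximalIdeal (R ⧸ Ideal.span {z})).IsPrincipal := ⟨⟨_, hmax⟩⟩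
  exact ((IsDiscreteValuationRing.TFAE (R ⧸ Ideal.span {z}) hnf).out 0 4).mpr hprinc

/-- the class of `t` is a uniformiser of `R ⧸ (z)` -/
theorem IsRegPair.irreducible_mk [IsNoetherianRing R] (h : IsRegPair R z t) :
    Irreducible (Ideal.Quotient.mk (Ideal.span {z}) t) := by
  haveI := h.quotient_isDomain
  haveI := h.quotient_isDiscreteValuationRing
  rw [IsDiscreteValuationRing.irreducible_iff_uniformizer]
  exact h.quotient_maximalIdeal_eq

/-- **a Noetherian local domain with a regular pair is a unique factorisation domain**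
(Kaplansky + Nakayama). -/
theorem IsRegPair.ufd [IsDomain R] [IsNoetherianRing R] (h : IsRegPair R z t) :
    UniqueFactorizationMonoid R := by
  haveI := h.quotient_isDomain
  haveI := h.quotient_isDiscreteValuationRing
  have hpid : ∀ I : Ideal (R ⧸ Ideal.span {z}), I.IsPrincipal := fun I =>
    IsPrincipalIdealRing.principal I
  exact Edge.ufm_of_quotient_principal z
    (by rw [IsLocalRing.jacobson_eq_maximalIdeal ⊥ bot_ne_top]; exact h.z_mem) h.prime hpid

end Cons

/-! ### The seam literals `IsSmoothPtRing`, `IsNodeRing` of `Node/NodeDatum` -/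

section Seam

variable {R : Type*} [CommRing R] [IsLocalRing R] [IsDomain R] [IsNoetherianRing R]
  {Q : R[X]} (c : R) (hc : Q.eval c ∈ maximalIdeal R)

theorem isRegPair_of_isSmoothPtRing {p : ℕ} {t : R}
    (h : IsSmoothPtRing R p t) : IsRegPair R (p : R) t :=
  ⟨h.prime_p, h.maximalIdeal_eq, h.not_dvd⟩

/-- the etale lift of a smooth-point ring is a domain -/
theorem isDomain_loc_of_isSmoothPtRing (hQ : Q.Monic) (hc' : IsUnit (Q.derivative.eval c))
    {p : ℕ} {t : R} (h : IsSmoothPtRing R p t) : IsDomain (Loc Q c hc) :=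
  (isRegPair_of_isSmoothPtRing h).isDomain_loc c hc hQ hc'

/-- **the etale lift of a smooth-point ring is a smooth-point ring** with the same `p` and the
same local parameter `t`. -/
theorem isSmoothPtRing_loc [IsDomain (Loc Q c hc)] (hQ : Q.Monic)
    (hc' : IsUnit (Q.derivative.eval c)) {p : ℕ} {t : R} (h : IsSmoothPtRing R p t) :
    IsSmoothPtRing (Loc Q c hc) p (algebraMap R (Loc Q c hc) t) := by
  have hL := (isRegPair_of_isSmoothPtRing h).loc c hc hQ hc'
  rw [map_natCast] at hL
  exact ⟨hL.max_eq, hL.prime, hL.not_dvd⟩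

/-- the etale lift of a node ring is a domain -/
theorem isDomain_loc_of_isNodeRing (hQ : Q.Monic) (hc' : IsUnit (Q.derivative.eval c))
    {p : ℕ} {u u' : R} (h : IsNodeRing R p u u') : IsDomain (Loc Q c hc) :=
  IsRegPair.isDomain_loc c hc hQ hc' (z := u) (t := u')
    ⟨h.prime_u, h.maximalIdeal_eq, h.not_dvd⟩

/-- **the etale lift of a node ring is a node ring** with the same `p`, `u`, `u'` (independent
second of helper4's `Etale.isNode_loc`). -/
theorem isNodeRing_loc [IsDomain (Loc Q c hc)] (hQ : Q.Monic)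
    (hc' : IsUnit (Q.derivative.eval c)) {p : ℕ} {u u' : R} (h : IsNodeRing R p u u') :
    IsNodeRing (Loc Q c hc) p (algebraMap R (Loc Q c hc) u) (algebraMap R (Loc Q c hc) u') := by
  obtain ⟨h1, h2, h3, h4, h5⟩ := node_fields_loc c hc hQ hc' h.mul_eq h.maximalIdeal_eq
    h.prime_u h.prime_u' h.not_associated
  exact ⟨h1, h2, h3, h4, h5⟩

end Seam

end Fermat.Agent.S40x.Node.EtaleLift
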