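/-
P-S44/S40, block R1 / C3-ET (helper38): THE ETALE LIFT INSIDE A FIELD.

`R` an integrally closed local domain inside a field `E`, `θ : E` integral over `R`,
`Q := minpoly R θ`, `c : R` a simple root of `Q` modulo the maximal ideal.  Then the etale lift
`Loc Q c hc` of `Node/EtaleLift` embeds into `E`:

* `toE R θ : AdjoinRoot (minpoly R θ) →+* E` (`root ↦ θ`), injective (`toE_injective`);
* `embed θ hθ c hc : Loc (minpoly R θ) c hc →+* E`, injective, `embed (ι r) = algebraMap R E r`,
  `embed (root) = θ`, `embed x ∈ K'` for every subfield `K'` containing `R` and `θ`;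
* `isFractionRing_loc`: for the algebra structure `algebraLoc` given by `embed`, `E` is the fraction
  field of `Loc` as soon as every element of `E` is `g(θ) / r` (`hgen`), e.g. `E = F0(θ)`,
  `F0 = Frac R` (`hgen_of_adjoin_eq_top`).
-/
import Mathlib
import Fermat.Agent.S40x.Node.EtaleLift

set_option autoImplicit false
set_option linter.unusedSectionVars false
set_option linter.style.haveILetI false

namespace Fermat.Agent.S40x.Node.EtaleEmbed

open IsLocalRing Polynomial Fermat.Agent.S40x.Node.EtaleLift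

section Embed

variable (R : Type*) [CommRing R] [IsDomain R] [IsLocalRing R] [IsIntegrallyClosed R]
  {E : Type*} [Field E] [Algebra R E] [FaithfulSMul R E] (θ : E)

/-- `R[T]/(minpoly θ) → E`, `T ↦ θ` -/
noncomputable def toE : AdjoinRoot (minpoly R θ) →+* E :=
  AdjoinRoot.lift (algebraMap R E) θ (by rw [← aeval_def]; exact minpoly.aeval R θ)

@[simp] theorem toE_of (r : R) : toE R θ (AdjoinRoot.of (minpoly R θ) r) = algebraMap R E r :=
  AdjoinRoot.lift_of _

@[simp] theorem toE_root : toE R θ (AdjoinRoot.root (minpoly R θ)) = θ :=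
  AdjoinRoot.lift_root _

theorem toE_mk (g : R[X]) : toE R θ (AdjoinRoot.mk (minpoly R θ) g) = aeval θ g := by
  rw [toE, AdjoinRoot.lift_mk, aeval_def]

variable {R} {θ}

theorem toE_injective (hθ : IsIntegral R θ) : Function.Injective (toE R θ) := by
  refine (injective_iff_map_eq_zero _).2 fun s hs => ?_
  obtain ⟨g, rfl⟩ := AdjoinRoot.mk_surjective s
  rw [toE_mk] at hs
  rw [AdjoinRoot.mk_eq_zero]
  exact minpoly.isIntegrallyClosed_dvd hθ hs

variable (θ) (hθ : IsIntegral R θ) (c : R) (hc : (minpoly R θ).eval c ∈ maximalIdeal R)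

include hθ in
theorem isUnit_toE (y : (maxIdeal (minpoly R θ) c hc).primeCompl) :
    IsUnit (toE R θ (y : AdjoinRoot (minpoly R θ))) := by
  rw [isUnit_iff_ne_zero]
  intro h0
  have h1 : (y : AdjoinRoot (minpoly R θ)) = 0 := toE_injective hθ (by rw [h0, map_zero])
  exact y.2 (by rw [h1]; exact Ideal.zero_mem _)

/-- **the embedding of the etale lift into `E`** -/
noncomputable def embed : Loc (minpoly R θ) c hc →+* E :=
  IsLocalization.lift (M := (maxIdeal (minpoly R θ) c hc).primeCompl) (g := toE R θ)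
    (isUnit_toE θ hθ c hc)

theorem embed_algebraMap (s : AdjoinRoot (minpoly R θ)) :
    embed θ hθ c hc (algebraMap _ _ s) = toE R θ s :=
  IsLocalization.lift_eq _ _

theorem embed_algebraMap_base (r : R) :
    embed θ hθ c hc (algebraMap R (Loc (minpoly R θ) c hc) r) = algebraMap R E r := by
  rw [algebraMap_loc_apply, embed_algebraMap, toE_of]

theorem embed_root :
    embed θ hθ c hc (algebraMap _ _ (AdjoinRoot.root (minpoly R θ))) = θ := by
  rw [embed_algebraMap, toE_root]

theorem embed_mk' (s : AdjoinRoot (minpoly R θ)) (d : (maxIdeal (minpoly R θ) c hc).primeCompl) :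
    embed θ hθ c hc (IsLocalization.mk' _ s d) = toE R θ s / toE R θ (d : AdjoinRoot (minpoly R θ)) := by
  have hd : toE R θ (d : AdjoinRoot (minpoly R θ)) ≠ 0 := (isUnit_toE θ hθ c hc d).ne_zero
  rw [eq_div_iff hd, ← embed_algebraMap θ hθ c hc (d : AdjoinRoot (minpoly R θ)), ← map_mul,
    IsLocalization.mk'_spec, embed_algebraMap]

theorem embed_injective : Function.Injective (embed θ hθ c hc) := by
  refine (injective_iff_map_eq_zero _).2 fun x hx => ?_
  obtain ⟨s, d, rfl⟩ := IsLocalization.exists_mk'_eq (maxIdeal (minpoly R θ) c hc).primeCompl x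
  rw [embed_mk', div_eq_zero_iff] at hx
  rcases hx with hx | hx
  · have hs : s = 0 := toE_injective hθ (by rw [hx, map_zero])
    rw [hs, IsLocalization.mk'_zero]
  · exact absurd hx (isUnit_toE θ hθ c hc d).ne_zero

/-- the image of the etale lift lies in every subfield containing `R` and `θ` -/
theorem embed_mem (K' : Subfield E) (hR : ∀ r : R, algebraMap R E r ∈ K') (hθK : θ ∈ K')
    (x : Loc (minpoly R θ) c hc) : embed θ hθ c hc x ∈ K' := by
  have htoE : ∀ s : AdjoinRoot (minpoly R θ), toE R θ s ∈ K' := by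
    intro s
    obtain ⟨g, rfl⟩ := AdjoinRoot.mk_surjective s
    rw [toE_mk, aeval_eq_sum_range]
    exact Subfield.sum_mem _ fun i _ => by
      rw [Algebra.smul_def]
      exact K'.mul_mem (hR _) (K'.pow_mem hθK i)
  obtain ⟨s, d, rfl⟩ := IsLocalization.exists_mk'_eq (maxIdeal (minpoly R θ) c hc).primeCompl x
  rw [embed_mk']
  exact K'.div_mem (htoE s) (htoE _)

/-- the `Loc`-algebra structure of `E` (not an instance: use `letI`) -/
noncomputable abbrev algebraLoc : Algebra (Loc (minpoly R θ) c hc) E :=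
  (embed θ hθ c hc).toAlgebra

theorem isScalarTower_loc :
    letI := algebraLoc θ hθ c hc
    IsScalarTower R (Loc (minpoly R θ) c hc) E := by
  letI := algebraLoc θ hθ c hc
  refine IsScalarTower.of_algebraMap_eq fun r => ?_
  exact (embed_algebraMap_base θ hθ c hc r).symm

theorem faithfulSMul_loc :
    letI := algebraLoc θ hθ c hc
    FaithfulSMul (Loc (minpoly R θ) c hc) E := by
  letI := algebraLoc θ hθ c hc
  exact (faithfulSMul_iff_algebraMap_injective _ _).2 (embed_injective θ hθ c hc)

/-- **`E` is the fraction field of the etale lift** when every element of `E` is `g(θ) / r`. -/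
theorem isFractionRing_loc
    (hgen : ∀ e : E, ∃ (g : R[X]) (r : R), r ≠ 0 ∧ algebraMap R E r * e = aeval θ g) :
    letI := algebraLoc θ hθ c hc
    IsFractionRing (Loc (minpoly R θ) c hc) E := by
  letI := algebraLoc θ hθ c hc
  haveI := faithfulSMul_loc θ hθ c hc
  refine IsFractionRing.of_field (R := Loc (minpoly R θ) c hc) (K := E) fun e => ?_
  obtain ⟨g, r, hr, hg⟩ := hgen e
  refine ⟨algebraMap _ _ (AdjoinRoot.mk (minpoly R θ) g),
    algebraMap R (Loc (minpoly R θ) c hc) r, ?_⟩
  have hr' : algebraMap R E r ≠ 0 :=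
    (map_ne_zero_iff _ (FaithfulSMul.algebraMap_injective R E)).2 hr
  change e = embed θ hθ c hc _ / embed θ hθ c hc _
  rw [embed_algebraMap, embed_algebraMap_base, toE_mk, eq_div_iff hr', ← hg, mul_comm]

end Embed

/-! ### `hgen` from `E = F0(θ)`, `F0 = Frac R` -/

section Gen

variable {R : Type*} [CommRing R] [IsDomain R]
  {F0 : Type*} [Field F0] [Algebra R F0] [IsFractionRing R F0]
  {E : Type*} [Field E] [Algebra R E] [Algebra F0 E] [IsScalarTower R F0 E] {θ : E}

/-- every element of `F0[θ]` is `g(θ) / r` with `g ∈ R[X]`, `r ∈ R` nonzero -/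
theorem exists_aeval_eq_of_mem_adjoin {e : E} (he : e ∈ Algebra.adjoin F0 {θ}) :
    ∃ (g : R[X]) (r : R), r ≠ 0 ∧ algebraMap R E r * e = aeval θ g := by
  rw [Algebra.adjoin_singleton_eq_range_aeval] at he
  obtain ⟨G, rfl⟩ := he
  obtain ⟨b, hb, hG⟩ := IsLocalization.integerNormalization_spec (nonZeroDivisors R) G
  refine ⟨IsLocalization.integerNormalization (nonZeroDivisors R) G, b,
    nonZeroDivisors.ne_zero hb, ?_⟩
  have h1 : aeval θ (IsLocalization.integerNormalization (nonZeroDivisors R) G) =
      aeval θ ((IsLocalization.integerNormalization (nonZeroDivisors R) G).map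
        (algebraMap R F0)) := by
    rw [aeval_map_algebraMap]
  rw [h1, hG, ← IsScalarTower.algebraMap_smul F0 b G, map_smul, Algebra.smul_def,
    ← IsScalarTower.algebraMap_apply]
  rfl

/-- **`hgen` of `isFractionRing_loc`** when `E = F0(θ)` with `θ` algebraic over `F0 = Frac R`. -/
theorem hgen_of_adjoin_eq_top (hθ : IsAlgebraic F0 θ)
    (htop : IntermediateField.adjoin F0 {θ} = ⊤) (e : E) :
    ∃ (g : R[X]) (r : R), r ≠ 0 ∧ algebraMap R E r * e = aeval θ g := by
  apply exists_aeval_eq_of_mem_adjoin (F0 := F0)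
  rw [← IntermediateField.adjoin_simple_toSubalgebra_of_isAlgebraic hθ, htop]
  exact Algebra.mem_top

end Gen

end Fermat.Agent.S40x.Node.EtaleEmbed
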