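import Fermat.Agent.S40x.Node.Export
import Fermat.Agent.S40x.R2.NodeCover.EtBundle
import Fermat.Agent.S40x.NodeRing.Bundle

/-!
# P-S44, block R1, item X12: the seam `NodeDown` → C3-ET (helper62)

The downstairs literal `Export.NodeDown S F0 p u u' Oinf Ozero vinf vzero` plugged into the landed
upstairs constructions, so that C3-ASM calls them with ONE hypothesis about the downstairs ring:

* `et_node_bundle`, `et_node_slope` : helper2's `R2/NodeCover/EtBundle` (the per-node block of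
  hypotheses of `Asm.c3_core_pair`);
* `ord_package` : helper4's `NodeRing/Bundle.ET.ord_package'` (first branch) and `ord_package_zero`
  (second branch, via `NodeDown.symm`);
* `exists_eval_mem_maximalIdeal`, `exists_Rstar_le` : existence of the roots `c` modulo `m_S` and
  of the node ring `R*_c` below a given valuation subring (the residue field of `S` is
  algebraically closed);
* `not_dvd_natCast_Rstar`, `hK0_Rstar` : `(n4)*`.

The instance `[IsIntegrallyClosed S]` needed to FORM `Embed.Rstar` is `NodeDown.isIntegrallyClosed`,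
`[FaithfulSMul S E0]` follows from `NodeDown.faithfulSMul` and the tower `S → F0 → E0`
(`faithfulSMul_of_tower`).
-/

set_option autoImplicit false
set_option linter.unusedSectionVars false
set_option linter.style.haveILetI false

namespace Fermat.Agent.S40x.Node.ExportEt

open IsLocalRing Polynomial
open Fermat.Agent.S40x.Node Fermat.Agent.S40x.Node.Export Fermat.Agent.S40x.NodeRing
  Fermat.Agent.S40x.R2.Transitive Fermat.Agent.S40x.R2.NodeCover

section Tower

variable {S : Type*} [CommRing S] [IsDomain S] [IsNoetherianRing S] [IsLocalRing S]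
  {F0 : Type*} [Field F0] [Algebra S F0] {p : ℕ} {u u' : S}
  {Oinf Ozero : ValuationSubring F0} {vinf vzero : F0 → ℤ}
  {E0 : Type*} [Field E0] [Algebra S E0] [Algebra F0 E0] [IsScalarTower S F0 E0]

/-- `S → E0` is injective. -/
theorem faithfulSMul_of_tower (h : NodeDown S F0 p u u' Oinf Ozero vinf vzero) :
    FaithfulSMul S E0 := by
  haveI := h.frac
  rw [faithfulSMul_iff_algebraMap_injective, IsScalarTower.algebraMap_eq S F0 E0]
  exact (algebraMap F0 E0).injective.comp (IsFractionRing.injective S F0)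

end Tower

variable {S : Type*} [CommRing S] [IsDomain S] [IsNoetherianRing S] [IsLocalRing S]
  [IsIntegrallyClosed S]
  {F0 : Type*} [Field F0] [Algebra S F0] {p : ℕ} {u u' : S}
  {Oinf Ozero : ValuationSubring F0} {vinf vzero : F0 → ℤ}
  {E0 : Type*} [Field E0] [Algebra S E0] [FaithfulSMul S E0] [Algebra F0 E0]
  [IsScalarTower S F0 E0] {θ₀ : E0} {c : S}

/-- **helper2's `et_node_bundle` from `NodeDown`.** -/
theorem et_node_bundle (h : NodeDown S F0 p u u' Oinf Ozero vinf vzero)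
    (hint : IsIntegral S θ₀) (hc : (minpoly S θ₀).eval c ∈ maximalIdeal S)
    (hc' : IsUnit ((minpoly S θ₀).derivative.eval c))
    [IsFractionRing (Embed.Rstar hint hc) E0] :
    ∃ (_ : UniqueFactorizationMonoid (Embed.Rstar hint hc)),
      Prime (Embed.inclStar hint hc u) ∧ Prime (Embed.inclStar hint hc u') ∧
      ¬ Embed.inclStar hint hc u ∣ Embed.inclStar hint hc u' ∧
      ¬ Embed.inclStar hint hc u' ∣ Embed.inclStar hint hc u ∧
      ∃ (Winf Wzero : ValuationSubring E0) (winf wzero : E0 → ℤ),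
        IsOrd Winf winf ∧ IsOrd Wzero wzero ∧
        winf (algebraMap (Embed.Rstar hint hc) E0 (Embed.inclStar hint hc u)) = 1 ∧
        (∀ r : Embed.Rstar hint hc, ¬ Embed.inclStar hint hc u ∣ r →
          winf (algebraMap (Embed.Rstar hint hc) E0 r) = 0) ∧
        wzero (algebraMap (Embed.Rstar hint hc) E0 (Embed.inclStar hint hc u')) = 1 ∧
        (∀ r : Embed.Rstar hint hc, ¬ Embed.inclStar hint hc u' ∣ r →
          wzero (algebraMap (Embed.Rstar hint hc) E0 r) = 0) ∧
        (∀ e : F0, algebraMap F0 E0 e ∈ Winf ↔ e ∈ Oinf) ∧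
        (∀ e : F0, algebraMap F0 E0 e ∈ Wzero ↔ e ∈ Ozero) ∧
        (∀ e : F0, e ≠ 0 → winf (algebraMap F0 E0 e) = vinf e) ∧
        (∀ e : F0, e ≠ 0 → wzero (algebraMap F0 E0 e) = vzero e) := by
  haveI := h.frac
  exact R2.NodeCover.et_node_bundle hint hc hc' h.isNode h.isOrd_inf h.vinf_u h.vinf_eq_zero
    h.isOrd_zero h.vzero_u' h.vzero_eq_zero

/-- **helper2's `et_node_slope` from `NodeDown`**: the per-node block of hypotheses of
`Asm.c3_core_pair`, from the horizontal divisibility `H` (C3-CFE) and the slope rule `hsl`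
(C3-SLOPE) on `R* = Embed.Rstar hint hc`. -/
theorem et_node_slope (h : NodeDown S F0 p u u' Oinf Ozero vinf vzero)
    (hint : IsIntegral S θ₀) (hc : (minpoly S θ₀).eval c ∈ maximalIdeal S)
    (hc' : IsUnit ((minpoly S θ₀).derivative.eval c))
    [IsFractionRing (Embed.Rstar hint hc) E0]
    {ℓ : ℕ} (hℓ : ℓ ≠ 0) {ft : E0} (hft : ft ≠ 0)
    (H : ∀ q : Embed.Rstar hint hc, Prime q → ¬ Associated q (Embed.inclStar hint hc u) →
      ¬ Associated q (Embed.inclStar hint hc u') →
      ∀ f1 f2 : Embed.Rstar hint hc, f2 ≠ 0 →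
        ft * algebraMap (Embed.Rstar hint hc) E0 f2 = algebraMap (Embed.Rstar hint hc) E0 f1 →
      ∀ n1 n2 : ℕ, q ^ n1 ∣ f1 → ¬ q ^ (n1 + 1) ∣ f1 → q ^ n2 ∣ f2 → ¬ q ^ (n2 + 1) ∣ f2 →
        (ℓ : ℤ) ∣ (n1 : ℤ) - n2)
    (n : ZMod ℓ)
    (hsl : ∀ (A B : ℤ) (ε : (Embed.Rstar hint hc)ˣ) (g1 g2 : Embed.Rstar hint hc),
      ¬ Embed.inclStar hint hc u ∣ g1 → ¬ Embed.inclStar hint hc u' ∣ g1 →
      ¬ Embed.inclStar hint hc u ∣ g2 → ¬ Embed.inclStar hint hc u' ∣ g2 →
      ft = algebraMap (Embed.Rstar hint hc) E0 ε *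
          algebraMap (Embed.Rstar hint hc) E0 (Embed.inclStar hint hc u) ^ A *
          algebraMap (Embed.Rstar hint hc) E0 (Embed.inclStar hint hc u') ^ B *
          (algebraMap (Embed.Rstar hint hc) E0 g1 / algebraMap (Embed.Rstar hint hc) E0 g2) ^ ℓ →
        n = ((B - A : ℤ) : ZMod ℓ)) :
    ∃ (Winf Wzero : ValuationSubring E0) (winf wzero : E0 → ℤ),
      (∀ e : F0, algebraMap F0 E0 e ∈ Winf ↔ e ∈ Oinf) ∧
      (∀ e : F0, algebraMap F0 E0 e ∈ Wzero ↔ e ∈ Ozero) ∧
      IsOrd Winf winf ∧ IsOrd Wzero wzero ∧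
      (∀ e : F0, e ≠ 0 → winf (algebraMap F0 E0 e) = vinf e) ∧
      (∀ e : F0, e ≠ 0 → wzero (algebraMap F0 E0 e) = vzero e) ∧
      n = ((wzero ft - winf ft : ℤ) : ZMod ℓ) := by
  haveI := h.frac
  exact R2.NodeCover.et_node_slope hint hc hc' h.isNode h.isOrd_inf h.vinf_u h.vinf_eq_zero
    h.isOrd_zero h.vzero_u' h.vzero_eq_zero hℓ hft H n hsl

/-- existence of a root of `minpoly S θ₀` modulo `m_S` (the residue field is algebraically
closed). -/
theorem exists_eval_mem_maximalIdeal (h : NodeDown S F0 p u u' Oinf Ozero vinf vzero)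
    (hint : IsIntegral S θ₀) (hdeg : (minpoly S θ₀).natDegree ≠ 0) :
    ∃ c : S, (minpoly S θ₀).eval c ∈ maximalIdeal S := by
  haveI := h.algClosed
  exact R2.NodeCover.exists_eval_mem_maximalIdeal (minpoly.monic hint) hdeg

/-- every valuation subring of `E0` containing `S` contains one of the node rings `R*_c`. -/
theorem exists_Rstar_le (h : NodeDown S F0 p u u' Oinf Ozero vinf vzero)
    (hint : IsIntegral S θ₀) (W : ValuationSubring E0) (hW : ∀ r, algebraMap S E0 r ∈ W) :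
    ∃ (c : S) (hc : (minpoly S θ₀).eval c ∈ maximalIdeal S),
      Embed.Rstar hint hc ≤ W.toSubring := by
  haveI := h.algClosed
  exact Embed.exists_Rstar_le hint W hW

/-- `(n4)*` upstairs: a prime of `R*` not associated to `ι u`, `ι u'` does not divide `p`. -/
theorem not_dvd_natCast_Rstar (h : NodeDown S F0 p u u' Oinf Ozero vinf vzero)
    (hint : IsIntegral S θ₀) (hc : (minpoly S θ₀).eval c ∈ maximalIdeal S)
    (hc' : IsUnit ((minpoly S θ₀).derivative.eval c)) {q : Embed.Rstar hint hc} (hq : Prime q)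
    (hqu : ¬ Associated q (Embed.inclStar hint hc u))
    (hqu' : ¬ Associated q (Embed.inclStar hint hc u')) :
    ¬ q ∣ (p : Embed.Rstar hint hc) := by
  obtain ⟨ψ, hψ⟩ := h.exists_unit
  exact R2.NodeCover.not_dvd_natCast_Rstar hint hc hc' h.isNode ψ hψ hq hqu hqu'

/-- `(n4)*` in the shape `hK0` of `CFE2.edge_H_of_constants`. -/
theorem hK0_Rstar (h : NodeDown S F0 p u u' Oinf Ozero vinf vzero)
    (hint : IsIntegral S θ₀) (hc : (minpoly S θ₀).eval c ∈ maximalIdeal S)
    (hc' : IsUnit ((minpoly S θ₀).derivative.eval c))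
    {𝕃 : Type*} [Field 𝕃] (j : E0 →+* 𝕃) (K0 : Subfield 𝕃)
    (hK0R : ∀ x ∈ K0, ∃ (a : S) (n : ℕ),
      x * j (algebraMap S E0 ((p : S) ^ n)) = j (algebraMap S E0 a))
    {q : Embed.Rstar hint hc} (hq : Prime q)
    (hqu : ¬ Associated q (Embed.inclStar hint hc u))
    (hqu' : ¬ Associated q (Embed.inclStar hint hc u')) :
    ∀ x ∈ K0, ∃ a b : Embed.Rstar hint hc, ¬ q ∣ b ∧
      x * j (algebraMap (Embed.Rstar hint hc) E0 b) =
        j (algebraMap (Embed.Rstar hint hc) E0 a) := by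
  obtain ⟨ψ, hψ⟩ := h.exists_unit
  exact R2.NodeCover.hK0_Rstar hint hc hc' h.isNode ψ hψ j K0 hK0R hq hqu hqu'

/-! ### helper4's `ET` bundle -/

section ET

variable {E : Type*} [Field E] [Algebra S E] [Algebra E0 E] [IsScalarTower S E0 E]
  [hp : Fact p.Prime] {σ : E →ₐ[S] E} {ι : Type*} [Fintype ι] {θ ζ : ι → E} {θ₀' : E0}
  [IsFractionRing S F0] [FiniteDimensional F0 E0]

/-- **helper4's `ET.ord_package'` from `NodeDown`**, first branch. -/
theorem ord_package (h : NodeDown S F0 p u u' Oinf Ozero vinf vzero) (D : ASDatum S p σ θ ζ)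
    (hθ : algebraMap E0 E θ₀' = -∑ d, θ d)
    (hc : (minpoly S θ₀').eval c ∈ maximalIdeal S) (hfin : Module.finrank F0 E0 = p) :
    ∃ (W : ValuationSubring E0) (w : E0 → ℤ), IsOrd W w ∧
      w (algebraMap (Embed.Rstar (ET.isIntegral' D hθ) hc) E0
        (Embed.inclStar (ET.isIntegral' D hθ) hc u)) = 1 ∧
      (∀ s : Embed.Rstar (ET.isIntegral' D hθ) hc,
        ¬ Embed.inclStar (ET.isIntegral' D hθ) hc u ∣ s →
        w (algebraMap (Embed.Rstar (ET.isIntegral' D hθ) hc) E0 s) = 0) ∧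
      (∀ e : F0, algebraMap F0 E0 e ∈ W ↔ e ∈ Oinf) ∧
      (∀ e : F0, e ≠ 0 → w (algebraMap F0 E0 e) = vinf e) :=
  ET.ord_package' D h.natCast_mem hθ h.isNode hc F0 hfin h.isOrd_inf h.vinf_u h.vinf_eq_zero

/-- **helper4's `ET.ord_package'` from `NodeDown`**, second branch. -/
theorem ord_package_zero (h : NodeDown S F0 p u u' Oinf Ozero vinf vzero) (D : ASDatum S p σ θ ζ)
    (hθ : algebraMap E0 E θ₀' = -∑ d, θ d)
    (hc : (minpoly S θ₀').eval c ∈ maximalIdeal S) (hfin : Module.finrank F0 E0 = p) :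
    ∃ (W : ValuationSubring E0) (w : E0 → ℤ), IsOrd W w ∧
      w (algebraMap (Embed.Rstar (ET.isIntegral' D hθ) hc) E0
        (Embed.inclStar (ET.isIntegral' D hθ) hc u')) = 1 ∧
      (∀ s : Embed.Rstar (ET.isIntegral' D hθ) hc,
        ¬ Embed.inclStar (ET.isIntegral' D hθ) hc u' ∣ s →
        w (algebraMap (Embed.Rstar (ET.isIntegral' D hθ) hc) E0 s) = 0) ∧
      (∀ e : F0, algebraMap F0 E0 e ∈ W ↔ e ∈ Ozero) ∧
      (∀ e : F0, e ≠ 0 → w (algebraMap F0 E0 e) = vzero e) :=
  ord_package h.symm D hθ hc hfin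

end ET

end Fermat.Agent.S40x.Node.ExportEt
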