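/-
helper30 (P-S44, block R1 / N-alpha, leaf N1, fraction field): every `Γ`-fixed function is a
quotient of two elements of `B_0 = fixedAlg Γ (BooAlg C)` (the `Γ`-fixed part of the half-chart
ring `B_∞`), inside the context bundle `Ctx + CtxGal + FixData2 + hF`.

* `fixedSubfield Γ : Subfield F` : the fixed field `F_0 = F^Γ` (generic; at `K = Qbar`,
  `Γ = inertiaAct P N` its carrier is that of `Node/Vocab.F0 P N`);
* `exists_fixed_denominator` : `f` fixed `⟹ ∃ d b ∈ B_0, d ≠ 0, d * f = b`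
  (algebraicity over `K[t]` gives a nonzero `d₀ ∈ K[t]` with `d₀ f` integral over `K[t]`; the space
  `{d ∈ L(m C∞) | d f ∈ L(m' C∞)}` is `Γ`-stable, hence spanned by fixed elements; scale by a fixed
  constant into `O`);
* `toFixedSubfield`, `isFractionRing_fixedBoo` : `F_0` is the fraction field of `B_0`.
-/
import Fermat.Agent.S40x.Node.FixedNoeth

set_option autoImplicit false
set_option linter.unusedSectionVars false
set_option linter.style.haveILetI false

noncomputable section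

namespace Fermat.Agent.S40x.Node.FixedFrac

open AlgebraicCurve Module IsLocalRing IntermediateField
open scoped IntermediateField.algebraAdjoinAdjoin
open Fermat.Agent.S34x Fermat.Agent.S34x.C0two Fermat.Agent.S34x.Lattice2
open Fermat.Agent.S19x.Geo.LatticeFixed (IsFixed IsFixedK span_fixed_of_stable)
open Fermat.Agent.S33x.H1.LatticeFixed2 Fermat.Agent.S33x.H1.FixedDecomp
open Fermat.Agent.S33x.Cech.CtxMq Fermat.Agent.S33x.W.InstW Fermat.Agent.S33x.W.InstWCtx
open Fermat.Agent.S40x.Node.FixedNoeth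

/-! ### The fixed field -/

section Field

variable {K : Type*} [Field K] {F : Type*} [Field F] [Algebra K F]
  (Γ : Set (SemilinearAut K F))

/-- **the fixed field** `F_0 = F^Γ`. -/
def fixedSubfield : Subfield F where
  carrier := {f | IsFixed Γ f}
  mul_mem' := fun hf hg s hs => by rw [smul_mul', hf s hs, hg s hs]
  one_mem' := fun s _ => smul_one s
  add_mem' := fun hf hg => hf.add hg
  zero_mem' := IsFixed.zero
  neg_mem' := fun hf s hs => by rw [smul_neg, hf s hs]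
  inv_mem' := fun _ hf s hs => by rw [smul_inv'', hf s hs]

variable {Γ}

theorem mem_fixedSubfield {f : F} : f ∈ fixedSubfield Γ ↔ IsFixed Γ f := Iff.rfl

end Field

/-! ### Denominators -/

section Ctx

variable {K : Type*} [Field K] [IsAlgClosed K] [CharZero K] {A : ValuationSubring K}
  {F : Type*} [Field F] [Algebra K F] {S : SmallRing F}
  {k : Type*} [Field k] [IsAlgClosed k] {E : Type*} [Field E] [Algebra k E]
  {R : RedSetup2 A S k (E × E)} {C : ChartCoord R} {p q : ℕ} {x : E} {Dt : Divisor K F}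
  (h : Ctx R C p q x Dt) {Γ : Set (SemilinearAut K F)} (hG : CtxGal R C Γ)

include h in
/-- a nonzero `d₀ ∈ K[t]` with `d₀ f` integral over `K[t]`, in terms of the spaces `L(m C∞)`. -/
theorem exists_denominator (f : F) :
    ∃ (m : ℕ) (d₀ : F), d₀ ≠ 0 ∧ d₀ ∈ C.LN 0 m ∧ d₀ * f ∈ C.LN 0 m := by
  haveI := h.fin_t
  have halg : IsAlgebraic (Algebra.adjoin K {C.t}) f :=
    (IsFractionRing.isAlgebraic_iff (Algebra.adjoin K {C.t}) K⟮C.t⟯ F).mpr
      (Algebra.IsAlgebraic.isAlgebraic f)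
  obtain ⟨y, hy0, hy⟩ := halg.exists_integral_multiple
  have hyF : (y : F) ≠ 0 := fun h0 => hy0 (Subtype.ext h0)
  have hy1 : IsIntegral (Algebra.adjoin K {C.t}) (y : F) := isIntegral_algebraMap
  obtain ⟨m₁, hm₁⟩ := (isIntegral_iff_exists_mem_twoPole (k := K) C.t_mul_tinv).mp hy1
  have hy2 : IsIntegral (Algebra.adjoin K {C.t}) ((y : F) * f) := by
    have : y • f = (y : F) * f := Algebra.smul_def y f
    rwa [this] at hy
  obtain ⟨m₂, hm₂⟩ := (isIntegral_iff_exists_mem_twoPole (k := K) C.t_mul_tinv).mp hy2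
  exact ⟨max m₁ m₂, (y : F), hyF, C.LN_mono le_rfl (le_max_left _ _) hm₁,
    C.LN_mono le_rfl (le_max_right _ _) hm₂⟩

include h hG in
/-- **every fixed function is a quotient of two elements of `B_0`.** -/
theorem exists_fixed_denominator (hD : FixData2 R Γ)
    (hF : Submodule.span K {f : F | IsFixed Γ f} = ⊤) {f : F} (hf : IsFixed Γ f) :
    ∃ d b : F, d ≠ 0 ∧ d ∈ fixedAlg Γ (Fermat.Agent.S33x.H1.InstC4.BooAlg C) ∧
      b ∈ fixedAlg Γ (Fermat.Agent.S33x.H1.InstC4.BooAlg C) ∧ d * f = b := by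
  classical
  by_cases hf0 : f = 0
  · refine ⟨1, 0, one_ne_zero, Subalgebra.one_mem _, Subalgebra.zero_mem _, by rw [hf0, mul_zero]⟩
  obtain ⟨m, d₀, hd₀0, hd₀m, hd₀f⟩ := exists_denominator h f
  -- the stable space of denominators
  set D : Submodule K F := C.LN 0 m ⊓ (C.LN 0 m).comap (LinearMap.mulRight K f) with hDdef
  have hmemD : ∀ d : F, d ∈ D ↔ d ∈ C.LN 0 m ∧ d * f ∈ C.LN 0 m := by
    intro d
    rw [hDdef, Submodule.mem_inf, Submodule.mem_comap]
    rfl
  have hstab : ∀ s ∈ Γ, ∀ d ∈ D, s • d ∈ D := by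
    intro s hs d hd
    rw [hmemD] at hd ⊢
    refine ⟨Fermat.Agent.S33x.H1.StableLN.smul_mem_LN C s (hG.smul_t s hs) hd.1, ?_⟩
    have h1 := Fermat.Agent.S33x.H1.StableLN.smul_mem_LN C s (hG.smul_t s hs) hd.2
    rwa [smul_mul', hf s hs] at h1
  have hspan := span_fixed_of_stable hF D hstab
  -- a nonzero fixed denominator
  obtain ⟨d₁, hd₁D, hd₁fix, hd₁0⟩ : ∃ d₁ : F, d₁ ∈ D ∧ IsFixed Γ d₁ ∧ d₁ ≠ 0 := by
    by_contra hcon
    push Not at hcon
    have hbot : Submodule.span K {g | g ∈ D ∧ IsFixed Γ g} = ⊥ := by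
      rw [Submodule.span_eq_bot]
      intro g hg
      exact hcon g hg.1 hg.2
    have hd₀D : d₀ ∈ D := (hmemD d₀).mpr ⟨hd₀m, hd₀f⟩
    rw [← hspan, hbot, Submodule.mem_bot] at hd₀D
    exact hd₀0 hd₀D
  rw [hmemD] at hd₁D
  have hd₁f0 : d₁ * f ≠ 0 := mul_ne_zero hd₁0 hf0
  have hd₁ffix : IsFixed Γ (d₁ * f) := fun s hs => by rw [smul_mul', hd₁fix s hs, hf s hs]
  -- scale into `O`
  obtain ⟨c₁, hc₁0, hc₁fix, hc₁O, -⟩ := hD.scal_fixed d₁ hd₁0 hd₁fix
  obtain ⟨c₂, hc₂0, hc₂fix, hc₂O, -⟩ := hD.scal_fixed (d₁ * f) hd₁f0 hd₁ffix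
  obtain ⟨c, hc0, hcfix, hcO₁, hcO₂⟩ : ∃ c : K, c ≠ 0 ∧ IsFixedK Γ c ∧ c • d₁ ∈ S.O ∧
      c • (d₁ * f) ∈ S.O := by
    rcases A.mem_or_inv_mem (c₂ / c₁) with hr | hr
    · refine ⟨c₂, hc₂0, hc₂fix, ?_, hc₂O⟩
      have h1 : c₂ • d₁ = (c₂ / c₁) • (c₁ • d₁) := by
        rw [smul_smul, div_mul_cancel₀ _ hc₁0]
      rw [h1]
      exact ksmul_mem_O2 R ⟨c₂ / c₁, hr⟩ hc₁O
    · refine ⟨c₁, hc₁0, hc₁fix, hc₁O, ?_⟩
      rw [inv_div] at hr
      have h1 : c₁ • (d₁ * f) = (c₁ / c₂) • (c₂ • (d₁ * f)) := by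
        rw [smul_smul, div_mul_cancel₀ _ hc₂0]
      rw [h1]
      exact ksmul_mem_O2 R ⟨c₁ / c₂, hr⟩ hc₂O
  refine ⟨c • d₁, c • (d₁ * f), smul_ne_zero hc0 hd₁0, ?_, ?_, by rw [smul_mul_assoc]⟩
  · exact mem_fixedBoo_iff.mpr ⟨m, (C.LN 0 m).smul_mem c hd₁D.1, hcO₁,
      IsFixed.smul hcfix hd₁fix⟩
  · exact mem_fixedBoo_iff.mpr ⟨m, (C.LN 0 m).smul_mem c hd₁D.2, hcO₂,
      IsFixed.smul hcfix hd₁ffix⟩

end Ctx

/-! ### The fraction field -/

section Frac

variable {K : Type*} [Field K] {A : ValuationSubring K} {F : Type*} [Field F] [Algebra K F]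
  {Γ : Set (SemilinearAut K F)}

/-- the inclusion `B^Γ → F^Γ`. -/
def toFixedSubfield (B : Subalgebra A F) : fixedAlg Γ B →+* fixedSubfield Γ where
  toFun b := ⟨(b : F), b.2.2⟩
  map_one' := rfl
  map_mul' _ _ := rfl
  map_zero' := rfl
  map_add' _ _ := rfl

@[simp] theorem coe_toFixedSubfield (B : Subalgebra A F) (b : fixedAlg Γ B) :
    ((toFixedSubfield B b : fixedSubfield Γ) : F) = (b : F) := rfl

theorem toFixedSubfield_injective (B : Subalgebra A F) :
    Function.Injective (toFixedSubfield (Γ := Γ) B) := fun _ _ hab =>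
  Subtype.ext (congrArg (fun z : fixedSubfield Γ => (z : F)) hab)

/-- `F^Γ` is the fraction field of `B^Γ` as soon as every fixed function has a denominator in
`B^Γ`. -/
theorem isFractionRing_of_denominators (B : Subalgebra A F)
    (hden : ∀ f : F, IsFixed Γ f → ∃ d b : F, d ≠ 0 ∧ d ∈ fixedAlg Γ B ∧ b ∈ fixedAlg Γ B ∧
      d * f = b) :
    letI := (toFixedSubfield (Γ := Γ) B).toAlgebra
    IsFractionRing (fixedAlg Γ B) (fixedSubfield Γ) := by
  letI := (toFixedSubfield (Γ := Γ) B).toAlgebra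
  haveI : FaithfulSMul (fixedAlg Γ B) (fixedSubfield Γ) := by
    rw [faithfulSMul_iff_algebraMap_injective]
    exact toFixedSubfield_injective B
  refine IsFractionRing.of_field (fixedAlg Γ B) (fixedSubfield Γ) fun z => ?_
  obtain ⟨d, b, hd0, hd, hb, hdb⟩ := hden (z : F) z.2
  refine ⟨⟨b, hb⟩, ⟨d, hd⟩, ?_⟩
  apply Subtype.ext
  show (z : F) = b / d
  rw [← hdb, mul_div_cancel_left₀ _ hd0]

end Frac

section CtxFrac

variable {K : Type*} [Field K] [IsAlgClosed K] [CharZero K] {A : ValuationSubring K}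
  {F : Type*} [Field F] [Algebra K F] {S : SmallRing F}
  {k : Type*} [Field k] [IsAlgClosed k] {E : Type*} [Field E] [Algebra k E]
  {R : RedSetup2 A S k (E × E)} {C : ChartCoord R} {p q : ℕ} {x : E} {Dt : Divisor K F}
  (h : Ctx R C p q x Dt) {Γ : Set (SemilinearAut K F)} (hG : CtxGal R C Γ)

include h hG in
/-- **`F_0 = F^Γ` is the fraction field of `B_0 = (B_∞)^Γ`.** -/
theorem isFractionRing_fixedBoo (hD : FixData2 R Γ)
    (hF : Submodule.span K {f : F | IsFixed Γ f} = ⊤) :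
    letI := (toFixedSubfield (Γ := Γ) (Fermat.Agent.S33x.H1.InstC4.BooAlg C)).toAlgebra
    IsFractionRing (fixedAlg Γ (Fermat.Agent.S33x.H1.InstC4.BooAlg C)) (fixedSubfield Γ) :=
  isFractionRing_of_denominators _ fun _ hf => exists_fixed_denominator h hG hD hF hf

end CtxFrac

end Fermat.Agent.S40x.Node.FixedFrac
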