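import Fermat.Agent.S40x.Node.NodeResMq

/-!
# P-S44, seam R1 → C3-CFE (helper16): the integral inertia-fixed constants lie in every local ring
`(B_0)_m` of the inertia-fixed chart ring

Input `hO0` of `R2/Asm/CfeModular.edge_H_modular_node` / `R2/Asm/NodeModular.c3_node_modular`
("`O_{K0} ⊆ R'`") reduces, through the compatibility `i : R →+* R'` of the étale lift, to the
DOWNSTAIRS statement proved here: every `c ∈ P ∩ K0` is (the image of) an element of the node ring.

* `coe_algebraMap_loc_const` (generic `NodeFrac` setting): the image in `F` of the constant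
  `c : fixedSubring Γ` through `B_0 → (B_0)_m → F^Γ` is `algebraMap K F c`;
* `exists_const_nodeF0` (concrete level `M q` over `Qbar`): for `c ∈ P` inertia-fixed there is
  `r` in the node ring `R_s` with `algebraMap R_s (F0 P (M q)) r = algebraMap (K0 P) (F0 P (M q)) c`;
  `exists_const_nodeF0_coe` : the same as an equality of functions in `FL Qbar (M q)`.
-/

set_option autoImplicit false
set_option linter.unusedSectionVars false
set_option linter.style.haveILetI false
set_option linter.unusedVariables false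

noncomputable section

namespace Fermat.Agent.S40x.Node.NodeConst

open AlgebraicCurve IsLocalRing Module
open Fermat.Agent.S34x Fermat.Agent.S34x.C0two Fermat.Agent.S34x.Lattice2
open Fermat.Agent.S19x.Geo.LatticeFixed (IsFixed IsFixedK)
open Fermat.Agent.S33x.H1.LatticeFixed2 Fermat.Agent.S33x.H1.FixedDecomp
open Fermat.Agent.S33x.W.InstW
open Fermat.Agent.S40x.Node.NodeInst

section Generic

variable {K : Type*} [Field K] {A : ValuationSubring K} {F : Type*} [Field F] [Algebra K F]
  {S : SmallRing F} {k κ₁ κ₂ : Type*} [Field k] [CommRing κ₁] [CommRing κ₂] [Algebra k κ₁]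
  [Algebra k κ₂] {R : RedSetup2 A S k (κ₁ × κ₂)} {C : ChartCoord R}
  {Γ : Set (SemilinearAut K F)}

/-- the constant `c : W = A^Γ` as a function. -/
theorem coe_algebraMap_B0_const (c : fixedSubring (A := A) Γ) :
    ((algebraMap (fixedSubring (A := A) Γ) (B0 C Γ) c : B0 C Γ) : F) =
      algebraMap K F (((c : A) : K)) := by
  show algebraMap (fixedSubring (A := A) Γ) F c = _
  rw [Algebra.algebraMap_eq_smul_one, fixedSubring_smul_eq, ← Algebra.algebraMap_eq_smul_one]

/-- the image in `F` of a constant through `B_0 → (B_0)_m → F^Γ`. -/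
theorem coe_algebraMap_loc_const (m : Ideal (B0 C Γ)) [m.IsPrime]
    (c : fixedSubring (A := A) Γ) :
    ((algebraMap (Localization.AtPrime m) (NodeFrac.fixedField Γ)
        (algebraMap (B0 C Γ) (Localization.AtPrime m)
          (algebraMap (fixedSubring (A := A) Γ) (B0 C Γ) c)) : NodeFrac.fixedField Γ) : F) =
      algebraMap K F (((c : A) : K)) := by
  rw [NodeFrac.algebraMap_loc_algebraMap, NodeFrac.coe_algebraMap_fixed, coe_algebraMap_B0_const]

end Generic

/-! ### The concrete level `M q` over `Qbar` -/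

section Concrete

open ModularCurve
open Fermat.Agent.Gateway.C0
open Fermat.Agent.S33x.Cech.CtxMq
open Fermat.Agent.Gateway.Hecke Fermat.Agent.Gateway.ESC
open Fermat.Agent.Gateway.Red Fermat.Agent.Gateway.GoodRed
open Fermat.Agent.Gateway.GoodRed.ConjFamily
open Fermat.Agent.S34x.TwoVal
open Fermat.Agent.S34x.Inst.L2 Fermat.Agent.S34x.Inst.IsL2Inst
open Fermat.Agent.S34x.Inst.RedSetupInst Fermat.Agent.S34x.Inst.ElementYRed
open Fermat.Agent.S34x.Inst.ElementYInt Fermat.Agent.S34x.Inst.Charts
open Fermat.Agent.S34x.Inst Fermat.Agent.S34x.Inst.TheoremBMq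
open Fermat.Agent.S33x.H1.FixData2Inst Fermat.Agent.S33x.H1.FixData2Final
open Fermat.Agent.S40x.Node.Vocab Fermat.Agent.S40x.Node.FixedQb
open Fermat.Agent.S40x.Node.NodeResMq

attribute [-instance] IsScalarTower.of_algHom

local notation "Qbar" => AlgebraicClosure ℚ

variable {P : ValuationSubring Qbar} {k : Type} [Field k] {π : P →+* k} [IsAlgClosed k]
variable {M q : ℕ} [NeZero M] [NeZero q] [Fact q.Prime] [CharP k q]
variable {hdeg : finrankAlong Qbar (heckeAlphaBar Qbar M q) = q + 1} {hq : q.Prime}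
  {hqM : ¬ q ∣ M}
variable {hrk : ∀ x ∈ maximalIdeal P, ∀ c : P, c ≠ 0 → ∃ j : ℕ, c ∣ x ^ j}
  {hπ : Function.Surjective π}
variable (H : ResidueFacts P π M q hdeg hq hqM hrk hπ) (hA : P.LiesOverPrime q)

set_option synthInstance.maxHeartbeats 200000

/-- an integral inertia-fixed constant as an element of `W₀ = P^I`. -/
def constW {c : Qbar} (hcP : c ∈ P) (hcK : c ∈ K0 P) (N : ℕ) :
    fixedSubring (A := P) (inertiaAct P N) :=
  ⟨⟨c, hcP⟩, (isFixedK_inertiaAct_iff P N).2 hcK⟩

/-- **the integral inertia-fixed constants lie in the node ring** (as functions). -/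
theorem exists_const_nodeF0_coe (C : ChartCoord (redSetup2 H hA)) (hL2 : C.IsL2)
    (s : Goursat.Nodes C.BbarT hL2.h2) {c : Qbar} (hcP : c ∈ P) (hcK : c ∈ K0 P) :
    letI := algebraNodeF0 H hA C hL2 s
    ∃ r : Localization.AtPrime (nodeIdeal (Γ := inertiaAct P (M * q)) hL2 s),
      ((algebraMap (Localization.AtPrime (nodeIdeal (Γ := inertiaAct P (M * q)) hL2 s))
        (F0 P (M * q)) r : F0 P (M * q)) : FL Qbar (M * q)) =
        algebraMap Qbar (FL Qbar (M * q)) c := by
  letI := algebraNodeF0 H hA C hL2 s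
  refine ⟨algebraMap (B0 C (inertiaAct P (M * q))) _
    (algebraMap (fixedSubring (A := P) (inertiaAct P (M * q))) (B0 C (inertiaAct P (M * q)))
      (constW hcP hcK (M * q))), ?_⟩
  rw [algebraMap_nodeF0_coe, coe_algebraMap_B0_const]
  rfl

/-- the same as an equality in `F0 P (M q)`, with the `K0`-algebra structure of `Node/Vocab`. -/
theorem exists_const_nodeF0 (C : ChartCoord (redSetup2 H hA)) (hL2 : C.IsL2)
    (s : Goursat.Nodes C.BbarT hL2.h2) {c : Qbar} (hcP : c ∈ P) (hcK : c ∈ K0 P) :
    letI := algebraNodeF0 H hA C hL2 s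
    ∃ r : Localization.AtPrime (nodeIdeal (Γ := inertiaAct P (M * q)) hL2 s),
      algebraMap (Localization.AtPrime (nodeIdeal (Γ := inertiaAct P (M * q)) hL2 s))
        (F0 P (M * q)) r = algebraMap (K0 P) (F0 P (M * q)) ⟨c, hcK⟩ := by
  letI := algebraNodeF0 H hA C hL2 s
  obtain ⟨r, hr⟩ := exists_const_nodeF0_coe H hA C hL2 s hcP hcK
  exact ⟨r, Subtype.ext hr⟩

end Concrete

end Fermat.Agent.S40x.Node.NodeConst
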