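import Fermat.Agent.S33x.W.InstW
import Fermat.Agent.S34x.Lattice2.L2

/-!
# P-S44, block R1 / N-alpha, leaf N2 (instance half, semi-abstract): the chart ring `B_0` over
`W = A^Γ`, its reduction onto the glue ring and the node ideals (helper50)

Setting = the abstract two-component setting of `S34x/Lattice2` (`R : RedSetup2 A S k (κ₁ × κ₂)`,
`C : ChartCoord R`, chart `t ≠ ∞`) with a set `Γ` of semilinear automorphisms (`FixData2 R Γ`).

* `B0 C Γ := InstW.fixedAlg Γ (InstC4.BooAlg C)` : the `Γ`-fixed part of the chart ring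
  `B∞ = ⋃_b L(b C∞) ∩ O`, a `W`-algebra (`W = FixedDecomp.fixedSubring Γ`), a domain;
* `rho C Γ : B0 C Γ →+* C.B₁ × C.B₂` : the reduction, with values in the glue ring `C.BbarT`
  (`rho_mem_BbarT`); `rho1`, `rho2` its components;
* `rho_surjective_BbarT` : every element of `C.BbarT` is the reduction of an element of `B_0`
  (from the fixed lifts `hlift`, = `LatticeFixed2.exists_fixed_lift2`);
  `rho1_surjective`, `rho2_surjective` under (L2);
* `exists_eq_unif_mul_of_rho_eq_zero` : **(ker)** `rho x = 0 → x = ϖ * y` in `B_0`, `ϖ` the fixed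
  uniformiser; `natCast` form;
* nodes: for `s : Goursat.Nodes C.BbarT hL2.h2` the characters `chi1 s`, `chi2 s` of `C.B₁`, `C.B₂`,
  `chi1_rho1_eq` (glueing), `nodeIdeal s : Ideal (B0 C Γ)` (prime, contains `ϖ`),
  `exists_bump` (an element of `B_0` which is `1` at `s` and `0` at the other nodes),
  **`hnode`** / **`hnode'`** : the hypothesis (hnode) of `Node/NodeLocal` (helper5):
  `∀ b ∈ nodeIdeal s, ∃ c ∉ nodeIdeal s, ∃ z, rho2 z = 0 ∧ rho1 z = rho1 (c * b)`.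
-/

set_option autoImplicit false
set_option linter.unusedSectionVars false
set_option linter.style.haveILetI false

noncomputable section

namespace Fermat.Agent.S40x.Node.NodeInst

open AlgebraicCurve IsLocalRing Module
open Fermat.Agent.S34x Fermat.Agent.S34x.C0two Fermat.Agent.S34x.Lattice2
open Fermat.Agent.S19x.Geo.LatticeFixed
open Fermat.Agent.S33x.H1.LatticeFixed2 Fermat.Agent.S33x.H1.FixedDecomp
open Fermat.Agent.S33x.H1 Fermat.Agent.S33x.H1.InstC1 Fermat.Agent.S33x.W.InstW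

variable {K : Type*} [Field K] {A : ValuationSubring K} {F : Type*} [Field F] [Algebra K F]
  {S : SmallRing F} {k κ₁ κ₂ : Type*} [Field k] [CommRing κ₁] [CommRing κ₂] [Algebra k κ₁]
  [Algebra k κ₂] {R : RedSetup2 A S k (κ₁ × κ₂)} (C : ChartCoord R)
  (Γ : Set (SemilinearAut K F))

/-! ### The chart ring `B_0` -/

/-- **The chart ring `B_0`** of the chart `t ≠ ∞` over `W = A^Γ`: the `Γ`-fixed elements of
`B∞ = ⋃_b L(b C∞) ∩ O`. -/
abbrev B0 : Subalgebra (fixedSubring (A := A) Γ) F := fixedAlg Γ (InstC4.BooAlg C)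

variable {C Γ}

theorem mem_B0_iff {x : F} : x ∈ B0 C Γ ↔ (∃ b, x ∈ Lam C 0 b) ∧ IsFixed Γ x := by
  rw [mem_fixedAlg, InstC4.mem_BooAlg]

theorem coe_mem_O (x : B0 C Γ) : (x : F) ∈ S.O := by
  obtain ⟨⟨b, hb⟩, -⟩ := mem_B0_iff.mp x.2
  exact hb.2

theorem coe_isFixed (x : B0 C Γ) : IsFixed Γ (x : F) := (mem_B0_iff.mp x.2).2

theorem exists_mem_LN (x : B0 C Γ) : ∃ b, (x : F) ∈ C.LN 0 b := by
  obtain ⟨⟨b, hb⟩, -⟩ := mem_B0_iff.mp x.2
  exact ⟨b, hb.1⟩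

theorem mem_B0_of_mem {x : F} {b : ℕ} (hxL : x ∈ C.LN 0 b) (hxO : x ∈ S.O) (hfix : IsFixed Γ x) :
    x ∈ B0 C Γ :=
  mem_B0_iff.mpr ⟨⟨b, hxL, hxO⟩, hfix⟩

variable (C Γ)

/-- the inclusion `B_0 → S.O`. -/
def toO : B0 C Γ →+* S.O where
  toFun x := ⟨(x : F), coe_mem_O x⟩
  map_one' := rfl
  map_mul' _ _ := rfl
  map_zero' := rfl
  map_add' _ _ := rfl

/-- the reduction `B_0 → κ₁ × κ₂`. -/
def resB : B0 C Γ →+* κ₁ × κ₂ := R.res.comp (toO C Γ)

variable {C Γ}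

theorem resB_apply (x : B0 C Γ) : resB C Γ x = R.res ⟨(x : F), coe_mem_O x⟩ := rfl

theorem resB_mem_Bbar (x : B0 C Γ) : resB C Γ x ∈ C.Bbar := by
  obtain ⟨b, hb⟩ := exists_mem_LN x
  exact C.res_mem_Bbar (coe_mem_O x) hb

theorem resB_fst_mem (x : B0 C Γ) : (resB C Γ x).1 ∈ C.B₁ :=
  (C.mem_Btilde_iff_prod.mp (C.Bbar_le_Btilde (resB_mem_Bbar x))).1

theorem resB_snd_mem (x : B0 C Γ) : (resB C Γ x).2 ∈ C.B₂ :=
  (C.mem_Btilde_iff_prod.mp (C.Bbar_le_Btilde (resB_mem_Bbar x))).2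

variable (C Γ)

/-- the reduction to the first component `B_0 → B₁`. -/
def rho1 : B0 C Γ →+* C.B₁ :=
  ((RingHom.fst κ₁ κ₂).comp (resB C Γ)).codRestrict C.B₁ fun x => resB_fst_mem x

/-- the reduction to the second component `B_0 → B₂`. -/
def rho2 : B0 C Γ →+* C.B₂ :=
  ((RingHom.snd κ₁ κ₂).comp (resB C Γ)).codRestrict C.B₂ fun x => resB_snd_mem x

/-- **the reduction** `B_0 → B₁ × B₂`. -/
def rho : B0 C Γ →+* C.B₁ × C.B₂ := (rho1 C Γ).prod (rho2 C Γ)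

variable {C Γ}

@[simp] theorem rho_fst (x : B0 C Γ) : (rho C Γ x).1 = rho1 C Γ x := rfl

@[simp] theorem rho_snd (x : B0 C Γ) : (rho C Γ x).2 = rho2 C Γ x := rfl

theorem coe_rho1 (x : B0 C Γ) : ((rho1 C Γ x : C.B₁) : κ₁) = (resB C Γ x).1 := rfl

theorem coe_rho2 (x : B0 C Γ) : ((rho2 C Γ x : C.B₂) : κ₂) = (resB C Γ x).2 := rfl

theorem incl_rho (x : B0 C Γ) : C.incl (rho C Γ x) = resB C Γ x := rfl

/-- the reduction takes its values in the glue ring. -/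
theorem rho_mem_BbarT (x : B0 C Γ) : rho C Γ x ∈ C.BbarT := by
  rw [ChartCoord.mem_BbarT_iff, incl_rho]
  exact resB_mem_Bbar x

theorem rho_eq_zero_iff (x : B0 C Γ) : rho C Γ x = 0 ↔ resB C Γ x = 0 := by
  rw [← incl_rho, map_eq_zero_iff _ C.incl_injective]

theorem rho_eq_zero_iff' (x : B0 C Γ) : rho C Γ x = 0 ↔ rho1 C Γ x = 0 ∧ rho2 C Γ x = 0 := by
  rw [Prod.ext_iff]
  rfl

/-! ### Surjectivity onto the glue ring -/

section Surj

variable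
  (hlift : ∀ (b : ℕ) (y : κ₁ × κ₂), y ∈ R.redLat (C.LN 0 b) →
    ∃ (f : F) (hf : f ∈ S.O), f ∈ C.LN 0 b ∧ IsFixed Γ f ∧ R.res ⟨f, hf⟩ = y)

include hlift in
/-- **every element of the glue ring is the reduction of an element of `B_0`.** -/
theorem rho_surjective_BbarT {z : C.B₁ × C.B₂} (hz : z ∈ C.BbarT) : ∃ x : B0 C Γ, rho C Γ x = z := by
  obtain ⟨b, hb⟩ := (ChartCoord.mem_BbarT_iff C).mp hz
  obtain ⟨f, hfO, hfL, hffix, hfres⟩ := hlift b _ hb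
  refine ⟨⟨f, mem_B0_of_mem hfL hfO hffix⟩, ?_⟩
  apply C.incl_injective
  rw [incl_rho]
  exact hfres

include hlift in
theorem rho1_surjective (hL2 : C.IsL2) : Function.Surjective (rho1 C Γ) := by
  intro f
  obtain ⟨g, hg⟩ := hL2.h1 f
  obtain ⟨x, hx⟩ := rho_surjective_BbarT hlift hg
  exact ⟨x, by rw [← rho_fst, hx]⟩

include hlift in
theorem rho2_surjective (hL2 : C.IsL2) : Function.Surjective (rho2 C Γ) := by
  intro g
  obtain ⟨f, hf⟩ := hL2.h2 g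
  obtain ⟨x, hx⟩ := rho_surjective_BbarT hlift hf
  exact ⟨x, by rw [← rho_snd, hx]⟩

end Surj

/-- the hypothesis `hlift` from `FixData2`, the cartesian property, finite dimensionality,
stability of the spaces `L(b C∞)` under `Γ` and `hF`. -/
theorem hlift_of_fixData (hD : FixData2 R Γ)
    (hF : Submodule.span K {f : F | IsFixed Γ f} = ⊤)
    [∀ b, FiniteDimensional K (C.LN 0 b)]
    (hcart : ∀ b, (R.lat (C.LN 0 b)).FG)
    (hstab : ∀ b, ∀ s ∈ Γ, ∀ f ∈ C.LN 0 b, s • f ∈ C.LN 0 b)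
    (b : ℕ) (y : κ₁ × κ₂) (hy : y ∈ R.redLat (C.LN 0 b)) :
    ∃ (f : F) (hf : f ∈ S.O), f ∈ C.LN 0 b ∧ IsFixed Γ f ∧ R.res ⟨f, hf⟩ = y := by
  obtain ⟨e, he⟩ := exists_fixedFrame2_of_stable hD hF (C.LN 0 b) (hcart b) (hstab b)
  exact he.exists_fixed_lift hD hy

/-! ### The kernel of the reduction -/

section Ker

variable (hD : FixData2 R Γ) {ϖ : A} (hϖfix : IsFixedK Γ (ϖ : K)) (hϖ0 : ϖ ≠ 0)
  (hϖ : ∀ c : A, IsFixedK Γ (c : K) → c ∈ maximalIdeal A → ϖ ∣ c)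

/-- the fixed uniformiser as an element of `B_0`. -/
def unifB {ϖ : A} (hϖfix : IsFixedK Γ (ϖ : K)) : B0 C Γ :=
  algebraMap (fixedSubring (A := A) Γ) (B0 C Γ) ⟨ϖ, hϖfix⟩

theorem coe_unifB : ((unifB (C := C) hϖfix : B0 C Γ) : F) = algebraMap K F (ϖ : K) := rfl

include hD hϖ0 hϖ in
/-- **(ker)**: an element of `B_0` with zero reduction is `ϖ` times an element of `B_0`. -/
theorem exists_eq_unif_mul_of_rho_eq_zero {x : B0 C Γ} (hx : rho C Γ x = 0) :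
    ∃ y : B0 C Γ, x = unifB hϖfix * y := by
  obtain ⟨b, hb⟩ := exists_mem_LN x
  have hres : R.res ⟨(x : F), coe_mem_O x⟩ = 0 := (rho_eq_zero_iff x).mp hx
  obtain ⟨g, hgL, hgO, hgfix, hg⟩ :=
    hD.exists_eq_unif_smul_mem hϖfix hϖ0 hϖ (C.LN 0 b) hb (coe_mem_O x) (coe_isFixed x) hres
  refine ⟨⟨g, mem_B0_of_mem hgL hgO hgfix⟩, Subtype.ext ?_⟩
  rw [hg, Algebra.smul_def]
  rfl

include hD hϖ0 hϖ in
/-- (ker), in the form of `Node/NodeLocal`. -/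
theorem unif_dvd_of_rho_eq_zero {x : B0 C Γ} (h1 : rho1 C Γ x = 0) (h2 : rho2 C Γ x = 0) :
    unifB hϖfix ∣ x := by
  obtain ⟨y, hy⟩ :=
    exists_eq_unif_mul_of_rho_eq_zero hD hϖfix hϖ0 hϖ ((rho_eq_zero_iff' x).mpr ⟨h1, h2⟩)
  exact ⟨y, hy⟩

include hϖ0 in
theorem unifB_ne_zero : (unifB (C := C) hϖfix : B0 C Γ) ≠ 0 := by
  intro h
  have h1 := congrArg (fun z : B0 C Γ => (z : F)) h
  simp only [coe_unifB, ZeroMemClass.coe_zero] at h1
  have h2 : (ϖ : K) = 0 := (map_eq_zero_iff _ (algebraMap K F).injective).mp h1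
  exact hϖ0 (Subtype.ext h2)

/-- the uniformiser reduces to `0` when it lies in the maximal ideal. -/
theorem rho_unifB (hϖm : ϖ ∈ maximalIdeal A) : rho C Γ (unifB hϖfix) = 0 := by
  rw [rho_eq_zero_iff, resB_apply]
  have h : R.res ⟨algebraMap K F (ϖ : K), R.algebraMap_mem ϖ⟩ = 0 := by
    rw [R.res_algebraMap, (R.π_eq_zero_iff ϖ).mpr hϖm, map_zero]
  exact h

end Ker

/-! ### Nodes -/

section Nodes

variable [IsAlgClosed k] (hL2 : C.IsL2)

/-- the character of `B₁` at the first branch of the node `s`. -/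
def chi1 (s : Goursat.Nodes C.BbarT hL2.h2) : C.B₁ →ₐ[k] k :=
  s.comp (Goursat.φ C.BbarT hL2.h1 hL2.h2)

/-- the character of `B₂` at the second branch of the node `s`. -/
def chi2 (s : Goursat.Nodes C.BbarT hL2.h2) : C.B₂ →ₐ[k] k :=
  s.comp (Goursat.ψ C.BbarT hL2.h2)

theorem chi1_eq_ev (s : Goursat.Nodes C.BbarT hL2.h2) (z : C.B₁ × C.B₂) :
    chi1 hL2 s z.1 = Goursat.ev C.BbarT hL2.h1 hL2.h2 s z := rfl

theorem chi2_eq_ev' (s : Goursat.Nodes C.BbarT hL2.h2) (z : C.B₁ × C.B₂) :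
    chi2 hL2 s z.2 = Goursat.ev' C.BbarT hL2.h2 s z := rfl

/-- the two branches are glued: on the glue ring the two characters agree. -/
theorem chi1_eq_chi2_of_mem (s : Goursat.Nodes C.BbarT hL2.h2) {z : C.B₁ × C.B₂}
    (hz : z ∈ C.BbarT) : chi1 hL2 s z.1 = chi2 hL2 s z.2 := by
  show s (Goursat.φ C.BbarT hL2.h1 hL2.h2 z.1) = s (Goursat.ψ C.BbarT hL2.h2 z.2)
  rw [(Goursat.mem_iff C.BbarT hL2.h1 hL2.h2 z).mp hz]

theorem chi1_rho1_eq (s : Goursat.Nodes C.BbarT hL2.h2) (x : B0 C Γ) :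
    chi1 hL2 s (rho1 C Γ x) = chi2 hL2 s (rho2 C Γ x) := by
  have h := chi1_eq_chi2_of_mem hL2 s (rho_mem_BbarT x)
  rw [rho_fst, rho_snd] at h
  exact h

/-- **the node ideal** of `B_0`: the functions vanishing at the node `s`. -/
def nodeIdeal (s : Goursat.Nodes C.BbarT hL2.h2) : Ideal (B0 C Γ) :=
  RingHom.ker ((chi1 hL2 s).toRingHom.comp (rho1 C Γ))

theorem mem_nodeIdeal_iff (s : Goursat.Nodes C.BbarT hL2.h2) (x : B0 C Γ) :
    x ∈ nodeIdeal (Γ := Γ) hL2 s ↔ chi1 hL2 s (rho1 C Γ x) = 0 := Iff.rfl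

theorem mem_nodeIdeal_iff' (s : Goursat.Nodes C.BbarT hL2.h2) (x : B0 C Γ) :
    x ∈ nodeIdeal (Γ := Γ) hL2 s ↔ chi2 hL2 s (rho2 C Γ x) = 0 := by
  rw [mem_nodeIdeal_iff, chi1_rho1_eq]

theorem nodeIdeal_eq_comap1 (s : Goursat.Nodes C.BbarT hL2.h2) :
    nodeIdeal (Γ := Γ) hL2 s = Ideal.comap (rho1 C Γ) (RingHom.ker (chi1 hL2 s)) := by
  ext x
  rw [Ideal.mem_comap, RingHom.mem_ker, mem_nodeIdeal_iff]

theorem nodeIdeal_eq_comap2 (s : Goursat.Nodes C.BbarT hL2.h2) :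
    nodeIdeal (Γ := Γ) hL2 s = Ideal.comap (rho2 C Γ) (RingHom.ker (chi2 hL2 s)) := by
  ext x
  rw [Ideal.mem_comap, RingHom.mem_ker, mem_nodeIdeal_iff']

instance nodeIdeal_isPrime (s : Goursat.Nodes C.BbarT hL2.h2) :
    (nodeIdeal (Γ := Γ) hL2 s).IsPrime :=
  RingHom.ker_isPrime _

theorem rho_mem_of_eq_zero {x : B0 C Γ} (hx : rho C Γ x = 0) (s : Goursat.Nodes C.BbarT hL2.h2) :
    x ∈ nodeIdeal (Γ := Γ) hL2 s := by
  rw [mem_nodeIdeal_iff, ← rho_fst, hx]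
  exact map_zero _

variable [Module.Finite k ((C.B₁ × C.B₂) ⧸ Subalgebra.toSubmodule C.BbarT)]
  [IsReduced (Goursat.R C.BbarT hL2.h2)]
  (hlift : ∀ (b : ℕ) (y : κ₁ × κ₂), y ∈ R.redLat (C.LN 0 b) →
    ∃ (f : F) (hf : f ∈ S.O), f ∈ C.LN 0 b ∧ IsFixed Γ f ∧ R.res ⟨f, hf⟩ = y)

/-- the bump of the glue ring at the node `s`: `1` at both branches of `s`, `0` at the branches of
the other nodes. -/
theorem exists_bump_BbarT (s : Goursat.Nodes C.BbarT hL2.h2) :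
    ∃ e ∈ C.BbarT, chi1 hL2 s e.1 = 1 ∧
      ∀ t : Goursat.Nodes C.BbarT hL2.h2, t ≠ s → chi1 hL2 t e.1 = 0 := by
  set D := Goursat.nodeData C.BbarT hL2.h1 hL2.h2 with hD
  refine ⟨D.e s, ?_, ?_, ?_⟩
  · have := D.e_mem_B s
    rwa [Goursat.nodeData_B] at this
  · have := D.ev_e_self s
    rwa [hD, Goursat.nodeData_ev] at this
  · intro t ht
    have := D.ev_e_ne s t ht
    rwa [hD, Goursat.nodeData_ev] at this

include hlift in
/-- a bump at `s` in `B_0`. -/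
theorem exists_bump (s : Goursat.Nodes C.BbarT hL2.h2) :
    ∃ c : B0 C Γ, chi1 hL2 s (rho1 C Γ c) = 1 ∧
      ∀ t : Goursat.Nodes C.BbarT hL2.h2, t ≠ s → chi1 hL2 t (rho1 C Γ c) = 0 := by
  obtain ⟨e, he, h1, h2⟩ := exists_bump_BbarT hL2 s
  obtain ⟨c, hc⟩ := rho_surjective_BbarT hlift he
  refine ⟨c, ?_, ?_⟩
  · rw [← rho_fst, hc]; exact h1
  · intro t ht
    rw [← rho_fst, hc]; exact h2 t ht

include hlift in
/-- **(hnode)**: locally at the node `s`, the ideal `I₁ = {f | (f, 0) ∈ B̄}` is the maximal ideal of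
`B₁` at `s`: for `b` in the node ideal there are `c` outside the node ideal and `z ∈ B_0` with
`rho2 z = 0` and `rho1 z = rho1 (c * b)`. -/
theorem hnode (s : Goursat.Nodes C.BbarT hL2.h2) {b : B0 C Γ}
    (hb : b ∈ nodeIdeal (Γ := Γ) hL2 s) :
    ∃ c : B0 C Γ, c ∉ nodeIdeal (Γ := Γ) hL2 s ∧
      ∃ z : B0 C Γ, rho2 C Γ z = 0 ∧ rho1 C Γ z = rho1 C Γ (c * b) := by
  obtain ⟨c, hc1, hc2⟩ := exists_bump hL2 hlift s
  refine ⟨c, ?_, ?_⟩
  · rw [mem_nodeIdeal_iff, hc1]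
    exact one_ne_zero
  · have hmem : ((rho1 C Γ (c * b) : C.B₁), (0 : C.B₂)) ∈ C.BbarT := by
      rw [Goursat.mem_iff_forall_ev_eq C.BbarT hL2.h1 hL2.h2]
      intro t
      rw [← chi1_eq_ev, ← chi2_eq_ev']
      show chi1 hL2 t (rho1 C Γ (c * b)) = chi2 hL2 t 0
      rw [map_zero, map_mul, map_mul]
      by_cases hts : t = s
      · subst hts
        rw [(mem_nodeIdeal_iff hL2 t b).mp hb, mul_zero]
      · rw [hc2 t hts, zero_mul]
    obtain ⟨z, hz⟩ := rho_surjective_BbarT hlift hmem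
    refine ⟨z, ?_, ?_⟩
    · rw [← rho_snd, hz]
    · rw [← rho_fst, hz]

end Nodes

end Fermat.Agent.S40x.Node.NodeInst

end
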