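import Fermat.Agent.S40x.Node.NodeDatum
import Fermat.Agent.S40x.Node.NodeInst
import Fermat.Agent.S40x.Node.NodeLocal
import Fermat.Agent.S40x.Node.FixedNoeth

/-!
# P-S44, block R1 / N-alpha: assembly of the node ring `R_s` (helper50)

`R_s := Localization.AtPrime (nodeIdeal hL2 s)`, the localisation of the chart ring
`B_0 = fixedAlg Γ (BooAlg C)` (`Node/NodeInst`) at the node ideal of a node `s` of the glue ring.

* `hnode'` : the mirrored hypothesis (hnode) of `Node/NodeLocal`;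
* `isNodeRing_of` : **(N-OUT)** `IsNodeRing R_s p u u'` in the abstract two-component setting, from
  `NodeLocal.node_datum` (helper5): hypotheses = Noetherianity of `B_0` (N1), the fixed lifts, the
  fixed uniformiser `p`, reducedness and finiteness of the glue ring, and the THICKNESS data
  `u u' Ψ : B_0`, `u u' = p Ψ`, `rho1 u = 0`, `rho2 u' = 0`, `Ψ ∉ nodeIdeal s`, `rho1 u' ≠ 0`;
  together with the reduction maps `r1 : R_s → (B₁)_{m₁}`, `r2 : R_s → (B₂)_{m₂}` (surjective, kernels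
  `(u)`, `(u')`, targets principal ideal rings with maximal ideals `(r1 u')`, `(r2 u)`) and the UFD
  property;
* `Ctx` section: all the structural hypotheses are discharged inside the context bundle
  `Cech.CtxMq.Ctx R C p q x Dt` + `CtxGal R C Γ` + `FixData2 R Γ` + `hF`
  (`finite_quotient`, `isReduced_R`, `hlift`, Noetherianity by `FixedNoeth`), leaving only
  the uniformiser hypothesis `hp` and the thickness data: `isNodeRing`.
-/

set_option autoImplicit false
set_option linter.unusedSectionVars false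
set_option linter.style.haveILetI false

noncomputable section

namespace Fermat.Agent.S40x.Node.NodeRing

open AlgebraicCurve IsLocalRing Module
open Fermat.Agent.S34x Fermat.Agent.S34x.C0two Fermat.Agent.S34x.Lattice2
open Fermat.Agent.S19x.Geo.LatticeFixed (IsFixed IsFixedK)
open Fermat.Agent.S33x.H1.LatticeFixed2 Fermat.Agent.S33x.H1.FixedDecomp
open Fermat.Agent.S33x.W.InstW
open Fermat.Agent.S40x.Node.NodeInst

section Abstract

variable {K : Type*} [Field K] {A : ValuationSubring K} {F : Type*} [Field F] [Algebra K F]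
  {S : SmallRing F} {k κ₁ κ₂ : Type*} [Field k] [Field κ₁] [Field κ₂] [Algebra k κ₁]
  [Algebra k κ₂] {R : RedSetup2 A S k (κ₁ × κ₂)} {C : ChartCoord R}
  {Γ : Set (SemilinearAut K F)}

variable [IsAlgClosed k] (hL2 : C.IsL2)
  [Module.Finite k ((C.B₁ × C.B₂) ⧸ Subalgebra.toSubmodule C.BbarT)]
  [IsReduced (Goursat.R C.BbarT hL2.h2)]
  (hlift : ∀ (b : ℕ) (y : κ₁ × κ₂), y ∈ R.redLat (C.LN 0 b) →
    ∃ (f : F) (hf : f ∈ S.O), f ∈ C.LN 0 b ∧ IsFixed Γ f ∧ R.res ⟨f, hf⟩ = y)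

include hlift in
/-- **(hnode')**, the mirror of `NodeInst.hnode`. -/
theorem hnode' (s : Goursat.Nodes C.BbarT hL2.h2) {b : B0 C Γ}
    (hb : b ∈ nodeIdeal (Γ := Γ) hL2 s) :
    ∃ c : B0 C Γ, c ∉ nodeIdeal (Γ := Γ) hL2 s ∧
      ∃ z : B0 C Γ, rho1 C Γ z = 0 ∧ rho2 C Γ z = rho2 C Γ (c * b) := by
  obtain ⟨c, hc1, hc2⟩ := exists_bump hL2 hlift s
  refine ⟨c, ?_, ?_⟩
  · rw [mem_nodeIdeal_iff, hc1]
    exact one_ne_zero
  · have hmem : ((0 : C.B₁), (rho2 C Γ (c * b) : C.B₂)) ∈ C.BbarT := by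
      rw [Goursat.mem_iff_forall_ev_eq C.BbarT hL2.h1 hL2.h2]
      intro t
      rw [← chi1_eq_ev, ← chi2_eq_ev']
      show chi1 hL2 t 0 = chi2 hL2 t (rho2 C Γ (c * b))
      rw [map_zero, ← chi1_rho1_eq, map_mul, map_mul]
      by_cases hts : t = s
      · subst hts
        rw [(mem_nodeIdeal_iff hL2 t b).mp hb, mul_zero]
      · rw [hc2 t hts, zero_mul]
    obtain ⟨z, hz⟩ := rho_surjective_BbarT hlift hmem
    refine ⟨z, ?_, ?_⟩
    · rw [← rho_fst, hz]
    · rw [← rho_snd, hz]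

instance ker_chi1_isPrime (s : Goursat.Nodes C.BbarT hL2.h2) :
    (RingHom.ker (chi1 hL2 s)).IsPrime := RingHom.ker_isPrime _

instance ker_chi2_isPrime (s : Goursat.Nodes C.BbarT hL2.h2) :
    (RingHom.ker (chi2 hL2 s)).IsPrime := RingHom.ker_isPrime _

variable (hD : FixData2 R Γ) {p : ℕ}
  (hpfix : IsFixedK Γ (((p : A) : A) : K)) (hp0 : ((p : ℕ) : A) ≠ 0)
  (hp : ∀ c : A, IsFixedK Γ (c : K) → c ∈ maximalIdeal A → ((p : ℕ) : A) ∣ c)

theorem unifB_natCast : (unifB (C := C) hpfix : B0 C Γ) = ((p : ℕ) : B0 C Γ) := by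
  apply Subtype.ext
  rw [coe_unifB]
  simp

include hlift hD hpfix hp0 hp in
/-- **(N-OUT) for the node ring `R_s = (B_0)_{m_s}`**, abstract two-component setting. -/
theorem isNodeRing_of [IsNoetherianRing (B0 C Γ)] (s : Goursat.Nodes C.BbarT hL2.h2)
    {u u' Ψ : B0 C Γ} (hrel : u * u' = ((p : ℕ) : B0 C Γ) * Ψ)
    (h1 : rho1 C Γ u = 0) (h2 : rho2 C Γ u' = 0)
    (hΨ : Ψ ∉ nodeIdeal (Γ := Γ) hL2 s) (hu' : rho1 C Γ u' ≠ 0) :
    haveI : IsDomain (Localization.AtPrime (nodeIdeal (Γ := Γ) hL2 s)) :=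
      IsLocalization.isDomain_of_atPrime _ (nodeIdeal (Γ := Γ) hL2 s)
    haveI : IsNoetherianRing (Localization.AtPrime (nodeIdeal (Γ := Γ) hL2 s)) :=
      IsLocalization.isNoetherianRing (nodeIdeal (Γ := Γ) hL2 s).primeCompl _ inferInstance
    IsNodeRing (Localization.AtPrime (nodeIdeal (Γ := Γ) hL2 s)) p
        (algebraMap (B0 C Γ) _ u) (algebraMap (B0 C Γ) _ u') ∧
      UniqueFactorizationMonoid (Localization.AtPrime (nodeIdeal (Γ := Γ) hL2 s)) ∧
      ∃ (r1 : Localization.AtPrime (nodeIdeal (Γ := Γ) hL2 s) →+*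
            Localization.AtPrime (RingHom.ker (chi1 hL2 s)))
        (r2 : Localization.AtPrime (nodeIdeal (Γ := Γ) hL2 s) →+*
            Localization.AtPrime (RingHom.ker (chi2 hL2 s))),
        (∀ b, r1 (algebraMap (B0 C Γ) _ b) = algebraMap C.B₁ _ (rho1 C Γ b)) ∧
        (∀ b, r2 (algebraMap (B0 C Γ) _ b) = algebraMap C.B₂ _ (rho2 C Γ b)) ∧
        Function.Surjective r1 ∧ Function.Surjective r2 ∧
        (∀ x, r1 x = 0 ↔ algebraMap (B0 C Γ) _ u ∣ x) ∧
        (∀ x, r2 x = 0 ↔ algebraMap (B0 C Γ) _ u' ∣ x) ∧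
        maximalIdeal (Localization.AtPrime (RingHom.ker (chi1 hL2 s))) =
          Ideal.span {r1 (algebraMap (B0 C Γ) _ u')} ∧
        maximalIdeal (Localization.AtPrime (RingHom.ker (chi2 hL2 s))) =
          Ideal.span {r2 (algebraMap (B0 C Γ) _ u)} ∧
        IsPrincipalIdealRing (Localization.AtPrime (RingHom.ker (chi1 hL2 s))) ∧
        IsPrincipalIdealRing (Localization.AtPrime (RingHom.ker (chi2 hL2 s))) := by
  set m := nodeIdeal (Γ := Γ) hL2 s with hm
  haveI : IsDomain (Localization.AtPrime m) := IsLocalization.isDomain_of_atPrime _ m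
  haveI : IsNoetherianRing (Localization.AtPrime m) :=
    IsLocalization.isNoetherianRing m.primeCompl _ inferInstance
  have hpB : ((p : ℕ) : B0 C Γ) ≠ 0 := by
    rw [← unifB_natCast hpfix]
    exact unifB_ne_zero hpfix hp0
  have hker : ∀ f : B0 C Γ, rho1 C Γ f = 0 → rho2 C Γ f = 0 → ((p : ℕ) : B0 C Γ) ∣ f := by
    intro f hf1 hf2
    rw [← unifB_natCast hpfix]
    exact unif_dvd_of_rho_eq_zero hD hpfix hp0 hp hf1 hf2
  obtain ⟨r1, r2, hr1, hr2, hs1, hs2, hk1, hk2, hufd, hpu, hpu', hΨu, hmax, hmax1, hmax2, hpid1,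
      hpid2⟩ :=
    NodeLocal.node_datum (rho1 C Γ) (rho2 C Γ) m (RingHom.ker (chi1 hL2 s))
      (RingHom.ker (chi2 hL2 s)) (rho1_surjective hlift hL2) (rho2_surjective hlift hL2)
      (nodeIdeal_eq_comap1 hL2 s).symm (nodeIdeal_eq_comap2 hL2 s).symm hpB hker hrel h1 h2 hΨ
      (fun b hb => hnode hL2 hlift s hb) (fun b hb => hnode' hL2 hlift s hb)
  refine ⟨⟨?_, hmax, hpu, hpu', ?_⟩, hufd, r1, r2, hr1, hr2, hs1, hs2, hk1, hk2, hmax1, hmax2,
    hpid1, hpid2⟩
  · refine ⟨hΨu.unit, ?_⟩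
    rw [IsUnit.unit_spec, ← map_mul, hrel, map_mul, map_natCast]
  · intro hass
    have hdvd : algebraMap (B0 C Γ) (Localization.AtPrime m) u ∣
        algebraMap (B0 C Γ) (Localization.AtPrime m) u' := hass.dvd
    have h0 := (hk1 _).mpr hdvd
    rw [hr1] at h0
    have hinj : Function.Injective
        (algebraMap C.B₁ (Localization.AtPrime (RingHom.ker (chi1 hL2 s)))) :=
      IsLocalization.injective _
        (Ideal.primeCompl_le_nonZeroDivisors (RingHom.ker (chi1 hL2 s)))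
    exact hu' (hinj (by rw [h0, map_zero]))

end Abstract

/-! ### Inside the context bundle -/

section Ctx

open Fermat.Agent.S33x.Cech.CtxMq Fermat.Agent.S33x.W.InstWCtx

variable {K : Type*} [Field K] [IsAlgClosed K] [CharZero K] {A : ValuationSubring K}
  {F : Type*} [Field F] [Algebra K F] {S : SmallRing F}
  {k : Type*} [Field k] [IsAlgClosed k] {E : Type*} [Field E] [Algebra k E]
  {R : RedSetup2 A S k (E × E)} {C : ChartCoord R} {p q : ℕ} {x : E} {Dt : Divisor K F}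
  (h : Ctx R C p q x Dt) {Γ : Set (SemilinearAut K F)} (hG : CtxGal R C Γ)

include h in
/-- the glue ring has finite codimension in `B₁ × B₂`. -/
theorem finite_quotient :
    Module.Finite k ((C.B₁ × C.B₂) ⧸ Subalgebra.toSubmodule C.BbarT) := by
  haveI := h.fin_t
  haveI : ∀ b, FiniteDimensional k (C.Pk 0 b) := fun b => h.finite_Pk 0 b
  obtain ⟨b₀, hgen⟩ := h.exists_hgen
  obtain ⟨δ, -, b₁, hdimS, -⟩ := h.exists_counts
  exact (finite_quotient_BbarT C h.ht h.hDt h.hcart hgen h.hL2 h.hL2₀ h.he h.he₀ δ b₁ hdimS).1.1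

include h in
/-- the glueing ring is reduced: all nodes are ordinary double points. -/
theorem isReduced_R : IsReduced (Goursat.R C.BbarT h.hL2.h2) := by
  haveI := finite_quotient h
  obtain ⟨r, hr, hN1⟩ := h.hN1
  exact Goursat.isReduced_R C.BbarT h.hL2.h1 h.hL2.h2 r hr hN1

include h hG in
/-- fixed lifts of the reductions. -/
theorem hlift (hD : FixData2 R Γ) (hF : Submodule.span K {f : F | IsFixed Γ f} = ⊤)
    (b : ℕ) (y : E × E) (hy : y ∈ R.redLat (C.LN 0 b)) :
    ∃ (f : F) (hf : f ∈ S.O), f ∈ C.LN 0 b ∧ IsFixed Γ f ∧ R.res ⟨f, hf⟩ = y := by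
  haveI : ∀ b, FiniteDimensional K (C.LN 0 b) := fun b => finite_LN h 0 b
  exact hlift_of_fixData hD hF (fun b => fg_lat_LN' h 0 b)
    (fun b => Fermat.Agent.S33x.H1.StableLN.stable_LN C hG.smul_t 0 b) b y hy

include h in
/-- `p` lies in the maximal ideal of `A`. -/
theorem natCast_mem_maximalIdeal : ((p : ℕ) : A) ∈ maximalIdeal A := by
  haveI := h.charP
  rw [← R.π_eq_zero_iff, map_natCast]
  exact CharP.cast_eq_zero k p

theorem isFixedK_natCast (n : ℕ) : IsFixedK Γ (((n : A) : A) : K) := by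
  intro s _
  simp

include h in
theorem natCast_ne_zero : ((p : ℕ) : A) ≠ 0 := by
  intro h0
  have h1 : ((p : ℕ) : K) = 0 := by
    have := congrArg (fun a : A => (a : K)) h0
    simpa using this
  exact h.hp.ne_zero (by exact_mod_cast h1)

include h hG in
/-- **(N-OUT) inside the context bundle**: the node ring `R_s = (B_0)_{m_s}` of a node `s` is a
node ring in the sense of `NodeDatum.IsNodeRing`, as soon as `p` is a uniformiser of `W = A^Γ`
(`hp`) and thickness data `u u' Ψ` are given. -/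
theorem isNodeRing (hD : FixData2 R Γ) (hF : Submodule.span K {f : F | IsFixed Γ f} = ⊤)
    (hp : ∀ c : A, IsFixedK Γ (c : K) → c ∈ maximalIdeal A → ((p : ℕ) : A) ∣ c)
    (s : Goursat.Nodes C.BbarT h.hL2.h2)
    {u u' Ψ : B0 C Γ} (hrel : u * u' = ((p : ℕ) : B0 C Γ) * Ψ)
    (h1 : rho1 C Γ u = 0) (h2 : rho2 C Γ u' = 0)
    (hΨ : Ψ ∉ nodeIdeal (Γ := Γ) h.hL2 s) (hu' : rho1 C Γ u' ≠ 0) :
    haveI : IsDomain (Localization.AtPrime (nodeIdeal (Γ := Γ) h.hL2 s)) :=
      IsLocalization.isDomain_of_atPrime _ (nodeIdeal (Γ := Γ) h.hL2 s)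
    haveI : IsNoetherianRing (B0 C Γ) := FixedNoeth.isNoetherianRing_fixedBoo' h hG hD hF
    haveI : IsNoetherianRing (Localization.AtPrime (nodeIdeal (Γ := Γ) h.hL2 s)) :=
      IsLocalization.isNoetherianRing (nodeIdeal (Γ := Γ) h.hL2 s).primeCompl _ inferInstance
    IsNodeRing (Localization.AtPrime (nodeIdeal (Γ := Γ) h.hL2 s)) p
        (algebraMap (B0 C Γ) _ u) (algebraMap (B0 C Γ) _ u') := by
  haveI := finite_quotient h
  haveI := isReduced_R h
  haveI : IsNoetherianRing (B0 C Γ) := FixedNoeth.isNoetherianRing_fixedBoo' h hG hD hF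
  exact (isNodeRing_of h.hL2 (hlift h hG hD hF) hD (isFixedK_natCast p) (natCast_ne_zero h) hp s
    hrel h1 h2 hΨ hu').1

end Ctx

end Fermat.Agent.S40x.Node.NodeRing

end
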