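import Fermat.Agent.S40x.Node.NodeInstQb
import Fermat.Agent.S40x.Node.NodeRing
import Fermat.Agent.S34x.TwoVal.NodeElt
import Fermat.Agent.S34x.Inst.HpthInst
import Fermat.Agent.Gateway.Hecke.Galois

/-!
# P-S44, block R1 / N, the `T`-independent half of the THICK-OUT seam (helper10)

Concrete level `M q` over `(Qbar, P)`, `R = redSetup2 H hA`, `C = TheoremBMq.chart H hA x hx Hx`
(chart `t = α t'`, `t' = tInt M x hx` with integer `q`-expansion `x`), `Γ = inertiaAct P (M q)`,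
`B_0 = NodeInst.B0 C Γ`.

* `uB`, `u'B : B0 C Γ` : the two node elements `β t' - (α t')^q` (`= TwoVal.nodeEltInf`) and
  `α t' - (β t')^q` (`= TwoVal.nodeEltZero`) as elements of the `Γ`-fixed chart ring
  (`coe_uB`, `coe_u'B` are `rfl`);
* `rho1_uB : rho1 C Γ uB = 0`, `rho2_u'B : rho2 C Γ u'B = 0`;
* `coe_rho1_u'B`, `coe_rho2_uB` : the other two reductions are `x̄ - x̄ ^ (q ^ 2)`,
  `x̄ = C.T.1 = resFk .. t'` (Laurent series `tbar k x`);
* `rho1_u'B_ne_zero`, `rho2_uB_ne_zero` : they do not vanish (`x̄` is transcendental).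
-/

set_option autoImplicit false
set_option linter.unusedSectionVars false
set_option linter.style.haveILetI false

noncomputable section

namespace Fermat.Agent.S40x.Node.NodeEltB0

open AlgebraicCurve IsLocalRing Module IntermediateField Polynomial
open Fermat.Agent.S34x Fermat.Agent.S34x.C0two Fermat.Agent.S34x.Lattice2
open Fermat.Agent.S19x.Geo.LatticeFixed (IsFixed IsFixedK)
open Fermat.Agent.S40x.Node.NodeInst
open ModularCurve
open Fermat.Agent.Gateway.Hecke Fermat.Agent.Gateway.ESC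
open Fermat.Agent.Gateway.Red Fermat.Agent.Gateway.GoodRed
open Fermat.Agent.Gateway.GoodRed.ConjFamily
open Fermat.Agent.S34x.TwoVal
open Fermat.Agent.S34x.Inst.L2 Fermat.Agent.S34x.Inst.IsL2Inst
open Fermat.Agent.S34x.Inst.RedSetupInst Fermat.Agent.S34x.Inst.ElementYRed
open Fermat.Agent.S34x.Inst.ElementYInt Fermat.Agent.S34x.Inst.Charts
open Fermat.Agent.S34x.Inst.TheoremBMq
open Fermat.Agent.S33x.H1.FixData2Inst Fermat.Agent.S33x.H1.FixData2Final

attribute [-instance] IsScalarTower.of_algHom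

local notation "Qb" => AlgebraicClosure ℚ

local instance isAlgebraicQb_nelt : Algebra.IsAlgebraic ℚ (AlgebraicClosure ℚ) :=
  AlgebraicClosure.isAlgebraic ℚ

/-! ### Generalities on fixed elements -/

section Fixed

variable {K : Type*} [Field K] {F : Type*} [Field F] [Algebra K F] {Γ : Set (SemilinearAut K F)}

theorem isFixed_mul {f g : F} (hf : IsFixed Γ f) (hg : IsFixed Γ g) : IsFixed Γ (f * g) :=
  fun s hs => by rw [smul_mul', hf s hs, hg s hs]

theorem isFixed_pow {f : F} (hf : IsFixed Γ f) (n : ℕ) : IsFixed Γ (f ^ n) :=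
  fun s hs => by rw [smul_pow', hf s hs]

end Fixed

/-! ### A transcendental element is not a root of `X - X ^ n` -/

theorem sub_pow_ne_zero_of_transcendental {k E : Type*} [Field k] [Field E] [Algebra k E] {y : E}
    (hy : Transcendental k y) {n : ℕ} (hn : 2 ≤ n) : y - y ^ n ≠ 0 := by
  intro h
  apply hy
  refine ⟨(X : k[X]) - X ^ n, ?_, ?_⟩
  · intro h0
    have h1 := congrArg (fun p : k[X] => p.coeff 1) h0
    simp only [coeff_sub, coeff_X_one, coeff_X_pow, coeff_zero] at h1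
    rw [if_neg (by omega), sub_zero] at h1
    exact one_ne_zero h1
  · rw [map_sub, map_pow, aeval_X]
    exact h

/-! ### The two functions `α t'`, `β t'` are inertia-fixed -/

section FixedAB

variable (P : ValuationSubring Qb) (M q : ℕ) [NeZero M] [NeZero q]
  (x : LaurentSeries ℤ) (hx : coeffMap (Int.castRingHom Qb) x ∈ FBar Qb M)

/-- `t'` is fixed by the whole arithmetic Galois action at level `M`. -/
theorem gal_smul_tInt (τ : Qb ≃ₐ[ℚ] Qb) :
    arithmeticGalois (modularFunctionFieldFull M) τ • (tInt M x hx : FL Qb M) = tInt M x hx := by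
  refine Fermat.Agent.S34x.Inst.SigmaGlue.arithmeticGalois_smul_eq_self
    (modularFunctionFieldFull M) τ (tInt M x hx) (coeffMap (Int.castRingHom ℚ) x) ?_
  rw [coe_tInt, coeffMap_coeffMap]
  exact coeffMap_congr (RingHom.ext fun n => by simp) x

theorem gal_smul_tA (τ : Qb ≃ₐ[ℚ] Qb) :
    arithmeticGalois (modularFunctionFieldFull (M * q)) τ • tA M q x hx = tA M q x hx := by
  rw [intertwines_alpha Qb M q τ (tInt M x hx), gal_smul_tInt]

theorem gal_smul_tB (τ : Qb ≃ₐ[ℚ] Qb) :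
    arithmeticGalois (modularFunctionFieldFull (M * q)) τ • tB M q x hx = tB M q x hx := by
  rw [intertwines_beta Qb M q τ (tInt M x hx), gal_smul_tInt]

theorem isFixed_tA : IsFixed (inertiaAct P (M * q)) (tA M q x hx) := by
  rintro _ ⟨τ, -, rfl⟩
  exact gal_smul_tA M q x hx τ

theorem isFixed_tB : IsFixed (inertiaAct P (M * q)) (tB M q x hx) := by
  rintro _ ⟨τ, -, rfl⟩
  exact gal_smul_tB M q x hx τ

theorem isFixed_nodeEltInf :
    IsFixed (inertiaAct P (M * q)) (nodeEltInf Qb M q (tInt M x hx) (tInt M x hx)) :=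
  (isFixed_tB P M q x hx).sub (isFixed_pow (isFixed_tA P M q x hx) q)

theorem isFixed_nodeEltZero :
    IsFixed (inertiaAct P (M * q)) (nodeEltZero Qb M q (tInt M x hx) (tInt M x hx)) :=
  (isFixed_tA P M q x hx).sub (isFixed_pow (isFixed_tB P M q x hx) q)

end FixedAB

/-! ### The `T`-independent inputs of `NodeRing.isNodeRing_of`, bundled -/

section Abstract

open Fermat.Agent.S33x.H1.LatticeFixed2

variable {K : Type*} [Field K] {A : ValuationSubring K} {F : Type*} [Field F] [Algebra K F]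
  {S : SmallRing F} {k κ₁ κ₂ : Type*} [Field k] [Field κ₁] [Field κ₂] [Algebra k κ₁]
  [Algebra k κ₂] {R : RedSetup2 A S k (κ₁ × κ₂)} [IsAlgClosed k]

/-- **All the inputs of `NodeRing.isNodeRing_of` which do not involve the thickness datum `Ψ`**:
(L2), finiteness and reducedness of the glueing ring, Noetherianity of `B_0`, the fixed lifts, the
fixed uniformiser `p` of `W = A^Γ`, and two elements `u`, `u'` of `B_0` with `rho1 u = 0`,
`rho2 u' = 0`, `rho1 u' ≠ 0`. -/
structure ThickIndep (C : ChartCoord R) (Γ : Set (SemilinearAut K F)) (p : ℕ) (u u' : B0 C Γ) :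
    Prop where
  hL2 : C.IsL2
  finite : Module.Finite k ((C.B₁ × C.B₂) ⧸ Subalgebra.toSubmodule C.BbarT)
  reduced : IsReduced (Goursat.R C.BbarT hL2.h2)
  noeth : IsNoetherianRing (B0 C Γ)
  hlift : ∀ (b : ℕ) (y : κ₁ × κ₂), y ∈ R.redLat (C.LN 0 b) →
    ∃ (f : F) (hf : f ∈ S.O), f ∈ C.LN 0 b ∧ IsFixed Γ f ∧ R.res ⟨f, hf⟩ = y
  hD : FixData2 R Γ
  hpfix : IsFixedK Γ (((p : A) : A) : K)
  hp0 : ((p : ℕ) : A) ≠ 0
  hp : ∀ c : A, IsFixedK Γ (c : K) → c ∈ maximalIdeal A → ((p : ℕ) : A) ∣ c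
  h1 : rho1 C Γ u = 0
  h2 : rho2 C Γ u' = 0
  hu' : rho1 C Γ u' ≠ 0

variable {C : ChartCoord R} {Γ : Set (SemilinearAut K F)} {p : ℕ} {u u' : B0 C Γ}

/-- **(N-OUT) from the bundle and the thickness datum**: one call of `NodeRing.isNodeRing_of`. -/
theorem ThickIndep.nodeRing_of_psi (h : ThickIndep C Γ p u u')
    (s : Goursat.Nodes C.BbarT h.hL2.h2) {Ψ : B0 C Γ}
    (hrel : u * u' = ((p : ℕ) : B0 C Γ) * Ψ)
    (hΨ : Ψ ∉ nodeIdeal (Γ := Γ) h.hL2 s) :
    haveI : IsDomain (Localization.AtPrime (nodeIdeal (Γ := Γ) h.hL2 s)) :=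
      IsLocalization.isDomain_of_atPrime _ (nodeIdeal (Γ := Γ) h.hL2 s)
    haveI : IsNoetherianRing (B0 C Γ) := h.noeth
    haveI : IsNoetherianRing (Localization.AtPrime (nodeIdeal (Γ := Γ) h.hL2 s)) :=
      IsLocalization.isNoetherianRing (nodeIdeal (Γ := Γ) h.hL2 s).primeCompl _ inferInstance
    Fermat.Agent.S40x.Node.IsNodeRing (Localization.AtPrime (nodeIdeal (Γ := Γ) h.hL2 s)) p
        (algebraMap (B0 C Γ) _ u) (algebraMap (B0 C Γ) _ u') ∧
      UniqueFactorizationMonoid (Localization.AtPrime (nodeIdeal (Γ := Γ) h.hL2 s)) ∧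
      ∃ (r1 : Localization.AtPrime (nodeIdeal (Γ := Γ) h.hL2 s) →+*
            Localization.AtPrime (RingHom.ker (chi1 h.hL2 s)))
        (r2 : Localization.AtPrime (nodeIdeal (Γ := Γ) h.hL2 s) →+*
            Localization.AtPrime (RingHom.ker (chi2 h.hL2 s))),
        (∀ b, r1 (algebraMap (B0 C Γ) _ b) = algebraMap C.B₁ _ (rho1 C Γ b)) ∧
        (∀ b, r2 (algebraMap (B0 C Γ) _ b) = algebraMap C.B₂ _ (rho2 C Γ b)) ∧
        Function.Surjective r1 ∧ Function.Surjective r2 ∧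
        (∀ y, r1 y = 0 ↔ algebraMap (B0 C Γ) _ u ∣ y) ∧
        (∀ y, r2 y = 0 ↔ algebraMap (B0 C Γ) _ u' ∣ y) ∧
        maximalIdeal (Localization.AtPrime (RingHom.ker (chi1 h.hL2 s))) =
          Ideal.span {r1 (algebraMap (B0 C Γ) _ u')} ∧
        maximalIdeal (Localization.AtPrime (RingHom.ker (chi2 h.hL2 s))) =
          Ideal.span {r2 (algebraMap (B0 C Γ) _ u)} ∧
        IsPrincipalIdealRing (Localization.AtPrime (RingHom.ker (chi1 h.hL2 s))) ∧
        IsPrincipalIdealRing (Localization.AtPrime (RingHom.ker (chi2 h.hL2 s))) := by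
  haveI := h.finite
  haveI := h.reduced
  haveI := h.noeth
  exact NodeRing.isNodeRing_of h.hL2 h.hlift h.hD h.hpfix h.hp0 h.hp s hrel h.h1 h.h2 hΨ h.hu'

/-- the node-ring half only. -/
theorem ThickIndep.isNodeRing (h : ThickIndep C Γ p u u')
    (s : Goursat.Nodes C.BbarT h.hL2.h2) {Ψ : B0 C Γ}
    (hrel : u * u' = ((p : ℕ) : B0 C Γ) * Ψ)
    (hΨ : Ψ ∉ nodeIdeal (Γ := Γ) h.hL2 s) :
    haveI : IsDomain (Localization.AtPrime (nodeIdeal (Γ := Γ) h.hL2 s)) :=
      IsLocalization.isDomain_of_atPrime _ (nodeIdeal (Γ := Γ) h.hL2 s)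
    haveI : IsNoetherianRing (B0 C Γ) := h.noeth
    haveI : IsNoetherianRing (Localization.AtPrime (nodeIdeal (Γ := Γ) h.hL2 s)) :=
      IsLocalization.isNoetherianRing (nodeIdeal (Γ := Γ) h.hL2 s).primeCompl _ inferInstance
    Fermat.Agent.S40x.Node.IsNodeRing (Localization.AtPrime (nodeIdeal (Γ := Γ) h.hL2 s)) p
        (algebraMap (B0 C Γ) _ u) (algebraMap (B0 C Γ) _ u') :=
  (h.nodeRing_of_psi s hrel hΨ).1

end Abstract

/-! ### The node elements in the fixed chart ring -/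

section Qbar

variable {P : ValuationSubring Qb} {k : Type} [Field k] {π : P →+* k} [IsAlgClosed k]
variable {M q : ℕ} [NeZero M] [NeZero q] [Fact q.Prime] [CharP k q]
variable {hdeg : finrankAlong Qb (heckeAlphaBar Qb M q) = q + 1} {hq : q.Prime} {hqM : ¬ q ∣ M}
variable {hrk : ∀ x ∈ maximalIdeal P, ∀ c : P, c ≠ 0 → ∃ j : ℕ, c ∣ x ^ j}
  {hπ : Function.Surjective π}
variable (H : ResidueFacts P π M q hdeg hq hqM hrk hπ) (hA : P.LiesOverPrime q)
  (x : LaurentSeries ℤ) (hx : coeffMap (Int.castRingHom Qb) x ∈ FBar Qb M)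
  (Hx : GoodLevelFactsT P π M q hπ hqM (tInt M x hx))

/-! #### membership in `S.O` -/

theorem nodeEltInf_mem_O :
    nodeEltInf Qb M q (tInt M x hx) (tInt M x hx) ∈
      (twoVal (valInfty P π M q hrk hπ hqM) (valZero P π M q hdeg hq hqM hrk hπ)).O :=
  mem_O_iff.mpr
    ⟨nodeEltInf_mem_Ov P π M q _ _ (tInt_mem_Ov P π M x hx) (tInt_mem_Ov P π M x hx),
      nodeEltInf_mem_Ov0 P π M q hdeg hq hqM _ _ (tInt_mem_Ov P π M x hx)
        (tInt_mem_Ov P π M x hx)⟩

theorem nodeEltZero_mem_O :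
    nodeEltZero Qb M q (tInt M x hx) (tInt M x hx) ∈
      (twoVal (valInfty P π M q hrk hπ hqM) (valZero P π M q hdeg hq hqM hrk hπ)).O :=
  mem_O_iff.mpr
    ⟨nodeEltZero_mem_Ov P π M q _ _ (tInt_mem_Ov P π M x hx) (tInt_mem_Ov P π M x hx),
      nodeEltZero_mem_Ov0 P π M q hdeg hq hqM _ _ (tInt_mem_Ov P π M x hx)
        (tInt_mem_Ov P π M x hx)⟩

/-! #### the two reductions -/

/-- `red_∞ (β t' - (α t')^q) = 0`. -/
theorem res_fst_nodeEltInf :
    ((redSetup2 H hA).res ⟨_, nodeEltInf_mem_O (hdeg := hdeg) (hq := hq) (hrk := hrk) x hx⟩).1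
      = 0 := by
  apply Subtype.ext
  rw [coe_res_fst]
  have h := redV_nodeEltInf P π M q (tInt M x hx) (tInt M x hx) (tInt_mem_Ov P π M x hx)
    (tInt_mem_Ov P π M x hx)
  rw [redV_tInt P π M x hx] at h
  refine h.trans ?_
  rw [tbar, Fermat.Agent.S34x.Inst.ElementYRed.qExpand_coeffMap_int q x, sub_self]
  rfl

/-- `red_0 (α t' - (β t')^q) = 0`. -/
theorem res_snd_nodeEltZero :
    ((redSetup2 H hA).res ⟨_, nodeEltZero_mem_O (hdeg := hdeg) (hq := hq) (hrk := hrk) x hx⟩).2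
      = 0 := by
  apply Subtype.ext
  rw [coe_res_snd]
  have h := red0_nodeEltZero P π M q hdeg hq hqM (tInt M x hx) (tInt M x hx)
    (tInt_mem_Ov P π M x hx) (tInt_mem_Ov P π M x hx)
  rw [redV_tInt P π M x hx] at h
  refine h.trans ?_
  rw [tbar, Fermat.Agent.S34x.Inst.ElementYRed.qExpand_coeffMap_int q x, sub_self]
  rfl

/-- `red_∞ (α t' - (β t')^q) = x̄ - x̄ ^ (q ^ 2)` (Laurent series). -/
theorem coe_res_fst_nodeEltZero :
    ((((redSetup2 H hA).res
        ⟨_, nodeEltZero_mem_O (hdeg := hdeg) (hq := hq) (hrk := hrk) x hx⟩).1 : Fk k M) :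
        LaurentSeries k) = tbar k x - tbar k x ^ (q ^ 2) := by
  rw [coe_res_fst]
  have h := redV_nodeEltZero P π M q (tInt M x hx) (tInt M x hx) (tInt_mem_Ov P π M x hx)
    (tInt_mem_Ov P π M x hx)
  rw [redV_tInt P π M x hx] at h
  refine h.trans ?_
  rw [tbar, Fermat.Agent.S34x.Inst.ElementYRed.qExpand_coeffMap_int q x, ← pow_mul, ← sq]

/-- `red_0 (β t' - (α t')^q) = x̄ - x̄ ^ (q ^ 2)` (Laurent series). -/
theorem coe_res_snd_nodeEltInf :
    ((((redSetup2 H hA).res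
        ⟨_, nodeEltInf_mem_O (hdeg := hdeg) (hq := hq) (hrk := hrk) x hx⟩).2 : Fk k M) :
        LaurentSeries k) = tbar k x - tbar k x ^ (q ^ 2) := by
  rw [coe_res_snd]
  have h := red0_nodeEltInf P π M q hdeg hq hqM (tInt M x hx) (tInt M x hx)
    (tInt_mem_Ov P π M x hx) (tInt_mem_Ov P π M x hx)
  rw [redV_tInt P π M x hx] at h
  refine h.trans ?_
  rw [tbar, Fermat.Agent.S34x.Inst.ElementYRed.qExpand_coeffMap_int q x, ← pow_mul, ← sq]

/-! #### membership in the chart ring -/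

include Hx in
theorem isIntegral_nodeEltInf (hY : YFacts M q x hx) :
    IsIntegral (Algebra.adjoin Qb {(chart H hA x hx Hx).t})
      (nodeEltInf Qb M q (tInt M x hx) (tInt M x hx)) := by
  rw [chart_t]
  exact hY.y3.sub
    ((Algebra.subset_adjoin (Set.mem_singleton _) :
      tA M q x hx ∈ Algebra.adjoin Qb {tA M q x hx}) |> fun h =>
        ((isIntegral_algebraMap (R := Algebra.adjoin Qb {tA M q x hx})
          (A := FL Qb (M * q)) (x := ⟨_, h⟩)).pow q))

include Hx in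
theorem isIntegral_nodeEltZero (hY : YFacts M q x hx) :
    IsIntegral (Algebra.adjoin Qb {(chart H hA x hx Hx).t})
      (nodeEltZero Qb M q (tInt M x hx) (tInt M x hx)) := by
  rw [chart_t]
  exact ((Algebra.subset_adjoin (Set.mem_singleton _) :
      tA M q x hx ∈ Algebra.adjoin Qb {tA M q x hx}) |> fun h =>
        (isIntegral_algebraMap (R := Algebra.adjoin Qb {tA M q x hx})
          (A := FL Qb (M * q)) (x := ⟨_, h⟩))).sub (hY.y3.pow q)

include Hx in
theorem exists_nodeEltInf_mem_LN (hY : YFacts M q x hx) :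
    ∃ b, nodeEltInf Qb M q (tInt M x hx) (tInt M x hx) ∈ (chart H hA x hx Hx).LN 0 b :=
  (isIntegral_iff_exists_mem_twoPole (chart H hA x hx Hx).t_mul_tinv).mp
    (isIntegral_nodeEltInf H hA x hx Hx hY)

include Hx in
theorem exists_nodeEltZero_mem_LN (hY : YFacts M q x hx) :
    ∃ b, nodeEltZero Qb M q (tInt M x hx) (tInt M x hx) ∈ (chart H hA x hx Hx).LN 0 b :=
  (isIntegral_iff_exists_mem_twoPole (chart H hA x hx Hx).t_mul_tinv).mp
    (isIntegral_nodeEltZero H hA x hx Hx hY)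

include Hx in
theorem nodeEltInf_mem_B0 (hY : YFacts M q x hx) :
    nodeEltInf Qb M q (tInt M x hx) (tInt M x hx) ∈
      B0 (chart H hA x hx Hx) (inertiaAct P (M * q)) := by
  obtain ⟨b, hb⟩ := exists_nodeEltInf_mem_LN H hA x hx Hx hY
  exact mem_B0_of_mem hb (nodeEltInf_mem_O x hx) (isFixed_nodeEltInf P M q x hx)

include Hx in
theorem nodeEltZero_mem_B0 (hY : YFacts M q x hx) :
    nodeEltZero Qb M q (tInt M x hx) (tInt M x hx) ∈
      B0 (chart H hA x hx Hx) (inertiaAct P (M * q)) := by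
  obtain ⟨b, hb⟩ := exists_nodeEltZero_mem_LN H hA x hx Hx hY
  exact mem_B0_of_mem hb (nodeEltZero_mem_O x hx) (isFixed_nodeEltZero P M q x hx)

/-- **(e1)** the node element `u = β t' - (α t')^q` in the fixed chart ring `B_0`. -/
def uB (hY : YFacts M q x hx) : B0 (chart H hA x hx Hx) (inertiaAct P (M * q)) :=
  ⟨nodeEltInf Qb M q (tInt M x hx) (tInt M x hx), nodeEltInf_mem_B0 H hA x hx Hx hY⟩

/-- **(e1)** the node element `u' = α t' - (β t')^q` in the fixed chart ring `B_0`. -/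
def u'B (hY : YFacts M q x hx) : B0 (chart H hA x hx Hx) (inertiaAct P (M * q)) :=
  ⟨nodeEltZero Qb M q (tInt M x hx) (tInt M x hx), nodeEltZero_mem_B0 H hA x hx Hx hY⟩

@[simp] theorem coe_uB (hY : YFacts M q x hx) :
    ((uB H hA x hx Hx hY : B0 (chart H hA x hx Hx) (inertiaAct P (M * q))) : FL Qb (M * q)) =
      nodeEltInf Qb M q (tInt M x hx) (tInt M x hx) := rfl

@[simp] theorem coe_u'B (hY : YFacts M q x hx) :
    ((u'B H hA x hx Hx hY : B0 (chart H hA x hx Hx) (inertiaAct P (M * q))) : FL Qb (M * q)) =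
      nodeEltZero Qb M q (tInt M x hx) (tInt M x hx) := rfl

theorem coe_uB_eq (hY : YFacts M q x hx) :
    ((uB H hA x hx Hx hY : B0 (chart H hA x hx Hx) (inertiaAct P (M * q))) : FL Qb (M * q)) =
      tB M q x hx - tA M q x hx ^ q := rfl

theorem coe_u'B_eq (hY : YFacts M q x hx) :
    ((u'B H hA x hx Hx hY : B0 (chart H hA x hx Hx) (inertiaAct P (M * q))) : FL Qb (M * q)) =
      tA M q x hx - tB M q x hx ^ q := rfl

/-! #### (e2): the vanishing reductions -/

/-- **(e2)** `rho1 u = 0`. -/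
theorem rho1_uB (hY : YFacts M q x hx) :
    rho1 (chart H hA x hx Hx) (inertiaAct P (M * q)) (uB H hA x hx Hx hY) = 0 := by
  apply Subtype.ext
  rw [coe_rho1, resB_apply]
  exact res_fst_nodeEltInf H hA x hx

/-- **(e2)** `rho2 u' = 0`. -/
theorem rho2_u'B (hY : YFacts M q x hx) :
    rho2 (chart H hA x hx Hx) (inertiaAct P (M * q)) (u'B H hA x hx Hx hY) = 0 := by
  apply Subtype.ext
  rw [coe_rho2, resB_apply]
  exact res_snd_nodeEltZero H hA x hx

/-! #### (e3): the non-vanishing reductions -/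

include Hx in
/-- the reduction `x̄ = C.T.1` of the chart coordinate as a Laurent series. -/
theorem coe_T_fst :
    (((chart H hA x hx Hx).T.1 : Fk k M) : LaurentSeries k) = tbar k x := by
  rw [T_fst_eq H hA x hx Hx (chart H hA x hx Hx) (chart_t H hA x hx Hx), coe_resFk]
  exact redV_tInt P π M x hx

/-- **(e3)** `rho1 u' = x̄ - x̄ ^ (q ^ 2)` (Laurent series form). -/
theorem coe_coe_rho1_u'B (hY : YFacts M q x hx) :
    (((rho1 (chart H hA x hx Hx) (inertiaAct P (M * q)) (u'B H hA x hx Hx hY) :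
      (chart H hA x hx Hx).B₁) : Fk k M) : LaurentSeries k) = tbar k x - tbar k x ^ (q ^ 2) := by
  rw [coe_rho1, resB_apply]
  exact coe_res_fst_nodeEltZero H hA x hx

/-- **(e3)** `rho2 u = x̄ - x̄ ^ (q ^ 2)` (Laurent series form). -/
theorem coe_coe_rho2_uB (hY : YFacts M q x hx) :
    (((rho2 (chart H hA x hx Hx) (inertiaAct P (M * q)) (uB H hA x hx Hx hY) :
      (chart H hA x hx Hx).B₂) : Fk k M) : LaurentSeries k) = tbar k x - tbar k x ^ (q ^ 2) := by
  rw [coe_rho2, resB_apply]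
  exact coe_res_snd_nodeEltInf H hA x hx

/-- **(e3)** `rho1 u' = x̄ - x̄ ^ (q ^ 2)` with `x̄ = C.T.1`. -/
theorem coe_rho1_u'B (hY : YFacts M q x hx) :
    ((rho1 (chart H hA x hx Hx) (inertiaAct P (M * q)) (u'B H hA x hx Hx hY) :
      (chart H hA x hx Hx).B₁) : Fk k M) =
      (chart H hA x hx Hx).T.1 - (chart H hA x hx Hx).T.1 ^ (q ^ 2) := by
  apply Subtype.ext
  rw [coe_coe_rho1_u'B]
  simp only [AddSubgroupClass.coe_sub, SubmonoidClass.coe_pow, coe_T_fst H hA x hx Hx]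

/-- **(e3)** `rho2 u = x̄ - x̄ ^ (q ^ 2)` with `x̄ = C.T.1` (recall `C.T.2 = x̄ ^ q`). -/
theorem coe_rho2_uB (hY : YFacts M q x hx) :
    ((rho2 (chart H hA x hx Hx) (inertiaAct P (M * q)) (uB H hA x hx Hx hY) :
      (chart H hA x hx Hx).B₂) : Fk k M) =
      (chart H hA x hx Hx).T.1 - (chart H hA x hx Hx).T.1 ^ (q ^ 2) := by
  apply Subtype.ext
  rw [coe_coe_rho2_uB]
  simp only [AddSubgroupClass.coe_sub, SubmonoidClass.coe_pow, coe_T_fst H hA x hx Hx]

/-- the same values in terms of `resFk`. -/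
theorem coe_rho1_u'B_resFk (hY : YFacts M q x hx) :
    ((rho1 (chart H hA x hx Hx) (inertiaAct P (M * q)) (u'B H hA x hx Hx hY) :
      (chart H hA x hx Hx).B₁) : Fk k M) =
      resFk P π M q hπ hqM ⟨tInt M x hx, Hx.mem⟩ -
        resFk P π M q hπ hqM ⟨tInt M x hx, Hx.mem⟩ ^ (q ^ 2) := by
  rw [coe_rho1_u'B, T_fst_eq H hA x hx Hx (chart H hA x hx Hx) (chart_t H hA x hx Hx)]

theorem coe_rho2_uB_resFk (hY : YFacts M q x hx) :
    ((rho2 (chart H hA x hx Hx) (inertiaAct P (M * q)) (uB H hA x hx Hx hY) :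
      (chart H hA x hx Hx).B₂) : Fk k M) =
      resFk P π M q hπ hqM ⟨tInt M x hx, Hx.mem⟩ -
        resFk P π M q hπ hqM ⟨tInt M x hx, Hx.mem⟩ ^ (q ^ 2) := by
  rw [coe_rho2_uB, T_fst_eq H hA x hx Hx (chart H hA x hx Hx) (chart_t H hA x hx Hx)]

include Hx in
theorem T_fst_sub_pow_ne_zero :
    (chart H hA x hx Hx).T.1 - (chart H hA x hx Hx).T.1 ^ (q ^ 2) ≠ 0 := by
  have hq2 : 2 ≤ q ^ 2 := by
    have := (Fact.out : q.Prime).two_le
    nlinarith
  refine sub_pow_ne_zero_of_transcendental (k := k) ?_ hq2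
  rw [T_fst_eq H hA x hx Hx (chart H hA x hx Hx) (chart_t H hA x hx Hx)]
  exact Hx.trans_res

/-- **(e3)** `rho1 u' ≠ 0`. -/
theorem rho1_u'B_ne_zero (hY : YFacts M q x hx) :
    rho1 (chart H hA x hx Hx) (inertiaAct P (M * q)) (u'B H hA x hx Hx hY) ≠ 0 := by
  intro h
  apply T_fst_sub_pow_ne_zero H hA x hx Hx
  rw [← coe_rho1_u'B H hA x hx Hx hY, h]
  rfl

/-- **(e3)** `rho2 u ≠ 0`. -/
theorem rho2_uB_ne_zero (hY : YFacts M q x hx) :
    rho2 (chart H hA x hx Hx) (inertiaAct P (M * q)) (uB H hA x hx Hx hY) ≠ 0 := by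
  intro h
  apply T_fst_sub_pow_ne_zero H hA x hx Hx
  rw [← coe_rho2_uB H hA x hx Hx hY, h]
  rfl

/-! #### (e4) recalled: the uniformiser `q` of `W = P^Γ` -/

theorem natCast_P_ne_zero : ((q : ℕ) : P) ≠ 0 := by
  intro h
  have h1 : ((q : ℕ) : Qb) = 0 := by
    simpa using congrArg (fun z : P => (z : Qb)) h
  haveI : CharZero Qb := algebraRat.charZero Qb
  exact (Fact.out : q.Prime).ne_zero (by exact_mod_cast h1)

include hA in
/-- **`hp`** of `NodeRing.isNodeRing`: `q` is a uniformiser of `W = P^Γ`. -/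
theorem natCast_dvd_of_isFixedK (c : P) (hc : IsFixedK (inertiaAct P (M * q)) (c : Qb))
    (hcm : c ∈ maximalIdeal P) : ((q : ℕ) : P) ∣ c := by
  rw [← ValuationSubring.coe_mem_nonunits_iff] at hcm
  obtain ⟨d, hd, hcd⟩ :=
    Fermat.Agent.S19x.Hens.InertiaResidue.exists_eq_natCast_mul_of_fixed P
      (Fact.out : q.Prime) hA hcm
      (fixed_of_isFixedK (inertiaAct P (M * q)) (inertiaAct_baseAut' P (M * q)) hc)
  exact ⟨⟨d, hd.1⟩, Subtype.ext (by simpa using hcd)⟩

/-! #### The `T`-independent half of THICK-OUT -/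

include Hx in
/-- **THICK-OUT, `T`-independent half at `L = Qbar`**: all the inputs of
`NodeRing.isNodeRing_of` except the thickness datum `Ψ`, for `u = β t' - (α t')^q`,
`u' = α t' - (β t')^q` and the uniformiser `q`. -/
theorem thickIndep_Qb [PerfectRing k q] (hxk : tbar k x ≠ 0) (hY : YFacts M q x hx) :
    ThickIndep (chart H hA x hx Hx) (inertiaAct P (M * q)) q (uB H hA x hx Hx hY)
      (u'B H hA x hx Hx hY) := by
  have hI := NodeInstQb.nodeInputs_Qb H hA x hx Hx hxk hY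
  exact
    { hL2 := hI.hL2
      finite := hI.finite
      reduced := hI.reduced
      noeth := hI.noeth
      hlift := NodeInstQb.hlift_Qb H hA x hx Hx hxk hY
      hD := fixData2 H hA
      hpfix := NodeInstQb.isFixedK_natCast (ℓ := q) (inertiaAct_baseAut P (M * q))
      hp0 := natCast_P_ne_zero
      hp := natCast_dvd_of_isFixedK hA
      h1 := rho1_uB H hA x hx Hx hY
      h2 := rho2_u'B H hA x hx Hx hY
      hu' := rho1_u'B_ne_zero H hA x hx Hx hY }

end Qbar

end Fermat.Agent.S40x.Node.NodeEltB0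

end
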