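/-
P-S44/S40, block R1 (helper35): NODE-GEN, the generator lemma at a node.

`B` is a (chart) ring with a distinguished element `p` (cancellable), `ρ1 : B → B1`, `ρ2 : B → B2`
the two reductions, `ker ρ1 ∩ ker ρ2 = p B` (`hker`).  `u, u', Ψ ∈ B` with `u u' = p Ψ`,
`ρ1 u = 0`, `ρ2 u' = 0` (thickness datum: `Ψ` will be a unit at the node).

* `exists_mul_eq_of_right` : `ρ2 z = 0 → ∃ c, Ψ z = c u'`  (so `ker ρ2 = (u')` after inverting `Ψ`);
* `exists_mul_eq_of_left`  : `ρ1 z = 0 → ∃ c, Ψ z = c u`   (so `ker ρ1 = (u)`  after inverting `Ψ`);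
* `exists_mul_eq_map` : for `t = ρ1 z`, `ρ2 z = 0` (i.e. `(t, 0)` lies in the reduced chart ring):
  `ρ1 Ψ * t = ρ1 c * ρ1 u'`;
* `map_le_span`, `maximalIdeal_eq_span`, `isDiscreteValuationRing_localization` : at a prime `m` of
  `B1` with `ρ1 Ψ ∉ m` such that `m` is locally generated by such `t`'s (the glue ideal `I1` is the
  ideal of the nodes: reducedness of the glue ring), the maximal ideal of `(B1)_m` is generated by
  `ρ1 u'`; hence `(B1)_m` is a DVR when `B1` is a Noetherian domain.  No unramifiedness input.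
-/
import Mathlib

set_option autoImplicit false

namespace Fermat.Agent.S40x.Node.NodeGen

section Core

variable {B B1 B2 : Type*} [CommRing B] [CommRing B1] [CommRing B2]
  {ρ1 : B →+* B1} {ρ2 : B →+* B2} {p u u' Ψ : B}

/-- `ρ2 z = 0 → Ψ z ∈ (u')`. -/
theorem exists_mul_eq_of_right (hp : ∀ a b : B, p * a = p * b → a = b)
    (hker : ∀ f : B, ρ1 f = 0 → ρ2 f = 0 → ∃ g, f = p * g)
    (huu : u * u' = p * Ψ) (hu : ρ1 u = 0) {z : B} (hz : ρ2 z = 0) :
    ∃ c : B, Ψ * z = c * u' := by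
  obtain ⟨c, hc⟩ := hker (u * z) (by rw [map_mul, hu, zero_mul]) (by rw [map_mul, hz, mul_zero])
  refine ⟨c, hp _ _ ?_⟩
  calc p * (Ψ * z) = (u * u') * z := by rw [huu]; ring
    _ = u' * (u * z) := by ring
    _ = p * (c * u') := by rw [hc]; ring

/-- `ρ1 z = 0 → Ψ z ∈ (u)`. -/
theorem exists_mul_eq_of_left (hp : ∀ a b : B, p * a = p * b → a = b)
    (hker : ∀ f : B, ρ1 f = 0 → ρ2 f = 0 → ∃ g, f = p * g)
    (huu : u * u' = p * Ψ) (hu' : ρ2 u' = 0) {z : B} (hz : ρ1 z = 0) :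
    ∃ c : B, Ψ * z = c * u := by
  obtain ⟨c, hc⟩ := hker (u' * z) (by rw [map_mul, hz, mul_zero]) (by rw [map_mul, hu', zero_mul])
  refine ⟨c, hp _ _ ?_⟩
  calc p * (Ψ * z) = (u * u') * z := by rw [huu]; ring
    _ = u * (u' * z) := by ring
    _ = p * (c * u) := by rw [hc]; ring

/-- the image form: `ρ1 Ψ * ρ1 z = ρ1 c * ρ1 u'` when `ρ2 z = 0`. -/
theorem exists_mul_eq_map (hp : ∀ a b : B, p * a = p * b → a = b)
    (hker : ∀ f : B, ρ1 f = 0 → ρ2 f = 0 → ∃ g, f = p * g)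
    (huu : u * u' = p * Ψ) (hu : ρ1 u = 0) {z : B} (hz : ρ2 z = 0) :
    ∃ c : B, ρ1 Ψ * ρ1 z = ρ1 c * ρ1 u' := by
  obtain ⟨c, hc⟩ := exists_mul_eq_of_right hp hker huu hu hz
  exact ⟨c, by rw [← map_mul, hc, map_mul]⟩

end Core

section Local

variable {B B1 B2 : Type*} [CommRing B] [CommRing B1] [CommRing B2]
  {ρ1 : B →+* B1} {ρ2 : B →+* B2} {p u u' Ψ : B}

/-- Every `t = ρ1 z` with `ρ2 z = 0` becomes a multiple of `ρ1 u'` in the localisation at a prime
`m` of `B1` not containing `ρ1 Ψ`. -/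
theorem map_le_span (hp : ∀ a b : B, p * a = p * b → a = b)
    (hker : ∀ f : B, ρ1 f = 0 → ρ2 f = 0 → ∃ g, f = p * g)
    (huu : u * u' = p * Ψ) (hu : ρ1 u = 0)
    (m : Ideal B1) [m.IsPrime] (hΨ : ρ1 Ψ ∉ m)
    (I1 : Ideal B1) (hI1 : ∀ t ∈ I1, ∃ z : B, ρ1 z = t ∧ ρ2 z = 0) :
    I1.map (algebraMap B1 (Localization.AtPrime m)) ≤
      Ideal.span {algebraMap B1 (Localization.AtPrime m) (ρ1 u')} := by
  rw [Ideal.map_le_iff_le_comap]
  intro t ht
  obtain ⟨z, rfl, hz⟩ := hI1 t ht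
  obtain ⟨c, hc⟩ := exists_mul_eq_map hp hker huu hu hz
  rw [Ideal.mem_comap]
  have hunit : IsUnit (algebraMap B1 (Localization.AtPrime m) (ρ1 Ψ)) :=
    IsLocalization.map_units (Localization.AtPrime m) (⟨ρ1 Ψ, hΨ⟩ : m.primeCompl)
  have h1 : algebraMap B1 (Localization.AtPrime m) (ρ1 Ψ) *
      algebraMap B1 (Localization.AtPrime m) (ρ1 z) ∈
      Ideal.span {algebraMap B1 (Localization.AtPrime m) (ρ1 u')} := by
    rw [← map_mul, hc, map_mul]
    exact Ideal.mul_mem_left _ _ (Ideal.subset_span rfl)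
  obtain ⟨w, hw⟩ := hunit.exists_left_inv
  have h2 := Ideal.mul_mem_left _ w h1
  rwa [← mul_assoc, hw, one_mul] at h2

/-- If moreover `m` is locally generated by `I1` (`hm`: the glue ideal is the ideal of the nodes)
and `ρ1 u' ∈ m`, the maximal ideal of `(B1)_m` is generated by `ρ1 u'`. -/
theorem maximalIdeal_eq_span (hp : ∀ a b : B, p * a = p * b → a = b)
    (hker : ∀ f : B, ρ1 f = 0 → ρ2 f = 0 → ∃ g, f = p * g)
    (huu : u * u' = p * Ψ) (hu : ρ1 u = 0)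
    (m : Ideal B1) [m.IsPrime] (hΨ : ρ1 Ψ ∉ m) (hu'm : ρ1 u' ∈ m)
    (I1 : Ideal B1) (hI1 : ∀ t ∈ I1, ∃ z : B, ρ1 z = t ∧ ρ2 z = 0)
    (hm : ∀ x ∈ m, ∃ b : B1, b ∉ m ∧ b * x ∈ I1) :
    IsLocalRing.maximalIdeal (Localization.AtPrime m) =
      Ideal.span {algebraMap B1 (Localization.AtPrime m) (ρ1 u')} := by
  apply le_antisymm
  · rw [← Localization.AtPrime.map_eq_maximalIdeal, Ideal.map_le_iff_le_comap]
    intro x hx
    obtain ⟨b, hb, hbx⟩ := hm x hx
    rw [Ideal.mem_comap]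
    have h1 : algebraMap B1 (Localization.AtPrime m) (b * x) ∈
        Ideal.span {algebraMap B1 (Localization.AtPrime m) (ρ1 u')} :=
      map_le_span hp hker huu hu m hΨ I1 hI1 (Ideal.mem_map_of_mem _ hbx)
    have hunit : IsUnit (algebraMap B1 (Localization.AtPrime m) b) :=
      IsLocalization.map_units (Localization.AtPrime m) (⟨b, hb⟩ : m.primeCompl)
    obtain ⟨w, hw⟩ := hunit.exists_left_inv
    have h2 := Ideal.mul_mem_left _ w h1
    rwa [map_mul, ← mul_assoc, hw, one_mul] at h2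
  · rw [Ideal.span_singleton_le_iff_mem, ← Localization.AtPrime.map_eq_maximalIdeal]
    exact Ideal.mem_map_of_mem _ hu'm

/-- **The local ring of the component at a node is a DVR**, with uniformiser `ρ1 u'`. -/
theorem isDiscreteValuationRing_localization [IsDomain B1] [IsNoetherianRing B1]
    (hp : ∀ a b : B, p * a = p * b → a = b)
    (hker : ∀ f : B, ρ1 f = 0 → ρ2 f = 0 → ∃ g, f = p * g)
    (huu : u * u' = p * Ψ) (hu : ρ1 u = 0)
    (m : Ideal B1) [m.IsPrime] (hΨ : ρ1 Ψ ∉ m) (hu'm : ρ1 u' ∈ m) (hu'0 : ρ1 u' ≠ 0)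
    (I1 : Ideal B1) (hI1 : ∀ t ∈ I1, ∃ z : B, ρ1 z = t ∧ ρ2 z = 0)
    (hm : ∀ x ∈ m, ∃ b : B1, b ∉ m ∧ b * x ∈ I1) :
    IsDiscreteValuationRing (Localization.AtPrime m) := by
  have hmax := maximalIdeal_eq_span hp hker huu hu m hΨ hu'm I1 hI1 hm
  have hinj : Function.Injective (algebraMap B1 (Localization.AtPrime m)) :=
    IsLocalization.injective (Localization.AtPrime m) m.primeCompl_le_nonZeroDivisors
  have hne : algebraMap B1 (Localization.AtPrime m) (ρ1 u') ≠ 0 := by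
    intro h
    exact hu'0 (hinj (by rw [h, map_zero]))
  have hnf : ¬ IsField (Localization.AtPrime m) := by
    rw [IsLocalRing.isField_iff_maximalIdeal_eq, hmax]
    intro h
    exact hne (Ideal.span_singleton_eq_bot.mp h)
  have hprinc : (IsLocalRing.maximalIdeal (Localization.AtPrime m)).IsPrincipal :=
    ⟨⟨_, hmax⟩⟩
  exact ((IsDiscreteValuationRing.TFAE (Localization.AtPrime m) hnf).out 0 4).mpr hprinc

end Local

end Fermat.Agent.S40x.Node.NodeGen
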