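import Fermat.Agent.S40x.Node.NodeNonempty
import Fermat.Agent.S40x.Node.NodePole
import Fermat.Agent.S40x.Node.PlaceIdealInst

/-!
# P-S44, block R1: `Node/NodeNonempty` section `Places` with INSTANTIABLE hypotheses (helper17)

In the landed (frozen) `Node/NodeNonempty.lean` EVERY theorem of `section Places`
(`exists_branch₁_of_not_mem`, `exists_branch₂_of_not_mem`, `forall_isNonNode₂_of_forall_isNonNode₁`,
`forall_isNonNode₁_of_forall_isNonNode₂`, `exists_node_place₁_iff_exists_node_place₂`) carries the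
instance argument `[Algebra.IsSeparable k⟮C.T.2⟯ κ₂]` (an instance-implicit section variable is
auto-included as soon as `C` occurs), and this is FALSE at the concrete level `M q`, where
`C.T.2 = x̄ ^ q` (helper65's flag on `NodePlace.exists_branch₂`).  So none of them can be used
there, not even the ones about the first component.

Here are the same statements with
* only the `T.1`-hypotheses for the first component, and
* for the second component the half-chart form of `Node/NodePole.exists_branch₂_of_isHalfChart`: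
  `C.B₂` is the integral closure of `k[T']` for some `T'` with `κ₂ / k(T')` finite separable
  (`PlaceIdealInst.isHalfChart_B₂` / `chart_isHalfChart_B₂`: `T' = x̄`);
* `_of_pow` forms when both residue fields are one field `κ` and `C.T.2 = C.T.1 ^ q`: everything
  from the `T.1`-hypotheses alone.
-/

set_option autoImplicit false
set_option linter.unusedSectionVars false
set_option linter.style.haveILetI false

noncomputable section

namespace Fermat.Agent.S40x.Node.NodeNonemptyB

open AlgebraicCurve IsLocalRing Module IntermediateField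
open Fermat.Agent.S34x Fermat.Agent.S34x.C0two Fermat.Agent.S34x.Lattice2
open Fermat.Agent.S40x.Node.NodeInst Fermat.Agent.S40x.Node.SmoothInst
open Fermat.Agent.S40x.Node.NodePlace Fermat.Agent.S40x.Node.PlaceIdeal
open Fermat.Agent.S40x.Node.NodeNonempty Fermat.Agent.S40x.Node.NodePole

section General

variable {K : Type*} [Field K] {A : ValuationSubring K} {F : Type*} [Field F] [Algebra K F]
  {S : SmallRing F} {k κ₁ κ₂ : Type*} [Field k] [Field κ₁] [Field κ₂] [Algebra k κ₁]
  [Algebra k κ₂] {R : RedSetup2 A S k (κ₁ × κ₂)} {C : ChartCoord R}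

variable [IsAlgClosed k] (hL2 : C.IsL2)
  [Module.Finite k ((C.B₁ × C.B₂) ⧸ Subalgebra.toSubmodule C.BbarT)]

section First

variable (hT₁ : Transcendental k C.T.1) [FiniteDimensional k⟮C.T.1⟯ κ₁]
  [Algebra.IsSeparable k⟮C.T.1⟯ κ₁]

include hT₁ in
/-- if `(1, 0) ∉ B̄` the first component carries a node place (`T.1`-hypotheses only). -/
theorem exists_branch₁_of_not_mem (h : ((1, 0) : C.B₁ × C.B₂) ∉ C.BbarT) :
    ∃ (s : Goursat.Nodes C.BbarT hL2.h2) (P : Place k κ₁),
      C.T.1 ∈ P.toValuationSubring ∧ IsBranch₁ hL2 s P := by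
  obtain ⟨s⟩ := (nonempty_nodes_iff hL2).mpr h
  obtain ⟨P, hP, hs⟩ := exists_branch₁ hL2 hT₁ s
  exact ⟨s, P, hP, hs⟩

include hL2 hT₁ in
/-- **(b)**: if every place of the first component (on the chart) is a non-node, so is every place
of the second component (`T.1`-hypotheses only). -/
theorem forall_isNonNode₂_of_forall_isNonNode₁
    (h : ∀ P : Place k κ₁, C.T.1 ∈ P.toValuationSubring → IsNonNode₁ C P)
    (P : Place k κ₂) (hP : C.T.2 ∈ P.toValuationSubring) : IsNonNode₂ C P := by
  rcases isNonNode₂_or_exists_branch hL2 P hP with h2 | ⟨s, -⟩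
  · exact h2
  · obtain ⟨P₁, hP₁, hs₁⟩ := exists_branch₁ hL2 hT₁ s
    exact absurd (h P₁ hP₁) hs₁.not_isNonNode

end First

section Second

variable {T' : κ₂} (hB : IsHalfChart T' C.B₂) (hT' : Transcendental k T')
  [FiniteDimensional k⟮T'⟯ κ₂] [Algebra.IsSeparable k⟮T'⟯ κ₂]

include hB hT' in
/-- if `(1, 0) ∉ B̄` the second component carries a node place (half-chart form). -/
theorem exists_branch₂_of_not_mem (h : ((1, 0) : C.B₁ × C.B₂) ∉ C.BbarT) :
    ∃ (s : Goursat.Nodes C.BbarT hL2.h2) (P : Place k κ₂),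
      C.T.2 ∈ P.toValuationSubring ∧ IsBranch₂ hL2 s P := by
  obtain ⟨s⟩ := (nonempty_nodes_iff hL2).mpr h
  obtain ⟨P, hP, hs⟩ := exists_branch₂_of_isHalfChart hL2 hB hT' s
  exact ⟨s, P, hP, hs⟩

include hL2 hB hT' in
/-- **(b)**, mirrored (half-chart form). -/
theorem forall_isNonNode₁_of_forall_isNonNode₂
    (h : ∀ P : Place k κ₂, C.T.2 ∈ P.toValuationSubring → IsNonNode₂ C P)
    (P : Place k κ₁) (hP : C.T.1 ∈ P.toValuationSubring) : IsNonNode₁ C P := by
  rcases isNonNode₁_or_exists_branch hL2 P hP with h1 | ⟨s, -⟩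
  · exact h1
  · obtain ⟨P₂, hP₂, hs₂⟩ := exists_branch₂_of_isHalfChart hL2 hB hT' s
    exact absurd (h P₂ hP₂) hs₂.not_isNonNode

end Second

section Both

variable (hT₁ : Transcendental k C.T.1) [FiniteDimensional k⟮C.T.1⟯ κ₁]
  [Algebra.IsSeparable k⟮C.T.1⟯ κ₁]
  {T' : κ₂} (hB : IsHalfChart T' C.B₂) (hT' : Transcendental k T')
  [FiniteDimensional k⟮T'⟯ κ₂] [Algebra.IsSeparable k⟮T'⟯ κ₂]

include hL2 hT₁ hB hT' in
/-- the two node sets are empty together. -/
theorem exists_node_place₁_iff_exists_node_place₂ :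
    (∃ P : Place k κ₁, C.T.1 ∈ P.toValuationSubring ∧ ¬ IsNonNode₁ C P) ↔
      ∃ P : Place k κ₂, C.T.2 ∈ P.toValuationSubring ∧ ¬ IsNonNode₂ C P := by
  constructor
  · rintro ⟨P, hP, hn⟩
    by_contra h
    exact hn (forall_isNonNode₁_of_forall_isNonNode₂ hL2 hB hT'
      (fun Q hQ => by_contra fun hQn => h ⟨Q, hQ, hQn⟩) P hP)
  · rintro ⟨P, hP, hn⟩
    by_contra h
    exact hn (forall_isNonNode₂_of_forall_isNonNode₁ hL2 hT₁
      (fun Q hQ => by_contra fun hQn => h ⟨Q, hQ, hQn⟩) P hP)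

end Both

end General

/-! ### the shape of the concrete chart: one residue field, `C.T.2 = C.T.1 ^ q` -/

section Pow

variable {K : Type*} [Field K] {A : ValuationSubring K} {F : Type*} [Field F] [Algebra K F]
  {S : SmallRing F} {k κ : Type*} [Field k] [Field κ] [Algebra k κ]
  {R : RedSetup2 A S k (κ × κ)} {C : ChartCoord R}

variable [IsAlgClosed k] (hL2 : C.IsL2)
  [Module.Finite k ((C.B₁ × C.B₂) ⧸ Subalgebra.toSubmodule C.BbarT)]
  (hT₁ : Transcendental k C.T.1) [FiniteDimensional k⟮C.T.1⟯ κ]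
  [Algebra.IsSeparable k⟮C.T.1⟯ κ] {q : ℕ} (hq : 0 < q) (hT2 : C.T.2 = C.T.1 ^ q)

include hT₁ hq hT2 in
/-- every node carries a place of the second component (`C.T.2 = C.T.1 ^ q`). -/
theorem exists_branch₂_of_pow (s : Goursat.Nodes C.BbarT hL2.h2) :
    ∃ P : Place k κ, C.T.2 ∈ P.toValuationSubring ∧ IsBranch₂ hL2 s P :=
  exists_branch₂_of_isHalfChart hL2 (PlaceIdealInst.isHalfChart_B₂ C hq hT2) hT₁ s

include hT₁ hq hT2 in
/-- if `(1, 0) ∉ B̄` the second component carries a node place (`C.T.2 = C.T.1 ^ q`). -/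
theorem exists_branch₂_of_not_mem_of_pow (h : ((1, 0) : C.B₁ × C.B₂) ∉ C.BbarT) :
    ∃ (s : Goursat.Nodes C.BbarT hL2.h2) (P : Place k κ),
      C.T.2 ∈ P.toValuationSubring ∧ IsBranch₂ hL2 s P :=
  exists_branch₂_of_not_mem hL2 (PlaceIdealInst.isHalfChart_B₂ C hq hT2) hT₁ h

include hL2 hT₁ hq hT2 in
/-- **(b)**, mirrored (`C.T.2 = C.T.1 ^ q`). -/
theorem forall_isNonNode₁_of_forall_isNonNode₂_of_pow
    (h : ∀ P : Place k κ, C.T.2 ∈ P.toValuationSubring → IsNonNode₂ C P)
    (P : Place k κ) (hP : C.T.1 ∈ P.toValuationSubring) : IsNonNode₁ C P :=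
  forall_isNonNode₁_of_forall_isNonNode₂ hL2 (PlaceIdealInst.isHalfChart_B₂ C hq hT2) hT₁ h P hP

include hL2 hT₁ hq hT2 in
/-- the two node sets are empty together (`C.T.2 = C.T.1 ^ q`). -/
theorem exists_node_place₁_iff_exists_node_place₂_of_pow :
    (∃ P : Place k κ, C.T.1 ∈ P.toValuationSubring ∧ ¬ IsNonNode₁ C P) ↔
      ∃ P : Place k κ, C.T.2 ∈ P.toValuationSubring ∧ ¬ IsNonNode₂ C P :=
  exists_node_place₁_iff_exists_node_place₂ hL2 hT₁
    (PlaceIdealInst.isHalfChart_B₂ C hq hT2) hT₁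

end Pow

end Fermat.Agent.S40x.Node.NodeNonemptyB

end
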