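import Fermat.Agent.S40x.Node.NodeNonempty

/-!
# P-S44, block R1 / N-alpha: nodes carry places, for an ARBITRARY half-chart coordinate (helper50)

`Node/NodePlace.exists_branch₂` asks for `κ₂ / k(T₂)` separable, which FAILS in the instance
(`T₂ = x̄ ^ q` is a `q`-th power).  The dictionary of `Node/PlaceIdeal` only needs SOME coordinate
`T'` with `C.B₂ =` integral closure of `k[T']` (`IsHalfChart T' C.B₂`; in the instance `T' = x̄`,
`PlaceIdealInst.chart_isHalfChart_B₂`).  This file restates the existence of the branch places and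
statement (b) of `Node/NodeNonempty` in that generality.

* `exists_branch₁_of_isHalfChart`, `exists_branch₂_of_isHalfChart`;
* `forall_isNonNode₂_of_forall_isNonNode₁'`, `forall_isNonNode₁_of_forall_isNonNode₂'`,
  `exists_node_place₁_iff_exists_node_place₂'` : (b);
* `exists_node_place₁_of_not_mem`, `exists_node_place₂_of_not_mem` : **(a)** if `(1, 0) ∉ B̄` each
  component carries a place which is NOT a non-node (`nodeInf.Nonempty`, `nodeZero.Nonempty`).
-/

set_option autoImplicit false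
set_option linter.unusedSectionVars false
set_option linter.style.haveILetI false

noncomputable section

namespace Fermat.Agent.S40x.Node.NodePlaceB

open AlgebraicCurve IsLocalRing Module IntermediateField
open Fermat.Agent.S34x Fermat.Agent.S34x.C0two Fermat.Agent.S34x.Lattice2
open Fermat.Agent.S40x.Node.NodeInst Fermat.Agent.S40x.Node.SmoothInst
open Fermat.Agent.S40x.Node.NodePlace Fermat.Agent.S40x.Node.PlaceIdeal
open Fermat.Agent.S40x.Node.NodeNonempty

variable {K : Type*} [Field K] {A : ValuationSubring K} {F : Type*} [Field F] [Algebra K F]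
  {S : SmallRing F} {k κ₁ κ₂ : Type*} [Field k] [Field κ₁] [Field κ₂] [Algebra k κ₁]
  [Algebra k κ₂] {R : RedSetup2 A S k (κ₁ × κ₂)} {C : ChartCoord R}

variable [IsAlgClosed k] (hL2 : C.IsL2)

section First

variable {T' : κ₁} (hB : IsHalfChart T' C.B₁) (hT' : Transcendental k T')
  [FiniteDimensional k⟮T'⟯ κ₁] [Algebra.IsSeparable k⟮T'⟯ κ₁]

include hB hT' in
/-- **every node carries a place of the first component**, any half-chart coordinate. -/
theorem exists_branch₁_of_isHalfChart (s : Goursat.Nodes C.BbarT hL2.h2) :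
    ∃ P : Place k κ₁, C.T.1 ∈ P.toValuationSubring ∧ IsBranch₁ hL2 s P := by
  have hmax : (RingHom.ker (chi1 hL2 s).toRingHom).IsMaximal :=
    RingHom.ker_isMaximal_of_surjective _ fun c =>
      ⟨algebraMap k C.B₁ c, (chi1 hL2 s).commutes c⟩
  obtain ⟨P, hP, hPm⟩ := hB.exists_place_of_isMaximal hT' _ hmax
  have hB₀ : IsHalfChart C.T.1 C.B₁ := fun _ => Iff.rfl
  have hTP : C.T.1 ∈ P.toValuationSubring := hB.le_place P hP ⟨C.T.1, hB₀.T_mem⟩
  refine ⟨P, hTP, fun b => ?_⟩
  rw [← hB.mem_maxIdeal_iff P hP b, hPm]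
  rfl

end First

section Second

variable {T' : κ₂} (hB : IsHalfChart T' C.B₂) (hT' : Transcendental k T')
  [FiniteDimensional k⟮T'⟯ κ₂] [Algebra.IsSeparable k⟮T'⟯ κ₂]

include hB hT' in
/-- **every node carries a place of the second component**, any half-chart coordinate. -/
theorem exists_branch₂_of_isHalfChart (s : Goursat.Nodes C.BbarT hL2.h2) :
    ∃ P : Place k κ₂, C.T.2 ∈ P.toValuationSubring ∧ IsBranch₂ hL2 s P := by
  have hmax : (RingHom.ker (chi2 hL2 s).toRingHom).IsMaximal :=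
    RingHom.ker_isMaximal_of_surjective _ fun c =>
      ⟨algebraMap k C.B₂ c, (chi2 hL2 s).commutes c⟩
  obtain ⟨P, hP, hPm⟩ := hB.exists_place_of_isMaximal hT' _ hmax
  have hB₀ : IsHalfChart C.T.2 C.B₂ := fun _ => Iff.rfl
  have hTP : C.T.2 ∈ P.toValuationSubring := hB.le_place P hP ⟨C.T.2, hB₀.T_mem⟩
  refine ⟨P, hTP, fun b => ?_⟩
  rw [← hB.mem_maxIdeal_iff P hP b, hPm]
  rfl

end Second

section Both

variable [Module.Finite k ((C.B₁ × C.B₂) ⧸ Subalgebra.toSubmodule C.BbarT)]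
variable {T₁' : κ₁} (hB₁ : IsHalfChart T₁' C.B₁) (hT₁' : Transcendental k T₁')
  [FiniteDimensional k⟮T₁'⟯ κ₁] [Algebra.IsSeparable k⟮T₁'⟯ κ₁]
  {T₂' : κ₂} (hB₂ : IsHalfChart T₂' C.B₂) (hT₂' : Transcendental k T₂')
  [FiniteDimensional k⟮T₂'⟯ κ₂] [Algebra.IsSeparable k⟮T₂'⟯ κ₂]

include hL2 hB₁ hT₁' in
/-- **(b)**: if every place of the first component is a non-node, so is every place of the
second. -/
theorem forall_isNonNode₂_of_forall_isNonNode₁'
    (h : ∀ P : Place k κ₁, C.T.1 ∈ P.toValuationSubring → IsNonNode₁ C P)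
    (P : Place k κ₂) (hP : C.T.2 ∈ P.toValuationSubring) : IsNonNode₂ C P := by
  rcases isNonNode₂_or_exists_branch hL2 P hP with h2 | ⟨s, -⟩
  · exact h2
  · obtain ⟨P₁, hP₁, hs₁⟩ := exists_branch₁_of_isHalfChart hL2 hB₁ hT₁' s
    exact absurd (h P₁ hP₁) hs₁.not_isNonNode

include hL2 hB₂ hT₂' in
/-- **(b)**, mirrored. -/
theorem forall_isNonNode₁_of_forall_isNonNode₂'
    (h : ∀ P : Place k κ₂, C.T.2 ∈ P.toValuationSubring → IsNonNode₂ C P)
    (P : Place k κ₁) (hP : C.T.1 ∈ P.toValuationSubring) : IsNonNode₁ C P := by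
  rcases isNonNode₁_or_exists_branch hL2 P hP with h1 | ⟨s, -⟩
  · exact h1
  · obtain ⟨P₂, hP₂, hs₂⟩ := exists_branch₂_of_isHalfChart hL2 hB₂ hT₂' s
    exact absurd (h P₂ hP₂) hs₂.not_isNonNode

include hL2 hB₁ hT₁' hB₂ hT₂' in
/-- the two node sets are empty together. -/
theorem exists_node_place₁_iff_exists_node_place₂' :
    (∃ P : Place k κ₁, C.T.1 ∈ P.toValuationSubring ∧ ¬ IsNonNode₁ C P) ↔
      ∃ P : Place k κ₂, C.T.2 ∈ P.toValuationSubring ∧ ¬ IsNonNode₂ C P := by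
  constructor
  · rintro ⟨P, hP, hn⟩
    by_contra h
    exact hn (forall_isNonNode₁_of_forall_isNonNode₂' hL2 hB₂ hT₂'
      (fun Q hQ => by_contra fun hQn => h ⟨Q, hQ, hQn⟩) P hP)
  · rintro ⟨P, hP, hn⟩
    by_contra h
    exact hn (forall_isNonNode₂_of_forall_isNonNode₁' hL2 hB₁ hT₁'
      (fun Q hQ => by_contra fun hQn => h ⟨Q, hQ, hQn⟩) P hP)

include hL2 hB₁ hT₁' in
/-- **(a), first component**: if `(1, 0) ∉ B̄` some place of the first component is a node place. -/
theorem exists_node_place₁_of_not_mem (h : ((1, 0) : C.B₁ × C.B₂) ∉ C.BbarT) :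
    ∃ P : Place k κ₁, C.T.1 ∈ P.toValuationSubring ∧ ¬ IsNonNode₁ C P := by
  obtain ⟨s⟩ := (nonempty_nodes_iff hL2).mpr h
  obtain ⟨P, hP, hs⟩ := exists_branch₁_of_isHalfChart hL2 hB₁ hT₁' s
  exact ⟨P, hP, hs.not_isNonNode⟩

include hL2 hB₂ hT₂' in
/-- **(a), second component.** -/
theorem exists_node_place₂_of_not_mem (h : ((1, 0) : C.B₁ × C.B₂) ∉ C.BbarT) :
    ∃ P : Place k κ₂, C.T.2 ∈ P.toValuationSubring ∧ ¬ IsNonNode₂ C P := by
  obtain ⟨s⟩ := (nonempty_nodes_iff hL2).mpr h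
  obtain ⟨P, hP, hs⟩ := exists_branch₂_of_isHalfChart hL2 hB₂ hT₂' s
  exact ⟨P, hP, hs.not_isNonNode⟩

end Both

end Fermat.Agent.S40x.Node.NodePlaceB

end
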