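import Fermat.Agent.S40x.Thick.UPsiInst
import Fermat.Agent.S40x.Thick.Haupt4kCount
import Fermat.Agent.S40x.Node.NodePlaceB
import Fermat.Agent.S40x.Node.NodeRing

/-!
# P-S44, block R1: THE NODE SET IS NONEMPTY at level `M q`, `4 ∣ M`, `q` odd (helper50)

Seam to DIAG / GEO (`hG3` of `Geo/Main.geo_goodLevel` is false for an empty node set: red-team remark
of helper29, request (a) of helper71).

If the glue ring of the chart `t = α x₄` had no node, `(1, 0)` would lie in the reduced chart ring,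
i.e. `1 ∈ I1` (`Thick/PolesNodes`): some `E ∈ B∞` reduces to `(1, 0)`.  By (T5)
(`PolesNodes.exists_pow_mul_mem_BooAlg`) `E ^ n * (u / q) ∈ B∞`, so `δ = red_∞ (u / q)`, the
reduction of the Frobenius quotient of `x₄`, is integral over `k[x̄]`.  But `δ` lies in
`Fk k 4 = k(x̄)` (level `4 q`), so it is a POLYNOMIAL in `x̄` (`Haupt4k`), contradicting the pole
count `q - 1 ≤ 2 deg (denominator of δ)` (`Thick/Count`, (T9)).

* `isIntegral_res_of_mem_BooAlg`, `isIntegral_res_of_one_mem_I1` : the generic step (two-valuation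
  chart of `Thick/PolesNodes`);
* `one_not_mem_I1_x4` : `1 ∉ I1` at the chart `chart4` of level `M q`;
* `one_zero_not_mem_BbarT_x4` : `(1, 0) ∉ B̄`;
* `nonempty_nodes_x4` : **the glue ring of `chart4` has a node**.
-/

set_option autoImplicit false
set_option linter.unusedSectionVars false
set_option linter.style.haveILetI false

noncomputable section

namespace Fermat.Agent.S40x.Node.NodeNonemptyMq

open Polynomial ModularCurve AlgebraicCurve IntermediateField IsLocalRing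
open Fermat.Agent.Gateway.Hecke Fermat.Agent.Gateway.ESC
open Fermat.Agent.Gateway.Red Fermat.Agent.Gateway.GoodRed
open Fermat.Agent.Gateway.GoodRed.ConjFamily Fermat.Agent.Gateway.AuxLevel
open Fermat.Agent.S24.Setup
open Fermat.Agent.S34x Fermat.Agent.S34x.TwoVal Fermat.Agent.S34x.C0two
open Fermat.Agent.S34x.Lattice2
open Fermat.Agent.S34x.Inst.L2 Fermat.Agent.S34x.Inst.RedSetupInst
open Fermat.Agent.S34x.Inst.ElementYRed Fermat.Agent.S34x.Inst.ElementYInt
open Fermat.Agent.S33x.H1.InstC1 Fermat.Agent.S33x.H1.InstBBasic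
open Fermat.Agent.S40x.Thick.UPsi Fermat.Agent.S40x.Thick.PolesNodes
open Fermat.Agent.S40x.Thick.UPsiInst
open Fermat.Agent.S40x.Thick.Haupt4k Fermat.Agent.S40x.Thick.Haupt4kCount

attribute [-instance] IsScalarTower.of_algHom

/-! ### The generic step -/

section Generic

variable {K : Type*} [Field K] {A : ValuationSubring K} {F : Type*} [Field F] [Algebra K F]
  {O₁ O₂ : ValuationSubring F} {k κ₁ κ₂ : Type*} [Field k] [Field κ₁] [Field κ₂]
  [Algebra k κ₁] [Algebra k κ₂]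
  (R₁ : Fermat.Agent.Gateway.C0.RedSetup A O₁ k κ₁)
  (R₂ : Fermat.Agent.Gateway.C0.RedSetup A O₂ k κ₂) (hπ : R₁.π = R₂.π)
  (C : ChartCoord (redSetupTwoVal R₁ R₂ hπ))

/-- the first reduction of an element of `B∞` is integral over `k[x̄]`. -/
theorem isIntegral_res_of_mem_BooAlg {f : F} (hf : f ∈ BooAlg C) :
    IsIntegral (Algebra.adjoin k {xb R₁ R₂ hπ C})
      (R₁.res ⟨f, (BooAlg_le_O R₁ R₂ hπ C hf).1⟩) := by
  obtain ⟨b, hfL, hfO⟩ := hf
  have hint : IsIntegral (Algebra.adjoin K {C.t}) f := by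
    have := hfL.1
    rwa [pow_zero, one_mul] at this
  have h1 := C.hint1 f hfO hint
  have h2 : IsIntegral (Algebra.adjoin k {((xb R₁ R₂ hπ C, xb' R₁ R₂ hπ C) : κ₁ × κ₂)})
      ((R₁.res ⟨f, hfO.1⟩, R₂.res ⟨f, hfO.2⟩) : κ₁ × κ₂) := h1
  rw [isIntegral_adjoin_prod_iff] at h2
  exact h2.1

/-- **if `1 ∈ I1` then `δ = red_∞ (u / ϖ)` is integral over `k[x̄]`.** -/
theorem isIntegral_res_of_one_mem_I1 {u w : F} {ϖ : A} (hϖ : ϖ ≠ 0) (hu : u ∈ BooAlg C)
    (huw : u = ϖ • w) (hw : w ∈ O₁) (h1 : (1 : k[X]) ∈ I1 R₁ R₂ hπ C) :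
    IsIntegral (Algebra.adjoin k {xb R₁ R₂ hπ C}) (R₁.res ⟨w, hw⟩) := by
  obtain ⟨E, hE, hE1, hE2⟩ := h1
  obtain ⟨n, hn⟩ := exists_pow_mul_mem_BooAlg R₁ R₂ hπ C hϖ hu huw hw hE
    ((R₂.res_ker _).mp hE2)
  have h := isIntegral_res_of_mem_BooAlg R₁ R₂ hπ C hn
  have hEO := (BooAlg_le_O R₁ R₂ hπ C hE).1
  have h3 : (⟨E ^ n * w, (BooAlg_le_O R₁ R₂ hπ C hn).1⟩ : O₁) = ⟨E, hEO⟩ ^ n * ⟨w, hw⟩ := rfl
  rw [h3, map_mul, map_pow, hE1, map_one, one_pow, one_mul] at h
  exact h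

end Generic

/-! ### The chart `t = α x₄` of level `M q`, `4 ∣ M`, `q` odd -/

section Four

open Fermat.Agent.S40x.Thick.T1QSeries (frobQuot)

variable {A : ValuationSubring Kbar} {k : Type} [Field k] {π : A →+* k} [IsAlgClosed k]
  {M q : ℕ} [NeZero M] [NeZero q] [Fact q.Prime] [CharP k q]
  {hdeg : finrankAlong Kbar (heckeAlphaBar Kbar M q) = q + 1} {hq : q.Prime} {hqM : ¬ q ∣ M}
  {hrk : ∀ x ∈ maximalIdeal A, ∀ c : A, c ≠ 0 → ∃ j : ℕ, c ∣ x ^ j}
  {hπ : Function.Surjective π}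
  (h4 : 4 ∣ M) (hq2 : q ≠ 2)
  (H : ResidueFacts A π M q hdeg hq hqM hrk hπ) (hA : A.LiesOverPrime q)
  {hdeg4 : finrankAlong Kbar (heckeAlphaBar Kbar 4 q) = q + 1} {hq4 : ¬ q ∣ 4}
  (H4 : ResidueFacts A π 4 q hdeg4 hq hq4 hrk hπ)

include hq2 H4 hA in
/-- the reduction of the Frobenius quotient of `x₄` lies in `Fk k 4` (level `4 q`). -/
theorem frobQuot_mem_Fk :
    coeffMap (Int.castRingHom k) (frobQuot q L4.x4) ∈ Fk k 4 := by
  obtain ⟨_, _, w, _, _, _, hw, _, _, _, _, _, hDk⟩ :=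
    exists_upsi_x4 (M := 4) (dvd_refl 4) hq2 H4 hA
  rw [← hDk]
  exact ((redSetupInfty H4 hA).res ⟨w, hw⟩).2

include hq2 in
/-- a polynomial in `x̄` is not the reduction of the Frobenius quotient of `x₄`. -/
theorem aeval_ne_frobQuot (P : k[X]) :
    aeval (L4.x4k k) P ≠ coeffMap (Int.castRingHom k) (frobQuot q L4.x4) := by
  intro h
  have h1 := count_evX4 q hq2 (algebraMap k[X] (RatFunc k) P) (by rw [evX4_algebraMap, h])
  rw [RatFunc.denom_algebraMap, natDegree_one, mul_zero] at h1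
  have := (Fact.out : q.Prime).two_le
  omega

include hq2 H4 in
/-- **`1 ∉ I1`** at the chart `chart4` of level `M q`. -/
theorem one_not_mem_I1_x4 :
    (1 : k[X]) ∉ I1 (redSetupInfty H hA) (redSetupZero H hA) rfl (chart4 h4 H hA) := by
  haveI : Algebra.IsAlgebraic ℚ Kbar := AlgebraicClosure.isAlgebraic ℚ
  intro h1
  obtain ⟨u, u', w, w', hu, hu', hw, hw', huw, huw', -, -, hDk⟩ := exists_upsi_x4 h4 hq2 H hA
  have hint := isIntegral_res_of_one_mem_I1 (redSetupInfty H hA) (redSetupZero H hA) rfl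
    (chart4 h4 H hA) (piA_ne_zero hA) hu huw hw h1
  -- transfer to `LaurentSeries k`
  have hintL : IsIntegral (Algebra.adjoin k {L4.x4k k})
      (coeffMap (Int.castRingHom k) (frobQuot q L4.x4)) := by
    rw [isIntegral_adjoin_iff_isIntegralElem] at hint ⊢
    obtain ⟨P, hP, hPx⟩ := hint
    refine ⟨P, hP, ?_⟩
    have hcomp : ((Fk k M).val : Fk k M →+* LaurentSeries k).comp
        ((aeval (xb (redSetupInfty H hA) (redSetupZero H hA) rfl (chart4 h4 H hA)) :
          k[X] →ₐ[k] Fk k M) : k[X] →+* Fk k M) =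
        ((aeval (L4.x4k k) : k[X] →ₐ[k] LaurentSeries k) : k[X] →+* LaurentSeries k) := by
      apply Polynomial.ringHom_ext
      · intro a
        simp
      · simp only [RingHom.comp_apply, RingHom.coe_coe, aeval_X]
        exact coe_xb_x4 h4 H hA
    have h2 := congrArg ((Fk k M).val : Fk k M →+* LaurentSeries k) hPx
    rw [Polynomial.hom_eval₂, hcomp, map_zero] at h2
    rw [← hDk]
    exact h2
  have hmem := frobQuot_mem_Fk (k := k) hq2 hA H4
  have h4k : ((4 : ℕ) : k) ≠ 0 := fun h0 => hq4 ((CharP.cast_eq_zero_iff k q 4).mp h0)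
  obtain ⟨P, hP⟩ := exists_poly_of_isIntegral_Fk h4k hmem hintL
  exact aeval_ne_frobQuot hq2 P hP.symm

/-! ### Nodes -/

section Nodes

open Fermat.Agent.S34x.Inst Fermat.Agent.S34x.Inst.TheoremBMq Fermat.Agent.S34x.Inst.Charts
open Fermat.Agent.S33x.Cech.CtxMq
open Fermat.Agent.S40x.Node

include hq2 H4 in
/-- **`(1, 0) ∉ B̄`** at the chart `chart4` of level `M q`. -/
theorem one_zero_not_mem_BbarT_x4 :
    ((1, 0) : (chart4 h4 H hA).B₁ × (chart4 h4 H hA).B₂) ∉ (chart4 h4 H hA).BbarT := by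
  intro h
  apply one_not_mem_I1_x4 h4 hq2 H hA H4
  rw [ChartCoord.mem_BbarT_iff, ChartCoord.incl_apply] at h
  obtain ⟨b, x, hx, hxL, hres⟩ := (ChartCoord.mem_Bbar_iff _).mp h
  refine ⟨x, ⟨b, hxL, hx⟩, ?_, ?_⟩
  · rw [map_one]
    exact congrArg Prod.fst hres
  · exact congrArg Prod.snd hres

variable [PerfectRing k q]

include hq2 in
/-- the concrete context of the chart `chart4`. -/
theorem exists_ctx_x4 :
    ∃ Dt : Divisor Kbar (FL Kbar (M * q)),
      Ctx (redSetup2 H hA) (chart4 h4 H hA) q q (chart4 h4 H hA).T.1 Dt := by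
  haveI : Algebra.IsAlgebraic ℚ Kbar := AlgebraicClosure.isAlgebraic ℚ
  have hx : coeffMap (Int.castRingHom Kbar) L4.x4 ∈ FBar Kbar M := x4_mem_FBar M h4
  have Hx := goodLevelFacts_x4 (A := A) (π := π) (q := q) (hπ := hπ) (hqM := hqM) h4
  have hY : YFacts M q L4.x4 hx :=
    ⟨isIntegral_elY_x4 hx h4 hq hq2, isIntegral_elY_inv_x4 hx h4 hq hq2,
      isIntegral_tB_x4 hx h4 hq hq2, isIntegral_tB_inv_x4 hx h4 hq hq2⟩
  have ht : Transcendental Kbar (chart4 h4 H hA).t :=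
    Charts.transcendental_tα Kbar M q Hx.trans
  haveI hfin : FiniteDimensional Kbar⟮(chart4 h4 H hA).t⟯ (FL Kbar (M * q)) :=
    finiteDimensional_tA L4.x4 hx Hx
  exact ⟨Charts.divT ht, ctx_of_chart H hA L4.x4 hx Hx (chart4 h4 H hA) rfl (L4.x4k_ne_zero k) hY
    (Charts.divT_apply ht)⟩

include hq2 H4 in
/-- **the glue ring of the chart `t = α x₄` of level `M q` has a node.** -/
theorem nonempty_nodes_x4 (hL2 : (chart4 h4 H hA).IsL2) :
    Nonempty (Goursat.Nodes (chart4 h4 H hA).BbarT hL2.h2) := by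
  obtain ⟨Dt, h⟩ := exists_ctx_x4 h4 hq2 H hA
  haveI := NodeRing.finite_quotient h
  exact (NodeNonempty.nonempty_nodes_iff hL2).mpr (one_zero_not_mem_BbarT_x4 h4 hq2 H hA H4)

include hq2 H4 in
/-- **`nodeInf.Nonempty`**: some place of the first component (the `∞`-side) of the chart is a
node place, i.e. is not a non-node in the sense of `Node/SmoothInst`. -/
theorem exists_node_place_inf_x4 :
    ∃ P : Place k (Fk k M), (chart4 h4 H hA).T.1 ∈ P.toValuationSubring ∧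
      ¬ SmoothInst.IsNonNode₁ (chart4 h4 H hA) P := by
  obtain ⟨Dt, h⟩ := exists_ctx_x4 h4 hq2 H hA
  haveI := NodeRing.finite_quotient h
  haveI := h.fin_x
  haveI := h.sep_x
  exact NodePlaceB.exists_node_place₁_of_not_mem h.hL2 (T₁' := (chart4 h4 H hA).T.1)
    (fun _ => Iff.rfl) h.hx (one_zero_not_mem_BbarT_x4 h4 hq2 H hA H4)

end Nodes

end Four

end Fermat.Agent.S40x.Node.NodeNonemptyMq

end
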