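import Mathlib
import Fermat.Prelude.Def_AlgebraicCurve_DivisorClassGroup
import Fermat.Agent.S40x.Edge.UFD
import Fermat.Agent.S40x.Edge.EdgeField
import Fermat.Agent.S40x.Node.NodeDatum

/-!
# P-S44, block R1 / N-alpha, leaf N5 (independent second, helper86): (TAME) from `IsNodeRing`

(The primary of N5 is helper62's `EdgeB/TameNode`; this file is the second: other path, other
namespace, built on helper54's `Edge/*` instead of `EdgeB/EdgeAll`.)

Input: the ring-theoretic literal `IsNodeRing S p u u'` of `Node/NodeDatum` (N-OUT) and the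
VALUATION HALF in valuation-subring vocabulary (the vocabulary of `Slope/SlopeInv`):

* `IsBranch u O` (v1): the valuation subring `O` of `F0 = Frac S` contains `S`, the elements of
  `S` outside `u S` are units of `O`, and `u` is not a unit of `O` (so `O = S_(u)`);
* a reduction `ρ : O →+* κ` whose kernel is the maximal ideal of `O`, and an "order function"
  `ordP : κ → ℤ`, additive on nonzero elements (`Place.ord` of the point `P_s`), which is `0` on
  the images of the units of `S` and `1` on the image of `u'` (d3);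
* (n4) `p ∣ mult_π f1 - mult_π f2` for every prime element `π` not associated to `u`, `u'`
  (`f = f1 / f2`), as delivered by the place/prime dictionary of N3.

Output (TAME): if `a b : ℤ` normalise `f` at the two branches (`f / p ^ a` is a unit of `O_∞`,
`f / p ^ b` is a unit of `O_0`) then `ordP (ρ (f / p ^ a)) ≡ b - a [ZMOD p]`.

The unique factorisation of `S` and the edge factorisation are those of `Edge/UFD`,
`Edge/EdgeField` (helper54); nothing is re-proved here.
-/

set_option autoImplicit false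
set_option linter.unusedSectionVars false

noncomputable section

namespace Fermat.Agent.S40x.Node.TameNodeB

open Fermat.Agent.S40x.Edge Fermat.Agent.S40x.Node

variable {S : Type*} [CommRing S] [IsDomain S]
  {F0 : Type*} [Field F0] [Algebra S F0] [IsFractionRing S F0]

/-- **(v1)** `O = S_(u)`: `S ⊆ O`, `S ∖ u S ⊆ Oˣ`, `u ∉ Oˣ`. -/
structure IsBranch (u : S) (O : ValuationSubring F0) : Prop where
  mem : ∀ x : S, algebraMap S F0 x ∈ O
  inv_mem : ∀ x : S, ¬ u ∣ x → (algebraMap S F0 x)⁻¹ ∈ O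
  inv_notMem : (algebraMap S F0 u)⁻¹ ∉ O

namespace IsBranch

variable {u : S} {O : ValuationSubring F0}

theorem val_le_one (hO : IsBranch u O) (x : S) : O.valuation (algebraMap S F0 x) ≤ 1 :=
  (O.valuation_le_one_iff _).mpr (hO.mem x)

theorem algebraMap_ne_zero {x : S} (hx : x ≠ 0) : algebraMap S F0 x ≠ 0 := fun h0 =>
  hx (IsFractionRing.injective S F0 (by rw [h0, map_zero]))

/-- the elements of `S` outside `u S` are units of `O` -/
theorem val_eq_one (hO : IsBranch u O) {x : S} (hx : ¬ u ∣ x) :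
    O.valuation (algebraMap S F0 x) = 1 := by
  have hx0 : x ≠ 0 := by
    rintro rfl
    exact hx (dvd_zero u)
  have hv0 : O.valuation (algebraMap S F0 x) ≠ 0 :=
    (Valuation.ne_zero_iff _).mpr (algebraMap_ne_zero hx0)
  have h1 : O.valuation (algebraMap S F0 x)⁻¹ ≤ 1 :=
    (O.valuation_le_one_iff _).mpr (hO.inv_mem x hx)
  rw [map_inv₀] at h1
  refine le_antisymm (hO.val_le_one x) ?_
  exact (inv_le_one₀ (zero_lt_iff.mpr hv0)).mp h1

/-- `u` is not a unit of `O` -/
theorem val_lt_one (hO : IsBranch u O) : O.valuation (algebraMap S F0 u) < 1 := by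
  by_contra hcon
  rw [not_lt] at hcon
  apply hO.inv_notMem
  rw [← O.valuation_le_one_iff, map_inv₀]
  exact inv_le_one_of_one_le₀ hcon

theorem val_isUnit (hO : IsBranch u O) (hu : ¬ IsUnit u) {x : S} (hx : IsUnit x) :
    O.valuation (algebraMap S F0 x) = 1 :=
  hO.val_eq_one fun hd => hu (isUnit_of_dvd_unit hd hx)

/-- the valuation of an element in edge form -/
theorem val_edge (hO : IsBranch u O) (hu : ¬ IsUnit u) {z' : S} (hz' : ¬ u ∣ z') {f : F0}
    {A B : ℤ} {n : ℕ} {ε : Sˣ} {g1 g2 : S} (hg1 : ¬ u ∣ g1) (hg2 : ¬ u ∣ g2)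
    (hfe : f = algebraMap S F0 ε * algebraMap S F0 u ^ A * algebraMap S F0 z' ^ B *
      (algebraMap S F0 g1 / algebraMap S F0 g2) ^ n) :
    O.valuation f = O.valuation (algebraMap S F0 u) ^ A := by
  rw [hfe, map_mul, map_mul, map_mul, map_zpow₀, map_zpow₀, map_pow, map_div₀,
    hO.val_isUnit hu ε.isUnit, hO.val_eq_one hz', hO.val_eq_one hg1, hO.val_eq_one hg2]
  simp

end IsBranch

/-! ### Reduction and the order function on the units of `O` -/

/-- reduction extended by zero (same convention as `Slope/SlopeInv.red`) -/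
def red {κ : Type*} [Field κ] (O : ValuationSubring F0) (ρ : O →+* κ) (w : F0) : κ :=
  open scoped Classical in if h : w ∈ O then ρ ⟨w, h⟩ else 0

section Red

variable {κ : Type*} [Field κ] {O : ValuationSubring F0} {ρ : O →+* κ}

theorem red_of_mem {w : F0} (h : w ∈ O) : red O ρ w = ρ ⟨w, h⟩ := by
  unfold red
  rw [dif_pos h]

theorem mem_of_val_eq_one {w : F0} (h : O.valuation w = 1) : w ∈ O :=
  (O.valuation_le_one_iff w).mp h.le

theorem red_one : red O ρ (1 : F0) = 1 := by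
  rw [red_of_mem O.one_mem]
  exact map_one ρ

theorem red_mul {w w' : F0} (h : w ∈ O) (h' : w' ∈ O) :
    red O ρ (w * w') = red O ρ w * red O ρ w' := by
  rw [red_of_mem h, red_of_mem h', red_of_mem (O.mul_mem _ _ h h'), ← map_mul]
  rfl

theorem red_ne_zero (hker : ∀ x : O, ρ x = 0 ↔ O.valuation (x : F0) < 1) {w : F0}
    (h : O.valuation w = 1) : red O ρ w ≠ 0 := by
  rw [red_of_mem (mem_of_val_eq_one h)]
  intro h0
  have := (hker ⟨w, mem_of_val_eq_one h⟩).mp h0
  rw [h] at this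
  exact lt_irrefl _ this

variable (ordP : κ → ℤ)

theorem ordP_one (hmul : ∀ x y : κ, x ≠ 0 → y ≠ 0 → ordP (x * y) = ordP x + ordP y) :
    ordP 1 = 0 := by
  have := hmul 1 1 one_ne_zero one_ne_zero
  rw [mul_one] at this
  linarith

theorem ordRed_mul (hker : ∀ x : O, ρ x = 0 ↔ O.valuation (x : F0) < 1)
    (hmul : ∀ x y : κ, x ≠ 0 → y ≠ 0 → ordP (x * y) = ordP x + ordP y) {w w' : F0}
    (h : O.valuation w = 1) (h' : O.valuation w' = 1) :
    ordP (red O ρ (w * w')) = ordP (red O ρ w) + ordP (red O ρ w') := by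
  rw [red_mul (mem_of_val_eq_one h) (mem_of_val_eq_one h'),
    hmul _ _ (red_ne_zero hker h) (red_ne_zero hker h')]

theorem ordRed_inv (hker : ∀ x : O, ρ x = 0 ↔ O.valuation (x : F0) < 1)
    (hmul : ∀ x y : κ, x ≠ 0 → y ≠ 0 → ordP (x * y) = ordP x + ordP y) {w : F0}
    (h : O.valuation w = 1) : ordP (red O ρ w⁻¹) = -ordP (red O ρ w) := by
  have hi : O.valuation w⁻¹ = 1 := by rw [map_inv₀, h, inv_one]
  have hw0 : w ≠ 0 := by
    rintro rfl
    rw [map_zero] at h
    exact zero_ne_one h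
  have h1 := ordRed_mul ordP hker hmul h hi
  rw [mul_inv_cancel₀ hw0, red_one, ordP_one ordP hmul] at h1
  linarith

theorem ordRed_pow (hker : ∀ x : O, ρ x = 0 ↔ O.valuation (x : F0) < 1)
    (hmul : ∀ x y : κ, x ≠ 0 → y ≠ 0 → ordP (x * y) = ordP x + ordP y) {w : F0}
    (h : O.valuation w = 1) (n : ℕ) : ordP (red O ρ (w ^ n)) = n * ordP (red O ρ w) := by
  induction n with
  | zero => rw [pow_zero, red_one, ordP_one ordP hmul]; simp
  | succ n ih =>
    have hn : O.valuation (w ^ n) = 1 := by rw [map_pow, h, one_pow]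
    rw [pow_succ, ordRed_mul ordP hker hmul hn h, ih]
    push_cast
    ring

theorem ordRed_zpow (hker : ∀ x : O, ρ x = 0 ↔ O.valuation (x : F0) < 1)
    (hmul : ∀ x y : κ, x ≠ 0 → y ≠ 0 → ordP (x * y) = ordP x + ordP y) {w : F0}
    (h : O.valuation w = 1) (n : ℤ) : ordP (red O ρ (w ^ n)) = n * ordP (red O ρ w) := by
  obtain ⟨m, rfl | rfl⟩ := n.eq_nat_or_neg
  · rw [zpow_natCast, ordRed_pow ordP hker hmul h]
  · have hm : O.valuation (w ^ m) = 1 := by rw [map_pow, h, one_pow]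
    rw [zpow_neg, zpow_natCast, ordRed_inv ordP hker hmul hm, ordRed_pow ordP hker hmul h]
    ring

end Red

/-! ### The node -/

variable [IsNoetherianRing S] [IsLocalRing S] {p : ℕ} {u u' : S}

/-- `v_∞(p) = v_∞(u)` -/
theorem val_natCast (h : IsNodeRing S p u u') {O : ValuationSubring F0} (hO : IsBranch u O) :
    O.valuation (p : F0) = O.valuation (algebraMap S F0 u) := by
  obtain ⟨ψ, hψ⟩ := h.mul_eq
  have h1 := congrArg (fun x => O.valuation (algebraMap S F0 x)) hψ
  simp only [map_mul, map_natCast] at h1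
  rw [hO.val_eq_one h.not_dvd, hO.val_isUnit h.prime_u.not_isUnit ψ.isUnit, mul_one, mul_one] at h1
  exact h1.symm

/-- `IsBranch` from the form `(v0)` of helper62's literal (`p⁻¹ ∉ O` instead of `u⁻¹ ∉ O`):
the two are equivalent for a node ring. -/
theorem isBranch_of_natCast_inv_notMem (h : IsNodeRing S p u u') {O : ValuationSubring F0}
    (hmem : ∀ x : S, algebraMap S F0 x ∈ O)
    (hinv : ∀ x : S, ¬ u ∣ x → (algebraMap S F0 x)⁻¹ ∈ O)
    (hp : ((p : ℕ) : F0)⁻¹ ∉ O) : IsBranch u O where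
  mem := hmem
  inv_mem := hinv
  inv_notMem := by
    intro hu
    apply hp
    obtain ⟨ψ, hψ⟩ := h.mul_eq
    have h1 := congrArg (algebraMap S F0) hψ
    rw [map_mul, map_mul, map_natCast] at h1
    have hu0 : algebraMap S F0 u ≠ 0 := IsBranch.algebraMap_ne_zero h.prime_u.ne_zero
    have hu'0 : algebraMap S F0 u' ≠ 0 := IsBranch.algebraMap_ne_zero h.prime_u'.ne_zero
    have hψ0 : algebraMap S F0 (ψ : S) ≠ 0 := IsBranch.algebraMap_ne_zero ψ.ne_zero
    have h2 : ((p : ℕ) : F0)⁻¹ =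
        (algebraMap S F0 u)⁻¹ * (algebraMap S F0 u')⁻¹ * algebraMap S F0 (ψ : S) := by
      have hp0 : ((p : ℕ) : F0) ≠ 0 := by
        intro h0
        rw [h0, zero_mul] at h1
        exact mul_ne_zero hu0 hu'0 h1
      field_simp
      linear_combination h1
    rw [h2]
    exact O.mul_mem _ _ (O.mul_mem _ _ hu (hinv u' h.not_dvd)) (hmem _)

/-- conversely `p` is not a unit of a branch -/
theorem natCast_inv_notMem (h : IsNodeRing S p u u') {O : ValuationSubring F0}
    (hO : IsBranch u O) : ((p : ℕ) : F0)⁻¹ ∉ O := by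
  intro hmem
  have h1 : O.valuation ((p : ℕ) : F0)⁻¹ ≤ 1 := (O.valuation_le_one_iff _).mpr hmem
  have ht1 : O.valuation ((p : ℕ) : F0) < 1 := by rw [val_natCast h hO]; exact hO.val_lt_one
  have ht0 : O.valuation ((p : ℕ) : F0) ≠ 0 := by
    rw [val_natCast h hO]
    exact (Valuation.ne_zero_iff _).mpr (IsBranch.algebraMap_ne_zero h.prime_u.ne_zero)
  rw [map_inv₀, inv_le_one₀ (zero_lt_iff.mpr ht0)] at h1
  exact absurd ht1 (not_lt.mpr h1)

/-- the normalisation `v(f / p ^ a) = 1` in the form `v f = v p ^ a` of helper62's literal -/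
theorem val_div_zpow_eq_one_iff (h : IsNodeRing S p u u') {O : ValuationSubring F0}
    (hO : IsBranch u O) {f : F0} {a : ℤ} :
    O.valuation (f / (p : F0) ^ a) = 1 ↔ O.valuation f = O.valuation ((p : ℕ) : F0) ^ a := by
  have ht0 : O.valuation ((p : ℕ) : F0) ≠ 0 := by
    rw [val_natCast h hO]
    exact (Valuation.ne_zero_iff _).mpr (IsBranch.algebraMap_ne_zero h.prime_u.ne_zero)
  rw [map_div₀, map_zpow₀, div_eq_one_iff_eq (zpow_ne_zero _ ht0)]

/-- uniqueness of the normalising exponent -/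
theorem zpow_unique (h : IsNodeRing S p u u') {O : ValuationSubring F0} (hO : IsBranch u O)
    {f : F0} {a a' : ℤ} (ha : O.valuation (f / (p : F0) ^ a) = 1)
    (ha' : O.valuation (f / (p : F0) ^ a') = 1) : a = a' := by
  have ht1 : O.valuation (p : F0) < 1 := by rw [val_natCast h hO]; exact hO.val_lt_one
  have ht0 : O.valuation (p : F0) ≠ 0 := by
    rw [val_natCast h hO]
    exact (Valuation.ne_zero_iff _).mpr (IsBranch.algebraMap_ne_zero h.prime_u.ne_zero)
  have hf0 : O.valuation f ≠ 0 := by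
    intro h0
    rw [map_div₀, h0, zero_div] at ha
    exact zero_ne_one ha
  rw [map_div₀, map_zpow₀] at ha ha'
  have hpa : O.valuation (p : F0) ^ a ≠ 0 := zpow_ne_zero _ ht0
  have hpa' : O.valuation (p : F0) ^ a' ≠ 0 := zpow_ne_zero _ ht0
  have e1 : O.valuation f = O.valuation (p : F0) ^ a := by
    rw [div_eq_one_iff_eq hpa] at ha
    exact ha
  have e2 : O.valuation f = O.valuation (p : F0) ^ a' := by
    rw [div_eq_one_iff_eq hpa'] at ha'
    exact ha'
  have e3 : O.valuation (p : F0) ^ (a - a') = 1 := by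
    rw [zpow_sub₀ ht0, ← e1, ← e2, div_self hf0]
  have := (zpow_eq_one_iff_right₀ zero_le ht1.ne).mp e3
  omega

/-- existence of the normalising exponent: the value group of `O = S_(u)` is generated by `v(p)` -/
theorem exists_zpow_val_eq_one (h : IsNodeRing S p u u') {O : ValuationSubring F0}
    (hO : IsBranch u O) {f : F0} (hf : f ≠ 0) : ∃ a : ℤ, O.valuation (f / (p : F0) ^ a) = 1 := by
  have : UniqueFactorizationMonoid S :=
    ufm_of_quotient_principal u h.u_mem_jacobson h.prime_u h.quotient_isPrincipal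
  obtain ⟨f1, f2, hf2mem, hfrac⟩ := IsFractionRing.div_surjective (A := S) f
  have hf2 : f2 ≠ 0 := nonZeroDivisors.ne_zero hf2mem
  have hf1 : f1 ≠ 0 := by
    rintro rfl
    rw [map_zero, zero_div] at hfrac
    exact hf hfrac.symm
  obtain ⟨n1, c1, hc1, e1⟩ := WfDvdMonoid.max_power_factor hf1 h.prime_u.irreducible
  obtain ⟨n2, c2, hc2, e2⟩ := WfDvdMonoid.max_power_factor hf2 h.prime_u.irreducible
  have ht0 : O.valuation (algebraMap S F0 u) ≠ 0 :=
    (Valuation.ne_zero_iff _).mpr (IsBranch.algebraMap_ne_zero h.prime_u.ne_zero)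
  refine ⟨(n1 : ℤ) - n2, ?_⟩
  rw [map_div₀, map_zpow₀, val_natCast h hO, ← hfrac, map_div₀, e1, e2]
  simp only [map_mul, map_pow]
  rw [hO.val_eq_one hc1, hO.val_eq_one hc2, mul_one, mul_one, zpow_sub₀ ht0, zpow_natCast,
    zpow_natCast]
  exact div_self (div_ne_zero (pow_ne_zero _ ht0) (pow_ne_zero _ ht0))

/-- **(TAME)**, abstract order function. -/
theorem tame_node (h : IsNodeRing S p u u') (hp : p ≠ 0)
    {Oinf Ozero : ValuationSubring F0} (hinf : IsBranch u Oinf) (hzero : IsBranch u' Ozero)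
    {κ : Type*} [Field κ] (ρ : Oinf →+* κ)
    (hker : ∀ x : Oinf, ρ x = 0 ↔ Oinf.valuation (x : F0) < 1)
    (ordP : κ → ℤ) (hmul : ∀ x y : κ, x ≠ 0 → y ≠ 0 → ordP (x * y) = ordP x + ordP y)
    (hunit : ∀ x : S, IsUnit x → ordP (red Oinf ρ (algebraMap S F0 x)) = 0)
    (hu' : ordP (red Oinf ρ (algebraMap S F0 u')) = 1)
    {f : F0} (hf : f ≠ 0)
    (hn4 : ∀ π : S, Prime π → ¬ Associated π u → ¬ Associated π u' →
      ∀ f1 f2 : S, f1 ≠ 0 → f2 ≠ 0 → f * algebraMap S F0 f2 = algebraMap S F0 f1 →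
        (p : ℤ) ∣ (multiplicity π f1 : ℤ) - multiplicity π f2)
    {a b : ℤ} (ha : Oinf.valuation (f / (p : F0) ^ a) = 1)
    (hb : Ozero.valuation (f / (p : F0) ^ b) = 1) :
    ordP (red Oinf ρ (f / (p : F0) ^ a)) ≡ b - a [ZMOD p] := by
  have : UniqueFactorizationMonoid S :=
    ufm_of_quotient_principal u h.u_mem_jacobson h.prime_u h.quotient_isPrincipal
  -- the edge factorisation
  obtain ⟨A, B, ε, g1, g2, hg1u, hg1u', hg2u, hg2u', hfe⟩ :=
    exists_edge_factorisation_field hp h.prime_u h.prime_u' f hf (by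
      intro π hπ h1 h2 f1 f2 hf2 hmulf n1 n2 d1 d1' d2 d2'
      have hf1 : f1 ≠ 0 := by
        rintro rfl
        rw [map_zero] at hmulf
        exact hf ((mul_eq_zero.mp hmulf).resolve_right (IsBranch.algebraMap_ne_zero hf2))
      have := hn4 π hπ h1 h2 f1 f2 hf1 hf2 hmulf
      rwa [multiplicity_eq_of_dvd_of_not_dvd d1 d1', multiplicity_eq_of_dvd_of_not_dvd d2 d2']
        at this)
  obtain ⟨ψ, hψ⟩ := h.mul_eq
  have hu_nu : ¬ IsUnit u := h.prime_u.not_isUnit
  have hu'_nu : ¬ IsUnit u' := h.prime_u'.not_isUnit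
  -- the exponents are the normalising exponents
  have hA : A = a := by
    refine zpow_unique h hinf ?_ ha
    rw [map_div₀, map_zpow₀, val_natCast h hinf,
      hinf.val_edge hu_nu h.not_dvd hg1u hg2u hfe]
    exact div_self (zpow_ne_zero _ ((Valuation.ne_zero_iff _).mpr
      (IsBranch.algebraMap_ne_zero h.prime_u.ne_zero)))
  have hfe' : f = algebraMap S F0 ε * algebraMap S F0 u' ^ B * algebraMap S F0 u ^ A *
      (algebraMap S F0 g1 / algebraMap S F0 g2) ^ p := by
    rw [hfe]; ring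
  have hB : B = b := by
    refine zpow_unique h.symm hzero ?_ hb
    rw [map_div₀, map_zpow₀, val_natCast h.symm hzero,
      hzero.val_edge hu'_nu h.symm.not_dvd hg1u' hg2u' hfe']
    exact div_self (zpow_ne_zero _ ((Valuation.ne_zero_iff _).mpr
      (IsBranch.algebraMap_ne_zero h.prime_u'.ne_zero)))
  subst hA hB
  -- division by `p ^ A`
  have hπ : (p : S) = u * u' * ((ψ⁻¹ : Sˣ) : S) := by
    rw [hψ, mul_assoc, Units.mul_inv, mul_one]
  have hdiv := edge_div_pow (K := F0) (ψ⁻¹) hπ h.prime_u.ne_zero h.prime_u'.ne_zero hfe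
  rw [map_natCast] at hdiv
  -- the four factors are units of `Oinf`
  have v1 : Oinf.valuation (algebraMap S F0 ε) = 1 := hinf.val_isUnit hu_nu ε.isUnit
  have v2 : Oinf.valuation (algebraMap S F0 ((ψ⁻¹ : Sˣ) : S)) = 1 :=
    hinf.val_isUnit hu_nu (ψ⁻¹).isUnit
  have v3 : Oinf.valuation (algebraMap S F0 u') = 1 := hinf.val_eq_one h.not_dvd
  have v4 : Oinf.valuation (algebraMap S F0 g1) = 1 := hinf.val_eq_one hg1u
  have v5 : Oinf.valuation (algebraMap S F0 g2) = 1 := hinf.val_eq_one hg2u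
  have v2' : Oinf.valuation (algebraMap S F0 ((ψ⁻¹ : Sˣ) : S) ^ (-A)) = 1 := by
    rw [map_zpow₀, v2, one_zpow]
  have v3' : Oinf.valuation (algebraMap S F0 u' ^ (B - A)) = 1 := by
    rw [map_zpow₀, v3, one_zpow]
  have v5' : Oinf.valuation (algebraMap S F0 g2)⁻¹ = 1 := by rw [map_inv₀, v5, inv_one]
  have v6 : Oinf.valuation (algebraMap S F0 g1 / algebraMap S F0 g2) = 1 := by
    rw [map_div₀, v4, v5, div_one]
  have v6' : Oinf.valuation ((algebraMap S F0 g1 / algebraMap S F0 g2) ^ p) = 1 := by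
    rw [map_pow, v6, one_pow]
  have v12 : Oinf.valuation (algebraMap S F0 ε * algebraMap S F0 ((ψ⁻¹ : Sˣ) : S) ^ (-A)) = 1 := by
    rw [map_mul, v1, v2', one_mul]
  have v123 : Oinf.valuation (algebraMap S F0 ε * algebraMap S F0 ((ψ⁻¹ : Sˣ) : S) ^ (-A) *
      algebraMap S F0 u' ^ (B - A)) = 1 := by
    rw [map_mul, v12, v3', one_mul]
  rw [hdiv, ordRed_mul ordP hker hmul v123 v6', ordRed_mul ordP hker hmul v12 v3',
    ordRed_mul ordP hker hmul v1 v2', ordRed_zpow ordP hker hmul v2, ordRed_zpow ordP hker hmul v3,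
    ordRed_pow ordP hker hmul v6, hunit _ ε.isUnit, hunit _ (ψ⁻¹).isUnit, hu']
  exact Int.modEq_iff_dvd.mpr
    ⟨-ordP (red Oinf ρ (algebraMap S F0 g1 / algebraMap S F0 g2)), by ring⟩

/-- **(TAME)** in `ZMod p` (the form of `Slope/SlopeInv.slopeFn`). -/
theorem tame_node_zmod (h : IsNodeRing S p u u') (hp : p ≠ 0)
    {Oinf Ozero : ValuationSubring F0} (hinf : IsBranch u Oinf) (hzero : IsBranch u' Ozero)
    {κ : Type*} [Field κ] (ρ : Oinf →+* κ)
    (hker : ∀ x : Oinf, ρ x = 0 ↔ Oinf.valuation (x : F0) < 1)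
    (ordP : κ → ℤ) (hmul : ∀ x y : κ, x ≠ 0 → y ≠ 0 → ordP (x * y) = ordP x + ordP y)
    (hunit : ∀ x : S, IsUnit x → ordP (red Oinf ρ (algebraMap S F0 x)) = 0)
    (hu' : ordP (red Oinf ρ (algebraMap S F0 u')) = 1)
    {f : F0} (hf : f ≠ 0)
    (hn4 : ∀ π : S, Prime π → ¬ Associated π u → ¬ Associated π u' →
      ∀ f1 f2 : S, f1 ≠ 0 → f2 ≠ 0 → f * algebraMap S F0 f2 = algebraMap S F0 f1 →
        (p : ℤ) ∣ (multiplicity π f1 : ℤ) - multiplicity π f2)
    {a b : ℤ} (ha : Oinf.valuation (f / (p : F0) ^ a) = 1)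
    (hb : Ozero.valuation (f / (p : F0) ^ b) = 1) :
    ((ordP (red Oinf ρ (f / (p : F0) ^ a)) : ℤ) : ZMod p) = ((b - a : ℤ) : ZMod p) :=
  (ZMod.intCast_eq_intCast_iff _ _ _).mpr
    (tame_node h hp hinf hzero ρ hker ordP hmul hunit hu' hf hn4 ha hb)

/-- **(TAME) at the other branch** `(C_0, P'_s)`: the same theorem for `h.symm`. -/
theorem tame_node_symm (h : IsNodeRing S p u u') (hp : p ≠ 0)
    {Oinf Ozero : ValuationSubring F0} (hinf : IsBranch u Oinf) (hzero : IsBranch u' Ozero)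
    {κ : Type*} [Field κ] (ρ : Ozero →+* κ)
    (hker : ∀ x : Ozero, ρ x = 0 ↔ Ozero.valuation (x : F0) < 1)
    (ordP : κ → ℤ) (hmul : ∀ x y : κ, x ≠ 0 → y ≠ 0 → ordP (x * y) = ordP x + ordP y)
    (hunit : ∀ x : S, IsUnit x → ordP (red Ozero ρ (algebraMap S F0 x)) = 0)
    (hu : ordP (red Ozero ρ (algebraMap S F0 u)) = 1)
    {f : F0} (hf : f ≠ 0)
    (hn4 : ∀ π : S, Prime π → ¬ Associated π u → ¬ Associated π u' →
      ∀ f1 f2 : S, f1 ≠ 0 → f2 ≠ 0 → f * algebraMap S F0 f2 = algebraMap S F0 f1 →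
        (p : ℤ) ∣ (multiplicity π f1 : ℤ) - multiplicity π f2)
    {a b : ℤ} (ha : Oinf.valuation (f / (p : F0) ^ a) = 1)
    (hb : Ozero.valuation (f / (p : F0) ^ b) = 1) :
    ordP (red Ozero ρ (f / (p : F0) ^ b)) ≡ a - b [ZMOD p] :=
  tame_node h.symm hp hzero hinf ρ hker ordP hmul hunit hu hf
    (fun π hπ h1 h2 => hn4 π hπ h2 h1) hb ha

/-- **Harmonicity at the node** (`n_s + n'_s = 0`): the two slopes at a node are opposite. -/
theorem tame_node_add (h : IsNodeRing S p u u') (hp : p ≠ 0)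
    {Oinf Ozero : ValuationSubring F0} (hinf : IsBranch u Oinf) (hzero : IsBranch u' Ozero)
    {κ κ' : Type*} [Field κ] [Field κ'] (ρ : Oinf →+* κ) (ρ' : Ozero →+* κ')
    (hker : ∀ x : Oinf, ρ x = 0 ↔ Oinf.valuation (x : F0) < 1)
    (hker' : ∀ x : Ozero, ρ' x = 0 ↔ Ozero.valuation (x : F0) < 1)
    (ordP : κ → ℤ) (hmul : ∀ x y : κ, x ≠ 0 → y ≠ 0 → ordP (x * y) = ordP x + ordP y)
    (ordP' : κ' → ℤ) (hmul' : ∀ x y : κ', x ≠ 0 → y ≠ 0 → ordP' (x * y) = ordP' x + ordP' y)
    (hunit : ∀ x : S, IsUnit x → ordP (red Oinf ρ (algebraMap S F0 x)) = 0)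
    (hunit' : ∀ x : S, IsUnit x → ordP' (red Ozero ρ' (algebraMap S F0 x)) = 0)
    (hu' : ordP (red Oinf ρ (algebraMap S F0 u')) = 1)
    (hu : ordP' (red Ozero ρ' (algebraMap S F0 u)) = 1)
    {f : F0} (hf : f ≠ 0)
    (hn4 : ∀ π : S, Prime π → ¬ Associated π u → ¬ Associated π u' →
      ∀ f1 f2 : S, f1 ≠ 0 → f2 ≠ 0 → f * algebraMap S F0 f2 = algebraMap S F0 f1 →
        (p : ℤ) ∣ (multiplicity π f1 : ℤ) - multiplicity π f2)
    {a b : ℤ} (ha : Oinf.valuation (f / (p : F0) ^ a) = 1)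
    (hb : Ozero.valuation (f / (p : F0) ^ b) = 1) :
    ordP (red Oinf ρ (f / (p : F0) ^ a)) + ordP' (red Ozero ρ' (f / (p : F0) ^ b))
      ≡ 0 [ZMOD p] := by
  have h1 := tame_node h hp hinf hzero ρ hker ordP hmul hunit hu' hf hn4 ha hb
  have h2 := tame_node_symm h hp hinf hzero ρ' hker' ordP' hmul' hunit' hu hf hn4 ha hb
  have h3 := h1.add h2
  have e : b - a + (a - b) = 0 := by ring
  rwa [e] at h3

/-! ### The order function of a place (Prelude vocabulary) -/

/-- `hunit` of `tame_node` follows from the positivity of `ordP ∘ red` on `S`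
(`S ⧸ (u)` maps into the local ring of the point `P_s`). -/
theorem ordRed_eq_zero_of_isUnit {u : S} {O : ValuationSubring F0} (hO : IsBranch u O)
    (hu : ¬ IsUnit u) {κ : Type*} [Field κ] {ρ : O →+* κ}
    (hker : ∀ x : O, ρ x = 0 ↔ O.valuation (x : F0) < 1)
    (ordP : κ → ℤ) (hmul : ∀ x y : κ, x ≠ 0 → y ≠ 0 → ordP (x * y) = ordP x + ordP y)
    (hpos : ∀ x : S, 0 ≤ ordP (red O ρ (algebraMap S F0 x))) {x : S} (hx : IsUnit x) :
    ordP (red O ρ (algebraMap S F0 x)) = 0 := by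
  obtain ⟨y, rfl⟩ := hx
  have h1 := hpos (y : S)
  have h2 := hpos ((y⁻¹ : Sˣ) : S)
  have hv : O.valuation (algebraMap S F0 (y : S)) = 1 := hO.val_isUnit hu y.isUnit
  rw [map_units_inv, ordRed_inv ordP hker hmul hv] at h2
  linarith

/-- **(TAME)** for the order function of a place `P` of the residue function field `κ / k`. -/
theorem tame_node_place (h : IsNodeRing S p u u') (hp : p ≠ 0)
    {Oinf Ozero : ValuationSubring F0} (hinf : IsBranch u Oinf) (hzero : IsBranch u' Ozero)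
    {k κ : Type*} [Field k] [Field κ] [Algebra k κ] (ρ : Oinf →+* κ)
    (hker : ∀ x : Oinf, ρ x = 0 ↔ Oinf.valuation (x : F0) < 1)
    (P : AlgebraicCurve.Place k κ)
    (hpos : ∀ x : S, 0 ≤ P.ord (red Oinf ρ (algebraMap S F0 x)))
    (hu' : P.ord (red Oinf ρ (algebraMap S F0 u')) = 1)
    {f : F0} (hf : f ≠ 0)
    (hn4 : ∀ π : S, Prime π → ¬ Associated π u → ¬ Associated π u' →
      ∀ f1 f2 : S, f1 ≠ 0 → f2 ≠ 0 → f * algebraMap S F0 f2 = algebraMap S F0 f1 →
        (p : ℤ) ∣ (multiplicity π f1 : ℤ) - multiplicity π f2)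
    {a b : ℤ} (ha : Oinf.valuation (f / (p : F0) ^ a) = 1)
    (hb : Ozero.valuation (f / (p : F0) ^ b) = 1) :
    P.ord (red Oinf ρ (f / (p : F0) ^ a)) ≡ b - a [ZMOD p] :=
  tame_node h hp hinf hzero ρ hker P.ord (fun _ _ hx hy => P.ord_mul hx hy)
    (fun _ hx => ordRed_eq_zero_of_isUnit hinf h.prime_u.not_isUnit hker P.ord
      (fun _ _ hx hy => P.ord_mul hx hy) hpos hx) hu' hf hn4 ha hb

end Fermat.Agent.S40x.Node.TameNodeB
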