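import Fermat.Agent.S40x.Node.NodeFrac
import Fermat.Agent.S40x.Node.NodeLocalDatum
import Fermat.Agent.S40x.Node.TameNodeB
import Fermat.Agent.S34x.C0two.Pair

/-!
# P-S44, block R1 / N-alpha: the VALUATION HALF of (N-OUT) for the node ring, instance (helper5)

Setting: two `Gateway.C0.RedSetup`s `R₁ : (A, V, k, κ₁)`, `R₂ : (A, W, k, κ₂)` with the same `π`
(`V = v_∞`, `W = v_0`), `R := redSetupTwoVal R₁ R₂ hπ` (at level `M q` this IS
`RedSetupInst.redSetup2 H hA`), a chart coordinate `C`, a set `Γ` of semilinear automorphisms,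
`B_0 = NodeInst.B0 C Γ`, `F_0 = NodeFrac.fixedField Γ`, a prime `m` of `B_0` containing the kernels
of `rho1`, `rho2` (a node ideal), `S = Localization.AtPrime m` inside `F_0` (`Node/NodeFrac`).

* `restrictVal O F0`, `Oinf Γ V`, `Ozero Γ W` : the two Gauss valuation subrings restricted to
  the fixed field;
* `(v1)` `mem_Oinf`, `inv_mem_Oinf_of_not_dvd`, `(v0)` `natCast_inv_notMem_Oinf`,
  `isBranch_inf : IsBranch u (Oinf Γ V)` (helper86's literal); the same for `Ozero`, `u'`;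
* `redInf : Oinf Γ V →+* κ₁` with `redInf_eq_zero_iff` (kernel = the non-units), `redInfS`,
  `redInfS_algebraMap` (on `B_0` it is `rho1`);
* weak `(n3)` for a place `Ps` of `κ₁` centred at the point `χ` of `Spec B₁`:
  `ord_redInfS_nonneg`, `ord_redInfS_u'_eq_one`.
These are the hypotheses `hInf_mem hInf_unit hInf_p hZero_mem hZero_unit hZero_p redInf hredker
hPs_nonneg hPs_u'` of `EdgeB/TameNode.tame_of_isNodeRing` and `IsBranch` of `Node/TameNodeB`.
-/

set_option autoImplicit false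
set_option linter.unusedSectionVars false
set_option linter.style.haveILetI false

noncomputable section

namespace Fermat.Agent.S40x.Node.NodeValInst

open AlgebraicCurve IsLocalRing
open Fermat.Agent.S34x Fermat.Agent.S34x.C0two Fermat.Agent.S34x.Lattice2
open Fermat.Agent.S19x.Geo.LatticeFixed
open Fermat.Agent.S40x.Node.NodeInst Fermat.Agent.S40x.Node.NodeFrac
open Fermat.Agent.S40x.Node.NodeLocalDatum Fermat.Agent.S40x.Node.TameNodeB

/-! ### Restriction of a valuation subring to a subfield -/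

section Restrict

variable {F : Type*} [Field F]

theorem valuation_lt_one_iff_inv_notMem (O : ValuationSubring F) {x : F} (hx : x ≠ 0) :
    O.valuation x < 1 ↔ x⁻¹ ∉ O := by
  rw [← O.valuation_le_one_iff, map_inv₀, not_le]
  have h0 : O.valuation x ≠ 0 := (Valuation.ne_zero_iff _).mpr hx
  exact (one_lt_inv₀ (zero_lt_iff.mpr h0)).symm

/-- the restriction of a valuation subring to a subfield. -/
def restrictVal (O : ValuationSubring F) (F0 : Subfield F) : ValuationSubring F0 :=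
  O.comap F0.subtype

theorem mem_restrictVal {O : ValuationSubring F} {F0 : Subfield F} {x : F0} :
    x ∈ restrictVal O F0 ↔ (x : F) ∈ O := Iff.rfl

theorem restrictVal_valuation_lt_one_iff (O : ValuationSubring F) (F0 : Subfield F) (x : F0) :
    (restrictVal O F0).valuation x < 1 ↔ O.valuation (x : F) < 1 := by
  by_cases hx : x = 0
  · subst hx
    simp
  · have hxF : (x : F) ≠ 0 := fun h => hx (Subtype.ext h)
    rw [valuation_lt_one_iff_inv_notMem _ hx, valuation_lt_one_iff_inv_notMem _ hxF,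
      mem_restrictVal, Subfield.coe_inv]

end Restrict

variable {K : Type*} [Field K] {A : ValuationSubring K} {F : Type*} [Field F] [Algebra K F]
  {V W : ValuationSubring F} {k κ₁ κ₂ : Type*} [Field k] [Field κ₁] [Field κ₂]
  [Algebra k κ₁] [Algebra k κ₂]
  {R₁ : Gateway.C0.RedSetup A V k κ₁} {R₂ : Gateway.C0.RedSetup A W k κ₂} {hπ : R₁.π = R₂.π}
  {C : ChartCoord (redSetupTwoVal R₁ R₂ hπ)} {Γ : Set (SemilinearAut K F)}

/-! ### The two valuation subrings of the fixed field -/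

/-- `O_∞ ∩ F_0`. -/
abbrev Oinf (Γ : Set (SemilinearAut K F)) (V : ValuationSubring F) :
    ValuationSubring (fixedField Γ) := restrictVal V (fixedField Γ)

/-- `O_0 ∩ F_0`. -/
abbrev Ozero (Γ : Set (SemilinearAut K F)) (W : ValuationSubring F) :
    ValuationSubring (fixedField Γ) := restrictVal W (fixedField Γ)

theorem coe_mem_V (x : B0 C Γ) : (x : F) ∈ V := (coe_mem_O x).1

theorem coe_mem_W (x : B0 C Γ) : (x : F) ∈ W := (coe_mem_O x).2

theorem coe_rho1_eq (x : B0 C Γ) :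
    ((rho1 C Γ x : C.B₁) : κ₁) = R₁.res ⟨(x : F), coe_mem_V x⟩ := rfl

theorem coe_rho2_eq (x : B0 C Γ) :
    ((rho2 C Γ x : C.B₂) : κ₂) = R₂.res ⟨(x : F), coe_mem_W x⟩ := rfl

theorem rho1_eq_zero_iff (x : B0 C Γ) : rho1 C Γ x = 0 ↔ V.valuation (x : F) < 1 := by
  rw [← R₁.res_ker ⟨(x : F), coe_mem_V x⟩, ← coe_rho1_eq, ZeroMemClass.coe_eq_zero]

theorem rho2_eq_zero_iff (x : B0 C Γ) : rho2 C Γ x = 0 ↔ W.valuation (x : F) < 1 := by
  rw [← R₂.res_ker ⟨(x : F), coe_mem_W x⟩, ← coe_rho2_eq, ZeroMemClass.coe_eq_zero]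

theorem inv_mem_V_of_rho1_ne_zero {x : B0 C Γ} (hx : rho1 C Γ x ≠ 0) : (x : F)⁻¹ ∈ V := by
  by_contra hcon
  have hx0 : (x : F) ≠ 0 := by
    intro h0
    apply hcon
    rw [h0, inv_zero]
    exact V.zero_mem
  exact hx ((rho1_eq_zero_iff x).mpr ((valuation_lt_one_iff_inv_notMem V hx0).mpr hcon))

theorem inv_mem_W_of_rho2_ne_zero {x : B0 C Γ} (hx : rho2 C Γ x ≠ 0) : (x : F)⁻¹ ∈ W := by
  by_contra hcon
  have hx0 : (x : F) ≠ 0 := by
    intro h0
    apply hcon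
    rw [h0, inv_zero]
    exact W.zero_mem
  exact hx ((rho2_eq_zero_iff x).mpr ((valuation_lt_one_iff_inv_notMem W hx0).mpr hcon))

theorem algebraMap_mem_Oinf (b : B0 C Γ) :
    algebraMap (B0 C Γ) (fixedField Γ) b ∈ Oinf Γ V := coe_mem_V b

theorem algebraMap_mem_Ozero (b : B0 C Γ) :
    algebraMap (B0 C Γ) (fixedField Γ) b ∈ Ozero Γ W := coe_mem_W b

theorem inv_algebraMap_mem_Oinf {b : B0 C Γ} (hb : rho1 C Γ b ≠ 0) :
    (algebraMap (B0 C Γ) (fixedField Γ) b)⁻¹ ∈ Oinf Γ V := by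
  rw [mem_restrictVal, Subfield.coe_inv]
  exact inv_mem_V_of_rho1_ne_zero hb

theorem inv_algebraMap_mem_Ozero {b : B0 C Γ} (hb : rho2 C Γ b ≠ 0) :
    (algebraMap (B0 C Γ) (fixedField Γ) b)⁻¹ ∈ Ozero Γ W := by
  rw [mem_restrictVal, Subfield.coe_inv]
  exact inv_mem_W_of_rho2_ne_zero hb

/-! ### `(v1)`, `(v0)` for the node ring -/

section Node

variable (m : Ideal (B0 C Γ)) [m.IsPrime]
  (hker1 : ∀ b : B0 C Γ, rho1 C Γ b = 0 → b ∈ m) (hker2 : ∀ b : B0 C Γ, rho2 C Γ b = 0 → b ∈ m)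

local notation "ι" => algebraMap (Localization.AtPrime m) (fixedField Γ)

local notation "j" => algebraMap (B0 C Γ) (Localization.AtPrime m)

include hker1 in
/-- **(v1)** `R_s ⊆ O_∞`. -/
theorem mem_Oinf (x : Localization.AtPrime m) : ι x ∈ Oinf Γ V :=
  NodeLocalDatum.algebraMap_mem (rho1 C Γ) m (Oinf Γ V) (algebraMap_fixed_injective C Γ)
    algebraMap_mem_Oinf (fun _ hb => inv_algebraMap_mem_Oinf hb) hker1 x

include hker2 in
/-- **(v1')** `R_s ⊆ O_0`. -/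
theorem mem_Ozero (x : Localization.AtPrime m) : ι x ∈ Ozero Γ W :=
  NodeLocalDatum.algebraMap_mem (rho2 C Γ) m (Ozero Γ W) (algebraMap_fixed_injective C Γ)
    algebraMap_mem_Ozero (fun _ hb => inv_algebraMap_mem_Ozero hb) hker2 x

variable {p u u' Ψ : B0 C Γ}

/-- **(v1)** the elements of `R_s` outside `u R_s` are units of `O_∞`. -/
theorem inv_mem_Oinf_of_not_dvd (hp : p ≠ 0)
    (hker : ∀ f, rho1 C Γ f = 0 → rho2 C Γ f = 0 → p ∣ f) (hrel : u * u' = p * Ψ)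
    (h2 : rho2 C Γ u' = 0) (hΨ : Ψ ∉ m) {x : Localization.AtPrime m} (hx : ¬ j u ∣ x) :
    (ι x)⁻¹ ∈ Oinf Γ V := by
  have key := @NodeLocalDatum.inv_mem_of_not_dvd (B0 C Γ) C.B₁ C.B₂ _ _ _ _ (rho1 C Γ)
    (rho2 C Γ) p u u' Ψ (Localization.AtPrime m) _ _ m _ _ (fixedField Γ) _ _ _ _ (Oinf Γ V)
    (algebraMap_fixed_injective C Γ) algebraMap_mem_Oinf
    (fun _ hb => inv_algebraMap_mem_Oinf hb) hp hker hrel h2 hΨ
  exact key hx

/-- **(v1')** the elements of `R_s` outside `u' R_s` are units of `O_0`. -/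
theorem inv_mem_Ozero_of_not_dvd (hp : p ≠ 0)
    (hker : ∀ f, rho1 C Γ f = 0 → rho2 C Γ f = 0 → p ∣ f) (hrel : u * u' = p * Ψ)
    (h1 : rho1 C Γ u = 0) (hΨ : Ψ ∉ m) {x : Localization.AtPrime m} (hx : ¬ j u' ∣ x) :
    (ι x)⁻¹ ∈ Ozero Γ W := by
  have hrel' : u' * u = p * Ψ := by rw [mul_comm]; exact hrel
  have hker' : ∀ f, rho2 C Γ f = 0 → rho1 C Γ f = 0 → p ∣ f := fun f a b => hker f b a
  have key := @NodeLocalDatum.inv_mem_of_not_dvd (B0 C Γ) C.B₂ C.B₁ _ _ _ _ (rho2 C Γ)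
    (rho1 C Γ) p u' u Ψ (Localization.AtPrime m) _ _ m _ _ (fixedField Γ) _ _ _ _ (Ozero Γ W)
    (algebraMap_fixed_injective C Γ) algebraMap_mem_Ozero
    (fun _ hb => inv_algebraMap_mem_Ozero hb) hp hker' hrel' h1 hΨ
  exact key hx

theorem coe_iota_algebraMap (b : B0 C Γ) : ((ι (j b) : fixedField Γ) : F) = (b : F) := by
  rw [algebraMap_loc_algebraMap]
  rfl

/-- an element of `B_0` with zero first reduction is not a unit of `O_∞`. -/
theorem inv_notMem_Oinf {b : B0 C Γ} (hb0 : b ≠ 0) (hb : rho1 C Γ b = 0) :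
    (ι (j b))⁻¹ ∉ Oinf Γ V := by
  rw [mem_restrictVal, Subfield.coe_inv, coe_iota_algebraMap]
  have hbF : (b : F) ≠ 0 := fun h => hb0 (Subtype.ext h)
  exact (valuation_lt_one_iff_inv_notMem V hbF).mp ((rho1_eq_zero_iff b).mp hb)

/-- an element of `B_0` with zero second reduction is not a unit of `O_0`. -/
theorem inv_notMem_Ozero {b : B0 C Γ} (hb0 : b ≠ 0) (hb : rho2 C Γ b = 0) :
    (ι (j b))⁻¹ ∉ Ozero Γ W := by
  rw [mem_restrictVal, Subfield.coe_inv, coe_iota_algebraMap]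
  have hbF : (b : F) ≠ 0 := fun h => hb0 (Subtype.ext h)
  exact (valuation_lt_one_iff_inv_notMem W hbF).mp ((rho2_eq_zero_iff b).mp hb)

/-- **(v0)** `p⁻¹ ∉ O_∞` for a prime number `q` in the maximal ideal of `A`. -/
theorem natCast_inv_notMem_Oinf (R₁ : Gateway.C0.RedSetup A V k κ₁) {q : ℕ} (hq0 : ((q : ℕ) : K) ≠ 0)
    (hqm : ((q : ℕ) : A) ∈ maximalIdeal A) : (((q : ℕ) : fixedField Γ))⁻¹ ∉ Oinf Γ V := by
  rw [mem_restrictVal, Subfield.coe_inv, SubringClass.coe_natCast]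
  have hqF : ((q : ℕ) : F) ≠ 0 := by
    have : ((q : ℕ) : F) = algebraMap K F ((q : ℕ) : K) := by rw [map_natCast]
    rw [this]
    exact fun h => hq0 ((map_eq_zero_iff _ (algebraMap K F).injective).mp h)
  refine (valuation_lt_one_iff_inv_notMem V hqF).mp ?_
  have h1 : R₁.res ⟨algebraMap K F (((q : ℕ) : A) : K), R₁.algebraMap_mem _⟩ = 0 := by
    rw [R₁.res_algebraMap, (R₁.π_eq_zero_iff _).mpr hqm, map_zero]
  have h2 := (R₁.res_ker _).mp h1
  simpa using h2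

/-- **(v0')** `p⁻¹ ∉ O_0`. -/
theorem natCast_inv_notMem_Ozero (R₂ : Gateway.C0.RedSetup A W k κ₂) {q : ℕ} (hq0 : ((q : ℕ) : K) ≠ 0)
    (hqm : ((q : ℕ) : A) ∈ maximalIdeal A) : (((q : ℕ) : fixedField Γ))⁻¹ ∉ Ozero Γ W := by
  rw [mem_restrictVal, Subfield.coe_inv, SubringClass.coe_natCast]
  have hqF : ((q : ℕ) : F) ≠ 0 := by
    have : ((q : ℕ) : F) = algebraMap K F ((q : ℕ) : K) := by rw [map_natCast]
    rw [this]
    exact fun h => hq0 ((map_eq_zero_iff _ (algebraMap K F).injective).mp h)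
  refine (valuation_lt_one_iff_inv_notMem W hqF).mp ?_
  have h1 : R₂.res ⟨algebraMap K F (((q : ℕ) : A) : K), R₂.algebraMap_mem _⟩ = 0 := by
    rw [R₂.res_algebraMap, (R₂.π_eq_zero_iff _).mpr hqm, map_zero]
  have h2 := (R₂.res_ker _).mp h1
  simpa using h2

include hker1 in
/-- **`IsBranch u O_∞`** (the literal of `Node/TameNodeB`). -/
theorem isBranch_inf (hD : Fermat.Agent.S33x.H1.LatticeFixed2.FixData2 (redSetupTwoVal R₁ R₂ hπ) Γ)
    (hF : Submodule.span K {f : F | IsFixed Γ f} = ⊤)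
    (hstab : ∀ b, ∀ s ∈ Γ, ∀ f ∈ C.LN 0 b, s • f ∈ C.LN 0 b)
    [Algebra.IsAlgebraic (Algebra.adjoin K {C.t}) F]
    (hp : p ≠ 0) (hker : ∀ f, rho1 C Γ f = 0 → rho2 C Γ f = 0 → p ∣ f)
    (hrel : u * u' = p * Ψ) (h1 : rho1 C Γ u = 0) (h2 : rho2 C Γ u' = 0) (hΨ : Ψ ∉ m) :
    haveI := isFractionRing_localization m hD hF hstab
    IsBranch (j u) (Oinf Γ V) := by
  haveI := isFractionRing_localization m hD hF hstab
  exact
    { mem := mem_Oinf m hker1
      inv_mem := fun x hx => inv_mem_Oinf_of_not_dvd m hp hker hrel h2 hΨ hx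
      inv_notMem := inv_notMem_Oinf m (NodeLocal.u_ne_zero m hp hrel hΨ) h1 }

include hker2 in
/-- **`IsBranch u' O_0`**. -/
theorem isBranch_zero
    (hD : Fermat.Agent.S33x.H1.LatticeFixed2.FixData2 (redSetupTwoVal R₁ R₂ hπ) Γ)
    (hF : Submodule.span K {f : F | IsFixed Γ f} = ⊤)
    (hstab : ∀ b, ∀ s ∈ Γ, ∀ f ∈ C.LN 0 b, s • f ∈ C.LN 0 b)
    [Algebra.IsAlgebraic (Algebra.adjoin K {C.t}) F]
    (hp : p ≠ 0) (hker : ∀ f, rho1 C Γ f = 0 → rho2 C Γ f = 0 → p ∣ f)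
    (hrel : u * u' = p * Ψ) (h1 : rho1 C Γ u = 0) (h2 : rho2 C Γ u' = 0) (hΨ : Ψ ∉ m) :
    haveI := isFractionRing_localization m hD hF hstab
    IsBranch (j u') (Ozero Γ W) := by
  haveI := isFractionRing_localization m hD hF hstab
  exact
    { mem := mem_Ozero m hker2
      inv_mem := fun x hx => inv_mem_Ozero_of_not_dvd m hp hker hrel h1 hΨ hx
      inv_notMem := inv_notMem_Ozero m (NodeLocal.u'_ne_zero m hp hrel hΨ) h2 }

end Node

/-! ### The reduction `O_∞ ∩ F_0 → κ₁` -/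

section Red

/-- the inclusion `O_∞ ∩ F_0 → O_∞`. -/
def OinfToV : Oinf Γ V →+* V where
  toFun x := ⟨((x : fixedField Γ) : F), x.2⟩
  map_one' := rfl
  map_mul' _ _ := rfl
  map_zero' := rfl
  map_add' _ _ := rfl

/-- **the reduction** `red_∞` on `O_∞ ∩ F_0`. -/
def redInf (R₁ : Gateway.C0.RedSetup A V k κ₁) (Γ : Set (SemilinearAut K F)) :
    Oinf Γ V →+* κ₁ := R₁.res.comp OinfToV

theorem redInf_apply (x : Oinf Γ V) :
    redInf R₁ Γ x = R₁.res ⟨((x : fixedField Γ) : F), x.2⟩ := rfl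

/-- the kernel of `red_∞` is the maximal ideal of `O_∞ ∩ F_0` (`hker` of `Slope/SlopeInv`,
`hredker` of `EdgeB/TameNode`). -/
theorem redInf_eq_zero_iff (x : Oinf Γ V) :
    redInf R₁ Γ x = 0 ↔ (Oinf Γ V).valuation (x : fixedField Γ) < 1 := by
  rw [redInf_apply, R₁.res_ker, restrictVal_valuation_lt_one_iff]

variable (m : Ideal (B0 C Γ)) [m.IsPrime]
  (hker1 : ∀ b : B0 C Γ, rho1 C Γ b = 0 → b ∈ m)

/-- `R_s → O_∞ ∩ F_0`. -/
def locToOinf : Localization.AtPrime m →+* Oinf Γ V :=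
  (algebraMap (Localization.AtPrime m) (fixedField Γ)).codRestrict (Oinf Γ V).toSubring
    (mem_Oinf m hker1)

/-- **the reduction of the node ring** `R_s → κ₁`. -/
def redInfS : Localization.AtPrime m →+* κ₁ := (redInf R₁ Γ).comp (locToOinf m hker1)

theorem redInfS_apply (x : Localization.AtPrime m) :
    redInfS m hker1 x = redInf R₁ Γ
      ⟨algebraMap (Localization.AtPrime m) (fixedField Γ) x, mem_Oinf m hker1 x⟩ := rfl

/-- on `B_0` the reduction of the node ring is `rho1`. -/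
theorem redInfS_algebraMap (b : B0 C Γ) :
    redInfS m hker1 (algebraMap (B0 C Γ) (Localization.AtPrime m) b) =
      ((rho1 C Γ b : C.B₁) : κ₁) := by
  rw [redInfS_apply, redInf_apply, coe_rho1_eq]
  congr 1
  exact Subtype.ext (coe_iota_algebraMap m b)

end Red

/-! ### The weak `(n3)` at a place of `κ₁` centred at the node -/

section Place

variable (m : Ideal (B0 C Γ)) [m.IsPrime]
  (hker1 : ∀ b : B0 C Γ, rho1 C Γ b = 0 → b ∈ m)
  (Ps : Place k κ₁) (χ : C.B₁ →+* k)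
  (hm : ∀ b : B0 C Γ, b ∈ m ↔ χ (rho1 C Γ b) = 0)
  (hB1 : ∀ g : C.B₁, 0 ≤ Ps.ord (g : κ₁))
  (hcen : ∀ g : C.B₁, g ≠ 0 → (0 < Ps.ord (g : κ₁) ↔ χ g = 0))

include hm hB1 hcen in
/-- `(hPs_nonneg)`: the reduction of the node ring lands in the valuation ring of `Ps`. -/
theorem ord_redInfS_nonneg (x : Localization.AtPrime m) :
    0 ≤ Ps.ord (redInfS (R₁ := R₁) m hker1 x) := by
  obtain ⟨b, s, rfl⟩ := IsLocalization.exists_mk'_eq m.primeCompl x
  have hmul : IsLocalization.mk' (Localization.AtPrime m) b s *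
      algebraMap (B0 C Γ) (Localization.AtPrime m) (s : B0 C Γ) =
      algebraMap (B0 C Γ) (Localization.AtPrime m) b :=
    IsLocalization.mk'_spec (Localization.AtPrime m) b s
  obtain ⟨ρ, hρ⟩ : ∃ ρ : Localization.AtPrime m →+* κ₁, ρ = redInfS (R₁ := R₁) m hker1 :=
    ⟨_, rfl⟩
  rw [← hρ]
  by_cases h0 : ρ (IsLocalization.mk' (Localization.AtPrime m) b s) = 0
  · rw [h0, Ps.ord_zero]
  · have hsu : IsUnit (ρ (algebraMap (B0 C Γ) (Localization.AtPrime m) (s : B0 C Γ))) :=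
      (IsLocalization.map_units (Localization.AtPrime m) s).map ρ
    have h1 : Ps.ord (ρ (IsLocalization.mk' (Localization.AtPrime m) b s)) +
        Ps.ord (ρ (algebraMap (B0 C Γ) (Localization.AtPrime m) (s : B0 C Γ))) =
        Ps.ord (ρ (algebraMap (B0 C Γ) (Localization.AtPrime m) b)) := by
      rw [← Ps.ord_mul h0 hsu.ne_zero, ← map_mul, hmul]
    have hb : 0 ≤ Ps.ord (ρ (algebraMap (B0 C Γ) (Localization.AtPrime m) b)) := by
      rw [hρ, redInfS_algebraMap]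
      exact hB1 _
    have hs : Ps.ord (ρ (algebraMap (B0 C Γ) (Localization.AtPrime m) (s : B0 C Γ))) = 0 := by
      rw [hρ, redInfS_algebraMap]
      have hχ : χ (rho1 C Γ (s : B0 C Γ)) ≠ 0 := fun h0 => s.2 ((hm _).mpr h0)
      have hne : rho1 C Γ (s : B0 C Γ) ≠ 0 := fun h0 => hχ (by rw [h0, map_zero])
      have h1 := hB1 (rho1 C Γ (s : B0 C Γ))
      have h2 : ¬ 0 < Ps.ord ((rho1 C Γ (s : B0 C Γ) : C.B₁) : κ₁) :=
        fun h => hχ ((hcen _ hne).mp h)
      omega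
    omega

include hm hB1 hcen in
/-- `(hPs_u')`: the reduction of `u'` is a uniformiser at `Ps`, as soon as ONE element of `B₁`
has order one at `Ps`. -/
theorem ord_redInfS_u'_eq_one [IsLocalRing (Localization.AtPrime m)] {u u' : B0 C Γ}
    (hmax : maximalIdeal (Localization.AtPrime m) =
      Ideal.span {algebraMap (B0 C Γ) (Localization.AtPrime m) u,
        algebraMap (B0 C Γ) (Localization.AtPrime m) u'})
    (h1 : rho1 C Γ u = 0) (hu'm : u' ∈ m) (hu'1 : rho1 C Γ u' ≠ 0)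
    (hsurj : Function.Surjective (rho1 C Γ))
    (ht : ∃ g : C.B₁, Ps.ord (g : κ₁) = 1) :
    Ps.ord (redInfS (R₁ := R₁) m hker1 (algebraMap (B0 C Γ) (Localization.AtPrime m) u')) = 1 := by
  obtain ⟨ρ, hρ⟩ : ∃ ρ : Localization.AtPrime m →+* κ₁, ρ = redInfS (R₁ := R₁) m hker1 :=
    ⟨_, rfl⟩
  rw [← hρ]
  have hu : ρ (algebraMap (B0 C Γ) (Localization.AtPrime m) u) = 0 := by
    rw [hρ, redInfS_algebraMap, h1]
    rfl
  have hP1 : ∀ x : Localization.AtPrime m, 0 ≤ Ps.ord (ρ x) := by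
    intro x
    rw [hρ]
    exact ord_redInfS_nonneg m hker1 Ps χ hm hB1 hcen x
  have hP2 : 0 < Ps.ord (ρ (algebraMap (B0 C Γ) (Localization.AtPrime m) u')) := by
    rw [hρ, redInfS_algebraMap]
    exact (hcen _ hu'1).mpr ((hm u').mp hu'm)
  have ht' : ∃ t : Localization.AtPrime m, Ps.ord (ρ t) = 1 := by
    obtain ⟨g, hg⟩ := ht
    obtain ⟨b, rfl⟩ := hsurj g
    exact ⟨algebraMap (B0 C Γ) (Localization.AtPrime m) b, by
      rw [hρ, redInfS_algebraMap]; exact hg⟩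
  have key := @ord_map_u'_eq_one k κ₁ _ _ _ Ps (Localization.AtPrime m) _ ρ
    (algebraMap (B0 C Γ) (Localization.AtPrime m) u)
    (algebraMap (B0 C Γ) (Localization.AtPrime m) u') _
  have key2 := key hmax hu hP1 hP2 ht'
  exact key2

end Place

end Fermat.Agent.S40x.Node.NodeValInst

end
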