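import Fermat.Agent.S40x.R2.Slope.NodeOrder
import Fermat.Agent.S40x.R2.SlopeB.PlaceInst
import Fermat.Agent.S40x.Node.NodeValInst

/-!
# P-S44, block R1 / N-alpha, seam R1 -> C3-SLOPE: the literal `hn3` of `R2/Slope/NodeGlue` (helper5)

helper41's `R2/Slope/NodeGlue.node_slope_nodeOrd` asks, per node and per side, for

  `hn3 : ∀ r : R₀, ¬ u₀ ∣ r → ordAt O R.res P (φ₀ r) = ordQ u₀ u₀' r`

(`ordAt` of `R2/SlopeB/PlaceInst`, `ordQ` of `R2/Slope/NodeOrder`: the multiplicity of the class of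
`u₀'` in `R₀ ⧸ (u₀)`).

* `ordAt_eq_ordQ` : the ABSTRACT statement, for any Noetherian local domain `R₀` with maximal ideal
  `(u₀, u₀')`, `u₀` prime, `u₀ ∤ u₀'`, any `φ₀ : R₀ →+* F` into `O`, any `ρ : O →+* Eκ` with
  `ρ (φ₀ u₀) = 0`, `0 ≤ P.ord (ρ (φ₀ r))`, `P.ord (ρ (φ₀ u₀')) = 1` (covers nodes AND smooth
  points: `(u₀, u₀') = (p, t)`); `ordAt_eq_ordQ'` : the same with the weak hypotheses
  `0 < P.ord (ρ (φ₀ u₀'))` and "some element has order one";
* INSTANCE at the node ring `R_s = Localization.AtPrime m` of `Node/NodeValInst`: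
  `nodeEmb m : R_s →+* F` (through the fixed field), `nodeEmb_mem_V`, `nodeEmb_mem_W`,
  `res_nodeEmb`, and **`hn3_inf`** (side `v_∞`: `O = V`, `R = R₁`, `(u₀, u₀') = (u, u')`);
* the mirrored reduction `redZero`, `locToOzero`, `redZeroS`, `redZeroS_algebraMap`,
  `ord_redZeroS_nonneg`, `ord_redZeroS_u_eq_one` and **`hn3_zero`** (side `v_0`: `O = W`, `R = R₂`,
  `(u₀, u₀') = (u', u)`).
-/

set_option autoImplicit false
set_option linter.unusedSectionVars false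
set_option linter.style.haveILetI false

noncomputable section

namespace Fermat.Agent.S40x.Node.NodeOrdBridge

open AlgebraicCurve IsLocalRing
open Fermat.Agent.S34x Fermat.Agent.S34x.C0two Fermat.Agent.S34x.Lattice2
open Fermat.Agent.S19x.Geo.LatticeFixed
open Fermat.Agent.S40x.Node Fermat.Agent.S40x.Node.NodeInst Fermat.Agent.S40x.Node.NodeFrac
open Fermat.Agent.S40x.Node.NodeLocalDatum Fermat.Agent.S40x.Node.NodeValInst
open Fermat.Agent.S40x.R2.Slope (ordQ exists_unit_mul_pow)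
open Fermat.Agent.S40x.R2.SlopeB.PlaceInst (ordAt ordAt_apply)

/-! ### The abstract bridge -/

section Abstract

variable {F : Type*} [Field F] {k Eκ : Type*} [Field k] [Field Eκ] [Algebra k Eκ]
  {O : ValuationSubring F} (ρ : O →+* Eκ) (P : Place k Eκ)
  {R₀ : Type*} [CommRing R₀] [IsDomain R₀] [IsNoetherianRing R₀] [IsLocalRing R₀] {u₀ u₀' : R₀}

/-- **`hn3`, abstract form.** -/
theorem ordAt_eq_ordQ (hmax₀ : maximalIdeal R₀ = Ideal.span {u₀, u₀'}) (hu₀ : Prime u₀)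
    (hndvd₀ : ¬ u₀ ∣ u₀') (φ₀ : R₀ →+* F) (hφO : ∀ r, φ₀ r ∈ O)
    (hu : ρ ⟨φ₀ u₀, hφO u₀⟩ = 0) (hP1 : ∀ r, 0 ≤ P.ord (ρ ⟨φ₀ r, hφO r⟩))
    (hord : P.ord (ρ ⟨φ₀ u₀', hφO u₀'⟩) = 1) {r : R₀} (hr : ¬ u₀ ∣ r) :
    ordAt O ρ P (φ₀ r) = ordQ u₀ u₀' r := by
  obtain ⟨ε, r'', hε, hdec⟩ := exists_unit_mul_pow hmax₀ hu₀ hndvd₀ hr
  obtain ⟨ρ', hρ'⟩ : ∃ ρ' : R₀ →+* Eκ, ∀ x, ρ' x = ρ ⟨φ₀ x, hφO x⟩ :=
    ⟨ρ.comp (φ₀.codRestrict O.toSubring hφO), fun _ => rfl⟩
  have key := ord_map_eq_of_decomp P ρ' (u := u₀) (u' := u₀') (by rw [hρ']; exact hu)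
    (fun x => by rw [hρ']; exact hP1 x) (by rw [hρ']; exact hord) hε hdec
  rw [ordAt_apply, Fermat.Agent.S40x.Slope.SlopeInv.red_of_mem (hφO r), ← hρ']
  exact key

/-- **`hn3`, abstract form, weak hypotheses**: `ρ (φ₀ u₀')` has positive order and SOME element
of `R₀` reduces to a uniformiser at `P`. -/
theorem ordAt_eq_ordQ' (hmax₀ : maximalIdeal R₀ = Ideal.span {u₀, u₀'}) (hu₀ : Prime u₀)
    (hndvd₀ : ¬ u₀ ∣ u₀') (φ₀ : R₀ →+* F) (hφO : ∀ r, φ₀ r ∈ O)
    (hu : ρ ⟨φ₀ u₀, hφO u₀⟩ = 0) (hP1 : ∀ r, 0 ≤ P.ord (ρ ⟨φ₀ r, hφO r⟩))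
    (hP2 : 0 < P.ord (ρ ⟨φ₀ u₀', hφO u₀'⟩)) (ht : ∃ t : R₀, P.ord (ρ ⟨φ₀ t, hφO t⟩) = 1)
    {r : R₀} (hr : ¬ u₀ ∣ r) : ordAt O ρ P (φ₀ r) = ordQ u₀ u₀' r := by
  obtain ⟨ρ', hρ'⟩ : ∃ ρ' : R₀ →+* Eκ, ∀ x, ρ' x = ρ ⟨φ₀ x, hφO x⟩ :=
    ⟨ρ.comp (φ₀.codRestrict O.toSubring hφO), fun _ => rfl⟩
  have hord := ord_map_u'_eq_one P ρ' hmax₀ (by rw [hρ']; exact hu)
    (fun x => by rw [hρ']; exact hP1 x) (by rw [hρ']; exact hP2)
    (by obtain ⟨t, ht⟩ := ht; exact ⟨t, by rw [hρ']; exact ht⟩)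
  rw [hρ'] at hord
  exact ordAt_eq_ordQ ρ P hmax₀ hu₀ hndvd₀ φ₀ hφO hu hP1 hord hr

end Abstract

/-! ### The instance at the node ring of `Node/NodeValInst` -/

variable {K : Type*} [Field K] {A : ValuationSubring K} {F : Type*} [Field F] [Algebra K F]
  {V W : ValuationSubring F} {k κ₁ κ₂ : Type*} [Field k] [Field κ₁] [Field κ₂]
  [Algebra k κ₁] [Algebra k κ₂]
  {R₁ : Gateway.C0.RedSetup A V k κ₁} {R₂ : Gateway.C0.RedSetup A W k κ₂} {hπ : R₁.π = R₂.π}
  {C : ChartCoord (redSetupTwoVal R₁ R₂ hπ)} {Γ : Set (SemilinearAut K F)}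

section Emb

variable (m : Ideal (B0 C Γ)) [m.IsPrime]
  (hker1 : ∀ b : B0 C Γ, rho1 C Γ b = 0 → b ∈ m) (hker2 : ∀ b : B0 C Γ, rho2 C Γ b = 0 → b ∈ m)

/-- the embedding `R_s → F_0 → F` of the node ring into the full field. -/
def nodeEmb : Localization.AtPrime m →+* F :=
  (fixedField Γ).subtype.comp (algebraMap (Localization.AtPrime m) (fixedField Γ))

theorem nodeEmb_apply (x : Localization.AtPrime m) :
    nodeEmb m x = ((algebraMap (Localization.AtPrime m) (fixedField Γ) x : fixedField Γ) : F) :=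
  rfl

theorem nodeEmb_algebraMap (b : B0 C Γ) :
    nodeEmb m (algebraMap (B0 C Γ) (Localization.AtPrime m) b) = (b : F) :=
  coe_iota_algebraMap m b

theorem nodeEmb_injective : Function.Injective (nodeEmb (C := C) (Γ := Γ) m) := by
  have h1 : Function.Injective (algebraMap (Localization.AtPrime m) (fixedField Γ)) := by
    show Function.Injective (locToFixed m)
    rw [locToFixed, IsLocalization.lift_injective_iff]
    intro x y
    constructor
    · intro h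
      rw [IsLocalization.injective (Localization.AtPrime m)
        (Ideal.primeCompl_le_nonZeroDivisors m) h]
    · intro h
      rw [algebraMap_fixed_injective C Γ h]
  exact Subtype.val_injective.comp h1

include hker1 in
/-- `R_s ⊆ O_∞` inside the full field. -/
theorem nodeEmb_mem_V (x : Localization.AtPrime m) : nodeEmb m x ∈ V :=
  mem_Oinf m hker1 x

include hker2 in
/-- `R_s ⊆ O_0` inside the full field. -/
theorem nodeEmb_mem_W (x : Localization.AtPrime m) : nodeEmb m x ∈ W :=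
  mem_Ozero m hker2 x

/-- the residue map of `R₁` on the node ring is `redInfS`. -/
theorem res_nodeEmb (x : Localization.AtPrime m) :
    R₁.res ⟨nodeEmb m x, nodeEmb_mem_V m hker1 x⟩ = redInfS (R₁ := R₁) m hker1 x := rfl

end Emb

/-! ### `hn3` on the side `v_∞` -/

section Inf

variable (m : Ideal (B0 C Γ)) [m.IsPrime]
  (hker1 : ∀ b : B0 C Γ, rho1 C Γ b = 0 → b ∈ m)
  (Ps : Place k κ₁) (χ : C.B₁ →+* k)
  (hm : ∀ b : B0 C Γ, b ∈ m ↔ χ (rho1 C Γ b) = 0)
  (hB1 : ∀ g : C.B₁, 0 ≤ Ps.ord (g : κ₁))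
  (hcen : ∀ g : C.B₁, g ≠ 0 → (0 < Ps.ord (g : κ₁) ↔ χ g = 0))

include hker1 hm hB1 hcen in
/-- **`hn3` at a node, side `v_∞`** (helper41's literal in `R2/Slope/NodeGlue.node_slope_nodeOrd`
with `R₀ := R_s`, `(u₀, u₀') := (u, u')`, `φ₀ := nodeEmb m`, `O := V`, `R := R₁`, `P := Ps`). -/
theorem hn3_inf [IsDomain (Localization.AtPrime m)] [IsNoetherianRing (Localization.AtPrime m)]
    {q : ℕ} {u u' : B0 C Γ}
    (h : IsNodeRing (Localization.AtPrime m) q
      (algebraMap (B0 C Γ) (Localization.AtPrime m) u)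
      (algebraMap (B0 C Γ) (Localization.AtPrime m) u'))
    (h1 : rho1 C Γ u = 0) (hu'm : u' ∈ m) (hu'1 : rho1 C Γ u' ≠ 0)
    (hsurj : Function.Surjective (rho1 C Γ))
    (ht : ∃ g : C.B₁, Ps.ord (g : κ₁) = 1) :
    ∀ r : Localization.AtPrime m,
      ¬ algebraMap (B0 C Γ) (Localization.AtPrime m) u ∣ r →
      ordAt V R₁.res Ps (nodeEmb m r) =
        ordQ (algebraMap (B0 C Γ) (Localization.AtPrime m) u)
          (algebraMap (B0 C Γ) (Localization.AtPrime m) u') r := by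
  intro r hr
  have hu : R₁.res ⟨nodeEmb m (algebraMap (B0 C Γ) (Localization.AtPrime m) u),
      nodeEmb_mem_V m hker1 _⟩ = 0 := by
    rw [res_nodeEmb m hker1, redInfS_algebraMap, h1]
    rfl
  have hP1 : ∀ x : Localization.AtPrime m,
      0 ≤ Ps.ord (R₁.res ⟨nodeEmb m x, nodeEmb_mem_V m hker1 x⟩) := by
    intro x
    rw [res_nodeEmb m hker1]
    exact ord_redInfS_nonneg m hker1 Ps χ hm hB1 hcen x
  have hord : Ps.ord (R₁.res ⟨nodeEmb m (algebraMap (B0 C Γ) (Localization.AtPrime m) u'),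
      nodeEmb_mem_V m hker1 _⟩) = 1 := by
    rw [res_nodeEmb m hker1]
    exact ord_redInfS_u'_eq_one m hker1 Ps χ hm hB1 hcen h.maximalIdeal_eq h1 hu'm hu'1 hsurj ht
  have key := @ordAt_eq_ordQ F _ k κ₁ _ _ _ V R₁.res Ps (Localization.AtPrime m) _ _ _ _
    (algebraMap (B0 C Γ) (Localization.AtPrime m) u)
    (algebraMap (B0 C Γ) (Localization.AtPrime m) u') h.maximalIdeal_eq h.prime_u h.not_dvd
    (nodeEmb m) (nodeEmb_mem_V m hker1) hu hP1 hord r
  exact key hr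

end Inf

/-! ### The mirrored reduction `O_0 ∩ F_0 → κ₂` -/

section RedZero

/-- the inclusion `O_0 ∩ F_0 → O_0`. -/
def OzeroToW : Ozero Γ W →+* W where
  toFun x := ⟨((x : fixedField Γ) : F), x.2⟩
  map_one' := rfl
  map_mul' _ _ := rfl
  map_zero' := rfl
  map_add' _ _ := rfl

/-- **the reduction** `red_0` on `O_0 ∩ F_0`. -/
def redZero (R₂ : Gateway.C0.RedSetup A W k κ₂) (Γ : Set (SemilinearAut K F)) :
    Ozero Γ W →+* κ₂ := R₂.res.comp OzeroToW

theorem redZero_apply (x : Ozero Γ W) :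
    redZero R₂ Γ x = R₂.res ⟨((x : fixedField Γ) : F), x.2⟩ := rfl

/-- the kernel of `red_0` is the maximal ideal of `O_0 ∩ F_0`. -/
theorem redZero_eq_zero_iff (x : Ozero Γ W) :
    redZero R₂ Γ x = 0 ↔ (Ozero Γ W).valuation (x : fixedField Γ) < 1 := by
  rw [redZero_apply, R₂.res_ker, restrictVal_valuation_lt_one_iff]

variable (m : Ideal (B0 C Γ)) [m.IsPrime]
  (hker2 : ∀ b : B0 C Γ, rho2 C Γ b = 0 → b ∈ m)

/-- `R_s → O_0 ∩ F_0`. -/
def locToOzero : Localization.AtPrime m →+* Ozero Γ W :=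
  (algebraMap (Localization.AtPrime m) (fixedField Γ)).codRestrict (Ozero Γ W).toSubring
    (mem_Ozero m hker2)

/-- **the second reduction of the node ring** `R_s → κ₂`. -/
def redZeroS : Localization.AtPrime m →+* κ₂ := (redZero R₂ Γ).comp (locToOzero m hker2)

theorem redZeroS_apply (x : Localization.AtPrime m) :
    redZeroS m hker2 x = redZero R₂ Γ
      ⟨algebraMap (Localization.AtPrime m) (fixedField Γ) x, mem_Ozero m hker2 x⟩ := rfl

/-- on `B_0` the second reduction of the node ring is `rho2`. -/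
theorem redZeroS_algebraMap (b : B0 C Γ) :
    redZeroS m hker2 (algebraMap (B0 C Γ) (Localization.AtPrime m) b) =
      ((rho2 C Γ b : C.B₂) : κ₂) := by
  rw [redZeroS_apply, redZero_apply, coe_rho2_eq]
  congr 1
  exact Subtype.ext (coe_iota_algebraMap m b)

/-- the residue map of `R₂` on the node ring is `redZeroS`. -/
theorem res_nodeEmb_zero (x : Localization.AtPrime m) :
    R₂.res ⟨nodeEmb m x, nodeEmb_mem_W m hker2 x⟩ = redZeroS (R₂ := R₂) m hker2 x := rfl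

end RedZero

/-! ### `hn3` on the side `v_0` -/

section Zero

variable (m : Ideal (B0 C Γ)) [m.IsPrime]
  (hker2 : ∀ b : B0 C Γ, rho2 C Γ b = 0 → b ∈ m)
  (Ps : Place k κ₂) (χ : C.B₂ →+* k)
  (hm : ∀ b : B0 C Γ, b ∈ m ↔ χ (rho2 C Γ b) = 0)
  (hB2 : ∀ g : C.B₂, 0 ≤ Ps.ord (g : κ₂))
  (hcen : ∀ g : C.B₂, g ≠ 0 → (0 < Ps.ord (g : κ₂) ↔ χ g = 0))

include hm hB2 hcen in
/-- the second reduction of the node ring lands in the valuation ring of `Ps`. -/
theorem ord_redZeroS_nonneg (x : Localization.AtPrime m) :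
    0 ≤ Ps.ord (redZeroS (R₂ := R₂) m hker2 x) := by
  obtain ⟨ρ, hρ⟩ : ∃ ρ : Localization.AtPrime m →+* κ₂, ρ = redZeroS (R₂ := R₂) m hker2 :=
    ⟨_, rfl⟩
  rw [← hρ]
  have hB : ∀ b : B0 C Γ, 0 ≤ Ps.ord (ρ (algebraMap (B0 C Γ) (Localization.AtPrime m) b)) := by
    intro b
    rw [hρ, redZeroS_algebraMap]
    exact hB2 _
  have hs : ∀ s : B0 C Γ, s ∉ m →
      Ps.ord (ρ (algebraMap (B0 C Γ) (Localization.AtPrime m) s)) = 0 := by
    intro s hsm
    rw [hρ, redZeroS_algebraMap]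
    have hχ : χ (rho2 C Γ s) ≠ 0 := fun h0 => hsm ((hm _).mpr h0)
    have hne : rho2 C Γ s ≠ 0 := fun h0 => hχ (by rw [h0, map_zero])
    have h1 := hB2 (rho2 C Γ s)
    have h2 : ¬ 0 < Ps.ord ((rho2 C Γ s : C.B₂) : κ₂) := fun h => hχ ((hcen _ hne).mp h)
    omega
  obtain ⟨b, s, rfl⟩ := IsLocalization.exists_mk'_eq m.primeCompl x
  have hmul : IsLocalization.mk' (Localization.AtPrime m) b s *
      algebraMap (B0 C Γ) (Localization.AtPrime m) (s : B0 C Γ) =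
      algebraMap (B0 C Γ) (Localization.AtPrime m) b :=
    IsLocalization.mk'_spec (Localization.AtPrime m) b s
  by_cases h0 : ρ (IsLocalization.mk' (Localization.AtPrime m) b s) = 0
  · rw [h0, Ps.ord_zero]
  · have hsu : IsUnit (ρ (algebraMap (B0 C Γ) (Localization.AtPrime m) (s : B0 C Γ))) :=
      (IsLocalization.map_units (Localization.AtPrime m) s).map ρ
    have h1 : Ps.ord (ρ (IsLocalization.mk' (Localization.AtPrime m) b s)) +
        Ps.ord (ρ (algebraMap (B0 C Γ) (Localization.AtPrime m) (s : B0 C Γ))) =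
        Ps.ord (ρ (algebraMap (B0 C Γ) (Localization.AtPrime m) b)) := by
      rw [← Ps.ord_mul h0 hsu.ne_zero, ← map_mul, hmul]
    have := hB b
    have := hs s s.2
    omega

include hm hB2 hcen in
/-- the second reduction of `u` is a uniformiser at `Ps`, as soon as ONE element of `B₂` has
order one at `Ps`. -/
theorem ord_redZeroS_u_eq_one {u u' : B0 C Γ}
    (hmax : maximalIdeal (Localization.AtPrime m) =
      Ideal.span {algebraMap (B0 C Γ) (Localization.AtPrime m) u',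
        algebraMap (B0 C Γ) (Localization.AtPrime m) u})
    (h2 : rho2 C Γ u' = 0) (hum : u ∈ m) (hu2 : rho2 C Γ u ≠ 0)
    (hsurj : Function.Surjective (rho2 C Γ))
    (ht : ∃ g : C.B₂, Ps.ord (g : κ₂) = 1) :
    Ps.ord (redZeroS (R₂ := R₂) m hker2 (algebraMap (B0 C Γ) (Localization.AtPrime m) u)) = 1 := by
  obtain ⟨ρ, hρ⟩ : ∃ ρ : Localization.AtPrime m →+* κ₂, ρ = redZeroS (R₂ := R₂) m hker2 :=
    ⟨_, rfl⟩
  rw [← hρ]
  have hu : ρ (algebraMap (B0 C Γ) (Localization.AtPrime m) u') = 0 := by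
    rw [hρ, redZeroS_algebraMap, h2]
    rfl
  have hP1 : ∀ x : Localization.AtPrime m, 0 ≤ Ps.ord (ρ x) := by
    intro x
    rw [hρ]
    exact ord_redZeroS_nonneg m hker2 Ps χ hm hB2 hcen x
  have hP2 : 0 < Ps.ord (ρ (algebraMap (B0 C Γ) (Localization.AtPrime m) u)) := by
    rw [hρ, redZeroS_algebraMap]
    exact (hcen _ hu2).mpr ((hm u).mp hum)
  have ht' : ∃ t : Localization.AtPrime m, Ps.ord (ρ t) = 1 := by
    obtain ⟨g, hg⟩ := ht
    obtain ⟨b, rfl⟩ := hsurj g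
    exact ⟨algebraMap (B0 C Γ) (Localization.AtPrime m) b, by
      rw [hρ, redZeroS_algebraMap]; exact hg⟩
  have key := @ord_map_u'_eq_one k κ₂ _ _ _ Ps (Localization.AtPrime m) _ ρ
    (algebraMap (B0 C Γ) (Localization.AtPrime m) u')
    (algebraMap (B0 C Γ) (Localization.AtPrime m) u) _
  have key2 := key hmax hu hP1 hP2 ht'
  exact key2

include hker2 hm hB2 hcen in
/-- **`hn3` at a node, side `v_0`** (helper41's literal with `R₀ := R_s`, `(u₀, u₀') := (u', u)`,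
`φ₀ := nodeEmb m`, `O := W`, `R := R₂`, `P := Ps`). -/
theorem hn3_zero [IsDomain (Localization.AtPrime m)] [IsNoetherianRing (Localization.AtPrime m)]
    {q : ℕ} {u u' : B0 C Γ}
    (h : IsNodeRing (Localization.AtPrime m) q
      (algebraMap (B0 C Γ) (Localization.AtPrime m) u)
      (algebraMap (B0 C Γ) (Localization.AtPrime m) u'))
    (h2 : rho2 C Γ u' = 0) (hum : u ∈ m) (hu2 : rho2 C Γ u ≠ 0)
    (hsurj : Function.Surjective (rho2 C Γ))
    (ht : ∃ g : C.B₂, Ps.ord (g : κ₂) = 1) :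
    ∀ r : Localization.AtPrime m,
      ¬ algebraMap (B0 C Γ) (Localization.AtPrime m) u' ∣ r →
      ordAt W R₂.res Ps (nodeEmb m r) =
        ordQ (algebraMap (B0 C Γ) (Localization.AtPrime m) u')
          (algebraMap (B0 C Γ) (Localization.AtPrime m) u) r := by
  intro r hr
  have hs := h.symm
  have hu : R₂.res ⟨nodeEmb m (algebraMap (B0 C Γ) (Localization.AtPrime m) u'),
      nodeEmb_mem_W m hker2 _⟩ = 0 := by
    rw [res_nodeEmb_zero m hker2, redZeroS_algebraMap, h2]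
    rfl
  have hP1 : ∀ x : Localization.AtPrime m,
      0 ≤ Ps.ord (R₂.res ⟨nodeEmb m x, nodeEmb_mem_W m hker2 x⟩) := by
    intro x
    rw [res_nodeEmb_zero m hker2]
    exact ord_redZeroS_nonneg m hker2 Ps χ hm hB2 hcen x
  have hord : Ps.ord (R₂.res ⟨nodeEmb m (algebraMap (B0 C Γ) (Localization.AtPrime m) u),
      nodeEmb_mem_W m hker2 _⟩) = 1 := by
    rw [res_nodeEmb_zero m hker2]
    exact ord_redZeroS_u_eq_one m hker2 Ps χ hm hB2 hcen hs.maximalIdeal_eq h2 hum hu2 hsurj ht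
  have key := @ordAt_eq_ordQ F _ k κ₂ _ _ _ W R₂.res Ps (Localization.AtPrime m) _ _ _ _
    (algebraMap (B0 C Γ) (Localization.AtPrime m) u')
    (algebraMap (B0 C Γ) (Localization.AtPrime m) u) hs.maximalIdeal_eq hs.prime_u hs.not_dvd
    (nodeEmb m) (nodeEmb_mem_W m hker2) hu hP1 hord r
  exact key hr

end Zero

end Fermat.Agent.S40x.Node.NodeOrdBridge

end
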