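import Fermat.Agent.S40x.Node.NodeOrdBridge
import Fermat.Agent.S40x.Node.NodePlace
import Fermat.Agent.S40x.Node.PlaceIdealInst
import Fermat.Agent.S40x.Node.NodeRing

/-!
# P-S44, block R1 / N-alpha, seam R1 -> C3-SLOPE: `hn3` at a node `s` and a branch `P` (helper5)

`Node/NodeOrdBridge.hn3_inf / hn3_zero` with ALL the place hypotheses discharged in the vocabulary
of `Node/NodeInst` + `Node/NodePlace` (helper50) + `Node/PlaceIdeal(Inst)` (helper65):
`m := nodeIdeal hL2 s`, `χ := chi1 hL2 s` (resp. `chi2`), `P` a place of the component with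
`IsBranch₁ hL2 s P` (resp. `IsBranch₂`).

* `natCast_ord_nonneg_of_mem`, `exists_ord_eq_one_of_halfChart` : every place regular on a
  half-chart ring `B` has a uniformiser in `B`;
* `hn3_inf_of_branch`, `hn3_zero_of_branch` : the literal `hn3` of
  `R2/Slope/NodeGlue.node_slope_nodeOrd`, hypotheses: the node literal `IsNodeRing R_s q u u'`,
  the thickness data `rho1 u = 0`, `rho2 u' = 0`, `rho1 u' ≠ 0` (resp. `rho2 u ≠ 0`), surjectivity
  of `rho1` (resp. `rho2`), and the standing hypotheses on the coordinate (`Transcendental`,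
  finite separable);
* `Ctx` section: the same inside the context bundle `Ctx R C p q x Dt` + `CtxGal` + `FixData2` +
  `hF` (`hn3_inf_ctx`, `hn3_zero_ctx`): only the thickness data and the branch are left.
-/

set_option autoImplicit false
set_option linter.unusedSectionVars false
set_option linter.style.haveILetI false

noncomputable section

namespace Fermat.Agent.S40x.Node.NodeOrdInst

open AlgebraicCurve IsLocalRing IntermediateField
open Fermat.Agent.S34x Fermat.Agent.S34x.C0two Fermat.Agent.S34x.Lattice2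
open Fermat.Agent.S19x.Geo.LatticeFixed
open Fermat.Agent.S40x.Node Fermat.Agent.S40x.Node.NodeInst Fermat.Agent.S40x.Node.NodeFrac
open Fermat.Agent.S40x.Node.NodeValInst Fermat.Agent.S40x.Node.NodeOrdBridge
open Fermat.Agent.S40x.Node.NodePlace Fermat.Agent.S40x.Node.PlaceIdeal
open Fermat.Agent.S40x.Node.PlaceIdealInst
open Fermat.Agent.S40x.R2.Slope (ordQ)
open Fermat.Agent.S40x.R2.SlopeB.PlaceInst (ordAt)

/-! ### Uniformisers in a half-chart ring -/

section HalfChart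

variable {k E : Type*} [Field k] [Field E] [Algebra k E]

theorem ord_nonneg_of_mem_place (P : Place k E) {T : E} (hT : T ∈ P.toValuationSubring) :
    0 ≤ P.ord T := by
  rcases eq_or_ne T 0 with h | h
  · rw [h, P.ord_zero]
  · exact (Fermat.Agent.S24.ZP.ord_nonneg_iff P h).mpr hT

variable {T : E} {B : Subalgebra k E} (hB : IsHalfChart T B)
  (hT : Transcendental k T) [FiniteDimensional k⟮T⟯ E] [Algebra.IsSeparable k⟮T⟯ E]

include hB hT in
/-- every place regular on the half-chart has a uniformiser in the half-chart ring. -/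
theorem exists_ord_eq_one_of_halfChart (P : Place k E) (hP : 0 ≤ P.ord T) :
    ∃ g : B, P.ord (g : E) = 1 := by
  haveI := hB.isDedekindDomain hT
  haveI := hB.maxIdeal_isPrime P hP
  have hlt := Ideal.pow_succ_lt_pow (hB.maxIdeal_ne_bot hT P hP) 1
  obtain ⟨g, hg1, hg2⟩ := SetLike.exists_of_lt hlt
  rw [pow_one] at hg1
  exact ⟨g, (hB.ord_eq_one_iff hT P hP g).mpr ⟨hg1, hg2⟩⟩

end HalfChart

/-! ### `hn3` at a node and a branch -/

variable {K : Type*} [Field K] {A : ValuationSubring K} {F : Type*} [Field F] [Algebra K F]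
  {V W : ValuationSubring F} {k E : Type*} [Field k] [Field E] [Algebra k E]
  {R₁ : Gateway.C0.RedSetup A V k E} {R₂ : Gateway.C0.RedSetup A W k E} {hπ : R₁.π = R₂.π}
  {C : ChartCoord (redSetupTwoVal R₁ R₂ hπ)} {Γ : Set (SemilinearAut K F)}

section Branch

variable [IsAlgClosed k] (hL2 : C.IsL2) (s : Goursat.Nodes C.BbarT hL2.h2)

theorem hker1_nodeIdeal (b : B0 C Γ) (hb : rho1 C Γ b = 0) : b ∈ nodeIdeal (Γ := Γ) hL2 s := by
  rw [mem_nodeIdeal_iff, hb, map_zero]

theorem hker2_nodeIdeal (b : B0 C Γ) (hb : rho2 C Γ b = 0) : b ∈ nodeIdeal (Γ := Γ) hL2 s := by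
  rw [mem_nodeIdeal_iff', hb, map_zero]

local notation "Rs" => Localization.AtPrime (nodeIdeal (Γ := Γ) hL2 s)

local notation "j" => algebraMap (B0 C Γ) (Localization.AtPrime (nodeIdeal (Γ := Γ) hL2 s))

/-- **`hn3` at the node `s`, side `v_∞`**, for a branch `P` of the first component. -/
theorem hn3_inf_of_branch [IsDomain Rs] [IsNoetherianRing Rs]
    (hTr : Transcendental k C.T.1) [FiniteDimensional k⟮C.T.1⟯ E]
    [Algebra.IsSeparable k⟮C.T.1⟯ E]
    (P : Place k E) (hT : C.T.1 ∈ P.toValuationSubring) (hbr : IsBranch₁ hL2 s P)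
    {q : ℕ} {u u' : B0 C Γ} (h : IsNodeRing Rs q (j u) (j u'))
    (h1 : rho1 C Γ u = 0) (h2 : rho2 C Γ u' = 0) (hu'1 : rho1 C Γ u' ≠ 0)
    (hsurj : Function.Surjective (rho1 C Γ)) :
    ∀ r : Rs, ¬ j u ∣ r →
      ordAt V R₁.res P (nodeEmb (nodeIdeal (Γ := Γ) hL2 s) r) = ordQ (j u) (j u') r := by
  have hP : 0 ≤ P.ord C.T.1 := ord_nonneg_of_mem_place P hT
  have hB : IsHalfChart C.T.1 C.B₁ := isHalfChart_B₁ C
  refine hn3_inf (nodeIdeal (Γ := Γ) hL2 s) (hker1_nodeIdeal hL2 s) P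
    (chi1 hL2 s).toRingHom (fun b => mem_nodeIdeal_iff hL2 s b) (fun g => hB.ord_nonneg P hP g)
    (fun g hg => ?_) h h1 (hker2_nodeIdeal hL2 s u' h2) hu'1 hsurj
    (exists_ord_eq_one_of_halfChart hB hTr P hP)
  have hg' : (g : E) ≠ 0 := fun h0 => hg (Subtype.ext h0)
  rw [Fermat.Agent.S24.ZP.ord_pos_iff P hg']
  exact (hbr g).symm

/-- **`hn3` at the node `s`, side `v_0`**, for a branch `P` of the second component. -/
theorem hn3_zero_of_branch [IsDomain Rs] [IsNoetherianRing Rs]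
    {T : E} (hB : IsHalfChart T C.B₂)
    (hTr : Transcendental k T) [FiniteDimensional k⟮T⟯ E] [Algebra.IsSeparable k⟮T⟯ E]
    (P : Place k E) (hP : 0 ≤ P.ord T) (hbr : IsBranch₂ hL2 s P)
    {q : ℕ} {u u' : B0 C Γ} (h : IsNodeRing Rs q (j u) (j u'))
    (h1 : rho1 C Γ u = 0) (h2 : rho2 C Γ u' = 0) (hu2 : rho2 C Γ u ≠ 0)
    (hsurj : Function.Surjective (rho2 C Γ)) :
    ∀ r : Rs, ¬ j u' ∣ r →
      ordAt W R₂.res P (nodeEmb (nodeIdeal (Γ := Γ) hL2 s) r) = ordQ (j u') (j u) r := by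
  refine hn3_zero (nodeIdeal (Γ := Γ) hL2 s) (hker2_nodeIdeal hL2 s) P
    (chi2 hL2 s).toRingHom (fun b => mem_nodeIdeal_iff' hL2 s b) (fun g => hB.ord_nonneg P hP g)
    (fun g hg => ?_) h h2 (hker1_nodeIdeal hL2 s u h1) hu2 hsurj
    (exists_ord_eq_one_of_halfChart hB hTr P hP)
  have hg' : (g : E) ≠ 0 := fun h0 => hg (Subtype.ext h0)
  rw [Fermat.Agent.S24.ZP.ord_pos_iff P hg']
  exact (hbr g).symm

end Branch

/-! ### The second reduction of `u` does not vanish -/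

section NeZero

variable {B B1 B2 S : Type*} [CommRing B] [CommRing B1] [CommRing B2] [CommRing S] [IsDomain S]
  [IsNoetherianRing S] [IsLocalRing S] [Algebra B S]

/-- in a node ring coming from a chart ring `B` with `(ker)`, the generator `u` of the first
branch does not vanish on the second branch. -/
theorem rho2_u_ne_zero (ρ1 : B →+* B1) (ρ2 : B →+* B2) {q : ℕ} {u u' : B}
    (h : IsNodeRing S q (algebraMap B S u) (algebraMap B S u'))
    (hker : ∀ f, ρ1 f = 0 → ρ2 f = 0 → (q : B) ∣ f) (h1 : ρ1 u = 0) : ρ2 u ≠ 0 := by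
  intro h2
  obtain ⟨c, hc⟩ := hker u h1 h2
  obtain ⟨ψ, hψ⟩ := h.mul_eq
  have hu0 : algebraMap B S u ≠ 0 := h.prime_u.ne_zero
  have e1 : algebraMap B S u = (q : S) * algebraMap B S c := by
    rw [hc, map_mul, map_natCast]
  have e2 : (q : S) = algebraMap B S u * algebraMap B S u' * ((ψ⁻¹ : Sˣ) : S) := by
    rw [hψ, mul_assoc, Units.mul_inv, mul_one]
  have e3 : algebraMap B S u * 1 =
      algebraMap B S u * (algebraMap B S u' * (((ψ⁻¹ : Sˣ) : S) * algebraMap B S c)) := by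
    conv_lhs => rw [mul_one, e1, e2]
    ring
  have e4 := mul_left_cancel₀ hu0 e3
  exact h.prime_u'.not_isUnit (IsUnit.of_mul_eq_one _ e4.symm)

end NeZero

/-! ### Inside the context bundle -/

section Ctx

open Fermat.Agent.S33x.Cech.CtxMq Fermat.Agent.S33x.W.InstWCtx
open Fermat.Agent.S33x.H1.LatticeFixed2 Fermat.Agent.S40x.Node.NodeRing

variable {K : Type*} [Field K] [IsAlgClosed K] [CharZero K] {A : ValuationSubring K}
  {F : Type*} [Field F] [Algebra K F] {V W : ValuationSubring F}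
  {k : Type*} [Field k] [IsAlgClosed k] {E : Type*} [Field E] [Algebra k E]
  {R₁ : Gateway.C0.RedSetup A V k E} {R₂ : Gateway.C0.RedSetup A W k E} {hπ : R₁.π = R₂.π}
  {C : ChartCoord (redSetupTwoVal R₁ R₂ hπ)} {p q : ℕ} {x : E} {Dt : Divisor K F}
  (h : Ctx (redSetupTwoVal R₁ R₂ hπ) C p q x Dt) {Γ : Set (SemilinearAut K F)}
  (hG : CtxGal (redSetupTwoVal R₁ R₂ hπ) C Γ)

include h in
theorem T_fst_eq : C.T.1 = x := congrArg Prod.fst h.hT

include h in
theorem T_snd_eq : C.T.2 = C.T.1 ^ q := by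
  rw [T_fst_eq h]
  exact congrArg Prod.snd h.hT

include h hG in
/-- **`hn3` at a node, side `v_∞`, inside the context bundle**: only the thickness data and the
branch are left. -/
theorem hn3_inf_ctx (hD : FixData2 (redSetupTwoVal R₁ R₂ hπ) Γ)
    (hF : Submodule.span K {f : F | IsFixed Γ f} = ⊤)
    (hp : ∀ c : A, IsFixedK Γ (c : K) → c ∈ maximalIdeal A → ((p : ℕ) : A) ∣ c)
    (s : Goursat.Nodes C.BbarT h.hL2.h2)
    {u u' Ψ : B0 C Γ} (hrel : u * u' = ((p : ℕ) : B0 C Γ) * Ψ)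
    (h1 : rho1 C Γ u = 0) (h2 : rho2 C Γ u' = 0)
    (hΨ : Ψ ∉ nodeIdeal (Γ := Γ) h.hL2 s) (hu' : rho1 C Γ u' ≠ 0)
    (P : Place k E) (hT : C.T.1 ∈ P.toValuationSubring) (hbr : IsBranch₁ h.hL2 s P) :
    haveI : IsDomain (Localization.AtPrime (nodeIdeal (Γ := Γ) h.hL2 s)) :=
      IsLocalization.isDomain_of_atPrime _ (nodeIdeal (Γ := Γ) h.hL2 s)
    haveI : IsNoetherianRing (B0 C Γ) := FixedNoeth.isNoetherianRing_fixedBoo' h hG hD hF
    haveI : IsNoetherianRing (Localization.AtPrime (nodeIdeal (Γ := Γ) h.hL2 s)) :=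
      IsLocalization.isNoetherianRing (nodeIdeal (Γ := Γ) h.hL2 s).primeCompl _ inferInstance
    ∀ r : Localization.AtPrime (nodeIdeal (Γ := Γ) h.hL2 s),
      ¬ algebraMap (B0 C Γ) (Localization.AtPrime (nodeIdeal (Γ := Γ) h.hL2 s)) u ∣ r →
      ordAt V R₁.res P (nodeEmb (nodeIdeal (Γ := Γ) h.hL2 s) r) =
        ordQ (algebraMap (B0 C Γ) (Localization.AtPrime (nodeIdeal (Γ := Γ) h.hL2 s)) u)
          (algebraMap (B0 C Γ) (Localization.AtPrime (nodeIdeal (Γ := Γ) h.hL2 s)) u') r := by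
  haveI : IsDomain (Localization.AtPrime (nodeIdeal (Γ := Γ) h.hL2 s)) :=
    IsLocalization.isDomain_of_atPrime _ (nodeIdeal (Γ := Γ) h.hL2 s)
  haveI : IsNoetherianRing (B0 C Γ) := FixedNoeth.isNoetherianRing_fixedBoo' h hG hD hF
  haveI : IsNoetherianRing (Localization.AtPrime (nodeIdeal (Γ := Γ) h.hL2 s)) :=
    IsLocalization.isNoetherianRing (nodeIdeal (Γ := Γ) h.hL2 s).primeCompl _ inferInstance
  have hT1 := T_fst_eq h
  have hTr : Transcendental k C.T.1 := by rw [hT1]; exact h.hx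
  haveI : FiniteDimensional k⟮C.T.1⟯ E := by rw [hT1]; exact h.fin_x
  haveI : Algebra.IsSeparable k⟮C.T.1⟯ E := by rw [hT1]; exact h.sep_x
  exact hn3_inf_of_branch h.hL2 s hTr P hT hbr
    (NodeRing.isNodeRing h hG hD hF hp s hrel h1 h2 hΨ hu') h1 h2 hu'
    (rho1_surjective (NodeRing.hlift h hG hD hF) h.hL2)

include h hG in
/-- **`hn3` at a node, side `v_0`, inside the context bundle.** -/
theorem hn3_zero_ctx (hD : FixData2 (redSetupTwoVal R₁ R₂ hπ) Γ)
    (hF : Submodule.span K {f : F | IsFixed Γ f} = ⊤)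
    (hp : ∀ c : A, IsFixedK Γ (c : K) → c ∈ maximalIdeal A → ((p : ℕ) : A) ∣ c)
    (s : Goursat.Nodes C.BbarT h.hL2.h2)
    {u u' Ψ : B0 C Γ} (hrel : u * u' = ((p : ℕ) : B0 C Γ) * Ψ)
    (h1 : rho1 C Γ u = 0) (h2 : rho2 C Γ u' = 0)
    (hΨ : Ψ ∉ nodeIdeal (Γ := Γ) h.hL2 s) (hu' : rho1 C Γ u' ≠ 0)
    (P : Place k E) (hT : C.T.2 ∈ P.toValuationSubring) (hbr : IsBranch₂ h.hL2 s P) :
    haveI : IsDomain (Localization.AtPrime (nodeIdeal (Γ := Γ) h.hL2 s)) :=
      IsLocalization.isDomain_of_atPrime _ (nodeIdeal (Γ := Γ) h.hL2 s)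
    haveI : IsNoetherianRing (B0 C Γ) := FixedNoeth.isNoetherianRing_fixedBoo' h hG hD hF
    haveI : IsNoetherianRing (Localization.AtPrime (nodeIdeal (Γ := Γ) h.hL2 s)) :=
      IsLocalization.isNoetherianRing (nodeIdeal (Γ := Γ) h.hL2 s).primeCompl _ inferInstance
    ∀ r : Localization.AtPrime (nodeIdeal (Γ := Γ) h.hL2 s),
      ¬ algebraMap (B0 C Γ) (Localization.AtPrime (nodeIdeal (Γ := Γ) h.hL2 s)) u' ∣ r →
      ordAt W R₂.res P (nodeEmb (nodeIdeal (Γ := Γ) h.hL2 s) r) =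
        ordQ (algebraMap (B0 C Γ) (Localization.AtPrime (nodeIdeal (Γ := Γ) h.hL2 s)) u')
          (algebraMap (B0 C Γ) (Localization.AtPrime (nodeIdeal (Γ := Γ) h.hL2 s)) u) r := by
  haveI : IsDomain (Localization.AtPrime (nodeIdeal (Γ := Γ) h.hL2 s)) :=
    IsLocalization.isDomain_of_atPrime _ (nodeIdeal (Γ := Γ) h.hL2 s)
  haveI : IsNoetherianRing (B0 C Γ) := FixedNoeth.isNoetherianRing_fixedBoo' h hG hD hF
  haveI : IsNoetherianRing (Localization.AtPrime (nodeIdeal (Γ := Γ) h.hL2 s)) :=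
    IsLocalization.isNoetherianRing (nodeIdeal (Γ := Γ) h.hL2 s).primeCompl _ inferInstance
  have hT1 := T_fst_eq h
  have hT2 := T_snd_eq h
  have hTr : Transcendental k C.T.1 := by rw [hT1]; exact h.hx
  haveI : FiniteDimensional k⟮C.T.1⟯ E := by rw [hT1]; exact h.fin_x
  haveI : Algebra.IsSeparable k⟮C.T.1⟯ E := by rw [hT1]; exact h.sep_x
  have hB : IsHalfChart C.T.1 C.B₂ := isHalfChart_B₂ C h.hq hT2
  have hP : 0 ≤ P.ord C.T.1 := by
    have h2' : 0 ≤ P.ord C.T.2 := ord_nonneg_of_mem_place P hT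
    rw [hT2] at h2'
    by_contra hneg
    rw [not_le] at hneg
    have hne : C.T.1 ≠ 0 := by
      intro h0
      rw [h0, P.ord_zero] at hneg
      exact lt_irrefl _ hneg
    have hpow : P.ord (C.T.1 ^ q) = q * P.ord C.T.1 := by
      have := P.ord_zpow C.T.1 (q : ℤ)
      rwa [zpow_natCast] at this
    rw [hpow] at h2'
    have hq : (0 : ℤ) < q := by exact_mod_cast h.hq
    nlinarith
  have hnode := NodeRing.isNodeRing h hG hD hF hp s hrel h1 h2 hΨ hu'
  have hpfix : IsFixedK Γ ((((p : ℕ) : A) : A) : K) := isFixedK_natCast p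
  have hker : ∀ f : B0 C Γ, rho1 C Γ f = 0 → rho2 C Γ f = 0 → ((p : ℕ) : B0 C Γ) ∣ f := by
    intro f hf1 hf2
    have hcast : (unifB (C := C) hpfix : B0 C Γ) = ((p : ℕ) : B0 C Γ) := by
      apply Subtype.ext
      rw [coe_unifB]
      simp
    rw [← hcast]
    exact unif_dvd_of_rho_eq_zero hD hpfix (NodeRing.natCast_ne_zero h) hp hf1 hf2
  have hu2 : rho2 C Γ u ≠ 0 := rho2_u_ne_zero (rho1 C Γ) (rho2 C Γ) hnode hker h1
  exact hn3_zero_of_branch h.hL2 s hB hTr P hP hbr hnode h1 h2 hu2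
    (rho2_surjective (NodeRing.hlift h hG hD hF) h.hL2)

end Ctx

end Fermat.Agent.S40x.Node.NodeOrdInst

end
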