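import Fermat.Agent.S40x.Node.NodeOrdSeam
import Fermat.Agent.S40x.R2.NodeCover.PrimeOrd

/-!
# P-S44, seam [N] → [ET]: the plug into `PrimeOrd.primeOrd_lift_package`

`NodeOrdSeam.node_ord` / `smooth_ord` composed with helper2's landed
`R2/NodeCover/PrimeOrd.primeOrd_lift_package`: downstairs a node ring (resp. smooth-point ring)
`R ⊆ K = F_0` inside `O` with an order function `v`, `v p = 1`; upstairs `R* ⊇ R` (the etale lift)
with `ι u` prime and the contraction property `u^n R* ∩ R = u^n R`.  Output: the five hypotheses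
`hwinf, hinf_u, hinf_0` of `Asm.node_slope_eq` and `hWinf, hvinf` of `Asm.c3_core_pair` for
`(W, w) := (primeValuationSubring (ι u), primeOrd (ι u))`.
Also: downstairs `v` IS the `u`-adic order `primeOrd u` (`node_ord_eq_primeOrd`).
-/

set_option autoImplicit false
set_option linter.unusedSectionVars false

namespace Fermat.Agent.S40x.Node.NodeOrdLift

open Fermat.Agent.S40x.Node Fermat.Agent.S40x.R2.Transitive Fermat.Agent.S40x.R2.NodeCover
  Fermat.Agent.S40x.Node.NodeOrdSeam

variable {R : Type*} [CommRing R] [IsDomain R] [IsNoetherianRing R] [IsLocalRing R]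
variable {K : Type*} [Field K] [Algebra R K] [IsFractionRing R K]

/-- downstairs, `v` is the `u`-adic order of the node ring on all of `K = Frac R`. -/
theorem node_ord_eq_primeOrd {p : ℕ} {u u' : R} (h : IsNodeRing R p u u')
    {O : ValuationSubring K} {v : K → ℤ} (hv : IsOrd O v)
    (hle : ∀ r : R, algebraMap R K r ∈ O)
    (hinv : ∀ r : R, ¬ u ∣ r → (algebraMap R K r)⁻¹ ∈ O) (hp : v (p : K) = 1) {x : K}
    (hx : x ≠ 0) : v x = primeOrd u x :=
  IsOrd_eq_primeOrd h.prime_u hv (node_ord h hv hle hinv hp).1 (node_ord h hv hle hinv hp).2 hx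

variable {S : Type*} [CommRing S] [IsDomain S] [WfDvdMonoid S]
variable {L : Type*} [Field L] [Algebra S L] [IsFractionRing S L]
variable [Algebra R S] [Algebra K L] [Algebra R L] [IsScalarTower R S L] [IsScalarTower R K L]

/-- **[N] + [ET] at a node, one call.** -/
theorem node_lift_package {p : ℕ} {u u' : R} (h : IsNodeRing R p u u')
    (hu' : Prime (algebraMap R S u))
    (hcontr : ∀ (n : ℕ) (r : R), algebraMap R S u ^ n ∣ algebraMap R S r → u ^ n ∣ r)
    {O : ValuationSubring K} {v : K → ℤ} (hv : IsOrd O v)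
    (hle : ∀ r : R, algebraMap R K r ∈ O)
    (hinv : ∀ r : R, ¬ u ∣ r → (algebraMap R K r)⁻¹ ∈ O) (hp : v (p : K) = 1) :
    IsOrd (primeValuationSubring (K := L) hu') (primeOrd (algebraMap R S u)) ∧
    primeOrd (algebraMap R S u) (algebraMap S L (algebraMap R S u)) = 1 ∧
    (∀ s : S, ¬ algebraMap R S u ∣ s → primeOrd (algebraMap R S u) (algebraMap S L s) = 0) ∧
    (∀ e : K, algebraMap K L e ∈ primeValuationSubring (K := L) hu' ↔ e ∈ O) ∧
    (∀ e : K, e ≠ 0 → primeOrd (algebraMap R S u) (algebraMap K L e) = v e) :=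
  primeOrd_lift_package h.prime_u hu' hcontr hv (node_ord h hv hle hinv hp).1
    (node_ord h hv hle hinv hp).2

/-- **[N] + [ET] at a smooth point, one call** (`z := (p : R)`). -/
theorem smooth_lift_package {p : ℕ} {t : R} (h : IsSmoothPtRing R p t)
    (hp' : Prime (algebraMap R S (p : R)))
    (hcontr : ∀ (n : ℕ) (r : R), algebraMap R S (p : R) ^ n ∣ algebraMap R S r → (p : R) ^ n ∣ r)
    {O : ValuationSubring K} {v : K → ℤ} (hv : IsOrd O v)
    (hle : ∀ r : R, algebraMap R K r ∈ O)
    (hinv : ∀ r : R, ¬ (p : R) ∣ r → (algebraMap R K r)⁻¹ ∈ O) (hp : v (p : K) = 1) :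
    IsOrd (primeValuationSubring (K := L) hp') (primeOrd (algebraMap R S (p : R))) ∧
    primeOrd (algebraMap R S (p : R)) (algebraMap S L (algebraMap R S (p : R))) = 1 ∧
    (∀ s : S, ¬ algebraMap R S (p : R) ∣ s →
      primeOrd (algebraMap R S (p : R)) (algebraMap S L s) = 0) ∧
    (∀ e : K, algebraMap K L e ∈ primeValuationSubring (K := L) hp' ↔ e ∈ O) ∧
    (∀ e : K, e ≠ 0 → primeOrd (algebraMap R S (p : R)) (algebraMap K L e) = v e) :=
  primeOrd_lift_package h.prime_p hp' hcontr hv (smooth_ord h hv hle hinv hp).1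
    (smooth_ord h hv hle hinv hp).2

end Fermat.Agent.S40x.Node.NodeOrdLift
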