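/-
P-S44, block R1, item X14 (nonemptiness half of `Diag/Block.NodeFacts`) (helper24):
**there is a node place** on each component of the special fibre at every good level `M₀ p`
(`4 ∣ M₀`, `p` odd, `p ∤ M₀`).

Plug of `Thick/NodesNonempty.nonempty_nodes_of_t_eq` (helper24; from helper20's
`Thick/DeltaNotIntegral.I1_ne_top`) into helper47's `Node/NodePlaces` (`nodeInf`, `nodeZero`,
`nodeSet₁`, `nodeSet₂`, `existsUnique_branch₁_of_ctx`, `existsUnique_branch₂_of_ctx`).

* `nonempty_nodeSet_of_ctx` : inside the context bundle, a node gives a node place on each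
  component;
* `nonempty_nodeSet_Mq` : both node sets of ANY chart `C` with `C.t = α x₄` at level `M p`
  over `ℚ̄` are nonempty;
* `nodeInfMq_nonempty`, `nodeZeroMq_nonempty` : the node sets of `TheoremBMq.chart`;
* **`nodeInf_nonempty`, `nodeZero_nonempty`** : `(nodeInf M₀ p hp hpM B hB h4).Nonempty`,
  `(nodeZero M₀ p hp hpM B hB h4).Nonempty` for `p ≠ 2`, in the vocabulary of `Geo/Vocab`.
-/
import Fermat.Agent.S40x.Node.NodePlaces
import Fermat.Agent.S40x.Thick.NodesNonempty

set_option autoImplicit false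
set_option linter.unusedSectionVars false
set_option linter.style.haveILetI false

noncomputable section

namespace Fermat.Agent.S40x.Node.NodePlacesNonempty

open AlgebraicCurve IsLocalRing Module IntermediateField
open Fermat.Agent.S34x Fermat.Agent.S34x.C0two Fermat.Agent.S34x.Lattice2
open Fermat.Agent.S40x.Node.NodeInst Fermat.Agent.S40x.Node.SmoothInst
open Fermat.Agent.S40x.Node.NodePlace Fermat.Agent.S40x.Node.NodePlaces

/-! ### Inside the context bundle -/

section Ctx

open Fermat.Agent.S33x.Cech.CtxMq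

variable {K : Type*} [Field K] [IsAlgClosed K] [CharZero K] {A : ValuationSubring K}
  {F : Type*} [Field F] [Algebra K F] {S : SmallRing F}
  {k : Type*} [Field k] [IsAlgClosed k] {E : Type*} [Field E] [Algebra k E]
  {R : RedSetup2 A S k (E × E)} {C : ChartCoord R} {p q : ℕ} {x : E} {Dt : Divisor K F}

/-- inside the context bundle, a node gives a node place on each component. -/
theorem nonempty_nodeSet_of_ctx (h : Ctx R C p q x Dt)
    (hne : Nonempty (Goursat.Nodes C.BbarT h.hL2.h2)) :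
    (nodeSet₁ C).Nonempty ∧ (nodeSet₂ C).Nonempty := by
  obtain ⟨s⟩ := hne
  obtain ⟨P₁, hP₁, -⟩ := existsUnique_branch₁_of_ctx h s
  obtain ⟨P₂, hP₂, -⟩ := existsUnique_branch₂_of_ctx h s
  exact ⟨⟨P₁, mem_nodeSet₁_of_isBranch h.hL2 hP₁⟩, ⟨P₂, mem_nodeSet₂_of_isBranch h.hL2 hP₂⟩⟩

end Ctx

/-! ### Level `M q` over `ℚ̄`, chart of `x₄` -/

section Mq

open ModularCurve
open Fermat.Agent.Gateway.Hecke Fermat.Agent.Gateway.ESC
open Fermat.Agent.Gateway.Red Fermat.Agent.Gateway.GoodRed Fermat.Agent.Gateway.AuxLevel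
open Fermat.Agent.Gateway.GoodRed.ConjFamily
open Fermat.Agent.S34x.TwoVal
open Fermat.Agent.S34x.Inst.L2 Fermat.Agent.S34x.Inst.IsL2Inst
open Fermat.Agent.S34x.Inst.RedSetupInst Fermat.Agent.S34x.Inst.ElementYRed
open Fermat.Agent.S34x.Inst.ElementYInt Fermat.Agent.S34x.Inst.Charts
open Fermat.Agent.S34x.Inst.TheoremBMq
open Fermat.Agent.S33x.Cech.CtxMq Fermat.Agent.S33x.Cech.InstQbCtx

attribute [-instance] IsScalarTower.of_algHom

local notation "Qb" => AlgebraicClosure ℚ

local instance isAlgebraicQb_nodePlacesNonempty : Algebra.IsAlgebraic ℚ (AlgebraicClosure ℚ) :=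
  AlgebraicClosure.isAlgebraic ℚ

variable {P : ValuationSubring Qb} {k : Type} [Field k] {π : P →+* k} [IsAlgClosed k]
variable {M q : ℕ} [NeZero M] [NeZero q] [Fact q.Prime] [CharP k q]
variable {hdeg : finrankAlong Qb (heckeAlphaBar Qb M q) = q + 1} {hq : q.Prime} {hqM : ¬ q ∣ M}
variable {hrk : ∀ x ∈ maximalIdeal P, ∀ c : P, c ≠ 0 → ∃ j : ℕ, c ∣ x ^ j}
  {hπ : Function.Surjective π}
variable (h4 : 4 ∣ M) (hq2 : q ≠ 2)
  (H : ResidueFacts P π M q hdeg hq hqM hrk hπ) (hA : P.LiesOverPrime q)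

include hq2 in
/-- **both node sets of any chart with coordinate `t = α x₄` at level `M q` are nonempty.** -/
theorem nonempty_nodeSet_Mq (C : ChartCoord (redSetup2 H hA))
    (hCt : C.t = tA M q L4.x4 (x4_hx h4)) :
    (nodeSet₁ C).Nonempty ∧ (nodeSet₂ C).Nonempty := by
  haveI : CharZero Qb := algebraRat.charZero Qb
  haveI : PerfectRing k q := inferInstance
  have Hx : GoodLevelFactsT P π M q hπ hqM (tInt M L4.x4 (x4_hx h4)) := x4_Hx h4
  obtain ⟨Dt, hctx, -, -, -⟩ := Fermat.Agent.S40x.Node.FixedQb.bundle_Mq H hA L4.x4 (x4_hx h4) Hx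
    C hCt (L4.x4k_ne_zero k) (x4_hY h4 hq hq2)
  exact nonempty_nodeSet_of_ctx hctx
    (Fermat.Agent.S40x.Thick.NodesNonempty.nonempty_nodes_of_t_eq h4 hq2 H hA C hCt hctx.hL2)

include hq2 in
/-- the node set of `κ_∞` of the chart of `x₄` at level `M q` is nonempty. -/
theorem nodeInfMq_nonempty :
    (nodeInfMq H hA L4.x4 (x4_hx h4) (x4_Hx h4)).Nonempty :=
  (nonempty_nodeSet_Mq h4 hq2 H hA _ (chart_t H hA L4.x4 (x4_hx h4) (x4_Hx h4))).1

include hq2 in
/-- the node set of `κ_0` of the chart of `x₄` at level `M q` is nonempty. -/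
theorem nodeZeroMq_nonempty :
    (nodeZeroMq H hA L4.x4 (x4_hx h4) (x4_Hx h4)).Nonempty :=
  (nonempty_nodeSet_Mq h4 hq2 H hA _ (chart_t H hA L4.x4 (x4_hx h4) (x4_Hx h4))).2

end Mq

/-! ### The good level -/

section GoodLevel

open ModularCurve
open Fermat.Agent.Gateway.Hecke Fermat.Agent.Gateway.ESC Fermat.Agent.Gateway.Kummer
open Fermat.Agent.Gateway.Red Fermat.Agent.Gateway.GoodRed Fermat.Agent.Gateway.AuxLevel
open Fermat.Agent.S34x.TwoVal
open Fermat.Agent.S34x.Inst.RedSetupInst Fermat.Agent.S34x.Inst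
open Fermat.Agent.Gateway.S31Red
open Fermat.Agent.S33x.KummerPn Fermat.Agent.S33x.Cech.InstQbCtx
open Fermat.Agent.S40x.Geo.Vocab

attribute [-instance] IsScalarTower.of_algHom

local notation "Qb" => AlgebraicClosure ℚ

variable (M₀ p : ℕ) [NeZero M₀] [NeZero p] (hp : p.Prime) (hpM : ¬ p ∣ M₀)
  (B : ValuationSubring Qb) (hB : B.LiesOverPrime p) (h4 : 4 ∣ M₀)

/-- **there is a node place on `C_∞`** at every good level (`p` odd). -/
theorem nodeInf_nonempty (hp2 : p ≠ 2) : (nodeInf M₀ p hp hpM B hB h4).Nonempty := by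
  haveI : Algebra.IsAlgebraic ℚ Qb := AlgebraicClosure.isAlgebraic ℚ
  haveI : Fact p.Prime := ⟨hp⟩
  haveI : IsAlgClosed (ResidueField B) := FinalBase.isAlgClosed_residueField B
  haveI : CharP (ResidueField B) p := FinalBase.charP_residueField B hB
  exact nodeInfMq_nonempty h4 hp2 _ hB

/-- **there is a node place on `C_0`** at every good level (`p` odd). -/
theorem nodeZero_nonempty (hp2 : p ≠ 2) : (nodeZero M₀ p hp hpM B hB h4).Nonempty := by
  haveI : Algebra.IsAlgebraic ℚ Qb := AlgebraicClosure.isAlgebraic ℚ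
  haveI : Fact p.Prime := ⟨hp⟩
  haveI : IsAlgClosed (ResidueField B) := FinalBase.isAlgClosed_residueField B
  haveI : CharP (ResidueField B) p := FinalBase.charP_residueField B hB
  exact nodeZeroMq_nonempty h4 hp2 _ hB

end GoodLevel

end Fermat.Agent.S40x.Node.NodePlacesNonempty
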