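import Fermat.Agent.S40x.Node.NodePlaces
import Fermat.Agent.S40x.Thick.NodesNonempty

/-!
# P-S44, block R1: first properties of the node sets `nodeInf`, `nodeZero` (helper47)

Follow-up of `Node/NodePlaces.lean` (which is frozen).

* `chart4_eq` : the chart `Thick/UPsiInst.chart4 h4 H hA` (`t = α x₄`) IS the chart
  `TheoremBMq.chart H hA x₄ ..` of `Node/FixedQb.bundle_Mq` and of `NodePlaces.nodeInf` (`rfl`);
* inside the context bundle: `nodeMatchOfCtx h : nodeSet₁ C ≃ nodeSet₂ C` (the two branches of a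
  node), `nodeMatchOfCtx_eq_iff`;
* level `M q`, any chart `C` with `C.t = tA M q x hx`: `mem_nodeSet₁_iff_Mq`, `mem_nodeSet₂_iff_Mq`
  (`P ∈ nodeSet_i C ↔ ∃ s, NodePlace.IsBranch_i hL2 s P`, for every proof `hL2` of (L2)),
  `existsUnique_branch₁_Mq`, `existsUnique_branch₂_Mq`;
* **non-emptiness** (`4 ∣ M`, `q` odd; from helper24's `Thick/NodesNonempty.nonempty_nodes_of_t_eq`,
  helper20's `DeltaNotIntegral.I1_ne_top`): `nodeInfMq_x4_nonempty`, `nodeZeroMq_x4_nonempty`,
  `nodeInf_nonempty`, `nodeZero_nonempty`;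
* `nodeInf_eq_chart4`, `nodeZero_eq_chart4`, `mem_nodeInf_iff_chart4`, `mem_nodeZero_iff_chart4` :
  `NodePlaces.nodeInf/nodeZero` in terms of `UPsiInst.chart4` (`rfl`, any instance context).

The term `nsR1 : Geo.Glue.NodeSets` built on `NodePlaces.nodeInf/nodeZero` is helper95's
`Geo/NodeSetsR1.lean` (`nsR1_inf_eq h4 : nsR1.inf .. = nodeInf .. h4`).
-/

set_option autoImplicit false
set_option linter.unusedSectionVars false
set_option linter.style.haveILetI false

noncomputable section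

namespace Fermat.Agent.S40x.Node.NodePlacesQb

open AlgebraicCurve IsLocalRing ModularCurve IntermediateField
open Fermat.Agent.Gateway.Hecke Fermat.Agent.Gateway.ESC Fermat.Agent.Gateway.Kummer
open Fermat.Agent.Gateway.Red Fermat.Agent.Gateway.GoodRed Fermat.Agent.Gateway.AuxLevel
open Fermat.Agent.Gateway.GoodRed.ConjFamily
open Fermat.Agent.S34x Fermat.Agent.S34x.C0two Fermat.Agent.S34x.Lattice2
open Fermat.Agent.S34x.TwoVal
open Fermat.Agent.S34x.Inst.L2 Fermat.Agent.S34x.Inst.IsL2Inst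
open Fermat.Agent.S34x.Inst.RedSetupInst Fermat.Agent.S34x.Inst
open Fermat.Agent.S34x.Inst.ElementYRed Fermat.Agent.S34x.Inst.TheoremBMq
open Fermat.Agent.Gateway.S31Red
open Fermat.Agent.S33x.KummerPn Fermat.Agent.S33x.Cech.InstQbCtx Fermat.Agent.S33x.Cech.CtxMq
open Fermat.Agent.S40x.Geo.Vocab
open Fermat.Agent.S40x.Node.NodeInst Fermat.Agent.S40x.Node.SmoothInst
open Fermat.Agent.S40x.Node.PlaceIdeal Fermat.Agent.S40x.Node.NodePlace
open Fermat.Agent.S40x.Node.NodePlaces

attribute [-instance] IsScalarTower.of_algHom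

local notation "Qb" => AlgebraicClosure ℚ

/-! ### Inside the context bundle: the two branches of a node -/

section Ctx

variable {K : Type*} [Field K] [IsAlgClosed K] [CharZero K] {A : ValuationSubring K}
  {F : Type*} [Field F] [Algebra K F] {S : SmallRing F}
  {k : Type*} [Field k] [IsAlgClosed k] {E : Type*} [Field E] [Algebra k E]
  {R : RedSetup2 A S k (E × E)} {C : ChartCoord R} {p q : ℕ} {x : E} {Dt : Divisor K F}
  (h : Ctx R C p q x Dt)

/-- **the node places of the two components correspond** (the two branches of a node), inside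
the context bundle. -/
def nodeMatchOfCtx : nodeSet₁ C ≃ nodeSet₂ C :=
  haveI := finite_quotient_of_ctx h
  haveI := finiteDimensional_T₁_of_ctx h
  haveI := isSeparable_T₁_of_ctx h
  nodeMatch h.hL2 (transcendental_T₁_of_ctx h) (isHalfChart_B₂_of_ctx h)
    (transcendental_T₁_of_ctx h)

theorem nodeMatchOfCtx_eq_iff (P : nodeSet₁ C) (P' : nodeSet₂ C) :
    nodeMatchOfCtx h P = P' ↔ ∃ s : Goursat.Nodes C.BbarT h.hL2.h2,
      IsBranch₁ h.hL2 s (P : Place k E) ∧ IsBranch₂ h.hL2 s (P' : Place k E) := by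
  haveI := finite_quotient_of_ctx h
  haveI := finiteDimensional_T₁_of_ctx h
  haveI := isSeparable_T₁_of_ctx h
  exact nodeMatch_eq_iff h.hL2 (transcendental_T₁_of_ctx h) (isHalfChart_B₂_of_ctx h)
    (transcendental_T₁_of_ctx h) P P'

include h in
/-- the node sets are nonempty as soon as there is a node. -/
theorem nodeSet₁_nonempty_of_ctx (hne : Nonempty (Goursat.Nodes C.BbarT h.hL2.h2)) :
    (nodeSet₁ C).Nonempty := by
  haveI := finiteDimensional_T₁_of_ctx h
  haveI := isSeparable_T₁_of_ctx h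
  obtain ⟨s⟩ := hne
  exact ⟨nodePlace₁ h.hL2 (transcendental_T₁_of_ctx h) s, nodePlace₁_mem _ _ s⟩

include h in
theorem nodeSet₂_nonempty_of_ctx (hne : Nonempty (Goursat.Nodes C.BbarT h.hL2.h2)) :
    (nodeSet₂ C).Nonempty := by
  haveI := finiteDimensional_T₁_of_ctx h
  haveI := isSeparable_T₁_of_ctx h
  obtain ⟨s⟩ := hne
  exact ⟨nodePlace₂ h.hL2 (isHalfChart_B₂_of_ctx h) (transcendental_T₁_of_ctx h) s,
    nodePlace₂_mem _ _ _ s⟩

end Ctx

/-! ### Level `M q` over `ℚ̄` -/

section Mq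

local instance isAlgebraicQb_nodePlacesQb : Algebra.IsAlgebraic ℚ (AlgebraicClosure ℚ) :=
  AlgebraicClosure.isAlgebraic ℚ

variable {A : ValuationSubring Qb} {k : Type} [Field k] {π : A →+* k} [IsAlgClosed k]
variable {M q : ℕ} [NeZero M] [NeZero q] [Fact q.Prime] [CharP k q]
variable {hdeg : finrankAlong Qb (heckeAlphaBar Qb M q) = q + 1} {hq : q.Prime} {hqM : ¬ q ∣ M}
variable {hrk : ∀ x ∈ maximalIdeal A, ∀ c : A, c ≠ 0 → ∃ j : ℕ, c ∣ x ^ j}
  {hπ : Function.Surjective π}
variable (H : ResidueFacts A π M q hdeg hq hqM hrk hπ) (hA : A.LiesOverPrime q)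

/-- the chart `t = α x₄` of `Thick/UPsiInst` and the chart of `TheoremBMq` / `Node/FixedQb.bundle_Mq`
for the series `x₄` are the same chart. -/
theorem chart4_eq (h4 : 4 ∣ M) :
    Fermat.Agent.S40x.Thick.UPsiInst.chart4 h4 H hA =
      chart H hA L4.x4 (x4_hx h4) (x4_Hx h4) := rfl

section AnyChart

variable (x : LaurentSeries ℤ) (hx : coeffMap (Int.castRingHom Qb) x ∈ FBar Qb M)
  (Hx : GoodLevelFactsT A π M q hπ hqM (tInt M x hx))
  (C : ChartCoord (redSetup2 H hA)) (hCt : C.t = tA M q x hx)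

include Hx hA hCt in
/-- **node places = places lying at a node**, first component, level `M q`, for every proof `hL2`
of (L2). -/
theorem mem_nodeSet₁_iff_Mq [PerfectRing k q] (hxk : tbar k x ≠ 0) (hY : YFacts M q x hx)
    (hL2 : C.IsL2) {P : Place k (Fk k M)} :
    P ∈ nodeSet₁ C ↔ ∃ s : Goursat.Nodes C.BbarT hL2.h2, IsBranch₁ hL2 s P := by
  haveI : CharZero Qb := algebraRat.charZero Qb
  obtain ⟨Dt, hctx, -, -, -⟩ := Fermat.Agent.S40x.Node.FixedQb.bundle_Mq H hA x hx Hx C hCt hxk hY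
  exact mem_nodeSet₁_iff_of_ctx hctx

include Hx hA hCt in
/-- **node places = places lying at a node**, second component, level `M q`. -/
theorem mem_nodeSet₂_iff_Mq [PerfectRing k q] (hxk : tbar k x ≠ 0) (hY : YFacts M q x hx)
    (hL2 : C.IsL2) {P : Place k (Fk k M)} :
    P ∈ nodeSet₂ C ↔ ∃ s : Goursat.Nodes C.BbarT hL2.h2, IsBranch₂ hL2 s P := by
  haveI : CharZero Qb := algebraRat.charZero Qb
  obtain ⟨Dt, hctx, -, -, -⟩ := Fermat.Agent.S40x.Node.FixedQb.bundle_Mq H hA x hx Hx C hCt hxk hY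
  exact mem_nodeSet₂_iff_of_ctx hctx

include Hx hA hCt in
/-- every node carries exactly one place of the first component. -/
theorem existsUnique_branch₁_Mq [PerfectRing k q] (hxk : tbar k x ≠ 0) (hY : YFacts M q x hx)
    (hL2 : C.IsL2) (s : Goursat.Nodes C.BbarT hL2.h2) :
    ∃! P : Place k (Fk k M), IsBranch₁ hL2 s P := by
  haveI : CharZero Qb := algebraRat.charZero Qb
  obtain ⟨Dt, hctx, -, -, -⟩ := Fermat.Agent.S40x.Node.FixedQb.bundle_Mq H hA x hx Hx C hCt hxk hY
  exact existsUnique_branch₁_of_ctx hctx s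

include Hx hA hCt in
/-- every node carries exactly one place of the second component. -/
theorem existsUnique_branch₂_Mq [PerfectRing k q] (hxk : tbar k x ≠ 0) (hY : YFacts M q x hx)
    (hL2 : C.IsL2) (s : Goursat.Nodes C.BbarT hL2.h2) :
    ∃! P : Place k (Fk k M), IsBranch₂ hL2 s P := by
  haveI : CharZero Qb := algebraRat.charZero Qb
  obtain ⟨Dt, hctx, -, -, -⟩ := Fermat.Agent.S40x.Node.FixedQb.bundle_Mq H hA x hx Hx C hCt hxk hY
  exact existsUnique_branch₂_of_ctx hctx s

end AnyChart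

/-! ### Non-emptiness for the chart of `x₄` -/

section Four

variable (h4 : 4 ∣ M) (hq2 : q ≠ 2)

include hq2 in
/-- **the set of node places of `C_∞` is nonempty** at every level `M q`, `4 ∣ M`, `q` odd. -/
theorem nodeInfMq_x4_nonempty [PerfectRing k q] :
    (nodeInfMq H hA L4.x4 (x4_hx h4) (x4_Hx h4)).Nonempty := by
  haveI : CharZero Qb := algebraRat.charZero Qb
  obtain ⟨Dt, hctx, -, -, -⟩ := Fermat.Agent.S40x.Node.FixedQb.bundle_Mq H hA L4.x4 (x4_hx h4)
    (x4_Hx h4) _ (chart_t H hA L4.x4 (x4_hx h4) (x4_Hx h4)) x4_hxk (x4_hY h4 hq hq2)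
  exact nodeSet₁_nonempty_of_ctx hctx
    (Fermat.Agent.S40x.Thick.NodesNonempty.nonempty_nodes_of_t_eq h4 hq2 H hA _
      (chart_t H hA L4.x4 (x4_hx h4) (x4_Hx h4)) hctx.hL2)

include hq2 in
/-- **the set of node places of `C_0` is nonempty** at every level `M q`, `4 ∣ M`, `q` odd. -/
theorem nodeZeroMq_x4_nonempty [PerfectRing k q] :
    (nodeZeroMq H hA L4.x4 (x4_hx h4) (x4_Hx h4)).Nonempty := by
  haveI : CharZero Qb := algebraRat.charZero Qb
  obtain ⟨Dt, hctx, -, -, -⟩ := Fermat.Agent.S40x.Node.FixedQb.bundle_Mq H hA L4.x4 (x4_hx h4)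
    (x4_Hx h4) _ (chart_t H hA L4.x4 (x4_hx h4) (x4_Hx h4)) x4_hxk (x4_hY h4 hq hq2)
  exact nodeSet₂_nonempty_of_ctx hctx
    (Fermat.Agent.S40x.Thick.NodesNonempty.nonempty_nodes_of_t_eq h4 hq2 H hA _
      (chart_t H hA L4.x4 (x4_hx h4) (x4_Hx h4)) hctx.hL2)

end Four

end Mq

/-! ### The good level -/

section GoodLevel

variable (M₀ p : ℕ) [NeZero M₀] [NeZero p] (hp : p.Prime) (hpM : ¬ p ∣ M₀)
  (B : ValuationSubring Qb) (hB : B.LiesOverPrime p)

/-- **`nodeInf` is nonempty** (`4 ∣ M₀`, `p` odd). -/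
theorem nodeInf_nonempty (h4 : 4 ∣ M₀) (hp2 : p ≠ 2) :
    (nodeInf M₀ p hp hpM B hB h4).Nonempty := by
  haveI : Algebra.IsAlgebraic ℚ Qb := AlgebraicClosure.isAlgebraic ℚ
  haveI : Fact p.Prime := ⟨hp⟩
  haveI : IsAlgClosed (ResidueField B) := FinalBase.isAlgClosed_residueField B
  haveI : CharP (ResidueField B) p := FinalBase.charP_residueField B hB
  haveI : PerfectRing (ResidueField B) p := inferInstance
  exact nodeInfMq_x4_nonempty _ hB h4 hp2

/-- **`nodeZero` is nonempty** (`4 ∣ M₀`, `p` odd). -/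
theorem nodeZero_nonempty (h4 : 4 ∣ M₀) (hp2 : p ≠ 2) :
    (nodeZero M₀ p hp hpM B hB h4).Nonempty := by
  haveI : Algebra.IsAlgebraic ℚ Qb := AlgebraicClosure.isAlgebraic ℚ
  haveI : Fact p.Prime := ⟨hp⟩
  haveI : IsAlgClosed (ResidueField B) := FinalBase.isAlgClosed_residueField B
  haveI : CharP (ResidueField B) p := FinalBase.charP_residueField B hB
  haveI : PerfectRing (ResidueField B) p := inferInstance
  exact nodeZeroMq_x4_nonempty _ hB h4 hp2

/-- the two node sets in terms of the chart `chart4` of `Thick/UPsiInst`, at the `ResidueFacts`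
term of `Geo/Vocab.slopeInfQb`, in any instance context. -/
theorem nodeInf_eq_chart4 (h4 : 4 ∣ M₀) [Algebra.IsAlgebraic ℚ Qb] [Fact p.Prime]
    [IsAlgClosed (ResidueField B)] [CharP (ResidueField B) p] :
    nodeInf M₀ p hp hpM B hB h4 =
      nodeSet₁ (Fermat.Agent.S40x.Thick.UPsiInst.chart4 h4
        (ResidueInst.residueFacts B (residue B) M₀ p (hdegQb M₀ p hp hpM) hp hpM
          (FinalBase.rank_one B hp hB) (FinalBase.residue_surjective B)) hB) := rfl

theorem nodeZero_eq_chart4 (h4 : 4 ∣ M₀) [Algebra.IsAlgebraic ℚ Qb] [Fact p.Prime]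
    [IsAlgClosed (ResidueField B)] [CharP (ResidueField B) p] :
    nodeZero M₀ p hp hpM B hB h4 =
      nodeSet₂ (Fermat.Agent.S40x.Thick.UPsiInst.chart4 h4
        (ResidueInst.residueFacts B (residue B) M₀ p (hdegQb M₀ p hp hpM) hp hpM
          (FinalBase.rank_one B hp hB) (FinalBase.residue_surjective B)) hB) := rfl

/-- membership, unfolded: the chart coordinate `x̄₄` is regular at `P` and `P` is not a non-node. -/
theorem mem_nodeInf_iff_chart4 (h4 : 4 ∣ M₀) [Algebra.IsAlgebraic ℚ Qb] [Fact p.Prime]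
    [IsAlgClosed (ResidueField B)] [CharP (ResidueField B) p] {P : Place (kB B) (FkB B M₀)} :
    P ∈ nodeInf M₀ p hp hpM B hB h4 ↔
      (Fermat.Agent.S40x.Thick.UPsiInst.chart4 h4
        (ResidueInst.residueFacts B (residue B) M₀ p (hdegQb M₀ p hp hpM) hp hpM
          (FinalBase.rank_one B hp hB) (FinalBase.residue_surjective B)) hB).T.1 ∈
          P.toValuationSubring ∧
        ¬ IsNonNode₁
          (Fermat.Agent.S40x.Thick.UPsiInst.chart4 h4
            (ResidueInst.residueFacts B (residue B) M₀ p (hdegQb M₀ p hp hpM) hp hpM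
              (FinalBase.rank_one B hp hB) (FinalBase.residue_surjective B)) hB) P :=
  Iff.rfl

theorem mem_nodeZero_iff_chart4 (h4 : 4 ∣ M₀) [Algebra.IsAlgebraic ℚ Qb] [Fact p.Prime]
    [IsAlgClosed (ResidueField B)] [CharP (ResidueField B) p] {P : Place (kB B) (FkB B M₀)} :
    P ∈ nodeZero M₀ p hp hpM B hB h4 ↔
      (Fermat.Agent.S40x.Thick.UPsiInst.chart4 h4
        (ResidueInst.residueFacts B (residue B) M₀ p (hdegQb M₀ p hp hpM) hp hpM
          (FinalBase.rank_one B hp hB) (FinalBase.residue_surjective B)) hB).T.2 ∈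
          P.toValuationSubring ∧
        ¬ IsNonNode₂
          (Fermat.Agent.S40x.Thick.UPsiInst.chart4 h4
            (ResidueInst.residueFacts B (residue B) M₀ p (hdegQb M₀ p hp hpM) hp hpM
              (FinalBase.rank_one B hp hB) (FinalBase.residue_surjective B)) hB) P :=
  Iff.rfl

end GoodLevel

end Fermat.Agent.S40x.Node.NodePlacesQb
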