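/-
P-S44/S40, block R1, export X13 (POLE), part (a) (helper65): the EXACT order of the thickness
function at a node, in the generic two-valuation chart vocabulary of `Diag/NodePole` (helper43),
`Thick/PolesNodes`, `Thick/Assemble`.

`δ = red_∞ w` (`u = ϖ • w`), `Ψ = w u'`, Bezout `E + b Ψ + E' = 1`, `P` a place of `κ₁` with
`x̄ ∈ O_P`:

* `ord_delta_eq_neg_one` : at a node (`hnode`: every `e ∈ B∞` with `red_0 e = 0` vanishes at `P`)
  with `ord_P (red_∞ u') = 1`:  `ord_P δ = -1`   [from `Diag/NodePole.delta_not_mem_of_node` +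
  `rho₁_psi`];
* `ord_delta_nonneg` : at a non-node `0 ≤ ord_P δ`   [`Diag/NodePole.delta_mem_of_nonNode`];
* `ord_delta_neg_iff` : `ord_P δ < 0 ↔ P` is a node;  `ord_delta_eq_neg_one_or_nonneg`.
-/
import Fermat.Agent.S40x.Diag.NodePole
import Fermat.Agent.S40x.Node.NodePole

set_option autoImplicit false
set_option linter.unusedSectionVars false
set_option linter.style.haveILetI false

noncomputable section

namespace Fermat.Agent.S40x.Node.NodePoleOrd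

open AlgebraicCurve Polynomial
open Fermat.Agent.S34x Fermat.Agent.S34x.C0two Fermat.Agent.S34x.Lattice2
open Fermat.Agent.S33x.H1.InstC1 Fermat.Agent.S33x.H1.InstBBasic
open Fermat.Agent.S40x.Thick.PolesNodes Fermat.Agent.S40x.Thick.Assemble
open Fermat.Agent.S40x.Diag.NodePole

variable {K : Type*} [Field K] {A : ValuationSubring K} {F : Type*} [Field F] [Algebra K F]
  {O₁ O₂ : ValuationSubring F} {k κ₁ κ₂ : Type*} [Field k] [Field κ₁] [Field κ₂]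
  [Algebra k κ₁] [Algebra k κ₂]
  (R₁ : Fermat.Agent.Gateway.C0.RedSetup A O₁ k κ₁)
  (R₂ : Fermat.Agent.Gateway.C0.RedSetup A O₂ k κ₂) (hπ : R₁.π = R₂.π)
  (C : ChartCoord (redSetupTwoVal R₁ R₂ hπ))
  (P : Place k κ₁) (hT : xb R₁ R₂ hπ C ∈ P.toValuationSubring)

include hT in
/-- **(POLE)(i), exact order**: at a node the thickness function has a SIMPLE pole. -/
theorem ord_delta_eq_neg_one {u' w : F} (hw : w ∈ O₁) (hu' : u' ∈ BooAlg C)
    (hg0 : rho₂ R₁ R₂ hπ C ⟨u', hu'⟩ = 0) (hΨ : w * u' ∈ BooAlg C) {E b E' : BooAlg C}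
    (hE : rho₂ R₁ R₂ hπ C E = 0) (hE' : rho₁ R₁ R₂ hπ C E' = 0)
    (hsum : E + b * ⟨w * u', hΨ⟩ + E' = 1)
    (hnode : ∀ e : BooAlg C, rho₂ R₁ R₂ hπ C e = 0 →
      rho₁ R₁ R₂ hπ C e ∈ P.toValuationSubring.nonunits)
    (hord : P.ord (rho₁ R₁ R₂ hπ C ⟨u', hu'⟩) = 1) :
    P.ord (R₁.res ⟨w, hw⟩) = -1 :=
  Fermat.Agent.S40x.Node.NodePole.ord_eq_neg_one_of_mul P
    (rho₁_psi R₁ R₂ hπ C hw hu' hΨ) (rho₁_mem R₁ R₂ hπ C P hT _)
    (delta_not_mem_of_node R₁ R₂ hπ C P hT hw hu' hg0 hΨ hE hE' hsum hnode).1 hord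

include hT in
/-- **(POLE)(ii)**: at a non-node the thickness function is regular. -/
theorem ord_delta_nonneg {u w : F} {ϖ : A} (hϖ : ϖ ≠ 0) (hu : u ∈ BooAlg C)
    (huw : u = ϖ • w) (hw : w ∈ O₁) (e : BooAlg C) (he0 : rho₂ R₁ R₂ hπ C e = 0)
    (heP : rho₁ R₁ R₂ hπ C e ∉ P.toValuationSubring.nonunits) :
    0 ≤ P.ord (R₁.res ⟨w, hw⟩) := by
  have h := delta_mem_of_nonNode R₁ R₂ hπ C P hT hϖ hu huw hw e he0 heP
  rcases eq_or_ne (R₁.res ⟨w, hw⟩) 0 with h0 | h0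
  · rw [h0, P.ord_zero]
  · exact (Fermat.Agent.S24.ZP.ord_nonneg_iff P h0).mpr h

include hT in
/-- **(POLE)**: `δ` has a pole at `P` iff `P` is a node (and then the pole is simple, by
`ord_delta_eq_neg_one`). -/
theorem ord_delta_neg_iff {u u' w : F} {ϖ : A} (hϖ : ϖ ≠ 0) (hu : u ∈ BooAlg C)
    (huw : u = ϖ • w) (hw : w ∈ O₁) (hu' : u' ∈ BooAlg C)
    (hg0 : rho₂ R₁ R₂ hπ C ⟨u', hu'⟩ = 0) (hΨ : w * u' ∈ BooAlg C) {E b E' : BooAlg C}
    (hE : rho₂ R₁ R₂ hπ C E = 0) (hE' : rho₁ R₁ R₂ hπ C E' = 0)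
    (hsum : E + b * ⟨w * u', hΨ⟩ + E' = 1) :
    P.ord (R₁.res ⟨w, hw⟩) < 0 ↔
      ∀ e : BooAlg C, rho₂ R₁ R₂ hπ C e = 0 →
        rho₁ R₁ R₂ hπ C e ∈ P.toValuationSubring.nonunits := by
  constructor
  · intro hneg e he0
    by_contra heP
    have := ord_delta_nonneg R₁ R₂ hπ C P hT hϖ hu huw hw e he0 heP
    omega
  · intro hnode
    have h1 := (delta_not_mem_of_node R₁ R₂ hπ C P hT hw hu' hg0 hΨ hE hE' hsum hnode).2
    have h0 : R₁.res ⟨w, hw⟩ ≠ 0 := by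
      intro h0
      apply h1
      rw [h0]
      exact P.toValuationSubring.zero_mem
    by_contra hcon
    rw [not_lt] at hcon
    exact h1 ((Fermat.Agent.S24.ZP.ord_nonneg_iff P h0).mp hcon)

include hT in
/-- the order of `δ` at a place of the chart is `-1` (node) or `≥ 0` (non-node), once `red_∞ u'`
is a uniformiser at every node place. -/
theorem ord_delta_eq_neg_one_or_nonneg {u u' w : F} {ϖ : A} (hϖ : ϖ ≠ 0) (hu : u ∈ BooAlg C)
    (huw : u = ϖ • w) (hw : w ∈ O₁) (hu' : u' ∈ BooAlg C)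
    (hg0 : rho₂ R₁ R₂ hπ C ⟨u', hu'⟩ = 0) (hΨ : w * u' ∈ BooAlg C) {E b E' : BooAlg C}
    (hE : rho₂ R₁ R₂ hπ C E = 0) (hE' : rho₁ R₁ R₂ hπ C E' = 0)
    (hsum : E + b * ⟨w * u', hΨ⟩ + E' = 1)
    (hord : (∀ e : BooAlg C, rho₂ R₁ R₂ hπ C e = 0 →
        rho₁ R₁ R₂ hπ C e ∈ P.toValuationSubring.nonunits) →
      P.ord (rho₁ R₁ R₂ hπ C ⟨u', hu'⟩) = 1) :
    P.ord (R₁.res ⟨w, hw⟩) = -1 ∨ 0 ≤ P.ord (R₁.res ⟨w, hw⟩) := by
  by_cases hnode : ∀ e : BooAlg C, rho₂ R₁ R₂ hπ C e = 0 →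
      rho₁ R₁ R₂ hπ C e ∈ P.toValuationSubring.nonunits
  · exact Or.inl (ord_delta_eq_neg_one R₁ R₂ hπ C P hT hw hu' hg0 hΨ hE hE' hsum hnode
      (hord hnode))
  · right
    rw [not_forall] at hnode
    obtain ⟨e, he⟩ := hnode
    rw [Classical.not_imp] at he
    exact ord_delta_nonneg R₁ R₂ hπ C P hT hϖ hu huw hw e he.1 he.2

end Fermat.Agent.S40x.Node.NodePoleOrd
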