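/-
P-S44/S40, block R1, export X13 (POLE), part (b) (helper65): (POLE) in terms of the canonical node
sets `NodePlaces.nodeSet₁ C`, `nodeSet₂ C` (helper47).

`δ ∈ κ₁` the reduction `red_∞ (u / p)`:

* `ord_eq_neg_one_of_mem_nodeSet₁` : `P ∈ nodeSet₁ C → ord_P δ = -1`;
* `ord_nonneg_of_notMem_nodeSet₁` : `P ∉ nodeSet₁ C`, `T₁ ∈ O_P` `→ 0 ≤ ord_P δ`;
* `mem_nodeSet₁_iff_ord_neg`, `nodeSet₁_eq_setOf_ord_neg` : the node places of the chart are the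
  poles of `δ` on the chart;
* `pole_package₁` : all of it from the inputs in the shape in which R1 produces them
  (`hrel : ρ₁ Ψ = δ ρ₁ u'`, `hPsi : Ψ ∉ nodeIdeal s` for every node, `hord : ord_{P_s} (ρ₁ u') = 1`,
  `hT5`);
* the same for the second component.
-/
import Fermat.Agent.S40x.Node.NodePole
import Fermat.Agent.S40x.Node.NodePlaces

set_option autoImplicit false
set_option linter.unusedSectionVars false
set_option linter.style.haveILetI false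

noncomputable section

namespace Fermat.Agent.S40x.Node.NodePoleSet

open AlgebraicCurve IsLocalRing Module IntermediateField
open Fermat.Agent.S34x Fermat.Agent.S34x.C0two Fermat.Agent.S34x.Lattice2
open Fermat.Agent.S40x.Node.NodeInst Fermat.Agent.S40x.Node.SmoothInst
open Fermat.Agent.S40x.Node.PlaceIdeal Fermat.Agent.S40x.Node.NodePlace
open Fermat.Agent.S40x.Node.NodePole Fermat.Agent.S40x.Node.NodePlaces

variable {K : Type*} [Field K] {A : ValuationSubring K} {F : Type*} [Field F] [Algebra K F]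
  {S : SmallRing F} {k κ₁ κ₂ : Type*} [Field k] [Field κ₁] [Field κ₂] [Algebra k κ₁]
  [Algebra k κ₂] {R : RedSetup2 A S k (κ₁ × κ₂)} {C : ChartCoord R}

variable [IsAlgClosed k] (hL2 : C.IsL2)
  [Module.Finite k ((C.B₁ × C.B₂) ⧸ Subalgebra.toSubmodule C.BbarT)]

/-! ### first component -/

section First

variable {δ : κ₁}

/-- **(POLE)(i)** on the node set. -/
theorem ord_eq_neg_one_of_mem_nodeSet₁ {P : Place k κ₁} (hP : P ∈ nodeSet₁ C)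
    (hnode : ∀ s : Goursat.Nodes C.BbarT hL2.h2, IsBranch₁ hL2 s P → P.ord δ = -1) :
    P.ord δ = -1 := by
  obtain ⟨s, hs⟩ := (mem_nodeSet₁_iff_exists_branch hL2).mp hP
  exact hnode s hs

omit [Module.Finite k ((C.B₁ × C.B₂) ⧸ Subalgebra.toSubmodule C.BbarT)] in
/-- **(POLE)(ii)** off the node set. -/
theorem ord_nonneg_of_notMem_nodeSet₁ {P : Place k κ₁} (hT : C.T.1 ∈ P.toValuationSubring)
    (hP : P ∉ nodeSet₁ C)
    (hT5 : ∀ a : C.B₁, ((a, 0) : C.B₁ × C.B₂) ∈ C.BbarT →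
      ∃ (n : ℕ) (c : C.B₁), (a : κ₁) ^ n * δ = (c : κ₁)) : 0 ≤ P.ord δ :=
  ord_nonneg_of_isNonNode hT (isNonNode₁_of_notMem hT hP) hT5

/-- **(POLE)**: on the chart, the node places are the poles of `δ`. -/
theorem mem_nodeSet₁_iff_ord_neg {P : Place k κ₁} (hT : C.T.1 ∈ P.toValuationSubring)
    (hnode : ∀ s : Goursat.Nodes C.BbarT hL2.h2, IsBranch₁ hL2 s P → P.ord δ = -1)
    (hT5 : ∀ a : C.B₁, ((a, 0) : C.B₁ × C.B₂) ∈ C.BbarT →
      ∃ (n : ℕ) (c : C.B₁), (a : κ₁) ^ n * δ = (c : κ₁)) :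
    P ∈ nodeSet₁ C ↔ P.ord δ < 0 := by
  rw [mem_nodeSet₁_iff_exists_branch hL2, ord_neg_iff_exists_branch hL2 hT hnode hT5]

/-- the node set as the set of poles of `δ` on the chart. -/
theorem nodeSet₁_eq_setOf_ord_neg
    (hnode : ∀ (s : Goursat.Nodes C.BbarT hL2.h2) (P : Place k κ₁),
      IsBranch₁ hL2 s P → P.ord δ = -1)
    (hT5 : ∀ a : C.B₁, ((a, 0) : C.B₁ × C.B₂) ∈ C.BbarT →
      ∃ (n : ℕ) (c : C.B₁), (a : κ₁) ^ n * δ = (c : κ₁)) :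
    nodeSet₁ C = {P | C.T.1 ∈ P.toValuationSubring ∧ P.ord δ < 0} := by
  ext P
  constructor
  · intro hP
    have hT := T_mem_of_mem_nodeSet₁ hP
    exact ⟨hT, (mem_nodeSet₁_iff_ord_neg hL2 hT (fun s => hnode s P) hT5).mp hP⟩
  · rintro ⟨hT, hneg⟩
    exact (mem_nodeSet₁_iff_ord_neg hL2 hT (fun s => hnode s P) hT5).mpr hneg

/-- **(POLE), package**: from the R1 inputs (`Ψ, u' ∈ B_0`): the node places of the first
component are exactly the poles of `δ` on the chart, and all these poles are simple. -/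
theorem pole_package₁ (Γ : Set (SemilinearAut K F)) {Ψ u' : B0 C Γ}
    (hrel : ((rho1 C Γ Ψ : C.B₁) : κ₁) = δ * ((rho1 C Γ u' : C.B₁) : κ₁))
    (hPsi : ∀ s : Goursat.Nodes C.BbarT hL2.h2, Ψ ∉ nodeIdeal (Γ := Γ) hL2 s)
    (hord : ∀ (s : Goursat.Nodes C.BbarT hL2.h2) (P : Place k κ₁), IsBranch₁ hL2 s P →
      P.ord ((rho1 C Γ u' : C.B₁) : κ₁) = 1)
    (hT5 : ∀ a : C.B₁, ((a, 0) : C.B₁ × C.B₂) ∈ C.BbarT →
      ∃ (n : ℕ) (c : C.B₁), (a : κ₁) ^ n * δ = (c : κ₁)) :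
    nodeSet₁ C = {P | C.T.1 ∈ P.toValuationSubring ∧ P.ord δ < 0} ∧
      (∀ P ∈ nodeSet₁ C, P.ord δ = -1) ∧
      ∀ P : Place k κ₁, C.T.1 ∈ P.toValuationSubring → P ∉ nodeSet₁ C → 0 ≤ P.ord δ := by
  have hnode : ∀ (s : Goursat.Nodes C.BbarT hL2.h2) (P : Place k κ₁),
      IsBranch₁ hL2 s P → P.ord δ = -1 := fun s P hs =>
    ord_eq_neg_one_of_notMem_nodeIdeal hL2 Γ hs (T_mem_of_isBranch₁ hL2 hs) hrel (hPsi s)
      (hord s P hs)
  exact ⟨nodeSet₁_eq_setOf_ord_neg hL2 hnode hT5,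
    fun P hP => ord_eq_neg_one_of_mem_nodeSet₁ hL2 hP (fun s => hnode s P),
    fun P hT hP => ord_nonneg_of_notMem_nodeSet₁ hT hP hT5⟩

end First

/-! ### second component -/

section Second

variable {δ : κ₂}

theorem ord_eq_neg_one_of_mem_nodeSet₂ {P : Place k κ₂} (hP : P ∈ nodeSet₂ C)
    (hnode : ∀ s : Goursat.Nodes C.BbarT hL2.h2, IsBranch₂ hL2 s P → P.ord δ = -1) :
    P.ord δ = -1 := by
  obtain ⟨s, hs⟩ := (mem_nodeSet₂_iff_exists_branch hL2).mp hP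
  exact hnode s hs

omit [Module.Finite k ((C.B₁ × C.B₂) ⧸ Subalgebra.toSubmodule C.BbarT)] in
theorem ord_nonneg_of_notMem_nodeSet₂ {P : Place k κ₂} (hT : C.T.2 ∈ P.toValuationSubring)
    (hP : P ∉ nodeSet₂ C)
    (hT5 : ∀ b : C.B₂, ((0, b) : C.B₁ × C.B₂) ∈ C.BbarT →
      ∃ (n : ℕ) (c : C.B₂), (b : κ₂) ^ n * δ = (c : κ₂)) : 0 ≤ P.ord δ :=
  ord_nonneg_of_isNonNode₂ hT (isNonNode₂_of_notMem hT hP) hT5

theorem mem_nodeSet₂_iff_ord_neg {P : Place k κ₂} (hT : C.T.2 ∈ P.toValuationSubring)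
    (hnode : ∀ s : Goursat.Nodes C.BbarT hL2.h2, IsBranch₂ hL2 s P → P.ord δ = -1)
    (hT5 : ∀ b : C.B₂, ((0, b) : C.B₁ × C.B₂) ∈ C.BbarT →
      ∃ (n : ℕ) (c : C.B₂), (b : κ₂) ^ n * δ = (c : κ₂)) :
    P ∈ nodeSet₂ C ↔ P.ord δ < 0 := by
  rw [mem_nodeSet₂_iff_exists_branch hL2, ord_neg_iff_exists_branch₂ hL2 hT hnode hT5]

theorem nodeSet₂_eq_setOf_ord_neg
    (hnode : ∀ (s : Goursat.Nodes C.BbarT hL2.h2) (P : Place k κ₂),
      IsBranch₂ hL2 s P → P.ord δ = -1)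
    (hT5 : ∀ b : C.B₂, ((0, b) : C.B₁ × C.B₂) ∈ C.BbarT →
      ∃ (n : ℕ) (c : C.B₂), (b : κ₂) ^ n * δ = (c : κ₂)) :
    nodeSet₂ C = {P | C.T.2 ∈ P.toValuationSubring ∧ P.ord δ < 0} := by
  ext P
  constructor
  · intro hP
    have hT := T_mem_of_mem_nodeSet₂ hP
    exact ⟨hT, (mem_nodeSet₂_iff_ord_neg hL2 hT (fun s => hnode s P) hT5).mp hP⟩
  · rintro ⟨hT, hneg⟩
    exact (mem_nodeSet₂_iff_ord_neg hL2 hT (fun s => hnode s P) hT5).mpr hneg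

/-- **(POLE), package, second component** (`Ψ, u ∈ B_0`, `δ' = red_0 (u' / p)`). -/
theorem pole_package₂ (Γ : Set (SemilinearAut K F)) {Ψ u : B0 C Γ}
    (hrel : ((rho2 C Γ Ψ : C.B₂) : κ₂) = δ * ((rho2 C Γ u : C.B₂) : κ₂))
    (hPsi : ∀ s : Goursat.Nodes C.BbarT hL2.h2, Ψ ∉ nodeIdeal (Γ := Γ) hL2 s)
    (hord : ∀ (s : Goursat.Nodes C.BbarT hL2.h2) (P : Place k κ₂), IsBranch₂ hL2 s P →
      P.ord ((rho2 C Γ u : C.B₂) : κ₂) = 1)
    (hT5 : ∀ b : C.B₂, ((0, b) : C.B₁ × C.B₂) ∈ C.BbarT →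
      ∃ (n : ℕ) (c : C.B₂), (b : κ₂) ^ n * δ = (c : κ₂)) :
    nodeSet₂ C = {P | C.T.2 ∈ P.toValuationSubring ∧ P.ord δ < 0} ∧
      (∀ P ∈ nodeSet₂ C, P.ord δ = -1) ∧
      ∀ P : Place k κ₂, C.T.2 ∈ P.toValuationSubring → P ∉ nodeSet₂ C → 0 ≤ P.ord δ := by
  have hnode : ∀ (s : Goursat.Nodes C.BbarT hL2.h2) (P : Place k κ₂),
      IsBranch₂ hL2 s P → P.ord δ = -1 := fun s P hs =>
    ord_eq_neg_one_of_notMem_nodeIdeal₂ hL2 Γ hs (T_mem_of_isBranch₂ hL2 hs) hrel (hPsi s)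
      (hord s P hs)
  exact ⟨nodeSet₂_eq_setOf_ord_neg hL2 hnode hT5,
    fun P hP => ord_eq_neg_one_of_mem_nodeSet₂ hL2 hP (fun s => hnode s P),
    fun P hT hP => ord_nonneg_of_notMem_nodeSet₂ hT hP hT5⟩

end Second

end Fermat.Agent.S40x.Node.NodePoleSet
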