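/-
P-S44/S40, block R1, leaf N2 (abstract half, independent second; helper38): THE NODE RING FROM THE
TWO REDUCTIONS, in the generic `IsLocalization.AtPrime` form (Mathlib + landed `S40x/Edge/UFD`).

Part 1 (`section Red`, one branch; generic form of helper61's `SmoothAbs.locMap`): `ρ : B →+* D0`,
`𝔪` a prime of `B`, `𝔫` a prime of `D0` with `𝔫.comap ρ = 𝔪`, `S` ANY localisation of `B` at `𝔪`,
`D` ANY localisation of `D0` at `𝔫`:
`redMap : S →+* D`, `redMap_algebraMap`, `redMap_surjective`, `ker_redMap`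
(`ρ π = 0`, `ρ e ∉ 𝔫`, `ρ b = 0 → ∃ c, b * e = π * c`  ⟹  `ker = (π)`), `redQuotEquiv`.

Part 2 (`section Node`): `ρ1 : B →+* B1`, `ρ2 : B →+* B2` surjective onto domains, `p u u' Ψ : B`,
`ker ρ1 ∩ ker ρ2 = p B`, `u u' = p Ψ`, `ρ1 u = 0`, `ρ2 u' = 0`, `Ψ ∉ 𝔪`, where
`𝔪 = ρ1⁻¹ 𝔪1 = ρ2⁻¹ 𝔪2` is the node; `S = B_𝔪`, `D1 = (B1)_𝔪1`, `D2 = (B2)_𝔪2`,
`max D1 = (ρ1 u')`, `max D2 = (ρ2 u)` (output of `NodeGen.maximalIdeal_eq_span`).  Then
* `ker (S → D1) = (u)`, `ker (S → D2) = (u')`, both maps surjective (`S ⧸ (u) ≃+* D1`, ...);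
* `Ψ` is a unit of `S`, `u u' = p Ψ`, `maximalIdeal S = (u, u')`;
* `u`, `u'` are non-associated prime elements of `S`;
* `S` is a unique factorisation domain (Kaplansky + Nakayama, `Edge.ufm_of_red_of_isLocalRing`);
* a prime element of `S` dividing `p` is associated to `u` or to `u'`.
These are the five fields of helper50's `IsNodeRing S p u u'` (note 2641) + the hypotheses of the
edge lemmas.
-/
import Mathlib
import Fermat.Agent.S40x.Edge.UFD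

set_option autoImplicit false
set_option linter.unusedSectionVars false

namespace Fermat.Agent.S40x.Node.NodeQuot

open IsLocalRing

/-! ### One branch: the reduction map on local rings -/

section Red

theorem mem_iff_map_mem {B D0 : Type*} [CommRing B] [CommRing D0] (ρ : B →+* D0)
    {𝔪 : Ideal B} {𝔫 : Ideal D0} (h𝔪 : 𝔫.comap ρ = 𝔪) (x : B) : x ∈ 𝔪 ↔ ρ x ∈ 𝔫 := by
  have h : x ∈ 𝔫.comap ρ ↔ ρ x ∈ 𝔫 := Ideal.mem_comap
  rwa [h𝔪] at h

variable {B D0 : Type*} [CommRing B] [CommRing D0] (ρ : B →+* D0)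
  {𝔪 : Ideal B} [𝔪.IsPrime] {𝔫 : Ideal D0} [𝔫.IsPrime] (h𝔪 : 𝔫.comap ρ = 𝔪)
  (S : Type*) [CommRing S] [Algebra B S] [IsLocalization.AtPrime S 𝔪]
  (D : Type*) [CommRing D] [Algebra D0 D] [IsLocalization.AtPrime D 𝔫]

include h𝔪 in
theorem primeCompl_le_comap : 𝔪.primeCompl ≤ 𝔫.primeCompl.comap ρ := by
  intro x hx h
  exact hx ((mem_iff_map_mem ρ h𝔪 x).2 h)

/-- the reduction map `B_𝔪 → (D0)_𝔫` -/
noncomputable def redMap : S →+* D :=
  IsLocalization.map D ρ (primeCompl_le_comap ρ h𝔪)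

theorem redMap_algebraMap (b : B) :
    redMap ρ h𝔪 S D (algebraMap B S b) = algebraMap D0 D (ρ b) :=
  IsLocalization.map_eq _ _

variable {ρ}

theorem redMap_surjective (hρ : Function.Surjective ρ) :
    Function.Surjective (redMap ρ h𝔪 S D) := by
  intro z
  obtain ⟨x, y, rfl⟩ := IsLocalization.exists_mk'_eq 𝔫.primeCompl z
  obtain ⟨a, rfl⟩ := hρ x
  obtain ⟨s, hs⟩ := hρ (y : D0)
  have hsm : s ∈ 𝔪.primeCompl := by
    intro h
    exact y.2 (by rw [← hs]; exact (mem_iff_map_mem ρ h𝔪 s).1 h)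
  refine ⟨IsLocalization.mk' S a (⟨s, hsm⟩ : 𝔪.primeCompl), ?_⟩
  rw [redMap, IsLocalization.map_mk']
  congr 1
  exact Subtype.ext hs

variable {π e : B}

theorem ker_redMap (hρ : Function.Surjective ρ) (hπ : ρ π = 0) (he : ρ e ∉ 𝔫)
    (hker : ∀ b, ρ b = 0 → ∃ c, b * e = π * c) :
    RingHom.ker (redMap ρ h𝔪 S D) = Ideal.span {algebraMap B S π} := by
  apply le_antisymm
  · intro z hz
    obtain ⟨a, s, rfl⟩ := IsLocalization.exists_mk'_eq 𝔪.primeCompl z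
    rw [RingHom.mem_ker, redMap, IsLocalization.map_mk',
      IsLocalization.mk'_eq_zero_iff] at hz
    obtain ⟨t, ht⟩ := hz
    obtain ⟨t0, ht0⟩ := hρ (t : D0)
    have h1 : ρ (t0 * a) = 0 := by rw [map_mul, ht0]; exact ht
    obtain ⟨c, hc⟩ := hker _ h1
    have hu : t0 * e * (s : B) ∈ 𝔪.primeCompl := by
      intro h
      have h := (mem_iff_map_mem ρ h𝔪 _).1 h
      rw [map_mul, map_mul, ht0] at h
      rcases (Ideal.IsPrime.mem_or_mem ‹𝔫.IsPrime› h) with h | h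
      · rcases (Ideal.IsPrime.mem_or_mem ‹𝔫.IsPrime› h) with h | h
        · exact t.2 h
        · exact he h
      · exact s.2 ((mem_iff_map_mem ρ h𝔪 _).2 h)
    rw [Ideal.mem_span_singleton']
    refine ⟨IsLocalization.mk' S c (⟨t0 * e * s, hu⟩ : 𝔪.primeCompl), ?_⟩
    rw [mul_comm, IsLocalization.mul_mk'_eq_mk'_of_mul]
    apply IsLocalization.mk'_eq_of_eq
    simp only
    linear_combination (s : B) * hc
  · rw [Ideal.span_le]
    intro z hz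
    rw [Set.mem_singleton_iff] at hz
    rw [hz, SetLike.mem_coe, RingHom.mem_ker, redMap_algebraMap, hπ, map_zero]

/-- `B_𝔪 ⧸ (π) ≃ (D0)_𝔫` -/
noncomputable def redQuotEquiv (hρ : Function.Surjective ρ) (hπ : ρ π = 0) (he : ρ e ∉ 𝔫)
    (hker : ∀ b, ρ b = 0 → ∃ c, b * e = π * c) :
    (S ⧸ Ideal.span {algebraMap B S π}) ≃+* D :=
  (Ideal.quotEquivOfEq (ker_redMap h𝔪 S D hρ hπ he hker).symm).trans
    (RingHom.quotientKerEquivOfSurjective (redMap_surjective h𝔪 S D hρ))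

theorem redQuotEquiv_mk (hρ : Function.Surjective ρ) (hπ : ρ π = 0) (he : ρ e ∉ 𝔫)
    (hker : ∀ b, ρ b = 0 → ∃ c, b * e = π * c) (z : S) :
    redQuotEquiv h𝔪 S D hρ hπ he hker (Ideal.Quotient.mk _ z) = redMap ρ h𝔪 S D z := rfl

end Red

/-! ### The node ring -/

section Node

variable {B B1 B2 : Type*} [CommRing B] [CommRing B1] [CommRing B2]

/-- **The hypotheses at a node** `𝔪 = ρ1⁻¹ 𝔪1 = ρ2⁻¹ 𝔪2` of a chart ring `B` with its two reductions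
`ρ1`, `ρ2` (onto the chart rings of the two components): `ker ρ1 ∩ ker ρ2 = p B`, thickness datum
`u u' = p Ψ` with `ρ1 u = 0`, `ρ2 u' = 0` and `Ψ` a unit at the node. -/
structure NodeHyp (ρ1 : B →+* B1) (ρ2 : B →+* B2) (p u u' Ψ : B)
    (𝔪 : Ideal B) (𝔪1 : Ideal B1) (𝔪2 : Ideal B2) : Prop where
  surj1 : Function.Surjective ρ1
  surj2 : Function.Surjective ρ2
  comap1 : 𝔪1.comap ρ1 = 𝔪
  comap2 : 𝔪2.comap ρ2 = 𝔪
  p_ne_zero : p ≠ 0
  ker_inf : ∀ f : B, ρ1 f = 0 → ρ2 f = 0 → ∃ g, f = p * g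
  mul_eq : u * u' = p * Ψ
  map_u : ρ1 u = 0
  map_u' : ρ2 u' = 0
  psi_notMem : Ψ ∉ 𝔪

namespace NodeHyp

variable {ρ1 : B →+* B1} {ρ2 : B →+* B2} {p u u' Ψ : B}
  {𝔪 : Ideal B} {𝔪1 : Ideal B1} {𝔪2 : Ideal B2}

/-- the hypotheses are symmetric in the two branches -/
theorem symm (h : NodeHyp ρ1 ρ2 p u u' Ψ 𝔪 𝔪1 𝔪2) : NodeHyp ρ2 ρ1 p u' u Ψ 𝔪 𝔪2 𝔪1 where
  surj1 := h.surj2
  surj2 := h.surj1
  comap1 := h.comap2
  comap2 := h.comap1
  p_ne_zero := h.p_ne_zero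
  ker_inf := fun f h2 h1 => h.ker_inf f h1 h2
  mul_eq := by rw [mul_comm]; exact h.mul_eq
  map_u := h.map_u'
  map_u' := h.map_u
  psi_notMem := h.psi_notMem

theorem u_mem (h : NodeHyp ρ1 ρ2 p u u' Ψ 𝔪 𝔪1 𝔪2) : u ∈ 𝔪 := by
  rw [mem_iff_map_mem ρ1 h.comap1, h.map_u]
  exact 𝔪1.zero_mem

theorem u'_mem (h : NodeHyp ρ1 ρ2 p u u' Ψ 𝔪 𝔪1 𝔪2) : u' ∈ 𝔪 := h.symm.u_mem

theorem map_psi_notMem (h : NodeHyp ρ1 ρ2 p u u' Ψ 𝔪 𝔪1 𝔪2) : ρ1 Ψ ∉ 𝔪1 := fun h1 =>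
  h.psi_notMem ((mem_iff_map_mem ρ1 h.comap1 Ψ).2 h1)

variable [IsDomain B]

/-- NODE-GEN: `ρ1 b = 0 → b Ψ ∈ (u)`. -/
theorem ker_left (h : NodeHyp ρ1 ρ2 p u u' Ψ 𝔪 𝔪1 𝔪2) (b : B) (hb : ρ1 b = 0) :
    ∃ c, b * Ψ = u * c := by
  obtain ⟨g, hg⟩ := h.ker_inf (u' * b) (by rw [map_mul, hb, mul_zero])
    (by rw [map_mul, h.map_u', zero_mul])
  refine ⟨g, mul_left_cancel₀ h.p_ne_zero ?_⟩
  calc p * (b * Ψ) = (p * Ψ) * b := by ring
    _ = u * (u' * b) := by rw [← h.mul_eq]; ring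
    _ = p * (u * g) := by rw [hg]; ring

/-- `ρ1 u' ≠ 0` (else `Ψ = u g` would lie in the node ideal). -/
theorem map_u'_ne_zero (h : NodeHyp ρ1 ρ2 p u u' Ψ 𝔪 𝔪1 𝔪2) : ρ1 u' ≠ 0 := by
  intro h0
  obtain ⟨g, hg⟩ := h.ker_inf u' h0 h.map_u'
  have h1 : Ψ = u * g := by
    apply mul_left_cancel₀ h.p_ne_zero
    rw [← h.mul_eq, hg]; ring
  exact h.psi_notMem (h1 ▸ 𝔪.mul_mem_right g h.u_mem)

theorem map_u_ne_zero (h : NodeHyp ρ1 ρ2 p u u' Ψ 𝔪 𝔪1 𝔪2) : ρ2 u ≠ 0 := h.symm.map_u'_ne_zero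

theorem u_ne_zero (h : NodeHyp ρ1 ρ2 p u u' Ψ 𝔪 𝔪1 𝔪2) : u ≠ 0 := fun h0 =>
  h.map_u_ne_zero (by rw [h0, map_zero])

theorem u'_ne_zero (h : NodeHyp ρ1 ρ2 p u u' Ψ 𝔪 𝔪1 𝔪2) : u' ≠ 0 := h.symm.u_ne_zero

variable [𝔪.IsPrime] [𝔪1.IsPrime] [𝔪2.IsPrime]
  (S : Type*) [CommRing S] [Algebra B S] [IsLocalization.AtPrime S 𝔪]
  (D1 : Type*) [CommRing D1] [Algebra B1 D1] [IsLocalization.AtPrime D1 𝔪1]

/-- `ker (B_𝔪 → (B1)_𝔪1) = (u)` -/
theorem ker_red (h : NodeHyp ρ1 ρ2 p u u' Ψ 𝔪 𝔪1 𝔪2) :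
    RingHom.ker (redMap ρ1 h.comap1 S D1) = Ideal.span {algebraMap B S u} :=
  ker_redMap h.comap1 S D1 h.surj1 h.map_u h.map_psi_notMem h.ker_left

theorem red_surjective (h : NodeHyp ρ1 ρ2 p u u' Ψ 𝔪 𝔪1 𝔪2) :
    Function.Surjective (redMap ρ1 h.comap1 S D1) :=
  redMap_surjective h.comap1 S D1 h.surj1

theorem red_eq_zero_iff (h : NodeHyp ρ1 ρ2 p u u' Ψ 𝔪 𝔪1 𝔪2) (x : S) :
    redMap ρ1 h.comap1 S D1 x = 0 ↔ algebraMap B S u ∣ x := by
  rw [← RingHom.mem_ker, h.ker_red S D1, Ideal.mem_span_singleton]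

/-- `B_𝔪 ⧸ (u) ≃ (B1)_𝔪1` -/
noncomputable def quotEquiv (h : NodeHyp ρ1 ρ2 p u u' Ψ 𝔪 𝔪1 𝔪2) :
    (S ⧸ Ideal.span {algebraMap B S u}) ≃+* D1 :=
  redQuotEquiv h.comap1 S D1 h.surj1 h.map_u h.map_psi_notMem h.ker_left

theorem quotEquiv_mk (h : NodeHyp ρ1 ρ2 p u u' Ψ 𝔪 𝔪1 𝔪2) (z : S) :
    h.quotEquiv S D1 (Ideal.Quotient.mk _ z) = redMap ρ1 h.comap1 S D1 z := rfl

/-- `Ψ` is a unit of the node ring -/
theorem isUnit_psi (h : NodeHyp ρ1 ρ2 p u u' Ψ 𝔪 𝔪1 𝔪2) : IsUnit (algebraMap B S Ψ) :=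
  IsLocalization.map_units S (⟨Ψ, h.psi_notMem⟩ : 𝔪.primeCompl)

/-- (n1) `u u' = p ψ`, `ψ` a unit -/
theorem exists_unit_mul_eq (h : NodeHyp ρ1 ρ2 p u u' Ψ 𝔪 𝔪1 𝔪2) :
    ∃ ψ : Sˣ, algebraMap B S u * algebraMap B S u' = algebraMap B S p * ψ := by
  refine ⟨(h.isUnit_psi S).unit, ?_⟩
  rw [IsUnit.unit_spec, ← map_mul, ← map_mul, h.mul_eq]

include 𝔪 in
theorem algebraMap_injective : Function.Injective (algebraMap B S) :=
  IsLocalization.injective S 𝔪.primeCompl_le_nonZeroDivisors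

include 𝔪 in
theorem isDomain_loc : IsDomain S :=
  IsLocalization.isDomain_of_atPrime S 𝔪

theorem algebraMap_u_ne_zero (h : NodeHyp ρ1 ρ2 p u u' Ψ 𝔪 𝔪1 𝔪2) : algebraMap B S u ≠ 0 :=
  fun h0 => h.u_ne_zero (algebraMap_injective (𝔪 := 𝔪) S (by rw [h0, map_zero]))

theorem algebraMap_u_mem_maximalIdeal [IsLocalRing S] (h : NodeHyp ρ1 ρ2 p u u' Ψ 𝔪 𝔪1 𝔪2) :
    algebraMap B S u ∈ maximalIdeal S :=
  (IsLocalization.AtPrime.to_map_mem_maximal_iff S 𝔪 u).2 h.u_mem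

variable [IsDomain B1]

/-- (n2) `u` is a prime element of the node ring -/
theorem prime_u (h : NodeHyp ρ1 ρ2 p u u' Ψ 𝔪 𝔪1 𝔪2) : Prime (algebraMap B S u) := by
  have : IsDomain S := isDomain_loc (𝔪 := 𝔪) S
  exact Edge.prime_of_red (h.algebraMap_u_ne_zero S)
    (redMap ρ1 h.comap1 S (Localization.AtPrime 𝔪1)) (h.red_eq_zero_iff S _)

/-- `u ∤ u'` in the node ring -/
theorem not_dvd (h : NodeHyp ρ1 ρ2 p u u' Ψ 𝔪 𝔪1 𝔪2) :
    ¬ algebraMap B S u ∣ algebraMap B S u' := by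
  intro hd
  have h1 := (h.red_eq_zero_iff S (Localization.AtPrime 𝔪1) _).2 hd
  rw [redMap_algebraMap] at h1
  have hinj : Function.Injective (algebraMap B1 (Localization.AtPrime 𝔪1)) :=
    IsLocalization.injective _ 𝔪1.primeCompl_le_nonZeroDivisors
  exact h.map_u'_ne_zero (hinj (by rw [h1, map_zero]))

theorem not_associated (h : NodeHyp ρ1 ρ2 p u u' Ψ 𝔪 𝔪1 𝔪2) :
    ¬ Associated (algebraMap B S u) (algebraMap B S u') := fun ha =>
  h.not_dvd S ha.dvd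

/-- (n1) the maximal ideal of the node ring is `(u, u')`, if the maximal ideal of `(B1)_𝔪1` is
generated by the image of `u'` (`NodeGen.maximalIdeal_eq_span`). -/
theorem maximalIdeal_eq [IsLocalRing S] [IsLocalRing D1] (h : NodeHyp ρ1 ρ2 p u u' Ψ 𝔪 𝔪1 𝔪2)
    (hmax : maximalIdeal D1 = Ideal.span {algebraMap B1 D1 (ρ1 u')}) :
    maximalIdeal S = Ideal.span {algebraMap B S u, algebraMap B S u'} := by
  apply le_antisymm
  · rw [← IsLocalization.AtPrime.map_eq_maximalIdeal 𝔪 S, Ideal.map_le_iff_le_comap]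
    intro b hb
    rw [Ideal.mem_comap]
    have h1 : algebraMap B1 D1 (ρ1 b) ∈ maximalIdeal D1 :=
      (IsLocalization.AtPrime.to_map_mem_maximal_iff D1 𝔪1 _).2
        ((mem_iff_map_mem ρ1 h.comap1 b).1 hb)
    rw [hmax, Ideal.mem_span_singleton] at h1
    obtain ⟨d, hd⟩ := h1
    obtain ⟨y, rfl⟩ := h.red_surjective S D1 d
    have h2 : redMap ρ1 h.comap1 S D1 (algebraMap B S b - algebraMap B S u' * y) = 0 := by
      rw [map_sub, map_mul, redMap_algebraMap, redMap_algebraMap, hd, sub_self]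
    obtain ⟨c, hc⟩ := (h.red_eq_zero_iff S D1 _).1 h2
    have h3 : algebraMap B S b = algebraMap B S u * c + algebraMap B S u' * y := by
      rw [← hc]; ring
    rw [h3]
    exact Ideal.add_mem _ (Ideal.mul_mem_right _ _ (Ideal.subset_span (Set.mem_insert _ _)))
      (Ideal.mul_mem_right _ _ (Ideal.subset_span (Set.mem_insert_of_mem _ rfl)))
  · rw [Ideal.span_le]
    rintro x (rfl | rfl)
    · exact h.algebraMap_u_mem_maximalIdeal S
    · exact h.symm.algebraMap_u_mem_maximalIdeal S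

/-- `(B1)_𝔪1` is a discrete valuation ring when its maximal ideal is generated by the image of
`u'` and `B1` is Noetherian. -/
theorem isDiscreteValuationRing_of_max [IsNoetherianRing B1] [IsLocalRing D1]
    (h : NodeHyp ρ1 ρ2 p u u' Ψ 𝔪 𝔪1 𝔪2)
    (hmax : maximalIdeal D1 = Ideal.span {algebraMap B1 D1 (ρ1 u')}) :
    haveI : IsDomain D1 := IsLocalization.isDomain_of_atPrime D1 𝔪1
    IsDiscreteValuationRing D1 := by
  have : IsDomain D1 := IsLocalization.isDomain_of_atPrime D1 𝔪1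
  have : IsNoetherianRing D1 := IsLocalization.isNoetherianRing 𝔪1.primeCompl D1 inferInstance
  have hinj : Function.Injective (algebraMap B1 D1) :=
    IsLocalization.injective D1 𝔪1.primeCompl_le_nonZeroDivisors
  have hne : algebraMap B1 D1 (ρ1 u') ≠ 0 := fun h0 =>
    h.map_u'_ne_zero (hinj (by rw [h0, map_zero]))
  have hnf : ¬ IsField D1 := by
    rw [IsLocalRing.isField_iff_maximalIdeal_eq, hmax]
    intro h0
    exact hne (Ideal.span_singleton_eq_bot.mp h0)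
  have hprinc : (maximalIdeal D1).IsPrincipal := ⟨⟨_, hmax⟩⟩
  exact ((IsDiscreteValuationRing.TFAE D1 hnf).out 0 4).mpr hprinc

/-- **the node ring is a unique factorisation domain** -/
theorem ufd [IsNoetherianRing B] [IsNoetherianRing B1] [IsLocalRing D1]
    (h : NodeHyp ρ1 ρ2 p u u' Ψ 𝔪 𝔪1 𝔪2)
    (hmax : maximalIdeal D1 = Ideal.span {algebraMap B1 D1 (ρ1 u')}) :
    haveI : IsDomain S := isDomain_loc (𝔪 := 𝔪) S
    UniqueFactorizationMonoid S := by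
  have : IsDomain S := isDomain_loc (𝔪 := 𝔪) S
  have : IsDomain D1 := IsLocalization.isDomain_of_atPrime D1 𝔪1
  have : IsNoetherianRing S := IsLocalization.isNoetherianRing 𝔪.primeCompl S inferInstance
  have : IsLocalRing S := IsLocalization.AtPrime.isLocalRing S 𝔪
  have : IsDiscreteValuationRing D1 := h.isDiscreteValuationRing_of_max D1 hmax
  exact Edge.ufm_of_red_of_isLocalRing (h.algebraMap_u_ne_zero S)
    (h.algebraMap_u_mem_maximalIdeal S) (redMap ρ1 h.comap1 S D1) (h.red_eq_zero_iff S D1)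
    (h.red_surjective S D1)

/-- a prime element of the node ring dividing `p` is associated to `u` or to `u'` -/
theorem associated_of_prime_dvd (h : NodeHyp ρ1 ρ2 p u u' Ψ 𝔪 𝔪1 𝔪2) [IsDomain B2] {π : S}
    (hπ : Prime π) (hd : π ∣ algebraMap B S p) :
    Associated π (algebraMap B S u) ∨ Associated π (algebraMap B S u') := by
  have : IsDomain S := isDomain_loc (𝔪 := 𝔪) S
  obtain ⟨ψ, hψ⟩ := h.exists_unit_mul_eq S
  have h3 : π ∣ algebraMap B S u * algebraMap B S u' := by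
    rw [hψ]
    exact Dvd.dvd.mul_right hd _
  rcases hπ.dvd_or_dvd h3 with h4 | h4
  · exact Or.inl (hπ.irreducible.associated_of_dvd (h.prime_u S).irreducible h4)
  · exact Or.inr (hπ.irreducible.associated_of_dvd (h.symm.prime_u S).irreducible h4)

/-- **(N-OUT), ring-theoretic half**: the five fields of `IsNodeRing S pn u u'` (helper50, note
2641) for ANY localisation `S` of `B` at the node, `p` the image of the natural number `pn`. -/
theorem node_fields [IsDomain B2] [IsLocalRing S] [IsLocalRing D1]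
    (h : NodeHyp ρ1 ρ2 p u u' Ψ 𝔪 𝔪1 𝔪2)
    (hmax : maximalIdeal D1 = Ideal.span {algebraMap B1 D1 (ρ1 u')})
    (pn : ℕ) (hpn : p = (pn : B)) :
    (∃ ψ : Sˣ, algebraMap B S u * algebraMap B S u' = (pn : S) * ψ) ∧
      maximalIdeal S = Ideal.span {algebraMap B S u, algebraMap B S u'} ∧
      Prime (algebraMap B S u) ∧ Prime (algebraMap B S u') ∧
      ¬ Associated (algebraMap B S u) (algebraMap B S u') := by
  refine ⟨?_, h.maximalIdeal_eq S D1 hmax, h.prime_u S, h.symm.prime_u S, h.not_associated S⟩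
  obtain ⟨ψ, hψ⟩ := h.exists_unit_mul_eq S
  exact ⟨ψ, by rw [hψ, hpn, map_natCast]⟩

end NodeHyp

end Node

end Fermat.Agent.S40x.Node.NodeQuot
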