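import Fermat.Agent.S40x.Node.NodeRes
import Fermat.Agent.S40x.Node.NodeRing
import Fermat.Agent.S40x.Node.NodeFrac
import Fermat.Agent.S40x.Node.FixedQb

/-!
# P-S44, block R1 / N-alpha: the node rings at the concrete level `M q` over `Qbar` (helper58)

Concrete-level wrappers of `Node/NodeRes` (residue field), `Node/NodeRing` (N-OUT) and `Node/NodeFrac`
(fraction field), discharged by helper30's `Node/FixedQb.bundle_Mq`.

Vocabulary: `Γ₀ = inertiaAct P (M q)`, `R = redSetup2 H hA`, `C` a chart with `C.t = tA M q x hx`,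
`B_0 = NodeInst.B0 C Γ₀` (inertia-fixed chart ring over `W₀ = P^I`), `hL2 : C.IsL2`,
`s : Goursat.Nodes C.BbarT hL2.h2` a node, `R_s = Localization.AtPrime (nodeIdeal hL2 s)`.

PART 1 (context bundle `Ctx` + `CtxGal` + `FixData2` + `hF`, any `Γ`):
* `isNoetherianRing_nodeRing`, `isAlgebraic_adjoin_t`, `isFractionRing_nodeRing`
  (`IsFractionRing R_s (NodeFrac.fixedField Γ)`).

PART 2 (concrete level `M q`, `L = Qbar`, `Γ₀` = inertia):
* `isL2_Mq : C.IsL2`;
* `natCast_dvd_of_fixed` : `q` is a uniformiser of `W₀` (hypothesis `hp` of `NodeRing.isNodeRing`);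
* `isNoetherianRing_B0_Mq`, `isNoetherianRing_nodeRing_Mq`, `isDomain_nodeRing`;
* `isAlgClosed_residueField_Mq`, `exists_const_sub_mem_Mq`, `natCast_mem_maximalIdeal_Mq`,
  `residueFieldEquiv_Mq` (X7 at the nodes);
* `algebraNodeF0 : Algebra R_s (F0 P (M q))`, `algebraMap_nodeF0_coe`,
  `isScalarTower_nodeF0`, `isFractionRing_nodeRing_Mq : IsFractionRing R_s (F0 P (M q))`;
* `isNodeRing_Mq` : **(N-OUT)** `IsNodeRing R_s q u u'` from thickness data `u u' Ψ : B_0`.
-/

set_option autoImplicit false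
set_option linter.unusedSectionVars false
set_option linter.style.haveILetI false
set_option linter.unusedVariables false

noncomputable section

namespace Fermat.Agent.S40x.Node.NodeResMq

open AlgebraicCurve IsLocalRing Module IntermediateField
open scoped IntermediateField.algebraAdjoinAdjoin
open Fermat.Agent.S34x Fermat.Agent.S34x.C0two Fermat.Agent.S34x.Lattice2
open Fermat.Agent.S19x.Geo.LatticeFixed (IsFixed IsFixedK)
open Fermat.Agent.S33x.H1.LatticeFixed2 Fermat.Agent.S33x.H1.FixedDecomp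
open Fermat.Agent.S33x.W.InstW
open Fermat.Agent.S40x.Node.NodeInst

/-! ### PART 1: inside the context bundle -/

section Ctx

open Fermat.Agent.S33x.Cech.CtxMq Fermat.Agent.S33x.W.InstWCtx

variable {K : Type*} [Field K] [IsAlgClosed K] [CharZero K] {A : ValuationSubring K}
  {F : Type*} [Field F] [Algebra K F] {S : SmallRing F}
  {k : Type*} [Field k] [IsAlgClosed k] {E : Type*} [Field E] [Algebra k E]
  {R : RedSetup2 A S k (E × E)} {C : ChartCoord R} {p q : ℕ} {x : E} {Dt : Divisor K F}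
  (h : Ctx R C p q x Dt) {Γ : Set (SemilinearAut K F)} (hG : CtxGal R C Γ)

include h hG in
/-- the node ring is Noetherian. -/
theorem isNoetherianRing_nodeRing (hD : FixData2 R Γ)
    (hF : Submodule.span K {f : F | IsFixed Γ f} = ⊤) (hL2 : C.IsL2)
    (s : Goursat.Nodes C.BbarT hL2.h2) :
    IsNoetherianRing (Localization.AtPrime (nodeIdeal (Γ := Γ) hL2 s)) := by
  haveI : IsNoetherianRing (B0 C Γ) := FixedNoeth.isNoetherianRing_fixedBoo' h hG hD hF
  exact IsLocalization.isNoetherianRing (nodeIdeal (Γ := Γ) hL2 s).primeCompl _ inferInstance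

include h in
/-- `F` is algebraic over `K[t]`. -/
theorem isAlgebraic_adjoin_t : Algebra.IsAlgebraic (Algebra.adjoin K {C.t}) F := by
  haveI := h.fin_t
  exact ⟨fun f => (IsFractionRing.isAlgebraic_iff (Algebra.adjoin K {C.t}) K⟮C.t⟯ F).mpr
    (Algebra.IsAlgebraic.isAlgebraic f)⟩

include h hG in
/-- the fixed field is the fraction field of the node ring. -/
theorem isFractionRing_nodeRing (hD : FixData2 R Γ)
    (hF : Submodule.span K {f : F | IsFixed Γ f} = ⊤) (hL2 : C.IsL2)
    (s : Goursat.Nodes C.BbarT hL2.h2) :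
    IsFractionRing (Localization.AtPrime (nodeIdeal (Γ := Γ) hL2 s)) (NodeFrac.fixedField Γ) := by
  haveI := isAlgebraic_adjoin_t h
  exact NodeFrac.isFractionRing_localization (nodeIdeal (Γ := Γ) hL2 s) hD hF
    (fun b => Fermat.Agent.S33x.H1.StableLN.stable_LN C hG.smul_t 0 b)

end Ctx

section Abs

variable {K : Type*} [Field K] {A : ValuationSubring K} {F : Type*} [Field F] [Algebra K F]
  {S : SmallRing F} {k κ₁ κ₂ : Type*} [Field k] [CommRing κ₁] [CommRing κ₂] [Algebra k κ₁]
  [Algebra k κ₂] {R : RedSetup2 A S k (κ₁ × κ₂)} {C : ChartCoord R}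
  {Γ : Set (SemilinearAut K F)} [IsAlgClosed k]

/-- the node ring is a domain (abstract two-component setting). -/
theorem isDomain_nodeRing_abs (hL2 : C.IsL2) (s : Goursat.Nodes C.BbarT hL2.h2) :
    IsDomain (Localization.AtPrime (nodeIdeal (Γ := Γ) hL2 s)) :=
  IsLocalization.isDomain_of_atPrime _ (nodeIdeal (Γ := Γ) hL2 s)

end Abs

/-! ### PART 2: the concrete level `M q` over `Qbar` -/

section Concrete

open ModularCurve
open Fermat.Agent.Gateway.C0
open Fermat.Agent.S33x.Cech.CtxMq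
open Fermat.Agent.Gateway.Hecke Fermat.Agent.Gateway.ESC
open Fermat.Agent.Gateway.Red Fermat.Agent.Gateway.GoodRed
open Fermat.Agent.Gateway.GoodRed.ConjFamily
open Fermat.Agent.S34x.TwoVal
open Fermat.Agent.S34x.Inst.L2 Fermat.Agent.S34x.Inst.IsL2Inst
open Fermat.Agent.S34x.Inst.RedSetupInst Fermat.Agent.S34x.Inst.ElementYRed
open Fermat.Agent.S34x.Inst.ElementYInt Fermat.Agent.S34x.Inst.Charts
open Fermat.Agent.S34x.Inst Fermat.Agent.S34x.Inst.TheoremBMq
open Fermat.Agent.S33x.H1.FixData2Inst Fermat.Agent.S33x.H1.FixData2Final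
open Fermat.Agent.S56x.Flat.InertiaField Fermat.Agent.S19x.Hens.InertiaResidue
open Fermat.Agent.S40x.Node.Vocab Fermat.Agent.S40x.Node.FixedQb

attribute [-instance] IsScalarTower.of_algHom

local notation "Qbar" => AlgebraicClosure ℚ

/-- **`q` is a uniformiser of `W₀ = P^I`** (any level `N`): the hypothesis `hp` of
`NodeRing.isNodeRing`. -/
theorem natCast_dvd_of_fixed (P : ValuationSubring Qbar) {q : ℕ} (hq : q.Prime)
    (hA : P.LiesOverPrime q) (N : ℕ) (c : P) (hc : IsFixedK (inertiaAct P N) (c : Qbar))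
    (hcm : c ∈ maximalIdeal P) : ((q : ℕ) : P) ∣ c := by
  rw [← ValuationSubring.coe_mem_nonunits_iff] at hcm
  obtain ⟨d, hd, hcd⟩ := exists_eq_natCast_mul_of_fixed P hq hA hcm
    (fixed_of_isFixedK (inertiaAct P N) (inertiaAct_baseAut' P N) hc)
  refine ⟨⟨d, hd.1⟩, Subtype.ext ?_⟩
  rw [hcd]
  simp

variable {P : ValuationSubring Qbar} {k : Type} [Field k] {π : P →+* k} [IsAlgClosed k]
variable {M q : ℕ} [NeZero M] [NeZero q] [Fact q.Prime] [CharP k q]
variable {hdeg : finrankAlong Qbar (heckeAlphaBar Qbar M q) = q + 1} {hq : q.Prime}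
  {hqM : ¬ q ∣ M}
variable {hrk : ∀ x ∈ maximalIdeal P, ∀ c : P, c ≠ 0 → ∃ j : ℕ, c ∣ x ^ j}
  {hπ : Function.Surjective π}
variable (H : ResidueFacts P π M q hdeg hq hqM hrk hπ) (hA : P.LiesOverPrime q)
  (x : LaurentSeries ℤ) (hx : coeffMap (Int.castRingHom Qbar) x ∈ FBar Qbar M)
  (Hx : GoodLevelFactsT P π M q hπ hqM (tInt M x hx))

include Hx hA in
/-- (L2) for the chart at the concrete level. -/
theorem isL2_Mq [PerfectRing k q] (C : ChartCoord (redSetup2 H hA))
    (hCt : C.t = tA M q x hx) (hxk : tbar k x ≠ 0) (hY : YFacts M q x hx) : C.IsL2 := by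
  obtain ⟨Dt, hctx, -, -, -⟩ := bundle_Mq H hA x hx Hx C hCt hxk hY
  exact hctx.hL2

include Hx hA in
/-- (N1): the inertia-fixed chart ring `B_0` is Noetherian. -/
theorem isNoetherianRing_B0_Mq [PerfectRing k q] (C : ChartCoord (redSetup2 H hA))
    (hCt : C.t = tA M q x hx) (hxk : tbar k x ≠ 0) (hY : YFacts M q x hx) :
    IsNoetherianRing (B0 C (inertiaAct P (M * q))) :=
  isNoetherianRing_Boo_Mq H hA x hx Hx C hCt hxk hY

/-- the node ring is a domain. -/
theorem isDomain_nodeRing (C : ChartCoord (redSetup2 H hA)) (hL2 : C.IsL2)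
    (s : Goursat.Nodes C.BbarT hL2.h2) :
    IsDomain (Localization.AtPrime (nodeIdeal (Γ := inertiaAct P (M * q)) hL2 s)) :=
  isDomain_nodeRing_abs hL2 s

include Hx hA in
/-- the node ring is Noetherian. -/
theorem isNoetherianRing_nodeRing_Mq [PerfectRing k q] (C : ChartCoord (redSetup2 H hA))
    (hCt : C.t = tA M q x hx) (hxk : tbar k x ≠ 0) (hY : YFacts M q x hx) (hL2 : C.IsL2)
    (s : Goursat.Nodes C.BbarT hL2.h2) :
    IsNoetherianRing (Localization.AtPrime (nodeIdeal (Γ := inertiaAct P (M * q)) hL2 s)) := by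
  haveI : CharZero Qbar := algebraRat.charZero Qbar
  obtain ⟨Dt, hctx, hgal, hD, hF⟩ := bundle_Mq H hA x hx Hx C hCt hxk hY
  exact isNoetherianRing_nodeRing hctx hgal hD hF hL2 s

/-! #### X7 at the nodes -/

/-- **the residue field of the node ring is `k`.** -/
def residueFieldEquiv_Mq (C : ChartCoord (redSetup2 H hA)) (hL2 : C.IsL2)
    (s : Goursat.Nodes C.BbarT hL2.h2) :
    ResidueField (Localization.AtPrime (nodeIdeal (Γ := inertiaAct P (M * q)) hL2 s)) ≃+* k :=
  NodeRes.residueFieldEquiv hL2 (fixData2 H hA) s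

/-- the residue field of the node ring is algebraically closed. -/
theorem isAlgClosed_residueField_Mq (C : ChartCoord (redSetup2 H hA)) (hL2 : C.IsL2)
    (s : Goursat.Nodes C.BbarT hL2.h2) :
    IsAlgClosed
      (ResidueField (Localization.AtPrime (nodeIdeal (Γ := inertiaAct P (M * q)) hL2 s))) :=
  NodeRes.isAlgClosed_residueField hL2 (fixData2 H hA) s

/-- **constant residue field**: every element of the node ring is congruent modulo the maximal
ideal to a constant `c : W₀ = P^I`. -/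
theorem exists_const_sub_mem_Mq (C : ChartCoord (redSetup2 H hA)) (hL2 : C.IsL2)
    (s : Goursat.Nodes C.BbarT hL2.h2)
    (r : Localization.AtPrime (nodeIdeal (Γ := inertiaAct P (M * q)) hL2 s)) :
    ∃ c : fixedSubring (A := P) (inertiaAct P (M * q)),
      r - algebraMap (fixedSubring (A := P) (inertiaAct P (M * q)))
          (Localization.AtPrime (nodeIdeal (Γ := inertiaAct P (M * q)) hL2 s)) c ∈
        maximalIdeal (Localization.AtPrime (nodeIdeal (Γ := inertiaAct P (M * q)) hL2 s)) :=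
  NodeRes.exists_const_sub_mem hL2 (fixData2 H hA) s r

/-- `q` lies in the maximal ideal of the node ring. -/
theorem natCast_mem_maximalIdeal_Mq (C : ChartCoord (redSetup2 H hA)) (hL2 : C.IsL2)
    (s : Goursat.Nodes C.BbarT hL2.h2) :
    ((q : ℕ) : Localization.AtPrime (nodeIdeal (Γ := inertiaAct P (M * q)) hL2 s)) ∈
      maximalIdeal (Localization.AtPrime (nodeIdeal (Γ := inertiaAct P (M * q)) hL2 s)) :=
  NodeRes.natCast_mem_maximalIdeal hL2 (fixData2 H hA) s q

/-- the residue characteristic of the node ring is `q`. -/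
theorem charP_residueField_Mq (C : ChartCoord (redSetup2 H hA)) (hL2 : C.IsL2)
    (s : Goursat.Nodes C.BbarT hL2.h2) :
    CharP (ResidueField (Localization.AtPrime (nodeIdeal (Γ := inertiaAct P (M * q)) hL2 s))) q :=
  NodeRes.charP_residueField hL2 (fixData2 H hA) s q

/-! #### the fraction field `F0 P (M q)` -/

-- At the concrete level the instance `Algebra B_0 R_s` is found only with a larger budget.
set_option synthInstance.maxHeartbeats 200000

/-- the inclusion of the node ring into the inertia-fixed function field `F0 P (M q)`. -/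
@[reducible] def algebraNodeF0 (C : ChartCoord (redSetup2 H hA)) (hL2 : C.IsL2)
    (s : Goursat.Nodes C.BbarT hL2.h2) :
    Algebra (Localization.AtPrime (nodeIdeal (Γ := inertiaAct P (M * q)) hL2 s))
      (F0 P (M * q)) :=
  NodeFrac.algebraLocFixed (nodeIdeal (Γ := inertiaAct P (M * q)) hL2 s)

/-- on the image of `B_0` the inclusion is the identity of functions. -/
theorem algebraMap_nodeF0_coe (C : ChartCoord (redSetup2 H hA)) (hL2 : C.IsL2)
    (s : Goursat.Nodes C.BbarT hL2.h2) (b : B0 C (inertiaAct P (M * q))) :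
    letI := algebraNodeF0 H hA C hL2 s
    ((algebraMap (Localization.AtPrime (nodeIdeal (Γ := inertiaAct P (M * q)) hL2 s))
        (F0 P (M * q)) (algebraMap (B0 C (inertiaAct P (M * q))) _ b) : F0 P (M * q)) :
      FL Qbar (M * q)) = (b : FL Qbar (M * q)) := by
  letI := algebraNodeF0 H hA C hL2 s
  have h := NodeFrac.algebraMap_loc_algebraMap (nodeIdeal (Γ := inertiaAct P (M * q)) hL2 s) b
  exact congrArg (fun z : NodeFrac.fixedField (inertiaAct P (M * q)) => (z : FL Qbar (M * q))) h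

include Hx hA in
/-- **`F0 P (M q)` is the fraction field of the node ring.** -/
theorem isFractionRing_nodeRing_Mq [PerfectRing k q] (C : ChartCoord (redSetup2 H hA))
    (hCt : C.t = tA M q x hx) (hxk : tbar k x ≠ 0) (hY : YFacts M q x hx) (hL2 : C.IsL2)
    (s : Goursat.Nodes C.BbarT hL2.h2) :
    letI := algebraNodeF0 H hA C hL2 s
    IsFractionRing (Localization.AtPrime (nodeIdeal (Γ := inertiaAct P (M * q)) hL2 s))
      (F0 P (M * q)) := by
  haveI : CharZero Qbar := algebraRat.charZero Qbar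
  obtain ⟨Dt, hctx, hgal, hD, hF⟩ := bundle_Mq H hA x hx Hx C hCt hxk hY
  exact isFractionRing_nodeRing hctx hgal hD hF hL2 s

/-! #### (N-OUT) -/

include Hx hA in
/-- **(N-OUT) at the concrete level `M q`**: the node ring `R_s` of a node `s` is a node ring in
the sense of `NodeDatum.IsNodeRing`, given thickness data `u u' Ψ : B_0` with `u u' = q Ψ`,
`rho1 u = 0`, `rho2 u' = 0`, `Ψ ∉ nodeIdeal s`, `rho1 u' ≠ 0`. -/
theorem isNodeRing_Mq [PerfectRing k q] (C : ChartCoord (redSetup2 H hA))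
    (hCt : C.t = tA M q x hx) (hxk : tbar k x ≠ 0) (hY : YFacts M q x hx) (hL2 : C.IsL2)
    (s : Goursat.Nodes C.BbarT hL2.h2)
    {u u' Ψ : B0 C (inertiaAct P (M * q))}
    (hrel : u * u' = ((q : ℕ) : B0 C (inertiaAct P (M * q))) * Ψ)
    (h1 : rho1 C (inertiaAct P (M * q)) u = 0) (h2 : rho2 C (inertiaAct P (M * q)) u' = 0)
    (hΨ : Ψ ∉ nodeIdeal (Γ := inertiaAct P (M * q)) hL2 s)
    (hu' : rho1 C (inertiaAct P (M * q)) u' ≠ 0) :
    haveI := isDomain_nodeRing H hA C hL2 s
    haveI := isNoetherianRing_nodeRing_Mq H hA x hx Hx C hCt hxk hY hL2 s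
    IsNodeRing (Localization.AtPrime (nodeIdeal (Γ := inertiaAct P (M * q)) hL2 s)) q
      (algebraMap (B0 C (inertiaAct P (M * q))) _ u)
      (algebraMap (B0 C (inertiaAct P (M * q))) _ u') := by
  haveI : CharZero Qbar := algebraRat.charZero Qbar
  obtain ⟨Dt, hctx, hgal, hD, hF⟩ := bundle_Mq H hA x hx Hx C hCt hxk hY
  exact NodeRing.isNodeRing hctx hgal hD hF (natCast_dvd_of_fixed P hq hA (M * q)) s hrel h1 h2
    hΨ hu'

end Concrete

end Fermat.Agent.S40x.Node.NodeResMq

end
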