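import Fermat.Agent.S40x.Node.NodeRing
import Fermat.Agent.S40x.Node.NodeInstQb
import Fermat.Agent.S40x.Node.FixedQb

/-!
# P-S44, block R1 / N-alpha: the node ring `R_s` at `L = Qbar` (helper26)

Discharge of `Node/NodeRing` (helper50) at `L = Qbar`, `A = P` over `q`, `R = redSetup2 H hA`,
`C = TheoremBMq.chart H hA x hx Hx`, `Γ = inertiaAct P (M q)`:

* `natCast_dvd_of_isFixedK` : the literal `hp` of `NodeRing.isNodeRing` over `(Qbar, P)`, `P ∣ ℓ`:
  `ℓ` is a uniformiser of `P^Γ` for every `Γ` inducing all inertia automorphisms on the constants;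
  `hp_Qb` : the same for `Γ = inertiaAct P (M q)`;
* `NodeRingOut hL2 s p u u' : Prop` : the conclusion of `NodeRing.isNodeRing_of` ((N-OUT)
  `IsNodeRing (Localization.AtPrime (nodeIdeal hL2 s)) p u u'`, UFD, the two reductions `r1`, `r2`)
  as ONE proposition; `nodeRingOut` : inside the context bundle;
* `nodeRingOut_Qb` : **(N-OUT) at `L = Qbar`** for thickness data `u u' Ψ : B_0` (hypotheses
  `hrel h1 h2 hΨ hu'`), for ANY chart `C` of `redSetup2 H hA` with `C.t = tA M q x hx` (the shape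
  of `FixedQb.bundle_Mq`).
-/

set_option autoImplicit false
set_option linter.unusedSectionVars false
set_option linter.style.haveILetI false

noncomputable section

namespace Fermat.Agent.S40x.Node.NodeRingQb

open AlgebraicCurve IsLocalRing Module IntermediateField
open Fermat.Agent.S34x Fermat.Agent.S34x.C0two Fermat.Agent.S34x.Lattice2
open Fermat.Agent.S19x.Geo.LatticeFixed (IsFixed IsFixedK)
open Fermat.Agent.S33x.H1.LatticeFixed2 Fermat.Agent.S33x.H1.FixedDecomp
open Fermat.Agent.S33x.Cech.CtxMq Fermat.Agent.S33x.W.InstW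
open Fermat.Agent.S40x.Node.NodeInst

/-! ### (N-OUT) with the reductions, as one proposition -/

section Abstract

variable {K : Type*} [Field K] {A : ValuationSubring K} {F : Type*} [Field F] [Algebra K F]
  {S : SmallRing F} {k κ₁ κ₂ : Type*} [Field k] [Field κ₁] [Field κ₂] [Algebra k κ₁]
  [Algebra k κ₂] {R : RedSetup2 A S k (κ₁ × κ₂)} {C : ChartCoord R}
  {Γ : Set (SemilinearAut K F)} [IsAlgClosed k] (hL2 : C.IsL2)

/-- **(N-OUT) for the node ring `R_s = (B_0)_{m_s}`**, with the UFD property and the two reductions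
onto the local rings of the two branches, as ONE proposition (the conclusion of
`NodeRing.isNodeRing_of`; stated once in the abstract setting so that concrete instances do not
have to re-synthesise the instances on the localisations). -/
def NodeRingOut (s : Goursat.Nodes C.BbarT hL2.h2) (p : ℕ) (u u' : B0 C Γ) : Prop :=
  ∃ (_ : IsDomain (Localization.AtPrime (nodeIdeal (Γ := Γ) hL2 s)))
    (_ : IsNoetherianRing (Localization.AtPrime (nodeIdeal (Γ := Γ) hL2 s))),
    IsNodeRing (Localization.AtPrime (nodeIdeal (Γ := Γ) hL2 s)) p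
        (algebraMap (B0 C Γ) _ u) (algebraMap (B0 C Γ) _ u') ∧
      UniqueFactorizationMonoid (Localization.AtPrime (nodeIdeal (Γ := Γ) hL2 s)) ∧
      ∃ (r1 : Localization.AtPrime (nodeIdeal (Γ := Γ) hL2 s) →+*
            Localization.AtPrime (RingHom.ker (chi1 hL2 s)))
        (r2 : Localization.AtPrime (nodeIdeal (Γ := Γ) hL2 s) →+*
            Localization.AtPrime (RingHom.ker (chi2 hL2 s))),
        (∀ b, r1 (algebraMap (B0 C Γ) _ b) = algebraMap C.B₁ _ (rho1 C Γ b)) ∧
        (∀ b, r2 (algebraMap (B0 C Γ) _ b) = algebraMap C.B₂ _ (rho2 C Γ b)) ∧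
        Function.Surjective r1 ∧ Function.Surjective r2 ∧
        (∀ y, r1 y = 0 ↔ algebraMap (B0 C Γ) _ u ∣ y) ∧
        (∀ y, r2 y = 0 ↔ algebraMap (B0 C Γ) _ u' ∣ y) ∧
        maximalIdeal (Localization.AtPrime (RingHom.ker (chi1 hL2 s))) =
          Ideal.span {r1 (algebraMap (B0 C Γ) _ u')} ∧
        maximalIdeal (Localization.AtPrime (RingHom.ker (chi2 hL2 s))) =
          Ideal.span {r2 (algebraMap (B0 C Γ) _ u)} ∧
        IsPrincipalIdealRing (Localization.AtPrime (RingHom.ker (chi1 hL2 s))) ∧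
        IsPrincipalIdealRing (Localization.AtPrime (RingHom.ker (chi2 hL2 s)))

end Abstract

section CtxOut

variable {K : Type*} [Field K] [IsAlgClosed K] [CharZero K] {A : ValuationSubring K}
  {F : Type*} [Field F] [Algebra K F] {S : SmallRing F}
  {k : Type*} [Field k] [IsAlgClosed k] {E : Type*} [Field E] [Algebra k E]
  {R : RedSetup2 A S k (E × E)} {C : ChartCoord R} {p q : ℕ} {x : E} {Dt : Divisor K F}
  (h : Ctx R C p q x Dt) {Γ : Set (SemilinearAut K F)} (hG : CtxGal R C Γ)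

include h hG in
/-- `NodeRing.isNodeRing_of` inside the context bundle, in the packaged form. -/
theorem nodeRingOut (hD : FixData2 R Γ) (hF : Submodule.span K {f : F | IsFixed Γ f} = ⊤)
    (hp : ∀ c : A, IsFixedK Γ (c : K) → c ∈ maximalIdeal A → ((p : ℕ) : A) ∣ c)
    (hL2 : C.IsL2) (s : Goursat.Nodes C.BbarT hL2.h2)
    {u u' Ψ : B0 C Γ} (hrel : u * u' = ((p : ℕ) : B0 C Γ) * Ψ)
    (h1 : rho1 C Γ u = 0) (h2 : rho2 C Γ u' = 0)
    (hΨ : Ψ ∉ nodeIdeal (Γ := Γ) hL2 s) (hu' : rho1 C Γ u' ≠ 0) :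
    NodeRingOut hL2 s p u u' := by
  haveI := NodeRing.finite_quotient h
  haveI : IsReduced (Goursat.R C.BbarT hL2.h2) := NodeRing.isReduced_R h
  haveI : IsNoetherianRing (B0 C Γ) := FixedNoeth.isNoetherianRing_fixedBoo' h hG hD hF
  exact ⟨IsLocalization.isDomain_of_atPrime _ (nodeIdeal (Γ := Γ) hL2 s),
    IsLocalization.isNoetherianRing (nodeIdeal (Γ := Γ) hL2 s).primeCompl _ inferInstance,
    NodeRing.isNodeRing_of hL2 (NodeRing.hlift h hG hD hF) hD (NodeRing.isFixedK_natCast p)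
      (NodeRing.natCast_ne_zero h) hp s hrel h1 h2 hΨ hu'⟩

end CtxOut

/-! ### The uniformiser `ℓ` of `P^Γ` -/

section Unif

open Fermat.Agent.S56x.Flat.InertiaField Fermat.Agent.S19x.Hens.InertiaResidue
open Fermat.Agent.S33x.H1.FixData2Inst

local notation "Qb" => AlgebraicClosure ℚ

variable {P : ValuationSubring Qb} {ℓ : ℕ} {F : Type*} [Field F] [Algebra Qb F]
  {Γ : Set (SemilinearAut Qb F)}

/-- **the literal `hp` of `NodeRing.isNodeRing` over `(Qbar, P)`**: every `Γ`-fixed element of the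
maximal ideal of `P` is divisible by `ℓ`. -/
theorem natCast_dvd_of_isFixedK (hℓ : ℓ.Prime) (hP : P.LiesOverPrime ℓ)
    (hΓ' : ∀ σ ∈ P.inertiaSubgroupIn ℚ, ∃ s ∈ Γ, ∀ c : Qb, SemilinearAut.baseAut s c = σ c)
    (c : P) (hc : IsFixedK Γ (c : Qb)) (hcm : c ∈ maximalIdeal P) : ((ℓ : ℕ) : P) ∣ c := by
  rw [← ValuationSubring.coe_mem_nonunits_iff] at hcm
  obtain ⟨d, hd, hcd⟩ := exists_eq_natCast_mul_of_fixed P hℓ hP hcm (fixed_of_isFixedK Γ hΓ' hc)
  exact ⟨⟨d, hd.1⟩, Subtype.ext (by simpa using hcd)⟩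

end Unif

/-! ### The node ring at `L = Qbar` -/

section Qbar

open ModularCurve
open Fermat.Agent.Gateway.Hecke Fermat.Agent.Gateway.ESC
open Fermat.Agent.Gateway.Red Fermat.Agent.Gateway.GoodRed
open Fermat.Agent.Gateway.GoodRed.ConjFamily
open Fermat.Agent.S34x.TwoVal
open Fermat.Agent.S34x.Inst.L2 Fermat.Agent.S34x.Inst.IsL2Inst
open Fermat.Agent.S34x.Inst.RedSetupInst Fermat.Agent.S34x.Inst.ElementYRed
open Fermat.Agent.S34x.Inst.ElementYInt Fermat.Agent.S34x.Inst.Charts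
open Fermat.Agent.S34x.Inst.TheoremBMq
open Fermat.Agent.S33x.H1.FixData2Inst Fermat.Agent.S33x.H1.FixData2Final

attribute [-instance] IsScalarTower.of_algHom

local notation "Qb" => AlgebraicClosure ℚ

local instance isAlgebraicQb_nrq : Algebra.IsAlgebraic ℚ (AlgebraicClosure ℚ) :=
  AlgebraicClosure.isAlgebraic ℚ

variable {P : ValuationSubring Qb} {k : Type} [Field k] {π : P →+* k} [IsAlgClosed k]
variable {M q : ℕ} [NeZero M] [NeZero q] [Fact q.Prime] [CharP k q]
variable {hdeg : finrankAlong Qb (heckeAlphaBar Qb M q) = q + 1} {hq : q.Prime} {hqM : ¬ q ∣ M}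
variable {hrk : ∀ x ∈ maximalIdeal P, ∀ c : P, c ≠ 0 → ∃ j : ℕ, c ∣ x ^ j}
  {hπ : Function.Surjective π}
variable (H : ResidueFacts P π M q hdeg hq hqM hrk hπ) (hA : P.LiesOverPrime q)
  (x : LaurentSeries ℤ) (hx : coeffMap (Int.castRingHom Qb) x ∈ FBar Qb M)
  (Hx : GoodLevelFactsT P π M q hπ hqM (tInt M x hx))

include hA in
/-- the literal `hp` of `NodeRing.isNodeRing` for `Γ = inertiaAct P (M q)`, `p = q`. -/
theorem hp_Qb (c : P) (hc : IsFixedK (inertiaAct P (M * q)) (c : Qb))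
    (hcm : c ∈ maximalIdeal P) : ((q : ℕ) : P) ∣ c :=
  natCast_dvd_of_isFixedK (Fact.out : q.Prime) hA (inertiaAct_baseAut' P (M * q)) c hc hcm

include Hx hA in
/-- **(N-OUT) at `L = Qbar`**: the node ring `R_s = (B_0)_{m_s}` of a node `s` of a chart with
`t = α t'` at level `M q` is a node ring in the sense of `NodeDatum.IsNodeRing`, for thickness
data `u u' Ψ`; with the UFD property and the two reductions (packaged in `NodeRingOut`). -/
theorem nodeRingOut_Qb [PerfectRing k q] (C : ChartCoord (redSetup2 H hA))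
    (hCt : C.t = tA M q x hx) (hxk : tbar k x ≠ 0) (hY : YFacts M q x hx)
    (hL2 : C.IsL2) (s : Goursat.Nodes C.BbarT hL2.h2)
    {u u' Ψ : B0 C (inertiaAct P (M * q))}
    (hrel : u * u' = ((q : ℕ) : B0 C (inertiaAct P (M * q))) * Ψ)
    (h1 : rho1 C (inertiaAct P (M * q)) u = 0) (h2 : rho2 C (inertiaAct P (M * q)) u' = 0)
    (hΨ : Ψ ∉ nodeIdeal (Γ := inertiaAct P (M * q)) hL2 s)
    (hu' : rho1 C (inertiaAct P (M * q)) u' ≠ 0) :
    NodeRingOut hL2 s q u u' := by
  haveI : CharZero Qb := algebraRat.charZero Qb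
  obtain ⟨Dt, hctx, hG, hD, hF⟩ := FixedQb.bundle_Mq H hA x hx Hx C hCt hxk hY
  exact nodeRingOut hctx hG hD hF (hp_Qb hA) hL2 s hrel h1 h2 hΨ hu'

end Qbar

end Fermat.Agent.S40x.Node.NodeRingQb

end
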