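import Fermat.Agent.S40x.Node.NodeOrdInst
import Fermat.Agent.S40x.Node.Dense

/-!
# P-S44, seam R1 -> C3-SLOPE: the DOWNSTAIRS inputs of `node_slope_nodeOrd`, one call (helper5)

`R2/Slope/NodeGlue.node_slope_nodeOrd` (helper41) takes, per node and per side, downstairs:
`R₀` (a type), `u₀ u₀' : R₀`, `hmax₀`, `hu₀`, `hndvd₀`, `φ₀ : R₀ →+* F`, `hdense`, `hn3`.
Here: `R₀ := R_s = Localization.AtPrime (nodeIdeal hL2 s)`, `φ₀ := NodeOrdBridge.nodeEmb`,

* `range_nodeEmb_ge` : the fixed chart ring `B_0` lies in the range of `nodeEmb`;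
* `hdense_inf`, `hdense_zero` : (D) for `RingHom.range (R := Localization.AtPrime m) (S := F) (nodeEmb m)` at the two valuations, from
  `Node/Dense.ChartDense` (helper79);
* `node_input_inf`, `node_input_zero` : inside the context bundle, ALL FIVE downstairs inputs
  `hmax₀ ∧ hu₀ ∧ hndvd₀ ∧ hdense ∧ hn3` for the side `v_∞` with `(u₀, u₀') = (u, u')`, resp. the
  side `v_0` with `(u₀, u₀') = (u', u)`; hypotheses left: the thickness data and the branch.
-/

set_option autoImplicit false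
set_option linter.unusedSectionVars false
set_option linter.style.haveILetI false

noncomputable section

namespace Fermat.Agent.S40x.Node.NodeSlopeInput

open AlgebraicCurve IsLocalRing IntermediateField
open Fermat.Agent.S34x Fermat.Agent.S34x.C0two Fermat.Agent.S34x.Lattice2
open Fermat.Agent.S19x.Geo.LatticeFixed
open Fermat.Agent.S40x.Node Fermat.Agent.S40x.Node.NodeInst Fermat.Agent.S40x.Node.NodeFrac
open Fermat.Agent.S40x.Node.NodeValInst Fermat.Agent.S40x.Node.NodeOrdBridge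
open Fermat.Agent.S40x.Node.NodeOrdInst Fermat.Agent.S40x.Node.NodePlace
open Fermat.Agent.S40x.Node.Dense
open Fermat.Agent.S40x.R2.Slope (ordQ)
open Fermat.Agent.S40x.R2.SlopeB.PlaceInst (ordAt)

section Dense

variable {K : Type*} [Field K] {A : ValuationSubring K} {F : Type*} [Field F] [Algebra K F]
  {V W : ValuationSubring F} {k E : Type*} [Field k] [Field E] [Algebra k E]
  {R₁ : Gateway.C0.RedSetup A V k E} {R₂ : Gateway.C0.RedSetup A W k E} {hπ : R₁.π = R₂.π}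
  {C : ChartCoord (redSetupTwoVal R₁ R₂ hπ)} {Γ : Set (SemilinearAut K F)}
  (m : Ideal (B0 C Γ)) [m.IsPrime]

/-- the fixed chart ring lies in the image of the node ring. -/
theorem range_nodeEmb_ge (f : F) (hf : f ∈ B0 C Γ) : f ∈ RingHom.range (R := Localization.AtPrime m) (S := F) (nodeEmb m) :=
  ⟨algebraMap (B0 C Γ) (Localization.AtPrime m) ⟨f, hf⟩, nodeEmb_algebraMap m ⟨f, hf⟩⟩

/-- **(D) for the node ring at `v_∞`** (literal `hdense` of `node_slope_nodeOrd`). -/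
theorem hdense_inf (hd : ChartDense (redSetupTwoVal R₁ R₂ hπ) C Γ) :
    ∀ x : F, V.valuation x = 1 → ∃ r1 ∈ RingHom.range (R := Localization.AtPrime m) (S := F) (nodeEmb m), ∃ r2 ∈ RingHom.range (R := Localization.AtPrime m) (S := F) (nodeEmb m),
      V.valuation r1 = 1 ∧ V.valuation r2 = 1 ∧ V.valuation (x * r2 - r1) < 1 :=
  dense_boo_fst R₁ R₂ hπ hd _ (range_nodeEmb_ge m)

/-- **(D) for the node ring at `v_0`**. -/
theorem hdense_zero (hd : ChartDense (redSetupTwoVal R₁ R₂ hπ) C Γ) :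
    ∀ x : F, W.valuation x = 1 → ∃ r1 ∈ RingHom.range (R := Localization.AtPrime m) (S := F) (nodeEmb m), ∃ r2 ∈ RingHom.range (R := Localization.AtPrime m) (S := F) (nodeEmb m),
      W.valuation r1 = 1 ∧ W.valuation r2 = 1 ∧ W.valuation (x * r2 - r1) < 1 :=
  dense_boo_snd R₁ R₂ hπ hd _ (range_nodeEmb_ge m)

end Dense

section Ctx

open Fermat.Agent.S33x.Cech.CtxMq Fermat.Agent.S33x.W.InstWCtx
open Fermat.Agent.S33x.H1.LatticeFixed2 Fermat.Agent.S40x.Node.NodeRing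

variable {K : Type*} [Field K] [IsAlgClosed K] [CharZero K] {A : ValuationSubring K}
  {F : Type*} [Field F] [Algebra K F] {V W : ValuationSubring F}
  {k : Type*} [Field k] [IsAlgClosed k] {E : Type*} [Field E] [Algebra k E]
  {R₁ : Gateway.C0.RedSetup A V k E} {R₂ : Gateway.C0.RedSetup A W k E} {hπ : R₁.π = R₂.π}
  {C : ChartCoord (redSetupTwoVal R₁ R₂ hπ)} {p q : ℕ} {x : E} {Dt : Divisor K F}
  (h : Ctx (redSetupTwoVal R₁ R₂ hπ) C p q x Dt) {Γ : Set (SemilinearAut K F)}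
  (hG : CtxGal (redSetupTwoVal R₁ R₂ hπ) C Γ)

include h hG in
/-- **all the downstairs inputs of `node_slope_nodeOrd` at a node, side `v_∞`.** -/
theorem node_input_inf (hD : FixData2 (redSetupTwoVal R₁ R₂ hπ) Γ)
    (hF : Submodule.span K {f : F | IsFixed Γ f} = ⊤)
    (hp : ∀ c : A, IsFixedK Γ (c : K) → c ∈ maximalIdeal A → ((p : ℕ) : A) ∣ c)
    (s : Goursat.Nodes C.BbarT h.hL2.h2)
    {u u' Ψ : B0 C Γ} (hrel : u * u' = ((p : ℕ) : B0 C Γ) * Ψ)
    (h1 : rho1 C Γ u = 0) (h2 : rho2 C Γ u' = 0)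
    (hΨ : Ψ ∉ nodeIdeal (Γ := Γ) h.hL2 s) (hu' : rho1 C Γ u' ≠ 0)
    (P : Place k E) (hT : C.T.1 ∈ P.toValuationSubring) (hbr : IsBranch₁ h.hL2 s P) :
    haveI : IsDomain (Localization.AtPrime (nodeIdeal (Γ := Γ) h.hL2 s)) :=
      IsLocalization.isDomain_of_atPrime _ (nodeIdeal (Γ := Γ) h.hL2 s)
    haveI : IsNoetherianRing (B0 C Γ) := FixedNoeth.isNoetherianRing_fixedBoo' h hG hD hF
    haveI : IsNoetherianRing (Localization.AtPrime (nodeIdeal (Γ := Γ) h.hL2 s)) :=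
      IsLocalization.isNoetherianRing (nodeIdeal (Γ := Γ) h.hL2 s).primeCompl _ inferInstance
    maximalIdeal (Localization.AtPrime (nodeIdeal (Γ := Γ) h.hL2 s)) =
        Ideal.span {algebraMap (B0 C Γ) (Localization.AtPrime (nodeIdeal (Γ := Γ) h.hL2 s)) u,
          algebraMap (B0 C Γ) (Localization.AtPrime (nodeIdeal (Γ := Γ) h.hL2 s)) u'} ∧
      Prime (algebraMap (B0 C Γ) (Localization.AtPrime (nodeIdeal (Γ := Γ) h.hL2 s)) u) ∧
      ¬ algebraMap (B0 C Γ) (Localization.AtPrime (nodeIdeal (Γ := Γ) h.hL2 s)) u ∣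
        algebraMap (B0 C Γ) (Localization.AtPrime (nodeIdeal (Γ := Γ) h.hL2 s)) u' ∧
      (∀ y : F, V.valuation y = 1 →
        ∃ r1 ∈ RingHom.range (R := Localization.AtPrime (nodeIdeal (Γ := Γ) h.hL2 s)) (S := F)
          (nodeEmb (nodeIdeal (Γ := Γ) h.hL2 s)),
        ∃ r2 ∈ RingHom.range (R := Localization.AtPrime (nodeIdeal (Γ := Γ) h.hL2 s)) (S := F)
          (nodeEmb (nodeIdeal (Γ := Γ) h.hL2 s)),
          V.valuation r1 = 1 ∧ V.valuation r2 = 1 ∧ V.valuation (y * r2 - r1) < 1) ∧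
      ∀ r : Localization.AtPrime (nodeIdeal (Γ := Γ) h.hL2 s),
        ¬ algebraMap (B0 C Γ) (Localization.AtPrime (nodeIdeal (Γ := Γ) h.hL2 s)) u ∣ r →
        ordAt V R₁.res P (nodeEmb (nodeIdeal (Γ := Γ) h.hL2 s) r) =
          ordQ (algebraMap (B0 C Γ) (Localization.AtPrime (nodeIdeal (Γ := Γ) h.hL2 s)) u)
            (algebraMap (B0 C Γ) (Localization.AtPrime (nodeIdeal (Γ := Γ) h.hL2 s)) u') r := by
  haveI : IsDomain (Localization.AtPrime (nodeIdeal (Γ := Γ) h.hL2 s)) :=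
    IsLocalization.isDomain_of_atPrime _ (nodeIdeal (Γ := Γ) h.hL2 s)
  haveI : IsNoetherianRing (B0 C Γ) := FixedNoeth.isNoetherianRing_fixedBoo' h hG hD hF
  haveI : IsNoetherianRing (Localization.AtPrime (nodeIdeal (Γ := Γ) h.hL2 s)) :=
    IsLocalization.isNoetherianRing (nodeIdeal (Γ := Γ) h.hL2 s).primeCompl _ inferInstance
  have hnode := NodeRing.isNodeRing h hG hD hF hp s hrel h1 h2 hΨ hu'
  exact ⟨hnode.maximalIdeal_eq, hnode.prime_u, hnode.not_dvd,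
    hdense_inf (nodeIdeal (Γ := Γ) h.hL2 s) (chartDense h hG hD hF),
    hn3_inf_ctx h hG hD hF hp s hrel h1 h2 hΨ hu' P hT hbr⟩

include h hG in
/-- **all the downstairs inputs of `node_slope_nodeOrd` at a node, side `v_0`**
(`(u₀, u₀') = (u', u)`). -/
theorem node_input_zero (hD : FixData2 (redSetupTwoVal R₁ R₂ hπ) Γ)
    (hF : Submodule.span K {f : F | IsFixed Γ f} = ⊤)
    (hp : ∀ c : A, IsFixedK Γ (c : K) → c ∈ maximalIdeal A → ((p : ℕ) : A) ∣ c)
    (s : Goursat.Nodes C.BbarT h.hL2.h2)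
    {u u' Ψ : B0 C Γ} (hrel : u * u' = ((p : ℕ) : B0 C Γ) * Ψ)
    (h1 : rho1 C Γ u = 0) (h2 : rho2 C Γ u' = 0)
    (hΨ : Ψ ∉ nodeIdeal (Γ := Γ) h.hL2 s) (hu' : rho1 C Γ u' ≠ 0)
    (P : Place k E) (hT : C.T.2 ∈ P.toValuationSubring) (hbr : IsBranch₂ h.hL2 s P) :
    haveI : IsDomain (Localization.AtPrime (nodeIdeal (Γ := Γ) h.hL2 s)) :=
      IsLocalization.isDomain_of_atPrime _ (nodeIdeal (Γ := Γ) h.hL2 s)
    haveI : IsNoetherianRing (B0 C Γ) := FixedNoeth.isNoetherianRing_fixedBoo' h hG hD hF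
    haveI : IsNoetherianRing (Localization.AtPrime (nodeIdeal (Γ := Γ) h.hL2 s)) :=
      IsLocalization.isNoetherianRing (nodeIdeal (Γ := Γ) h.hL2 s).primeCompl _ inferInstance
    maximalIdeal (Localization.AtPrime (nodeIdeal (Γ := Γ) h.hL2 s)) =
        Ideal.span {algebraMap (B0 C Γ) (Localization.AtPrime (nodeIdeal (Γ := Γ) h.hL2 s)) u',
          algebraMap (B0 C Γ) (Localization.AtPrime (nodeIdeal (Γ := Γ) h.hL2 s)) u} ∧
      Prime (algebraMap (B0 C Γ) (Localization.AtPrime (nodeIdeal (Γ := Γ) h.hL2 s)) u') ∧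
      ¬ algebraMap (B0 C Γ) (Localization.AtPrime (nodeIdeal (Γ := Γ) h.hL2 s)) u' ∣
        algebraMap (B0 C Γ) (Localization.AtPrime (nodeIdeal (Γ := Γ) h.hL2 s)) u ∧
      (∀ y : F, W.valuation y = 1 →
        ∃ r1 ∈ RingHom.range (R := Localization.AtPrime (nodeIdeal (Γ := Γ) h.hL2 s)) (S := F)
          (nodeEmb (nodeIdeal (Γ := Γ) h.hL2 s)),
        ∃ r2 ∈ RingHom.range (R := Localization.AtPrime (nodeIdeal (Γ := Γ) h.hL2 s)) (S := F)
          (nodeEmb (nodeIdeal (Γ := Γ) h.hL2 s)),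
          W.valuation r1 = 1 ∧ W.valuation r2 = 1 ∧ W.valuation (y * r2 - r1) < 1) ∧
      ∀ r : Localization.AtPrime (nodeIdeal (Γ := Γ) h.hL2 s),
        ¬ algebraMap (B0 C Γ) (Localization.AtPrime (nodeIdeal (Γ := Γ) h.hL2 s)) u' ∣ r →
        ordAt W R₂.res P (nodeEmb (nodeIdeal (Γ := Γ) h.hL2 s) r) =
          ordQ (algebraMap (B0 C Γ) (Localization.AtPrime (nodeIdeal (Γ := Γ) h.hL2 s)) u')
            (algebraMap (B0 C Γ) (Localization.AtPrime (nodeIdeal (Γ := Γ) h.hL2 s)) u) r := by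
  haveI : IsDomain (Localization.AtPrime (nodeIdeal (Γ := Γ) h.hL2 s)) :=
    IsLocalization.isDomain_of_atPrime _ (nodeIdeal (Γ := Γ) h.hL2 s)
  haveI : IsNoetherianRing (B0 C Γ) := FixedNoeth.isNoetherianRing_fixedBoo' h hG hD hF
  haveI : IsNoetherianRing (Localization.AtPrime (nodeIdeal (Γ := Γ) h.hL2 s)) :=
    IsLocalization.isNoetherianRing (nodeIdeal (Γ := Γ) h.hL2 s).primeCompl _ inferInstance
  have hnode := (NodeRing.isNodeRing h hG hD hF hp s hrel h1 h2 hΨ hu').symm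
  exact ⟨hnode.maximalIdeal_eq, hnode.prime_u, hnode.not_dvd,
    hdense_zero (nodeIdeal (Γ := Γ) h.hL2 s) (chartDense h hG hD hF),
    hn3_zero_ctx h hG hD hF hp s hrel h1 h2 hΨ hu' P hT hbr⟩

end Ctx

end Fermat.Agent.S40x.Node.NodeSlopeInput

end
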