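import Fermat.Agent.S40x.Node.NodeInst

/-!
# P-S44, block R1: the seam T-block (thickness) → N-block (node ring) (helper50)

The T-block (`S40x/Thick`, board `S44_R1T`) delivers, in the chart ring `B∞ = BooAlg C` over the
valuation ring `A` (NOT necessarily `Γ`-fixed elements), a Bezout identity
`E + b * Ψ + E' = 1` with `ρ_0 E = 0`, `ρ_∞ E' = 0`.  The N-block (`Node/NodeRing.isNodeRing`)
needs `Ψ ∉ nodeIdeal hL2 s` for every node `s`.

* `rhoA : BooAlg C →+* C.B₁ × C.B₂` : the reduction of the whole chart ring (over `A`), with values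
  in the glue ring (`rhoA_mem_BbarT`); `rho_eq_rhoA` : it extends `NodeInst.rho`;
* `psi_notMem_nodeIdeal` : **Bezout ⟹ `Ψ ∉ nodeIdeal hL2 s`** (the glueing condition kills `E`:
  `chi1 s (ρ_∞ E) = chi2 s (ρ_0 E) = 0`);
* `psi_notMem_nodeIdeal'` : the same from an identity in the glue ring itself
  (`zE + zb * rho Ψ + zE' = 1`, `zE.2 = 0`, `zE'.1 = 0`, `zE zb zE' ∈ C.BbarT`);
* `rho1_ne_zero_of_notMem` etc.: small consequences used by the assembly.
-/

set_option autoImplicit false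
set_option linter.unusedSectionVars false
set_option linter.style.haveILetI false

noncomputable section

namespace Fermat.Agent.S40x.Node.NodeThick

open AlgebraicCurve IsLocalRing Module
open Fermat.Agent.S34x Fermat.Agent.S34x.C0two Fermat.Agent.S34x.Lattice2
open Fermat.Agent.S19x.Geo.LatticeFixed (IsFixed IsFixedK)
open Fermat.Agent.S33x.H1 Fermat.Agent.S33x.H1.InstC1 Fermat.Agent.S33x.W.InstW
open Fermat.Agent.S40x.Node.NodeInst

variable {K : Type*} [Field K] {A : ValuationSubring K} {F : Type*} [Field F] [Algebra K F]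
  {S : SmallRing F} {k κ₁ κ₂ : Type*} [Field k] [CommRing κ₁] [CommRing κ₂] [Algebra k κ₁]
  [Algebra k κ₂] {R : RedSetup2 A S k (κ₁ × κ₂)} {C : ChartCoord R}
  {Γ : Set (SemilinearAut K F)}

/-! ### The reduction of the chart ring over `A` -/

theorem coe_mem_O_Boo (x : InstC4.BooAlg C) : (x : F) ∈ S.O := by
  obtain ⟨b, hb⟩ := (InstC4.mem_BooAlg C).mp x.2
  exact hb.2

variable (C) in
/-- the inclusion `B∞ → S.O`. -/
def toOA : InstC4.BooAlg C →+* S.O where
  toFun x := ⟨(x : F), coe_mem_O_Boo x⟩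
  map_one' := rfl
  map_mul' _ _ := rfl
  map_zero' := rfl
  map_add' _ _ := rfl

variable (C) in
/-- the reduction `B∞ → κ₁ × κ₂`. -/
def resA : InstC4.BooAlg C →+* κ₁ × κ₂ := R.res.comp (toOA C)

theorem resA_apply (x : InstC4.BooAlg C) : resA C x = R.res ⟨(x : F), coe_mem_O_Boo x⟩ := rfl

theorem resA_mem_Bbar (x : InstC4.BooAlg C) : resA C x ∈ C.Bbar := by
  obtain ⟨b, hb⟩ := (InstC4.mem_BooAlg C).mp x.2
  exact C.res_mem_Bbar hb.2 hb.1

variable (C) in
/-- **the reduction** `B∞ → B₁ × B₂` of the whole chart ring. -/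
def rhoA : InstC4.BooAlg C →+* C.B₁ × C.B₂ :=
  (((RingHom.fst κ₁ κ₂).comp (resA C)).codRestrict C.B₁ fun x =>
      (C.mem_Btilde_iff_prod.mp (C.Bbar_le_Btilde (resA_mem_Bbar x))).1).prod
    (((RingHom.snd κ₁ κ₂).comp (resA C)).codRestrict C.B₂ fun x =>
      (C.mem_Btilde_iff_prod.mp (C.Bbar_le_Btilde (resA_mem_Bbar x))).2)

theorem incl_rhoA (x : InstC4.BooAlg C) : C.incl (rhoA C x) = resA C x := rfl

theorem rhoA_mem_BbarT (x : InstC4.BooAlg C) : rhoA C x ∈ C.BbarT := by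
  rw [ChartCoord.mem_BbarT_iff, incl_rhoA]
  exact resA_mem_Bbar x

theorem coe_rhoA_fst (x : InstC4.BooAlg C) : (((rhoA C x).1 : C.B₁) : κ₁) = (resA C x).1 := rfl

theorem coe_rhoA_snd (x : InstC4.BooAlg C) : (((rhoA C x).2 : C.B₂) : κ₂) = (resA C x).2 := rfl

/-- an element of `B_0` as an element of `B∞`. -/
def toBoo (x : B0 C Γ) : InstC4.BooAlg C := ⟨(x : F), x.2.1⟩

@[simp] theorem coe_toBoo (x : B0 C Γ) : ((toBoo x : InstC4.BooAlg C) : F) = (x : F) := rfl

/-- `rhoA` extends `NodeInst.rho`. -/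
theorem rho_eq_rhoA (x : B0 C Γ) : rho C Γ x = rhoA C (toBoo x) := rfl

/-! ### Bezout ⟹ `Ψ` is a unit at every node -/

section Nodes

variable [IsAlgClosed k] (hL2 : C.IsL2)

/-- **glue-ring form**: if `zE + zb * rho Ψ + zE' = 1` in the glue ring with `zE.2 = 0`,
`zE'.1 = 0`, then `Ψ` lies in no node ideal. -/
theorem psi_notMem_nodeIdeal' (s : Goursat.Nodes C.BbarT hL2.h2) {Ψ : B0 C Γ}
    {zE zb zE' : C.B₁ × C.B₂} (hzE : zE ∈ C.BbarT) (hE2 : zE.2 = 0) (hE'1 : zE'.1 = 0)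
    (hsum : zE + zb * rho C Γ Ψ + zE' = 1) : Ψ ∉ nodeIdeal (Γ := Γ) hL2 s := by
  intro hΨ
  have h0 : chi1 hL2 s zE.1 = 0 := by
    rw [chi1_eq_chi2_of_mem hL2 s hzE, hE2, map_zero]
  have h1 := congrArg (fun z : C.B₁ × C.B₂ => chi1 hL2 s z.1) hsum
  simp only [Prod.fst_add, Prod.fst_mul, Prod.fst_one, rho_fst, map_add, map_mul, map_one] at h1
  rw [h0, (mem_nodeIdeal_iff hL2 s Ψ).mp hΨ, hE'1, map_zero, mul_zero, add_zero, add_zero] at h1
  exact zero_ne_one h1

/-- **Bezout ⟹ `Ψ ∉ nodeIdeal hL2 s`** (T-block consumer form (T-b): `E b E' ∈ B∞`, not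
necessarily fixed). -/
theorem psi_notMem_nodeIdeal (s : Goursat.Nodes C.BbarT hL2.h2) {Ψ : B0 C Γ}
    {E b E' : InstC4.BooAlg C} (hE2 : (resA C E).2 = 0) (hE'1 : (resA C E').1 = 0)
    (hsum : (E : F) + (b : F) * (Ψ : F) + (E' : F) = 1) : Ψ ∉ nodeIdeal (Γ := Γ) hL2 s := by
  have hsum' : E + b * toBoo Ψ + E' = 1 := Subtype.ext hsum
  have h := congrArg (rhoA C) hsum'
  rw [map_add, map_add, map_mul, map_one, ← rho_eq_rhoA] at h
  refine psi_notMem_nodeIdeal' hL2 s (rhoA_mem_BbarT E) ?_ ?_ h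
  · exact Subtype.ext (by rw [coe_rhoA_snd, hE2]; rfl)
  · exact Subtype.ext (by rw [coe_rhoA_fst, hE'1]; rfl)

end Nodes

/-! ### Small consequences -/

/-- an element of `B_0` whose first reduction is nonzero is a unit for the first valuation:
its reduction does not vanish. -/
theorem resB_fst_ne_zero_iff (x : B0 C Γ) : (resB C Γ x).1 ≠ 0 ↔ rho1 C Γ x ≠ 0 := by
  rw [not_iff_not]
  constructor
  · intro h
    exact Subtype.ext (by rw [coe_rho1, h]; rfl)
  · intro h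
    rw [← coe_rho1, h]
    rfl

end Fermat.Agent.S40x.Node.NodeThick

end
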