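import Fermat.Agent.S40x.Node.NodeRing
import Fermat.Agent.S40x.Node.NodeThick
import Fermat.Agent.S40x.Thick.UPsi
import Fermat.Agent.S33x.H1.FixData2Final
import Fermat.Agent.S40x.Node.FixedQb

/-!
# P-S44, block R1: the seam (THICK-OUT) at level `M q` (helper14)

Concrete setting of `S33x/Cech/CtxMq` (section `Concrete`): `R := redSetup2 H hA`, a chart `C` with
coordinate `t = α t'`, `t' = tInt M x hx` for an integer series `x` (the Hauptmodul `x₄`, `4 ∣ M`),
`Γ` a set of arithmetic Galois automorphisms (the inertia group of `P`).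

Part A (unconditional): the thickness elements of `S40x/Thick/UPsi`
  `u = β t' - (α t')^q`, `u' = α t' - (β t')^q`, `Ψ = u u' / q`
lie in the chart ring `B_0 = NodeInst.B0 C Γ` (`uB`, `uB'`, `psiB`), with
  `uB * uB' = q * psiB`, `rho1 uB = 0`, `rho2 uB' = 0`, `rho1 uB' ≠ 0`.

Part B (hypothesis style in the Bezout identity of the T-block, `Thick/Assemble.thick_bezout`
pulled back to level `M q`): `psiB ∉ nodeIdeal s` for every node `s`, and the node ring
`(B_0)_{m_s}` satisfies `IsNodeRing _ q u u'` (`NodeRing.isNodeRing` with all hypotheses but the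
Bezout identity discharged).
-/

set_option autoImplicit false
set_option linter.unusedSectionVars false
set_option linter.style.haveILetI false

noncomputable section

namespace Fermat.Agent.S40x.Node.NodeThickQb

open ModularCurve AlgebraicCurve IntermediateField IsLocalRing Module
open Fermat.Agent.Gateway.Hecke Fermat.Agent.Gateway.ESC
open Fermat.Agent.Gateway.Red Fermat.Agent.Gateway.GoodRed
open Fermat.Agent.Gateway.GoodRed.ConjFamily
open Fermat.Agent.S34x Fermat.Agent.S34x.TwoVal Fermat.Agent.S34x.C0two Fermat.Agent.S34x.Lattice2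
open Fermat.Agent.S34x.Inst.L2 Fermat.Agent.S34x.Inst.IsL2Inst
open Fermat.Agent.S34x.Inst.RedSetupInst Fermat.Agent.S34x.Inst.ElementYRed
open Fermat.Agent.S34x.Inst.TheoremBMq
open Fermat.Agent.S19x.Geo.LatticeFixed (IsFixed IsFixedK)
open Fermat.Agent.S33x.H1 Fermat.Agent.S33x.H1.InstC1 Fermat.Agent.S33x.W.InstW
open Fermat.Agent.S33x.Cech.CtxMq
open Fermat.Agent.S40x.Node.NodeInst Fermat.Agent.S40x.Thick.UPsi

attribute [-instance] IsScalarTower.of_algHom

/-! ### Fixedness: rational `q`-expansions -/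

section Fixed

variable {L : Type} [Field L] [Algebra ℚ L] (M q : ℕ) [NeZero M] [NeZero q]
  (x : LaurentSeries ℤ) (hx : coeffMap (Int.castRingHom L) x ∈ FBar L M)

theorem coeffMap_int_eq_rat (y : LaurentSeries ℤ) :
    coeffMap (Int.castRingHom L) y =
      coeffMap (algebraMap ℚ L) (coeffMap (Int.castRingHom ℚ) y) := by
  rw [coeffMap_coeffMap]
  exact coeffMap_congr (RingHom.ext fun n => by simp) y

/-- `g • α t' = α t'`. -/
theorem gal_smul_tA (τ : L ≃ₐ[ℚ] L) :
    arithmeticGalois (modularFunctionFieldFull (M * q)) τ • tA M q x hx = tA M q x hx :=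
  Fermat.Agent.S34x.Inst.GaloisInst.gal_smul_alpha_eq_self_int M q τ (tInt M x hx) x rfl

/-- `g • β t' = β t'`. -/
theorem gal_smul_tB (τ : L ≃ₐ[ℚ] L) :
    arithmeticGalois (modularFunctionFieldFull (M * q)) τ • tB M q x hx = tB M q x hx := by
  refine Fermat.Agent.S34x.Inst.SigmaGlue.arithmeticGalois_smul_eq_self
    (modularFunctionFieldFull (M * q)) τ (tB M q x hx)
    (coeffMap (Int.castRingHom ℚ) (qExpand ℤ q x)) ?_
  rw [coe_heckeBetaBar, coe_tInt, ← coeffMap_int_eq_rat,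
    Fermat.Agent.Gateway.Kummer.coeffMap_qExpand]

end Fixed

/-! ### The thickness elements in the chart ring `B_0` -/

section Chart

variable {L : Type} [Field L] [Algebra ℚ L] [IsAlgClosed L]
  {A : ValuationSubring L} {k : Type} [Field k] {π : A →+* k} [IsAlgClosed k]
variable {M q : ℕ} [NeZero M] [NeZero q] [Fact q.Prime] [CharP k q]
variable {hdeg : finrankAlong L (heckeAlphaBar L M q) = q + 1} {hq : q.Prime} {hqM : ¬ q ∣ M}
variable {hrk : ∀ x ∈ maximalIdeal A, ∀ c : A, c ≠ 0 → ∃ j : ℕ, c ∣ x ^ j}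
  {hπ : Function.Surjective π}
variable (H : ResidueFacts A π M q hdeg hq hqM hrk hπ) (hA : A.LiesOverPrime q)
  (x : LaurentSeries ℤ) (hx : coeffMap (Int.castRingHom L) x ∈ FBar L M)
  (C : ChartCoord (redSetup2 H hA)) (hCt : C.t = tA M q x hx)
  (hy3 : IsIntegral (Algebra.adjoin L {tA M q x hx}) (tB M q x hx))
  (Γ : Set (SemilinearAut L (FL L (M * q))))
  (hΓ : ∀ g ∈ Γ, ∃ τ : L ≃ₐ[ℚ] L, g = arithmeticGalois (modularFunctionFieldFull (M * q)) τ)

include hCt hy3 in
/-- poles only over `t = ∞`: every element of `L[α t', β t']` lies in some `L(b C∞)`. -/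
theorem exists_mem_LN_of_mem_adjoin {f : FL L (M * q)}
    (hf : f ∈ Algebra.adjoin L {tA M q x hx, tB M q x hx}) : ∃ b, f ∈ C.LN 0 b := by
  have hint : IsIntegral (Algebra.adjoin L {C.t}) f := by
    rw [hCt]
    have hle : Algebra.adjoin L {tA M q x hx, tB M q x hx} ≤
        (integralClosure (Algebra.adjoin L {tA M q x hx}) (FL L (M * q))).restrictScalars L := by
      refine Algebra.adjoin_le ?_
      rintro y (rfl | rfl)
      · exact isIntegral_gen (k := L) (tA M q x hx)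
      · exact hy3
    exact hle hf
  exact (isIntegral_iff_exists_mem_twoPole (k := L) C.t_mul_tinv).mp hint

/-! #### fixedness -/

include hΓ in
theorem isFixed_tA : IsFixed Γ (tA M q x hx) := fun g hg => by
  obtain ⟨τ, rfl⟩ := hΓ g hg
  exact gal_smul_tA M q x hx τ

include hΓ in
theorem isFixed_tB : IsFixed Γ (tB M q x hx) := fun g hg => by
  obtain ⟨τ, rfl⟩ := hΓ g hg
  exact gal_smul_tB M q x hx τ

theorem isFixed_sub {f g : FL L (M * q)} (hf : IsFixed Γ f) (hg : IsFixed Γ g) :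
    IsFixed Γ (f - g) := fun s hs => by rw [smul_sub, hf s hs, hg s hs]

theorem isFixed_mul {f g : FL L (M * q)} (hf : IsFixed Γ f) (hg : IsFixed Γ g) :
    IsFixed Γ (f * g) := fun s hs => by rw [smul_mul', hf s hs, hg s hs]

theorem isFixed_pow {f : FL L (M * q)} (hf : IsFixed Γ f) (n : ℕ) : IsFixed Γ (f ^ n) :=
  fun s hs => by rw [smul_pow', hf s hs]

include hΓ in
theorem isFixed_uElt : IsFixed Γ (uElt M q x hx) :=
  isFixed_sub Γ (isFixed_tB x hx Γ hΓ) (isFixed_pow Γ (isFixed_tA x hx Γ hΓ) q)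

include hΓ in
theorem isFixed_uElt' : IsFixed Γ (uElt' M q x hx) :=
  isFixed_sub Γ (isFixed_tA x hx Γ hΓ) (isFixed_pow Γ (isFixed_tB x hx Γ hΓ) q)

include hΓ in
theorem isFixed_dInf : IsFixed Γ (dInf M q x hx) := fun g hg => by
  have h1 : dInf M q x hx = algebraMap L (FL L (M * q)) ((q : L)⁻¹) * uElt M q x hx := by
    rw [dInf, Algebra.smul_def]
  rw [h1, smul_mul', isFixed_uElt x hx Γ hΓ g hg, SemilinearAut.smul_algebraMap]
  congr 2
  rw [map_inv₀, map_natCast]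

include hΓ in
theorem isFixed_psiElt : IsFixed Γ (psiElt M q x hx) :=
  isFixed_mul Γ (isFixed_dInf x hx Γ hΓ) (isFixed_uElt' x hx Γ hΓ)

/-! #### integrality for both valuations -/

theorem uElt_mem_O : uElt M q x hx ∈
    (twoVal (valInfty A π M q hrk hπ hqM) (valZero A π M q hdeg hq hqM hrk hπ)).O :=
  ⟨uElt_mem_Ov A π M q x hx, uElt_mem_Ov0 A π M q hdeg hq hqM x hx⟩

theorem uElt'_mem_O : uElt' M q x hx ∈
    (twoVal (valInfty A π M q hrk hπ hqM) (valZero A π M q hdeg hq hqM hrk hπ)).O :=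
  ⟨uElt'_mem_Ov A π M q x hx, uElt'_mem_Ov0 A π M q hdeg hq hqM x hx⟩

theorem psiElt_mem_O : psiElt M q x hx ∈
    (twoVal (valInfty A π M q hrk hπ hqM) (valZero A π M q hdeg hq hqM hrk hπ)).O := by
  obtain ⟨D', hD'⟩ := exists_kronecker_int q x
  exact ⟨psiElt_mem_Ov A π M q x hx D' hD', psiElt_mem_Ov0 A π M q hdeg hq hqM x hx D' hD'⟩

/-! #### the three elements of `B_0` -/

include hCt hy3 hΓ in
theorem uElt_mem_B0 : uElt M q x hx ∈ B0 C Γ := by
  obtain ⟨b, hb⟩ := exists_mem_LN_of_mem_adjoin H hA x hx C hCt hy3 (uElt_mem_adjoin M q x hx)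
  exact mem_B0_of_mem hb (uElt_mem_O x hx) (isFixed_uElt x hx Γ hΓ)

include hCt hy3 hΓ in
theorem uElt'_mem_B0 : uElt' M q x hx ∈ B0 C Γ := by
  obtain ⟨b, hb⟩ := exists_mem_LN_of_mem_adjoin H hA x hx C hCt hy3 (uElt'_mem_adjoin M q x hx)
  exact mem_B0_of_mem hb (uElt'_mem_O x hx) (isFixed_uElt' x hx Γ hΓ)

include hCt hy3 hΓ in
theorem psiElt_mem_B0 : psiElt M q x hx ∈ B0 C Γ := by
  obtain ⟨b, hb⟩ := exists_mem_LN_of_mem_adjoin H hA x hx C hCt hy3 (psiElt_mem_adjoin M q x hx)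
  exact mem_B0_of_mem hb (psiElt_mem_O x hx) (isFixed_psiElt x hx Γ hΓ)

/-- `u = β t' - (α t')^q` as an element of the chart ring `B_0`. -/
def uB : B0 C Γ := ⟨uElt M q x hx, uElt_mem_B0 H hA x hx C hCt hy3 Γ hΓ⟩

/-- `u' = α t' - (β t')^q` as an element of the chart ring `B_0`. -/
def uB' : B0 C Γ := ⟨uElt' M q x hx, uElt'_mem_B0 H hA x hx C hCt hy3 Γ hΓ⟩

/-- `Ψ = u u' / q` as an element of the chart ring `B_0`. -/
def psiB : B0 C Γ := ⟨psiElt M q x hx, psiElt_mem_B0 H hA x hx C hCt hy3 Γ hΓ⟩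

@[simp] theorem coe_uB : ((uB H hA x hx C hCt hy3 Γ hΓ : B0 C Γ) : FL L (M * q)) = uElt M q x hx :=
  rfl

@[simp] theorem coe_uB' :
    ((uB' H hA x hx C hCt hy3 Γ hΓ : B0 C Γ) : FL L (M * q)) = uElt' M q x hx := rfl

@[simp] theorem coe_psiB :
    ((psiB H hA x hx C hCt hy3 Γ hΓ : B0 C Γ) : FL L (M * q)) = psiElt M q x hx := rfl

/-- **`u u' = q Ψ`** in `B_0`. -/
theorem uB_mul_uB' :
    uB H hA x hx C hCt hy3 Γ hΓ * uB' H hA x hx C hCt hy3 Γ hΓ =
      ((q : ℕ) : B0 C Γ) * psiB H hA x hx C hCt hy3 Γ hΓ := by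
  apply Subtype.ext
  have h1 : (((q : ℕ) : B0 C Γ) : FL L (M * q)) = ((q : ℕ) : FL L (M * q)) := by
    simp
  rw [MulMemClass.coe_mul, MulMemClass.coe_mul, h1, coe_uB, coe_uB', coe_psiB, uElt_mul_uElt',
    Algebra.smul_def, map_natCast]

/-- **`ρ_∞ u = 0`**. -/
theorem rho1_uB : rho1 C Γ (uB H hA x hx C hCt hy3 Γ hΓ) = 0 := by
  apply Subtype.ext
  apply Subtype.ext
  exact redV_uElt A π M q x hx

/-- **`ρ_0 u' = 0`**. -/
theorem rho2_uB' : rho2 C Γ (uB' H hA x hx C hCt hy3 Γ hΓ) = 0 := by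
  apply Subtype.ext
  apply Subtype.ext
  exact red0_uElt' A π M q hdeg hq hqM x hx

/-- **`ρ_∞ u' = x̄ - x̄^(q²) ≠ 0`**. -/
theorem rho1_uB'_ne_zero (hne : tbar k x - tbar k x ^ (q ^ 2) ≠ 0) :
    rho1 C Γ (uB' H hA x hx C hCt hy3 Γ hΓ) ≠ 0 := by
  intro h0
  apply hne
  rw [← redV_uElt' A π M q x hx]
  have h1 := congrArg (fun z : C.B₁ => (((z : C.B₁) : modularFunctionFieldFullC k M) :
    LaurentSeries k)) h0
  exact h1

end Chart

/-! ### The statement "`(B_0)_{m_s}` is a node ring", abstract setting -/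

section Statement

open Fermat.Agent.S33x.H1.LatticeFixed2

variable {K : Type*} [Field K] {A : ValuationSubring K} {F : Type*} [Field F] [Algebra K F]
  {S : SmallRing F} {k κ₁ κ₂ : Type*} [Field k] [Field κ₁] [Field κ₂] [Algebra k κ₁]
  [Algebra k κ₂] {R : RedSetup2 A S k (κ₁ × κ₂)} {C : ChartCoord R}
  {Γ : Set (SemilinearAut K F)} [IsAlgClosed k]

/-- **the node ring statement**: `B_0` is Noetherian and its localisation `R_s` at the node ideal
of `s` satisfies `IsNodeRing R_s p u u'` (`Node/NodeDatum`). -/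
def IsNodeRingAt (hL2 : C.IsL2) (s : Goursat.Nodes C.BbarT hL2.h2) (p : ℕ) (u u' : B0 C Γ) :
    Prop :=
  ∃ _ : IsNoetherianRing (B0 C Γ),
    haveI : IsDomain (Localization.AtPrime (nodeIdeal (Γ := Γ) hL2 s)) :=
      IsLocalization.isDomain_of_atPrime _ (nodeIdeal (Γ := Γ) hL2 s)
    haveI : IsNoetherianRing (Localization.AtPrime (nodeIdeal (Γ := Γ) hL2 s)) :=
      IsLocalization.isNoetherianRing (nodeIdeal (Γ := Γ) hL2 s).primeCompl _ inferInstance
    IsNodeRing (Localization.AtPrime (nodeIdeal (Γ := Γ) hL2 s)) p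
      (algebraMap (B0 C Γ) _ u) (algebraMap (B0 C Γ) _ u')

end Statement

section StatementCtx

open Fermat.Agent.S33x.H1.LatticeFixed2

variable {K : Type*} [Field K] [IsAlgClosed K] [CharZero K] {A : ValuationSubring K}
  {F : Type*} [Field F] [Algebra K F] {S : SmallRing F}
  {k : Type*} [Field k] [IsAlgClosed k] {E : Type*} [Field E] [Algebra k E]
  {R : RedSetup2 A S k (E × E)} {C : ChartCoord R} {p q : ℕ} {x : E} {Dt : Divisor K F}
  {Γ : Set (SemilinearAut K F)}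

/-- `NodeRing.isNodeRing` in the packaged form `IsNodeRingAt`, for an arbitrary proof `hL2`. -/
theorem isNodeRingAt_of_ctx (h : Ctx R C p q x Dt) (hG : CtxGal R C Γ) (hD : FixData2 R Γ)
    (hF : Submodule.span K {f : F | IsFixed Γ f} = ⊤)
    (hp : ∀ c : A, IsFixedK Γ (c : K) → c ∈ maximalIdeal A → ((p : ℕ) : A) ∣ c)
    (hL2 : C.IsL2) (s : Goursat.Nodes C.BbarT hL2.h2)
    {u u' Ψ : B0 C Γ} (hrel : u * u' = ((p : ℕ) : B0 C Γ) * Ψ)
    (h1 : rho1 C Γ u = 0) (h2 : rho2 C Γ u' = 0)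
    (hΨ : Ψ ∉ nodeIdeal (Γ := Γ) hL2 s) (hu' : rho1 C Γ u' ≠ 0) :
    IsNodeRingAt hL2 s p u u' :=
  ⟨FixedNoeth.isNoetherianRing_fixedBoo' h hG hD hF,
    NodeRing.isNodeRing h hG hD hF hp s hrel h1 h2 hΨ hu'⟩

end StatementCtx

/-! ### The concrete level `M q` over `Qbar`: (THICK-OUT) and the node rings -/

section Qb

open Fermat.Agent.S33x.H1.FixData2Inst Fermat.Agent.S33x.H1.FixData2Final
open Fermat.Agent.S40x.Node.Vocab Fermat.Agent.S40x.Node.NodeThick

local notation "Qbar" => AlgebraicClosure ℚ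

variable {P : ValuationSubring Qbar} {k : Type} [Field k] {π : P →+* k} [IsAlgClosed k]
variable {M q : ℕ} [NeZero M] [NeZero q] [Fact q.Prime] [CharP k q]
variable {hdeg : finrankAlong Qbar (heckeAlphaBar Qbar M q) = q + 1} {hq : q.Prime}
  {hqM : ¬ q ∣ M}
variable {hrk : ∀ x ∈ maximalIdeal P, ∀ c : P, c ≠ 0 → ∃ j : ℕ, c ∣ x ^ j}
  {hπ : Function.Surjective π}
variable (H : ResidueFacts P π M q hdeg hq hqM hrk hπ) (hA : P.LiesOverPrime q)
  (x : LaurentSeries ℤ) (hx : coeffMap (Int.castRingHom Qbar) x ∈ FBar Qbar M)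
  (Hx : GoodLevelFactsT P π M q hπ hqM (tInt M x hx))
  (C : ChartCoord (redSetup2 H hA)) (hCt : C.t = tA M q x hx)

/-- the elements of `inertiaAct P N` are arithmetic Galois automorphisms. -/
theorem inertiaAct_arith (N : ℕ) : ∀ g ∈ inertiaAct P N,
    ∃ τ : Qbar ≃ₐ[ℚ] Qbar, g = arithmeticGalois (modularFunctionFieldFull N) τ := by
  rintro _ ⟨τ, -, rfl⟩
  exact ⟨τ, rfl⟩

include hA in
/-- **`hp`**: `q` is a uniformiser of the inertia-fixed constants. -/
theorem natCast_dvd_of_fixed (N : ℕ) (c : P) (hc : IsFixedK (inertiaAct P N) (c : Qbar))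
    (hcm : c ∈ maximalIdeal P) : ((q : ℕ) : P) ∣ c := by
  rw [← ValuationSubring.coe_mem_nonunits_iff] at hcm
  obtain ⟨d, hd, hcd⟩ :=
    Fermat.Agent.S19x.Hens.InertiaResidue.exists_eq_natCast_mul_of_fixed P
      (Fact.out : q.Prime) hA hcm ((isFixedK_inertiaAct_iff P N).mp hc)
  exact ⟨⟨d, hd.1⟩, Subtype.ext (by rw [hcd]; simp)⟩

include Hx in
/-- `x̄ - x̄^(q²) ≠ 0`: the reduction of the coordinate is transcendental. -/
theorem tbar_sub_pow_ne_zero : tbar k x - tbar k x ^ (q ^ 2) ≠ 0 := by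
  intro h0
  have htr := Hx.trans_res
  apply htr
  refine ⟨(Polynomial.X - Polynomial.X ^ (q ^ 2) : Polynomial k), ?_, ?_⟩
  · intro h
    have h1 := congrArg (fun f : Polynomial k => f.coeff 1) h
    have hq2 : 1 ≠ q ^ 2 := by
      have := (Fact.out : q.Prime).two_le
      nlinarith
    simp only [Polynomial.coeff_sub, Polynomial.coeff_X_one, Polynomial.coeff_X_pow,
      Polynomial.coeff_zero] at h1
    rw [if_neg hq2, sub_zero] at h1
    exact one_ne_zero h1
  · apply Subtype.ext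
    simp only [map_sub, map_pow, Polynomial.aeval_X]
    rw [AddSubgroupClass.coe_sub, SubmonoidClass.coe_pow, coe_resFk, ZeroMemClass.coe_zero]
    rw [redV_tInt P π M x hx]
    exact h0

/-- the Bezout identity delivered by the T-block (`Thick/Assemble.thick_bezout` at level `4 q`,
pulled back to level `M q`), in the consumer shape of `NodeThick.psi_notMem_nodeIdeal`. -/
def BezoutAt : Prop :=
  ∃ E b E' : Fermat.Agent.S33x.H1.InstC4.BooAlg C, (resA C E).2 = 0 ∧ (resA C E').1 = 0 ∧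
    (E : FL Qbar (M * q)) + (b : FL Qbar (M * q)) * psiElt M q x hx + (E' : FL Qbar (M * q)) = 1

variable (hy3 : IsIntegral (Algebra.adjoin Qbar {tA M q x hx}) (tB M q x hx))

/-- **Bezout ⟹ `Ψ` lies in no node ideal.** -/
theorem psiB_notMem_nodeIdeal (hbez : BezoutAt H hA x hx C) (hL2 : C.IsL2)
    (s : Goursat.Nodes C.BbarT hL2.h2) :
    psiB H hA x hx C hCt hy3 (inertiaAct P (M * q)) (inertiaAct_arith (M * q)) ∉
      nodeIdeal (Γ := inertiaAct P (M * q)) hL2 s := by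
  obtain ⟨E, b, E', hE, hE', hsum⟩ := hbez
  exact psi_notMem_nodeIdeal hL2 s hE hE' hsum

include Hx hCt hy3 in
/-- **(THICK-OUT) at level `M q`**: the thickness data in the chart ring `B_0` over the
inertia-fixed constants, in the vocabulary of `NodeRing.isNodeRing`. -/
theorem thick_out (hbez : BezoutAt H hA x hx C) (hL2 : C.IsL2) :
    ∃ u u' Ψ : B0 C (inertiaAct P (M * q)),
      (u : FL Qbar (M * q)) = uElt M q x hx ∧ (u' : FL Qbar (M * q)) = uElt' M q x hx ∧
      (Ψ : FL Qbar (M * q)) = psiElt M q x hx ∧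
      u * u' = ((q : ℕ) : B0 C (inertiaAct P (M * q))) * Ψ ∧
      rho1 C (inertiaAct P (M * q)) u = 0 ∧ rho2 C (inertiaAct P (M * q)) u' = 0 ∧
      rho1 C (inertiaAct P (M * q)) u' ≠ 0 ∧
      ∀ s : Goursat.Nodes C.BbarT hL2.h2, Ψ ∉ nodeIdeal (Γ := inertiaAct P (M * q)) hL2 s :=
  ⟨uB H hA x hx C hCt hy3 _ (inertiaAct_arith (M * q)),
    uB' H hA x hx C hCt hy3 _ (inertiaAct_arith (M * q)),
    psiB H hA x hx C hCt hy3 _ (inertiaAct_arith (M * q)), rfl, rfl, rfl,
    uB_mul_uB' H hA x hx C hCt hy3 _ _, rho1_uB H hA x hx C hCt hy3 _ _,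
    rho2_uB' H hA x hx C hCt hy3 _ _,
    rho1_uB'_ne_zero H hA x hx C hCt hy3 _ _ (tbar_sub_pow_ne_zero x hx Hx),
    fun s => psiB_notMem_nodeIdeal H hA x hx C hCt hy3 hbez hL2 s⟩

include Hx hA in
/-- **(N-OUT) at level `M q`**: for every node `s` of the glue ring, the node ring
`R_s = (B_0)_{m_s}` satisfies `IsNodeRing R_s q u u'` with `u = β t' - (α t')^q`,
`u' = α t' - (β t')^q`; the only remaining hypothesis is the Bezout identity of the T-block. -/
theorem isNodeRingAt_Mq [PerfectRing k q] (hxk : tbar k x ≠ 0) (hY : YFacts M q x hx)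
    (hbez : BezoutAt H hA x hx C) (hL2 : C.IsL2) (s : Goursat.Nodes C.BbarT hL2.h2) :
    IsNodeRingAt hL2 s q
      (uB H hA x hx C hCt hY.y3 (inertiaAct P (M * q)) (inertiaAct_arith (M * q)))
      (uB' H hA x hx C hCt hY.y3 (inertiaAct P (M * q)) (inertiaAct_arith (M * q))) := by
  haveI : CharZero Qbar := algebraRat.charZero Qbar
  obtain ⟨Dt, hctx, hgal, hD, hF⟩ := FixedQb.bundle_Mq H hA x hx Hx C hCt hxk hY
  exact isNodeRingAt_of_ctx hctx hgal hD hF
    (fun c hc hcm => natCast_dvd_of_fixed hA (M * q) c hc hcm) hL2 s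
    (uB_mul_uB' H hA x hx C hCt hY.y3 _ _) (rho1_uB H hA x hx C hCt hY.y3 _ _)
    (rho2_uB' H hA x hx C hCt hY.y3 _ _)
    (psiB_notMem_nodeIdeal H hA x hx C hCt hY.y3 hbez hL2 s)
    (rho1_uB'_ne_zero H hA x hx C hCt hY.y3 _ _ (tbar_sub_pow_ne_zero x hx Hx))

end Qb

end Fermat.Agent.S40x.Node.NodeThickQb

end
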