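import Fermat.Agent.S40x.Node.NodeFrac
import Fermat.Agent.S40x.Node.NodeRing
import Fermat.Agent.S40x.Node.NodeLocalDatum
import Fermat.Agent.S40x.Node.TameNodeB

/-!
# P-S44, block R1 / N-alpha, items X3/X4 of the export table `S44_R1X` (instance, helper86):
the valuation half and the order function of the node ring `R_s = (B_0)_{m_s}` inside `F^Γ`

Setting of `Node/NodeInst`, `Node/NodeFrac`, `Node/NodeRing` (`R : RedSetup2 A S k (κ₁ × κ₂)`,
`C : ChartCoord R`, `Γ`); `F0 := NodeFrac.fixedField Γ`.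

* generic: `restr F0 O` (the restriction of a valuation subring `O` of `F` to a subfield `F0`),
  `restrRes F0 O r` (the restriction of a reduction `r : O →+* κ`), valuation dictionary;
* `IsSide O r ρ` : `(O, r)` is the valuation subring + reduction of `F` belonging to the side
  `ρ : B_0 →+* κ` of the chart ring (`B_0 ⊆ O`, `ρ = r` on `B_0`, `ker r` = the non-units).
  At a two-valuation small ring `twoVal O₁ O₂` with `R = redSetupTwoVal R₁ R₂ _` (in particular at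
  the concrete level `redSetup2 H hA`, `O₁ = valInfty`, `O₂ = valZero`) both sides are instances:
  `isSide_fst`, `isSide_snd`;
* for a prime `m` of `B_0` containing `ker ρ`: `(B_0)_m ⊆ restr F0 O` (`loc_mem`), the reduction
  `redLoc : (B_0)_m →+* κ` (`redLoc_algebraMap`, `red_algebraMap_loc`: it is
  `TameNodeB.red Oinf redInf ∘ algebraMap`), `redLoc_eq_zero_iff`;
* **X3** `isBranch` : under the thickness hypotheses the literal `TameNodeB.IsBranch u Oinf`
  (`= (v1) + (v0)` of helper62's literal, `TameNodeB.natCast_inv_notMem`);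
* **X4** `ord_redLoc_nonneg`, `ord_redLoc_unit`, `ord_redLoc_u'` : the weak `(d3)` for a place `P`
  of `κ / k` centred at the node (dictionary hypotheses `hPB`, `hPs` = `Node/PlaceIdeal`);
* `tame_loc` : the test of the datum: `(TAME)` for `R_s` by `TameNodeB.tame_node_place`;
  `tame_nodeRing_ctx` : the same inside the context bundle `Ctx` + `CtxGal` + `FixData2` + `hF`
  for `R_s = Localization.AtPrime (nodeIdeal hL2 s)` (integration test of X1 + X2 + X3/X4 + N5).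

The lemmas about the local ring are stated for an ARBITRARY localisation `S'` of `B_0` at `m`
(as in `Node/NodeLocalDatum`): instantiate with `(S' := Localization.AtPrime m)` GIVEN EXPLICITLY
(and without an expected type, `have h := ...; exact h`); letting the unifier find `S'` from a
statement about `Localization.AtPrime m` is very slow (instance paths of `OreLocalization`).
-/

set_option autoImplicit false
set_option linter.unusedSectionVars false
set_option linter.style.haveILetI false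

noncomputable section

namespace Fermat.Agent.S40x.Node.NodeValInstB

open AlgebraicCurve IsLocalRing
open Fermat.Agent.S34x Fermat.Agent.S34x.C0two Fermat.Agent.S34x.Lattice2
open Fermat.Agent.S40x.Node Fermat.Agent.S40x.Node.NodeInst Fermat.Agent.S40x.Node.NodeFrac

/-! ### Restriction of a valuation subring and of its reduction to a subfield -/

section Restr

variable {F : Type*} [Field F] (F0 : Subfield F) (O : ValuationSubring F)

/-- the restriction of the valuation subring `O` of `F` to the subfield `F0` -/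
def restr : ValuationSubring F0 := O.comap F0.subtype

variable {F0 O}

theorem mem_restr {x : F0} : x ∈ restr F0 O ↔ (x : F) ∈ O := Iff.rfl

theorem valuation_restr_le_one_iff (x : F0) :
    (restr F0 O).valuation x ≤ 1 ↔ O.valuation (x : F) ≤ 1 := by
  rw [ValuationSubring.valuation_le_one_iff, ValuationSubring.valuation_le_one_iff, mem_restr]

theorem valuation_restr_lt_one_iff (x : F0) :
    (restr F0 O).valuation x < 1 ↔ O.valuation (x : F) < 1 := by
  rcases eq_or_ne x 0 with rfl | hx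
  · simp
  have hxF : (x : F) ≠ 0 := fun h => hx (Subtype.ext h)
  have key : ∀ {E : Type _} [Field E] (V : ValuationSubring E) {y : E}, y ≠ 0 →
      (V.valuation y < 1 ↔ y⁻¹ ∉ V) := by
    intro E _ V y hy
    have hv0 : V.valuation y ≠ 0 := (Valuation.ne_zero_iff _).mpr hy
    rw [← V.valuation_le_one_iff, map_inv₀, inv_le_one₀ (zero_lt_iff.mpr hv0), not_le]
  rw [key _ hx, key _ hxF, mem_restr]
  simp

theorem valuation_restr_eq_one_iff (x : F0) :
    (restr F0 O).valuation x = 1 ↔ O.valuation (x : F) = 1 := by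
  constructor
  · intro h
    exact le_antisymm ((valuation_restr_le_one_iff x).mp h.le)
      (not_lt.mp fun hlt => absurd h (ne_of_lt ((valuation_restr_lt_one_iff x).mpr hlt)))
  · intro h
    exact le_antisymm ((valuation_restr_le_one_iff x).mpr h.le)
      (not_lt.mp fun hlt => absurd h (ne_of_lt ((valuation_restr_lt_one_iff x).mp hlt)))

variable (F0 O) {κ : Type*} [Field κ] (r : O →+* κ)

/-- the inclusion `restr F0 O → O` -/
def restrIncl : restr F0 O →+* O where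
  toFun x := ⟨((x : F0) : F), x.2⟩
  map_one' := rfl
  map_mul' _ _ := rfl
  map_zero' := rfl
  map_add' _ _ := rfl

/-- the restriction of the reduction `r : O →+* κ` to `restr F0 O` -/
def restrRes : restr F0 O →+* κ := r.comp (restrIncl F0 O)

variable {F0 O}

theorem restrRes_apply (x : restr F0 O) : restrRes F0 O r x = r ⟨((x : F0) : F), x.2⟩ := rfl

theorem restrRes_eq_zero_iff (hker : ∀ x : O, r x = 0 ↔ O.valuation (x : F) < 1)
    (x : restr F0 O) : restrRes F0 O r x = 0 ↔ (restr F0 O).valuation (x : F0) < 1 := by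
  rw [restrRes_apply, hker, valuation_restr_lt_one_iff]

end Restr

/-! ### A side of the chart ring -/

section Side

variable {K : Type*} [Field K] {A : ValuationSubring K} {F : Type*} [Field F] [Algebra K F]
  {S : SmallRing F} {k κ₁ κ₂ : Type*} [Field k] [CommRing κ₁] [CommRing κ₂] [Algebra k κ₁]
  [Algebra k κ₂] {R : RedSetup2 A S k (κ₁ × κ₂)} {C : ChartCoord R}
  {Γ : Set (SemilinearAut K F)}
  {O : ValuationSubring F} {κ : Type*} [Field κ] {r : O →+* κ} {ρ : B0 C Γ →+* κ}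

/-- `(O, r)` is the valuation subring and the reduction of `F` belonging to the side
`ρ : B_0 →+* κ` of the chart ring. -/
structure IsSide (O : ValuationSubring F) (r : O →+* κ) (ρ : B0 C Γ →+* κ) : Prop where
  mem : ∀ b : B0 C Γ, (b : F) ∈ O
  red : ∀ (b : B0 C Γ) (hb : (b : F) ∈ O), ρ b = r ⟨(b : F), hb⟩
  ker : ∀ x : O, r x = 0 ↔ O.valuation (x : F) < 1

namespace IsSide

/-- `Oinf`: the restriction of `O` to the fixed field -/
abbrev Ofix (_hs : IsSide O r ρ) : ValuationSubring (fixedField Γ) := restr (fixedField Γ) O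

/-- `redInf`: the restriction of `r` to `Oinf` -/
abbrev rfix (_hs : IsSide O r ρ) : restr (fixedField Γ) O →+* κ := restrRes (fixedField Γ) O r

theorem coe_algebraMap (b : B0 C Γ) :
    ((algebraMap (B0 C Γ) (fixedField Γ) b : fixedField Γ) : F) = (b : F) := rfl

/-- the kernel of `redInf` is the maximal ideal of `Oinf` (the `hker` of `Slope/SlopeInv`,
`TameNodeB`). -/
theorem rfix_eq_zero_iff (hs : IsSide O r ρ) (x : restr (fixedField Γ) O) :
    hs.rfix x = 0 ↔ hs.Ofix.valuation (x : fixedField Γ) < 1 :=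
  restrRes_eq_zero_iff r hs.ker x

/-- `B_0 ⊆ Oinf` -/
theorem algebraMap_mem (hs : IsSide O r ρ) (b : B0 C Γ) :
    algebraMap (B0 C Γ) (fixedField Γ) b ∈ hs.Ofix :=
  hs.mem b

theorem rfix_algebraMap (hs : IsSide O r ρ) (b : B0 C Γ) :
    hs.rfix ⟨algebraMap (B0 C Γ) (fixedField Γ) b, hs.algebraMap_mem b⟩ = ρ b :=
  (hs.red b (hs.mem b)).symm

theorem valuation_lt_one_iff (hs : IsSide O r ρ) (b : B0 C Γ) :
    hs.Ofix.valuation (algebraMap (B0 C Γ) (fixedField Γ) b) < 1 ↔ ρ b = 0 := by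
  rw [valuation_restr_lt_one_iff, hs.red b (hs.mem b), hs.ker]
  rfl

/-- an element of `B_0` with non-zero reduction is a unit of `Oinf` -/
theorem inv_mem_of_ne_zero (hs : IsSide O r ρ) {b : B0 C Γ} (hb : ρ b ≠ 0) :
    (algebraMap (B0 C Γ) (fixedField Γ) b)⁻¹ ∈ hs.Ofix := by
  have h1 : ¬ hs.Ofix.valuation (algebraMap (B0 C Γ) (fixedField Γ) b) < 1 := fun h =>
    hb ((hs.valuation_lt_one_iff b).mp h)
  have h2 : hs.Ofix.valuation (algebraMap (B0 C Γ) (fixedField Γ) b) = 1 :=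
    le_antisymm ((hs.Ofix.valuation_le_one_iff _).mpr (hs.algebraMap_mem b)) (not_lt.mp h1)
  rw [← hs.Ofix.valuation_le_one_iff, map_inv₀, h2, inv_one]

/-! #### The local ring `(B_0)_m`

Stated for an arbitrary localisation `S'` of `B_0` at `m` inside the fixed field (as in
`Node/NodeLocalDatum`); the consumer takes `S' = Localization.AtPrime m` with the instances
`NodeFrac.algebraLocFixed`, `NodeFrac.isScalarTower_loc`. -/

variable (m : Ideal (B0 C Γ)) [m.IsPrime] (S' : Type*) [CommRing S'] [Algebra (B0 C Γ) S']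
  [IsLocalization.AtPrime S' m] [Algebra S' (fixedField Γ)]
  [IsScalarTower (B0 C Γ) S' (fixedField Γ)]

/-- **(s0)** `(B_0)_m ⊆ Oinf` for a prime `m ⊇ ker ρ`. -/
theorem loc_mem (hs : IsSide O r ρ) (hm : ∀ b, ρ b = 0 → b ∈ m) (x : S') :
    algebraMap S' (fixedField Γ) x ∈ hs.Ofix :=
  NodeLocalDatum.algebraMap_mem ρ m hs.Ofix (algebraMap_fixed_injective C Γ) hs.algebraMap_mem
    (fun _ hb => hs.inv_mem_of_ne_zero hb) hm x

/-- the inclusion `(B_0)_m → Oinf` -/
def locIncl (hs : IsSide O r ρ) (hm : ∀ b, ρ b = 0 → b ∈ m) : S' →+* hs.Ofix :=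
  (algebraMap S' (fixedField Γ)).codRestrict hs.Ofix.toSubring (hs.loc_mem m S' hm)

/-- **the reduction of the local ring** `(B_0)_m → κ` -/
def redLoc (hs : IsSide O r ρ) (hm : ∀ b, ρ b = 0 → b ∈ m) : S' →+* κ :=
  hs.rfix.comp (hs.locIncl m S' hm)

variable {S'}

theorem redLoc_apply (hs : IsSide O r ρ) (hm : ∀ b, ρ b = 0 → b ∈ m) (x : S') :
    hs.redLoc m S' hm x =
      hs.rfix ⟨algebraMap S' (fixedField Γ) x, hs.loc_mem m S' hm x⟩ := rfl

theorem redLoc_algebraMap (hs : IsSide O r ρ) (hm : ∀ b, ρ b = 0 → b ∈ m) (b : B0 C Γ) :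
    hs.redLoc m S' hm (algebraMap (B0 C Γ) S' b) = ρ b := by
  rw [redLoc_apply, ← hs.rfix_algebraMap b]
  congr 1
  exact Subtype.ext (IsScalarTower.algebraMap_apply (B0 C Γ) S' (fixedField Γ) b).symm

/-- `redLoc` is `TameNodeB.red Oinf redInf` on `(B_0)_m`. -/
theorem red_algebraMap_loc (hs : IsSide O r ρ) (hm : ∀ b, ρ b = 0 → b ∈ m) (x : S') :
    TameNodeB.red hs.Ofix hs.rfix (algebraMap S' (fixedField Γ) x) = hs.redLoc m S' hm x := by
  rw [TameNodeB.red_of_mem (hs.loc_mem m S' hm x)]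
  rfl

theorem redLoc_eq_zero_iff (hs : IsSide O r ρ) (hm : ∀ b, ρ b = 0 → b ∈ m) (x : S') :
    hs.redLoc m S' hm x = 0 ↔ hs.Ofix.valuation (algebraMap S' (fixedField Γ) x) < 1 := by
  rw [redLoc_apply, hs.rfix_eq_zero_iff]

end IsSide

end Side

/-! ### X3 and X4 at a node -/

section Node

variable {K : Type*} [Field K] {A : ValuationSubring K} {F : Type*} [Field F] [Algebra K F]
  {S : SmallRing F} {k κ₁ κ₂ : Type*} [Field k] [CommRing κ₁] [CommRing κ₂] [Algebra k κ₁]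
  [Algebra k κ₂] {R : RedSetup2 A S k (κ₁ × κ₂)} {C : ChartCoord R}
  {Γ : Set (SemilinearAut K F)}
  {O : ValuationSubring F} {κ : Type*} [Field κ] {r : O →+* κ} {ρ : B0 C Γ →+* κ}
  {κ' : Type*} [CommRing κ'] {ρ' : B0 C Γ →+* κ'}
  (m : Ideal (B0 C Γ)) [m.IsPrime] {S' : Type*} [CommRing S'] [Algebra (B0 C Γ) S']
  [IsLocalization.AtPrime S' m] [Algebra S' (fixedField Γ)]
  [IsScalarTower (B0 C Γ) S' (fixedField Γ)] {p : ℕ} {u u' Ψ : B0 C Γ}

/-- **X3**: the valuation half of the node datum, in the literal `TameNodeB.IsBranch`: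
`R_s ⊆ Oinf`, `R_s ∖ u R_s ⊆ Oinfˣ`, `u ∉ Oinfˣ`. -/
theorem isBranch (hs : IsSide O r ρ) (hm : ∀ b, ρ b = 0 → b ∈ m)
    (hp : ((p : ℕ) : B0 C Γ) ≠ 0)
    (hker : ∀ f : B0 C Γ, ρ f = 0 → ρ' f = 0 → ((p : ℕ) : B0 C Γ) ∣ f)
    (hrel : u * u' = ((p : ℕ) : B0 C Γ) * Ψ) (h1 : ρ u = 0) (h2 : ρ' u' = 0) (hΨ : Ψ ∉ m) :
    TameNodeB.IsBranch (algebraMap (B0 C Γ) S' u) hs.Ofix := by
  refine ⟨hs.loc_mem m S' hm, ?_, ?_⟩
  · intro x hx
    exact NodeLocalDatum.inv_mem_of_not_dvd ρ ρ' m hs.Ofix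
      (algebraMap_fixed_injective C Γ) hs.algebraMap_mem
      (fun _ hb => hs.inv_mem_of_ne_zero hb) hp hker hrel h2 hΨ hx
  · rw [← IsScalarTower.algebraMap_apply (B0 C Γ) S' (fixedField Γ)]
    intro hmem
    have hlt := (hs.valuation_lt_one_iff u).mpr h1
    have hu0 : u ≠ 0 := by
      rintro rfl
      rw [zero_mul] at hrel
      rcases mul_eq_zero.mp hrel.symm with h | h
      · exact hp h
      · exact hΨ (h ▸ m.zero_mem)
    have huF : algebraMap (B0 C Γ) (fixedField Γ) u ≠ 0 := fun h0 =>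
      hu0 (algebraMap_fixed_injective C Γ (by rw [h0, map_zero]))
    have hv0 : hs.Ofix.valuation (algebraMap (B0 C Γ) (fixedField Γ) u) ≠ 0 :=
      (Valuation.ne_zero_iff _).mpr huF
    have h3 : hs.Ofix.valuation (algebraMap (B0 C Γ) (fixedField Γ) u)⁻¹ ≤ 1 :=
      (hs.Ofix.valuation_le_one_iff _).mpr hmem
    rw [map_inv₀, inv_le_one₀ (zero_lt_iff.mpr hv0)] at h3
    exact absurd hlt (not_lt.mpr h3)

/-- **(n2)**: in `R_s` the multiples of `u` are the elements of positive valuation. -/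
theorem valuation_lt_one_iff_dvd (hs : IsSide O r ρ) (hm : ∀ b, ρ b = 0 → b ∈ m)
    (hp : ((p : ℕ) : B0 C Γ) ≠ 0)
    (hker : ∀ f : B0 C Γ, ρ f = 0 → ρ' f = 0 → ((p : ℕ) : B0 C Γ) ∣ f)
    (hrel : u * u' = ((p : ℕ) : B0 C Γ) * Ψ) (h1 : ρ u = 0) (h2 : ρ' u' = 0) (hΨ : Ψ ∉ m)
    (x : S') :
    hs.Ofix.valuation (algebraMap S' (fixedField Γ) x) < 1 ↔ algebraMap (B0 C Γ) S' u ∣ x :=
  NodeLocalDatum.valuation_lt_one_iff_dvd ρ ρ' m hs.Ofix
    (algebraMap_fixed_injective C Γ) hs.algebraMap_mem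
    (fun _ hb => hs.inv_mem_of_ne_zero hb) hm hp hker hrel h2 hΨ
    ((hs.valuation_lt_one_iff u).mpr h1) x

/-- the kernel of the reduction of `R_s` is `(u)`. -/
theorem redLoc_eq_zero_iff_dvd (hs : IsSide O r ρ) (hm : ∀ b, ρ b = 0 → b ∈ m)
    (hp : ((p : ℕ) : B0 C Γ) ≠ 0)
    (hker : ∀ f : B0 C Γ, ρ f = 0 → ρ' f = 0 → ((p : ℕ) : B0 C Γ) ∣ f)
    (hrel : u * u' = ((p : ℕ) : B0 C Γ) * Ψ) (h1 : ρ u = 0) (h2 : ρ' u' = 0) (hΨ : Ψ ∉ m)
    (x : S') : hs.redLoc m S' hm x = 0 ↔ algebraMap (B0 C Γ) S' u ∣ x := by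
  rw [hs.redLoc_eq_zero_iff m hm, valuation_lt_one_iff_dvd m hs hm hp hker hrel h1 h2 hΨ]

/-! #### X4: the order function -/

variable [Algebra k κ] (P : Place k κ)

/-- **X4, weak (d3)**: the reduction of `R_s` takes its values in the valuation ring of a place
`P` of `κ / k` centred at `m` (`hPB`, `hPs`: the dictionary between places and maximal ideals of
the component ring, `Node/PlaceIdeal`). -/
theorem ord_redLoc_nonneg (hs : IsSide O r ρ) (hm : ∀ b, ρ b = 0 → b ∈ m)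
    (hPB : ∀ b : B0 C Γ, 0 ≤ P.ord (ρ b)) (hPs : ∀ s : B0 C Γ, s ∉ m → P.ord (ρ s) = 0)
    (x : S') : 0 ≤ P.ord (hs.redLoc m S' hm x) := by
  obtain ⟨b, s, rfl⟩ := IsLocalization.exists_mk'_eq m.primeCompl x
  have hmul : IsLocalization.mk' S' b s * algebraMap (B0 C Γ) S' (s : B0 C Γ) =
      algebraMap (B0 C Γ) S' b := IsLocalization.mk'_spec _ b s
  by_cases h0 : hs.redLoc m S' hm (IsLocalization.mk' S' b s) = 0
  · rw [h0, P.ord_zero]
  · have hsne : ρ (s : B0 C Γ) ≠ 0 := fun h => s.2 (hm _ h)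
    have h1 : P.ord (hs.redLoc m S' hm (IsLocalization.mk' S' b s)) +
        P.ord (ρ (s : B0 C Γ)) = P.ord (ρ b) := by
      rw [← P.ord_mul h0 hsne, ← hs.redLoc_algebraMap m hm (S' := S') (s : B0 C Γ), ← map_mul,
        hmul, hs.redLoc_algebraMap m hm b]
    have := hPB b
    have := hPs s s.2
    omega

/-- the units of `R_s` reduce to units at `P` (`hunit` of `TameNodeB.tame_node`). -/
theorem ord_redLoc_unit (hs : IsSide O r ρ) (hm : ∀ b, ρ b = 0 → b ∈ m)
    (hPB : ∀ b : B0 C Γ, 0 ≤ P.ord (ρ b)) (hPs : ∀ s : B0 C Γ, s ∉ m → P.ord (ρ s) = 0)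
    {x : S'} (hx : IsUnit x) : P.ord (hs.redLoc m S' hm x) = 0 :=
  NodeLocalDatum.ord_map_unit P (hs.redLoc m S' hm) (ord_redLoc_nonneg m P hs hm hPB hPs) hx

/-- **X4**: `P.ord (ρ u') = 1` as soon as `m R_s = (u, u')`, `ρ u = 0`, `u'` vanishes at `P` and
ONE element of `B_0` reduces to a uniformiser at `P`. -/
theorem ord_u'_eq_one [IsLocalRing S'] (hs : IsSide O r ρ) (hm : ∀ b, ρ b = 0 → b ∈ m)
    (hmax : maximalIdeal S' =
      Ideal.span {algebraMap (B0 C Γ) S' u, algebraMap (B0 C Γ) S' u'})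
    (h1 : ρ u = 0)
    (hPB : ∀ b : B0 C Γ, 0 ≤ P.ord (ρ b)) (hPs : ∀ s : B0 C Γ, s ∉ m → P.ord (ρ s) = 0)
    (hP2 : 0 < P.ord (ρ u')) (ht : ∃ t : B0 C Γ, P.ord (ρ t) = 1) : P.ord (ρ u') = 1 := by
  obtain ⟨t, ht⟩ := ht
  have e1 : hs.redLoc m S' hm (algebraMap (B0 C Γ) S' u) = 0 := by
    rw [hs.redLoc_algebraMap m hm u]; exact h1
  have e2 : 0 < P.ord (hs.redLoc m S' hm (algebraMap (B0 C Γ) S' u')) := by
    rw [hs.redLoc_algebraMap m hm u']; exact hP2
  have e3 : P.ord (hs.redLoc m S' hm (algebraMap (B0 C Γ) S' t)) = 1 := by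
    rw [hs.redLoc_algebraMap m hm t]; exact ht
  have h := NodeLocalDatum.ord_map_u'_eq_one P (hs.redLoc m S' hm)
    hmax e1 (ord_redLoc_nonneg m P hs hm hPB hPs) e2 ⟨_, e3⟩
  rw [hs.redLoc_algebraMap m hm u'] at h
  exact h

end Node

/-! ### The test of the datum: (TAME) for the localisation of `B_0` at a node -/

section Tame

variable {K : Type*} [Field K] {A : ValuationSubring K} {F : Type*} [Field F] [Algebra K F]
  {S : SmallRing F} {k κ₁ κ₂ : Type*} [Field k] [CommRing κ₁] [CommRing κ₂] [Algebra k κ₁]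
  [Algebra k κ₂] {R : RedSetup2 A S k (κ₁ × κ₂)} {C : ChartCoord R}
  {Γ : Set (SemilinearAut K F)}
  {O O' : ValuationSubring F} {κ κ' : Type*} [Field κ] [Field κ'] {r : O →+* κ}
  {r' : O' →+* κ'} {ρ : B0 C Γ →+* κ} {ρ' : B0 C Γ →+* κ'}
  (m : Ideal (B0 C Γ)) [m.IsPrime] {S' : Type*} [CommRing S'] [Algebra (B0 C Γ) S']
  [IsLocalization.AtPrime S' m] [Algebra S' (fixedField Γ)]
  [IsScalarTower (B0 C Γ) S' (fixedField Γ)] {p : ℕ} {u u' Ψ : B0 C Γ}
  [Algebra k κ] (P : Place k κ)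

/-- **(TAME) for `R_s = (B_0)_{m_s}`** from the two sides, the thickness data and the dictionary
at the place `P` of the first component: the hypotheses of `TameNodeB.tame_node_place` are
exactly X1 (`hN`), X2 (`IsFractionRing`), X3 (`isBranch` twice) and X4. -/
theorem tame_loc [IsDomain S'] [IsNoetherianRing S'] [IsLocalRing S']
    [IsFractionRing S' (fixedField Γ)]
    (hs : IsSide O r ρ) (hs' : IsSide O' r' ρ')
    (hm : ∀ b, ρ b = 0 → b ∈ m) (hm' : ∀ b, ρ' b = 0 → b ∈ m)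
    (hN : IsNodeRing S' p (algebraMap (B0 C Γ) S' u) (algebraMap (B0 C Γ) S' u')) (hp0 : p ≠ 0)
    (hp : ((p : ℕ) : B0 C Γ) ≠ 0)
    (hker : ∀ f : B0 C Γ, ρ f = 0 → ρ' f = 0 → ((p : ℕ) : B0 C Γ) ∣ f)
    (hrel : u * u' = ((p : ℕ) : B0 C Γ) * Ψ) (h1 : ρ u = 0) (h2 : ρ' u' = 0) (hΨ : Ψ ∉ m)
    (hPB : ∀ b : B0 C Γ, 0 ≤ P.ord (ρ b)) (hPs : ∀ s : B0 C Γ, s ∉ m → P.ord (ρ s) = 0)
    (hPu' : P.ord (ρ u') = 1)
    {f : fixedField Γ} (hf : f ≠ 0)
    (hn4 : ∀ π : S', Prime π → ¬ Associated π (algebraMap (B0 C Γ) S' u) →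
      ¬ Associated π (algebraMap (B0 C Γ) S' u') →
      ∀ f1 f2 : S', f1 ≠ 0 → f2 ≠ 0 →
        f * algebraMap S' (fixedField Γ) f2 = algebraMap S' (fixedField Γ) f1 →
        (p : ℤ) ∣ (multiplicity π f1 : ℤ) - multiplicity π f2)
    {a b : ℤ} (ha : hs.Ofix.valuation (f / (p : fixedField Γ) ^ a) = 1)
    (hb : hs'.Ofix.valuation (f / (p : fixedField Γ) ^ b) = 1) :
    P.ord (TameNodeB.red hs.Ofix hs.rfix (f / (p : fixedField Γ) ^ a)) ≡ b - a [ZMOD p] := by
  have hB : TameNodeB.IsBranch (algebraMap (B0 C Γ) S' u) hs.Ofix :=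
    isBranch m (ρ' := ρ') hs hm hp hker hrel h1 h2 hΨ
  have hB' : TameNodeB.IsBranch (algebraMap (B0 C Γ) S' u') hs'.Ofix :=
    isBranch m (ρ' := ρ) hs' hm' hp (fun f a b => hker f b a)
      (by rw [mul_comm]; exact hrel) h2 h1 hΨ
  refine TameNodeB.tame_node_place hN hp0 hB hB' hs.rfix hs.rfix_eq_zero_iff P ?_ ?_ hf hn4 ha hb
  · intro x
    rw [hs.red_algebraMap_loc m hm]
    exact ord_redLoc_nonneg m P hs hm hPB hPs x
  · rw [hs.red_algebraMap_loc m hm, hs.redLoc_algebraMap m hm]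
    exact hPu'

end Tame

/-! ### The two sides of a two-valuation small ring -/

section TwoVal

variable {K : Type*} [Field K] {A : ValuationSubring K} {F : Type*} [Field F] [Algebra K F]
  {S : SmallRing F} {k κ₁ κ₂ : Type*} [Field k] [Field κ₁] [Field κ₂] [Algebra k κ₁]
  [Algebra k κ₂] {R : RedSetup2 A S k (κ₁ × κ₂)} (C : ChartCoord R)
  (Γ : Set (SemilinearAut K F))

/-- the first side of the chart ring, with values in the field `κ₁` -/
def side1 : B0 C Γ →+* κ₁ := (RingHom.fst κ₁ κ₂).comp (resB C Γ)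

/-- the second side of the chart ring, with values in the field `κ₂` -/
def side2 : B0 C Γ →+* κ₂ := (RingHom.snd κ₁ κ₂).comp (resB C Γ)

variable {C Γ}

theorem side1_apply (b : B0 C Γ) : side1 C Γ b = ((rho1 C Γ b : C.B₁) : κ₁) := rfl

theorem side2_apply (b : B0 C Γ) : side2 C Γ b = ((rho2 C Γ b : C.B₂) : κ₂) := rfl

theorem side1_eq_zero_iff (b : B0 C Γ) : side1 C Γ b = 0 ↔ rho1 C Γ b = 0 := by
  rw [side1_apply]
  exact ZeroMemClass.coe_eq_zero

theorem side2_eq_zero_iff (b : B0 C Γ) : side2 C Γ b = 0 ↔ rho2 C Γ b = 0 := by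
  rw [side2_apply]
  exact ZeroMemClass.coe_eq_zero

/-- the node ideals contain the kernels of both sides -/
theorem mem_nodeIdeal_of_side1 [IsAlgClosed k] (hL2 : C.IsL2)
    (s : Goursat.Nodes C.BbarT hL2.h2) (b : B0 C Γ) (hb : side1 C Γ b = 0) :
    b ∈ nodeIdeal (Γ := Γ) hL2 s := by
  rw [mem_nodeIdeal_iff, (side1_eq_zero_iff b).mp hb, map_zero]

theorem mem_nodeIdeal_of_side2 [IsAlgClosed k] (hL2 : C.IsL2)
    (s : Goursat.Nodes C.BbarT hL2.h2) (b : B0 C Γ) (hb : side2 C Γ b = 0) :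
    b ∈ nodeIdeal (Γ := Γ) hL2 s := by
  rw [mem_nodeIdeal_iff', (side2_eq_zero_iff b).mp hb, map_zero]

end TwoVal

section TwoValInst

variable {K : Type*} [Field K] {A : ValuationSubring K} {F : Type*} [Field F] [Algebra K F]
  {O₁ O₂ : ValuationSubring F} {k κ₁ κ₂ : Type*} [Field k] [Field κ₁] [Field κ₂] [Algebra k κ₁]
  [Algebra k κ₂] (R₁ : Gateway.C0.RedSetup A O₁ k κ₁) (R₂ : Gateway.C0.RedSetup A O₂ k κ₂)
  (hπ : R₁.π = R₂.π) (C : ChartCoord (redSetupTwoVal R₁ R₂ hπ)) (Γ : Set (SemilinearAut K F))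

/-- **the `∞`-side**: `(O₁, R₁.res)` is the side `side1` of the chart ring of the small ring
`twoVal O₁ O₂` (at the concrete level: `O₁ = valInfty`, `R₁ = redSetupInfty H hA`,
`redSetup2 H hA = redSetupTwoVal _ _ rfl`). -/
theorem isSide_fst : IsSide O₁ R₁.res (side1 C Γ) where
  mem b := (mem_twoVal_O.mp (coe_mem_O b)).1
  red _ _ := rfl
  ker := R₁.res_ker

/-- **the `0`-side**. -/
theorem isSide_snd : IsSide O₂ R₂.res (side2 C Γ) where
  mem b := (mem_twoVal_O.mp (coe_mem_O b)).2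
  red _ _ := rfl
  ker := R₂.res_ker

end TwoValInst

/-! ### Inside the context bundle -/

section Ctx

open Module
open Fermat.Agent.S19x.Geo.LatticeFixed (IsFixed IsFixedK)
open Fermat.Agent.S33x.H1.LatticeFixed2 Fermat.Agent.S33x.H1.FixedDecomp
open Fermat.Agent.S33x.W.InstW
open Fermat.Agent.S33x.Cech.CtxMq Fermat.Agent.S33x.W.InstWCtx

variable {K : Type*} [Field K] [IsAlgClosed K] [CharZero K] {A : ValuationSubring K}
  {F : Type*} [Field F] [Algebra K F] {S : SmallRing F}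
  {k : Type*} [Field k] [IsAlgClosed k] {E : Type*} [Field E] [Algebra k E]
  {R : RedSetup2 A S k (E × E)} {C : ChartCoord R} {p q : ℕ} {x : E} {Dt : Divisor K F}
  (h : Ctx R C p q x Dt) {Γ : Set (SemilinearAut K F)} (hG : CtxGal R C Γ)

include h hG in
/-- **Integration test in the context bundle** (`Cech.CtxMq.Ctx` + `CtxGal` + `FixData2` + `hF`):
X1 (`NodeRing.isNodeRing`) + X2 (`NodeFrac.isFractionRing_localization`) + X3/X4 (this file) +
N5 (`TameNodeB.tame_node_place`) give (TAME) for the node ring `R_s = (B_0)_{m_s}` of every node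
`s`, from the thickness data, the two sides, the dictionary at the place `P` and (n4). -/
theorem tame_nodeRing_ctx (hD : FixData2 R Γ)
    (hF : Submodule.span K {f : F | IsFixed Γ f} = ⊤)
    (hpW : ∀ c : A, IsFixedK Γ (c : K) → c ∈ maximalIdeal A → ((p : ℕ) : A) ∣ c)
    [Algebra.IsAlgebraic (Algebra.adjoin K {C.t}) F]
    (s : Goursat.Nodes C.BbarT h.hL2.h2)
    {u u' Ψ : B0 C Γ} (hrel : u * u' = ((p : ℕ) : B0 C Γ) * Ψ)
    (h1 : rho1 C Γ u = 0) (h2 : rho2 C Γ u' = 0) (hΨ : Ψ ∉ nodeIdeal (Γ := Γ) h.hL2 s)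
    (hu' : rho1 C Γ u' ≠ 0)
    {O O' : ValuationSubring F} {r : O →+* E} {r' : O' →+* E}
    (hs : IsSide O r (side1 C Γ)) (hs' : IsSide O' r' (side2 C Γ))
    (P : Place k E) (hPB : ∀ b : B0 C Γ, 0 ≤ P.ord (side1 C Γ b))
    (hPs : ∀ b : B0 C Γ, b ∉ nodeIdeal (Γ := Γ) h.hL2 s → P.ord (side1 C Γ b) = 0)
    (hPu' : P.ord (side1 C Γ u') = 1)
    {f : fixedField Γ} (hf : f ≠ 0)
    (hn4 :
      haveI : IsDomain (Localization.AtPrime (nodeIdeal (Γ := Γ) h.hL2 s)) :=
        IsLocalization.isDomain_of_atPrime _ (nodeIdeal (Γ := Γ) h.hL2 s)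
      ∀ π : Localization.AtPrime (nodeIdeal (Γ := Γ) h.hL2 s), Prime π →
      ¬ Associated π (algebraMap (B0 C Γ) _ u) → ¬ Associated π (algebraMap (B0 C Γ) _ u') →
      ∀ f1 f2 : Localization.AtPrime (nodeIdeal (Γ := Γ) h.hL2 s), f1 ≠ 0 → f2 ≠ 0 →
        f * algebraMap _ (fixedField Γ) f2 = algebraMap _ (fixedField Γ) f1 →
        (p : ℤ) ∣ (multiplicity π f1 : ℤ) - multiplicity π f2)
    {a b : ℤ} (ha : hs.Ofix.valuation (f / (p : fixedField Γ) ^ a) = 1)
    (hb : hs'.Ofix.valuation (f / (p : fixedField Γ) ^ b) = 1) :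
    P.ord (TameNodeB.red hs.Ofix hs.rfix (f / (p : fixedField Γ) ^ a)) ≡ b - a [ZMOD p] := by
  haveI : IsDomain (Localization.AtPrime (nodeIdeal (Γ := Γ) h.hL2 s)) :=
    IsLocalization.isDomain_of_atPrime _ (nodeIdeal (Γ := Γ) h.hL2 s)
  haveI : IsNoetherianRing (B0 C Γ) := FixedNoeth.isNoetherianRing_fixedBoo' h hG hD hF
  haveI : IsNoetherianRing (Localization.AtPrime (nodeIdeal (Γ := Γ) h.hL2 s)) :=
    IsLocalization.isNoetherianRing (nodeIdeal (Γ := Γ) h.hL2 s).primeCompl _ inferInstance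
  haveI : IsFractionRing (Localization.AtPrime (nodeIdeal (Γ := Γ) h.hL2 s)) (fixedField Γ) :=
    isFractionRing_localization (nodeIdeal (Γ := Γ) h.hL2 s) hD hF
      (fun b => Fermat.Agent.S33x.H1.StableLN.stable_LN C hG.smul_t 0 b)
  have hN := NodeRing.isNodeRing h hG hD hF hpW s hrel h1 h2 hΨ hu'
  haveI := NodeRing.finite_quotient h
  haveI := NodeRing.isReduced_R h
  have hpfix : IsFixedK Γ (((p : A) : A) : K) := NodeRing.isFixedK_natCast p
  have hp0 : ((p : ℕ) : A) ≠ 0 := NodeRing.natCast_ne_zero h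
  have hpB : ((p : ℕ) : B0 C Γ) ≠ 0 := by
    rw [← NodeRing.unifB_natCast hpfix]
    exact unifB_ne_zero hpfix hp0
  have hker : ∀ f : B0 C Γ, side1 C Γ f = 0 → side2 C Γ f = 0 → ((p : ℕ) : B0 C Γ) ∣ f := by
    intro f hf1 hf2
    rw [← NodeRing.unifB_natCast hpfix]
    exact unif_dvd_of_rho_eq_zero hD hpfix hp0 hpW ((side1_eq_zero_iff f).mp hf1)
      ((side2_eq_zero_iff f).mp hf2)
  have hres := tame_loc (S' := Localization.AtPrime (nodeIdeal (Γ := Γ) h.hL2 s))
    (nodeIdeal (Γ := Γ) h.hL2 s) P hs hs'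
    (mem_nodeIdeal_of_side1 h.hL2 s) (mem_nodeIdeal_of_side2 h.hL2 s) hN h.hp.ne_zero hpB hker hrel
    ((side1_eq_zero_iff u).mpr h1) ((side2_eq_zero_iff u').mpr h2) hΨ hPB hPs hPu' hf hn4 ha hb
  exact hres

end Ctx

end Fermat.Agent.S40x.Node.NodeValInstB
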