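import Fermat.Agent.S33x.W.InstWCtx
import Fermat.Agent.S33x.W.InstMqFixedB

/-!
# P-S44/S40, block R1, leaf (N1), independent SECOND (helper10): the inertia-fixed chart rings are
finitely generated algebras over `W = A^Γ`, hence Noetherian

Vocabulary of `S33x/W/InstW`: `R : RedSetup2 A S k κ`, `C : ChartCoord R`, `Γ` a set of semilinear
automorphisms of `F / K` fixing the chart coordinate `t = C.t`, `W = FixedDecomp.fixedSubring Γ`
(`= A^Γ`, for us `O_0 = inertiaInt P`), `hD : FixData2 R Γ`, and the three chart algebras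
`BooAlg C = ⋃_b Λ(0,b)`, `BzeroAlg C = ⋃_a Λ(a,0)`, `BxAlg C = ⋃_n Λ(n,n)` of `S33x/H1/InstC4`
(`Λ(a,b) = L(a C₀ + b C∞) ∩ O`).

No integral closure, no field theory: the graded Nakayama statement (S1)
`Λ(0,b+1) = Λ(0,b) + t Λ(0,b)` (`b ≥ b₁`, `H1/InstC1.exists_S1`, over `A`) DESCENDS to the fixed
lattices by Nakayama over the local ring `W` (`fixed_S1`), so every fixed element of `Λ(0,b₁+n)` is
`∑_{j ≤ n} t^j f_j` with `f_j` fixed in `Λ(0,b₁)` (`H1Fg.exists_sum_pow_mul`), and the fixed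
lattice `Λ(0,b₁)^Γ` is spanned over `W` by a finite fixed frame.  Hence

* `fg_fixedAlg_Boo`   : `fixedAlg Γ (BooAlg C)   = W[t, e_i]`          is a f.g. `W`-algebra;
* `fg_fixedAlg_Bzero` : `fixedAlg Γ (BzeroAlg C) = W[t⁻¹, t^{-b₁} e_i]` is a f.g. `W`-algebra;
* `fg_fixedAlg_Bx`    : `fixedAlg Γ (BxAlg C)    = W[t, t⁻¹, e_i]`      is a f.g. `W`-algebra;
* `isNoetherianRing_fixedAlg_*` : they are Noetherian rings as soon as `W` is;
* `isNoetherianRing_fixedSubring` : `W` is a discrete valuation ring (hence Noetherian) when `A`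
  has rank one (`hrk`), by `FixData2.unif`.
-/

set_option autoImplicit false
set_option linter.unusedSectionVars false
set_option linter.style.haveILetI false

noncomputable section

namespace Fermat.Agent.S40x.Node.NoethB

open AlgebraicCurve Module IsLocalRing
open Fermat.Agent.S34x Fermat.Agent.S34x.C0two Fermat.Agent.S34x.Lattice2
open Fermat.Agent.S19x.Geo.LatticeFixed
open Fermat.Agent.S33x.H1.LatticeFixed2 Fermat.Agent.S33x.H1.FixedDecomp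
open Fermat.Agent.S33x.H1.InstC1 Fermat.Agent.S33x.H1.InstC4
open Fermat.Agent.S33x.W.InstW

/-! ### Fixed elements: products, inverses, powers -/

section Fixed

variable {K : Type*} [Field K] {F : Type*} [Field F] [Algebra K F] {Γ : Set (SemilinearAut K F)}

theorem isFixed_one : IsFixed Γ (1 : F) := fun s _ => smul_one s

theorem isFixed_mul {f g : F} (hf : IsFixed Γ f) (hg : IsFixed Γ g) : IsFixed Γ (f * g) :=
  fun s hs => by rw [smul_mul', hf s hs, hg s hs]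

theorem isFixed_inv {f : F} (hf : IsFixed Γ f) : IsFixed Γ f⁻¹ :=
  fun s hs => by rw [smul_inv'', hf s hs]

theorem isFixed_pow {f : F} (hf : IsFixed Γ f) (n : ℕ) : IsFixed Γ (f ^ n) :=
  fun s hs => by rw [smul_pow', hf s hs]

end Fixed

section Abstract

variable {K : Type*} [Field K] {A : ValuationSubring K} {F : Type*} [Field F] [Algebra K F]
  {S : SmallRing F} {k κ : Type*} [Field k] [CommRing κ] [Algebra k κ]
  {R : RedSetup2 A S k κ} (C : ChartCoord R) {Γ : Set (SemilinearAut K F)}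

/-- the fixed lattice `Λ(a,b)^Γ`, a `W`-submodule of `F`. -/
abbrev LamW (Γ : Set (SemilinearAut K F)) (a b : ℕ) : Submodule (fixedSubring (A := A) Γ) F :=
  fixedLat Γ R (C.LN a b)

theorem mem_LamW {a b : ℕ} {x : F} : x ∈ LamW C Γ a b ↔ x ∈ Lam C a b ∧ IsFixed Γ x :=
  ⟨fun h => ⟨⟨h.1, h.2.1⟩, h.2.2⟩, fun h => ⟨h.1.1, h.1.2, h.2⟩⟩

/-- **(S1) descends to the fixed lattices** (Nakayama over the local ring `W = A^Γ`). -/
theorem fixed_S1 (hD : FixData2 R Γ) [∀ a b, FiniteDimensional K (C.LN a b)]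
    (hcart : ∀ a b, (R.lat (C.LN a b)).FG)
    (hfix : ∀ a b, C.LN a b ≤ Submodule.span K {f | f ∈ C.LN a b ∧ IsFixed Γ f})
    (ht : IsFixed Γ C.t) {b : ℕ}
    (hS1 : ∀ x ∈ Lam C 0 (b + 1), ∃ y ∈ Lam C 0 b, ∃ z ∈ Lam C 0 b, x = y + C.t * z) :
    ∀ x ∈ LamW C Γ 0 (b + 1), ∃ y ∈ LamW C Γ 0 b, ∃ z ∈ LamW C Γ 0 b, x = y + C.t * z := by
  classical
  obtain ⟨ϖ, hϖm, hϖ0, hϖfix, hϖdvd⟩ := hD.unif
  set ϖW : fixedSubring (A := A) Γ := ⟨ϖ, hϖfix⟩ with hϖW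
  have hϖWm : ϖW ∈ maximalIdeal (fixedSubring (A := A) Γ) :=
    (mem_maximalIdeal_fixedSubring_iff _).2 hϖm
  set N : Submodule (fixedSubring (A := A) Γ) F :=
    LamW C Γ 0 b ⊔ (LamW C Γ 0 b).map (LinearMap.mulLeft (fixedSubring (A := A) Γ) C.t) with hN
  have key : LamW C Γ 0 (b + 1) ≤ N := by
    refine Submodule.le_of_le_smul_of_le_jacobson_bot
      (fixedLat_fg hD _ (hcart 0 (b + 1)) (hfix 0 (b + 1))) (span_unif_le_jacobson hϖWm) ?_
    intro x hx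
    obtain ⟨y, hy, z, hz, hxyz⟩ := hS1 x ⟨hx.1, hx.2.1⟩
    obtain ⟨y', hy'O, hy'L, hy'fix, hy'res⟩ := exists_fixed_lift2 hD (C.LN 0 b) (hcart 0 b)
      (hfix 0 b) (y := R.res ⟨y, hy.2⟩) ⟨y, hy.2, hy.1, rfl⟩
    obtain ⟨z', hz'O, hz'L, hz'fix, hz'res⟩ := exists_fixed_lift2 hD (C.LN 0 b) (hcart 0 b)
      (hfix 0 b) (y := R.res ⟨z, hz.2⟩) ⟨z, hz.2, hz.1, rfl⟩
    have htz' : C.t * z' ∈ Lam C 0 (b + 1) := t_mul_mem_Lam C ⟨hz'L, hz'O⟩
    have hy'L1 : y' ∈ Lam C 0 (b + 1) := Lam_mono C le_rfl (Nat.le_succ b) ⟨hy'L, hy'O⟩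
    have hsO : y' + C.t * z' ∈ S.O := S.O.add_mem hy'O htz'.2
    have hdO : x - (y' + C.t * z') ∈ S.O := S.O.sub_mem hx.2.1 hsO
    have hdV : x - (y' + C.t * z') ∈ C.LN 0 (b + 1) :=
      (C.LN 0 (b + 1)).sub_mem hx.1 ((C.LN 0 (b + 1)).add_mem hy'L1.1 htz'.1)
    have hdfix : IsFixed Γ (x - (y' + C.t * z')) :=
      hx.2.2.sub (hy'fix.add (isFixed_mul ht hz'fix))
    have hdres : R.res ⟨x - (y' + C.t * z'), hdO⟩ = 0 := by
      have h1 : (⟨x - (y' + C.t * z'), hdO⟩ : S.O) =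
          ⟨x, hx.2.1⟩ - (⟨y', hy'O⟩ + ⟨C.t, C.t_mem⟩ * ⟨z', hz'O⟩) := rfl
      have h2 : (⟨x, hx.2.1⟩ : S.O) = ⟨y, hy.2⟩ + ⟨C.t, C.t_mem⟩ * ⟨z, hz.2⟩ := Subtype.ext hxyz
      rw [h1, h2, map_sub, map_add, map_add, map_mul, map_mul, hy'res, hz'res, sub_self]
    obtain ⟨g, hgV, hgO, hgfix, hg⟩ :=
      hD.exists_eq_unif_smul_mem hϖfix hϖ0 hϖdvd (C.LN 0 (b + 1)) hdV hdO hdfix hdres
    have hx' : x = (y' + C.t * z') + ϖW • g := by
      rw [fixedSubring_smul_eq]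
      show x = (y' + C.t * z') + (ϖ : K) • g
      rw [← hg]
      ring
    rw [hx']
    refine Submodule.add_mem _ (Submodule.mem_sup_left ?_) (Submodule.mem_sup_right ?_)
    · refine Submodule.add_mem _ (Submodule.mem_sup_left ⟨hy'L, hy'O, hy'fix⟩)
        (Submodule.mem_sup_right ?_)
      exact Submodule.mem_map.2 ⟨z', ⟨hz'L, hz'O, hz'fix⟩, rfl⟩
    · exact Submodule.smul_mem_smul (Ideal.subset_span rfl) ⟨hgV, hgO, hgfix⟩
  intro x hx
  obtain ⟨y, hy, z', hz', hyz⟩ := Submodule.mem_sup.1 (key hx)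
  obtain ⟨z, hz, rfl⟩ := Submodule.mem_map.1 hz'
  exact ⟨y, hy, z, hz, hyz.symm⟩

/-- every fixed element of `Λ(0,b₁+n)` is `∑_{j ≤ n} t^j f_j` with `f_j` fixed in `Λ(0,b₁)`. -/
theorem exists_sum_pow_mul_fixed (hD : FixData2 R Γ) [∀ a b, FiniteDimensional K (C.LN a b)]
    (hcart : ∀ a b, (R.lat (C.LN a b)).FG)
    (hfix : ∀ a b, C.LN a b ≤ Submodule.span K {f | f ∈ C.LN a b ∧ IsFixed Γ f})
    (ht : IsFixed Γ C.t) {b₁ : ℕ}
    (hS1 : ∀ b, b₁ ≤ b → ∀ x ∈ Lam C 0 (b + 1),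
      ∃ y ∈ Lam C 0 b, ∃ z ∈ Lam C 0 b, x = y + C.t * z) (n : ℕ) :
    ∀ x ∈ LamW C Γ 0 (b₁ + n), ∃ f : ℕ → F, (∀ j, f j ∈ LamW C Γ 0 b₁) ∧
      x = ∑ j ∈ Finset.range (n + 1), C.t ^ j * f j :=
  H1Fg.exists_sum_pow_mul (M := LamW C Γ) (t := C.t) (b₁ := b₁)
    (fun b hb => fixed_S1 C hD hcart hfix ht (hS1 b hb)) n

theorem LamW_mono {a b a' b' : ℕ} (ha : a ≤ a') (hb : b ≤ b') : LamW C Γ a b ≤ LamW C Γ a' b' :=
  fixedLat_mono (C.LN_mono ha hb)

theorem t_mem_LamW (ht : IsFixed Γ C.t) : C.t ∈ LamW C Γ 0 1 :=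
  ⟨C.t_mem_LN, C.t_mem, ht⟩

theorem tinv_mem_LamW (ht : IsFixed Γ C.t) : C.t⁻¹ ∈ LamW C Γ 1 0 :=
  ⟨C.tinv_mem_LN, C.tinv_mem, isFixed_inv ht⟩

/-- `Λ(a,c)^Γ = t⁻ᵃ Λ(0,a+c)^Γ`. -/
theorem LamW_twist (ht : IsFixed Γ C.t) (a c : ℕ) (x : F) :
    x ∈ LamW C Γ a c ↔ C.t ^ a * x ∈ LamW C Γ 0 (a + c) := by
  rw [mem_LamW, mem_LamW, Lam_twist]
  refine and_congr Iff.rfl ⟨fun h => isFixed_mul (isFixed_pow ht a) h, fun h => ?_⟩
  have h1 : x = C.t⁻¹ ^ a * (C.t ^ a * x) := by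
    rw [← mul_assoc, ← mul_pow, inv_mul_cancel₀ C.t_ne, one_pow, one_mul]
  rw [h1]
  exact isFixed_mul (isFixed_pow (isFixed_inv ht) a) h

theorem mem_fixedAlg_Boo {x : F} : x ∈ fixedAlg Γ (BooAlg C) ↔ ∃ b, x ∈ LamW C Γ 0 b := by
  rw [mem_fixedAlg, mem_BooAlg]
  exact ⟨fun ⟨⟨b, hb⟩, hf⟩ => ⟨b, (mem_LamW C).2 ⟨hb, hf⟩⟩,
    fun ⟨b, hb⟩ => ⟨⟨b, ((mem_LamW C).1 hb).1⟩, ((mem_LamW C).1 hb).2⟩⟩

theorem mem_fixedAlg_Bzero {x : F} : x ∈ fixedAlg Γ (BzeroAlg C) ↔ ∃ a, x ∈ LamW C Γ a 0 := by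
  rw [mem_fixedAlg, mem_BzeroAlg]
  exact ⟨fun ⟨⟨b, hb⟩, hf⟩ => ⟨b, (mem_LamW C).2 ⟨hb, hf⟩⟩,
    fun ⟨b, hb⟩ => ⟨⟨b, ((mem_LamW C).1 hb).1⟩, ((mem_LamW C).1 hb).2⟩⟩

theorem mem_fixedAlg_Bx {x : F} : x ∈ fixedAlg Γ (BxAlg C) ↔ ∃ n, x ∈ LamW C Γ n n := by
  rw [mem_fixedAlg, mem_BxAlg]
  exact ⟨fun ⟨⟨b, hb⟩, hf⟩ => ⟨b, (mem_LamW C).2 ⟨hb, hf⟩⟩,
    fun ⟨b, hb⟩ => ⟨⟨b, ((mem_LamW C).1 hb).1⟩, ((mem_LamW C).1 hb).2⟩⟩

/-! ### The three generation statements -/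

section Gen

variable (hD : FixData2 R Γ) [∀ a b, FiniteDimensional K (C.LN a b)]
  (hcart : ∀ a b, (R.lat (C.LN a b)).FG)
  (hfix : ∀ a b, C.LN a b ≤ Submodule.span K {f | f ∈ C.LN a b ∧ IsFixed Γ f})
  (ht : IsFixed Γ C.t) {b₁ : ℕ}
  (hS1 : ∀ b, b₁ ≤ b → ∀ x ∈ Lam C 0 (b + 1),
    ∃ y ∈ Lam C 0 b, ∃ z ∈ Lam C 0 b, x = y + C.t * z)
  {ι : Type*} [Fintype ι] {e : ι → F} (he : FixedFrame2 R Γ (C.LN 0 b₁) e)

include hD hcart hfix ht hS1 he

/-- **`B∞^Γ = W[t, e_i]`**: the fixed part of the chart ring `t ≠ ∞` is generated over `W` by `t`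
and a fixed frame of `Λ(0,b₁)`. -/
theorem fixedAlg_Boo_eq :
    fixedAlg Γ (BooAlg C) =
      Algebra.adjoin (fixedSubring (A := A) Γ) (insert C.t (Set.range e)) := by
  apply le_antisymm
  · intro x hx
    obtain ⟨b, hb⟩ := (mem_fixedAlg_Boo C).1 hx
    have hb' : x ∈ LamW C Γ 0 (b₁ + b) := LamW_mono C le_rfl (Nat.le_add_left _ _) hb
    obtain ⟨f, hf, rfl⟩ := exists_sum_pow_mul_fixed C hD hcart hfix ht hS1 b x hb'
    refine Subalgebra.sum_mem _ fun j _ => Subalgebra.mul_mem _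
      (Subalgebra.pow_mem _ (Algebra.subset_adjoin (Set.mem_insert _ _)) j) ?_
    have h1 : f j ∈ Submodule.span (fixedSubring (A := A) Γ) (Set.range e) := by
      rw [span_fixedSubring_eq he]
      exact hf j
    exact Algebra.span_le_adjoin _ _ (Submodule.span_mono (Set.subset_insert _ _) h1)
  · refine Algebra.adjoin_le ?_
    rintro x (rfl | ⟨i, rfl⟩)
    · exact (mem_fixedAlg_Boo C).2 ⟨1, t_mem_LamW C ht⟩
    · exact (mem_fixedAlg_Boo C).2 ⟨b₁, he.mem_V i, he.mem_O i, he.fixed i⟩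

/-- **`Bx^Γ = W[t, t⁻¹, e_i]`**. -/
theorem fixedAlg_Bx_eq :
    fixedAlg Γ (BxAlg C) =
      Algebra.adjoin (fixedSubring (A := A) Γ) (insert C.t⁻¹ (insert C.t (Set.range e))) := by
  apply le_antisymm
  · intro x hx
    obtain ⟨n, hn⟩ := (mem_fixedAlg_Bx C).1 hx
    have h1 : C.t ^ n * x ∈ fixedAlg Γ (BooAlg C) :=
      (mem_fixedAlg_Boo C).2 ⟨n + n, (LamW_twist C ht n n x).1 hn⟩
    rw [fixedAlg_Boo_eq C hD hcart hfix ht hS1 he] at h1
    have h2 : x = C.t⁻¹ ^ n * (C.t ^ n * x) := by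
      rw [← mul_assoc, ← mul_pow, inv_mul_cancel₀ C.t_ne, one_pow, one_mul]
    rw [h2]
    exact Subalgebra.mul_mem _
      (Subalgebra.pow_mem _ (Algebra.subset_adjoin (Set.mem_insert _ _)) n)
      (Algebra.adjoin_mono (Set.subset_insert _ _) h1)
  · refine Algebra.adjoin_le ?_
    rintro x (rfl | rfl | ⟨i, rfl⟩)
    · exact (mem_fixedAlg_Bx C).2 ⟨1, LamW_mono C le_rfl (Nat.zero_le _) (tinv_mem_LamW C ht)⟩
    · exact (mem_fixedAlg_Bx C).2 ⟨1, LamW_mono C (Nat.zero_le _) le_rfl (t_mem_LamW C ht)⟩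
    · exact (mem_fixedAlg_Bx C).2
        ⟨b₁, LamW_mono C (Nat.zero_le _) le_rfl ⟨he.mem_V i, he.mem_O i, he.fixed i⟩⟩

/-- **`B₀^Γ = W[t⁻¹, t^{-b₁} e_i]`**: the fixed part of the chart ring `t ≠ 0`. -/
theorem fixedAlg_Bzero_eq :
    fixedAlg Γ (BzeroAlg C) =
      Algebra.adjoin (fixedSubring (A := A) Γ)
        (insert C.t⁻¹ (Set.range fun i => C.t⁻¹ ^ b₁ * e i)) := by
  apply le_antisymm
  · intro x hx
    obtain ⟨a, ha⟩ := (mem_fixedAlg_Bzero C).1 hx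
    have ha' : x ∈ LamW C Γ (b₁ + a) 0 := LamW_mono C (Nat.le_add_left _ _) le_rfl ha
    have h1 := (LamW_twist C ht (b₁ + a) 0 x).1 ha'
    rw [add_zero] at h1
    obtain ⟨f, hf, hxf⟩ := exists_sum_pow_mul_fixed C hD hcart hfix ht hS1 a _ h1
    have h2 : x = ∑ j ∈ Finset.range (a + 1), C.t⁻¹ ^ (a - j) * (C.t⁻¹ ^ b₁ * f j) := by
      have h3 : x = C.t⁻¹ ^ (b₁ + a) * (C.t ^ (b₁ + a) * x) := by
        rw [← mul_assoc, ← mul_pow, inv_mul_cancel₀ C.t_ne, one_pow, one_mul]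
      rw [h3, hxf, Finset.mul_sum]
      refine Finset.sum_congr rfl fun j hj => ?_
      have hj' : j ≤ a := Nat.lt_succ_iff.1 (Finset.mem_range.1 hj)
      have h4 : C.t⁻¹ ^ (b₁ + a) = C.t⁻¹ ^ (a - j) * C.t⁻¹ ^ b₁ * C.t⁻¹ ^ j := by
        rw [← pow_add, ← pow_add]
        congr 1
        omega
      have h5 : C.t⁻¹ ^ j * C.t ^ j = 1 := by
        rw [← mul_pow, inv_mul_cancel₀ C.t_ne, one_pow]
      calc C.t⁻¹ ^ (b₁ + a) * (C.t ^ j * f j)
          = C.t⁻¹ ^ (a - j) * C.t⁻¹ ^ b₁ * (C.t⁻¹ ^ j * C.t ^ j) * f j := by rw [h4]; ring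
        _ = C.t⁻¹ ^ (a - j) * (C.t⁻¹ ^ b₁ * f j) := by rw [h5]; ring
    rw [h2]
    refine Subalgebra.sum_mem _ fun j _ => Subalgebra.mul_mem _
      (Subalgebra.pow_mem _ (Algebra.subset_adjoin (Set.mem_insert _ _)) _) ?_
    obtain ⟨c, hc⟩ := exists_fixedSubring_coeff he (hf j)
    rw [hc, Finset.mul_sum]
    refine Subalgebra.sum_mem _ fun i _ => ?_
    rw [mul_smul_comm]
    exact Subalgebra.smul_mem _
      (Algebra.subset_adjoin (Set.mem_insert_of_mem _ (Set.mem_range_self i))) _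
  · refine Algebra.adjoin_le ?_
    rintro x (rfl | ⟨i, rfl⟩)
    · exact (mem_fixedAlg_Bzero C).2 ⟨1, tinv_mem_LamW C ht⟩
    · refine (mem_fixedAlg_Bzero C).2 ⟨b₁, (LamW_twist C ht b₁ 0 _).2 ?_⟩
      rw [← mul_assoc, ← mul_pow, mul_inv_cancel₀ C.t_ne, one_pow, one_mul, add_zero]
      exact ⟨he.mem_V i, he.mem_O i, he.fixed i⟩

end Gen

/-! ### Finite generation and the Noetherian property -/

section FG

variable (hD : FixData2 R Γ) (hF : Submodule.span K {f : F | IsFixed Γ f} = ⊤)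
  [∀ a b, FiniteDimensional K (C.LN a b)]
  (hcart : ∀ a b, (R.lat (C.LN a b)).FG)
  (hΓt : ∀ g ∈ Γ, g • C.t = C.t) {b₁ : ℕ}
  (hS1 : ∀ b, b₁ ≤ b → ∀ x ∈ Lam C 0 (b + 1),
    ∃ y ∈ Lam C 0 b, ∃ z ∈ Lam C 0 b, x = y + C.t * z)

include hF hΓt in
/-- the spaces `L(a C₀ + b C∞)` are spanned by their fixed elements. -/
theorem LN_le_span_fixed (a b : ℕ) :
    C.LN a b ≤ Submodule.span K {f | f ∈ C.LN a b ∧ IsFixed Γ f} :=
  le_of_eq (span_fixed_of_stable hF (C.LN a b)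
    (Fermat.Agent.S33x.H1.StableLN.stable_LN C hΓt a b)).symm

include hD hF hcart hΓt hS1

/-- **`B∞^Γ` is a finitely generated `W`-algebra.** -/
theorem fg_fixedAlg_Boo : (fixedAlg Γ (BooAlg C)).FG := by
  obtain ⟨e, he⟩ := exists_fixedFrame2 hD (C.LN 0 b₁) (hcart 0 b₁)
    (LN_le_span_fixed C hF hΓt 0 b₁)
  rw [fixedAlg_Boo_eq C hD hcart (LN_le_span_fixed C hF hΓt) hΓt hS1 he]
  exact Subalgebra.fg_def.2 ⟨_, (Set.finite_range e).insert _, rfl⟩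

/-- **`B₀^Γ` is a finitely generated `W`-algebra.** -/
theorem fg_fixedAlg_Bzero : (fixedAlg Γ (BzeroAlg C)).FG := by
  obtain ⟨e, he⟩ := exists_fixedFrame2 hD (C.LN 0 b₁) (hcart 0 b₁)
    (LN_le_span_fixed C hF hΓt 0 b₁)
  rw [fixedAlg_Bzero_eq C hD hcart (LN_le_span_fixed C hF hΓt) hΓt hS1 he]
  exact Subalgebra.fg_def.2 ⟨_, (Set.finite_range _).insert _, rfl⟩

/-- **`Bx^Γ` is a finitely generated `W`-algebra.** -/
theorem fg_fixedAlg_Bx : (fixedAlg Γ (BxAlg C)).FG := by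
  obtain ⟨e, he⟩ := exists_fixedFrame2 hD (C.LN 0 b₁) (hcart 0 b₁)
    (LN_le_span_fixed C hF hΓt 0 b₁)
  rw [fixedAlg_Bx_eq C hD hcart (LN_le_span_fixed C hF hΓt) hΓt hS1 he]
  exact Subalgebra.fg_def.2 ⟨_, ((Set.finite_range e).insert _).insert _, rfl⟩

variable [IsNoetherianRing (fixedSubring (A := A) Γ)]

/-- **(N1)** `B∞^Γ` is a Noetherian ring. -/
theorem isNoetherianRing_fixedAlg_Boo : IsNoetherianRing (fixedAlg Γ (BooAlg C)) :=
  isNoetherianRing_of_fg (fg_fixedAlg_Boo C hD hF hcart hΓt hS1)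

/-- **(N1)** `B₀^Γ` is a Noetherian ring. -/
theorem isNoetherianRing_fixedAlg_Bzero : IsNoetherianRing (fixedAlg Γ (BzeroAlg C)) :=
  isNoetherianRing_of_fg (fg_fixedAlg_Bzero C hD hF hcart hΓt hS1)

/-- **(N1)** `Bx^Γ` is a Noetherian ring. -/
theorem isNoetherianRing_fixedAlg_Bx : IsNoetherianRing (fixedAlg Γ (BxAlg C)) :=
  isNoetherianRing_of_fg (fg_fixedAlg_Bx C hD hF hcart hΓt hS1)

end FG

end Abstract

/-! ### `W = A^Γ` is a discrete valuation ring when `A` has rank one -/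

section DVR

variable {K : Type*} [Field K] {A : ValuationSubring K} {F : Type*} [Field F] [Algebra K F]
  {S : SmallRing F} {k κ : Type*} [Field k] [CommRing κ] [Algebra k κ]
  {R : RedSetup2 A S k κ} {Γ : Set (SemilinearAut K F)}

/-- **`W = A^Γ` is a discrete valuation ring** as soon as `A` has rank one: by `FixData2.unif` its
maximal ideal is principal, and rank one makes every nonzero element a unit times a power of the
uniformiser. -/
theorem isDiscreteValuationRing_fixedSubring (hD : FixData2 R Γ)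
    (hrk : ∀ x ∈ maximalIdeal A, ∀ c : A, c ≠ 0 → ∃ j : ℕ, c ∣ x ^ j) :
    IsDiscreteValuationRing (fixedSubring (A := A) Γ) := by
  obtain ⟨ϖ, hϖ0, hϖm, hϖdvd⟩ := exists_unif_fixedSubring hD
  have hϖnu : ¬ IsUnit ϖ := by
    rwa [mem_maximalIdeal, mem_nonunits_iff] at hϖm
  have hdvd : ∀ c : fixedSubring (A := A) Γ, ¬ IsUnit c → ϖ ∣ c := fun c hc =>
    hϖdvd c (by rwa [mem_maximalIdeal, mem_nonunits_iff])
  have key : ∀ (j : ℕ) (x : fixedSubring (A := A) Γ), x ≠ 0 → x ∣ ϖ ^ j →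
      ∃ n : ℕ, Associated (ϖ ^ n) x := by
    intro j
    induction j with
    | zero =>
      intro x _ hx
      rw [pow_zero] at hx
      exact ⟨0, by rw [pow_zero]; exact (associated_one_iff_isUnit.2 (isUnit_of_dvd_one hx)).symm⟩
    | succ j ih =>
      intro x hx0 hx
      by_cases hu : IsUnit x
      · exact ⟨0, by rw [pow_zero]; exact (associated_one_iff_isUnit.2 hu).symm⟩
      · obtain ⟨x', rfl⟩ := hdvd x hu
        have hx'0 : x' ≠ 0 := right_ne_zero_of_mul hx0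
        have h3 : x' ∣ ϖ ^ j := by
          rw [pow_succ'] at hx
          exact (mul_dvd_mul_iff_left hϖ0).1 hx
        obtain ⟨n, hn⟩ := ih x' hx'0 h3
        exact ⟨n + 1, by rw [pow_succ']; exact hn.mul_left ϖ⟩
  apply IsDiscreteValuationRing.ofHasUnitMulPowIrreducibleFactorization
  refine ⟨ϖ, ?_, ?_⟩
  · rw [irreducible_iff]
    refine ⟨hϖnu, fun a b hab => ?_⟩
    by_contra hcon
    obtain ⟨ha, hb⟩ := not_or.mp hcon
    obtain ⟨a', rfl⟩ := hdvd a ha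
    obtain ⟨b', rfl⟩ := hdvd b hb
    have h1 : ϖ * 1 = ϖ * (ϖ * (a' * b')) := by
      rw [mul_one]
      conv_lhs => rw [hab]
      ring
    have h2 := mul_left_cancel₀ hϖ0 h1
    exact hϖnu (isUnit_iff_exists_inv.mpr ⟨_, h2.symm⟩)
  · intro x hx
    have hxA : ((x : fixedSubring (A := A) Γ) : A) ≠ 0 := fun h => hx (Subtype.ext h)
    obtain ⟨j, hj⟩ := hrk (ϖ : A) ((mem_maximalIdeal_fixedSubring_iff ϖ).1 hϖm) (x : A) hxA
    exact key j x hx (dvd_fixedSubring hx (by simpa using hj))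

/-- `W = A^Γ` is Noetherian when `A` has rank one. -/
theorem isNoetherianRing_fixedSubring (hD : FixData2 R Γ)
    (hrk : ∀ x ∈ maximalIdeal A, ∀ c : A, c ≠ 0 → ∃ j : ℕ, c ∣ x ^ j) :
    IsNoetherianRing (fixedSubring (A := A) Γ) := by
  haveI := isDiscreteValuationRing_fixedSubring hD hrk
  infer_instance

end DVR

/-! ### Inside the context bundle -/

section Ctx

open Fermat.Agent.S33x.Cech.CtxMq

variable {K : Type*} [Field K] [IsAlgClosed K] [CharZero K] {A : ValuationSubring K}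
  {F : Type*} [Field F] [Algebra K F] {S : SmallRing F}
  {k : Type*} [Field k] [IsAlgClosed k] {E : Type*} [Field E] [Algebra k E]
  {R : RedSetup2 A S k (E × E)} {C : ChartCoord R} {p q : ℕ} {x : E} {Dt : Divisor K F}
  (h : Ctx R C p q x Dt) {Γ : Set (SemilinearAut K F)} (hG : CtxGal R C Γ)

include h in
/-- graded Nakayama (S1) for the untwisted system, inside the context bundle. -/
theorem exists_S1_of_ctx : ∃ b₁, ∀ b, b₁ ≤ b → ∀ y ∈ Lam C 0 (b + 1),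
    ∃ y₁ ∈ Lam C 0 b, ∃ y₂ ∈ Lam C 0 b, y = y₁ + C.t * y₂ := by
  haveI := h.fin_t
  haveI hPfin : ∀ b, FiniteDimensional k (C.Pk 0 b) := fun b => h.finite_Pk 0 b
  obtain ⟨b₀, hgen⟩ := h.exists_hgen
  exact exists_S1 C h.ht h.hDt h.hcart hgen

include h hG in
/-- **(N1), finite generation**: the three fixed chart algebras are finitely generated algebras
over `W = A^Γ`. -/
theorem fg_fixedAlg_of_ctx (hD : FixData2 R Γ)
    (hF : Submodule.span K {f : F | IsFixed Γ f} = ⊤) :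
    (fixedAlg Γ (BooAlg C)).FG ∧ (fixedAlg Γ (BzeroAlg C)).FG ∧ (fixedAlg Γ (BxAlg C)).FG := by
  haveI : ∀ a b, FiniteDimensional K (C.LN a b) := fun a b =>
    Fermat.Agent.S33x.W.InstWCtx.finite_LN h a b
  have hcart : ∀ a b, (R.lat (C.LN a b)).FG := fun a b =>
    Fermat.Agent.S33x.W.InstWCtx.fg_lat_LN' h a b
  obtain ⟨b₁, hS1⟩ := exists_S1_of_ctx h
  exact ⟨fg_fixedAlg_Boo C hD hF hcart hG.smul_t hS1,
    fg_fixedAlg_Bzero C hD hF hcart hG.smul_t hS1, fg_fixedAlg_Bx C hD hF hcart hG.smul_t hS1⟩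

include h hG in
/-- **(N1)**: the three fixed chart algebras are Noetherian rings, when `A` has rank one. -/
theorem isNoetherianRing_fixedAlg_of_ctx (hD : FixData2 R Γ)
    (hF : Submodule.span K {f : F | IsFixed Γ f} = ⊤)
    (hrk : ∀ x ∈ maximalIdeal A, ∀ c : A, c ≠ 0 → ∃ j : ℕ, c ∣ x ^ j) :
    IsNoetherianRing (fixedAlg Γ (BooAlg C)) ∧ IsNoetherianRing (fixedAlg Γ (BzeroAlg C)) ∧
      IsNoetherianRing (fixedAlg Γ (BxAlg C)) := by
  haveI := isNoetherianRing_fixedSubring hD hrk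
  obtain ⟨h1, h2, h3⟩ := fg_fixedAlg_of_ctx h hG hD hF
  exact ⟨isNoetherianRing_of_fg h1, isNoetherianRing_of_fg h2, isNoetherianRing_of_fg h3⟩

end Ctx

/-! ### The concrete level `M q` over `Qbar` -/

section Concrete

open ModularCurve IntermediateField
open Fermat.Agent.Gateway.Hecke Fermat.Agent.Gateway.ESC
open Fermat.Agent.Gateway.Red Fermat.Agent.Gateway.GoodRed
open Fermat.Agent.Gateway.GoodRed.ConjFamily
open Fermat.Agent.S34x.TwoVal
open Fermat.Agent.S34x.Inst.L2 Fermat.Agent.S34x.Inst.IsL2Inst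
open Fermat.Agent.S34x.Inst.RedSetupInst Fermat.Agent.S34x.Inst.ElementYRed
open Fermat.Agent.S34x.Inst.ElementYInt Fermat.Agent.S34x.Inst.Charts
open Fermat.Agent.S34x.Inst Fermat.Agent.S34x.Inst.TheoremBMq
open Fermat.Agent.S33x.H1.FixData2Final
open Fermat.Agent.S33x.Cech.CtxMq
open Fermat.Agent.S33x.W.InstMqFixedB (GamMq)

attribute [-instance] IsScalarTower.of_algHom

local notation "Qbar" => AlgebraicClosure ℚ

variable {P : ValuationSubring Qbar} {k : Type} [Field k] {π : P →+* k} [IsAlgClosed k]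
variable {M q : ℕ} [NeZero M] [NeZero q] [Fact q.Prime] [CharP k q]
variable {hdeg : finrankAlong Qbar (heckeAlphaBar Qbar M q) = q + 1} {hq : q.Prime}
  {hqM : ¬ q ∣ M}
variable {hrk : ∀ x ∈ maximalIdeal P, ∀ c : P, c ≠ 0 → ∃ j : ℕ, c ∣ x ^ j}
  {hπ : Function.Surjective π}
variable (H : ResidueFacts P π M q hdeg hq hqM hrk hπ) (hA : P.LiesOverPrime q)
  (x : LaurentSeries ℤ) (hx : coeffMap (Int.castRingHom Qbar) x ∈ FBar Qbar M)
  (Hx : GoodLevelFactsT P π M q hπ hqM (tInt M x hx))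

include H hA in
/-- **`W₀ = P^I` is a discrete valuation ring** (the ring of integers of the inertia field). -/
theorem isDiscreteValuationRing_fixedSubring_Mq :
    IsDiscreteValuationRing (fixedSubring (A := P) (GamMq P M q)) :=
  isDiscreteValuationRing_fixedSubring (fixData2_setOf H hA) hrk

include Hx hA in
/-- **(N1) at the concrete level `M q`, `L = Qbar`**: the inertia-fixed chart algebras are finitely
generated algebras over `W₀ = P^I`. -/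
theorem fg_fixedAlg_Mq [PerfectRing k q] (C : ChartCoord (redSetup2 H hA))
    (hCt : C.t = tA M q x hx) (hxk : tbar k x ≠ 0) (hY : YFacts M q x hx) :
    (fixedAlg (GamMq P M q) (BooAlg C)).FG ∧ (fixedAlg (GamMq P M q) (BzeroAlg C)).FG ∧
      (fixedAlg (GamMq P M q) (BxAlg C)).FG := by
  haveI : Algebra.IsAlgebraic ℚ Qbar := AlgebraicClosure.isAlgebraic ℚ
  haveI : CharZero Qbar := algebraRat.charZero Qbar
  have ht : Transcendental Qbar C.t := by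
    rw [hCt]
    exact Charts.transcendental_tα Qbar M q Hx.trans
  haveI hfin : FiniteDimensional Qbar⟮C.t⟯ (FL Qbar (M * q)) := by
    rw [hCt]
    exact finiteDimensional_tA x hx Hx
  have hctx := ctx_of_chart H hA x hx Hx C hCt hxk hY (Dt := Charts.divT ht) (Charts.divT_apply ht)
  have hgal := ctxGal_inertia H hA x hx Hx C hCt
  exact fg_fixedAlg_of_ctx hctx hgal (fixData2_setOf H hA) (span_fixed_setOf P (M * q))

include Hx hA in
/-- **(N1) at the concrete level `M q`, `L = Qbar`**: the inertia-fixed chart algebras are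
Noetherian rings. -/
theorem isNoetherianRing_fixedAlg_Mq [PerfectRing k q] (C : ChartCoord (redSetup2 H hA))
    (hCt : C.t = tA M q x hx) (hxk : tbar k x ≠ 0) (hY : YFacts M q x hx) :
    IsNoetherianRing (fixedAlg (GamMq P M q) (BooAlg C)) ∧
      IsNoetherianRing (fixedAlg (GamMq P M q) (BzeroAlg C)) ∧
      IsNoetherianRing (fixedAlg (GamMq P M q) (BxAlg C)) := by
  haveI := isDiscreteValuationRing_fixedSubring_Mq H hA
  haveI : IsNoetherianRing (fixedSubring (A := P) (GamMq P M q)) := inferInstance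
  obtain ⟨h1, h2, h3⟩ := fg_fixedAlg_Mq H hA x hx Hx C hCt hxk hY
  exact ⟨isNoetherianRing_of_fg h1, isNoetherianRing_of_fg h2, isNoetherianRing_of_fg h3⟩

end Concrete

end Fermat.Agent.S40x.Node.NoethB

end
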