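import Fermat.Agent.S40x.Node.NodeRing
import Fermat.Agent.S40x.Node.NodeFrac
import Fermat.Agent.S40x.Node.NodeOrdLift
import Fermat.Agent.S40x.Node.TameNodeB

/-!
# P-S44, block R1 / N-alpha: SEAM TEST (as real theorems) of the node chain

`NodeRing.isNodeRing` (the node ring `R_s = (B_0)_{m_s}` is a node ring)
→ `NodeFrac` (`Algebra R_s F_0`, `IsFractionRing R_s F_0`, `F_0 = fixedField Γ`)
→ `NodeOrdSeam.node_ord` / `NodeOrdLift.node_lift_package` (the order function of the branch is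
the `u`-adic order; plug into `PrimeOrd.primeOrd_lift_package`),

inside the semi-abstract context bundle `(h : Ctx ..) (hG : CtxGal ..) (hD : FixData2 ..) (hF)` +
thickness data, with the VALUATION HALF as hypotheses in the announced shapes:
`TameNodeB.IsBranch u O` (helper86) and `(O, v)` an order function `Transitive.IsOrd O v` on
`F_0` with `v p = 1` (the shape of `Node/OrdF0`, helper6).

The file checks that all the instance paths agree (`NodeFrac.algebraLocFixed` is THE algebra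
structure of `R_s` over `fixedField Γ`; the `Prop`-valued instances `IsDomain`, `IsNoetherianRing`,
`IsFractionRing` are supplied by the three discharge lemmas below).
-/

set_option autoImplicit false
set_option linter.unusedSectionVars false
set_option linter.style.haveILetI false

noncomputable section

namespace Fermat.Agent.S40x.Node.SeamNodeChain

open AlgebraicCurve IsLocalRing Module IntermediateField
open scoped IntermediateField.algebraAdjoinAdjoin
open Fermat.Agent.S34x Fermat.Agent.S34x.C0two Fermat.Agent.S34x.Lattice2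
open Fermat.Agent.S19x.Geo.LatticeFixed (IsFixed IsFixedK)
open Fermat.Agent.S33x.H1.LatticeFixed2 Fermat.Agent.S33x.H1.FixedDecomp
open Fermat.Agent.S33x.W.InstW
open Fermat.Agent.S40x.Node.NodeInst Fermat.Agent.S40x.Node.NodeFrac
open Fermat.Agent.S33x.Cech.CtxMq Fermat.Agent.S33x.W.InstWCtx
open Fermat.Agent.S40x.R2.Transitive (IsOrd)
open Fermat.Agent.S40x.R2.NodeCover (primeOrd primeValuationSubring)

variable {K : Type*} [Field K] [IsAlgClosed K] [CharZero K] {A : ValuationSubring K}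
  {F : Type*} [Field F] [Algebra K F] {S : SmallRing F}
  {k : Type*} [Field k] [IsAlgClosed k] {E : Type*} [Field E] [Algebra k E]
  {R : RedSetup2 A S k (E × E)} {C : ChartCoord R} {p q : ℕ} {x : E} {Dt : Divisor K F}
  (h : Ctx R C p q x Dt) {Γ : Set (SemilinearAut K F)} (hG : CtxGal R C Γ)

/-! ### The three `Prop`-valued instances of the node ring -/

/-- `R_s` is a domain. -/
theorem isDomain_nodeRing (hL2 : C.IsL2) (s : Goursat.Nodes C.BbarT hL2.h2) :
    IsDomain (Localization.AtPrime (nodeIdeal (Γ := Γ) hL2 s)) :=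
  IsLocalization.isDomain_of_atPrime _ (nodeIdeal (Γ := Γ) hL2 s)

include h hG in
/-- `R_s` is Noetherian. -/
theorem isNoetherianRing_nodeRing (hD : FixData2 R Γ)
    (hF : Submodule.span K {f : F | IsFixed Γ f} = ⊤) (s : Goursat.Nodes C.BbarT h.hL2.h2) :
    IsNoetherianRing (Localization.AtPrime (nodeIdeal (Γ := Γ) h.hL2 s)) := by
  haveI : IsNoetherianRing (B0 C Γ) := FixedNoeth.isNoetherianRing_fixedBoo' h hG hD hF
  exact IsLocalization.isNoetherianRing (nodeIdeal (Γ := Γ) h.hL2 s).primeCompl _ inferInstance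

include h in
/-- `F` is algebraic over `K[t]`. -/
theorem isAlgebraic_adjoin : Algebra.IsAlgebraic (Algebra.adjoin K {C.t}) F := by
  haveI := h.fin_t
  exact ⟨fun f => (IsFractionRing.isAlgebraic_iff (Algebra.adjoin K {C.t}) K⟮C.t⟯ F).mpr
    (Algebra.IsAlgebraic.isAlgebraic f)⟩

include h hG in
/-- the fixed field is the fraction field of `R_s` (for the algebra structure
`NodeFrac.algebraLocFixed`). -/
theorem isFractionRing_nodeRing (hD : FixData2 R Γ)
    (hF : Submodule.span K {f : F | IsFixed Γ f} = ⊤) (s : Goursat.Nodes C.BbarT h.hL2.h2) :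
    IsFractionRing (Localization.AtPrime (nodeIdeal (Γ := Γ) h.hL2 s)) (fixedField Γ) := by
  haveI := isAlgebraic_adjoin h
  exact isFractionRing_localization (nodeIdeal (Γ := Γ) h.hL2 s) hD hF
    (fun b s hs f hf => Fermat.Agent.S33x.H1.StableLN.smul_mem_LN C s (hG.smul_t s hs) hf)

/-! ### The chain, semi-abstract context -/

include h hG in
/-- **SEAM TEST 1** (`NodeRing.isNodeRing` → `NodeFrac` → `NodeOrdSeam.node_ord`).
Inside the context bundle, with thickness data `u u' Ψ` and the valuation half of one branch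
`(O, v)` in the shapes `TameNodeB.IsBranch` + `Transitive.IsOrd` + `v p = 1`: the node ring `R_s`
is a node ring and `v` is its `u`-adic order. -/
theorem node_chain (hD : FixData2 R Γ) (hF : Submodule.span K {f : F | IsFixed Γ f} = ⊤)
    (hp : ∀ c : A, IsFixedK Γ (c : K) → c ∈ maximalIdeal A → ((p : ℕ) : A) ∣ c)
    (s : Goursat.Nodes C.BbarT h.hL2.h2)
    {u u' Ψ : B0 C Γ} (hrel : u * u' = ((p : ℕ) : B0 C Γ) * Ψ)
    (h1 : rho1 C Γ u = 0) (h2 : rho2 C Γ u' = 0)
    (hΨ : Ψ ∉ nodeIdeal (Γ := Γ) h.hL2 s) (hu' : rho1 C Γ u' ≠ 0)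
    [IsDomain (Localization.AtPrime (nodeIdeal (Γ := Γ) h.hL2 s))]
    [IsNoetherianRing (Localization.AtPrime (nodeIdeal (Γ := Γ) h.hL2 s))]
    [IsFractionRing (Localization.AtPrime (nodeIdeal (Γ := Γ) h.hL2 s)) (fixedField Γ)]
    {O : ValuationSubring (fixedField Γ)} {v : fixedField Γ → ℤ} (hv : IsOrd O v)
    (hvp : v ((p : ℕ) : fixedField Γ) = 1)
    (hbr : TameNodeB.IsBranch
      (algebraMap (B0 C Γ) (Localization.AtPrime (nodeIdeal (Γ := Γ) h.hL2 s)) u) O) :
    IsNodeRing (Localization.AtPrime (nodeIdeal (Γ := Γ) h.hL2 s)) p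
        (algebraMap (B0 C Γ) _ u) (algebraMap (B0 C Γ) _ u') ∧
      v (algebraMap (Localization.AtPrime (nodeIdeal (Γ := Γ) h.hL2 s)) (fixedField Γ)
          (algebraMap (B0 C Γ) _ u)) = 1 ∧
      ∀ r : Localization.AtPrime (nodeIdeal (Γ := Γ) h.hL2 s),
        ¬ algebraMap (B0 C Γ) _ u ∣ r →
          v (algebraMap (Localization.AtPrime (nodeIdeal (Γ := Γ) h.hL2 s)) (fixedField Γ) r) =
            0 := by
  have hnode : IsNodeRing (Localization.AtPrime (nodeIdeal (Γ := Γ) h.hL2 s)) p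
      (algebraMap (B0 C Γ) _ u) (algebraMap (B0 C Γ) _ u') :=
    NodeRing.isNodeRing h hG hD hF hp s hrel h1 h2 hΨ hu'
  obtain ⟨hvu, hv0⟩ := NodeOrdSeam.node_ord hnode hv hbr.mem hbr.inv_mem hvp
  exact ⟨hnode, hvu, hv0⟩

include h hG in
/-- **SEAM TEST 1'**: the mirrored chain for the other branch `(O_zero, u')`. -/
theorem node_chain' (hD : FixData2 R Γ) (hF : Submodule.span K {f : F | IsFixed Γ f} = ⊤)
    (hp : ∀ c : A, IsFixedK Γ (c : K) → c ∈ maximalIdeal A → ((p : ℕ) : A) ∣ c)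
    (s : Goursat.Nodes C.BbarT h.hL2.h2)
    {u u' Ψ : B0 C Γ} (hrel : u * u' = ((p : ℕ) : B0 C Γ) * Ψ)
    (h1 : rho1 C Γ u = 0) (h2 : rho2 C Γ u' = 0)
    (hΨ : Ψ ∉ nodeIdeal (Γ := Γ) h.hL2 s) (hu' : rho1 C Γ u' ≠ 0)
    [IsDomain (Localization.AtPrime (nodeIdeal (Γ := Γ) h.hL2 s))]
    [IsNoetherianRing (Localization.AtPrime (nodeIdeal (Γ := Γ) h.hL2 s))]
    [IsFractionRing (Localization.AtPrime (nodeIdeal (Γ := Γ) h.hL2 s)) (fixedField Γ)]
    {O : ValuationSubring (fixedField Γ)} {v : fixedField Γ → ℤ} (hv : IsOrd O v)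
    (hvp : v ((p : ℕ) : fixedField Γ) = 1)
    (hbr : TameNodeB.IsBranch
      (algebraMap (B0 C Γ) (Localization.AtPrime (nodeIdeal (Γ := Γ) h.hL2 s)) u') O) :
    v (algebraMap (Localization.AtPrime (nodeIdeal (Γ := Γ) h.hL2 s)) (fixedField Γ)
          (algebraMap (B0 C Γ) _ u')) = 1 ∧
      ∀ r : Localization.AtPrime (nodeIdeal (Γ := Γ) h.hL2 s),
        ¬ algebraMap (B0 C Γ) _ u' ∣ r →
          v (algebraMap (Localization.AtPrime (nodeIdeal (Γ := Γ) h.hL2 s)) (fixedField Γ) r) =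
            0 := by
  have hnode : IsNodeRing (Localization.AtPrime (nodeIdeal (Γ := Γ) h.hL2 s)) p
      (algebraMap (B0 C Γ) _ u) (algebraMap (B0 C Γ) _ u') :=
    NodeRing.isNodeRing h hG hD hF hp s hrel h1 h2 hΨ hu'
  exact NodeOrdSeam.node_ord' hnode hv hbr.mem hbr.inv_mem hvp

include h hG in
/-- **SEAM TEST 2** (… → `NodeOrdLift.node_lift_package` = `PrimeOrd.primeOrd_lift_package`).
With, in addition, an extension `S' ⊇ R_s` (the etale lift `R*_s`) with `ι u` prime and the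
contraction property: the five conclusions of `primeOrd_lift_package` for `R_s` inside
`F_0 = fixedField Γ`. -/
theorem node_chain_lift (hD : FixData2 R Γ) (hF : Submodule.span K {f : F | IsFixed Γ f} = ⊤)
    (hp : ∀ c : A, IsFixedK Γ (c : K) → c ∈ maximalIdeal A → ((p : ℕ) : A) ∣ c)
    (s : Goursat.Nodes C.BbarT h.hL2.h2)
    {u u' Ψ : B0 C Γ} (hrel : u * u' = ((p : ℕ) : B0 C Γ) * Ψ)
    (h1 : rho1 C Γ u = 0) (h2 : rho2 C Γ u' = 0)
    (hΨ : Ψ ∉ nodeIdeal (Γ := Γ) h.hL2 s) (hu' : rho1 C Γ u' ≠ 0)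
    [IsDomain (Localization.AtPrime (nodeIdeal (Γ := Γ) h.hL2 s))]
    [IsNoetherianRing (Localization.AtPrime (nodeIdeal (Γ := Γ) h.hL2 s))]
    [IsFractionRing (Localization.AtPrime (nodeIdeal (Γ := Γ) h.hL2 s)) (fixedField Γ)]
    {O : ValuationSubring (fixedField Γ)} {v : fixedField Γ → ℤ} (hv : IsOrd O v)
    (hvp : v ((p : ℕ) : fixedField Γ) = 1)
    (hbr : TameNodeB.IsBranch
      (algebraMap (B0 C Γ) (Localization.AtPrime (nodeIdeal (Γ := Γ) h.hL2 s)) u) O)
    {S' : Type*} [CommRing S'] [IsDomain S'] [WfDvdMonoid S']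
    {L : Type*} [Field L] [Algebra S' L] [IsFractionRing S' L]
    [Algebra (Localization.AtPrime (nodeIdeal (Γ := Γ) h.hL2 s)) S'] [Algebra (fixedField Γ) L]
    [Algebra (Localization.AtPrime (nodeIdeal (Γ := Γ) h.hL2 s)) L]
    [IsScalarTower (Localization.AtPrime (nodeIdeal (Γ := Γ) h.hL2 s)) S' L]
    [IsScalarTower (Localization.AtPrime (nodeIdeal (Γ := Γ) h.hL2 s)) (fixedField Γ) L]
    (hιu : Prime (algebraMap (Localization.AtPrime (nodeIdeal (Γ := Γ) h.hL2 s)) S'
      (algebraMap (B0 C Γ) _ u)))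
    (hcontr : ∀ (n : ℕ) (r : Localization.AtPrime (nodeIdeal (Γ := Γ) h.hL2 s)),
      algebraMap (Localization.AtPrime (nodeIdeal (Γ := Γ) h.hL2 s)) S'
          (algebraMap (B0 C Γ) _ u) ^ n ∣
        algebraMap (Localization.AtPrime (nodeIdeal (Γ := Γ) h.hL2 s)) S' r →
      algebraMap (B0 C Γ) _ u ^ n ∣ r) :
    IsOrd (primeValuationSubring (K := L) hιu)
        (primeOrd (algebraMap (Localization.AtPrime (nodeIdeal (Γ := Γ) h.hL2 s)) S'
          (algebraMap (B0 C Γ) _ u))) ∧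
      primeOrd (algebraMap (Localization.AtPrime (nodeIdeal (Γ := Γ) h.hL2 s)) S'
          (algebraMap (B0 C Γ) _ u))
        (algebraMap S' L (algebraMap (Localization.AtPrime (nodeIdeal (Γ := Γ) h.hL2 s)) S'
          (algebraMap (B0 C Γ) _ u))) = 1 ∧
      (∀ t : S', ¬ algebraMap (Localization.AtPrime (nodeIdeal (Γ := Γ) h.hL2 s)) S'
          (algebraMap (B0 C Γ) _ u) ∣ t →
        primeOrd (algebraMap (Localization.AtPrime (nodeIdeal (Γ := Γ) h.hL2 s)) S'
          (algebraMap (B0 C Γ) _ u)) (algebraMap S' L t) = 0) ∧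
      (∀ e : fixedField Γ, algebraMap (fixedField Γ) L e ∈ primeValuationSubring (K := L) hιu ↔
        e ∈ O) ∧
      (∀ e : fixedField Γ, e ≠ 0 →
        primeOrd (algebraMap (Localization.AtPrime (nodeIdeal (Γ := Γ) h.hL2 s)) S'
          (algebraMap (B0 C Γ) _ u)) (algebraMap (fixedField Γ) L e) = v e) := by
  have hnode : IsNodeRing (Localization.AtPrime (nodeIdeal (Γ := Γ) h.hL2 s)) p
      (algebraMap (B0 C Γ) _ u) (algebraMap (B0 C Γ) _ u') :=
    NodeRing.isNodeRing h hG hD hF hp s hrel h1 h2 hΨ hu'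
  exact NodeOrdLift.node_lift_package hnode hιu hcontr hv hbr.mem hbr.inv_mem hvp

end Fermat.Agent.S40x.Node.SeamNodeChain

end
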