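import Fermat.Agent.S40x.Node.SeamNodeChain
import Fermat.Agent.S40x.Node.OrdF0
import Fermat.Agent.S40x.Node.FixedQb

/-!
# P-S44, block R1 / N-alpha: SEAM TEST of the node chain at the CONCRETE level `(Qbar, P, M q)`

`SeamNodeChain.node_chain` / `node_chain_lift` instantiated at `K = Qbar`, `A = P`,
`F = FL Qbar (M q)`, `Γ = inertiaAct P (M q)` through the ONE discharge lemma
`FixedQb.bundle_Mq` (helper30), with `(O, v) := (OrdF0.Oinf .. F', OrdF0.vinf .. F')`
(helper6) for `F' := NodeFrac.fixedField Γ`.  It checks that `NodeFrac`'s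
`Algebra R_s (fixedField Γ)` and `OrdF0`'s "any subfield `F'` of inertia-fixed functions" meet
without any transport: `hF'` is `fun _ hf => hf`.

Remaining hypotheses: the uniformiser literal `hp` (helper26, `Node/NodeRingQb`), the thickness
data `u u' Ψ` (T-block) and the valuation half `IsBranch u (Oinf ..)` (N2 (v1)).
-/

set_option autoImplicit false
set_option linter.style.haveILetI false
set_option linter.unusedSectionVars false
set_option linter.unusedVariables false

noncomputable section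

namespace Fermat.Agent.S40x.Node.SeamNodeChainQb

open AlgebraicCurve Module IntermediateField IsLocalRing ModularCurve
open Fermat.Agent.Gateway.C0 Fermat.Agent.S34x Fermat.Agent.S34x.C0two Fermat.Agent.S34x.Lattice2
open Fermat.Agent.S33x.Cech.CtxMq
open Fermat.Agent.S19x.Geo.LatticeFixed (IsFixed IsFixedK)
open Fermat.Agent.S33x.W.InstW (fixedAlg)
open Fermat.Agent.Gateway.Hecke Fermat.Agent.Gateway.ESC
open Fermat.Agent.Gateway.Red Fermat.Agent.Gateway.GoodRed
open Fermat.Agent.Gateway.GoodRed.ConjFamily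
open Fermat.Agent.S34x.TwoVal
open Fermat.Agent.S34x.Inst.L2 Fermat.Agent.S34x.Inst.IsL2Inst
open Fermat.Agent.S34x.Inst.RedSetupInst Fermat.Agent.S34x.Inst.ElementYRed
open Fermat.Agent.S34x.Inst.ElementYInt Fermat.Agent.S34x.Inst.Charts
open Fermat.Agent.S34x.Inst Fermat.Agent.S34x.Inst.TheoremBMq
open Fermat.Agent.S33x.H1.FixData2Inst Fermat.Agent.S33x.H1.FixData2Final
open Fermat.Agent.S40x.Node.NodeInst Fermat.Agent.S40x.Node.NodeFrac
open Fermat.Agent.S40x.Node.FixedQb
open Fermat.Agent.S40x.R2.Transitive (IsOrd)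

attribute [-instance] IsScalarTower.of_algHom

local notation "Qbar" => AlgebraicClosure ℚ

variable {P : ValuationSubring Qbar} {k : Type} [Field k] {π : P →+* k} [IsAlgClosed k]
variable {M q : ℕ} [NeZero M] [NeZero q] [Fact q.Prime] [CharP k q]
variable {hdeg : finrankAlong Qbar (heckeAlphaBar Qbar M q) = q + 1} {hq : q.Prime}
  {hqM : ¬ q ∣ M}
variable {hrk : ∀ x ∈ maximalIdeal P, ∀ c : P, c ≠ 0 → ∃ j : ℕ, c ∣ x ^ j}
  {hπ : Function.Surjective π}
variable (H : ResidueFacts P π M q hdeg hq hqM hrk hπ) (hA : P.LiesOverPrime q)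
  (x : LaurentSeries ℤ) (hx : coeffMap (Int.castRingHom Qbar) x ∈ FBar Qbar M)
  (Hx : GoodLevelFactsT P π M q hπ hqM (tInt M x hx))

include Hx hA in
/-- **SEAM TEST 3**: the node chain at the concrete level, branch at infinity, with
`(O, v) = (OrdF0.Oinf, OrdF0.vinf)` on `F' = NodeFrac.fixedField (inertiaAct P (M q))`. -/
theorem node_chain_Mq_inf [PerfectRing k q] (C : ChartCoord (redSetup2 H hA))
    (hCt : C.t = tA M q x hx) (hxk : tbar k x ≠ 0) (hY : YFacts M q x hx) (hL2 : C.IsL2)
    (hp : ∀ c : P, IsFixedK (inertiaAct P (M * q)) (c : Qbar) → c ∈ maximalIdeal P →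
      ((q : ℕ) : P) ∣ c)
    (s : Goursat.Nodes C.BbarT hL2.h2)
    {u u' Ψ : B0 C (inertiaAct P (M * q))}
    (hrel : u * u' = ((q : ℕ) : B0 C (inertiaAct P (M * q))) * Ψ)
    (h1 : rho1 C (inertiaAct P (M * q)) u = 0) (h2 : rho2 C (inertiaAct P (M * q)) u' = 0)
    (hΨ : Ψ ∉ nodeIdeal (Γ := inertiaAct P (M * q)) hL2 s)
    (hu' : rho1 C (inertiaAct P (M * q)) u' ≠ 0)
    [IsDomain (Localization.AtPrime (nodeIdeal (Γ := inertiaAct P (M * q)) hL2 s))]
    [IsNoetherianRing (Localization.AtPrime (nodeIdeal (Γ := inertiaAct P (M * q)) hL2 s))]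
    [IsFractionRing (Localization.AtPrime (nodeIdeal (Γ := inertiaAct P (M * q)) hL2 s))
      (fixedField (inertiaAct P (M * q)))]
    (hbr : TameNodeB.IsBranch
      (algebraMap (B0 C (inertiaAct P (M * q)))
        (Localization.AtPrime (nodeIdeal (Γ := inertiaAct P (M * q)) hL2 s)) u)
      (OrdF0.Oinf P π M q hqM hrk hπ (fixedField (inertiaAct P (M * q))))) :
    IsNodeRing (Localization.AtPrime (nodeIdeal (Γ := inertiaAct P (M * q)) hL2 s)) q
        (algebraMap (B0 C (inertiaAct P (M * q))) _ u)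
        (algebraMap (B0 C (inertiaAct P (M * q))) _ u') ∧
      OrdF0.vinf P π M q hqM hrk hπ (fixedField (inertiaAct P (M * q)))
          (algebraMap (Localization.AtPrime (nodeIdeal (Γ := inertiaAct P (M * q)) hL2 s))
            (fixedField (inertiaAct P (M * q)))
            (algebraMap (B0 C (inertiaAct P (M * q))) _ u)) = 1 ∧
      ∀ r : Localization.AtPrime (nodeIdeal (Γ := inertiaAct P (M * q)) hL2 s),
        ¬ algebraMap (B0 C (inertiaAct P (M * q))) _ u ∣ r →
          OrdF0.vinf P π M q hqM hrk hπ (fixedField (inertiaAct P (M * q)))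
            (algebraMap (Localization.AtPrime (nodeIdeal (Γ := inertiaAct P (M * q)) hL2 s))
              (fixedField (inertiaAct P (M * q))) r) = 0 := by
  haveI : CharZero Qbar := algebraRat.charZero Qbar
  obtain ⟨Dt, hctx, hgal, hD, hF⟩ := bundle_Mq H hA x hx Hx C hCt hxk hY
  exact SeamNodeChain.node_chain hctx hgal hD hF hp s hrel h1 h2 hΨ hu'
    (OrdF0.isOrd_vinf P π M q hdeg hq hqM hrk hπ (fixedField (inertiaAct P (M * q)))
      (fun _ hf => hf))
    (OrdF0.vinf_natCast P π M q hdeg hq hqM hrk hπ (fixedField (inertiaAct P (M * q)))) hbr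

include Hx hA in
/-- **SEAM TEST 3'**: the node chain at the concrete level, branch at zero, with
`(O, v) = (OrdF0.Ozero, OrdF0.vzero)` and the prime `u'`. -/
theorem node_chain_Mq_zero [PerfectRing k q] (C : ChartCoord (redSetup2 H hA))
    (hCt : C.t = tA M q x hx) (hxk : tbar k x ≠ 0) (hY : YFacts M q x hx) (hL2 : C.IsL2)
    (hp : ∀ c : P, IsFixedK (inertiaAct P (M * q)) (c : Qbar) → c ∈ maximalIdeal P →
      ((q : ℕ) : P) ∣ c)
    (s : Goursat.Nodes C.BbarT hL2.h2)
    {u u' Ψ : B0 C (inertiaAct P (M * q))}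
    (hrel : u * u' = ((q : ℕ) : B0 C (inertiaAct P (M * q))) * Ψ)
    (h1 : rho1 C (inertiaAct P (M * q)) u = 0) (h2 : rho2 C (inertiaAct P (M * q)) u' = 0)
    (hΨ : Ψ ∉ nodeIdeal (Γ := inertiaAct P (M * q)) hL2 s)
    (hu' : rho1 C (inertiaAct P (M * q)) u' ≠ 0)
    [IsDomain (Localization.AtPrime (nodeIdeal (Γ := inertiaAct P (M * q)) hL2 s))]
    [IsNoetherianRing (Localization.AtPrime (nodeIdeal (Γ := inertiaAct P (M * q)) hL2 s))]
    [IsFractionRing (Localization.AtPrime (nodeIdeal (Γ := inertiaAct P (M * q)) hL2 s))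
      (fixedField (inertiaAct P (M * q)))]
    (hbr : TameNodeB.IsBranch
      (algebraMap (B0 C (inertiaAct P (M * q)))
        (Localization.AtPrime (nodeIdeal (Γ := inertiaAct P (M * q)) hL2 s)) u')
      (OrdF0.Ozero P π M q hdeg hq hqM hrk hπ (fixedField (inertiaAct P (M * q))))) :
    OrdF0.vzero P π M q hdeg hq hqM hrk hπ (fixedField (inertiaAct P (M * q)))
          (algebraMap (Localization.AtPrime (nodeIdeal (Γ := inertiaAct P (M * q)) hL2 s))
            (fixedField (inertiaAct P (M * q)))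
            (algebraMap (B0 C (inertiaAct P (M * q))) _ u')) = 1 ∧
      ∀ r : Localization.AtPrime (nodeIdeal (Γ := inertiaAct P (M * q)) hL2 s),
        ¬ algebraMap (B0 C (inertiaAct P (M * q))) _ u' ∣ r →
          OrdF0.vzero P π M q hdeg hq hqM hrk hπ (fixedField (inertiaAct P (M * q)))
            (algebraMap (Localization.AtPrime (nodeIdeal (Γ := inertiaAct P (M * q)) hL2 s))
              (fixedField (inertiaAct P (M * q))) r) = 0 := by
  haveI : CharZero Qbar := algebraRat.charZero Qbar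
  obtain ⟨Dt, hctx, hgal, hD, hF⟩ := bundle_Mq H hA x hx Hx C hCt hxk hY
  exact SeamNodeChain.node_chain' hctx hgal hD hF hp s hrel h1 h2 hΨ hu'
    (OrdF0.isOrd_vzero P π M q hdeg hq hqM hrk hπ (fixedField (inertiaAct P (M * q)))
      (fun _ hf => hf))
    (OrdF0.vzero_natCast P π M q hdeg hq hqM hrk hπ (fixedField (inertiaAct P (M * q)))) hbr

end Fermat.Agent.S40x.Node.SeamNodeChainQb

end
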