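/-
helper76 (P-S44, block R1, seam R1 -> C3-SLOPE; assignment #4 of helper35): the DOWNSTAIRS instance
of helper41's `R2/Slope/SideSlope.SideDatum ιL v R o` (primary track, `Valuation` form).

Setting of helper47's landed `S40x/Slope/{SlopeInv,Compute,OfRedSetup}`: a valuation subring `O` of
`F / L`, a residue map `ρ : O →+* E` onto a function field `E / k` with kernel the maximal ideal, a
place `P` of `E / k`.  Order function `ordRed O ρ P r := P.ord (red O ρ r)`.

* `sideDatum_of_place` : `SideDatum (algebraMap L F) O.valuation Rs (ordRed O ρ P)` for EVERY subring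
  `Rs` of `F` which is dense in the residue field (hypothesis `hdense` = literal of `Node/Dense`),
  given (Sc) `hscal` and "unit constants reduce to nonzero constants" `hconstred`;
* `sideDatum_of_redSetup` : the same from a `Gateway.C0.RedSetup A O k E` (`ρ = R.res`; (Sc) and
  the constants are fields of the `RedSetup`);
* `slopeFn_eq_ord_red`, `slopeFn_eq_ord_red_const_mul` : the slope function of the datum on units,
  resp. on `c • f` normalised by a constant;
* `slope_eq_ord_red_const_mul` : the same for ANY slope function `sl` (`IsSlope`) restricting to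
  `ordRed` on the units of `Rs` (uniqueness `SideDatum.slope_unique`);
* `slopeAt_eq_slopeFn`, `slopeAt_eq_slope` : **comparison** with helper47's `slopeAt O₁ O₂ O ρ p x P`
  (the R1-S invariant `n_P(x)`): it is the reduction modulo `p` of the slope of EVERY Kummer
  function `f` of `x` (no normalisation needed);
* `sideDatumInfty`, `sideDatumZero` : the concrete instances at level `M q` for the two Gauss
  valuations `valInfty`, `valZero` of `FL L (M * q)` with residue maps `resInfty H`, `resZero H`
  (`S34x/Inst/RedSetupInst`), any place `P` of `Fk k M`, any dense subring `Rs`.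

No condition `B₀ ≤ Rs ≤ O ∩ F₀` is needed for the datum itself: only `hdense` sees `Rs`.
-/
import Fermat.Agent.S40x.Slope.Compute
import Fermat.Agent.S40x.Slope.OfRedSetup
import Fermat.Agent.S40x.R2.Slope.SideSlope
import Fermat.Agent.S34x.Inst.RedSetupInst

set_option autoImplicit false
set_option linter.unusedSectionVars false

noncomputable section

namespace Fermat.Agent.S40x.Node.SideDatumInst

open AlgebraicCurve Fermat.Agent.Gateway.Kummer Fermat.Agent.Gateway.C0
  Fermat.Agent.S40x.Slope.UnitTwo Fermat.Agent.S40x.Slope.SlopeInv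
  Fermat.Agent.S40x.Slope.Compute Fermat.Agent.S40x.R2.Slope

variable {L : Type*} [Field L] {F : Type*} [Field F] [Algebra L F]
  {k : Type*} [Field k] {E : Type*} [Field E] [Algebra k E]
  {O : ValuationSubring F} {ρ : O →+* E}

/-- the order at `P` of the reduction -/
def ordRed (O : ValuationSubring F) (ρ : O →+* E) (P : Place k E) : F → ℤ :=
  fun r => P.ord (red O ρ r)

theorem ordRed_apply (P : Place k E) (r : F) : ordRed O ρ P r = P.ord (red O ρ r) := rfl

theorem val_mul_eq_one {x y : F} (hx : O.valuation x = 1) (hy : O.valuation y = 1) :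
    O.valuation (x * y) = 1 := by
  rw [map_mul, hx, hy, one_mul]

/-- reductions of congruent elements agree -/
theorem red_eq_of_sub_lt (hker : ∀ x : O, ρ x = 0 ↔ O.valuation (x : F) < 1) {r r' : F}
    (hr : r ∈ O) (hr' : r' ∈ O) (h : O.valuation (r - r') < 1) : red O ρ r = red O ρ r' := by
  rw [red_of_mem hr, red_of_mem hr', ← sub_eq_zero, ← map_sub]
  exact (hker _).mpr h

/-- a congruence modulo the maximal ideal transports the property of being a unit -/
theorem val_eq_one_of_sub_lt' {r r' : F} (h : O.valuation r = 1) (hlt : O.valuation (r - r') < 1) :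
    O.valuation r' = 1 := by
  have e : r' = r + (r' - r) := by ring
  have hlt' : O.valuation (r' - r) < O.valuation r := by
    rw [h, Valuation.map_sub_swap]
    exact hlt
  rw [e, Valuation.map_add_eq_of_lt_left _ hlt', h]

/-- the order function is additive on units -/
theorem ordRed_mul (hker : ∀ x : O, ρ x = 0 ↔ O.valuation (x : F) < 1) (P : Place k E) {r r' : F}
    (h : O.valuation r = 1) (h' : O.valuation r' = 1) :
    ordRed O ρ P (r * r') = ordRed O ρ P r + ordRed O ρ P r' := by
  rw [ordRed_apply, ordRed_apply, ordRed_apply,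
    red_mul (mem_of_val_eq_one h) (mem_of_val_eq_one h'),
    P.ord_mul (red_ne_zero hker h) (red_ne_zero hker h')]

/-- **the side datum of a place of the residue field** (helper41's `Valuation` form) -/
theorem sideDatum_of_place (hker : ∀ x : O, ρ x = 0 ↔ O.valuation (x : F) < 1)
    (hscal : ∀ f : F, f ≠ 0 → ∃ c : L, c ≠ 0 ∧ O.valuation (c • f) = 1)
    (hconstred : ∀ c : L, O.valuation (algebraMap L F c) = 1 →
      ∃ a : k, a ≠ 0 ∧ red O ρ (algebraMap L F c) = algebraMap k E a)
    (P : Place k E) (Rs : Subring F)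
    (hdense : ∀ x : F, O.valuation x = 1 → ∃ r1 ∈ Rs, ∃ r2 ∈ Rs, O.valuation r1 = 1 ∧
      O.valuation r2 = 1 ∧ O.valuation (x * r2 - r1) < 1) :
    SideDatum (algebraMap L F) O.valuation Rs (ordRed O ρ P) where
  o_mul := fun _ _ _ _ h h' => ordRed_mul hker P h h'
  o_congr := fun r _ r' _ h hlt => by
    have h' : O.valuation r' = 1 := val_eq_one_of_sub_lt' h hlt
    rw [ordRed_apply, ordRed_apply,
      red_eq_of_sub_lt hker (mem_of_val_eq_one h) (mem_of_val_eq_one h') hlt]
  dense := hdense
  scal := fun x hx => by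
    obtain ⟨c, hc0, hc⟩ := hscal x hx
    rw [Algebra.smul_def] at hc
    exact ⟨c, hc0, hc⟩
  const := fun c hc r1 _ r2 _ h1 h2 hlt => by
    obtain ⟨a, ha, hca⟩ := hconstred c hc
    have hcm : algebraMap L F c ∈ O := mem_of_val_eq_one hc
    have h2m : r2 ∈ O := mem_of_val_eq_one h2
    have hprod : O.valuation (algebraMap L F c * r2) = 1 := val_mul_eq_one hc h2
    have e := red_eq_of_sub_lt hker (mem_of_val_eq_one hprod) (mem_of_val_eq_one h1) hlt
    rw [red_mul hcm h2m, hca] at e
    rw [ordRed_apply, ordRed_apply, ← e,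
      P.ord_mul ((map_ne_zero _).mpr ha) (red_ne_zero hker h2), ord_algebraMap_eq_zero P ha,
      zero_add]

/-- unit constants reduce to nonzero constants, for a `RedSetup` -/
theorem constred_of_redSetup {A : ValuationSubring L} (R : RedSetup A O k E) (c : L)
    (hc : O.valuation (algebraMap L F c) = 1) :
    ∃ a : k, a ≠ 0 ∧ red O R.res (algebraMap L F c) = algebraMap k E a := by
  have hcO : algebraMap L F c ∈ O := mem_of_val_eq_one hc
  have hcA : c ∈ A := (Fermat.Agent.S40x.Slope.OfRedSetup.liesOver R c).mp hcO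
  refine ⟨R.π ⟨c, hcA⟩, fun h0 => ?_, ?_⟩
  · have h1 : R.res ⟨algebraMap L F c, hcO⟩ = 0 := by
      have := R.res_algebraMap ⟨c, hcA⟩
      rw [h0, map_zero] at this
      exact this
    have := (R.res_ker _).mp h1
    rw [hc] at this
    exact lt_irrefl _ this
  · rw [red_of_mem hcO]
    exact R.res_algebraMap ⟨c, hcA⟩

/-- **the side datum from a `RedSetup`** -/
theorem sideDatum_of_redSetup {A : ValuationSubring L} (R : RedSetup A O k E) (P : Place k E)
    (Rs : Subring F)
    (hdense : ∀ x : F, O.valuation x = 1 → ∃ r1 ∈ Rs, ∃ r2 ∈ Rs, O.valuation r1 = 1 ∧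
      O.valuation r2 = 1 ∧ O.valuation (x * r2 - r1) < 1) :
    SideDatum (algebraMap L F) O.valuation Rs (ordRed O R.res P) :=
  sideDatum_of_place R.res_ker R.scal (constred_of_redSetup R) P Rs hdense

/-! ### The slope function of the datum -/

/-- **the slope of a unit is the order of its reduction** -/
theorem slopeFn_eq_ord_red (hker : ∀ x : O, ρ x = 0 ↔ O.valuation (x : F) < 1) {P : Place k E}
    {Rs : Subring F} (D : SideDatum (algebraMap L F) O.valuation Rs (ordRed O ρ P)) {w : F}
    (hw : O.valuation w = 1) : D.slopeFn w = P.ord (red O ρ w) := by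
  obtain ⟨r1, hr1, r2, hr2, h1, h2, hlt⟩ := D.dense w hw
  have hrep : IsRep (algebraMap L F) O.valuation Rs w 1 r1 r2 := by
    refine ⟨one_ne_zero, hr1, hr2, h1, h2, ?_⟩
    rw [map_one, one_mul]
    exact hlt
  rw [D.slopeFn_eq hrep, ordRed_apply, ordRed_apply]
  have hprod : O.valuation (w * r2) = 1 := val_mul_eq_one hw h2
  have e := red_eq_of_sub_lt hker (mem_of_val_eq_one hprod) (mem_of_val_eq_one h1) hlt
  rw [red_mul (mem_of_val_eq_one hw) (mem_of_val_eq_one h2)] at e
  rw [← e, P.ord_mul (red_ne_zero hker hw) (red_ne_zero hker h2)]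
  ring

/-- any slope function which restricts to `ordRed` on the units of `Rs`, evaluated at an element
normalised by a constant -/
theorem slope_eq_ord_red_const_mul (hker : ∀ x : O, ρ x = 0 ↔ O.valuation (x : F) < 1)
    {P : Place k E} {Rs : Subring F}
    (D : SideDatum (algebraMap L F) O.valuation Rs (ordRed O ρ P)) {sl : F → ℤ}
    (hsl : IsSlope (algebraMap L F) O.valuation sl)
    (hR : ∀ r ∈ Rs, O.valuation r = 1 → sl r = ordRed O ρ P r)
    {f : F} {c : L} (hc : O.valuation (algebraMap L F c * f) = 1) :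
    sl f = P.ord (red O ρ (algebraMap L F c * f)) := by
  have h0 : algebraMap L F c * f ≠ 0 := ne_zero_of_val_eq_one O.valuation hc
  have hc0 : c ≠ 0 := fun h => (left_ne_zero_of_mul h0) (by rw [h, map_zero])
  have hf0 : f ≠ 0 := right_ne_zero_of_mul h0
  rw [← slopeFn_eq_ord_red hker D hc, ← D.slope_unique hsl hR h0, hsl.map_const_mul hc0 hf0]

/-- the slope function of the datum at an element normalised by a constant -/
theorem slopeFn_eq_ord_red_const_mul (hker : ∀ x : O, ρ x = 0 ↔ O.valuation (x : F) < 1)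
    {P : Place k E} {Rs : Subring F}
    (D : SideDatum (algebraMap L F) O.valuation Rs (ordRed O ρ P))
    {f : F} {c : L} (hc : O.valuation (algebraMap L F c * f) = 1) :
    D.slopeFn f = P.ord (red O ρ (algebraMap L F c * f)) :=
  slope_eq_ord_red_const_mul hker D D.isSlope_slopeFn (fun _ hr h1 => D.slopeFn_of_mem hr h1) hc

/-! ### Comparison with the slope of a class (`Slope/SlopeInv.slopeAt`) -/

/-- **comparison with helper47's slope of a class**, for ANY slope function restricting to
`ordRed` on the units of `Rs` and EVERY Kummer function `f` of `x`. -/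
theorem slopeAt_eq_slope [HasPrincipalDivisors L F] [IsAlgClosed L] {O₁ O₂ : ValuationSubring F}
    {p : ℕ} (hS : SlopeData (L := L) O₁ O₂ O ρ p) {P : Place k E} {Rs : Subring F}
    (D : SideDatum (algebraMap L F) O.valuation Rs (ordRed O ρ P)) {sl : F → ℤ}
    (hsl : IsSlope (algebraMap L F) O.valuation sl)
    (hR : ∀ r ∈ Rs, O.valuation r = 1 → sl r = ordRed O ρ P r)
    {x : Pic0 L F} {f : F} (hf : IsKummerRep p x f) :
    slopeAt O₁ O₂ O ρ p x P = ((sl f : ℤ) : ZMod p) := by
  obtain ⟨c, -, hc⟩ := D.scal f hf.ne_zero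
  rw [slopeAt_eq_of_const_mul hS P hf hc, slopeFn, slope_eq_ord_red_const_mul hS.ker D hsl hR hc]

/-- the same for the slope function of the datum itself -/
theorem slopeAt_eq_slopeFn [HasPrincipalDivisors L F] [IsAlgClosed L] {O₁ O₂ : ValuationSubring F}
    {p : ℕ} (hS : SlopeData (L := L) O₁ O₂ O ρ p) {P : Place k E} {Rs : Subring F}
    (D : SideDatum (algebraMap L F) O.valuation Rs (ordRed O ρ P))
    {x : Pic0 L F} {f : F} (hf : IsKummerRep p x f) :
    slopeAt O₁ O₂ O ρ p x P = ((D.slopeFn f : ℤ) : ZMod p) :=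
  slopeAt_eq_slope hS D D.isSlope_slopeFn (fun _ hr h1 => D.slopeFn_of_mem hr h1) hf

/-! ### The concrete instances at level `M q` -/

section Concrete

open ModularCurve IntermediateField IsLocalRing
open Fermat.Agent.Gateway.Hecke Fermat.Agent.Gateway.ESC
open Fermat.Agent.Gateway.Red Fermat.Agent.Gateway.GoodRed
open Fermat.Agent.S34x.TwoVal Fermat.Agent.S34x.C0two Fermat.Agent.S34x.Inst.RedSetupInst

variable {L : Type} [Field L] [Algebra ℚ L] [IsAlgClosed L] {A : ValuationSubring L}
  {k : Type} [Field k] {π : A →+* k} [IsAlgClosed k]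
variable {M q : ℕ} [NeZero M] [Fact q.Prime] [CharP k q]
variable {hdeg : finrankAlong L (heckeAlphaBar L M q) = q + 1} {hq : q.Prime} {hqM : ¬ q ∣ M}
variable {hrk : ∀ x ∈ maximalIdeal A, ∀ c : A, c ≠ 0 → ∃ j : ℕ, c ∣ x ^ j}
  {hπ : Function.Surjective π}

/-- **downstairs side datum at `v_∞`**, level `M q`: `E = FL L (M q)`, `v` the valuation of
`valInfty`, `o r = P.ord (red valInfty (resInfty H) r)`, any dense subring `Rs`. -/
theorem sideDatumInfty (H : ResidueFacts A π M q hdeg hq hqM hrk hπ) (hA : A.LiesOverPrime q)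
    (P : Place k (modularFunctionFieldFullC k M)) (Rs : Subring (FL L (M * q)))
    (hdense : ∀ x : FL L (M * q), (valInfty A π M q hrk hπ hqM).valuation x = 1 →
      ∃ r1 ∈ Rs, ∃ r2 ∈ Rs, (valInfty A π M q hrk hπ hqM).valuation r1 = 1 ∧
        (valInfty A π M q hrk hπ hqM).valuation r2 = 1 ∧
        (valInfty A π M q hrk hπ hqM).valuation (x * r2 - r1) < 1) :
    SideDatum (algebraMap L (FL L (M * q))) (valInfty A π M q hrk hπ hqM).valuation Rs
      (ordRed (valInfty A π M q hrk hπ hqM) (resInfty H) P) :=
  sideDatum_of_redSetup (redSetupInfty H hA) P Rs hdense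

/-- **downstairs side datum at `v_0`**, level `M q`. -/
theorem sideDatumZero (H : ResidueFacts A π M q hdeg hq hqM hrk hπ) (hA : A.LiesOverPrime q)
    (P : Place k (modularFunctionFieldFullC k M)) (Rs : Subring (FL L (M * q)))
    (hdense : ∀ x : FL L (M * q), (valZero A π M q hdeg hq hqM hrk hπ).valuation x = 1 →
      ∃ r1 ∈ Rs, ∃ r2 ∈ Rs, (valZero A π M q hdeg hq hqM hrk hπ).valuation r1 = 1 ∧
        (valZero A π M q hdeg hq hqM hrk hπ).valuation r2 = 1 ∧
        (valZero A π M q hdeg hq hqM hrk hπ).valuation (x * r2 - r1) < 1) :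
    SideDatum (algebraMap L (FL L (M * q))) (valZero A π M q hdeg hq hqM hrk hπ).valuation Rs
      (ordRed (valZero A π M q hdeg hq hqM hrk hπ) (resZero H) P) :=
  sideDatum_of_redSetup (redSetupZero H hA) P Rs hdense

end Concrete

end Fermat.Agent.S40x.Node.SideDatumInst
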