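/-
helper76 (P-S44, block R1, seam R1 -> C3-SLOPE): the DOWNSTAIRS side data of helper41's
`R2/Slope/SideSlope.SideDatum` at the CONCRETE level `M q` over `Qbar`, with NO hypothesis left on
density: `Node/SideDatumInst.sideDatumInfty / sideDatumZero` (this seat) composed with helper79's
landed `Node/Dense.dense_val{Infty,Zero}_{bx,boo,bzero}_Mq`.

For every subring `R'` of `FL Qbar (M q)` containing the inertia-fixed chart ring
`fixedAlg (inertiaAct P (M q)) (BxAlg C)` (resp. `BooAlg C`, `BzeroAlg C`) - in particular for every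
node ring `R_s` and every smooth-point ring - and every place `P'` of `Fk k M`:

  `SideDatum (algebraMap Qbar F) v_∞ R' (fun r => P'.ord (red v_∞ (resInfty H) r))`   and the same
  at `v_0` with `resZero H`.

The comparison with helper47's `slopeAt` is `Node/SideDatumInst.slopeAt_eq_slope`.
-/
import Fermat.Agent.S40x.Node.SideDatumInst
import Fermat.Agent.S40x.Node.Dense

set_option autoImplicit false
set_option linter.unusedSectionVars false
set_option linter.style.haveILetI false

noncomputable section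

namespace Fermat.Agent.S40x.Node.SideDatumMq

open AlgebraicCurve Module IntermediateField IsLocalRing
open Fermat.Agent.Gateway.C0 Fermat.Agent.S34x.C0two Fermat.Agent.S34x.Lattice2
open Fermat.Agent.S33x.Cech.CtxMq Fermat.Agent.S33x.H1.InstC1 Fermat.Agent.S33x.H1.InstC4
open Fermat.Agent.S33x.W.InstW (fixedAlg mem_fixedAlg)
open ModularCurve
open Fermat.Agent.Gateway.Hecke Fermat.Agent.Gateway.ESC
open Fermat.Agent.Gateway.Red Fermat.Agent.Gateway.GoodRed
open Fermat.Agent.Gateway.GoodRed.ConjFamily
open Fermat.Agent.S34x.TwoVal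
open Fermat.Agent.S34x.Inst.L2 Fermat.Agent.S34x.Inst.IsL2Inst
open Fermat.Agent.S34x.Inst.RedSetupInst Fermat.Agent.S34x.Inst.ElementYRed
open Fermat.Agent.S34x.Inst.ElementYInt Fermat.Agent.S34x.Inst.Charts
open Fermat.Agent.S34x.Inst Fermat.Agent.S34x.Inst.TheoremBMq
open Fermat.Agent.S33x.H1.FixData2Final Fermat.Agent.S33x.H1.FixData2Inst
open Fermat.Agent.S40x.R2.Slope Fermat.Agent.S40x.Node.SideDatumInst Fermat.Agent.S40x.Node.Dense

attribute [-instance] IsScalarTower.of_algHom

local notation "Qbar" => AlgebraicClosure ℚ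

variable {P : ValuationSubring Qbar} {k : Type} [Field k] {π : P →+* k} [IsAlgClosed k]
variable {M q : ℕ} [NeZero M] [NeZero q] [Fact q.Prime] [CharP k q]
variable {hdeg : finrankAlong Qbar (heckeAlphaBar Qbar M q) = q + 1} {hq : q.Prime}
  {hqM : ¬ q ∣ M}
variable {hrk : ∀ x ∈ maximalIdeal P, ∀ c : P, c ≠ 0 → ∃ j : ℕ, c ∣ x ^ j}
  {hπ : Function.Surjective π}
variable (H : ResidueFacts P π M q hdeg hq hqM hrk hπ) (hA : P.LiesOverPrime q)
  (x : LaurentSeries ℤ) (hx : coeffMap (Int.castRingHom Qbar) x ∈ FBar Qbar M)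
  (Hx : GoodLevelFactsT P π M q hπ hqM (tInt M x hx))

include Hx hA in
/-- **side datum at `v_∞`, level `M q` over `Qbar`**, for every subring containing the fixed
overlap ring `Bx` (every node ring `R_s`). -/
theorem sideDatumInfty_bx [PerfectRing k q] (C : ChartCoord (redSetup2 H hA))
    (hCt : C.t = tA M q x hx) (hxk : tbar k x ≠ 0) (hY : YFacts M q x hx)
    (P' : Place k (modularFunctionFieldFullC k M)) (R' : Subring (FL Qbar (M * q)))
    (hB : ∀ f, f ∈ fixedAlg (inertiaAct P (M * q)) (BxAlg C) → f ∈ R') :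
    SideDatum (algebraMap Qbar (FL Qbar (M * q))) (valInfty P π M q hrk hπ hqM).valuation R'
      (ordRed (valInfty P π M q hrk hπ hqM) (resInfty H) P') :=
  sideDatumInfty H hA P' R' (dense_valInfty_bx_Mq H hA x hx Hx C hCt hxk hY R' hB)

include Hx hA in
/-- **side datum at `v_0`, level `M q` over `Qbar`**, for every subring containing the fixed
overlap ring `Bx`. -/
theorem sideDatumZero_bx [PerfectRing k q] (C : ChartCoord (redSetup2 H hA))
    (hCt : C.t = tA M q x hx) (hxk : tbar k x ≠ 0) (hY : YFacts M q x hx)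
    (P' : Place k (modularFunctionFieldFullC k M)) (R' : Subring (FL Qbar (M * q)))
    (hB : ∀ f, f ∈ fixedAlg (inertiaAct P (M * q)) (BxAlg C) → f ∈ R') :
    SideDatum (algebraMap Qbar (FL Qbar (M * q))) (valZero P π M q hdeg hq hqM hrk hπ).valuation R'
      (ordRed (valZero P π M q hdeg hq hqM hrk hπ) (resZero H) P') :=
  sideDatumZero H hA P' R' (dense_valZero_bx_Mq H hA x hx Hx C hCt hxk hY R' hB)

include Hx hA in
/-- side datum at `v_∞` for every subring containing the fixed chart ring `B∞`. -/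
theorem sideDatumInfty_boo [PerfectRing k q] (C : ChartCoord (redSetup2 H hA))
    (hCt : C.t = tA M q x hx) (hxk : tbar k x ≠ 0) (hY : YFacts M q x hx)
    (P' : Place k (modularFunctionFieldFullC k M)) (R' : Subring (FL Qbar (M * q)))
    (hB : ∀ f, f ∈ fixedAlg (inertiaAct P (M * q)) (BooAlg C) → f ∈ R') :
    SideDatum (algebraMap Qbar (FL Qbar (M * q))) (valInfty P π M q hrk hπ hqM).valuation R'
      (ordRed (valInfty P π M q hrk hπ hqM) (resInfty H) P') :=
  sideDatumInfty H hA P' R' (dense_valInfty_boo_Mq H hA x hx Hx C hCt hxk hY R' hB)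

include Hx hA in
/-- side datum at `v_0` for every subring containing the fixed chart ring `B∞`. -/
theorem sideDatumZero_boo [PerfectRing k q] (C : ChartCoord (redSetup2 H hA))
    (hCt : C.t = tA M q x hx) (hxk : tbar k x ≠ 0) (hY : YFacts M q x hx)
    (P' : Place k (modularFunctionFieldFullC k M)) (R' : Subring (FL Qbar (M * q)))
    (hB : ∀ f, f ∈ fixedAlg (inertiaAct P (M * q)) (BooAlg C) → f ∈ R') :
    SideDatum (algebraMap Qbar (FL Qbar (M * q))) (valZero P π M q hdeg hq hqM hrk hπ).valuation R'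
      (ordRed (valZero P π M q hdeg hq hqM hrk hπ) (resZero H) P') :=
  sideDatumZero H hA P' R' (dense_valZero_boo_Mq H hA x hx Hx C hCt hxk hY R' hB)

include Hx hA in
/-- side datum at `v_∞` for every subring containing the fixed chart ring `B₀`. -/
theorem sideDatumInfty_bzero [PerfectRing k q] (C : ChartCoord (redSetup2 H hA))
    (hCt : C.t = tA M q x hx) (hxk : tbar k x ≠ 0) (hY : YFacts M q x hx)
    (P' : Place k (modularFunctionFieldFullC k M)) (R' : Subring (FL Qbar (M * q)))
    (hB : ∀ f, f ∈ fixedAlg (inertiaAct P (M * q)) (BzeroAlg C) → f ∈ R') :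
    SideDatum (algebraMap Qbar (FL Qbar (M * q))) (valInfty P π M q hrk hπ hqM).valuation R'
      (ordRed (valInfty P π M q hrk hπ hqM) (resInfty H) P') :=
  sideDatumInfty H hA P' R' (dense_valInfty_bzero_Mq H hA x hx Hx C hCt hxk hY R' hB)

include Hx hA in
/-- side datum at `v_0` for every subring containing the fixed chart ring `B₀`. -/
theorem sideDatumZero_bzero [PerfectRing k q] (C : ChartCoord (redSetup2 H hA))
    (hCt : C.t = tA M q x hx) (hxk : tbar k x ≠ 0) (hY : YFacts M q x hx)
    (P' : Place k (modularFunctionFieldFullC k M)) (R' : Subring (FL Qbar (M * q)))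
    (hB : ∀ f, f ∈ fixedAlg (inertiaAct P (M * q)) (BzeroAlg C) → f ∈ R') :
    SideDatum (algebraMap Qbar (FL Qbar (M * q))) (valZero P π M q hdeg hq hqM hrk hπ).valuation R'
      (ordRed (valZero P π M q hdeg hq hqM hrk hπ) (resZero H) P') :=
  sideDatumZero H hA P' R' (dense_valZero_bzero_Mq H hA x hx Hx C hCt hxk hY R' hB)

end Fermat.Agent.S40x.Node.SideDatumMq
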