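/-
P-S44/S40, block R1, leaf N4 (helper61): SMOOTH-POINT RINGS, abstract part (Mathlib only).

Setting (hypothesis style; to be instantiated with `B := B_0`, the `K0`-rational chart ring of the
model, `B1 :=` the affine ring of the chart of ONE component `C` of the special fibre,
`ρ := red_C`, `π := p`, `𝔫 :=` a closed point `P` of the chart of `C` which is NOT a node, and
`e :=` a function vanishing on the other component but not at `P`):

* `ρ : B →+* B1` surjective, `ρ π = 0`, `𝔫` a prime of `B1`, `ρ e ∉ 𝔫`, and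
  `hker : ρ b = 0 → ∃ c, b * e = π * c`  (UNRAM: a function vanishing on both components is divisible
  by `p`).

Results, with `𝔪 := 𝔫.comap ρ` and `R_P := Localization.AtPrime 𝔪`:

* `locMap : R_P →+* Localization.AtPrime 𝔫`, surjective, with kernel `(π)`; `quotEquiv`;
* if `Localization.AtPrime 𝔫` is a domain and a PID (e.g. `B1` Dedekind, `𝔫 ≠ ⊥`) and `B` is a
  Noetherian domain, `π ≠ 0`: `π` is a prime element of `R_P` and `R_P` is a UFD
  (Nakayama + Kaplansky: `ufd_of_quotient_pid`);
* `exists_unit_mul_pow` (A) and `exists_smooth_factorisation` (E1): in a UFD, if the multiplicities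
  of all primes `h` not associated to `π` in `n` and `d` are congruent modulo `p`, then
  `n / d = ε π ^ (a₁ - a₂) (g₁ / g₂) ^ p` with `π ∤ g₁ g₂` (cross-multiplied form).
-/
import Mathlib

set_option autoImplicit false

namespace Fermat.Agent.S40x.Node.Smooth

open IsLocalRing Ideal UniqueFactorizationMonoid

/-! ### Nakayama + Kaplansky -/

section UFD

variable {R : Type*} [CommRing R] [IsNoetherianRing R] [IsLocalRing R]

/-- every prime not containing `x` is principal, if `R ⧸ (x)` is a PID. -/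
theorem exists_eq_span_singleton_of_notMem {x : R} (hx : x ∈ maximalIdeal R)
    [IsPrincipalIdealRing (R ⧸ Ideal.span {x})] (q : Ideal R) [q.IsPrime] (hxq : x ∉ q) :
    ∃ h ∈ q, q = Ideal.span {h} := by
  set S := R ⧸ Ideal.span {x}
  set π : R →+* S := Ideal.Quotient.mk _
  have hπ : Function.Surjective π := Ideal.Quotient.mk_surjective
  obtain ⟨s, hs⟩ := (IsPrincipalIdealRing.principal (q.map π)).principal
  have hsq : s ∈ q.map π := by rw [hs]; exact Submodule.mem_span_singleton_self s
  rw [Ideal.mem_map_iff_of_surjective π hπ] at hsq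
  obtain ⟨h, hhq, rfl⟩ := hsq
  refine ⟨h, hhq, le_antisymm ?_ ((Ideal.span_singleton_le_iff_mem _).2 hhq)⟩
  have hJ : maximalIdeal R ≤ (⊥ : Ideal R).jacobson := by
    rw [IsLocalRing.jacobson_eq_maximalIdeal ⊥ bot_ne_top]
  refine Submodule.le_of_le_smul_of_le_jacobson_bot (IsNoetherian.noetherian q) hJ ?_
  intro g hg
  have hgm : π g ∈ q.map π := Ideal.mem_map_of_mem π hg
  rw [hs] at hgm
  obtain ⟨r', hr'⟩ := Ideal.mem_span_singleton'.1 (by simpa using hgm)
  obtain ⟨r, rfl⟩ := hπ r'
  have h1 : π (g - r * h) = 0 := by rw [map_sub, map_mul, hr', sub_self]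
  rw [Ideal.Quotient.eq_zero_iff_mem, Ideal.mem_span_singleton'] at h1
  obtain ⟨g1, hg1⟩ := h1
  have hg1q : g1 ∈ q := by
    have : g1 * x ∈ q := by rw [hg1]; exact q.sub_mem hg (q.mul_mem_left r hhq)
    exact (Ideal.IsPrime.mem_or_mem ‹q.IsPrime› this).resolve_right hxq
  have hg' : g = r * h + g1 * x := by rw [hg1]; ring
  rw [hg']
  refine Submodule.add_mem_sup (Ideal.mem_span_singleton'.2 ⟨r, rfl⟩) ?_
  rw [mul_comm]
  exact Submodule.smul_mem_smul hx hg1q

/-- a Noetherian local domain `R` with `x ∈ 𝔪`, `R ⧸ (x)` a domain and a PID, is a UFD. -/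
theorem ufd_of_quotient_pid [IsDomain R] {x : R} (hx : x ∈ maximalIdeal R) (hx0 : x ≠ 0)
    [IsDomain (R ⧸ Ideal.span {x})] [IsPrincipalIdealRing (R ⧸ Ideal.span {x})] :
    UniqueFactorizationMonoid R := by
  refine UniqueFactorizationMonoid.iff_exists_prime_mem_of_isPrime.2 fun I hI hIp => ?_
  by_cases hxI : x ∈ I
  · refine ⟨x, hxI, ?_⟩
    have : (Ideal.span {x}).IsPrime := (Ideal.Quotient.isDomain_iff_prime _).1 inferInstance
    exact (Ideal.span_singleton_prime hx0).1 this
  · obtain ⟨h, hhI, hIh⟩ := exists_eq_span_singleton_of_notMem hx I hxI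
    refine ⟨h, hhI, ?_⟩
    have hh0 : h ≠ 0 := by
      rintro rfl
      apply hI
      rw [hIh]
      simp
    exact (Ideal.span_singleton_prime hh0).1 (hIh ▸ hIp)

end UFD

/-! ### The local ring at a smooth point -/

section Loc

variable {B B1 : Type*} [CommRing B] [CommRing B1]
  (ρ : B →+* B1) (𝔫 : Ideal B1) [𝔫.IsPrime]

/-- the reduction map on the local rings -/
noncomputable def locMap : Localization.AtPrime (𝔫.comap ρ) →+* Localization.AtPrime 𝔫 :=
  Localization.localRingHom (𝔫.comap ρ) 𝔫 ρ rfl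

theorem locMap_algebraMap (b : B) :
    locMap ρ 𝔫 (algebraMap B _ b) = algebraMap B1 (Localization.AtPrime 𝔫) (ρ b) :=
  Localization.localRingHom_to_map _ _ _ _ _

variable {ρ}

theorem locMap_surjective (hρ : Function.Surjective ρ) : Function.Surjective (locMap ρ 𝔫) := by
  intro z
  obtain ⟨x, y, rfl⟩ := IsLocalization.exists_mk'_eq 𝔫.primeCompl z
  obtain ⟨a, rfl⟩ := hρ x
  obtain ⟨s, hs⟩ := hρ (y : B1)
  have hsm : s ∈ (𝔫.comap ρ).primeCompl := by
    intro h
    exact y.2 (by rw [← hs]; exact h)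
  refine ⟨IsLocalization.mk' _ a (⟨s, hsm⟩ : (𝔫.comap ρ).primeCompl), ?_⟩
  rw [locMap, Localization.localRingHom_mk']
  congr 1
  exact Subtype.ext hs

variable {π e : B}

theorem ker_locMap (hρ : Function.Surjective ρ) (hπ : ρ π = 0) (he : ρ e ∉ 𝔫)
    (hker : ∀ b, ρ b = 0 → ∃ c, b * e = π * c) :
    RingHom.ker (locMap ρ 𝔫) =
      Ideal.span {algebraMap B (Localization.AtPrime (𝔫.comap ρ)) π} := by
  apply le_antisymm
  · intro z hz
    obtain ⟨a, s, rfl⟩ := IsLocalization.exists_mk'_eq (𝔫.comap ρ).primeCompl z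
    rw [RingHom.mem_ker, locMap, Localization.localRingHom_mk',
      IsLocalization.mk'_eq_zero_iff] at hz
    obtain ⟨t, ht⟩ := hz
    obtain ⟨t0, ht0⟩ := hρ (t : B1)
    have h1 : ρ (t0 * a) = 0 := by rw [map_mul, ht0]; exact ht
    obtain ⟨c, hc⟩ := hker _ h1
    -- `t0 * e * s` is a unit of the local ring
    have hu : t0 * e * (s : B) ∈ (𝔫.comap ρ).primeCompl := by
      intro h
      change ρ (t0 * e * (s : B)) ∈ 𝔫 at h
      rw [map_mul, map_mul, ht0] at h
      rcases (Ideal.IsPrime.mem_or_mem ‹𝔫.IsPrime› h) with h | h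
      · rcases (Ideal.IsPrime.mem_or_mem ‹𝔫.IsPrime› h) with h | h
        · exact t.2 h
        · exact he h
      · exact s.2 h
    rw [Ideal.mem_span_singleton']
    refine ⟨IsLocalization.mk' _ c (⟨t0 * e * s, hu⟩ : (𝔫.comap ρ).primeCompl), ?_⟩
    rw [mul_comm, IsLocalization.mul_mk'_eq_mk'_of_mul]
    apply IsLocalization.mk'_eq_of_eq
    simp only
    linear_combination (s : B) * hc
  · rw [Ideal.span_le]
    intro z hz
    rw [Set.mem_singleton_iff] at hz
    rw [hz, SetLike.mem_coe, RingHom.mem_ker, locMap_algebraMap, hπ, map_zero]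

/-- `R_P ⧸ (π) ≃ O_{C,P}` -/
noncomputable def quotEquiv (hρ : Function.Surjective ρ) (hπ : ρ π = 0) (he : ρ e ∉ 𝔫)
    (hker : ∀ b, ρ b = 0 → ∃ c, b * e = π * c) :
    (Localization.AtPrime (𝔫.comap ρ) ⧸
        Ideal.span {algebraMap B (Localization.AtPrime (𝔫.comap ρ)) π}) ≃+*
      Localization.AtPrime 𝔫 :=
  (Ideal.quotEquivOfEq (ker_locMap 𝔫 hρ hπ he hker).symm).trans
    (RingHom.quotientKerEquivOfSurjective (locMap_surjective 𝔫 hρ))

theorem quotEquiv_mk (hρ : Function.Surjective ρ) (hπ : ρ π = 0) (he : ρ e ∉ 𝔫)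
    (hker : ∀ b, ρ b = 0 → ∃ c, b * e = π * c) (z : Localization.AtPrime (𝔫.comap ρ)) :
    quotEquiv 𝔫 hρ hπ he hker (Ideal.Quotient.mk _ z) = locMap ρ 𝔫 z := rfl

/-- `π` lies in the maximal ideal of `R_P` -/
theorem algebraMap_mem_maximalIdeal (hπ : ρ π = 0) :
    algebraMap B (Localization.AtPrime (𝔫.comap ρ)) π ∈
      maximalIdeal (Localization.AtPrime (𝔫.comap ρ)) := by
  rw [IsLocalization.AtPrime.to_map_mem_maximal_iff _ (𝔫.comap ρ)]
  change ρ π ∈ 𝔫
  rw [hπ]
  exact 𝔫.zero_mem

/-- **(N-Sm), abstract.**  The local ring at a smooth point is a UFD in which `π` is prime. -/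
theorem ufd_localization [IsDomain B] [IsNoetherianRing B]
    [IsDomain (Localization.AtPrime 𝔫)] [IsPrincipalIdealRing (Localization.AtPrime 𝔫)]
    (hρ : Function.Surjective ρ) (hπ : ρ π = 0) (hπ0 : π ≠ 0) (he : ρ e ∉ 𝔫)
    (hker : ∀ b, ρ b = 0 → ∃ c, b * e = π * c) :
    UniqueFactorizationMonoid (Localization.AtPrime (𝔫.comap ρ)) ∧
      Prime (algebraMap B (Localization.AtPrime (𝔫.comap ρ)) π) := by
  set R := Localization.AtPrime (𝔫.comap ρ)
  have hinj : Function.Injective (algebraMap B R) :=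
    IsLocalization.injective R (𝔫.comap ρ).primeCompl_le_nonZeroDivisors
  have hx0 : algebraMap B R π ≠ 0 := (map_ne_zero_iff _ hinj).2 hπ0
  have eq := quotEquiv 𝔫 hρ hπ he hker
  have : IsDomain (R ⧸ Ideal.span {algebraMap B R π}) := eq.toMulEquiv.isDomain _
  have : IsPrincipalIdealRing (R ⧸ Ideal.span {algebraMap B R π}) :=
    IsPrincipalIdealRing.of_surjective eq.symm.toRingHom eq.symm.surjective
  have : IsNoetherianRing R := IsLocalization.isNoetherianRing (𝔫.comap ρ).primeCompl R inferInstance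
  refine ⟨ufd_of_quotient_pid (algebraMap_mem_maximalIdeal 𝔫 hπ) hx0, ?_⟩
  have : (Ideal.span {algebraMap B R π}).IsPrime := (Ideal.Quotient.isDomain_iff_prime _).1 inferInstance
  exact (Ideal.span_singleton_prime hx0).1 this

end Loc

/-! ### Factorisation in a UFD -/

section Fact

variable {R : Type*} [CommRing R] [IsDomain R] [UniqueFactorizationMonoid R]

/-- **(A)** an element all of whose prime multiplicities are divisible by `p` is a unit times a
`p`-th power. -/
theorem exists_unit_mul_pow {p : ℕ} {f : R} (hf : f ≠ 0)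
    (H : ∀ h : R, Prime h → p ∣ multiplicity h f) : ∃ (ε : Rˣ) (g : R), f = ε * g ^ p := by
  classical
  let _ : NormalizationMonoid R :=
    (UniqueFactorizationMonoid.strongNormalizationMonoid (α := R)).toNormalizationMonoid
  set F := normalizedFactors f with hF
  have hcount : ∀ h ∈ F, p ∣ F.count h := by
    intro h hh
    have hprime : Prime h := prime_of_normalized_factor h hh
    have hnorm : normalize h = h := normalize_normalized_factor h hh
    have hfin : FiniteMultiplicity h f := FiniteMultiplicity.of_prime_left hprime hf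
    have h2 := emultiplicity_eq_count_normalizedFactors hprime.irreducible hf
    rw [hnorm, hfin.emultiplicity_eq_multiplicity] at h2
    have h3 : F.count h = multiplicity h f := by exact_mod_cast h2.symm
    rw [h3]
    exact H h hprime
  -- the `p`-th root of the multiset of factors
  set S : Multiset R := ∑ h ∈ F.toFinset, (F.count h / p) • ({h} : Multiset R) with hS
  have hFS : F = p • S := by
    ext h
    rw [Multiset.count_nsmul, hS, Multiset.count_sum']
    simp only [Multiset.count_nsmul, Multiset.count_singleton]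
    by_cases hh : h ∈ F
    · rw [Finset.sum_eq_single_of_mem h (Multiset.mem_toFinset.2 hh)]
      · simp only [if_true, mul_one]
        exact (Nat.mul_div_cancel' (hcount h hh)).symm
      · intro b _ hb
        rw [if_neg (Ne.symm hb), mul_zero]
    · rw [Multiset.count_eq_zero_of_notMem hh]
      symm
      rw [mul_eq_zero]
      right
      refine Finset.sum_eq_zero fun b hb => ?_
      have : h ≠ b := fun hhb => hh (hhb ▸ Multiset.mem_toFinset.1 hb)
      rw [if_neg this, mul_zero]
  obtain ⟨ε, hε⟩ := prod_normalizedFactors hf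
  refine ⟨ε, S.prod, ?_⟩
  rw [← hε, ← hF, hFS, Multiset.prod_nsmul, mul_comm]

/-- **(E1)** one-prime edge factorisation: if the multiplicities in `n` and `d` of every prime not
associated to `π` are congruent modulo `p`, then `n / d = ε π ^ (a₁ - a₂) (g₁ / g₂) ^ p`. -/
theorem exists_smooth_factorisation {p : ℕ} (hp : p ≠ 0) {π : R} (hπ : Prime π) {n d : R}
    (hn : n ≠ 0) (hd : d ≠ 0)
    (H : ∀ h : R, Prime h → ¬ Associated h π →
      ((multiplicity h n : ℤ) ≡ (multiplicity h d : ℤ) [ZMOD (p : ℤ)])) :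
    ∃ (a₁ a₂ : ℕ) (ε : Rˣ) (g₁ g₂ : R), g₂ ≠ 0 ∧ ¬ π ∣ g₁ ∧ ¬ π ∣ g₂ ∧
      n * (π ^ a₂ * g₂ ^ p) = ε * π ^ a₁ * g₁ ^ p * d := by
  obtain ⟨n', hn', hπn'⟩ :=
    (FiniteMultiplicity.of_prime_left hπ hn).exists_eq_pow_mul_and_not_dvd
  obtain ⟨d', hd', hπd'⟩ :=
    (FiniteMultiplicity.of_prime_left hπ hd).exists_eq_pow_mul_and_not_dvd
  set a₁ := multiplicity π n
  set a₂ := multiplicity π d
  have hn'0 : n' ≠ 0 := by rintro rfl; exact hπn' (dvd_zero _)
  have hd'0 : d' ≠ 0 := by rintro rfl; exact hπd' (dvd_zero _)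
  obtain ⟨q, rfl⟩ : ∃ q, p = q + 1 := Nat.exists_eq_succ_of_ne_zero hp
  set f := n' * d' ^ q with hf
  have hf0 : f ≠ 0 := mul_ne_zero hn'0 (pow_ne_zero _ hd'0)
  have hπf : ¬ π ∣ f := by
    intro h
    rcases hπ.dvd_or_dvd h with h | h
    · exact hπn' h
    · exact hπd' (hπ.dvd_of_dvd_pow h)
  -- multiplicities of `f`
  have hmult : ∀ h : R, Prime h → (q + 1) ∣ multiplicity h f := by
    intro h hh
    by_cases hass : Associated h π
    · have : multiplicity h f = 0 := by
        rw [multiplicity_eq_zero]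
        intro hdvd
        exact hπf (hass.symm.dvd.trans hdvd)
      rw [this]
      exact dvd_zero _
    · -- `h` does not divide `π ^ a`
      have hhπ : ∀ a : ℕ, multiplicity h (π ^ a) = 0 := by
        intro a
        rw [multiplicity_eq_zero]
        intro hdvd
        have := hh.dvd_of_dvd_pow hdvd
        exact hass (hh.associated_of_dvd hπ this)
      have hfinm : ∀ x : R, x ≠ 0 → FiniteMultiplicity h x :=
        fun x hx => FiniteMultiplicity.of_prime_left hh hx
      have e1 : multiplicity h n = multiplicity h n' := by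
        conv_lhs => rw [hn']
        rw [multiplicity_mul hh (hfinm _ (mul_ne_zero (pow_ne_zero _ hπ.ne_zero) hn'0)), hhπ,
          zero_add]
      have e2 : multiplicity h d = multiplicity h d' := by
        conv_lhs => rw [hd']
        rw [multiplicity_mul hh (hfinm _ (mul_ne_zero (pow_ne_zero _ hπ.ne_zero) hd'0)), hhπ,
          zero_add]
      have e3 : multiplicity h f = multiplicity h n' + q * multiplicity h d' := by
        rw [hf, multiplicity_mul hh (hfinm _ hf0),
          (hfinm _ hd'0).multiplicity_pow hh]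
      have hc := H h hh hass
      rw [e1, e2] at hc
      rw [e3]
      have hz : ((q + 1 : ℕ) : ℤ) ∣ ((multiplicity h n' + q * multiplicity h d' : ℕ) : ℤ) := by
        obtain ⟨c, hc⟩ := hc.symm.dvd
        refine ⟨c + multiplicity h d', ?_⟩
        push_cast at hc ⊢
        linear_combination hc
      exact_mod_cast hz
  obtain ⟨ε, g, hg⟩ := exists_unit_mul_pow hf0 hmult
  have hπg : ¬ π ∣ g := by
    intro h
    apply hπf
    rw [hg]
    exact Dvd.dvd.mul_left (dvd_pow h (Nat.succ_ne_zero q)) _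
  refine ⟨a₁, a₂, ε, g, d', hd'0, hπg, hπd', ?_⟩
  have h1 : n' * d' ^ q = ε * g ^ (q + 1) := by rw [← hf, hg]
  calc n * (π ^ a₂ * d' ^ (q + 1))
      = π ^ a₁ * (n' * d' ^ q) * (π ^ a₂ * d') := by
        conv_lhs => rw [hn']
        ring
    _ = ε * π ^ a₁ * g ^ (q + 1) * d := by
        rw [h1]
        conv_rhs => rw [hd']
        ring

end Fact

end Fermat.Agent.S40x.Node.Smooth
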