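import Fermat.Agent.S40x.Edge.UFD
import Fermat.Agent.S40x.Edge.PthPower
import Fermat.Agent.S40x.Node.NodeDatum

/-!
# P-S44/S40, block R1 / N-alpha, leaf N4 (smooth-point rings), INDEPENDENT SECOND (helper27)

Abstract part, end to end: from the ring-theoretic literal `IsSmoothRing S π` of the local ring
`S = R_P` of the arithmetic surface at a smooth point `P` of the component `C_∞` (`π = p`)
to the consumer statement (b5) = (TAME-Sm):

  a function all of whose horizontal multiplicities are divisible by `p` has, after division by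
  the right power of `π`, a reduction whose order at `P` is divisible by `p`.

* `IsSmoothRing S π` : Noetherian local domain, `π` a prime element of the maximal ideal,
  `S ⧸ (π)` a principal ideal ring (for us: the discrete valuation ring `O_{C_∞,P}`);
  `IsSmoothRing.of_red` (from a surjection onto a principal ideal domain with kernel `(π)`),
  `IsSmoothRing.of_isSmoothPtRing` (from the seam literal `IsSmoothPtRing S p t` of `Node/NodeDatum`),
  `IsSmoothRing.ufm` (unique factorisation, via the landed `Edge.ufm_of_quotient_principal`);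
* `exists_unit_mul_pow` : `n * d ^ (p - 1) = ε * g ^ p`, `π ∤ g`, when `π ∤ n`, `π ∤ d` and
  `p ∣ mult_h n - mult_h d` for every prime `h` not associated to `π`;
* `dvd_ord_sub` : **(TAME-Sm), ring form**: `p ∣ ord (red n) - ord (red d)`;
* `dvd_ord_red` : **(TAME-Sm), valuation form** on the fraction field, with a valuation subring
  `O ⊇ S` in which the elements of `S` prime to `π` are units (so `O = S_(π)`) and a reduction map
  `redO : O →+* κ`: for `y = f / π ^ a` a unit of `O`, `p ∣ ord (redO y)`.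

`ord : κ → ℤ` is any function additive on products of nonzero elements and trivial on the
reductions of the units of `S` (for us `Place.ord` of the place `P` of `κ_∞`).
-/

set_option autoImplicit false
set_option linter.unusedSectionVars false

namespace Fermat.Agent.S40x.Node.SmoothB

open IsLocalRing

/-! ### The literal (N-Sm), ring-theoretic half -/

/-- **(N-Sm)**: the local ring of the arithmetic surface at a smooth point of a component of the
special fibre: `π` is a prime element of the maximal ideal and every ideal of `S ⧸ (π)` is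
principal. -/
structure IsSmoothRing (S : Type*) [CommRing S] [IsDomain S] [IsNoetherianRing S] [IsLocalRing S]
    (π : S) : Prop where
  prime : Prime π
  mem : π ∈ maximalIdeal S
  pid : ∀ I : Ideal (S ⧸ Ideal.span {π}), I.IsPrincipal

namespace IsSmoothRing

variable {S : Type*} [CommRing S] [IsDomain S] [IsNoetherianRing S] [IsLocalRing S] {π : S}

/-- A smooth-point ring is a unique factorisation domain. -/
theorem ufm (h : IsSmoothRing S π) : UniqueFactorizationMonoid S :=
  Edge.ufm_of_quotient_principal π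
    (by rw [IsLocalRing.jacobson_eq_maximalIdeal ⊥ bot_ne_top]; exact h.mem) h.prime h.pid

/-- Producer form: a surjection onto a principal ideal domain with kernel `(π)`. -/
theorem of_red {D : Type*} [CommRing D] [IsDomain D] [IsPrincipalIdealRing D] (hπ0 : π ≠ 0)
    (hπm : π ∈ maximalIdeal S) (red : S →+* D) (hker : ∀ r : S, red r = 0 ↔ π ∣ r)
    (hsurj : Function.Surjective red) : IsSmoothRing S π where
  prime := Edge.prime_of_red hπ0 red hker
  mem := hπm
  pid := by
    have hk : RingHom.ker red = Ideal.span {π} := by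
      ext r
      rw [RingHom.mem_ker, hker, Ideal.mem_span_singleton]
    let e : (S ⧸ Ideal.span {π}) ≃+* D :=
      (Ideal.quotEquivOfEq hk.symm).trans (RingHom.quotientKerEquivOfSurjective hsurj)
    intro I
    exact (IsPrincipalIdealRing.of_surjective (e.symm : D →+* (S ⧸ Ideal.span {π}))
      e.symm.surjective).principal I

/-- Bridge from the seam literal `IsSmoothPtRing S p t` of `Node/NodeDatum` (helper50). -/
theorem of_isSmoothPtRing {p : ℕ} {t : S} (h : Fermat.Agent.S40x.Node.IsSmoothPtRing S p t) :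
    IsSmoothRing S (p : S) where
  prime := h.prime_p
  mem := h.natCast_mem_maximalIdeal
  pid := h.quotient_isPrincipal

end IsSmoothRing

/-! ### The factorisation -/

section Core

variable {S : Type*} [CommRing S] [IsDomain S] [UniqueFactorizationMonoid S]

/-- the multiplicity of a prime in `n * d ^ (p - 1)`. -/
theorem multiplicity_mul_pow {h n d : S} (hh : Prime h) (hn : n ≠ 0) (hd : d ≠ 0) (k : ℕ) :
    multiplicity h (n * d ^ k) = multiplicity h n + k * multiplicity h d := by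
  have hfn : FiniteMultiplicity h n := FiniteMultiplicity.of_prime_left hh hn
  have hfd : FiniteMultiplicity h d := FiniteMultiplicity.of_prime_left hh hd
  have hfm : FiniteMultiplicity h (n * d ^ k) :=
    FiniteMultiplicity.of_prime_left hh (mul_ne_zero hn (pow_ne_zero k hd))
  have h1 := emultiplicity_mul (a := n) (b := d ^ k) hh
  rw [emultiplicity_pow hh, hfm.emultiplicity_eq_multiplicity, hfn.emultiplicity_eq_multiplicity,
    hfd.emultiplicity_eq_multiplicity] at h1
  exact_mod_cast h1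

/-- **Factorisation**: if `π ∤ n`, `π ∤ d` and the multiplicities of `n` and `d` at every prime not
associated to `π` are congruent modulo `p`, then `n * d ^ (p - 1)` is a unit times a `p`-th power
of an element prime to `π`. -/
theorem exists_unit_mul_pow {p : ℕ} (hp : p ≠ 0) {π n d : S} (hπ : Prime π) (hn : ¬ π ∣ n)
    (hd : ¬ π ∣ d)
    (H : ∀ h : S, Prime h → ¬ Associated h π →
      (p : ℤ) ∣ (multiplicity h n : ℤ) - (multiplicity h d : ℤ)) :
    ∃ (ε : Sˣ) (g : S), n * d ^ (p - 1) = ε * g ^ p ∧ ¬ π ∣ g := by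
  have hn0 : n ≠ 0 := fun h0 => hn (h0 ▸ dvd_zero π)
  have hd0 : d ≠ 0 := fun h0 => hd (h0 ▸ dvd_zero π)
  have hm0 : n * d ^ (p - 1) ≠ 0 := mul_ne_zero hn0 (pow_ne_zero _ hd0)
  obtain ⟨ε, g, hg⟩ := Edge.exists_unit_mul_pow_of_forall_prime p (n * d ^ (p - 1)) hm0 (by
    intro h hh N h1 h2
    have hN : multiplicity h (n * d ^ (p - 1)) = N := multiplicity_eq_of_dvd_of_not_dvd h1 h2
    rw [multiplicity_mul_pow hh hn0 hd0] at hN
    by_cases hass : Associated h π
    · have h3 : multiplicity h n = 0 :=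
        multiplicity_eq_zero.mpr fun hdv => hn (hass.symm.dvd.trans hdv)
      have h4 : multiplicity h d = 0 :=
        multiplicity_eq_zero.mpr fun hdv => hd (hass.symm.dvd.trans hdv)
      rw [h3, h4] at hN
      rw [← hN]
      simp
    · have h5 := H h hh hass
      have h6 : (p : ℤ) ∣ (N : ℤ) := by
        have h7 : (N : ℤ) = ((multiplicity h n : ℤ) - (multiplicity h d : ℤ))
            + (p : ℤ) * (multiplicity h d : ℤ) := by
          rw [← hN]
          have hp1 : ((p - 1 : ℕ) : ℤ) = (p : ℤ) - 1 := by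
            rw [Nat.cast_sub (Nat.one_le_iff_ne_zero.mpr hp)]
            simp
          push_cast
          rw [hp1]
          ring
        rw [h7]
        exact dvd_add h5 (dvd_mul_right _ _)
      exact_mod_cast h6)
  refine ⟨ε, g, hg, fun hdv => ?_⟩
  have h1 : π ∣ n * d ^ (p - 1) := by
    rw [hg]
    exact Dvd.dvd.mul_left (dvd_pow hdv hp) _
  rcases hπ.dvd_or_dvd h1 with h2 | h2
  · exact hn h2
  · exact hd (hπ.dvd_of_dvd_pow h2)

end Core

/-! ### (TAME-Sm), ring form -/

section Ord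

variable {κ : Type*} [Field κ] (ord : κ → ℤ)

/-- an additive function on nonzero elements vanishes at `1`. -/
theorem ord_one (hmul : ∀ x y : κ, x ≠ 0 → y ≠ 0 → ord (x * y) = ord x + ord y) : ord 1 = 0 := by
  have h := hmul 1 1 one_ne_zero one_ne_zero
  rw [mul_one] at h
  linarith

theorem ord_pow (hmul : ∀ x y : κ, x ≠ 0 → y ≠ 0 → ord (x * y) = ord x + ord y) {x : κ}
    (hx : x ≠ 0) (k : ℕ) : ord (x ^ k) = k * ord x := by
  induction k with
  | zero => simp [ord_one ord hmul]
  | succ k ih =>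
    rw [pow_succ, hmul _ _ (pow_ne_zero k hx) hx, ih]
    push_cast
    ring

variable {S : Type*} [CommRing S] [IsDomain S] [UniqueFactorizationMonoid S]

/-- the reduction of a unit has order zero as soon as reductions have nonnegative order. -/
theorem ord_red_unit_of_nonneg (red : S →+* κ)
    (hmul : ∀ x y : κ, x ≠ 0 → y ≠ 0 → ord (x * y) = ord x + ord y)
    (hnn : ∀ x : S, red x ≠ 0 → 0 ≤ ord (red x)) (ε : Sˣ) : ord (red ε) = 0 := by
  have h1 : red (ε : S) * red ((ε⁻¹ : Sˣ) : S) = 1 := by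
    rw [← map_mul, Units.mul_inv, map_one]
  have ha : red (ε : S) ≠ 0 := left_ne_zero_of_mul_eq_one h1
  have hb : red ((ε⁻¹ : Sˣ) : S) ≠ 0 := right_ne_zero_of_mul_eq_one h1
  have h2 := hmul _ _ ha hb
  rw [h1, ord_one ord hmul] at h2
  have h3 := hnn _ ha
  have h4 := hnn _ hb
  linarith

/-- **(TAME-Sm), ring form.** -/
theorem dvd_ord_sub {p : ℕ} (hp : p ≠ 0) {π n d : S} (hπ : Prime π) (red : S →+* κ)
    (hker : ∀ x : S, red x = 0 ↔ π ∣ x)
    (hmul : ∀ x y : κ, x ≠ 0 → y ≠ 0 → ord (x * y) = ord x + ord y)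
    (hunit : ∀ ε : Sˣ, ord (red ε) = 0) (hn : ¬ π ∣ n) (hd : ¬ π ∣ d)
    (H : ∀ h : S, Prime h → ¬ Associated h π →
      (p : ℤ) ∣ (multiplicity h n : ℤ) - (multiplicity h d : ℤ)) :
    (p : ℤ) ∣ ord (red n) - ord (red d) := by
  obtain ⟨ε, g, hg, hπg⟩ := exists_unit_mul_pow hp hπ hn hd H
  have hn' : red n ≠ 0 := fun h0 => hn ((hker n).mp h0)
  have hd' : red d ≠ 0 := fun h0 => hd ((hker d).mp h0)
  have hg' : red g ≠ 0 := fun h0 => hπg ((hker g).mp h0)
  have hε' : red (ε : S) ≠ 0 := by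
    intro h0
    have : π ∣ (ε : S) := (hker _).mp h0
    exact hπ.not_isUnit (isUnit_of_dvd_unit this ε.isUnit)
  have h1 : red n * red d ^ (p - 1) = red (ε : S) * red g ^ p := by
    rw [← map_pow, ← map_mul, hg, map_mul, map_pow]
  have h2 : ord (red n) + ((p - 1 : ℕ) : ℤ) * ord (red d) = (p : ℤ) * ord (red g) := by
    have h3 := congrArg ord h1
    rw [hmul _ _ hn' (pow_ne_zero _ hd'), hmul _ _ hε' (pow_ne_zero _ hg'), ord_pow ord hmul hd',
      ord_pow ord hmul hg', hunit ε, zero_add] at h3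
    exact h3
  have hp1 : ((p - 1 : ℕ) : ℤ) = (p : ℤ) - 1 := by
    rw [Nat.cast_sub (Nat.one_le_iff_ne_zero.mpr hp)]
    simp
  rw [hp1] at h2
  refine ⟨ord (red g) - ord (red d), ?_⟩
  linarith

end Ord

/-! ### (TAME-Sm), valuation form on the fraction field -/

section Val

variable {S : Type*} [CommRing S] [IsDomain S] [UniqueFactorizationMonoid S]
  {F0 : Type*} [Field F0] [Algebra S F0] [IsFractionRing S F0]
  {κ : Type*} [Field κ]

/-- In a valuation subring `O ⊇ S` of the fraction field in which `π` is not a unit and the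
elements of `S` prime to `π` are units, `π ^ e * u ∈ Oˣ`-type relations force `e = 0`:
if `y * π ^ a * d = n` with `y` a unit of `O`, `n = π ^ a₁ * n'`, ... we only need the following
special case. -/
theorem zpow_eq_zero_of_unit {O : ValuationSubring F0} {c : F0} (hc : c ∈ O)
    (hcu : c⁻¹ ∉ O) {e : ℤ} {y : F0} (hy : y ∈ O) (hy' : y⁻¹ ∈ O) (h : c ^ e = y) : e = 0 := by
  have hc0 : c ≠ 0 := by
    rintro rfl
    exact hcu (by rw [inv_zero]; exact O.zero_mem)
  by_contra he
  rcases lt_or_gt_of_ne he with hlt | hgt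
  · -- `e < 0`: `c ^ (-e) = y⁻¹ ∈ O`, with `-e ≥ 1`, so `c⁻¹ = c^(-e-1) * y ∈ O`
    obtain ⟨m, hm⟩ : ∃ m : ℕ, e = -((m : ℤ) + 1) := ⟨(-e - 1).toNat, by omega⟩
    have h1 : c⁻¹ = c ^ m * y := by
      rw [← h, hm, zpow_neg, zpow_add₀ hc0, zpow_one, zpow_natCast]
      field_simp
    exact hcu (h1 ▸ O.mul_mem _ _ (O.pow_mem hc m) hy)
  · -- `e > 0`: `c⁻¹ = c ^ (e - 1) * y⁻¹ ∈ O`
    obtain ⟨m, hm⟩ : ∃ m : ℕ, e = (m : ℤ) + 1 := ⟨(e - 1).toNat, by omega⟩
    have h1 : c⁻¹ = c ^ m * y⁻¹ := by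
      rw [← h, hm, zpow_add₀ hc0, zpow_one, zpow_natCast]
      field_simp
    exact hcu (h1 ▸ O.mul_mem _ _ (O.pow_mem hc m) hy')

/-- **(TAME-Sm), valuation form.**  `S` a unique factorisation domain with fraction field `F0`,
`π` a prime, `O` a valuation subring of `F0` containing `S` in which `π` is not invertible and
every element of `S` prime to `π` is invertible, `redO : O →+* κ` with `redO x = 0 ↔ π ∣ x` on `S`.
Let `f ≠ 0` be such that for every way of writing `f = n / d` the multiplicities of `n` and `d` at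
every prime not associated to `π` are congruent modulo `p`.  If `y = f / π ^ a` is a unit of `O`
then `p ∣ ord (redO y)`. -/
theorem dvd_ord_red {p : ℕ} (hp : p ≠ 0) {π : S} (hπ : Prime π) (O : ValuationSubring F0)
    (hSO : ∀ x : S, algebraMap S F0 x ∈ O)
    (hinv : ∀ x : S, ¬ π ∣ x → (algebraMap S F0 x)⁻¹ ∈ O)
    (hπinv : (algebraMap S F0 π)⁻¹ ∉ O)
    (redO : O →+* κ) (hker : ∀ x : S, redO ⟨algebraMap S F0 x, hSO x⟩ = 0 ↔ π ∣ x)
    (ord : κ → ℤ) (hmul : ∀ x y : κ, x ≠ 0 → y ≠ 0 → ord (x * y) = ord x + ord y)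
    (hunit : ∀ ε : Sˣ, ord (redO ⟨algebraMap S F0 ε, hSO ε⟩) = 0)
    {f : F0} (hf : f ≠ 0)
    (H : ∀ n d : S, d ≠ 0 → f * algebraMap S F0 d = algebraMap S F0 n →
      ∀ h : S, Prime h → ¬ Associated h π →
        (p : ℤ) ∣ (multiplicity h n : ℤ) - (multiplicity h d : ℤ))
    (a : ℤ) (y : O) (hy : (y : F0) * algebraMap S F0 π ^ a = f) (hyinv : (y : F0)⁻¹ ∈ O) :
    (p : ℤ) ∣ ord (redO y) := by
  classical
  set ι : S →+* F0 := algebraMap S F0 with hι
  have hinj : Function.Injective ι := IsFractionRing.injective S F0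
  -- write `f = n₀ / d₀`, and split off the powers of `π`
  obtain ⟨n₀, d₀, hd₀, hfd⟩ : ∃ n₀ d₀ : S, d₀ ≠ 0 ∧ f * ι d₀ = ι n₀ := by
    obtain ⟨⟨n₀, d₀⟩, h⟩ := IsLocalization.surj (nonZeroDivisors S) f
    exact ⟨n₀, d₀, nonZeroDivisors.ne_zero d₀.2, h⟩
  have hn₀ : n₀ ≠ 0 := by
    rintro rfl
    rw [map_zero] at hfd
    rcases mul_eq_zero.mp hfd with h | h
    · exact hf h
    · exact hd₀ (hinj (by rw [h, map_zero]))
  obtain ⟨a₁, n, hπn, hn⟩ := WfDvdMonoid.max_power_factor hn₀ hπ.irreducible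
  obtain ⟨a₂, d, hπd, hd⟩ := WfDvdMonoid.max_power_factor hd₀ hπ.irreducible
  have hn0 : n ≠ 0 := fun h0 => hπn (h0 ▸ dvd_zero π)
  have hd0 : d ≠ 0 := fun h0 => hπd (h0 ▸ dvd_zero π)
  have hπ0 : ι π ≠ 0 := fun h0 => hπ.ne_zero (hinj (by rw [h0, map_zero]))
  have hιn : ι n ≠ 0 := fun h0 => hn0 (hinj (by rw [h0, map_zero]))
  have hιd : ι d ≠ 0 := fun h0 => hd0 (hinj (by rw [h0, map_zero]))
  have hy0 : (y : F0) ≠ 0 := by
    intro h0
    rw [h0, zero_mul] at hy
    exact hf hy.symm
  -- `π ^ e = (ι n / ι d) / y` with `e = a + a₂ - a₁`, a unit of `O`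
  have hrel : ι π ^ (a + a₂ - a₁) = (ι n * (ι d)⁻¹) * (y : F0)⁻¹ := by
    have h1 : (y : F0) * ι π ^ a * (ι π ^ a₂ * ι d) = ι π ^ a₁ * ι n := by
      rw [hy, ← map_pow, ← map_pow, ← map_mul, ← map_mul, ← hd, ← hn]
      exact hfd
    have h2 : ι π ^ (a + a₂ - a₁) = ι π ^ a * ι π ^ a₂ * (ι π ^ a₁)⁻¹ := by
      rw [zpow_sub₀ hπ0, zpow_add₀ hπ0, zpow_natCast, zpow_natCast, div_eq_mul_inv]
    rw [h2]
    have h3 : ι π ^ a₁ ≠ 0 := pow_ne_zero _ hπ0
    generalize ι π ^ a = X at h1 ⊢
    generalize ι π ^ a₂ = X₂ at h1 ⊢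
    generalize ι π ^ a₁ = X₁ at h1 h3 ⊢
    have h4 : X * X₂ * X₁⁻¹ * ((y : F0) * ι d) = ι n := by
      have h5 : X * X₂ * X₁⁻¹ * ((y : F0) * ι d) = X₁⁻¹ * ((y : F0) * X * (X₂ * ι d)) := by ring
      rw [h5, h1, ← mul_assoc, inv_mul_cancel₀ h3, one_mul]
    rw [← h4]
    field_simp
  have hmem : (ι n * (ι d)⁻¹) * (y : F0)⁻¹ ∈ O :=
    O.mul_mem _ _ (O.mul_mem _ _ (hSO n) (hinv d hπd)) hyinv
  have hmem' : ((ι n * (ι d)⁻¹) * (y : F0)⁻¹)⁻¹ ∈ O := by
    have : ((ι n * (ι d)⁻¹) * (y : F0)⁻¹)⁻¹ = (ι n)⁻¹ * ι d * (y : F0) := by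
      field_simp
    rw [this]
    exact O.mul_mem _ _ (O.mul_mem _ _ (hinv n hπn) (hSO d)) y.2
  have he : a + a₂ - a₁ = 0 := zpow_eq_zero_of_unit (hSO π) hπinv hmem hmem' hrel
  -- hence `y * ι d = ι n`
  have hyd : (y : F0) * ι d = ι n := by
    rw [he, zpow_zero] at hrel
    field_simp at hrel
    linear_combination hrel
  -- the ring form applies to `n`, `d`
  have hfnd : f * ι (π ^ a₂ * d) = ι (π ^ a₁ * n) := by rw [← hd, ← hn]; exact hfd
  have Hnd : ∀ h : S, Prime h → ¬ Associated h π →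
      (p : ℤ) ∣ (multiplicity h n : ℤ) - (multiplicity h d : ℤ) := by
    intro h hh hass
    have h1 := H (π ^ a₁ * n) (π ^ a₂ * d) (hd ▸ hd₀) hfnd h hh hass
    have hhπ : ¬ h ∣ π := fun hdv => hass (hh.associated_of_dvd hπ hdv)
    have h2 : ∀ (k : ℕ) (x : S), x ≠ 0 → multiplicity h (π ^ k * x) = multiplicity h x := by
      intro k x hx
      have hfin : FiniteMultiplicity h (π ^ k * x) :=
        FiniteMultiplicity.of_prime_left hh (mul_ne_zero (pow_ne_zero k hπ.ne_zero) hx)
      rw [multiplicity_mul hh hfin,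
        multiplicity_eq_zero.mpr fun hdv => hhπ (hh.dvd_of_dvd_pow hdv), zero_add]
    rw [h2 a₁ n hn0, h2 a₂ d hd0] at h1
    exact h1
  have hred : redO y * redO ⟨ι d, hSO d⟩ = redO ⟨ι n, hSO n⟩ := by
    rw [← map_mul]
    congr 1
    exact Subtype.ext hyd
  have hd' : redO ⟨ι d, hSO d⟩ ≠ 0 := fun h0 => hπd ((hker d).mp h0)
  have hn' : redO ⟨ι n, hSO n⟩ ≠ 0 := fun h0 => hπn ((hker n).mp h0)
  have hy' : redO y ≠ 0 := by
    intro h0
    rw [h0, zero_mul] at hred
    exact hn' hred.symm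
  let redS : S →+* κ := redO.comp
    { toFun := fun x => (⟨ι x, hSO x⟩ : O)
      map_one' := Subtype.ext (map_one ι)
      map_mul' := fun x z => Subtype.ext (map_mul ι x z)
      map_zero' := Subtype.ext (map_zero ι)
      map_add' := fun x z => Subtype.ext (map_add ι x z) }
  have hcore := dvd_ord_sub ord hp hπ redS hker hmul hunit hπn hπd Hnd
  have h4 : ord (redO ⟨ι n, hSO n⟩) = ord (redO y) + ord (redO ⟨ι d, hSO d⟩) := by
    rw [← hred, hmul _ _ hy' hd']
  have h5 : ord (redS n) - ord (redS d) = ord (redO y) := by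
    show ord (redO ⟨ι n, hSO n⟩) - ord (redO ⟨ι d, hSO d⟩) = ord (redO y)
    rw [h4]
    ring
  rw [h5] at hcore
  exact hcore

end Val

end Fermat.Agent.S40x.Node.SmoothB
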