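import Mathlib
import Fermat.Agent.S40x.Node.NodeLocalDatum
import Fermat.Agent.S40x.Node.TameNodeB
import Fermat.Agent.S40x.Node.SmoothB

/-!
# P-S44/S40, block R1 / N-alpha, leaf N4 (smooth-point rings), SECOND (helper27): the DATUM

The local datum at a SMOOTH closed point of the special fibre, in the SAME shape as the node datum
of `Node/NodeLocal` + `Node/NodeLocalDatum` (helper5): hypothesis style, no instance, generic
localisation `S` of the chart ring `B` at a prime `m` (`[IsLocalization.AtPrime S m]`).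

Setting: `B` a domain (the chart ring `B_0` over `O_0`), `q : ℕ` (the residue characteristic),
`ρ1 : B →+* B1`, `ρ2 : B →+* B2` the reductions onto the coordinate rings of the two components,

* `hker : ρ1 f = 0 → ρ2 f = 0 → (q : B) ∣ f` (the special fibre is reduced, (UNRAM)),
* `h1 : ρ1 q = 0`,
* `e : B` with `ρ2 e = 0` and `e ∉ m` (the point is NOT on the other component: not a node),
* `t ∈ m` with `hgen : ∀ b ∈ m, ∃ s ∉ m, ∃ c, ρ1 (s * b) = ρ1 (t * c)` (`ρ1 t` generates the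
  maximal ideal of `B1` locally at the point; `hgen_of_dedekind` derives it from
  `ρ1 t ∈ 𝔫 ∖ 𝔫 ^ 2` when `B1` is a Dedekind domain and `m = 𝔫.comap ρ1`).

The trick: the node lemmas of `Node/NodeLocal` apply verbatim with `(u, u', Ψ) := (q, e, e)`
(`u * u' = q * Ψ` is `rfl`), so nothing of the localisation calculus is re-proved.

Output:

* `map_eq_zero_iff_dvd` : the kernel of the local reduction `r1 : S →+* D1` is `(q)`;
* `maximalIdeal_eq_span_pair` : the maximal ideal of `S` is `(q, t)`;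
* `isSmoothPtRing`, `isSmoothPtRing_localization` : **(N-Sm)** `IsSmoothPtRing S q t`, the seam
  literal of `Node/NodeDatum`;
* `isBranch` : the valuation half (v1) in the vocabulary `TameNodeB.IsBranch (q : S) O`
  (`S ⊆ O`, `S ∖ q S ⊆ Oˣ`, `q ∉ Oˣ`), and `valuation_lt_one_iff_dvd`;
* weak (n3): `exists_decomp_of_not_dvd` (`r = ε * t ^ n + q * y` for `r ∉ (q)`),
  `ord_map_t_eq_one`, `exists_ord_map_eq` (the order at the place `P` of the reduction is the
  order in the discrete valuation ring `S ⧸ (q)`);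
* `not_dvd_natCast` : a prime of `S` not associated to `q` does not divide `q` (PrimePlace seam:
  `q` is invertible in the localisation at that prime, which therefore contains `K_0`);
* `tame_smooth` : **(TAME-Sm)** = (b5), from `SmoothB.dvd_ord_red`.
-/

set_option autoImplicit false
set_option linter.unusedSectionVars false

namespace Fermat.Agent.S40x.Node.SmoothBDatum

open IsLocalRing
open Fermat.Agent.S40x.Node

/-! ### The chart-level lemma -/

section Gen

variable {B B1 B2 : Type*} [CommRing B] [IsDomain B] [CommRing B1] [CommRing B2]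
  (ρ1 : B →+* B1) (ρ2 : B →+* B2) {π e : B}

/-- **(SM-GEN)**: an element killed by `ρ1` becomes a multiple of `π` after multiplication by an
element `e` vanishing on the other component. -/
theorem exists_mul_eq_of_rho1 (hπ : π ≠ 0) (hker : ∀ f, ρ1 f = 0 → ρ2 f = 0 → π ∣ f)
    (h2 : ρ2 e = 0) {f : B} (hf : ρ1 f = 0) : ∃ c, e * f = π * c :=
  NodeLocal.exists_mul_eq_of_rho1 ρ1 ρ2 hπ hker (rfl : π * e = π * e) h2 hf

end Gen

/-! ### A local generator of a maximal ideal of a Dedekind domain -/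

section Dedekind

/-- In a Dedekind domain, an element of `𝔫 ∖ 𝔫 ^ 2` generates `𝔫` locally at `𝔫`. -/
theorem exists_mul_eq_of_notMem_sq {B1 : Type*} [CommRing B1] [IsDedekindDomain B1]
    (𝔫 : Ideal B1) [𝔫.IsPrime] {τ : B1} (hτ : τ ∈ 𝔫) (hτ2 : τ ∉ 𝔫 ^ 2) {x : B1} (hx : x ∈ 𝔫) :
    ∃ s ∉ 𝔫, ∃ c, s * x = τ * c := by
  obtain ⟨J, hJ⟩ : 𝔫 ∣ Ideal.span {τ} := Ideal.dvd_span_singleton.mpr hτ
  have hJn : ¬ J ≤ 𝔫 := by
    intro hle
    apply hτ2
    have h1 : Ideal.span {τ} ≤ 𝔫 ^ 2 := by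
      rw [hJ, pow_two]
      exact Ideal.mul_mono le_rfl hle
    exact h1 (Ideal.mem_span_singleton_self τ)
  obtain ⟨s, hsJ, hs⟩ := SetLike.not_le_iff_exists.mp hJn
  refine ⟨s, hs, ?_⟩
  have hmem : x * s ∈ Ideal.span {τ} := by
    rw [hJ]
    exact Ideal.mul_mem_mul hx hsJ
  obtain ⟨c, hc⟩ := Ideal.mem_span_singleton'.mp hmem
  exact ⟨c, by rw [mul_comm s x, ← hc, mul_comm]⟩

/-- the hypothesis `hgen` from a Dedekind coordinate ring. -/
theorem hgen_of_dedekind {B B1 : Type*} [CommRing B] [CommRing B1] [IsDedekindDomain B1]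
    (ρ1 : B →+* B1) (hsurj : Function.Surjective ρ1) (𝔫 : Ideal B1) [𝔫.IsPrime] {t : B}
    (ht : ρ1 t ∈ 𝔫) (ht2 : ρ1 t ∉ 𝔫 ^ 2) :
    ∀ b ∈ 𝔫.comap ρ1, ∃ s ∉ 𝔫.comap ρ1, ∃ c, ρ1 (s * b) = ρ1 (t * c) := by
  intro b hb
  obtain ⟨s1, hs1, c1, hc1⟩ := exists_mul_eq_of_notMem_sq 𝔫 ht ht2 (Ideal.mem_comap.mp hb)
  obtain ⟨s, rfl⟩ := hsurj s1
  obtain ⟨c, rfl⟩ := hsurj c1
  exact ⟨s, fun h => hs1 (Ideal.mem_comap.mp h), c, by rw [map_mul, map_mul, hc1]⟩

end Dedekind

/-! ### The local ring at a smooth point -/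

section Local

variable {B B1 B2 : Type*} [CommRing B] [IsDomain B] [CommRing B1] [IsDomain B1]
  [CommRing B2] [IsDomain B2]
  (ρ1 : B →+* B1) (ρ2 : B →+* B2) (q : ℕ) {e t : B}
  {S : Type*} [CommRing S] [Algebra B S] (m : Ideal B) [m.IsPrime] [IsLocalization.AtPrime S m]
  {D1 : Type*} [CommRing D1] [Algebra B1 D1] (r1 : S →+* D1)

/-- the local reduction kills exactly the multiples of `q` -/
theorem map_eq_zero_iff_dvd (hr1 : ∀ b, r1 (algebraMap B S b) = algebraMap B1 D1 (ρ1 b))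
    (hinj : Function.Injective (algebraMap B1 D1)) (hq : (q : B) ≠ 0)
    (hker : ∀ f, ρ1 f = 0 → ρ2 f = 0 → (q : B) ∣ f) (h1 : ρ1 (q : B) = 0) (h2 : ρ2 e = 0)
    (he : e ∉ m) (x : S) : r1 x = 0 ↔ (q : S) ∣ x := by
  have h := NodeLocal.map_eq_zero_iff_dvd ρ1 ρ2 m r1 hr1 hinj hq hker
    (rfl : (q : B) * e = (q : B) * e) h1 h2 he x
  rwa [map_natCast] at h

/-- `q` is a prime element of the smooth-point ring -/
theorem prime_natCast [IsLocalRing S] [IsDomain D1]
    (hr1 : ∀ b, r1 (algebraMap B S b) = algebraMap B1 D1 (ρ1 b))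
    (hinj : Function.Injective (algebraMap B1 D1)) (hq : (q : B) ≠ 0)
    (hker : ∀ f, ρ1 f = 0 → ρ2 f = 0 → (q : B) ∣ f) (h1 : ρ1 (q : B) = 0) (h2 : ρ2 e = 0)
    (he : e ∉ m) : Prime (q : S) := by
  have h := NodeLocal.prime_u ρ1 ρ2 m r1 hr1 hinj hq hker
    (rfl : (q : B) * e = (q : B) * e) h1 h2 he
  rwa [map_natCast] at h

/-- **(N-Sm), first field**: the maximal ideal of the smooth-point ring is `(q, t)` -/
theorem maximalIdeal_eq_span_pair [IsLocalRing S] (hq : (q : B) ≠ 0)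
    (hker : ∀ f, ρ1 f = 0 → ρ2 f = 0 → (q : B) ∣ f) (h2 : ρ2 e = 0) (he : e ∉ m)
    (hqm : (q : B) ∈ m) (htm : t ∈ m)
    (hgen : ∀ b ∈ m, ∃ s ∉ m, ∃ c, ρ1 (s * b) = ρ1 (t * c)) :
    maximalIdeal S = Ideal.span {(q : S), algebraMap B S t} := by
  apply le_antisymm
  · rw [← IsLocalization.AtPrime.map_eq_maximalIdeal m S, Ideal.map_le_iff_le_comap]
    intro b hb
    rw [Ideal.mem_comap]
    obtain ⟨s, hs, c, hc⟩ := hgen b hb
    obtain ⟨c', hc'⟩ := exists_mul_eq_of_rho1 ρ1 ρ2 hq hker h2 (f := s * b - t * c)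
      (by rw [map_sub, hc, sub_self])
    have hunit : IsUnit (algebraMap B S (e * s)) :=
      IsLocalization.map_units S (⟨e * s, (m.primeCompl).mul_mem he hs⟩ : m.primeCompl)
    have hS : algebraMap B S (e * s) * algebraMap B S b =
        (q : S) * algebraMap B S c' + algebraMap B S t * algebraMap B S (e * c) := by
      rw [← map_natCast (algebraMap B S) q, ← map_mul, ← map_mul, ← map_mul, ← map_add]
      congr 1
      linear_combination hc'
    have hmem : algebraMap B S (e * s) * algebraMap B S b ∈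
        Ideal.span {(q : S), algebraMap B S t} := by
      rw [hS]
      refine Ideal.add_mem _ (Ideal.mul_mem_right _ _ (Ideal.subset_span (by simp)))
        (Ideal.mul_mem_right _ _ (Ideal.subset_span (by simp)))
    obtain ⟨v, hv⟩ := hunit.exists_left_inv
    have : algebraMap B S b = v * (algebraMap B S (e * s) * algebraMap B S b) := by
      rw [← mul_assoc, hv, one_mul]
    rw [this]
    exact Ideal.mul_mem_left _ _ hmem
  · rw [Ideal.span_le]
    rintro x (rfl | rfl)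
    · rw [← map_natCast (algebraMap B S) q]
      exact (IsLocalization.AtPrime.to_map_mem_maximal_iff S m (q : B)).mpr hqm
    · exact (IsLocalization.AtPrime.to_map_mem_maximal_iff S m t).mpr htm

/-- **(N-Sm)**: the seam literal `IsSmoothPtRing S q t` of `Node/NodeDatum`, from the chart
hypotheses. -/
theorem isSmoothPtRing [IsDomain S] [IsNoetherianRing S] [IsLocalRing S] [IsDomain D1]
    (hr1 : ∀ b, r1 (algebraMap B S b) = algebraMap B1 D1 (ρ1 b))
    (hinj : Function.Injective (algebraMap B1 D1)) (hq : (q : B) ≠ 0)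
    (hker : ∀ f, ρ1 f = 0 → ρ2 f = 0 → (q : B) ∣ f) (h1 : ρ1 (q : B) = 0) (h2 : ρ2 e = 0)
    (he : e ∉ m) (hker1 : ∀ b, ρ1 b = 0 → b ∈ m) (htm : t ∈ m) (ht1 : ρ1 t ≠ 0)
    (hgen : ∀ b ∈ m, ∃ s ∉ m, ∃ c, ρ1 (s * b) = ρ1 (t * c)) :
    IsSmoothPtRing S q (algebraMap B S t) where
  maximalIdeal_eq :=
    maximalIdeal_eq_span_pair ρ1 ρ2 q m hq hker h2 he (hker1 _ h1) htm hgen
  prime_p := prime_natCast ρ1 ρ2 q m r1 hr1 hinj hq hker h1 h2 he
  not_dvd := by
    intro hd
    have h0 := (map_eq_zero_iff_dvd ρ1 ρ2 q m r1 hr1 hinj hq hker h1 h2 he _).mpr hd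
    rw [hr1] at h0
    exact ht1 (hinj (by rw [h0, map_zero]))

end Local

section Concrete

variable {B B1 B2 : Type*} [CommRing B] [IsDomain B] [IsNoetherianRing B]
  [CommRing B1] [IsDomain B1] [CommRing B2] [IsDomain B2]
  (ρ1 : B →+* B1) (ρ2 : B →+* B2) (q : ℕ) {e t : B} (m : Ideal B) [m.IsPrime]

/-- **(N-Sm)** for the concrete localisation `R_P = B_m`; the auxiliary target of the local
reduction is the fraction field of `B1`. -/
theorem isSmoothPtRing_localization (hq : (q : B) ≠ 0)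
    (hker : ∀ f, ρ1 f = 0 → ρ2 f = 0 → (q : B) ∣ f) (h1 : ρ1 (q : B) = 0) (h2 : ρ2 e = 0)
    (he : e ∉ m) (hker1 : ∀ b, ρ1 b = 0 → b ∈ m) (htm : t ∈ m) (ht1 : ρ1 t ≠ 0)
    (hgen : ∀ b ∈ m, ∃ s ∉ m, ∃ c, ρ1 (s * b) = ρ1 (t * c)) :
    IsSmoothPtRing (Localization.AtPrime m) q (algebraMap B _ t) := by
  have hle1 : m.primeCompl ≤ (nonZeroDivisors B1).comap ρ1 := by
    intro x hx
    rw [Submonoid.mem_comap, mem_nonZeroDivisors_iff_ne_zero]
    exact fun h0 => hx (hker1 x h0)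
  exact isSmoothPtRing ρ1 ρ2 q m
    (IsLocalization.map (FractionRing B1) ρ1 hle1 : Localization.AtPrime m →+* FractionRing B1)
    (fun b => IsLocalization.map_eq hle1 b) (IsFractionRing.injective B1 _)
    hq hker h1 h2 he hker1 htm ht1 hgen

end Concrete

/-! ### The valuation half `(v1)` -/

section Val

open TameNodeB

variable {B B1 B2 : Type*} [CommRing B] [IsDomain B] [CommRing B1] [CommRing B2]
  (ρ1 : B →+* B1) (ρ2 : B →+* B2) (q : ℕ) {e : B}
  {S : Type*} [CommRing S] [IsDomain S] [Algebra B S] (m : Ideal B) [m.IsPrime]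
  [IsLocalization.AtPrime S m]
  {F0 : Type*} [Field F0] [Algebra B F0] [Algebra S F0] [IsScalarTower B S F0]
  [IsFractionRing S F0] (O : ValuationSubring F0)

/-- **(v1)**: `O ∩ Frac S` is the localisation of `S` at the prime `(q)`: `S ⊆ O`, the elements
of `S` outside `q S` are units of `O`, `q` is not a unit of `O`. -/
theorem isBranch (hinjF : Function.Injective (algebraMap B F0))
    (hB : ∀ b : B, algebraMap B F0 b ∈ O)
    (hρ : ∀ b : B, ρ1 b ≠ 0 → (algebraMap B F0 b)⁻¹ ∈ O)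
    (hker1 : ∀ b, ρ1 b = 0 → b ∈ m) (hq : (q : B) ≠ 0)
    (hker : ∀ f, ρ1 f = 0 → ρ2 f = 0 → (q : B) ∣ f) (h2 : ρ2 e = 0) (he : e ∉ m)
    (hqO : ((q : ℕ) : F0)⁻¹ ∉ O) : IsBranch ((q : ℕ) : S) O where
  mem := NodeLocalDatum.algebraMap_mem ρ1 m O hinjF hB hρ hker1
  inv_mem := by
    intro x hx
    refine NodeLocalDatum.inv_mem_of_not_dvd ρ1 ρ2 m O hinjF hB hρ hq hker
      (rfl : (q : B) * e = (q : B) * e) h2 he ?_
    rwa [map_natCast]
  inv_notMem := by rwa [map_natCast]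

/-- the multiples of `q` in `S` are the elements of positive valuation -/
theorem valuation_lt_one_iff_dvd {O : ValuationSubring F0} (hO : IsBranch ((q : ℕ) : S) O)
    (x : S) : O.valuation (algebraMap S F0 x) < 1 ↔ ((q : ℕ) : S) ∣ x := by
  constructor
  · intro hlt
    by_contra hx
    rw [hO.val_eq_one hx] at hlt
    exact lt_irrefl _ hlt
  · rintro ⟨y, rfl⟩
    rw [map_mul, map_mul]
    calc O.valuation (algebraMap S F0 ((q : ℕ) : S)) * O.valuation (algebraMap S F0 y)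
        ≤ O.valuation (algebraMap S F0 ((q : ℕ) : S)) * 1 :=
          mul_le_mul' le_rfl (hO.val_le_one y)
      _ < 1 := by rw [mul_one]; exact hO.val_lt_one

end Val

/-! ### The weak `(n3)` at a smooth point -/

section Decomp

variable {S : Type*} [CommRing S] [IsDomain S] [IsNoetherianRing S] [IsLocalRing S]
  {q : ℕ} {t : S}

/-- in a smooth-point ring, an element outside `(q)` is `ε * t ^ n` modulo `q`, `ε` a unit:
`n` is its order in the discrete valuation ring `S ⧸ (q)` -/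
theorem exists_decomp_of_not_dvd (h : IsSmoothPtRing S q t) {r : S} (hr : ¬ (q : S) ∣ r) :
    ∃ (n : ℕ) (ε y : S), IsUnit ε ∧ r = ε * t ^ n + (q : S) * y := by
  have hdom := h.quotient_isDomain
  have hdvr := h.quotient_isDiscreteValuationRing
  have hirr := h.irreducible_mk
  have hne : Ideal.Quotient.mk (Ideal.span {(q : S)}) r ≠ 0 := fun h0 =>
    hr (mk_eq_zero_iff.mp h0)
  obtain ⟨n, u, hu⟩ := IsDiscreteValuationRing.eq_unit_mul_pow_irreducible hne hirr
  obtain ⟨ε, hε⟩ := Ideal.Quotient.mk_surjective (u : S ⧸ Ideal.span {(q : S)})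
  have hεu : IsUnit ε := by
    by_contra hnu
    have hmem : ε ∈ maximalIdeal S := by
      rwa [IsLocalRing.mem_maximalIdeal, mem_nonunits_iff]
    rw [h.maximalIdeal_eq, Ideal.mem_span_pair] at hmem
    obtain ⟨a, b, hab⟩ := hmem
    have h1 : (u : S ⧸ Ideal.span {(q : S)}) =
        Ideal.Quotient.mk (Ideal.span {(q : S)}) b *
          Ideal.Quotient.mk (Ideal.span {(q : S)}) t := by
      rw [← hε, ← hab, map_add, map_mul, map_mul,
        mk_eq_zero_iff.mpr (dvd_refl (q : S)), mul_zero, zero_add]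
    have h2 : IsUnit (Ideal.Quotient.mk (Ideal.span {(q : S)}) t) :=
      isUnit_of_mul_isUnit_right (h1 ▸ u.isUnit)
    exact hirr.not_isUnit h2
  have h0 : Ideal.Quotient.mk (Ideal.span {(q : S)}) (r - ε * t ^ n) = 0 := by
    rw [map_sub, map_mul, map_pow, hε, hu, sub_self]
  obtain ⟨y, hy⟩ := mk_eq_zero_iff.mp h0
  exact ⟨n, ε, y, hεu, by rw [← hy]; ring⟩

/-- **PrimePlace seam**: a prime element not associated to `q` does not divide `q` (so `q` is a
unit of the discrete valuation ring `S_(π)`, which therefore contains `K_0`). -/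
theorem not_dvd_natCast (h : IsSmoothPtRing S q t) {π : S} (hπ : Prime π)
    (h1 : ¬ Associated π (q : S)) : ¬ π ∣ (q : S) := fun hd =>
  h1 (hπ.irreducible.associated_of_dvd h.prime_p.irreducible hd)

end Decomp

section OrdSmooth

open AlgebraicCurve

variable {k κ : Type*} [Field k] [Field κ] [Algebra k κ] (P : Place k κ)
  {S : Type*} [CommRing S] [IsDomain S] [IsNoetherianRing S] [IsLocalRing S]
  (ρ : S →+* κ) {q : ℕ} {t : S}

/-- **weak (n3)**: `P.ord (ρ t) = 1` as soon as ONE element of `S` reduces to a uniformiser. -/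
theorem ord_map_t_eq_one (h : IsSmoothPtRing S q t) (hq : ρ (q : S) = 0)
    (hP1 : ∀ x : S, 0 ≤ P.ord (ρ x)) (hP2 : 0 < P.ord (ρ t))
    (ht : ∃ t' : S, P.ord (ρ t') = 1) : P.ord (ρ t) = 1 :=
  NodeLocalDatum.ord_map_u'_eq_one P ρ h.maximalIdeal_eq hq hP1 hP2 ht

/-- **weak (n3), consumer form**: on `S ∖ (q)` the order at `P` of the reduction is the order in
the discrete valuation ring `S ⧸ (q)` (uniformiser the class of `t`). -/
theorem exists_ord_map_eq (h : IsSmoothPtRing S q t) (hq : ρ (q : S) = 0)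
    (hP1 : ∀ x : S, 0 ≤ P.ord (ρ x)) (hP2 : 0 < P.ord (ρ t))
    (ht : ∃ t' : S, P.ord (ρ t') = 1) {r : S} (hr : ¬ (q : S) ∣ r) :
    ∃ (n : ℕ) (ε y : S), IsUnit ε ∧ r = ε * t ^ n + (q : S) * y ∧ P.ord (ρ r) = n := by
  obtain ⟨n, ε, y, hε, hdec⟩ := exists_decomp_of_not_dvd h hr
  have hord := ord_map_t_eq_one P ρ h hq hP1 hP2 ht
  exact ⟨n, ε, y, hε, hdec, NodeLocalDatum.ord_map_eq_of_decomp P ρ hq hP1 hord hε hdec⟩

end OrdSmooth

/-! ### (TAME-Sm) = (b5) -/

section Tame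

open AlgebraicCurve TameNodeB

variable {k κ : Type*} [Field k] [Field κ] [Algebra k κ] (P : Place k κ)
  {S : Type*} [CommRing S] [IsDomain S] [IsNoetherianRing S] [IsLocalRing S]
  {F0 : Type*} [Field F0] [Algebra S F0] [IsFractionRing S F0]
  {q : ℕ} {t : S}

/-- **(TAME-Sm)**: `S` a smooth-point ring, `O = S_(q)` its branch, `redO : O →+* κ` the
reduction (kernel `(q)` on `S`), `P` a place of `κ` with `redO (S) ⊆ O_P`.  Let `f ≠ 0` be a
function all of whose horizontal multiplicities are divisible by `q` (for every way of writing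
`f = n / d`).  If `y = f / q ^ a` is a unit of `O` then `q ∣ P.ord (redO y)`. -/
theorem tame_smooth (h : IsSmoothPtRing S q t) (hq : q ≠ 0) {O : ValuationSubring F0}
    (hO : IsBranch ((q : ℕ) : S) O) (redO : O →+* κ)
    (hker : ∀ x : S, redO ⟨algebraMap S F0 x, hO.mem x⟩ = 0 ↔ ((q : ℕ) : S) ∣ x)
    (hP1 : ∀ x : S, 0 ≤ P.ord (redO ⟨algebraMap S F0 x, hO.mem x⟩))
    {f : F0} (hf : f ≠ 0)
    (H : ∀ n d : S, d ≠ 0 → f * algebraMap S F0 d = algebraMap S F0 n →
      ∀ π : S, Prime π → ¬ Associated π ((q : ℕ) : S) →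
        (q : ℤ) ∣ (multiplicity π n : ℤ) - (multiplicity π d : ℤ))
    (a : ℤ) (y : O) (hy : (y : F0) * ((q : ℕ) : F0) ^ a = f) (hyinv : (y : F0)⁻¹ ∈ O) :
    (q : ℤ) ∣ P.ord (redO y) := by
  have : UniqueFactorizationMonoid S := (SmoothB.IsSmoothRing.of_isSmoothPtRing h).ufm
  let redS : S →+* κ := redO.comp
    { toFun := fun x => (⟨algebraMap S F0 x, hO.mem x⟩ : O)
      map_one' := Subtype.ext (map_one _)
      map_mul' := fun x z => Subtype.ext (map_mul _ x z)
      map_zero' := Subtype.ext (map_zero _)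
      map_add' := fun x z => Subtype.ext (map_add _ x z) }
  have hmul : ∀ x z : κ, x ≠ 0 → z ≠ 0 → P.ord (x * z) = P.ord x + P.ord z :=
    fun x z hx hz => P.ord_mul hx hz
  have hunit : ∀ ε : Sˣ, P.ord (redO ⟨algebraMap S F0 ε, hO.mem ε⟩) = 0 := fun ε =>
    SmoothB.ord_red_unit_of_nonneg P.ord redS hmul (fun x _ => hP1 x) ε
  refine SmoothB.dvd_ord_red hq h.prime_p O hO.mem hO.inv_mem hO.inv_notMem redO hker P.ord hmul
    hunit hf H a y ?_ hyinv
  rw [map_natCast]
  exact hy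

end Tame

end Fermat.Agent.S40x.Node.SmoothBDatum
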