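import Fermat.Agent.S40x.Node.NodeRing
import Fermat.Agent.S40x.Node.NodeFrac
import Fermat.Agent.S40x.Node.SmoothBDatum
import Fermat.Agent.Gateway.GoodRed.PlacesIntegral

/-!
# P-S44/S40, block R1 / N-alpha, leaf N4 (smooth-point rings), SECOND (helper27): the INSTANCE

The smooth-point ring `R_P := Localization.AtPrime (𝔫.comap (rho1 C Γ))`, the localisation of the
chart ring `B_0 = fixedAlg Γ (BooAlg C)` (`Node/NodeInst`, helper50) at the pull-back of a prime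
`𝔫` of the coordinate ring `C.B₁` of the first component which is NOT a node: there is `a ∈ C.B₁`
with `(a, 0)` in the glue ring and `a ∉ 𝔫`.  Parallel to `Node/NodeRing` (the node ring `R_s`).

* `exists_lift_fst` : a lift `e ∈ B_0` of `(a, 0)`: `rho1 e = a`, `rho2 e = 0`;
* `isSmoothPtRing_fst` : **(N-Sm)** `IsSmoothPtRing R_P p t` in the abstract two-component
  setting, for every `t ∈ B_0` whose reduction generates `𝔫` locally (`hgen`);
  `isSmoothPtRing_fst_of_dedekind` : the same with `hgen` discharged by `rho1 t ∈ 𝔫 ∖ 𝔫 ^ 2` when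
  `C.B₁` is a Dedekind domain; `exists_isSmoothPtRing_fst` (existence of `t`);
* `exists_red_fst` : the local reduction `r1 : R_P →+* (C.B₁)_𝔫`, surjective with kernel `(p)`;
* `isSmoothPtRing_snd`, ... : the mirror statements for the second component;
* `TwoVal` section: at the level of two valuation rings (`redSetupTwoVal R₁ R₂`), for ANY prime
  `m` of `B_0` containing the kernel of `rho1` (nodes and smooth points alike):
  `Oinf := O₁ ∩ F^Γ` as a valuation subring of the fixed field `F^Γ = Frac B_0` (`NodeFrac`),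
  `isBranch_fst` : `IsBranch (p : (B_0)_m) Oinf` at a non-node prime; `redInf`, its kernel;
* `Ctx` section: everything inside the context bundle `Ctx R C p q x Dt` + `CtxGal R C Γ` +
  `FixData2 R Γ` + `hF` (Noetherianity by `FixedNoeth`, Dedekind by
  `GoodRed/PlacesIntegral`), leaving only the uniformiser hypothesis `hp`: `isSmoothPtRing`.
-/

set_option autoImplicit false
set_option linter.unusedSectionVars false
set_option linter.style.haveILetI false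

noncomputable section

namespace Fermat.Agent.S40x.Node.SmoothBInst

open AlgebraicCurve IsLocalRing Module
open Fermat.Agent.S34x Fermat.Agent.S34x.C0two Fermat.Agent.S34x.Lattice2
open Fermat.Agent.S19x.Geo.LatticeFixed (IsFixed IsFixedK)
open Fermat.Agent.S33x.H1.LatticeFixed2 Fermat.Agent.S33x.H1.FixedDecomp
open Fermat.Agent.S33x.W.InstW
open Fermat.Agent.S40x.Node Fermat.Agent.S40x.Node.NodeInst

section Abstract

variable {K : Type*} [Field K] {A : ValuationSubring K} {F : Type*} [Field F] [Algebra K F]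
  {S : SmallRing F} {k κ₁ κ₂ : Type*} [Field k] [Field κ₁] [Field κ₂] [Algebra k κ₁]
  [Algebra k κ₂] {R : RedSetup2 A S k (κ₁ × κ₂)} {C : ChartCoord R}
  {Γ : Set (SemilinearAut K F)}

variable
  (hlift : ∀ (b : ℕ) (y : κ₁ × κ₂), y ∈ R.redLat (C.LN 0 b) →
    ∃ (f : F) (hf : f ∈ S.O), f ∈ C.LN 0 b ∧ IsFixed Γ f ∧ R.res ⟨f, hf⟩ = y)

include hlift in
/-- a lift to `B_0` of an element `(a, 0)` of the glue ring. -/
theorem exists_lift_fst {a : C.B₁} (ha : (a, (0 : C.B₂)) ∈ C.BbarT) :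
    ∃ e : B0 C Γ, rho1 C Γ e = a ∧ rho2 C Γ e = 0 := by
  obtain ⟨e, he⟩ := rho_surjective_BbarT hlift ha
  exact ⟨e, by rw [← rho_fst, he], by rw [← rho_snd, he]⟩

include hlift in
/-- a lift to `B_0` of an element `(0, a)` of the glue ring. -/
theorem exists_lift_snd {a : C.B₂} (ha : ((0 : C.B₁), a) ∈ C.BbarT) :
    ∃ e : B0 C Γ, rho2 C Γ e = a ∧ rho1 C Γ e = 0 := by
  obtain ⟨e, he⟩ := rho_surjective_BbarT hlift ha
  exact ⟨e, by rw [← rho_snd, he], by rw [← rho_fst, he]⟩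

variable (hD : FixData2 R Γ) {p : ℕ}
  (hpfix : IsFixedK Γ (((p : A) : A) : K)) (hp0 : ((p : ℕ) : A) ≠ 0)
  (hp : ∀ c : A, IsFixedK Γ (c : K) → c ∈ maximalIdeal A → ((p : ℕ) : A) ∣ c)

/-- the fixed uniformiser `p` of `B_0` is the natural number `p`. -/
theorem unifB_eq_natCast : (unifB (C := C) hpfix : B0 C Γ) = ((p : ℕ) : B0 C Γ) := by
  apply Subtype.ext
  rw [coe_unifB]
  simp

include hpfix hp0 in
theorem natCast_B0_ne_zero : ((p : ℕ) : B0 C Γ) ≠ 0 := by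
  rw [← unifB_eq_natCast hpfix]
  exact unifB_ne_zero hpfix hp0

include hD hpfix hp0 hp in
/-- **(UNRAM)** in the `p ∣ f` form. -/
theorem natCast_dvd_of_rho_eq_zero {f : B0 C Γ} (hf1 : rho1 C Γ f = 0) (hf2 : rho2 C Γ f = 0) :
    ((p : ℕ) : B0 C Γ) ∣ f := by
  rw [← unifB_eq_natCast hpfix]
  exact unif_dvd_of_rho_eq_zero hD hpfix hp0 hp hf1 hf2

/-! ### First component -/

include hlift hD hpfix hp0 hp in
/-- **(N-Sm) for the smooth-point ring `R_P = (B_0)_{𝔫.comap rho1}`** of the first component,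
abstract two-component setting, `hgen` form. -/
theorem isSmoothPtRing_fst [IsNoetherianRing (B0 C Γ)] (hchar : ((p : ℕ) : C.B₁) = 0)
    (𝔫 : Ideal C.B₁) [𝔫.IsPrime] {a : C.B₁} (ha : (a, (0 : C.B₂)) ∈ C.BbarT) (ha𝔫 : a ∉ 𝔫)
    {t : B0 C Γ} (ht : rho1 C Γ t ∈ 𝔫) (ht0 : rho1 C Γ t ≠ 0)
    (hgen : ∀ b ∈ 𝔫.comap (rho1 C Γ), ∃ s ∉ 𝔫.comap (rho1 C Γ), ∃ c,
      rho1 C Γ (s * b) = rho1 C Γ (t * c)) :
    IsSmoothPtRing (Localization.AtPrime (𝔫.comap (rho1 C Γ))) p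
      (algebraMap (B0 C Γ) _ t) := by
  obtain ⟨e, he1, he2⟩ := exists_lift_fst hlift ha
  refine SmoothBDatum.isSmoothPtRing_localization (rho1 C Γ) (rho2 C Γ) p (e := e)
    (𝔫.comap (rho1 C Γ)) (natCast_B0_ne_zero hpfix hp0)
    (fun f hf1 hf2 => natCast_dvd_of_rho_eq_zero hD hpfix hp0 hp hf1 hf2)
    (by rw [map_natCast]; exact hchar) he2 ?_ ?_ ht ht0 hgen
  · intro hmem
    rw [Ideal.mem_comap, he1] at hmem
    exact ha𝔫 hmem
  · intro b hb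
    rw [Ideal.mem_comap, hb]
    exact 𝔫.zero_mem

include hlift hD hpfix hp0 hp in
/-- **(N-Sm)**, first component, `C.B₁` a Dedekind domain: any `t` with `rho1 t ∈ 𝔫 ∖ 𝔫 ^ 2`. -/
theorem isSmoothPtRing_fst_of_dedekind [IsNoetherianRing (B0 C Γ)] [IsDedekindDomain C.B₁]
    (hL2 : C.IsL2) (hchar : ((p : ℕ) : C.B₁) = 0)
    (𝔫 : Ideal C.B₁) [𝔫.IsPrime] {a : C.B₁} (ha : (a, (0 : C.B₂)) ∈ C.BbarT) (ha𝔫 : a ∉ 𝔫)
    {t : B0 C Γ} (ht : rho1 C Γ t ∈ 𝔫) (ht2 : rho1 C Γ t ∉ 𝔫 ^ 2) :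
    IsSmoothPtRing (Localization.AtPrime (𝔫.comap (rho1 C Γ))) p
      (algebraMap (B0 C Γ) _ t) := by
  refine isSmoothPtRing_fst hlift hD hpfix hp0 hp hchar 𝔫 ha ha𝔫 ht ?_
    (SmoothBDatum.hgen_of_dedekind (rho1 C Γ) (rho1_surjective hlift hL2) 𝔫 ht ht2)
  intro h0
  exact ht2 (h0 ▸ (𝔫 ^ 2).zero_mem)

include hlift hD hpfix hp0 hp in
/-- **(N-Sm)**, first component: existence of the local parameter. -/
theorem exists_isSmoothPtRing_fst [IsNoetherianRing (B0 C Γ)] [IsDedekindDomain C.B₁]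
    (hL2 : C.IsL2) (hchar : ((p : ℕ) : C.B₁) = 0)
    (𝔫 : Ideal C.B₁) [𝔫.IsPrime] (h𝔫 : 𝔫 ≠ ⊥) {a : C.B₁} (ha : (a, (0 : C.B₂)) ∈ C.BbarT)
    (ha𝔫 : a ∉ 𝔫) :
    ∃ t : B0 C Γ, rho1 C Γ t ∈ 𝔫 ∧ rho1 C Γ t ∉ 𝔫 ^ 2 ∧
      IsSmoothPtRing (Localization.AtPrime (𝔫.comap (rho1 C Γ))) p
        (algebraMap (B0 C Γ) _ t) := by
  have h𝔫top : 𝔫 ≠ ⊤ := Ideal.IsPrime.ne_top inferInstance
  obtain ⟨τ, hτ, hτ2⟩ := Ideal.exists_mem_pow_notMem_pow_succ 𝔫 h𝔫 h𝔫top 1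
  rw [pow_one] at hτ
  obtain ⟨t, rfl⟩ := rho1_surjective hlift hL2 τ
  exact ⟨t, hτ, hτ2,
    isSmoothPtRing_fst_of_dedekind hlift hD hpfix hp0 hp hL2 hchar 𝔫 ha ha𝔫 hτ hτ2⟩

include hlift hD hpfix hp0 hp in
/-- the local reduction `R_P → (C.B₁)_𝔫`: surjective, kernel `(p)`. -/
theorem exists_red_fst (hL2 : C.IsL2) (hchar : ((p : ℕ) : C.B₁) = 0)
    (𝔫 : Ideal C.B₁) [𝔫.IsPrime] {a : C.B₁} (ha : (a, (0 : C.B₂)) ∈ C.BbarT) (ha𝔫 : a ∉ 𝔫) :
    ∃ r1 : Localization.AtPrime (𝔫.comap (rho1 C Γ)) →+* Localization.AtPrime 𝔫,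
      (∀ b, r1 (algebraMap (B0 C Γ) _ b) = algebraMap C.B₁ _ (rho1 C Γ b)) ∧
      Function.Surjective r1 ∧
      ∀ x, r1 x = 0 ↔ ((p : ℕ) : Localization.AtPrime (𝔫.comap (rho1 C Γ))) ∣ x := by
  obtain ⟨e, he1, he2⟩ := exists_lift_fst hlift ha
  obtain ⟨r1, hr1⟩ := NodeLocal.exists_local_red (rho1 C Γ)
    (Localization.AtPrime (𝔫.comap (rho1 C Γ))) (𝔫.comap (rho1 C Γ))
    (Localization.AtPrime 𝔫) 𝔫 rfl
  refine ⟨r1, hr1, NodeLocal.local_surjective (rho1 C Γ) (𝔫.comap (rho1 C Γ)) 𝔫 r1 hr1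
    (rho1_surjective hlift hL2) rfl, ?_⟩
  refine SmoothBDatum.map_eq_zero_iff_dvd (rho1 C Γ) (rho2 C Γ) p (e := e)
    (𝔫.comap (rho1 C Γ)) r1 hr1
    (IsLocalization.injective _ (Ideal.primeCompl_le_nonZeroDivisors 𝔫))
    (natCast_B0_ne_zero hpfix hp0)
    (fun f hf1 hf2 => natCast_dvd_of_rho_eq_zero hD hpfix hp0 hp hf1 hf2)
    (by rw [map_natCast]; exact hchar) he2 ?_
  intro hmem
  rw [Ideal.mem_comap, he1] at hmem
  exact ha𝔫 hmem

/-! ### Second component (mirror) -/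

include hlift hD hpfix hp0 hp in
/-- **(N-Sm) for the smooth-point ring `(B_0)_{𝔫.comap rho2}`** of the second component. -/
theorem isSmoothPtRing_snd [IsNoetherianRing (B0 C Γ)] (hchar : ((p : ℕ) : C.B₂) = 0)
    (𝔫 : Ideal C.B₂) [𝔫.IsPrime] {a : C.B₂} (ha : ((0 : C.B₁), a) ∈ C.BbarT) (ha𝔫 : a ∉ 𝔫)
    {t : B0 C Γ} (ht : rho2 C Γ t ∈ 𝔫) (ht0 : rho2 C Γ t ≠ 0)
    (hgen : ∀ b ∈ 𝔫.comap (rho2 C Γ), ∃ s ∉ 𝔫.comap (rho2 C Γ), ∃ c,
      rho2 C Γ (s * b) = rho2 C Γ (t * c)) :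
    IsSmoothPtRing (Localization.AtPrime (𝔫.comap (rho2 C Γ))) p
      (algebraMap (B0 C Γ) _ t) := by
  obtain ⟨e, he2, he1⟩ := exists_lift_snd hlift ha
  refine SmoothBDatum.isSmoothPtRing_localization (rho2 C Γ) (rho1 C Γ) p (e := e)
    (𝔫.comap (rho2 C Γ)) (natCast_B0_ne_zero hpfix hp0)
    (fun f hf2 hf1 => natCast_dvd_of_rho_eq_zero hD hpfix hp0 hp hf1 hf2)
    (by rw [map_natCast]; exact hchar) he1 ?_ ?_ ht ht0 hgen
  · intro hmem
    rw [Ideal.mem_comap, he2] at hmem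
    exact ha𝔫 hmem
  · intro b hb
    rw [Ideal.mem_comap, hb]
    exact 𝔫.zero_mem

include hlift hD hpfix hp0 hp in
/-- **(N-Sm)**, second component, `C.B₂` a Dedekind domain. -/
theorem isSmoothPtRing_snd_of_dedekind [IsNoetherianRing (B0 C Γ)] [IsDedekindDomain C.B₂]
    (hL2 : C.IsL2) (hchar : ((p : ℕ) : C.B₂) = 0)
    (𝔫 : Ideal C.B₂) [𝔫.IsPrime] {a : C.B₂} (ha : ((0 : C.B₁), a) ∈ C.BbarT) (ha𝔫 : a ∉ 𝔫)
    {t : B0 C Γ} (ht : rho2 C Γ t ∈ 𝔫) (ht2 : rho2 C Γ t ∉ 𝔫 ^ 2) :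
    IsSmoothPtRing (Localization.AtPrime (𝔫.comap (rho2 C Γ))) p
      (algebraMap (B0 C Γ) _ t) := by
  refine isSmoothPtRing_snd hlift hD hpfix hp0 hp hchar 𝔫 ha ha𝔫 ht ?_
    (SmoothBDatum.hgen_of_dedekind (rho2 C Γ) (rho2_surjective hlift hL2) 𝔫 ht ht2)
  intro h0
  exact ht2 (h0 ▸ (𝔫 ^ 2).zero_mem)

include hlift hD hpfix hp0 hp in
/-- the local reduction `(B_0)_{𝔫.comap rho2} → (C.B₂)_𝔫`: surjective, kernel `(p)`. -/
theorem exists_red_snd (hL2 : C.IsL2) (hchar : ((p : ℕ) : C.B₂) = 0)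
    (𝔫 : Ideal C.B₂) [𝔫.IsPrime] {a : C.B₂} (ha : ((0 : C.B₁), a) ∈ C.BbarT) (ha𝔫 : a ∉ 𝔫) :
    ∃ r2 : Localization.AtPrime (𝔫.comap (rho2 C Γ)) →+* Localization.AtPrime 𝔫,
      (∀ b, r2 (algebraMap (B0 C Γ) _ b) = algebraMap C.B₂ _ (rho2 C Γ b)) ∧
      Function.Surjective r2 ∧
      ∀ x, r2 x = 0 ↔ ((p : ℕ) : Localization.AtPrime (𝔫.comap (rho2 C Γ))) ∣ x := by
  obtain ⟨e, he2, he1⟩ := exists_lift_snd hlift ha
  obtain ⟨r2, hr2⟩ := NodeLocal.exists_local_red (rho2 C Γ)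
    (Localization.AtPrime (𝔫.comap (rho2 C Γ))) (𝔫.comap (rho2 C Γ))
    (Localization.AtPrime 𝔫) 𝔫 rfl
  refine ⟨r2, hr2, NodeLocal.local_surjective (rho2 C Γ) (𝔫.comap (rho2 C Γ)) 𝔫 r2 hr2
    (rho2_surjective hlift hL2) rfl, ?_⟩
  refine SmoothBDatum.map_eq_zero_iff_dvd (rho2 C Γ) (rho1 C Γ) p (e := e)
    (𝔫.comap (rho2 C Γ)) r2 hr2
    (IsLocalization.injective _ (Ideal.primeCompl_le_nonZeroDivisors 𝔫))
    (natCast_B0_ne_zero hpfix hp0)
    (fun f hf2 hf1 => natCast_dvd_of_rho_eq_zero hD hpfix hp0 hp hf1 hf2)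
    (by rw [map_natCast]; exact hchar) he1 ?_
  intro hmem
  rw [Ideal.mem_comap, he2] at hmem
  exact ha𝔫 hmem

end Abstract

/-! ### The reduction on a branch -/

section Red

open TameNodeB

variable {S : Type*} [CommRing S] [IsDomain S] {F0 : Type*} [Field F0] [Algebra S F0]
  [IsFractionRing S F0] {κ : Type*} [Field κ]

/-- on a branch `O = S_(u)`, a reduction `redO : O →+* κ` killing `u` kills exactly the multiples
of `u` in `S` (hypothesis `hker` of `SmoothBDatum.tame_smooth`). -/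
theorem red_eq_zero_iff_dvd {u : S} {O : ValuationSubring F0} (hO : IsBranch u O)
    (redO : O →+* κ) (hu : redO ⟨algebraMap S F0 u, hO.mem u⟩ = 0) (x : S) :
    redO ⟨algebraMap S F0 x, hO.mem x⟩ = 0 ↔ u ∣ x := by
  constructor
  · intro h0
    by_contra hx
    have hinv := hO.inv_mem x hx
    have hx0 : algebraMap S F0 x ≠ 0 := by
      apply IsBranch.algebraMap_ne_zero
      rintro rfl
      exact hx (dvd_zero u)
    have h1 : redO ⟨algebraMap S F0 x, hO.mem x⟩ * redO ⟨(algebraMap S F0 x)⁻¹, hinv⟩ = 1 := by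
      rw [← map_mul, ← map_one redO]
      congr 1
      exact Subtype.ext (mul_inv_cancel₀ hx0)
    rw [h0, zero_mul] at h1
    exact zero_ne_one h1
  · rintro ⟨y, rfl⟩
    have h1 : (⟨algebraMap S F0 (u * y), hO.mem (u * y)⟩ : O) =
        ⟨algebraMap S F0 u, hO.mem u⟩ * ⟨algebraMap S F0 y, hO.mem y⟩ :=
      Subtype.ext (map_mul _ u y)
    rw [h1, map_mul, hu, zero_mul]

end Red

/-! ### The valuation half at the level of two valuation rings -/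

section TwoVal

open TameNodeB NodeFrac

variable {K : Type*} [Field K] {A : ValuationSubring K} {F : Type*} [Field F] [Algebra K F]
  {O₁ O₂ : ValuationSubring F} {k κ₁ κ₂ : Type*} [Field k] [Field κ₁] [Field κ₂]
  [Algebra k κ₁] [Algebra k κ₂]
  {R₁ : Gateway.C0.RedSetup A O₁ k κ₁} {R₂ : Gateway.C0.RedSetup A O₂ k κ₂} {hπ : R₁.π = R₂.π}
  {C : ChartCoord (redSetupTwoVal R₁ R₂ hπ)} {Γ : Set (SemilinearAut K F)}

/-- the valuation ring of the first component, restricted to the fixed field `F^Γ`. -/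
def Oinf {K : Type*} [Field K] {F : Type*} [Field F] [Algebra K F]
    (Γ : Set (SemilinearAut K F)) (O₁ : ValuationSubring F) : ValuationSubring (fixedField Γ) :=
  O₁.comap (fixedField Γ).subtype

theorem mem_Oinf {z : fixedField Γ} : z ∈ Oinf Γ O₁ ↔ (z : F) ∈ O₁ := Iff.rfl

theorem coe_mem_O₁ (b : B0 C Γ) : (b : F) ∈ O₁ := (coe_mem_O b).1

theorem coe_mem_O₂ (b : B0 C Γ) : (b : F) ∈ O₂ := (coe_mem_O b).2

/-- `B_0 ⊆ Oinf`. -/
theorem algebraMap_mem_Oinf (b : B0 C Γ) :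
    algebraMap (B0 C Γ) (fixedField Γ) b ∈ Oinf Γ O₁ :=
  coe_mem_O₁ b

theorem coe_rho1_eq (b : B0 C Γ) : ((rho1 C Γ b : C.B₁) : κ₁) = R₁.res ⟨(b : F), coe_mem_O₁ b⟩ :=
  rfl

/-- an element of `B_0` with non-zero reduction on the first component is a unit of `Oinf`. -/
theorem inv_mem_Oinf_of_rho1_ne_zero {b : B0 C Γ} (hb : rho1 C Γ b ≠ 0) :
    (algebraMap (B0 C Γ) (fixedField Γ) b)⁻¹ ∈ Oinf Γ O₁ := by
  rw [mem_Oinf]
  have h1 : R₁.res ⟨(b : F), coe_mem_O₁ b⟩ ≠ 0 := by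
    intro h0
    apply hb
    apply Subtype.ext
    rw [coe_rho1_eq, h0]
    rfl
  rw [Ne, R₁.res_ker, not_lt] at h1
  have hle : O₁.valuation (b : F) ≤ 1 := (O₁.valuation_le_one_iff _).mpr (coe_mem_O₁ b)
  have h2 : O₁.valuation (b : F) = 1 := le_antisymm hle h1
  show ((algebraMap (B0 C Γ) (fixedField Γ) b)⁻¹ : fixedField Γ).1 ∈ O₁
  rw [← O₁.valuation_le_one_iff]
  have h3 : (((algebraMap (B0 C Γ) (fixedField Γ) b)⁻¹ : fixedField Γ) : F) = (b : F)⁻¹ := rfl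
  rw [h3, map_inv₀, h2, inv_one]

include R₁ in
/-- `p` is not a unit of `Oinf`. -/
theorem natCast_inv_notMem_Oinf {p : ℕ} (hp0 : ((p : ℕ) : A) ≠ 0)
    (hpm : ((p : ℕ) : A) ∈ maximalIdeal A) : (((p : ℕ) : fixedField Γ))⁻¹ ∉ Oinf Γ O₁ := by
  intro hmem
  rw [mem_Oinf] at hmem
  have h1 : R₁.res ⟨algebraMap K F (((p : ℕ) : A) : K), R₁.algebraMap_mem _⟩ = 0 := by
    rw [R₁.res_algebraMap, (R₁.π_eq_zero_iff _).mpr hpm, map_zero]
  rw [R₁.res_ker] at h1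
  have h2 : ((((p : ℕ) : fixedField Γ))⁻¹ : fixedField Γ).1 =
      (algebraMap K F (((p : ℕ) : A) : K))⁻¹ := by
    show (((p : ℕ) : fixedField Γ) : F)⁻¹ = _
    congr 1
    simp
  rw [h2, ← O₁.valuation_le_one_iff, map_inv₀] at hmem
  have hne : O₁.valuation (algebraMap K F (((p : ℕ) : A) : K)) ≠ 0 := by
    rw [Valuation.ne_zero_iff]
    intro h0
    apply hp0
    have : (((p : ℕ) : A) : K) = 0 := (map_eq_zero_iff _ (algebraMap K F).injective).mp h0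
    exact Subtype.ext this
  have h3 : 1 ≤ O₁.valuation (algebraMap K F (((p : ℕ) : A) : K)) :=
    (inv_le_one₀ (zero_lt_iff.mpr hne)).mp hmem
  exact absurd h1 (not_lt.mpr h3)

/-- the reduction on `Oinf`. -/
def redInf {K : Type*} [Field K] {A : ValuationSubring K} {F : Type*} [Field F] [Algebra K F]
    {O₁ : ValuationSubring F} {k κ₁ : Type*} [Field k] [Field κ₁] [Algebra k κ₁]
    (Γ : Set (SemilinearAut K F)) (R₁ : Gateway.C0.RedSetup A O₁ k κ₁) : Oinf Γ O₁ →+* κ₁ :=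
  R₁.res.comp
    { toFun := fun z => (⟨((z : fixedField Γ) : F), z.2⟩ : O₁)
      map_one' := rfl
      map_mul' := fun _ _ => rfl
      map_zero' := rfl
      map_add' := fun _ _ => rfl }

theorem redInf_apply (z : Oinf Γ O₁) :
    redInf Γ R₁ z = R₁.res ⟨((z : fixedField Γ) : F), z.2⟩ := rfl

/-- on `B_0` the reduction on `Oinf` is `rho1`. -/
theorem redInf_algebraMap (b : B0 C Γ) :
    redInf Γ R₁ ⟨algebraMap (B0 C Γ) (fixedField Γ) b, algebraMap_mem_Oinf b⟩ =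
      ((rho1 C Γ b : C.B₁) : κ₁) := rfl

/-- **(v1) at a non-node prime of the first component**: `Oinf ∩ Frac R_P = (R_P)_(p)`. -/
theorem isBranch_fst (hD : FixData2 (redSetupTwoVal R₁ R₂ hπ) Γ)
    (hF : Submodule.span K {f : F | IsFixed Γ f} = ⊤)
    (hstab : ∀ b, ∀ s ∈ Γ, ∀ f ∈ C.LN 0 b, s • f ∈ C.LN 0 b)
    [Algebra.IsAlgebraic (Algebra.adjoin K {C.t}) F] {p : ℕ}
    (hpfix : IsFixedK Γ (((p : A) : A) : K)) (hp0 : ((p : ℕ) : A) ≠ 0)
    (hpm : ((p : ℕ) : A) ∈ maximalIdeal A)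
    (hp : ∀ c : A, IsFixedK Γ (c : K) → c ∈ maximalIdeal A → ((p : ℕ) : A) ∣ c)
    (m : Ideal (B0 C Γ)) [m.IsPrime] (hker1 : ∀ b, rho1 C Γ b = 0 → b ∈ m)
    {e : B0 C Γ} (he2 : rho2 C Γ e = 0) (he : e ∉ m) :
    haveI := isFractionRing_localization m hD hF hstab
    IsBranch ((p : ℕ) : Localization.AtPrime m) (Oinf Γ O₁) := by
  haveI := isFractionRing_localization m hD hF hstab
  exact SmoothBDatum.isBranch (rho1 C Γ) (rho2 C Γ) p m (Oinf Γ O₁)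
    (algebraMap_fixed_injective C Γ) algebraMap_mem_Oinf
    (fun b hb => inv_mem_Oinf_of_rho1_ne_zero hb) hker1 (natCast_B0_ne_zero hpfix hp0)
    (fun f hf1 hf2 => natCast_dvd_of_rho_eq_zero hD hpfix hp0 hp hf1 hf2) he2 he
    (natCast_inv_notMem_Oinf (R₁ := R₁) hp0 hpm)

end TwoVal

/-! ### Inside the context bundle -/

section Ctx

open Fermat.Agent.S33x.Cech.CtxMq Fermat.Agent.S33x.W.InstWCtx

variable {K : Type*} [Field K] [IsAlgClosed K] [CharZero K] {A : ValuationSubring K}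
  {F : Type*} [Field F] [Algebra K F] {S : SmallRing F}
  {k : Type*} [Field k] [IsAlgClosed k] {E : Type*} [Field E] [Algebra k E]
  {R : RedSetup2 A S k (E × E)} {C : ChartCoord R} {p q : ℕ} {x : E} {Dt : Divisor K F}
  (h : Ctx R C p q x Dt) {Γ : Set (SemilinearAut K F)} (hG : CtxGal R C Γ)

include h in
/-- the coordinate ring of the first component is a Dedekind domain. -/
theorem isDedekindDomain_B₁ : IsDedekindDomain C.B₁ := by
  have hx1 : C.T.1 = x := by rw [h.hT]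
  subst hx1
  haveI := h.fin_x
  haveI := h.sep_x
  exact Fermat.Agent.Gateway.GoodRed.PlacesIntegral.isDedekindDomain_integralClosure_of_separable C.T.1 h.hx

include h in
/-- `p = 0` in the coordinate rings. -/
theorem natCast_B₁_eq_zero : ((p : ℕ) : C.B₁) = 0 := by
  haveI := h.charP
  rw [← map_natCast (algebraMap k C.B₁), CharP.cast_eq_zero, map_zero]

include h in
theorem natCast_B₂_eq_zero : ((p : ℕ) : C.B₂) = 0 := by
  haveI := h.charP
  rw [← map_natCast (algebraMap k C.B₂), CharP.cast_eq_zero, map_zero]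

include h hG in
/-- **(N-Sm) inside the context bundle**: the local ring `R_P = (B_0)_{𝔫.comap rho1}` at a
non-node prime `𝔫` of the first component is a smooth-point ring in the sense of
`NodeDatum.IsSmoothPtRing`, with local parameter any `t` reducing into `𝔫 ∖ 𝔫 ^ 2`, as soon as `p`
is a uniformiser of `W = A^Γ` (`hp`). -/
theorem isSmoothPtRing (hD : FixData2 R Γ) (hF : Submodule.span K {f : F | IsFixed Γ f} = ⊤)
    (hp : ∀ c : A, IsFixedK Γ (c : K) → c ∈ maximalIdeal A → ((p : ℕ) : A) ∣ c)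
    (𝔫 : Ideal C.B₁) [𝔫.IsPrime] {a : C.B₁} (ha : (a, (0 : C.B₂)) ∈ C.BbarT) (ha𝔫 : a ∉ 𝔫)
    {t : B0 C Γ} (ht : rho1 C Γ t ∈ 𝔫) (ht2 : rho1 C Γ t ∉ 𝔫 ^ 2) :
    haveI : IsNoetherianRing (B0 C Γ) := FixedNoeth.isNoetherianRing_fixedBoo' h hG hD hF
    IsSmoothPtRing (Localization.AtPrime (𝔫.comap (rho1 C Γ))) p
      (algebraMap (B0 C Γ) _ t) := by
  haveI : IsNoetherianRing (B0 C Γ) := FixedNoeth.isNoetherianRing_fixedBoo' h hG hD hF
  haveI := isDedekindDomain_B₁ h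
  exact isSmoothPtRing_fst_of_dedekind (NodeRing.hlift h hG hD hF) hD
    (NodeRing.isFixedK_natCast p) (NodeRing.natCast_ne_zero h) hp h.hL2 (natCast_B₁_eq_zero h)
    𝔫 ha ha𝔫 ht ht2

include h hG in
/-- **(N-Sm) inside the context bundle**, existence of the local parameter. -/
theorem exists_isSmoothPtRing (hD : FixData2 R Γ)
    (hF : Submodule.span K {f : F | IsFixed Γ f} = ⊤)
    (hp : ∀ c : A, IsFixedK Γ (c : K) → c ∈ maximalIdeal A → ((p : ℕ) : A) ∣ c)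
    (𝔫 : Ideal C.B₁) [𝔫.IsPrime] (h𝔫 : 𝔫 ≠ ⊥) {a : C.B₁} (ha : (a, (0 : C.B₂)) ∈ C.BbarT)
    (ha𝔫 : a ∉ 𝔫) :
    haveI : IsNoetherianRing (B0 C Γ) := FixedNoeth.isNoetherianRing_fixedBoo' h hG hD hF
    ∃ t : B0 C Γ, rho1 C Γ t ∈ 𝔫 ∧ rho1 C Γ t ∉ 𝔫 ^ 2 ∧
      IsSmoothPtRing (Localization.AtPrime (𝔫.comap (rho1 C Γ))) p
        (algebraMap (B0 C Γ) _ t) := by
  haveI : IsNoetherianRing (B0 C Γ) := FixedNoeth.isNoetherianRing_fixedBoo' h hG hD hF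
  haveI := isDedekindDomain_B₁ h
  exact exists_isSmoothPtRing_fst (NodeRing.hlift h hG hD hF) hD
    (NodeRing.isFixedK_natCast p) (NodeRing.natCast_ne_zero h) hp h.hL2 (natCast_B₁_eq_zero h)
    𝔫 h𝔫 ha ha𝔫

include h hG in
/-- the local reduction `R_P → (C.B₁)_𝔫` inside the context bundle: surjective, kernel `(p)`. -/
theorem exists_red (hD : FixData2 R Γ) (hF : Submodule.span K {f : F | IsFixed Γ f} = ⊤)
    (hp : ∀ c : A, IsFixedK Γ (c : K) → c ∈ maximalIdeal A → ((p : ℕ) : A) ∣ c)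
    (𝔫 : Ideal C.B₁) [𝔫.IsPrime] {a : C.B₁} (ha : (a, (0 : C.B₂)) ∈ C.BbarT) (ha𝔫 : a ∉ 𝔫) :
    ∃ r1 : Localization.AtPrime (𝔫.comap (rho1 C Γ)) →+* Localization.AtPrime 𝔫,
      (∀ b, r1 (algebraMap (B0 C Γ) _ b) = algebraMap C.B₁ _ (rho1 C Γ b)) ∧
      Function.Surjective r1 ∧
      ∀ x, r1 x = 0 ↔ ((p : ℕ) : Localization.AtPrime (𝔫.comap (rho1 C Γ))) ∣ x :=
  exists_red_fst (NodeRing.hlift h hG hD hF) hD (NodeRing.isFixedK_natCast p)
    (NodeRing.natCast_ne_zero h) hp h.hL2 (natCast_B₁_eq_zero h) 𝔫 ha ha𝔫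

end Ctx

end Fermat.Agent.S40x.Node.SmoothBInst

end
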