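import Fermat.Agent.S40x.Node.SmoothBInst
import Fermat.Agent.S40x.Node.PlaceIdeal

/-!
# P-S44/S40, block R1 / N-alpha, leaf N4 (smooth-point rings), SECOND (helper27): PLACE vocabulary

`Node/SmoothBInst` works with a prime `𝔫` of the coordinate ring `C.B₁`.  Here the prime is the
point ideal `m_P = {b ∈ C.B₁ | b(P) = 0}` of a place `P` of the residue field `κ₁` of the first
component (`Node/PlaceIdeal`, helper65), and the order function (X4 of board `S44_R1X`) is
`P.ord` composed with the reduction of the branch `Oinf`.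

* `branchRed hO redO : S →+* κ` : the reduction of a branch restricted to `S`;
  `branchRed_eq_zero_iff` (kernel `(u)`);
* `isHalfChart_B₁`, `ptIdeal₁ C P hP : Ideal C.B₁` (`= m_P`), `nonNode_notMem`
  (helper61's literal `IsNonNode₁ C P` gives `a ∉ m_P`), `mem_sq_of_ord` (uniformisers);
* `isSmoothPtRing_place` : **(N-Sm)** at a non-node place `P`, local parameter any `t ∈ B_0` with
  `P.ord (rho1 t) = 1`;
* two valuation rings (`redSetupTwoVal`), `m` a prime of `B_0`, `hO : IsBranch p Oinf`: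
  `redInf_natCast`, `branchRed_algebraMap` (`= rho1` on `B_0`),
  `ord_branchRed_nonneg` : **(P1)** `0 ≤ P.ord (ρ x)` on `(B_0)_m`,
  `ord_branchRed_unit`, `exists_ord_branchRed_eq` : **X4** the order at `P` of the reduction of
  `r ∉ (p)` is its order in the discrete valuation ring `R_P ⧸ (p)`,
  `tame_smooth_place` : **(TAME-Sm)** at the place `P`.
-/

set_option autoImplicit false
set_option linter.unusedSectionVars false
set_option linter.style.haveILetI false

noncomputable section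

namespace Fermat.Agent.S40x.Node.SmoothBPlace

open AlgebraicCurve IsLocalRing Module
open Fermat.Agent.S34x Fermat.Agent.S34x.C0two Fermat.Agent.S34x.Lattice2
open Fermat.Agent.S19x.Geo.LatticeFixed (IsFixed IsFixedK)
open Fermat.Agent.S33x.H1.LatticeFixed2 Fermat.Agent.S33x.H1.FixedDecomp
open Fermat.Agent.S33x.W.InstW
open Fermat.Agent.S40x.Node Fermat.Agent.S40x.Node.NodeInst
open Fermat.Agent.S40x.Node.PlaceIdeal Fermat.Agent.S40x.Node.TameNodeB
open Fermat.Agent.S40x.Node.NodeFrac Fermat.Agent.S40x.Node.SmoothBInst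

/-! ### The reduction of a branch, restricted to the ring -/

section Red

variable {S : Type*} [CommRing S] [IsDomain S] {F0 : Type*} [Field F0] [Algebra S F0]
  [IsFractionRing S F0] {κ : Type*} [Field κ] {u : S} {O : ValuationSubring F0}

/-- the reduction `redO : O →+* κ` of a branch `O = S_(u)`, restricted to `S`. -/
def branchRed (hO : IsBranch u O) (redO : O →+* κ) : S →+* κ :=
  redO.comp
    { toFun := fun x => (⟨algebraMap S F0 x, hO.mem x⟩ : O)
      map_one' := Subtype.ext (map_one _)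
      map_mul' := fun x z => Subtype.ext (map_mul _ x z)
      map_zero' := Subtype.ext (map_zero _)
      map_add' := fun x z => Subtype.ext (map_add _ x z) }

theorem branchRed_apply (hO : IsBranch u O) (redO : O →+* κ) (x : S) :
    branchRed hO redO x = redO ⟨algebraMap S F0 x, hO.mem x⟩ := rfl

/-- the kernel of the restricted reduction is `(u)`. -/
theorem branchRed_eq_zero_iff (hO : IsBranch u O) (redO : O →+* κ)
    (hu : redO ⟨algebraMap S F0 u, hO.mem u⟩ = 0) (x : S) :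
    branchRed hO redO x = 0 ↔ u ∣ x :=
  red_eq_zero_iff_dvd hO redO hu x

end Red

/-! ### Places of the first component and primes of `C.B₁` -/

section Chart

variable {K : Type*} [Field K] {A : ValuationSubring K} {F : Type*} [Field F] [Algebra K F]
  {S : SmallRing F} {k κ₁ κ₂ : Type*} [Field k] [Field κ₁] [Field κ₂] [Algebra k κ₁]
  [Algebra k κ₂] {R : RedSetup2 A S k (κ₁ × κ₂)} (C : ChartCoord R)
  {Γ : Set (SemilinearAut K F)}

/-- `C.B₁` is the half chart of the coordinate `C.T.1`. -/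
theorem isHalfChart_B₁ : IsHalfChart C.T.1 C.B₁ := fun _ => Iff.rfl

/-- the point ideal of a place of the first component in the coordinate ring `C.B₁`. -/
def ptIdeal₁ (P : Place k κ₁) (hP : 0 ≤ P.ord C.T.1) : Ideal C.B₁ :=
  (isHalfChart_B₁ C).maxIdeal P hP

instance ptIdeal₁_isPrime (P : Place k κ₁) (hP : 0 ≤ P.ord C.T.1) : (ptIdeal₁ C P hP).IsPrime :=
  (isHalfChart_B₁ C).maxIdeal_isPrime P hP

variable {C}

theorem mem_ptIdeal₁_iff (P : Place k κ₁) (hP : 0 ≤ P.ord C.T.1) (b : C.B₁) :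
    b ∈ ptIdeal₁ C P hP ↔ (b : κ₁) ∈ P.toValuationSubring.nonunits :=
  (isHalfChart_B₁ C).mem_maxIdeal_iff P hP b

/-- helper61's literal `IsNonNode₁ C P` in ideal form. -/
theorem nonNode_notMem (P : Place k κ₁) (hP : 0 ≤ P.ord C.T.1) {a : C.B₁}
    (ha : (a : κ₁) ∉ P.toValuationSubring.nonunits) : a ∉ ptIdeal₁ C P hP := fun h =>
  ha ((mem_ptIdeal₁_iff P hP a).mp h)

theorem ord_nonneg_B₁ (P : Place k κ₁) (hP : 0 ≤ P.ord C.T.1) (b : C.B₁) :
    0 ≤ P.ord (b : κ₁) :=
  (isHalfChart_B₁ C).ord_nonneg P hP b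

theorem ord_eq_zero_of_notMem (P : Place k κ₁) (hP : 0 ≤ P.ord C.T.1) {b : C.B₁}
    (hb : b ∉ ptIdeal₁ C P hP) : P.ord (b : κ₁) = 0 := by
  have hb0 : b ≠ 0 := fun h0 => hb (h0 ▸ (ptIdeal₁ C P hP).zero_mem)
  exact ((isHalfChart_B₁ C).notMem_maxIdeal_iff P hP hb0).mp hb

variable (hlift : ∀ (b : ℕ) (y : κ₁ × κ₂), y ∈ R.redLat (C.LN 0 b) →
    ∃ (f : F) (hf : f ∈ S.O), f ∈ C.LN 0 b ∧ IsFixed Γ f ∧ R.res ⟨f, hf⟩ = y)
  (hD : FixData2 R Γ) {p : ℕ}
  (hpfix : IsFixedK Γ (((p : A) : A) : K)) (hp0 : ((p : ℕ) : A) ≠ 0)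
  (hp : ∀ c : A, IsFixedK Γ (c : K) → c ∈ maximalIdeal A → ((p : ℕ) : A) ∣ c)

include hlift hD hpfix hp0 hp in
/-- **(N-Sm) at a non-node place `P` of the first component**: the local ring
`R_P = (B_0)_{m_P.comap rho1}` is a smooth-point ring with local parameter any `t ∈ B_0` whose
reduction is a uniformiser at `P`. -/
theorem isSmoothPtRing_place [IsNoetherianRing (B0 C Γ)]
    (hT : Transcendental k C.T.1) [FiniteDimensional (IntermediateField.adjoin k {C.T.1}) κ₁]
    [Algebra.IsSeparable (IntermediateField.adjoin k {C.T.1}) κ₁]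
    (hL2 : C.IsL2) (hchar : ((p : ℕ) : C.B₁) = 0) (P : Place k κ₁) (hP : 0 ≤ P.ord C.T.1)
    (hnn : ∃ a : C.B₁, ((a, 0) : C.B₁ × C.B₂) ∈ C.BbarT ∧
      (a : κ₁) ∉ P.toValuationSubring.nonunits)
    {t : B0 C Γ} (ht : P.ord ((rho1 C Γ t : C.B₁) : κ₁) = 1) :
    IsSmoothPtRing (Localization.AtPrime ((ptIdeal₁ C P hP).comap (rho1 C Γ))) p
      (algebraMap (B0 C Γ) _ t) := by
  obtain ⟨a, ha, haP⟩ := hnn
  haveI := (isHalfChart_B₁ C).isDedekindDomain hT
  obtain ⟨ht1, ht2⟩ := ((isHalfChart_B₁ C).ord_eq_one_iff hT P hP (rho1 C Γ t)).mp ht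
  exact isSmoothPtRing_fst_of_dedekind hlift hD hpfix hp0 hp hL2 hchar (ptIdeal₁ C P hP) ha
    (nonNode_notMem P hP haP) ht1 ht2

end Chart

/-! ### The order function at the level of two valuation rings -/

section TwoVal

variable {K : Type*} [Field K] {A : ValuationSubring K} {F : Type*} [Field F] [Algebra K F]
  {O₁ O₂ : ValuationSubring F} {k κ₁ κ₂ : Type*} [Field k] [Field κ₁] [Field κ₂]
  [Algebra k κ₁] [Algebra k κ₂]
  {R₁ : Gateway.C0.RedSetup A O₁ k κ₁} {R₂ : Gateway.C0.RedSetup A O₂ k κ₂} {hπ : R₁.π = R₂.π}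
  {C : ChartCoord (redSetupTwoVal R₁ R₂ hπ)} {Γ : Set (SemilinearAut K F)}
  (m : Ideal (B0 C Γ)) [m.IsPrime] [IsFractionRing (Localization.AtPrime m) (fixedField Γ)]
  [IsNoetherianRing (Localization.AtPrime m)] {p : ℕ}

/-- `p` reduces to zero on the branch. -/
theorem redInf_natCast (hpm : ((p : ℕ) : A) ∈ maximalIdeal A)
    (hmem : (((p : ℕ) : fixedField Γ)) ∈ Oinf Γ O₁) :
    redInf Γ R₁ ⟨((p : ℕ) : fixedField Γ), hmem⟩ = 0 := by
  have h1 : R₁.res ⟨algebraMap K F (((p : ℕ) : A) : K), R₁.algebraMap_mem _⟩ = 0 := by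
    rw [R₁.res_algebraMap, (R₁.π_eq_zero_iff _).mpr hpm, map_zero]
  rw [redInf_apply, ← h1]
  congr 1
  apply Subtype.ext
  simp

variable (hO : IsBranch ((p : ℕ) : Localization.AtPrime m) (Oinf Γ O₁))

/-- on the chart ring the restricted reduction is `rho1`. -/
theorem branchRed_algebraMap (b : B0 C Γ) :
    branchRed hO (redInf Γ R₁) (algebraMap (B0 C Γ) (Localization.AtPrime m) b) =
      ((rho1 C Γ b : C.B₁) : κ₁) := by
  rw [branchRed_apply, ← redInf_algebraMap b]
  congr 1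
  apply Subtype.ext
  exact algebraMap_loc_algebraMap m b

include hO in
/-- the restricted reduction kills `p`. -/
theorem branchRed_natCast (hpm : ((p : ℕ) : A) ∈ maximalIdeal A) :
    branchRed hO (redInf Γ R₁) ((p : ℕ) : Localization.AtPrime m) = 0 := by
  rw [branchRed_apply]
  have hmem : (((p : ℕ) : fixedField Γ)) ∈ Oinf Γ O₁ := by
    have := hO.mem ((p : ℕ) : Localization.AtPrime m)
    rwa [map_natCast] at this
  rw [← redInf_natCast (R₁ := R₁) hpm hmem]
  congr 1
  apply Subtype.ext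
  exact map_natCast _ p

/-- the kernel of the restricted reduction is `(p)`. -/
theorem branchRed_eq_zero_iff_dvd (hpm : ((p : ℕ) : A) ∈ maximalIdeal A)
    (x : Localization.AtPrime m) :
    branchRed hO (redInf Γ R₁) x = 0 ↔ ((p : ℕ) : Localization.AtPrime m) ∣ x :=
  branchRed_eq_zero_iff hO (redInf Γ R₁) (branchRed_natCast m hO hpm) x

variable (P : Place k κ₁)

/-- **(P1)**: the reductions of the elements of `(B_0)_m` are regular at `P`, as soon as the
coordinate ring is and the elements of `B_0` outside `m` reduce to units at `P`. -/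
theorem ord_branchRed_nonneg (hnn : ∀ b : C.B₁, 0 ≤ P.ord (b : κ₁))
    (hunit : ∀ s : B0 C Γ, s ∉ m → P.ord ((rho1 C Γ s : C.B₁) : κ₁) = 0)
    (x : Localization.AtPrime m) : 0 ≤ P.ord (branchRed hO (redInf Γ R₁) x) := by
  refine NodeLocalDatum.ord_map_nonneg_of_chart P (branchRed hO (redInf Γ R₁)) m ?_ ?_ x
  · intro b
    rw [branchRed_algebraMap]
    exact hnn _
  · intro s hs
    rw [branchRed_algebraMap]
    exact hunit s hs

/-- units of `(B_0)_m` reduce to units at `P`. -/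
theorem ord_branchRed_unit (hnn : ∀ b : C.B₁, 0 ≤ P.ord (b : κ₁))
    (hunit : ∀ s : B0 C Γ, s ∉ m → P.ord ((rho1 C Γ s : C.B₁) : κ₁) = 0)
    {ε : Localization.AtPrime m} (hε : IsUnit ε) :
    P.ord (branchRed hO (redInf Γ R₁) ε) = 0 :=
  NodeLocalDatum.ord_map_unit P (branchRed hO (redInf Γ R₁))
    (ord_branchRed_nonneg m hO P hnn hunit) hε

/-- **X4, smooth points**: for `r ∉ (p)` the order at `P` of the reduction of `r` is its order in
the discrete valuation ring `R_P ⧸ (p)`: `r = ε * t ^ n + p * y` and `P.ord (ρ r) = n`. -/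
theorem exists_ord_branchRed_eq
    (hpm : ((p : ℕ) : A) ∈ maximalIdeal A) {t : B0 C Γ}
    (h : IsSmoothPtRing (Localization.AtPrime m) p (algebraMap (B0 C Γ) _ t))
    (hnn : ∀ b : C.B₁, 0 ≤ P.ord (b : κ₁))
    (hunit : ∀ s : B0 C Γ, s ∉ m → P.ord ((rho1 C Γ s : C.B₁) : κ₁) = 0)
    (ht : P.ord ((rho1 C Γ t : C.B₁) : κ₁) = 1) {r : Localization.AtPrime m}
    (hr : ¬ ((p : ℕ) : Localization.AtPrime m) ∣ r) :
    ∃ (n : ℕ) (ε y : Localization.AtPrime m), IsUnit ε ∧
      r = ε * algebraMap (B0 C Γ) _ t ^ n + ((p : ℕ) : Localization.AtPrime m) * y ∧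
      P.ord (branchRed hO (redInf Γ R₁) r) = n := by
  have ht' : P.ord (branchRed hO (redInf Γ R₁)
      (algebraMap (B0 C Γ) (Localization.AtPrime m) t)) = 1 := by
    rw [branchRed_algebraMap]
    exact ht
  exact SmoothBDatum.exists_ord_map_eq P (branchRed hO (redInf Γ R₁)) h
    (branchRed_natCast m hO hpm) (ord_branchRed_nonneg m hO P hnn hunit)
    (by rw [ht']; exact one_pos) ⟨_, ht'⟩ hr

include hO in
/-- **(TAME-Sm) at the place `P`**: a fixed function all of whose horizontal multiplicities on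
`R_P` are divisible by `p` has, after normalisation by a power of `p`, a reduction on the first
component whose order at `P` is divisible by `p`. -/
theorem tame_smooth_place (hp0 : p ≠ 0)
    (hpm : ((p : ℕ) : A) ∈ maximalIdeal A) {t : B0 C Γ}
    (h : IsSmoothPtRing (Localization.AtPrime m) p (algebraMap (B0 C Γ) _ t))
    (hnn : ∀ b : C.B₁, 0 ≤ P.ord (b : κ₁))
    (hunit : ∀ s : B0 C Γ, s ∉ m → P.ord ((rho1 C Γ s : C.B₁) : κ₁) = 0)
    {f : fixedField Γ} (hf : f ≠ 0)
    (H : ∀ n d : Localization.AtPrime m, d ≠ 0 →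
      f * algebraMap _ (fixedField Γ) d = algebraMap _ (fixedField Γ) n →
      ∀ π : Localization.AtPrime m, Prime π →
        ¬ Associated π ((p : ℕ) : Localization.AtPrime m) →
        (p : ℤ) ∣ (multiplicity π n : ℤ) - (multiplicity π d : ℤ))
    (a : ℤ) (y : Oinf Γ O₁) (hy : (y : fixedField Γ) * ((p : ℕ) : fixedField Γ) ^ a = f)
    (hyinv : (y : fixedField Γ)⁻¹ ∈ Oinf Γ O₁) :
    (p : ℤ) ∣ P.ord (redInf Γ R₁ y) :=
  SmoothBDatum.tame_smooth P h hp0 hO (redInf Γ R₁)
    (fun x => branchRed_eq_zero_iff_dvd m hO hpm x)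
    (fun x => ord_branchRed_nonneg m hO P hnn hunit x) hf H a y hy hyinv

end TwoVal

end Fermat.Agent.S40x.Node.SmoothBPlace

end
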