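import Fermat.Agent.S40x.Node.SmoothBSwap
import Fermat.Agent.S40x.Node.FixedQb

/-!
# P-S44/S40, block R1 / N-alpha, leaf N4 (smooth-point rings), SECOND (helper27): the DATUM at a
non-node place, generic chart, context bundle, and the discharge at `Qbar`

* `exists_datum` : **the master statement**, two valuation rings (`redSetupTwoVal R₁ R₂ hπ`, both
  residue fields equal to `E`), ANY chart `D`, `Γ` a set of semilinear automorphisms.  For a place
  `P'` of `E` with `0 ≤ P'.ord D.T.1` which is not a node (helper61's literal `IsNonNode₁ D P'`),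
  with `m := (ptIdeal₁ D P' hP).comap (rho1 D Γ)` and `R_{P'} := Localization.AtPrime m`
  (fraction field `F^Γ`, `NodeFrac`): there are `t ∈ B_0` and `hO : IsBranch p Oinf` with
  - `P'.ord (rho1 t) = 1` and **(N-Sm)** `IsSmoothPtRing R_{P'} p t` (X1),
  - **(v1)** `Oinf ∩ Frac R_{P'} = (R_{P'})_(p)` (X3; `Oinf` = the first valuation ring restricted
    to `F^Γ`),
  - the reduction `ρ = branchRed hO (redInf Γ R₁) : R_{P'} →+* E` is `rho1` on `B_0`, has kernel
    `(p)`, takes its values in `O_{P'}`, and for `r ∉ (p)`: `r = ε * t ^ n + p * y`,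
    `P'.ord (ρ r) = n` (X4).
* `exists_datum_ctx`, `exists_datum_ctx_swap` : the same inside the context bundle
  `Ctx + CtxGal + FixData2 + hF` for the chart `C` (places with `0 ≤ ord x`) and the chart
  `C.swap` (places with `0 ≤ ord x⁻¹`: everything over `t = ∞`, cusps included).
* `Qbar` section (variable block of `Node/FixedQb`, `Γ = inertiaAct P (M q)`):
  `natCast_dvd_of_fixed_Qb` (the uniformiser literal `hp`),
  **`exists_datum_Qb`**, **`exists_datum_swap_Qb`** : the datum at every non-node place of the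
  first component of the special fibre of `X_0(M q)` over the inertia field, no hypothesis left
  except the witness `IsNonNode₁`.  The chart is typed
  `C : ChartCoord (redSetupTwoVal (redSetupInfty H hA) (redSetupZero H hA) rfl)`, which is
  `ChartCoord (redSetup2 H hA)` unfolded (pass any `C : ChartCoord (redSetup2 H hA)`, e.g.
  `TheoremBMq.chart H hA x hx Hx`, as it is); the conclusion is
  `∃ (m : Ideal B_0) (_ : m.IsPrime) (_ : IsFractionRing R_{P'} F^Γ) (_ : IsNoetherianRing R_{P'})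
  (t : B_0), m = comap rho1 (ptIdeal₁ C P' hP) ∧ (∀ b, b ∈ m ↔ rho1 b ∈ m_{P'}) ∧ Datum m q P' t`.
-/

set_option autoImplicit false
set_option linter.unusedSectionVars false
set_option linter.style.haveILetI false
set_option linter.unusedVariables false

noncomputable section

namespace Fermat.Agent.S40x.Node.SmoothBQb

open AlgebraicCurve IsLocalRing Module IntermediateField
open Fermat.Agent.S34x Fermat.Agent.S34x.C0two Fermat.Agent.S34x.Lattice2
open Fermat.Agent.S19x.Geo.LatticeFixed (IsFixed IsFixedK)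
open Fermat.Agent.S33x.H1.LatticeFixed2 Fermat.Agent.S33x.H1.FixedDecomp
open Fermat.Agent.S33x.H1 Fermat.Agent.S33x.W.InstW
open Fermat.Agent.S33x.Cech.CtxMq Fermat.Agent.S33x.W.InstWCtx
open Fermat.Agent.S40x.Node Fermat.Agent.S40x.Node.NodeInst
open Fermat.Agent.S40x.Node.PlaceIdeal Fermat.Agent.S40x.Node.NodeFrac
open Fermat.Agent.S40x.Node.TameNodeB
open Fermat.Agent.S40x.Node.SmoothBInst Fermat.Agent.S40x.Node.SmoothBPlace
open Fermat.Agent.S40x.Node.SmoothBSwap

/-! ### The master statement -/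

section General

variable {K : Type*} [Field K] {A : ValuationSubring K} {F : Type*} [Field F] [Algebra K F]
  {O₁ O₂ : ValuationSubring F} {k E : Type*} [Field k] [Field E] [Algebra k E]
  {R₁ : Gateway.C0.RedSetup A O₁ k E} {R₂ : Gateway.C0.RedSetup A O₂ k E} {hπ : R₁.π = R₂.π}
  {D : ChartCoord (redSetupTwoVal R₁ R₂ hπ)} {Γ : Set (SemilinearAut K F)}

/-- **The smooth-point datum** of the local ring `(B_0)_m` at a place `P'` of the first
component, with local parameter `t`: (N-Sm), the branch `Oinf`, and the order function. -/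
structure Datum (m : Ideal (B0 D Γ)) [m.IsPrime]
    [IsFractionRing (Localization.AtPrime m) (fixedField Γ)]
    [IsNoetherianRing (Localization.AtPrime m)] (p : ℕ) (P' : Place k E) (t : B0 D Γ) :
    Prop where
  /-- X3: `Oinf ∩ Frac R = R_(p)` -/
  branch : IsBranch ((p : ℕ) : Localization.AtPrime m) (Oinf Γ O₁)
  /-- the reduction of `t` is a uniformiser at `P'` -/
  ord_t : P'.ord ((rho1 D Γ t : D.B₁) : E) = 1
  /-- X1: (N-Sm) -/
  smooth : IsSmoothPtRing (Localization.AtPrime m) p (algebraMap (B0 D Γ) _ t)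
  /-- the reduction is `rho1` on the chart ring -/
  red_algebraMap : ∀ b : B0 D Γ,
    branchRed branch (redInf Γ R₁) (algebraMap (B0 D Γ) _ b) = ((rho1 D Γ b : D.B₁) : E)
  /-- the kernel of the reduction is `(p)` -/
  red_eq_zero_iff : ∀ y,
    branchRed branch (redInf Γ R₁) y = 0 ↔ ((p : ℕ) : Localization.AtPrime m) ∣ y
  /-- (P1): reductions are regular at `P'` -/
  ord_nonneg : ∀ y, 0 ≤ P'.ord (branchRed branch (redInf Γ R₁) y)
  /-- X4: the order at `P'` of the reduction is the order in the DVR `R ⧸ (p)` -/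
  ord_eq : ∀ r, ¬ ((p : ℕ) : Localization.AtPrime m) ∣ r →
    ∃ (n : ℕ) (ε y : Localization.AtPrime m), IsUnit ε ∧
      r = ε * algebraMap (B0 D Γ) _ t ^ n + ((p : ℕ) : Localization.AtPrime m) * y ∧
      P'.ord (branchRed branch (redInf Γ R₁) r) = n

variable {p : ℕ}

/-- **The smooth-point datum at a non-node place of the first component**, generic chart:
`m` is the pull-back to `B_0` of the point ideal of `P'`. -/
theorem exists_datum
    (hlift : ∀ (b : ℕ) (y : E × E), y ∈ (redSetupTwoVal R₁ R₂ hπ).redLat (D.LN 0 b) →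
      ∃ (f : F) (hf : f ∈ (twoVal O₁ O₂).O), f ∈ D.LN 0 b ∧ IsFixed Γ f ∧
        (redSetupTwoVal R₁ R₂ hπ).res ⟨f, hf⟩ = y)
    (hL2 : D.IsL2) [IsNoetherianRing (B0 D Γ)]
    (hstab : ∀ b, ∀ s ∈ Γ, ∀ f ∈ D.LN 0 b, s • f ∈ D.LN 0 b)
    [Algebra.IsAlgebraic (Algebra.adjoin K {D.t}) F]
    (hT : Transcendental k D.T.1) [FiniteDimensional k⟮D.T.1⟯ E]
    [Algebra.IsSeparable k⟮D.T.1⟯ E]
    (hD : FixData2 (redSetupTwoVal R₁ R₂ hπ) Γ)
    (hF : Submodule.span K {f : F | IsFixed Γ f} = ⊤)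
    (hpfix : IsFixedK Γ (((p : A) : A) : K)) (hp0 : ((p : ℕ) : A) ≠ 0)
    (hpm : ((p : ℕ) : A) ∈ maximalIdeal A)
    (hp : ∀ c : A, IsFixedK Γ (c : K) → c ∈ maximalIdeal A → ((p : ℕ) : A) ∣ c)
    (hchar : ((p : ℕ) : D.B₁) = 0)
    (P' : Place k E) (hP : 0 ≤ P'.ord D.T.1)
    (hnn : ∃ a : D.B₁, ((a, 0) : D.B₁ × D.B₂) ∈ D.BbarT ∧
      (a : E) ∉ P'.toValuationSubring.nonunits)
    (m : Ideal (B0 D Γ)) [m.IsPrime] [IsFractionRing (Localization.AtPrime m) (fixedField Γ)]
    [IsNoetherianRing (Localization.AtPrime m)]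
    (hm : m = (ptIdeal₁ D P' hP).comap (rho1 D Γ)) :
    ∃ t : B0 D Γ, Datum (R₁ := R₁) m p P' t := by
  subst hm
  -- the uniformiser
  have hB := SmoothBPlace.isHalfChart_B₁ D
  haveI := hB.isDedekindDomain hT
  obtain ⟨τ, hτ, hτ2⟩ := Ideal.exists_mem_pow_notMem_pow_succ (ptIdeal₁ D P' hP)
    (hB.maxIdeal_ne_bot hT P' hP) (Ideal.IsPrime.ne_top inferInstance) 1
  rw [pow_one] at hτ
  obtain ⟨t, rfl⟩ := rho1_surjective hlift hL2 τ
  have ht : P'.ord ((rho1 D Γ t : D.B₁) : E) = 1 :=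
    (hB.ord_eq_one_iff hT P' hP _).mpr ⟨hτ, hτ2⟩
  -- the element vanishing on the other component
  obtain ⟨a, ha, haP⟩ := hnn
  obtain ⟨e, he1, he2⟩ := exists_lift_fst hlift ha
  have he : e ∉ (ptIdeal₁ D P' hP).comap (rho1 D Γ) := by
    intro hmem
    rw [Ideal.mem_comap, he1] at hmem
    exact nonNode_notMem P' hP haP hmem
  have hker1 : ∀ b, rho1 D Γ b = 0 → b ∈ (ptIdeal₁ D P' hP).comap (rho1 D Γ) := by
    intro b hb
    rw [Ideal.mem_comap, hb]
    exact (ptIdeal₁ D P' hP).zero_mem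
  have hO : IsBranch ((p : ℕ) : Localization.AtPrime ((ptIdeal₁ D P' hP).comap (rho1 D Γ)))
      (Oinf Γ O₁) :=
    SmoothBDatum.isBranch (rho1 D Γ) (rho2 D Γ) p _ (Oinf Γ O₁)
      (algebraMap_fixed_injective D Γ) algebraMap_mem_Oinf
      (fun b hb => inv_mem_Oinf_of_rho1_ne_zero hb) hker1 (natCast_B0_ne_zero hpfix hp0)
      (fun f hf1 hf2 => natCast_dvd_of_rho_eq_zero hD hpfix hp0 hp hf1 hf2) he2 he
      (natCast_inv_notMem_Oinf (R₁ := R₁) hp0 hpm)
  have hsm : IsSmoothPtRing (Localization.AtPrime ((ptIdeal₁ D P' hP).comap (rho1 D Γ))) p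
      (algebraMap (B0 D Γ) _ t) :=
    SmoothBPlace.isSmoothPtRing_place hlift hD hpfix hp0 hp hT hL2 hchar P' hP ⟨a, ha, haP⟩ ht
  have hnn' : ∀ b : D.B₁, 0 ≤ P'.ord (b : E) := ord_nonneg_B₁ P' hP
  have hunit : ∀ s : B0 D Γ, s ∉ (ptIdeal₁ D P' hP).comap (rho1 D Γ) →
      P'.ord ((rho1 D Γ s : D.B₁) : E) = 0 := by
    intro s hs
    exact ord_eq_zero_of_notMem P' hP fun hmem => hs (by rw [Ideal.mem_comap]; exact hmem)
  exact ⟨t, hO, ht, hsm, fun b => branchRed_algebraMap _ hO b,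
    fun y => branchRed_eq_zero_iff_dvd _ hO hpm y,
    fun y => ord_branchRed_nonneg _ hO P' hnn' hunit y,
    fun r hr => exists_ord_branchRed_eq _ hO P' hpm hsm hnn' hunit ht hr⟩

end General

/-! ### Inside the context bundle, both charts -/

section Ctx

variable {K : Type*} [Field K] [IsAlgClosed K] [CharZero K] {A : ValuationSubring K}
  {F : Type*} [Field F] [Algebra K F] {O₁ O₂ : ValuationSubring F}
  {k : Type*} [Field k] [IsAlgClosed k] {E : Type*} [Field E] [Algebra k E]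
  {R₁ : Gateway.C0.RedSetup A O₁ k E} {R₂ : Gateway.C0.RedSetup A O₂ k E} {hπ : R₁.π = R₂.π}
  {C : ChartCoord (redSetupTwoVal R₁ R₂ hπ)} {p q : ℕ} {x : E} {Dt : Divisor K F}
  (h : Ctx (redSetupTwoVal R₁ R₂ hπ) C p q x Dt) {Γ : Set (SemilinearAut K F)}
  (hG : CtxGal (redSetupTwoVal R₁ R₂ hπ) C Γ)

include h hG in
/-- the localisations of the chart ring of `C` are Noetherian. -/
theorem isNoetherianRing_loc (hD : FixData2 (redSetupTwoVal R₁ R₂ hπ) Γ)
    (hF : Submodule.span K {f : F | IsFixed Γ f} = ⊤) (m : Ideal (B0 C Γ)) [m.IsPrime] :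
    IsNoetherianRing (Localization.AtPrime m) := by
  haveI : IsNoetherianRing (B0 C Γ) := FixedNoeth.isNoetherianRing_fixedBoo' h hG hD hF
  exact IsLocalization.isNoetherianRing m.primeCompl _ inferInstance

include h hG in
/-- the localisations of the chart ring of `C.swap` are Noetherian. -/
theorem isNoetherianRing_loc_swap (hD : FixData2 (redSetupTwoVal R₁ R₂ hπ) Γ)
    (hF : Submodule.span K {f : F | IsFixed Γ f} = ⊤) (m : Ideal (B0 C.swap Γ)) [m.IsPrime] :
    IsNoetherianRing (Localization.AtPrime m) := by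
  haveI : IsNoetherianRing (B0 C.swap Γ) := isNoetherianRing_B0_swap h hG hD hF
  exact IsLocalization.isNoetherianRing m.primeCompl _ inferInstance

include h hG in
/-- **the datum at a non-node place with `0 ≤ ord x`** (chart `C`), inside the context bundle. -/
theorem exists_datum_ctx (hD : FixData2 (redSetupTwoVal R₁ R₂ hπ) Γ)
    (hF : Submodule.span K {f : F | IsFixed Γ f} = ⊤)
    (hp : ∀ c : A, IsFixedK Γ (c : K) → c ∈ maximalIdeal A → ((p : ℕ) : A) ∣ c)
    (P' : Place k E) (hP : 0 ≤ P'.ord C.T.1)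
    (hnn : ∃ a : C.B₁, ((a, 0) : C.B₁ × C.B₂) ∈ C.BbarT ∧
      (a : E) ∉ P'.toValuationSubring.nonunits) :
    haveI := isFractionRing_loc h hG hD hF ((ptIdeal₁ C P' hP).comap (rho1 C Γ))
    haveI := isNoetherianRing_loc h hG hD hF ((ptIdeal₁ C P' hP).comap (rho1 C Γ))
    ∃ t : B0 C Γ, Datum (R₁ := R₁) ((ptIdeal₁ C P' hP).comap (rho1 C Γ)) p P' t := by
  haveI := isFractionRing_loc h hG hD hF ((ptIdeal₁ C P' hP).comap (rho1 C Γ))
  haveI := isNoetherianRing_loc h hG hD hF ((ptIdeal₁ C P' hP).comap (rho1 C Γ))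
  haveI : IsNoetherianRing (B0 C Γ) := FixedNoeth.isNoetherianRing_fixedBoo' h hG hD hF
  haveI := isAlgebraic_adjoin_t h
  haveI := finiteDimensional_T h
  haveI := isSeparable_T h
  exact exists_datum (NodeRing.hlift h hG hD hF) h.hL2 (hstab hG) (transcendental_T h) hD hF
    (NodeRing.isFixedK_natCast p) (NodeRing.natCast_ne_zero h)
    (NodeRing.natCast_mem_maximalIdeal h) hp (natCast_B₁_eq_zero h) P' hP hnn _ rfl

include h hG in
/-- **the datum at a non-node place with `0 ≤ ord x⁻¹`** (chart `C.swap`: the places over `t = ∞`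
included), inside the context bundle. -/
theorem exists_datum_ctx_swap (hD : FixData2 (redSetupTwoVal R₁ R₂ hπ) Γ)
    (hF : Submodule.span K {f : F | IsFixed Γ f} = ⊤)
    (hp : ∀ c : A, IsFixedK Γ (c : K) → c ∈ maximalIdeal A → ((p : ℕ) : A) ∣ c)
    (P' : Place k E) (hP : 0 ≤ P'.ord C.swap.T.1)
    (hnn : ∃ a : C.swap.B₁, ((a, 0) : C.swap.B₁ × C.swap.B₂) ∈ C.swap.BbarT ∧
      (a : E) ∉ P'.toValuationSubring.nonunits) :
    haveI := isFractionRing_loc_swap h hG hD hF
      ((ptIdeal₁ C.swap P' hP).comap (rho1 C.swap Γ))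
    haveI := isNoetherianRing_loc_swap h hG hD hF
      ((ptIdeal₁ C.swap P' hP).comap (rho1 C.swap Γ))
    ∃ t : B0 C.swap Γ,
      Datum (R₁ := R₁) ((ptIdeal₁ C.swap P' hP).comap (rho1 C.swap Γ)) p P' t := by
  haveI := isFractionRing_loc_swap h hG hD hF ((ptIdeal₁ C.swap P' hP).comap (rho1 C.swap Γ))
  haveI := isNoetherianRing_loc_swap h hG hD hF
    ((ptIdeal₁ C.swap P' hP).comap (rho1 C.swap Γ))
  haveI : IsNoetherianRing (B0 C.swap Γ) := isNoetherianRing_B0_swap h hG hD hF
  haveI := isAlgebraic_adjoin_swap_t h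
  haveI := finiteDimensional_swap_T h
  haveI := isSeparable_swap_T h
  exact exists_datum (hlift_swap h hG hD hF) (isL2_swap h) (hstab_swap hG)
    (transcendental_swap_T h) hD hF (NodeRing.isFixedK_natCast p) (NodeRing.natCast_ne_zero h)
    (NodeRing.natCast_mem_maximalIdeal h) hp (natCast_swap_B₁_eq_zero h) P' hP hnn _ rfl

end Ctx

/-! ### The discharge at `Qbar`, level `M q`, `Γ = inertiaAct P (M q)` -/

section QbarInst

open ModularCurve
open Fermat.Agent.Gateway.Hecke Fermat.Agent.Gateway.ESC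
open Fermat.Agent.Gateway.Red Fermat.Agent.Gateway.GoodRed
open Fermat.Agent.Gateway.GoodRed.ConjFamily
open Fermat.Agent.S34x.TwoVal
open Fermat.Agent.S34x.Inst.L2 Fermat.Agent.S34x.Inst.IsL2Inst
open Fermat.Agent.S34x.Inst.RedSetupInst Fermat.Agent.S34x.Inst.ElementYRed
open Fermat.Agent.S34x.Inst.ElementYInt Fermat.Agent.S34x.Inst.Charts
open Fermat.Agent.S34x.Inst Fermat.Agent.S34x.Inst.TheoremBMq
open Fermat.Agent.S33x.H1.FixData2Inst Fermat.Agent.S33x.H1.FixData2Final
open Fermat.Agent.S56x.Flat.InertiaField Fermat.Agent.S19x.Hens.InertiaResidue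

attribute [-instance] IsScalarTower.of_algHom

local notation "Qbar" => AlgebraicClosure ℚ

variable {P : ValuationSubring Qbar} {k : Type} [Field k] {π : P →+* k} [IsAlgClosed k]
variable {M q : ℕ} [NeZero M] [NeZero q] [Fact q.Prime] [CharP k q]
variable {hdeg : finrankAlong Qbar (heckeAlphaBar Qbar M q) = q + 1} {hq : q.Prime}
  {hqM : ¬ q ∣ M}
variable {hrk : ∀ x ∈ maximalIdeal P, ∀ c : P, c ≠ 0 → ∃ j : ℕ, c ∣ x ^ j}
  {hπ : Function.Surjective π}
variable (H : ResidueFacts P π M q hdeg hq hqM hrk hπ) (hA : P.LiesOverPrime q)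
  (x : LaurentSeries ℤ) (hx : coeffMap (Int.castRingHom Qbar) x ∈ FBar Qbar M)
  (Hx : GoodLevelFactsT P π M q hπ hqM (tInt M x hx))

/-- **the uniformiser literal `hp`** at `Qbar`: an inertia-fixed element of the maximal ideal of
`P` is divisible by `q` in `P`. -/
theorem natCast_dvd_of_fixed_Qb (N : ℕ) (hA : P.LiesOverPrime q) (c : P)
    (hc : IsFixedK (inertiaAct P N) (c : Qbar)) (hcm : c ∈ maximalIdeal P) :
    ((q : ℕ) : P) ∣ c := by
  rw [← ValuationSubring.coe_mem_nonunits_iff] at hcm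
  obtain ⟨d, hd, hcd⟩ := exists_eq_natCast_mul_of_fixed P (Fact.out : q.Prime) hA hcm
    (fixed_of_isFixedK (inertiaAct P N) (inertiaAct_baseAut' P N) hc)
  exact ⟨⟨d, hd.1⟩, Subtype.ext (by simpa using hcd)⟩

set_option maxHeartbeats 1600000 in
include Hx hA in
/-- **The smooth-point datum at `Qbar`, places with `0 ≤ ord x̄`** (chart `C`): for every place
`P'` of `Fk k M` with `0 ≤ P'.ord C.T.1` which is not a node, the local ring of
`B_0 = (B_∞)^I` at the point ideal `m` of `P'` on the first component carries the datum, with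
`p = q`.  (`m` is bound by the existential, together with its instances, so that no instance
has to be synthesised through the unfolding of `redSetup2`.) -/
theorem exists_datum_Qb [PerfectRing k q]
    (C : ChartCoord (redSetupTwoVal (redSetupInfty H hA) (redSetupZero H hA) rfl))
    (hCt : C.t = tA M q x hx) (hxk : tbar k x ≠ 0) (hY : YFacts M q x hx)
    (P' : Place k (Fk k M)) (hP : 0 ≤ P'.ord C.T.1)
    (hnn : ∃ a : C.B₁, ((a, 0) : C.B₁ × C.B₂) ∈ C.BbarT ∧
      (a : Fk k M) ∉ P'.toValuationSubring.nonunits) :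
    ∃ (m : Ideal (B0 C (inertiaAct P (M * q)))) (_ : m.IsPrime)
      (_ : IsFractionRing (Localization.AtPrime m) (fixedField (inertiaAct P (M * q))))
      (_ : IsNoetherianRing (Localization.AtPrime m)) (t : B0 C (inertiaAct P (M * q))),
      m = (ptIdeal₁ C P' hP).comap (rho1 C (inertiaAct P (M * q))) ∧
      (∀ b : B0 C (inertiaAct P (M * q)), b ∈ m ↔
        ((rho1 C (inertiaAct P (M * q)) b : C.B₁) : Fk k M) ∈
          P'.toValuationSubring.nonunits) ∧
      Datum (R₁ := redSetupInfty H hA) m q P' t := by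
  haveI : CharZero Qbar := algebraRat.charZero Qbar
  obtain ⟨Dt, hctx, hgal, hD, hF⟩ := FixedQb.bundle_Mq H hA x hx Hx C hCt hxk hY
  have hctx' : Ctx (redSetupTwoVal (redSetupInfty H hA) (redSetupZero H hA) rfl) C q q C.T.1
    Dt := hctx
  have hgal' : CtxGal (redSetupTwoVal (redSetupInfty H hA) (redSetupZero H hA) rfl) C
    (inertiaAct P (M * q)) := hgal
  have hD' : FixData2 (redSetupTwoVal (redSetupInfty H hA) (redSetupZero H hA) rfl)
    (inertiaAct P (M * q)) := hD
  obtain ⟨t, ht⟩ :=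
    exists_datum_ctx hctx' hgal' hD' hF (natCast_dvd_of_fixed_Qb (M * q) hA) P' hP hnn
  exact ⟨_, inferInstance, isFractionRing_loc hctx' hgal' hD' hF _,
    isNoetherianRing_loc hctx' hgal' hD' hF _, t, rfl,
    fun b => by rw [Ideal.mem_comap, mem_ptIdeal₁_iff], ht⟩

set_option maxHeartbeats 1600000 in
include Hx hA in
/-- **The smooth-point datum at `Qbar`, places with `0 ≤ ord x̄⁻¹`** (chart `C.swap`: everything
over `t = ∞`, the cusps included). -/
theorem exists_datum_swap_Qb [PerfectRing k q]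
    (C : ChartCoord (redSetupTwoVal (redSetupInfty H hA) (redSetupZero H hA) rfl))
    (hCt : C.t = tA M q x hx) (hxk : tbar k x ≠ 0) (hY : YFacts M q x hx)
    (P' : Place k (Fk k M)) (hP : 0 ≤ P'.ord C.swap.T.1)
    (hnn : ∃ a : C.swap.B₁, ((a, 0) : C.swap.B₁ × C.swap.B₂) ∈ C.swap.BbarT ∧
      (a : Fk k M) ∉ P'.toValuationSubring.nonunits) :
    ∃ (m : Ideal (B0 C.swap (inertiaAct P (M * q)))) (_ : m.IsPrime)
      (_ : IsFractionRing (Localization.AtPrime m) (fixedField (inertiaAct P (M * q))))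
      (_ : IsNoetherianRing (Localization.AtPrime m))
      (t : B0 C.swap (inertiaAct P (M * q))),
      m = (ptIdeal₁ C.swap P' hP).comap (rho1 C.swap (inertiaAct P (M * q))) ∧
      (∀ b : B0 C.swap (inertiaAct P (M * q)), b ∈ m ↔
        ((rho1 C.swap (inertiaAct P (M * q)) b : C.swap.B₁) : Fk k M) ∈
          P'.toValuationSubring.nonunits) ∧
      Datum (R₁ := redSetupInfty H hA) m q P' t := by
  haveI : CharZero Qbar := algebraRat.charZero Qbar
  obtain ⟨Dt, hctx, hgal, hD, hF⟩ := FixedQb.bundle_Mq H hA x hx Hx C hCt hxk hY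
  have hctx' : Ctx (redSetupTwoVal (redSetupInfty H hA) (redSetupZero H hA) rfl) C q q C.T.1
    Dt := hctx
  have hgal' : CtxGal (redSetupTwoVal (redSetupInfty H hA) (redSetupZero H hA) rfl) C
    (inertiaAct P (M * q)) := hgal
  have hD' : FixData2 (redSetupTwoVal (redSetupInfty H hA) (redSetupZero H hA) rfl)
    (inertiaAct P (M * q)) := hD
  obtain ⟨t, ht⟩ :=
    exists_datum_ctx_swap hctx' hgal' hD' hF (natCast_dvd_of_fixed_Qb (M * q) hA) P' hP hnn
  exact ⟨_, inferInstance, isFractionRing_loc_swap hctx' hgal' hD' hF _,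
    isNoetherianRing_loc_swap hctx' hgal' hD' hF _, t, rfl,
    fun b => by rw [Ideal.mem_comap, mem_ptIdeal₁_iff], ht⟩

end QbarInst

end Fermat.Agent.S40x.Node.SmoothBQb

end
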