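import Fermat.Agent.S40x.Node.SmoothBPlace
import Fermat.Agent.S40x.Node.FixedNoethZero
import Fermat.Agent.S40x.Node.PlaceIdealInst

/-!
# P-S44/S40, block R1 / N-alpha, leaf N4 (smooth-point rings), SECOND (helper27): the SWAP chart
inside the context bundle

The smooth-point theorems of `Node/SmoothBInst`, `Node/SmoothBPlace` are generic in the chart
`C : ChartCoord R`.  The places over `t = ∞` (in particular the cusps over `t = ∞`) are seen by the
swapped chart `C.swap` (coordinate `t⁻¹`, chart ring `⋃_a L(a C_0) ∩ O`).  This file discharges,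
INSIDE the context bundle `Ctx R C p q x Dt` + `CtxGal R C Γ` + `FixData2 R Γ` + `hF`, every
hypothesis of those theorems for BOTH charts `C` and `C.swap`:

* `isAlgebraic_adjoin_t`, `isAlgebraic_adjoin_swap_t`, `hstab`, `hstab_swap` : the hypotheses of
  `NodeFrac.isFractionRing_localization` (helper5), hence `isFractionRing_loc`,
  `isFractionRing_loc_swap` : `F^Γ = Frac (B_0)_m` for every prime `m` of either chart ring;
* `booAlg_swap : BooAlg C.swap = BzeroAlg C`, `isNoetherianRing_B0_swap` (from helper30's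
  `FixedNoethZero`), `hlift_swap`, `isL2_swap`;
* `transcendental_swap_T`, `finiteDimensional_swap_T`, `isSeparable_swap_T`,
  `isDedekindDomain_swap_B₁`, `natCast_swap_B₁_eq_zero`;
* `isSmoothPtRing_swap`, `exists_isSmoothPtRing_swap`, `exists_red_swap` : **(N-Sm)** for the
  chart `C.swap` inside the context bundle (prime-ideal vocabulary);
* `isSmoothPtRing_place`, `isSmoothPtRing_place_swap` : **(N-Sm)** in place vocabulary, for a
  place `P` with `0 ≤ P.ord x` (chart `C`), resp. `0 ≤ P.ord x⁻¹` (chart `C.swap`), which is not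
  a node (helper61's literal `IsNonNode₁`), local parameter any `t` with `P.ord (rho1 t) = 1`;
  `exists_uniformiser`, `exists_uniformiser_swap` : such a `t` exists.
-/

set_option autoImplicit false
set_option linter.unusedSectionVars false
set_option linter.style.haveILetI false

noncomputable section

namespace Fermat.Agent.S40x.Node.SmoothBSwap

open AlgebraicCurve IsLocalRing Module IntermediateField
open scoped IntermediateField.algebraAdjoinAdjoin
open Fermat.Agent.S34x Fermat.Agent.S34x.C0two Fermat.Agent.S34x.Lattice2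
open Fermat.Agent.S19x.Geo.LatticeFixed (IsFixed IsFixedK)
open Fermat.Agent.S33x.H1.LatticeFixed2 Fermat.Agent.S33x.H1.FixedDecomp
open Fermat.Agent.S33x.H1 Fermat.Agent.S33x.W.InstW
open Fermat.Agent.S33x.Cech.CtxMq Fermat.Agent.S33x.W.InstWCtx
open Fermat.Agent.S40x.Node Fermat.Agent.S40x.Node.NodeInst
open Fermat.Agent.S40x.Node.PlaceIdeal Fermat.Agent.S40x.Node.NodeFrac
open Fermat.Agent.S40x.Node.SmoothBInst Fermat.Agent.S40x.Node.SmoothBPlace

variable {K : Type*} [Field K] [IsAlgClosed K] [CharZero K] {A : ValuationSubring K}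
  {F : Type*} [Field F] [Algebra K F] {S : SmallRing F}
  {k : Type*} [Field k] [IsAlgClosed k] {E : Type*} [Field E] [Algebra k E]
  {R : RedSetup2 A S k (E × E)} {C : ChartCoord R} {p q : ℕ} {x : E} {Dt : Divisor K F}
  (h : Ctx R C p q x Dt) {Γ : Set (SemilinearAut K F)} (hG : CtxGal R C Γ)

/-! ### Fraction fields -/

include h in
/-- `F` is algebraic over `K[t]`. -/
theorem isAlgebraic_adjoin_t : Algebra.IsAlgebraic (Algebra.adjoin K {C.t}) F := by
  haveI := h.fin_t
  exact ⟨fun f => (IsFractionRing.isAlgebraic_iff (Algebra.adjoin K {C.t}) K⟮C.t⟯ F).mpr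
    (Algebra.IsAlgebraic.isAlgebraic f)⟩

include h in
/-- `F` is algebraic over `K[t⁻¹]`. -/
theorem isAlgebraic_adjoin_swap_t : Algebra.IsAlgebraic (Algebra.adjoin K {C.swap.t}) F := by
  haveI := h.fin_t
  haveI : FiniteDimensional K⟮C.t⁻¹⟯ F := finiteDimensional_inv C.t
  exact ⟨fun f => (IsFractionRing.isAlgebraic_iff (Algebra.adjoin K {C.t⁻¹}) K⟮C.t⁻¹⟯ F).mpr
    (Algebra.IsAlgebraic.isAlgebraic f)⟩

include hG in
theorem hstab (b : ℕ) : ∀ s ∈ Γ, ∀ f ∈ C.LN 0 b, s • f ∈ C.LN 0 b :=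
  StableLN.stable_LN C hG.smul_t 0 b

include hG in
theorem hstab_swap (b : ℕ) : ∀ s ∈ Γ, ∀ f ∈ C.swap.LN 0 b, s • f ∈ C.swap.LN 0 b := by
  rw [ChartCoord.swap_LN]
  exact StableLN.stable_LN C hG.smul_t b 0

include h hG in
/-- **`(n0)`** for every prime of the chart ring `B_0` of the chart `C`. -/
theorem isFractionRing_loc (hD : FixData2 R Γ)
    (hF : Submodule.span K {f : F | IsFixed Γ f} = ⊤) (m : Ideal (B0 C Γ)) [m.IsPrime] :
    IsFractionRing (Localization.AtPrime m) (fixedField Γ) := by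
  haveI := isAlgebraic_adjoin_t h
  exact isFractionRing_localization m hD hF (hstab hG)

include h hG in
/-- **`(n0)`** for every prime of the chart ring of the chart `C.swap`. -/
theorem isFractionRing_loc_swap (hD : FixData2 R Γ)
    (hF : Submodule.span K {f : F | IsFixed Γ f} = ⊤) (m : Ideal (B0 C.swap Γ)) [m.IsPrime] :
    IsFractionRing (Localization.AtPrime m) (fixedField Γ) := by
  haveI := isAlgebraic_adjoin_swap_t h
  exact isFractionRing_localization m hD hF (hstab_swap hG)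

/-! ### The chart ring of the swapped chart -/

/-- the half-chart ring `B_∞` of the swapped chart is the half-chart ring `B_0`-chart of `C`. -/
theorem booAlg_swap : InstC4.BooAlg C.swap = InstC4.BzeroAlg C := by
  ext f
  rw [InstC4.mem_BooAlg, InstC4.mem_BzeroAlg]
  constructor
  · rintro ⟨b, hb⟩
    refine ⟨b, ?_⟩
    rw [InstC1.mem_Lam] at hb ⊢
    rw [ChartCoord.swap_LN] at hb
    exact hb
  · rintro ⟨a, ha⟩
    refine ⟨a, ?_⟩
    rw [InstC1.mem_Lam] at ha ⊢
    rw [ChartCoord.swap_LN]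
    exact ha

include h hG in
/-- **(N1)** for the chart ring of the swapped chart. -/
theorem isNoetherianRing_B0_swap (hD : FixData2 R Γ)
    (hF : Submodule.span K {f : F | IsFixed Γ f} = ⊤) : IsNoetherianRing (B0 C.swap Γ) := by
  have h1 := FixedNoethZero.isNoetherianRing_fixedBzero' h hG hD hF
  show IsNoetherianRing (fixedAlg Γ (InstC4.BooAlg C.swap))
  rw [booAlg_swap]
  exact h1

include h hG in
/-- fixed lifts of the reductions, swapped chart. -/
theorem hlift_swap (hD : FixData2 R Γ) (hF : Submodule.span K {f : F | IsFixed Γ f} = ⊤)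
    (b : ℕ) (y : E × E) (hy : y ∈ R.redLat (C.swap.LN 0 b)) :
    ∃ (f : F) (hf : f ∈ S.O), f ∈ C.swap.LN 0 b ∧ IsFixed Γ f ∧ R.res ⟨f, hf⟩ = y := by
  haveI : ∀ b, FiniteDimensional K (C.swap.LN 0 b) := fun b => by
    rw [ChartCoord.swap_LN]
    exact finite_LN h b 0
  refine hlift_of_fixData hD hF (fun b => ?_) (hstab_swap hG) b y hy
  rw [ChartCoord.swap_LN]
  exact fg_lat_LN' h b 0

include h in
theorem isL2_swap : C.swap.IsL2 := h.hL2₀

/-! ### The coordinate ring of the swapped chart -/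

include h in
theorem T_fst_eq : C.T.1 = x := by rw [h.hT]

include h in
theorem swap_T_fst_eq : C.swap.T.1 = x⁻¹ := by
  rw [ChartCoord.swap_T, PlaceIdealInst.Ti_fst_eq_inv, T_fst_eq h]

include h in
theorem transcendental_T : Transcendental k C.T.1 := by
  rw [T_fst_eq h]
  exact h.hx

include h in
theorem finiteDimensional_T : FiniteDimensional k⟮C.T.1⟯ E := by
  rw [T_fst_eq h]
  exact h.fin_x

include h in
theorem isSeparable_T : Algebra.IsSeparable k⟮C.T.1⟯ E := by
  rw [T_fst_eq h]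
  exact h.sep_x

include h in
theorem transcendental_swap_T : Transcendental k C.swap.T.1 := by
  rw [swap_T_fst_eq h]
  exact transcendental_inv h.hx

include h in
theorem finiteDimensional_swap_T : FiniteDimensional k⟮C.swap.T.1⟯ E := by
  rw [swap_T_fst_eq h]
  haveI := h.fin_x
  exact finiteDimensional_inv x

include h in
theorem isSeparable_swap_T : Algebra.IsSeparable k⟮C.swap.T.1⟯ E := by
  rw [swap_T_fst_eq h]
  haveI := h.sep_x
  exact isSeparable_inv x

include h in
/-- the coordinate ring of the first component in the swapped chart is a Dedekind domain. -/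
theorem isDedekindDomain_swap_B₁ : IsDedekindDomain C.swap.B₁ := by
  haveI := finiteDimensional_swap_T h
  haveI := isSeparable_swap_T h
  exact (SmoothBPlace.isHalfChart_B₁ C.swap).isDedekindDomain (transcendental_swap_T h)

include h in
theorem natCast_swap_B₁_eq_zero : ((p : ℕ) : C.swap.B₁) = 0 := by
  haveI := h.charP
  rw [← map_natCast (algebraMap k C.swap.B₁), CharP.cast_eq_zero, map_zero]

/-! ### (N-Sm) for the swapped chart, prime-ideal vocabulary -/

include h hG in
/-- **(N-Sm) for the chart `C.swap` inside the context bundle**. -/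
theorem isSmoothPtRing_swap (hD : FixData2 R Γ)
    (hF : Submodule.span K {f : F | IsFixed Γ f} = ⊤)
    (hp : ∀ c : A, IsFixedK Γ (c : K) → c ∈ maximalIdeal A → ((p : ℕ) : A) ∣ c)
    (𝔫 : Ideal C.swap.B₁) [𝔫.IsPrime] {a : C.swap.B₁}
    (ha : (a, (0 : C.swap.B₂)) ∈ C.swap.BbarT) (ha𝔫 : a ∉ 𝔫)
    {t : B0 C.swap Γ} (ht : rho1 C.swap Γ t ∈ 𝔫) (ht2 : rho1 C.swap Γ t ∉ 𝔫 ^ 2) :
    haveI : IsNoetherianRing (B0 C.swap Γ) := isNoetherianRing_B0_swap h hG hD hF
    IsSmoothPtRing (Localization.AtPrime (𝔫.comap (rho1 C.swap Γ))) p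
      (algebraMap (B0 C.swap Γ) _ t) := by
  haveI : IsNoetherianRing (B0 C.swap Γ) := isNoetherianRing_B0_swap h hG hD hF
  haveI := isDedekindDomain_swap_B₁ h
  exact isSmoothPtRing_fst_of_dedekind (hlift_swap h hG hD hF) hD
    (NodeRing.isFixedK_natCast p) (NodeRing.natCast_ne_zero h) hp (isL2_swap h)
    (natCast_swap_B₁_eq_zero h) 𝔫 ha ha𝔫 ht ht2

include h hG in
/-- **(N-Sm) for the chart `C.swap`**, existence of the local parameter. -/
theorem exists_isSmoothPtRing_swap (hD : FixData2 R Γ)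
    (hF : Submodule.span K {f : F | IsFixed Γ f} = ⊤)
    (hp : ∀ c : A, IsFixedK Γ (c : K) → c ∈ maximalIdeal A → ((p : ℕ) : A) ∣ c)
    (𝔫 : Ideal C.swap.B₁) [𝔫.IsPrime] (h𝔫 : 𝔫 ≠ ⊥) {a : C.swap.B₁}
    (ha : (a, (0 : C.swap.B₂)) ∈ C.swap.BbarT) (ha𝔫 : a ∉ 𝔫) :
    haveI : IsNoetherianRing (B0 C.swap Γ) := isNoetherianRing_B0_swap h hG hD hF
    ∃ t : B0 C.swap Γ, rho1 C.swap Γ t ∈ 𝔫 ∧ rho1 C.swap Γ t ∉ 𝔫 ^ 2 ∧
      IsSmoothPtRing (Localization.AtPrime (𝔫.comap (rho1 C.swap Γ))) p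
        (algebraMap (B0 C.swap Γ) _ t) := by
  haveI : IsNoetherianRing (B0 C.swap Γ) := isNoetherianRing_B0_swap h hG hD hF
  haveI := isDedekindDomain_swap_B₁ h
  exact exists_isSmoothPtRing_fst (hlift_swap h hG hD hF) hD
    (NodeRing.isFixedK_natCast p) (NodeRing.natCast_ne_zero h) hp (isL2_swap h)
    (natCast_swap_B₁_eq_zero h) 𝔫 h𝔫 ha ha𝔫

include h hG in
/-- the local reduction for the chart `C.swap`: surjective, kernel `(p)`. -/
theorem exists_red_swap (hD : FixData2 R Γ)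
    (hF : Submodule.span K {f : F | IsFixed Γ f} = ⊤)
    (hp : ∀ c : A, IsFixedK Γ (c : K) → c ∈ maximalIdeal A → ((p : ℕ) : A) ∣ c)
    (𝔫 : Ideal C.swap.B₁) [𝔫.IsPrime] {a : C.swap.B₁}
    (ha : (a, (0 : C.swap.B₂)) ∈ C.swap.BbarT) (ha𝔫 : a ∉ 𝔫) :
    ∃ r1 : Localization.AtPrime (𝔫.comap (rho1 C.swap Γ)) →+* Localization.AtPrime 𝔫,
      (∀ b, r1 (algebraMap (B0 C.swap Γ) _ b) = algebraMap C.swap.B₁ _ (rho1 C.swap Γ b)) ∧
      Function.Surjective r1 ∧
      ∀ y, r1 y = 0 ↔ ((p : ℕ) : Localization.AtPrime (𝔫.comap (rho1 C.swap Γ))) ∣ y :=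
  exists_red_fst (hlift_swap h hG hD hF) hD (NodeRing.isFixedK_natCast p)
    (NodeRing.natCast_ne_zero h) hp (isL2_swap h) (natCast_swap_B₁_eq_zero h) 𝔫 ha ha𝔫

/-! ### (N-Sm) in place vocabulary, both charts -/

include h hG in
/-- **(N-Sm) at a non-node place `P` with `0 ≤ P.ord x`** (chart `C`), inside the context
bundle. -/
theorem isSmoothPtRing_place (hD : FixData2 R Γ)
    (hF : Submodule.span K {f : F | IsFixed Γ f} = ⊤)
    (hp : ∀ c : A, IsFixedK Γ (c : K) → c ∈ maximalIdeal A → ((p : ℕ) : A) ∣ c)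
    (P : Place k E) (hP : 0 ≤ P.ord C.T.1)
    (hnn : ∃ a : C.B₁, ((a, 0) : C.B₁ × C.B₂) ∈ C.BbarT ∧
      (a : E) ∉ P.toValuationSubring.nonunits)
    {t : B0 C Γ} (ht : P.ord ((rho1 C Γ t : C.B₁) : E) = 1) :
    haveI : IsNoetherianRing (B0 C Γ) := FixedNoeth.isNoetherianRing_fixedBoo' h hG hD hF
    IsSmoothPtRing (Localization.AtPrime ((ptIdeal₁ C P hP).comap (rho1 C Γ))) p
      (algebraMap (B0 C Γ) _ t) := by
  haveI : IsNoetherianRing (B0 C Γ) := FixedNoeth.isNoetherianRing_fixedBoo' h hG hD hF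
  haveI := finiteDimensional_T h
  haveI := isSeparable_T h
  exact SmoothBPlace.isSmoothPtRing_place (NodeRing.hlift h hG hD hF) hD
    (NodeRing.isFixedK_natCast p) (NodeRing.natCast_ne_zero h) hp (transcendental_T h) h.hL2
    (natCast_B₁_eq_zero h) P hP hnn ht

include h hG in
/-- **(N-Sm) at a non-node place `P` with `0 ≤ P.ord x⁻¹`** (chart `C.swap`: the places over
`t = ∞` included), inside the context bundle. -/
theorem isSmoothPtRing_place_swap (hD : FixData2 R Γ)
    (hF : Submodule.span K {f : F | IsFixed Γ f} = ⊤)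
    (hp : ∀ c : A, IsFixedK Γ (c : K) → c ∈ maximalIdeal A → ((p : ℕ) : A) ∣ c)
    (P : Place k E) (hP : 0 ≤ P.ord C.swap.T.1)
    (hnn : ∃ a : C.swap.B₁, ((a, 0) : C.swap.B₁ × C.swap.B₂) ∈ C.swap.BbarT ∧
      (a : E) ∉ P.toValuationSubring.nonunits)
    {t : B0 C.swap Γ} (ht : P.ord ((rho1 C.swap Γ t : C.swap.B₁) : E) = 1) :
    haveI : IsNoetherianRing (B0 C.swap Γ) := isNoetherianRing_B0_swap h hG hD hF
    IsSmoothPtRing (Localization.AtPrime ((ptIdeal₁ C.swap P hP).comap (rho1 C.swap Γ))) p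
      (algebraMap (B0 C.swap Γ) _ t) := by
  haveI : IsNoetherianRing (B0 C.swap Γ) := isNoetherianRing_B0_swap h hG hD hF
  haveI := finiteDimensional_swap_T h
  haveI := isSeparable_swap_T h
  exact SmoothBPlace.isSmoothPtRing_place (hlift_swap h hG hD hF) hD
    (NodeRing.isFixedK_natCast p) (NodeRing.natCast_ne_zero h) hp (transcendental_swap_T h)
    (isL2_swap h) (natCast_swap_B₁_eq_zero h) P hP hnn ht

include h hG in
/-- a uniformiser at `P` lifts to the chart ring `B_0` (chart `C`). -/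
theorem exists_uniformiser (hD : FixData2 R Γ)
    (hF : Submodule.span K {f : F | IsFixed Γ f} = ⊤) (P : Place k E) (hP : 0 ≤ P.ord C.T.1) :
    ∃ t : B0 C Γ, P.ord ((rho1 C Γ t : C.B₁) : E) = 1 := by
  haveI := finiteDimensional_T h
  haveI := isSeparable_T h
  have hB := SmoothBPlace.isHalfChart_B₁ C
  haveI := hB.isDedekindDomain (transcendental_T h)
  haveI := hB.maxIdeal_isPrime P hP
  obtain ⟨τ, hτ, hτ2⟩ := Ideal.exists_mem_pow_notMem_pow_succ (hB.maxIdeal P hP)
    (hB.maxIdeal_ne_bot (transcendental_T h) P hP) (Ideal.IsPrime.ne_top inferInstance) 1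
  rw [pow_one] at hτ
  obtain ⟨t, rfl⟩ := rho1_surjective (NodeRing.hlift h hG hD hF) h.hL2 τ
  exact ⟨t, (hB.ord_eq_one_iff (transcendental_T h) P hP _).mpr ⟨hτ, hτ2⟩⟩

include h hG in
/-- a uniformiser at `P` lifts to the chart ring of the chart `C.swap`. -/
theorem exists_uniformiser_swap (hD : FixData2 R Γ)
    (hF : Submodule.span K {f : F | IsFixed Γ f} = ⊤) (P : Place k E)
    (hP : 0 ≤ P.ord C.swap.T.1) :
    ∃ t : B0 C.swap Γ, P.ord ((rho1 C.swap Γ t : C.swap.B₁) : E) = 1 := by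
  haveI := finiteDimensional_swap_T h
  haveI := isSeparable_swap_T h
  have hB := SmoothBPlace.isHalfChart_B₁ C.swap
  haveI := hB.isDedekindDomain (transcendental_swap_T h)
  haveI := hB.maxIdeal_isPrime P hP
  obtain ⟨τ, hτ, hτ2⟩ := Ideal.exists_mem_pow_notMem_pow_succ (hB.maxIdeal P hP)
    (hB.maxIdeal_ne_bot (transcendental_swap_T h) P hP) (Ideal.IsPrime.ne_top inferInstance) 1
  rw [pow_one] at hτ
  obtain ⟨t, rfl⟩ := rho1_surjective (hlift_swap h hG hD hF) (isL2_swap h) τ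
  exact ⟨t, (hB.ord_eq_one_iff (transcendental_swap_T h) P hP _).mpr ⟨hτ, hτ2⟩⟩

end Fermat.Agent.S40x.Node.SmoothBSwap

end
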