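import Fermat.Agent.S40x.Node.SmoothBQb
import Fermat.Agent.S40x.Node.PlaceIdealInst

/-!
# P-S44/S40, block R1 / N-alpha, leaf N4 (smooth-point rings), SECOND (helper27): the SECOND
component

Mirror of `Node/SmoothBPlace` + `Node/SmoothBQb` for the places of the SECOND component of the
special fibre (reduction `rho2`, valuation ring `O₂`).  One point is NOT symmetric: at the concrete
level the coordinate of the second component is `C.T.2 = x̄ ^ q`, over which the residue field is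
NOT separable; the coordinate ring `C.B₂` is nevertheless the half chart of `x̄ = C.T.1`
(helper65, `PlaceIdealInst.isHalfChart_B₂`).  So everything here takes a coordinate `T'` with
`hB : IsHalfChart T' C.B₂` (and `κ₂ / k(T')` finite separable) as a parameter.

* `ptIdeal₂ C hB P hP : Ideal C.B₂` (`= m_P`, prime), `mem_ptIdeal₂_iff`, `nonNode_notMem₂`
  (helper61's literal `IsNonNode₂ C P`), `ord_nonneg_B₂`, `ord_eq_zero_of_notMem₂`,
  `isSmoothPtRing_place₂` : **(N-Sm)** at a non-node place of the second component;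
* two valuation rings: `Ozero = Oinf Γ O₂`, reduction `redInf Γ R₂` (the definitions of
  `Node/SmoothBInst` applied to the second valuation ring): `algebraMap_mem_Ozero`,
  `inv_mem_Ozero_of_rho2_ne_zero`, `redInf_algebraMap₂`, `branchRed_algebraMap₂`,
  `branchRed_natCast₂`, `branchRed_eq_zero_iff_dvd₂`, `ord_branchRed_nonneg₂`,
  `ord_branchRed_unit₂`, `exists_ord_branchRed_eq₂` (**X4**), `tame_smooth_place₂`
  (**TAME-Sm**);
* `Datum₂ m p P' t`, `exists_datum₂` : **the smooth-point datum at a non-node place of the second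
  component** (X1 + X3 + X4), generic chart;
* `isHalfChart_B₂`, `isHalfChart_swap_B₂`, `exists_datum₂_ctx`, `exists_datum₂_ctx_swap` : inside
  the context bundle `Ctx + CtxGal + FixData2 + hF`, charts `C` (`0 ≤ ord x`) and `C.swap`
  (`0 ≤ ord x⁻¹`);
* `exists_datum₂_Qb`, `exists_datum₂_swap_Qb` : at `Qbar`, level `M q`, `Γ = inertiaAct P (M q)`.
-/

set_option autoImplicit false
set_option linter.unusedSectionVars false
set_option linter.style.haveILetI false
set_option linter.unusedVariables false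

noncomputable section

namespace Fermat.Agent.S40x.Node.SmoothBZero

open AlgebraicCurve IsLocalRing Module IntermediateField
open Fermat.Agent.S34x Fermat.Agent.S34x.C0two Fermat.Agent.S34x.Lattice2
open Fermat.Agent.S19x.Geo.LatticeFixed (IsFixed IsFixedK)
open Fermat.Agent.S33x.H1.LatticeFixed2 Fermat.Agent.S33x.H1.FixedDecomp
open Fermat.Agent.S33x.H1 Fermat.Agent.S33x.W.InstW
open Fermat.Agent.S33x.Cech.CtxMq Fermat.Agent.S33x.W.InstWCtx
open Fermat.Agent.S40x.Node Fermat.Agent.S40x.Node.NodeInst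
open Fermat.Agent.S40x.Node.PlaceIdeal Fermat.Agent.S40x.Node.NodeFrac
open Fermat.Agent.S40x.Node.TameNodeB
open Fermat.Agent.S40x.Node.SmoothBInst Fermat.Agent.S40x.Node.SmoothBPlace
open Fermat.Agent.S40x.Node.SmoothBSwap Fermat.Agent.S40x.Node.SmoothBQb

/-! ### Places of the second component and primes of `C.B₂` -/

section Chart

variable {K : Type*} [Field K] {A : ValuationSubring K} {F : Type*} [Field F] [Algebra K F]
  {S : SmallRing F} {k κ₁ κ₂ : Type*} [Field k] [Field κ₁] [Field κ₂] [Algebra k κ₁]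
  [Algebra k κ₂] {R : RedSetup2 A S k (κ₁ × κ₂)} (C : ChartCoord R)
  {Γ : Set (SemilinearAut K F)} {T' : κ₂} (hB : IsHalfChart T' C.B₂)

/-- the point ideal of a place of the second component in the coordinate ring `C.B₂`. -/
def ptIdeal₂ (P : Place k κ₂) (hP : 0 ≤ P.ord T') : Ideal C.B₂ :=
  hB.maxIdeal P hP

instance ptIdeal₂_isPrime (P : Place k κ₂) (hP : 0 ≤ P.ord T') :
    (ptIdeal₂ C hB P hP).IsPrime :=
  hB.maxIdeal_isPrime P hP

variable {C}

theorem mem_ptIdeal₂_iff (P : Place k κ₂) (hP : 0 ≤ P.ord T') (b : C.B₂) :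
    b ∈ ptIdeal₂ C hB P hP ↔ (b : κ₂) ∈ P.toValuationSubring.nonunits :=
  hB.mem_maxIdeal_iff P hP b

/-- helper61's literal `IsNonNode₂ C P` in ideal form. -/
theorem nonNode_notMem₂ (P : Place k κ₂) (hP : 0 ≤ P.ord T') {a : C.B₂}
    (ha : (a : κ₂) ∉ P.toValuationSubring.nonunits) : a ∉ ptIdeal₂ C hB P hP := fun h =>
  ha ((mem_ptIdeal₂_iff hB P hP a).mp h)

include hB in
theorem ord_nonneg_B₂ (P : Place k κ₂) (hP : 0 ≤ P.ord T') (b : C.B₂) :
    0 ≤ P.ord (b : κ₂) :=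
  hB.ord_nonneg P hP b

theorem ord_eq_zero_of_notMem₂ (P : Place k κ₂) (hP : 0 ≤ P.ord T') {b : C.B₂}
    (hb : b ∉ ptIdeal₂ C hB P hP) : P.ord (b : κ₂) = 0 := by
  have hb0 : b ≠ 0 := fun h0 => hb (h0 ▸ (ptIdeal₂ C hB P hP).zero_mem)
  exact (hB.notMem_maxIdeal_iff P hP hb0).mp hb

variable (hlift : ∀ (b : ℕ) (y : κ₁ × κ₂), y ∈ R.redLat (C.LN 0 b) →
    ∃ (f : F) (hf : f ∈ S.O), f ∈ C.LN 0 b ∧ IsFixed Γ f ∧ R.res ⟨f, hf⟩ = y)
  (hD : FixData2 R Γ) {p : ℕ}
  (hpfix : IsFixedK Γ (((p : A) : A) : K)) (hp0 : ((p : ℕ) : A) ≠ 0)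
  (hp : ∀ c : A, IsFixedK Γ (c : K) → c ∈ maximalIdeal A → ((p : ℕ) : A) ∣ c)

include hlift hD hpfix hp0 hp in
/-- **(N-Sm) at a non-node place `P` of the second component**: the local ring
`R_P = (B_0)_{m_P.comap rho2}` is a smooth-point ring with local parameter any `t ∈ B_0` whose
reduction is a uniformiser at `P`. -/
theorem isSmoothPtRing_place₂ [IsNoetherianRing (B0 C Γ)]
    (hT : Transcendental k T') [FiniteDimensional (IntermediateField.adjoin k {T'}) κ₂]
    [Algebra.IsSeparable (IntermediateField.adjoin k {T'}) κ₂]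
    (hL2 : C.IsL2) (hchar : ((p : ℕ) : C.B₂) = 0) (P : Place k κ₂) (hP : 0 ≤ P.ord T')
    (hnn : ∃ a : C.B₂, ((0, a) : C.B₁ × C.B₂) ∈ C.BbarT ∧
      (a : κ₂) ∉ P.toValuationSubring.nonunits)
    {t : B0 C Γ} (ht : P.ord ((rho2 C Γ t : C.B₂) : κ₂) = 1) :
    IsSmoothPtRing (Localization.AtPrime ((ptIdeal₂ C hB P hP).comap (rho2 C Γ))) p
      (algebraMap (B0 C Γ) _ t) := by
  obtain ⟨a, ha, haP⟩ := hnn
  haveI := hB.isDedekindDomain hT
  obtain ⟨ht1, ht2⟩ := (hB.ord_eq_one_iff hT P hP (rho2 C Γ t)).mp ht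
  exact isSmoothPtRing_snd_of_dedekind hlift hD hpfix hp0 hp hL2 hchar (ptIdeal₂ C hB P hP) ha
    (nonNode_notMem₂ hB P hP haP) ht1 ht2

end Chart

/-! ### The order function at the level of two valuation rings -/

section TwoVal

variable {K : Type*} [Field K] {A : ValuationSubring K} {F : Type*} [Field F] [Algebra K F]
  {O₁ O₂ : ValuationSubring F} {k κ₁ κ₂ : Type*} [Field k] [Field κ₁] [Field κ₂]
  [Algebra k κ₁] [Algebra k κ₂]
  {R₁ : Gateway.C0.RedSetup A O₁ k κ₁} {R₂ : Gateway.C0.RedSetup A O₂ k κ₂} {hπ : R₁.π = R₂.π}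
  {C : ChartCoord (redSetupTwoVal R₁ R₂ hπ)} {Γ : Set (SemilinearAut K F)}

/-- `B_0 ⊆ Ozero`. -/
theorem algebraMap_mem_Ozero (b : B0 C Γ) :
    algebraMap (B0 C Γ) (fixedField Γ) b ∈ Oinf Γ O₂ :=
  coe_mem_O₂ b

theorem coe_rho2_eq (b : B0 C Γ) : ((rho2 C Γ b : C.B₂) : κ₂) = R₂.res ⟨(b : F), coe_mem_O₂ b⟩ :=
  rfl

/-- an element of `B_0` with non-zero reduction on the second component is a unit of `Ozero`. -/
theorem inv_mem_Ozero_of_rho2_ne_zero {b : B0 C Γ} (hb : rho2 C Γ b ≠ 0) :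
    (algebraMap (B0 C Γ) (fixedField Γ) b)⁻¹ ∈ Oinf Γ O₂ := by
  rw [mem_Oinf]
  have h1 : R₂.res ⟨(b : F), coe_mem_O₂ b⟩ ≠ 0 := by
    intro h0
    apply hb
    apply Subtype.ext
    rw [coe_rho2_eq, h0]
    rfl
  rw [Ne, R₂.res_ker, not_lt] at h1
  have hle : O₂.valuation (b : F) ≤ 1 := (O₂.valuation_le_one_iff _).mpr (coe_mem_O₂ b)
  have h2 : O₂.valuation (b : F) = 1 := le_antisymm hle h1
  show ((algebraMap (B0 C Γ) (fixedField Γ) b)⁻¹ : fixedField Γ).1 ∈ O₂
  rw [← O₂.valuation_le_one_iff]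
  have h3 : (((algebraMap (B0 C Γ) (fixedField Γ) b)⁻¹ : fixedField Γ) : F) = (b : F)⁻¹ := rfl
  rw [h3, map_inv₀, h2, inv_one]

/-- on `B_0` the reduction on `Ozero` is `rho2`. -/
theorem redInf_algebraMap₂ (b : B0 C Γ) :
    redInf Γ R₂ ⟨algebraMap (B0 C Γ) (fixedField Γ) b, algebraMap_mem_Ozero b⟩ =
      ((rho2 C Γ b : C.B₂) : κ₂) := rfl

variable (m : Ideal (B0 C Γ)) [m.IsPrime] [IsFractionRing (Localization.AtPrime m) (fixedField Γ)]
  [IsNoetherianRing (Localization.AtPrime m)] {p : ℕ}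
  (hO : IsBranch ((p : ℕ) : Localization.AtPrime m) (Oinf Γ O₂))

/-- on the chart ring the restricted reduction is `rho2`. -/
theorem branchRed_algebraMap₂ (b : B0 C Γ) :
    branchRed hO (redInf Γ R₂) (algebraMap (B0 C Γ) (Localization.AtPrime m) b) =
      ((rho2 C Γ b : C.B₂) : κ₂) := by
  rw [branchRed_apply, ← redInf_algebraMap₂ b]
  congr 1
  apply Subtype.ext
  exact algebraMap_loc_algebraMap m b

include hO in
/-- the restricted reduction kills `p`. -/
theorem branchRed_natCast₂ (hpm : ((p : ℕ) : A) ∈ maximalIdeal A) :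
    branchRed hO (redInf Γ R₂) ((p : ℕ) : Localization.AtPrime m) = 0 := by
  rw [branchRed_apply]
  have hmem : (((p : ℕ) : fixedField Γ)) ∈ Oinf Γ O₂ := by
    have := hO.mem ((p : ℕ) : Localization.AtPrime m)
    rwa [map_natCast] at this
  rw [← redInf_natCast (R₁ := R₂) hpm hmem]
  congr 1
  apply Subtype.ext
  exact map_natCast _ p

/-- the kernel of the restricted reduction is `(p)`. -/
theorem branchRed_eq_zero_iff_dvd₂ (hpm : ((p : ℕ) : A) ∈ maximalIdeal A)
    (x : Localization.AtPrime m) :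
    branchRed hO (redInf Γ R₂) x = 0 ↔ ((p : ℕ) : Localization.AtPrime m) ∣ x :=
  branchRed_eq_zero_iff hO (redInf Γ R₂) (branchRed_natCast₂ m hO hpm) x

variable (P : Place k κ₂)

/-- **(P1)**: the reductions of the elements of `(B_0)_m` are regular at `P`. -/
theorem ord_branchRed_nonneg₂ (hnn : ∀ b : C.B₂, 0 ≤ P.ord (b : κ₂))
    (hunit : ∀ s : B0 C Γ, s ∉ m → P.ord ((rho2 C Γ s : C.B₂) : κ₂) = 0)
    (x : Localization.AtPrime m) : 0 ≤ P.ord (branchRed hO (redInf Γ R₂) x) := by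
  refine NodeLocalDatum.ord_map_nonneg_of_chart P (branchRed hO (redInf Γ R₂)) m ?_ ?_ x
  · intro b
    rw [branchRed_algebraMap₂]
    exact hnn _
  · intro s hs
    rw [branchRed_algebraMap₂]
    exact hunit s hs

/-- units of `(B_0)_m` reduce to units at `P`. -/
theorem ord_branchRed_unit₂ (hnn : ∀ b : C.B₂, 0 ≤ P.ord (b : κ₂))
    (hunit : ∀ s : B0 C Γ, s ∉ m → P.ord ((rho2 C Γ s : C.B₂) : κ₂) = 0)
    {ε : Localization.AtPrime m} (hε : IsUnit ε) :
    P.ord (branchRed hO (redInf Γ R₂) ε) = 0 :=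
  NodeLocalDatum.ord_map_unit P (branchRed hO (redInf Γ R₂))
    (ord_branchRed_nonneg₂ m hO P hnn hunit) hε

/-- **X4, smooth points of the second component**: for `r ∉ (p)` the order at `P` of the
reduction of `r` is its order in the discrete valuation ring `R_P ⧸ (p)`. -/
theorem exists_ord_branchRed_eq₂
    (hpm : ((p : ℕ) : A) ∈ maximalIdeal A) {t : B0 C Γ}
    (h : IsSmoothPtRing (Localization.AtPrime m) p (algebraMap (B0 C Γ) _ t))
    (hnn : ∀ b : C.B₂, 0 ≤ P.ord (b : κ₂))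
    (hunit : ∀ s : B0 C Γ, s ∉ m → P.ord ((rho2 C Γ s : C.B₂) : κ₂) = 0)
    (ht : P.ord ((rho2 C Γ t : C.B₂) : κ₂) = 1) {r : Localization.AtPrime m}
    (hr : ¬ ((p : ℕ) : Localization.AtPrime m) ∣ r) :
    ∃ (n : ℕ) (ε y : Localization.AtPrime m), IsUnit ε ∧
      r = ε * algebraMap (B0 C Γ) _ t ^ n + ((p : ℕ) : Localization.AtPrime m) * y ∧
      P.ord (branchRed hO (redInf Γ R₂) r) = n := by
  have ht' : P.ord (branchRed hO (redInf Γ R₂)
      (algebraMap (B0 C Γ) (Localization.AtPrime m) t)) = 1 := by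
    rw [branchRed_algebraMap₂]
    exact ht
  exact SmoothBDatum.exists_ord_map_eq P (branchRed hO (redInf Γ R₂)) h
    (branchRed_natCast₂ m hO hpm) (ord_branchRed_nonneg₂ m hO P hnn hunit)
    (by rw [ht']; exact one_pos) ⟨_, ht'⟩ hr

include hO in
/-- **(TAME-Sm) at a place `P` of the second component.** -/
theorem tame_smooth_place₂ (hp0 : p ≠ 0)
    (hpm : ((p : ℕ) : A) ∈ maximalIdeal A) {t : B0 C Γ}
    (h : IsSmoothPtRing (Localization.AtPrime m) p (algebraMap (B0 C Γ) _ t))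
    (hnn : ∀ b : C.B₂, 0 ≤ P.ord (b : κ₂))
    (hunit : ∀ s : B0 C Γ, s ∉ m → P.ord ((rho2 C Γ s : C.B₂) : κ₂) = 0)
    {f : fixedField Γ} (hf : f ≠ 0)
    (H : ∀ n d : Localization.AtPrime m, d ≠ 0 →
      f * algebraMap _ (fixedField Γ) d = algebraMap _ (fixedField Γ) n →
      ∀ π : Localization.AtPrime m, Prime π →
        ¬ Associated π ((p : ℕ) : Localization.AtPrime m) →
        (p : ℤ) ∣ (multiplicity π n : ℤ) - (multiplicity π d : ℤ))
    (a : ℤ) (y : Oinf Γ O₂) (hy : (y : fixedField Γ) * ((p : ℕ) : fixedField Γ) ^ a = f)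
    (hyinv : (y : fixedField Γ)⁻¹ ∈ Oinf Γ O₂) :
    (p : ℤ) ∣ P.ord (redInf Γ R₂ y) :=
  SmoothBDatum.tame_smooth P h hp0 hO (redInf Γ R₂)
    (fun x => branchRed_eq_zero_iff_dvd₂ m hO hpm x)
    (fun x => ord_branchRed_nonneg₂ m hO P hnn hunit x) hf H a y hy hyinv

end TwoVal

/-! ### The master statement, second component -/

section General

variable {K : Type*} [Field K] {A : ValuationSubring K} {F : Type*} [Field F] [Algebra K F]
  {O₁ O₂ : ValuationSubring F} {k E : Type*} [Field k] [Field E] [Algebra k E]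
  {R₁ : Gateway.C0.RedSetup A O₁ k E} {R₂ : Gateway.C0.RedSetup A O₂ k E} {hπ : R₁.π = R₂.π}
  {D : ChartCoord (redSetupTwoVal R₁ R₂ hπ)} {Γ : Set (SemilinearAut K F)}

/-- **The smooth-point datum** of the local ring `(B_0)_m` at a place `P'` of the SECOND
component, with local parameter `t`: (N-Sm), the branch `Ozero = Oinf Γ O₂`, and the order
function. -/
structure Datum₂ (m : Ideal (B0 D Γ)) [m.IsPrime]
    [IsFractionRing (Localization.AtPrime m) (fixedField Γ)]
    [IsNoetherianRing (Localization.AtPrime m)] (p : ℕ) (P' : Place k E) (t : B0 D Γ) :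
    Prop where
  /-- X3: `Ozero ∩ Frac R = R_(p)` -/
  branch : IsBranch ((p : ℕ) : Localization.AtPrime m) (Oinf Γ O₂)
  /-- the reduction of `t` is a uniformiser at `P'` -/
  ord_t : P'.ord ((rho2 D Γ t : D.B₂) : E) = 1
  /-- X1: (N-Sm) -/
  smooth : IsSmoothPtRing (Localization.AtPrime m) p (algebraMap (B0 D Γ) _ t)
  /-- the reduction is `rho2` on the chart ring -/
  red_algebraMap : ∀ b : B0 D Γ,
    branchRed branch (redInf Γ R₂) (algebraMap (B0 D Γ) _ b) = ((rho2 D Γ b : D.B₂) : E)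
  /-- the kernel of the reduction is `(p)` -/
  red_eq_zero_iff : ∀ y,
    branchRed branch (redInf Γ R₂) y = 0 ↔ ((p : ℕ) : Localization.AtPrime m) ∣ y
  /-- (P1): reductions are regular at `P'` -/
  ord_nonneg : ∀ y, 0 ≤ P'.ord (branchRed branch (redInf Γ R₂) y)
  /-- X4: the order at `P'` of the reduction is the order in the DVR `R ⧸ (p)` -/
  ord_eq : ∀ r, ¬ ((p : ℕ) : Localization.AtPrime m) ∣ r →
    ∃ (n : ℕ) (ε y : Localization.AtPrime m), IsUnit ε ∧
      r = ε * algebraMap (B0 D Γ) _ t ^ n + ((p : ℕ) : Localization.AtPrime m) * y ∧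
      P'.ord (branchRed branch (redInf Γ R₂) r) = n

variable {p : ℕ}

/-- **The smooth-point datum at a non-node place of the second component**, generic chart:
`T'` is a coordinate of which `D.B₂` is the half chart, `m` is the pull-back to `B_0` of the point
ideal of `P'`. -/
theorem exists_datum₂
    (hlift : ∀ (b : ℕ) (y : E × E), y ∈ (redSetupTwoVal R₁ R₂ hπ).redLat (D.LN 0 b) →
      ∃ (f : F) (hf : f ∈ (twoVal O₁ O₂).O), f ∈ D.LN 0 b ∧ IsFixed Γ f ∧
        (redSetupTwoVal R₁ R₂ hπ).res ⟨f, hf⟩ = y)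
    (hL2 : D.IsL2) [IsNoetherianRing (B0 D Γ)]
    (hstab : ∀ b, ∀ s ∈ Γ, ∀ f ∈ D.LN 0 b, s • f ∈ D.LN 0 b)
    [Algebra.IsAlgebraic (Algebra.adjoin K {D.t}) F]
    {T' : E} (hB : IsHalfChart T' D.B₂)
    (hT : Transcendental k T') [FiniteDimensional k⟮T'⟯ E]
    [Algebra.IsSeparable k⟮T'⟯ E]
    (hD : FixData2 (redSetupTwoVal R₁ R₂ hπ) Γ)
    (hF : Submodule.span K {f : F | IsFixed Γ f} = ⊤)
    (hpfix : IsFixedK Γ (((p : A) : A) : K)) (hp0 : ((p : ℕ) : A) ≠ 0)
    (hpm : ((p : ℕ) : A) ∈ maximalIdeal A)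
    (hp : ∀ c : A, IsFixedK Γ (c : K) → c ∈ maximalIdeal A → ((p : ℕ) : A) ∣ c)
    (hchar : ((p : ℕ) : D.B₂) = 0)
    (P' : Place k E) (hP : 0 ≤ P'.ord T')
    (hnn : ∃ a : D.B₂, ((0, a) : D.B₁ × D.B₂) ∈ D.BbarT ∧
      (a : E) ∉ P'.toValuationSubring.nonunits)
    (m : Ideal (B0 D Γ)) [m.IsPrime] [IsFractionRing (Localization.AtPrime m) (fixedField Γ)]
    [IsNoetherianRing (Localization.AtPrime m)]
    (hm : m = (ptIdeal₂ D hB P' hP).comap (rho2 D Γ)) :
    ∃ t : B0 D Γ, Datum₂ (R₂ := R₂) m p P' t := by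
  subst hm
  -- the uniformiser
  haveI := hB.isDedekindDomain hT
  obtain ⟨τ, hτ, hτ2⟩ := Ideal.exists_mem_pow_notMem_pow_succ (ptIdeal₂ D hB P' hP)
    (hB.maxIdeal_ne_bot hT P' hP) (Ideal.IsPrime.ne_top inferInstance) 1
  rw [pow_one] at hτ
  obtain ⟨t, rfl⟩ := rho2_surjective hlift hL2 τ
  have ht : P'.ord ((rho2 D Γ t : D.B₂) : E) = 1 :=
    (hB.ord_eq_one_iff hT P' hP _).mpr ⟨hτ, hτ2⟩
  -- the element vanishing on the other component
  obtain ⟨a, ha, haP⟩ := hnn
  obtain ⟨e, he2, he1⟩ := exists_lift_snd hlift ha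
  have he : e ∉ (ptIdeal₂ D hB P' hP).comap (rho2 D Γ) := by
    intro hmem
    rw [Ideal.mem_comap, he2] at hmem
    exact nonNode_notMem₂ hB P' hP haP hmem
  have hker2 : ∀ b, rho2 D Γ b = 0 → b ∈ (ptIdeal₂ D hB P' hP).comap (rho2 D Γ) := by
    intro b hb
    rw [Ideal.mem_comap, hb]
    exact (ptIdeal₂ D hB P' hP).zero_mem
  have hO : IsBranch ((p : ℕ) : Localization.AtPrime ((ptIdeal₂ D hB P' hP).comap (rho2 D Γ)))
      (Oinf Γ O₂) :=
    SmoothBDatum.isBranch (rho2 D Γ) (rho1 D Γ) p _ (Oinf Γ O₂)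
      (algebraMap_fixed_injective D Γ) algebraMap_mem_Ozero
      (fun b hb => inv_mem_Ozero_of_rho2_ne_zero hb) hker2 (natCast_B0_ne_zero hpfix hp0)
      (fun f hf2 hf1 => natCast_dvd_of_rho_eq_zero hD hpfix hp0 hp hf1 hf2) he1 he
      (natCast_inv_notMem_Oinf (R₁ := R₂) hp0 hpm)
  have hsm : IsSmoothPtRing (Localization.AtPrime ((ptIdeal₂ D hB P' hP).comap (rho2 D Γ))) p
      (algebraMap (B0 D Γ) _ t) :=
    isSmoothPtRing_place₂ hB hlift hD hpfix hp0 hp hT hL2 hchar P' hP ⟨a, ha, haP⟩ ht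
  have hnn' : ∀ b : D.B₂, 0 ≤ P'.ord (b : E) := ord_nonneg_B₂ hB P' hP
  have hunit : ∀ s : B0 D Γ, s ∉ (ptIdeal₂ D hB P' hP).comap (rho2 D Γ) →
      P'.ord ((rho2 D Γ s : D.B₂) : E) = 0 := by
    intro s hs
    exact ord_eq_zero_of_notMem₂ hB P' hP fun hmem => hs (by rw [Ideal.mem_comap]; exact hmem)
  exact ⟨t, hO, ht, hsm, fun b => branchRed_algebraMap₂ _ hO b,
    fun y => branchRed_eq_zero_iff_dvd₂ _ hO hpm y,
    fun y => ord_branchRed_nonneg₂ _ hO P' hnn' hunit y,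
    fun r hr => exists_ord_branchRed_eq₂ _ hO P' hpm hsm hnn' hunit ht hr⟩

end General

/-! ### Inside the context bundle, both charts -/

section Ctx

variable {K : Type*} [Field K] [IsAlgClosed K] [CharZero K] {A : ValuationSubring K}
  {F : Type*} [Field F] [Algebra K F] {O₁ O₂ : ValuationSubring F}
  {k : Type*} [Field k] [IsAlgClosed k] {E : Type*} [Field E] [Algebra k E]
  {R₁ : Gateway.C0.RedSetup A O₁ k E} {R₂ : Gateway.C0.RedSetup A O₂ k E} {hπ : R₁.π = R₂.π}
  {C : ChartCoord (redSetupTwoVal R₁ R₂ hπ)} {p q : ℕ} {x : E} {Dt : Divisor K F}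
  (h : Ctx (redSetupTwoVal R₁ R₂ hπ) C p q x Dt) {Γ : Set (SemilinearAut K F)}
  (hG : CtxGal (redSetupTwoVal R₁ R₂ hπ) C Γ)

include h in
/-- the second coordinate is the `q`-th power of the first. -/
theorem T_snd_eq : C.T.2 = C.T.1 ^ q := by rw [h.hT]

include h in
/-- `C.B₂` is the half chart of the coordinate `x = C.T.1`. -/
theorem isHalfChart_B₂ : IsHalfChart C.T.1 C.B₂ :=
  PlaceIdealInst.isHalfChart_B₂ C h.hq (T_snd_eq h)

include h in
/-- `C.swap.B₂` is the half chart of the coordinate `x⁻¹ = C.swap.T.1`. -/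
theorem isHalfChart_swap_B₂ : IsHalfChart C.swap.T.1 C.swap.B₂ := by
  rw [swap_T_fst_eq h, ← T_fst_eq h]
  exact PlaceIdealInst.isHalfChart_swap_B₂ C h.hq (T_snd_eq h)

include h in
theorem natCast_swap_B₂_eq_zero : ((p : ℕ) : C.swap.B₂) = 0 := by
  haveI := h.charP
  rw [← map_natCast (algebraMap k C.swap.B₂), CharP.cast_eq_zero, map_zero]

include h hG in
/-- **the datum at a non-node place of the second component with `0 ≤ ord x`** (chart `C`),
inside the context bundle. -/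
theorem exists_datum₂_ctx (hD : FixData2 (redSetupTwoVal R₁ R₂ hπ) Γ)
    (hF : Submodule.span K {f : F | IsFixed Γ f} = ⊤)
    (hp : ∀ c : A, IsFixedK Γ (c : K) → c ∈ maximalIdeal A → ((p : ℕ) : A) ∣ c)
    (P' : Place k E) (hP : 0 ≤ P'.ord C.T.1)
    (hnn : ∃ a : C.B₂, ((0, a) : C.B₁ × C.B₂) ∈ C.BbarT ∧
      (a : E) ∉ P'.toValuationSubring.nonunits) :
    haveI := isFractionRing_loc h hG hD hF
      ((ptIdeal₂ C (isHalfChart_B₂ h) P' hP).comap (rho2 C Γ))
    haveI := isNoetherianRing_loc h hG hD hF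
      ((ptIdeal₂ C (isHalfChart_B₂ h) P' hP).comap (rho2 C Γ))
    ∃ t : B0 C Γ,
      Datum₂ (R₂ := R₂) ((ptIdeal₂ C (isHalfChart_B₂ h) P' hP).comap (rho2 C Γ)) p P' t := by
  haveI := isFractionRing_loc h hG hD hF
    ((ptIdeal₂ C (isHalfChart_B₂ h) P' hP).comap (rho2 C Γ))
  haveI := isNoetherianRing_loc h hG hD hF
    ((ptIdeal₂ C (isHalfChart_B₂ h) P' hP).comap (rho2 C Γ))
  haveI : IsNoetherianRing (B0 C Γ) := FixedNoeth.isNoetherianRing_fixedBoo' h hG hD hF
  haveI := isAlgebraic_adjoin_t h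
  haveI := finiteDimensional_T h
  haveI := isSeparable_T h
  exact exists_datum₂ (NodeRing.hlift h hG hD hF) h.hL2 (SmoothBSwap.hstab hG)
    (isHalfChart_B₂ h) (transcendental_T h) hD hF
    (NodeRing.isFixedK_natCast p) (NodeRing.natCast_ne_zero h)
    (NodeRing.natCast_mem_maximalIdeal h) hp (natCast_B₂_eq_zero h) P' hP hnn _ rfl

include h hG in
/-- **the datum at a non-node place of the second component with `0 ≤ ord x⁻¹`** (chart
`C.swap`: the places over `t = ∞` included), inside the context bundle. -/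
theorem exists_datum₂_ctx_swap (hD : FixData2 (redSetupTwoVal R₁ R₂ hπ) Γ)
    (hF : Submodule.span K {f : F | IsFixed Γ f} = ⊤)
    (hp : ∀ c : A, IsFixedK Γ (c : K) → c ∈ maximalIdeal A → ((p : ℕ) : A) ∣ c)
    (P' : Place k E) (hP : 0 ≤ P'.ord C.swap.T.1)
    (hnn : ∃ a : C.swap.B₂, ((0, a) : C.swap.B₁ × C.swap.B₂) ∈ C.swap.BbarT ∧
      (a : E) ∉ P'.toValuationSubring.nonunits) :
    haveI := isFractionRing_loc_swap h hG hD hF
      ((ptIdeal₂ C.swap (isHalfChart_swap_B₂ h) P' hP).comap (rho2 C.swap Γ))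
    haveI := isNoetherianRing_loc_swap h hG hD hF
      ((ptIdeal₂ C.swap (isHalfChart_swap_B₂ h) P' hP).comap (rho2 C.swap Γ))
    ∃ t : B0 C.swap Γ,
      Datum₂ (R₂ := R₂)
        ((ptIdeal₂ C.swap (isHalfChart_swap_B₂ h) P' hP).comap (rho2 C.swap Γ)) p P' t := by
  haveI := isFractionRing_loc_swap h hG hD hF
    ((ptIdeal₂ C.swap (isHalfChart_swap_B₂ h) P' hP).comap (rho2 C.swap Γ))
  haveI := isNoetherianRing_loc_swap h hG hD hF
    ((ptIdeal₂ C.swap (isHalfChart_swap_B₂ h) P' hP).comap (rho2 C.swap Γ))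
  haveI : IsNoetherianRing (B0 C.swap Γ) := isNoetherianRing_B0_swap h hG hD hF
  haveI := isAlgebraic_adjoin_swap_t h
  haveI := finiteDimensional_swap_T h
  haveI := isSeparable_swap_T h
  exact exists_datum₂ (hlift_swap h hG hD hF) (isL2_swap h) (hstab_swap hG)
    (isHalfChart_swap_B₂ h) (transcendental_swap_T h) hD hF (NodeRing.isFixedK_natCast p)
    (NodeRing.natCast_ne_zero h) (NodeRing.natCast_mem_maximalIdeal h) hp
    (natCast_swap_B₂_eq_zero h) P' hP hnn _ rfl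

end Ctx

/-! ### The discharge at `Qbar`, level `M q`, `Γ = inertiaAct P (M q)` -/

section QbarInst

open ModularCurve
open Fermat.Agent.Gateway.Hecke Fermat.Agent.Gateway.ESC
open Fermat.Agent.Gateway.Red Fermat.Agent.Gateway.GoodRed
open Fermat.Agent.Gateway.GoodRed.ConjFamily
open Fermat.Agent.S34x.TwoVal
open Fermat.Agent.S34x.Inst.L2 Fermat.Agent.S34x.Inst.IsL2Inst
open Fermat.Agent.S34x.Inst.RedSetupInst Fermat.Agent.S34x.Inst.ElementYRed
open Fermat.Agent.S34x.Inst.ElementYInt Fermat.Agent.S34x.Inst.Charts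
open Fermat.Agent.S34x.Inst Fermat.Agent.S34x.Inst.TheoremBMq
open Fermat.Agent.S33x.H1.FixData2Inst Fermat.Agent.S33x.H1.FixData2Final

attribute [-instance] IsScalarTower.of_algHom

local notation "Qbar" => AlgebraicClosure ℚ

variable {P : ValuationSubring Qbar} {k : Type} [Field k] {π : P →+* k} [IsAlgClosed k]
variable {M q : ℕ} [NeZero M] [NeZero q] [Fact q.Prime] [CharP k q]
variable {hdeg : finrankAlong Qbar (heckeAlphaBar Qbar M q) = q + 1} {hq : q.Prime}
  {hqM : ¬ q ∣ M}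
variable {hrk : ∀ x ∈ maximalIdeal P, ∀ c : P, c ≠ 0 → ∃ j : ℕ, c ∣ x ^ j}
  {hπ : Function.Surjective π}
variable (H : ResidueFacts P π M q hdeg hq hqM hrk hπ) (hA : P.LiesOverPrime q)
  (x : LaurentSeries ℤ) (hx : coeffMap (Int.castRingHom Qbar) x ∈ FBar Qbar M)
  (Hx : GoodLevelFactsT P π M q hπ hqM (tInt M x hx))

set_option maxHeartbeats 1600000 in
include Hx hA in
/-- **The smooth-point datum at `Qbar`, second component, places with `0 ≤ ord x̄`** (chart
`C`): for every place `P'` of `Fk k M` with `0 ≤ P'.ord C.T.1` which is not a node of the second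
component, the local ring of `B_0 = (B_∞)^I` at the point ideal `m` of `P'` on the second
component carries the datum, with `p = q`. -/
theorem exists_datum₂_Qb [PerfectRing k q]
    (C : ChartCoord (redSetupTwoVal (redSetupInfty H hA) (redSetupZero H hA) rfl))
    (hCt : C.t = tA M q x hx) (hxk : tbar k x ≠ 0) (hY : YFacts M q x hx)
    (P' : Place k (Fk k M)) (hP : 0 ≤ P'.ord C.T.1)
    (hnn : ∃ a : C.B₂, ((0, a) : C.B₁ × C.B₂) ∈ C.BbarT ∧
      (a : Fk k M) ∉ P'.toValuationSubring.nonunits) :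
    ∃ (m : Ideal (B0 C (inertiaAct P (M * q)))) (_ : m.IsPrime)
      (_ : IsFractionRing (Localization.AtPrime m) (fixedField (inertiaAct P (M * q))))
      (_ : IsNoetherianRing (Localization.AtPrime m)) (t : B0 C (inertiaAct P (M * q))),
      (∀ b : B0 C (inertiaAct P (M * q)), b ∈ m ↔
        ((rho2 C (inertiaAct P (M * q)) b : C.B₂) : Fk k M) ∈
          P'.toValuationSubring.nonunits) ∧
      Datum₂ (R₂ := redSetupZero H hA) m q P' t := by
  haveI : CharZero Qbar := algebraRat.charZero Qbar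
  obtain ⟨Dt, hctx, hgal, hD, hF⟩ := FixedQb.bundle_Mq H hA x hx Hx C hCt hxk hY
  have hctx' : Ctx (redSetupTwoVal (redSetupInfty H hA) (redSetupZero H hA) rfl) C q q C.T.1
    Dt := hctx
  have hgal' : CtxGal (redSetupTwoVal (redSetupInfty H hA) (redSetupZero H hA) rfl) C
    (inertiaAct P (M * q)) := hgal
  have hD' : FixData2 (redSetupTwoVal (redSetupInfty H hA) (redSetupZero H hA) rfl)
    (inertiaAct P (M * q)) := hD
  obtain ⟨t, ht⟩ :=
    exists_datum₂_ctx hctx' hgal' hD' hF (natCast_dvd_of_fixed_Qb (M * q) hA) P' hP hnn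
  exact ⟨_, inferInstance, isFractionRing_loc hctx' hgal' hD' hF _,
    isNoetherianRing_loc hctx' hgal' hD' hF _, t,
    fun b => by rw [Ideal.mem_comap, mem_ptIdeal₂_iff], ht⟩

set_option maxHeartbeats 1600000 in
include Hx hA in
/-- **The smooth-point datum at `Qbar`, second component, places with `0 ≤ ord x̄⁻¹`** (chart
`C.swap`: everything over `t = ∞`, the cusps included). -/
theorem exists_datum₂_swap_Qb [PerfectRing k q]
    (C : ChartCoord (redSetupTwoVal (redSetupInfty H hA) (redSetupZero H hA) rfl))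
    (hCt : C.t = tA M q x hx) (hxk : tbar k x ≠ 0) (hY : YFacts M q x hx)
    (P' : Place k (Fk k M)) (hP : 0 ≤ P'.ord C.swap.T.1)
    (hnn : ∃ a : C.swap.B₂, ((0, a) : C.swap.B₁ × C.swap.B₂) ∈ C.swap.BbarT ∧
      (a : Fk k M) ∉ P'.toValuationSubring.nonunits) :
    ∃ (m : Ideal (B0 C.swap (inertiaAct P (M * q)))) (_ : m.IsPrime)
      (_ : IsFractionRing (Localization.AtPrime m) (fixedField (inertiaAct P (M * q))))
      (_ : IsNoetherianRing (Localization.AtPrime m))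
      (t : B0 C.swap (inertiaAct P (M * q))),
      (∀ b : B0 C.swap (inertiaAct P (M * q)), b ∈ m ↔
        ((rho2 C.swap (inertiaAct P (M * q)) b : C.swap.B₂) : Fk k M) ∈
          P'.toValuationSubring.nonunits) ∧
      Datum₂ (R₂ := redSetupZero H hA) m q P' t := by
  haveI : CharZero Qbar := algebraRat.charZero Qbar
  obtain ⟨Dt, hctx, hgal, hD, hF⟩ := FixedQb.bundle_Mq H hA x hx Hx C hCt hxk hY
  have hctx' : Ctx (redSetupTwoVal (redSetupInfty H hA) (redSetupZero H hA) rfl) C q q C.T.1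
    Dt := hctx
  have hgal' : CtxGal (redSetupTwoVal (redSetupInfty H hA) (redSetupZero H hA) rfl) C
    (inertiaAct P (M * q)) := hgal
  have hD' : FixData2 (redSetupTwoVal (redSetupInfty H hA) (redSetupZero H hA) rfl)
    (inertiaAct P (M * q)) := hD
  obtain ⟨t, ht⟩ :=
    exists_datum₂_ctx_swap hctx' hgal' hD' hF (natCast_dvd_of_fixed_Qb (M * q) hA) P' hP hnn
  exact ⟨_, inferInstance, isFractionRing_loc_swap hctx' hgal' hD' hF _,
    isNoetherianRing_loc_swap hctx' hgal' hD' hF _, t,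
    fun b => by rw [Ideal.mem_comap, mem_ptIdeal₂_iff], ht⟩

end QbarInst

end Fermat.Agent.S40x.Node.SmoothBZero

end
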