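import Fermat.Agent.S40x.Node.SmoothInst
import Fermat.Agent.S40x.Node.NodeRing
import Fermat.Agent.S40x.Node.FixedFracZero
import Fermat.Agent.S40x.Node.PlaceIdeal
import Fermat.Agent.S40x.Node.ValueGroupFixed
import Fermat.Agent.S34x.Lattice2.DimBridge

/-!
# P-S44/S40, block R1 / N-alpha, leaf N4 (smooth-point rings): discharge of `Node/SmoothInst`
inside the CONTEXT BUNDLE, for BOTH half charts (helper92)

`Node/SmoothInst` (helper61) gives, for a chart `D` of the abstract two-component setting, the local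
ring `R_P` of the model at every NON-NODE place `P` of either component which lies on the chart
(`D.T.i ∈ O_P`), under the hypotheses `hlift`, `hL2`, `[IsNoetherianRing (B0 D Γ)]`,
`[IsDedekindDomain D.Bᵢ] [IsFractionRing D.Bᵢ κᵢ]`.  Here all of them are discharged inside the
context bundle `Cech.CtxMq.Ctx R C p q x Dt` + `CtxGal R C Γ` + `FixData2 R Γ` + `hF`, for the chart
`D = C` (`t ≠ ∞`) AND for the swapped chart `D = C.swap` (`t ≠ 0`), so that every place of either
component is covered (`T ∈ O_P` or `T⁻¹ ∈ O_P`).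

* `BooAlg_swap : BooAlg C.swap = BzeroAlg C`;
* `ChartHyp R D Γ` : the bundle of the chart hypotheses of `Node/SmoothInst` (+ `F^Γ = Frac B_0`);
  `chartHyp_self`, `chartHyp_swap` : it holds for `C` and for `C.swap` inside the context bundle;
* `exists_isSmoothPtRing₁`, `exists_isSmoothPtRing₂` : **the DATUM** `IsSmoothPtRing R_P p t`
  for a chart with `ChartHyp`, a fixed uniformiser `ϖ` (`IsUnif Γ ϖ`) with `(ϖ : K) = p`;
* `isFractionRing_R₁`, `isFractionRing_R₂` : `R_P ⊆ F^Γ = Frac R_P`;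
* `tame_smooth₁`, `tame_smooth₂` : (TAME-Sm) = (b5) in the same generality;
* `covers₁`, `covers₂` : every place lies on `C` or on `C.swap`;
* `isNonNode₁_of_forall_node`, `isNonNode₂_of_forall_node` : a place which is not the place of a
  node character `chi1 s` (`chi2 s`) is a non-node in the sense of `SmoothInst.IsNonNode₁`
  (`IsNonNode₂`).
-/

set_option autoImplicit false
set_option linter.unusedSectionVars false
set_option linter.unusedVariables false
set_option linter.style.haveILetI false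

noncomputable section

namespace Fermat.Agent.S40x.Node.SmoothCtxB

open AlgebraicCurve IsLocalRing Module IntermediateField
open Fermat.Agent.S34x Fermat.Agent.S34x.C0two Fermat.Agent.S34x.Lattice2
open Fermat.Agent.S19x.Geo.LatticeFixed (IsFixed IsFixedK)
open Fermat.Agent.S33x.H1.LatticeFixed2 Fermat.Agent.S33x.H1.FixedDecomp
open Fermat.Agent.S33x.H1 Fermat.Agent.S33x.H1.InstC1
open Fermat.Agent.S33x.W.InstW Fermat.Agent.S33x.W.InstWCtx
open Fermat.Agent.S33x.Cech.CtxMq
open Fermat.Agent.S40x.Node.NodeInst Fermat.Agent.S40x.Node.SmoothInst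
open Fermat.Agent.S40x.Node.SmoothChart Fermat.Agent.S40x.Node.FixedFrac
open Fermat.Agent.S40x.Node.PlaceIdeal Fermat.Agent.S40x.Node.ValueGroupFixed

/-! ### The swapped chart -/

section Swap

variable {K : Type*} [Field K] {A : ValuationSubring K} {F : Type*} [Field F] [Algebra K F]
  {S : SmallRing F} {k κ : Type*} [Field k] [CommRing κ] [Algebra k κ]
  {R : RedSetup2 A S k κ} (C : ChartCoord R)

/-- the chart ring `B_∞` of the swapped chart is the chart ring `B_0` of the chart. -/
theorem BooAlg_swap : InstC4.BooAlg C.swap = InstC4.BzeroAlg C := by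
  ext x
  rw [InstC4.mem_BooAlg, InstC4.mem_BzeroAlg]
  constructor
  · rintro ⟨b, hb⟩
    refine ⟨b, ?_⟩
    rw [mem_Lam] at hb ⊢
    rwa [ChartCoord.swap_LN] at hb
  · rintro ⟨a, ha⟩
    refine ⟨a, ?_⟩
    rw [mem_Lam] at ha ⊢
    rwa [ChartCoord.swap_LN]

end Swap

/-! ### The bundle of chart hypotheses -/

section Hyp

variable {K : Type*} [Field K] {A : ValuationSubring K} {F : Type*} [Field F] [Algebra K F]
  {S : SmallRing F} {k : Type*} [Field k] {E : Type*} [Field E] [Algebra k E]

/-- **the chart hypotheses of `Node/SmoothInst`** for a chart `D` and a set `Γ` of semilinear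
automorphisms, plus `F^Γ = Frac (B_0)`. -/
structure ChartHyp (R : RedSetup2 A S k (E × E)) (D : ChartCoord R)
    (Γ : Set (SemilinearAut K F)) : Prop where
  hL2 : D.IsL2
  hlift : ∀ (b : ℕ) (y : E × E), y ∈ R.redLat (D.LN 0 b) →
    ∃ (f : F) (hf : f ∈ S.O), f ∈ D.LN 0 b ∧ IsFixed Γ f ∧ R.res ⟨f, hf⟩ = y
  noeth : IsNoetherianRing (B0 D Γ)
  ded₁ : IsDedekindDomain D.B₁
  frac₁ : IsFractionRing D.B₁ E
  ded₂ : IsDedekindDomain D.B₂
  frac₂ : IsFractionRing D.B₂ E
  fracB : letI := (toFixedSubfield (Γ := Γ) (InstC4.BooAlg D)).toAlgebra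
    IsFractionRing (B0 D Γ) (fixedSubfield Γ)

end Hyp

/-! ### The datum for a chart with `ChartHyp` -/

section Output

variable {K : Type*} [Field K] {A : ValuationSubring K} {F : Type*} [Field F] [Algebra K F]
  {S : SmallRing F} {k : Type*} [Field k] {E : Type*} [Field E] [Algebra k E]
  {R : RedSetup2 A S k (E × E)} {D : ChartCoord R} {Γ : Set (SemilinearAut K F)}

/-- **(N-Sm), first component, for a chart with `ChartHyp`: the DATUM** at every non-node place
of the chart (cusps on the chart included). -/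
theorem exists_isSmoothPtRing₁ (H : ChartHyp R D Γ) (hD : FixData2 R Γ) {ϖ : A}
    (hU : IsUnif Γ ϖ) {p : ℕ} (hϖp : (ϖ : K) = (p : K)) {P : Place k E}
    (hT : D.T.1 ∈ P.toValuationSubring) (hP : IsNonNode₁ D P) :
    haveI := H.noeth
    haveI := H.ded₁
    haveI := H.frac₁
    ∃ t : R₁ D Γ P hT, IsSmoothPtRing (R₁ D Γ P hT) p t ∧
      Irreducible (loc₁ D Γ P hT t) ∧
      P.ord ((loc₁ D Γ P hT t : P.toValuationSubring) : E) = 1 := by
  haveI := H.noeth
  haveI := H.ded₁
  haveI := H.frac₁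
  exact SmoothInst.exists_isSmoothPtRing₁ hD hU.fixed hU.ne_zero hU.dvd hU.mem H.hlift H.hL2 hϖp
    hT hP

/-- **(N-Sm), second component, for a chart with `ChartHyp`: the DATUM.** -/
theorem exists_isSmoothPtRing₂ (H : ChartHyp R D Γ) (hD : FixData2 R Γ) {ϖ : A}
    (hU : IsUnif Γ ϖ) {p : ℕ} (hϖp : (ϖ : K) = (p : K)) {P : Place k E}
    (hT : D.T.2 ∈ P.toValuationSubring) (hP : IsNonNode₂ D P) :
    haveI := H.noeth
    haveI := H.ded₂
    haveI := H.frac₂
    ∃ t : R₂ D Γ P hT, IsSmoothPtRing (R₂ D Γ P hT) p t ∧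
      Irreducible (loc₂ D Γ P hT t) ∧
      P.ord ((loc₂ D Γ P hT t : P.toValuationSubring) : E) = 1 := by
  haveI := H.noeth
  haveI := H.ded₂
  haveI := H.frac₂
  exact SmoothInst.exists_isSmoothPtRing₂ hD hU.fixed hU.ne_zero hU.dvd hU.mem H.hlift H.hL2 hϖp
    hT hP

/-- `R_P ⊆ F^Γ` and `F^Γ = Frac R_P`, first component. -/
theorem isFractionRing_R₁ (H : ChartHyp R D Γ) {P : Place k E}
    (hT : D.T.1 ∈ P.toValuationSubring) :
    haveI := H.ded₁
    haveI := H.frac₁
    letI := (toFixedSubfield (Γ := Γ) (InstC4.BooAlg D)).toAlgebra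
    haveI := H.fracB
    letI := algF0 P (algebraMap_B₁_mem P hT) (ρ := rho1 D Γ) (fixedSubfield Γ)
    IsFractionRing (R₁ D Γ P hT) (fixedSubfield Γ) := by
  haveI := H.ded₁
  haveI := H.frac₁
  letI := (toFixedSubfield (Γ := Γ) (InstC4.BooAlg D)).toAlgebra
  haveI := H.fracB
  exact isFractionRing_algF0 P (algebraMap_B₁_mem P hT) (ρ := rho1 D Γ) (F0 := fixedSubfield Γ)

/-- `R_P ⊆ F^Γ` and `F^Γ = Frac R_P`, second component. -/
theorem isFractionRing_R₂ (H : ChartHyp R D Γ) {P : Place k E}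
    (hT : D.T.2 ∈ P.toValuationSubring) :
    haveI := H.ded₂
    haveI := H.frac₂
    letI := (toFixedSubfield (Γ := Γ) (InstC4.BooAlg D)).toAlgebra
    haveI := H.fracB
    letI := algF0 P (algebraMap_B₂_mem P hT) (ρ := rho2 D Γ) (fixedSubfield Γ)
    IsFractionRing (R₂ D Γ P hT) (fixedSubfield Γ) := by
  haveI := H.ded₂
  haveI := H.frac₂
  letI := (toFixedSubfield (Γ := Γ) (InstC4.BooAlg D)).toAlgebra
  haveI := H.fracB
  exact isFractionRing_algF0 P (algebraMap_B₂_mem P hT) (ρ := rho2 D Γ) (F0 := fixedSubfield Γ)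

end Output

/-! ### Non-node witnesses at the zeros of the chart coordinate -/

section Pole

variable {K : Type*} [Field K] {A : ValuationSubring K} {F : Type*} [Field F] [Algebra K F]
  {S : SmallRing F} {k : Type*} [Field k] {E : Type*} [Field E] [Algebra k E]
  {R : RedSetup2 A S k (E × E)} (D : ChartCoord R)

theorem T_fst_mem_B₁ : D.T.1 ∈ D.B₁ :=
  (isHalfChart_restrictScalars (k := k) D.T.1).T_mem

theorem T_snd_mem_B₂ : D.T.2 ∈ D.B₂ :=
  (isHalfChart_restrictScalars (k := k) D.T.2).T_mem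

/-- `1 - y ∉ 𝔪` for `y ∈ 𝔪` in a valuation ring. -/
theorem sub_one_notMem_nonunits {O : ValuationSubring E} {y : E} (hy : y ∈ O.nonunits) :
    y - 1 ∉ O.nonunits := by
  intro h
  rw [ValuationSubring.mem_nonunits_iff] at hy h
  have h1 : O.valuation (1 : E) ≤ max (O.valuation y) (O.valuation (y - 1)) := by
    have := Valuation.map_sub O.valuation y (y - 1)
    rwa [sub_sub_cancel] at this
  rw [map_one] at h1
  exact absurd h1 (not_le.mpr (max_lt hy h))

theorem pow_mem_nonunits {O : ValuationSubring E} {y : E} (hy : y ∈ O.nonunits) {n : ℕ}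
    (hn : 0 < n) : y ^ n ∈ O.nonunits := by
  rw [ValuationSubring.mem_nonunits_iff] at hy ⊢
  rw [map_pow]
  exact pow_lt_one₀ zero_le hy hn.ne'

/-- **Non-node witnesses at the zeros of the chart coordinate.**  If `D.T = (s, s ^ q)` and
`(1, s ^ n)` lies in the reduced chart ring `B̄` (`n > 0`), then `(s ^ n - 1, 0)` and
`(0, s ^ n - 1)` lie in `B̄`; hence every place at which `s` vanishes is a non-node, on both
components. -/
theorem isNonNode_of_one_pow_mem {s : E} {q n : ℕ} (hT : D.T = (s, s ^ q)) (hn : 0 < n)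
    (hy : ((1 : E), s ^ n) ∈ D.Bbar) (P : Place k E) (hs : s ∈ P.toValuationSubring.nonunits) :
    IsNonNode₁ D P ∧ IsNonNode₂ D P := by
  have hs1 : s ∈ D.B₁ := by
    have := T_fst_mem_B₁ D
    rwa [hT] at this
  have hs2 : s ^ q ∈ D.B₂ := by
    have := T_snd_mem_B₂ D
    rwa [hT] at this
  have hy2 : s ^ n ∈ D.B₂ := (D.mem_Btilde_iff_prod.mp (D.Bbar_le_Btilde hy)).2
  have hval : s ^ n - 1 ∉ P.toValuationSubring.nonunits :=
    sub_one_notMem_nonunits (pow_mem_nonunits hs hn)
  constructor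
  · refine ⟨(⟨s, hs1⟩ : D.B₁) ^ n - 1, ?_, hval⟩
    rw [ChartCoord.mem_BbarT_iff]
    have e : D.incl (((⟨s, hs1⟩ : D.B₁) ^ n - 1, (0 : D.B₂))) = D.T ^ n - ((1 : E), s ^ n) ^ q := by
      rw [hT]
      refine Prod.ext ?_ ?_
      · simp
      · simp [← pow_mul, mul_comm]
    rw [e]
    exact D.Bbar.sub_mem (D.Bbar.pow_mem D.T_mem_Bbar n) (D.Bbar.pow_mem hy q)
  · refine ⟨(⟨s ^ n, hy2⟩ : D.B₂) - 1, ?_, hval⟩
    rw [ChartCoord.mem_BbarT_iff]
    have e : D.incl ((0 : D.B₁), (⟨s ^ n, hy2⟩ : D.B₂) - 1) = ((1 : E), s ^ n) - 1 := by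
      refine Prod.ext ?_ ?_
      · simp
      · simp
    rw [e]
    exact D.Bbar.sub_mem hy D.Bbar.one_mem

end Pole

/-! ### Inside the context bundle -/

section Ctx

variable {K : Type*} [Field K] [IsAlgClosed K] [CharZero K] {A : ValuationSubring K}
  {F : Type*} [Field F] [Algebra K F] {S : SmallRing F}
  {k : Type*} [Field k] [IsAlgClosed k] {E : Type*} [Field E] [Algebra k E]
  {R : RedSetup2 A S k (E × E)} {C : ChartCoord R} {p q : ℕ} {x : E} {Dt : Divisor K F}
  (h : Ctx R C p q x Dt) {Γ : Set (SemilinearAut K F)} (hG : CtxGal R C Γ)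

include h in
theorem T_fst : C.T.1 = x := by rw [h.hT]

include h in
theorem T_snd : C.T.2 = x ^ q := by rw [h.hT]

include h in
theorem swap_T_fst : C.swap.T.1 = x⁻¹ := by
  have h1 := congrArg Prod.fst C.T_mul_Ti
  rw [Prod.fst_mul, Prod.fst_one, T_fst h] at h1
  rw [ChartCoord.swap_T]
  exact eq_inv_of_mul_eq_one_right h1

include h in
theorem swap_T_snd : C.swap.T.2 = x⁻¹ ^ q := by
  have h1 := congrArg Prod.snd C.T_mul_Ti
  rw [Prod.snd_mul, Prod.snd_one, T_snd h] at h1
  rw [ChartCoord.swap_T, inv_pow]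
  exact eq_inv_of_mul_eq_one_right h1

include h in
/-- `B₁` of the chart is the half-chart ring of `x`. -/
theorem isHalfChart_B₁ : IsHalfChart x C.B₁ := by
  intro y
  rw [ChartCoord.mem_B₁_iff, T_fst h]

include h in
/-- `B₂` of the chart (integral closure of `k[x ^ q]`) is the half-chart ring of `x`. -/
theorem isHalfChart_B₂ : IsHalfChart x C.B₂ := by
  intro y
  rw [ChartCoord.mem_B₂_iff, T_snd h]
  exact DimBridge.isIntegral_adjoin_pow_iff x h.hq y

include h in
/-- `B₁` of the swapped chart is the half-chart ring of `x⁻¹`. -/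
theorem isHalfChart_swap_B₁ : IsHalfChart x⁻¹ C.swap.B₁ := by
  intro y
  rw [ChartCoord.mem_B₁_iff, swap_T_fst h]

include h in
/-- `B₂` of the swapped chart is the half-chart ring of `x⁻¹`. -/
theorem isHalfChart_swap_B₂ : IsHalfChart x⁻¹ C.swap.B₂ := by
  intro y
  rw [ChartCoord.mem_B₂_iff, swap_T_snd h]
  exact DimBridge.isIntegral_adjoin_pow_iff x⁻¹ h.hq y

include h hG in
/-- **the chart hypotheses hold for the chart `C`** inside the context bundle. -/
theorem chartHyp_self (hD : FixData2 R Γ) (hF : Submodule.span K {f : F | IsFixed Γ f} = ⊤) :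
    ChartHyp R C Γ := by
  haveI := h.fin_x
  haveI := h.sep_x
  exact
    { hL2 := h.hL2
      hlift := NodeRing.hlift h hG hD hF
      noeth := FixedNoeth.isNoetherianRing_fixedBoo' h hG hD hF
      ded₁ := (isHalfChart_B₁ h).isDedekindDomain h.hx
      frac₁ := (isHalfChart_B₁ h).isFractionRing
      ded₂ := (isHalfChart_B₂ h).isDedekindDomain h.hx
      frac₂ := (isHalfChart_B₂ h).isFractionRing
      fracB := isFractionRing_fixedBoo h hG hD hF }

include h hG in
/-- **the chart hypotheses hold for the swapped chart `C.swap`** inside the context bundle. -/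
theorem chartHyp_swap (hD : FixData2 R Γ) (hF : Submodule.span K {f : F | IsFixed Γ f} = ⊤) :
    ChartHyp R C.swap Γ := by
  haveI := h.fin_x
  haveI := h.sep_x
  haveI := finiteDimensional_inv (k := k) x
  haveI := isSeparable_inv (k := k) x
  have e : InstC4.BooAlg C.swap = InstC4.BzeroAlg C := BooAlg_swap C
  haveI : ∀ b, FiniteDimensional K (C.swap.LN 0 b) := fun b => by
    rw [ChartCoord.swap_LN]; exact finite_LN h b 0
  exact
    { hL2 := h.hL2₀
      hlift := hlift_of_fixData hD hF
        (fun b => by rw [ChartCoord.swap_LN]; exact fg_lat_LN' h b 0)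
        (fun b => by
          rw [ChartCoord.swap_LN]
          exact Fermat.Agent.S33x.H1.StableLN.stable_LN C hG.smul_t b 0)
      noeth := by
        show IsNoetherianRing (fixedAlg Γ (InstC4.BooAlg C.swap))
        rw [e]
        exact FixedNoethZero.isNoetherianRing_fixedBzero' h hG hD hF
      ded₁ := (isHalfChart_swap_B₁ h).isDedekindDomain (transcendental_inv h.hx)
      frac₁ := (isHalfChart_swap_B₁ h).isFractionRing
      ded₂ := (isHalfChart_swap_B₂ h).isDedekindDomain (transcendental_inv h.hx)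
      frac₂ := (isHalfChart_swap_B₂ h).isFractionRing
      fracB := by
        show (letI := (toFixedSubfield (Γ := Γ) (InstC4.BooAlg C.swap)).toAlgebra
          IsFractionRing (fixedAlg Γ (InstC4.BooAlg C.swap)) (fixedSubfield Γ))
        rw [e]
        exact FixedFracZero.isFractionRing_fixedBzero h hG hD hF }

end Ctx

end Fermat.Agent.S40x.Node.SmoothCtxB
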