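import Fermat.Agent.S40x.Node.SmoothCtxB
import Fermat.Agent.S40x.Node.FixedQb

/-!
# P-S44/S40, block R1 / N-alpha, leaf N4: the smooth-point datum at `(Qbar, P, level M q)`
(helper92)

CONCRETE discharge of `Node/SmoothInst` (helper61) through `Node/SmoothCtxB`, in the variable
context of `Node/FixedQb` (= `S34x/Inst/TheoremBMq` at `L := Qbar`): `P` a valuation subring of
`Qbar` over `q`, `H : ResidueFacts P π M q ..`, a good coordinate `x` (`hx`, `Hx`, `hxk`, `hY`), a
chart `C` with `C.t = tA M q x hx`, `Γ := inertiaAct P (M q)` (so `fixedSubfield Γ = F0 P (M q)`),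
residue function field `Fk k M` on both components, `xb := C.T.1 = x̄`.

* `chartHyp_Mq`, `chartHyp_swap_Mq` : `SmoothCtxB.ChartHyp` for the chart `C` (`t ≠ ∞`) and for
  `C.swap` (`t ≠ 0`);
* `exists_isSmoothPtRing₁_Mq`, `exists_isSmoothPtRing₂_Mq` : **the DATUM** `IsSmoothPtRing R_P' q t`
  at every non-node place `P'` of a chart `D` with `ChartHyp` (`D = C` or `D = C.swap`), with
  `isFractionRing_R₁_Mq`, `isFractionRing_R₂_Mq` : `F0 P (M q) = Frac R_P'`;
* `one_pow_mem_swap_Bbar`, `one_pow_mem_Bbar` : `(1, s ^ (q² - 1)) ∈ B̄(C.swap)` for `s = x̄⁻¹`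
  (reduction of `y⁻¹`, `y = (α t')^q / β t'`) and `(1, xb ^ (q² - 1)) ∈ B̄(C)` (reduction of `y`);
* `isNonNode_swap_of_pole` : **every place over `t = ∞` (pole of `x̄`) is a NON-NODE** on both
  components of the chart `C.swap` (in particular the cusps over `t = ∞`);
  `isNonNode_of_zero` : every zero of `x̄` is a non-node of the chart `C`;
* `mem_or_swap_mem_nonunits` : every place lies on `C` or is a pole of `x̄`;
  `isNonNode_swap_of_not_mem` : `C.T.1 ∉ O_P' → IsNonNode₁ C.swap P' ∧ IsNonNode₂ C.swap P'`;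
* `exists_isSmoothPtRing₁_pole`, `exists_isSmoothPtRing₂_pole` : the datum at the places over
  `t = ∞`, without any non-node hypothesis.
-/

set_option autoImplicit false
set_option linter.style.haveILetI false
set_option linter.unusedSectionVars false
set_option linter.unusedVariables false

noncomputable section

namespace Fermat.Agent.S40x.Node.SmoothQbB

open AlgebraicCurve Module IntermediateField IsLocalRing ModularCurve
open Fermat.Agent.Gateway.C0 Fermat.Agent.S34x.C0two Fermat.Agent.S34x.Lattice2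
open Fermat.Agent.S33x.Cech.CtxMq
open Fermat.Agent.S19x.Geo.LatticeFixed (IsFixed)
open Fermat.Agent.S33x.W.InstW (fixedAlg)
open Fermat.Agent.Gateway.Hecke Fermat.Agent.Gateway.ESC
open Fermat.Agent.Gateway.Red Fermat.Agent.Gateway.GoodRed
open Fermat.Agent.Gateway.GoodRed.ConjFamily
open Fermat.Agent.S34x.TwoVal
open Fermat.Agent.S34x.Inst.L2 Fermat.Agent.S34x.Inst.IsL2Inst
open Fermat.Agent.S34x.Inst.RedSetupInst Fermat.Agent.S34x.Inst.ElementYRed
open Fermat.Agent.S34x.Inst.ElementYInt Fermat.Agent.S34x.Inst.Charts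
open Fermat.Agent.S34x.Inst Fermat.Agent.S34x.Inst.TheoremBMq
open Fermat.Agent.S33x.H1.FixData2Inst Fermat.Agent.S33x.H1.FixData2Final
open Fermat.Agent.S40x.Node.Vocab Fermat.Agent.S40x.Node.FixedFrac
open Fermat.Agent.S40x.Node.FixedQb Fermat.Agent.S40x.Node.SmoothCtxB
open Fermat.Agent.S40x.Node.NodeInst Fermat.Agent.S40x.Node.SmoothInst
open Fermat.Agent.S40x.Node.SmoothChart Fermat.Agent.S40x.Node.ValueGroupFixed

attribute [-instance] IsScalarTower.of_algHom

local notation "Qbar" => AlgebraicClosure ℚ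

variable {P : ValuationSubring Qbar} {k : Type} [Field k] {π : P →+* k} [IsAlgClosed k]
variable {M q : ℕ} [NeZero M] [NeZero q] [Fact q.Prime] [CharP k q]
variable {hdeg : finrankAlong Qbar (heckeAlphaBar Qbar M q) = q + 1} {hq : q.Prime}
  {hqM : ¬ q ∣ M}
variable {hrk : ∀ x ∈ maximalIdeal P, ∀ c : P, c ≠ 0 → ∃ j : ℕ, c ∣ x ^ j}
  {hπ : Function.Surjective π}
variable (H : ResidueFacts P π M q hdeg hq hqM hrk hπ) (hA : P.LiesOverPrime q)
  (x : LaurentSeries ℤ) (hx : coeffMap (Int.castRingHom Qbar) x ∈ FBar Qbar M)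
  (Hx : GoodLevelFactsT P π M q hπ hqM (tInt M x hx))

/-! ### The chart hypotheses -/

include Hx hA in
/-- **`ChartHyp` for the chart `C`** (`t ≠ ∞`) at `(Qbar, P, level M q)`. -/
theorem chartHyp_Mq [PerfectRing k q] (C : ChartCoord (redSetup2 H hA))
    (hCt : C.t = tA M q x hx) (hxk : tbar k x ≠ 0) (hY : YFacts M q x hx) :
    ChartHyp (redSetup2 H hA) C (inertiaAct P (M * q)) := by
  haveI : CharZero Qbar := algebraRat.charZero Qbar
  obtain ⟨Dt, hctx, hgal, hD, hF⟩ := bundle_Mq H hA x hx Hx C hCt hxk hY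
  exact chartHyp_self hctx hgal hD hF

include Hx hA in
/-- **`ChartHyp` for the swapped chart `C.swap`** (`t ≠ 0`) at `(Qbar, P, level M q)`. -/
theorem chartHyp_swap_Mq [PerfectRing k q] (C : ChartCoord (redSetup2 H hA))
    (hCt : C.t = tA M q x hx) (hxk : tbar k x ≠ 0) (hY : YFacts M q x hx) :
    ChartHyp (redSetup2 H hA) C.swap (inertiaAct P (M * q)) := by
  haveI : CharZero Qbar := algebraRat.charZero Qbar
  obtain ⟨Dt, hctx, hgal, hD, hF⟩ := bundle_Mq H hA x hx Hx C hCt hxk hY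
  exact chartHyp_swap hctx hgal hD hF

/-! ### The datum on a chart with `ChartHyp` -/

include hA in
/-- **(N-Sm) at `(Qbar, P, level M q)`, first component (`v_∞`-side): the DATUM** at every
non-node place `P'` of `Fk k M` lying on the chart `D` (`D = C` or `D = C.swap`). -/
theorem exists_isSmoothPtRing₁_Mq {D : ChartCoord (redSetup2 H hA)}
    (HD : ChartHyp (redSetup2 H hA) D (inertiaAct P (M * q)))
    {P' : Place k (Fk k M)} (hT : D.T.1 ∈ P'.toValuationSubring) (hP : IsNonNode₁ D P') :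
    haveI := HD.noeth
    haveI := HD.ded₁
    haveI := HD.frac₁
    ∃ t : R₁ D (inertiaAct P (M * q)) P' hT,
      IsSmoothPtRing (R₁ D (inertiaAct P (M * q)) P' hT) q t ∧
      Irreducible (loc₁ D (inertiaAct P (M * q)) P' hT t) ∧
      P'.ord ((loc₁ D (inertiaAct P (M * q)) P' hT t : P'.toValuationSubring) : Fk k M) = 1 :=
  SmoothCtxB.exists_isSmoothPtRing₁ HD (fixData2 H hA) (isUnif_primeElt P hq hA (M * q))
    (coe_primeElt P q) hT hP

include hA in
/-- **(N-Sm) at `(Qbar, P, level M q)`, second component (`v_0`-side): the DATUM.** -/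
theorem exists_isSmoothPtRing₂_Mq {D : ChartCoord (redSetup2 H hA)}
    (HD : ChartHyp (redSetup2 H hA) D (inertiaAct P (M * q)))
    {P' : Place k (Fk k M)} (hT : D.T.2 ∈ P'.toValuationSubring) (hP : IsNonNode₂ D P') :
    haveI := HD.noeth
    haveI := HD.ded₂
    haveI := HD.frac₂
    ∃ t : R₂ D (inertiaAct P (M * q)) P' hT,
      IsSmoothPtRing (R₂ D (inertiaAct P (M * q)) P' hT) q t ∧
      Irreducible (loc₂ D (inertiaAct P (M * q)) P' hT t) ∧
      P'.ord ((loc₂ D (inertiaAct P (M * q)) P' hT t : P'.toValuationSubring) : Fk k M) = 1 :=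
  SmoothCtxB.exists_isSmoothPtRing₂ HD (fixData2 H hA) (isUnif_primeElt P hq hA (M * q))
    (coe_primeElt P q) hT hP

/-- `F0 P (M q)` is the fraction field of the smooth-point ring, first component. -/
theorem isFractionRing_R₁_Mq {D : ChartCoord (redSetup2 H hA)}
    (HD : ChartHyp (redSetup2 H hA) D (inertiaAct P (M * q)))
    {P' : Place k (Fk k M)} (hT : D.T.1 ∈ P'.toValuationSubring) :
    haveI := HD.ded₁
    haveI := HD.frac₁
    letI := (toF0 P (M * q) (Fermat.Agent.S33x.H1.InstC4.BooAlg D)).toAlgebra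
    haveI : IsFractionRing (B0 D (inertiaAct P (M * q))) (F0 P (M * q)) := HD.fracB
    letI := algF0 P' (algebraMap_B₁_mem P' hT) (ρ := rho1 D (inertiaAct P (M * q)))
      (F0 P (M * q))
    IsFractionRing (R₁ D (inertiaAct P (M * q)) P' hT) (F0 P (M * q)) :=
  SmoothCtxB.isFractionRing_R₁ HD hT

/-- `F0 P (M q)` is the fraction field of the smooth-point ring, second component. -/
theorem isFractionRing_R₂_Mq {D : ChartCoord (redSetup2 H hA)}
    (HD : ChartHyp (redSetup2 H hA) D (inertiaAct P (M * q)))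
    {P' : Place k (Fk k M)} (hT : D.T.2 ∈ P'.toValuationSubring) :
    haveI := HD.ded₂
    haveI := HD.frac₂
    letI := (toF0 P (M * q) (Fermat.Agent.S33x.H1.InstC4.BooAlg D)).toAlgebra
    haveI : IsFractionRing (B0 D (inertiaAct P (M * q))) (F0 P (M * q)) := HD.fracB
    letI := algF0 P' (algebraMap_B₂_mem P' hT) (ρ := rho2 D (inertiaAct P (M * q)))
      (F0 P (M * q))
    IsFractionRing (R₂ D (inertiaAct P (M * q)) P' hT) (F0 P (M * q)) :=
  SmoothCtxB.isFractionRing_R₂ HD hT

/-! ### The places over `t = ∞` (and over `t = 0`) are non-nodes -/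

section Pole

variable [PerfectRing k q] (C : ChartCoord (redSetup2 H hA))
  (hCt : C.t = tA M q x hx) (hxk : tbar k x ≠ 0) (hY : YFacts M q x hx)

theorem two_le_sq_sub_one : 0 < q ^ 2 - 1 := by
  have h2 := (Fact.out : q.Prime).two_le
  have : 4 ≤ q ^ 2 := by nlinarith
  omega

theorem sq_sub_one_sub_add : q ^ 2 - 1 - q + q = q ^ 2 - 1 := by
  have h2 := (Fact.out : q.Prime).two_le
  have : q + 2 ≤ q ^ 2 := by nlinarith
  omega

include hCt hxk hY in
/-- the reduction of `y⁻¹` (`y = (α t')^q / β t'`) in the chart ring of `C.swap`: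
`(1, s ^ (q² - 1))`, `s = C.swap.T.1 = x̄⁻¹`. -/
theorem one_pow_mem_swap_Bbar :
    ((1 : Fk k M), C.swap.T.1 ^ (q ^ 2 - 1)) ∈ C.swap.Bbar := by
  have hB := BridgeInst.bridge H hA
  have hyO := elY_inv_mem_O C x hx hB hCt hxk
  have ht0 : tA M q x hx ≠ 0 := hCt ▸ C.t_ne
  have hyL : (elY M q x hx)⁻¹ ∈ C.swap.LN 0 q := by
    rw [C.swap_LN]
    refine ⟨?_, ?_⟩
    · have e : C.t ^ q * (elY M q x hx)⁻¹ = tB M q x hx := by
        rw [hCt, elY_inv_eq, mul_comm (tB M q x hx), ← mul_assoc,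
          mul_inv_cancel₀ (pow_ne_zero _ ht0), one_mul]
      rw [e, hCt]
      exact hY.y3
    · rw [pow_zero, one_mul, hCt]
      exact hY.y2
  have hmem := C.swap.res_mem_Bbar hyO hyL
  rw [res_elY_inv C x hx hB hCt hxk] at hmem
  have h2 : C.Ti.1 ^ (q ^ 2 - 1 - q) * C.Ti.2 = C.swap.T.1 ^ (q ^ 2 - 1) := by
    rw [Ti_snd_eq_pow C x hx hB hCt, ← pow_add, ChartCoord.swap_T, sq_sub_one_sub_add]
  rwa [h2] at hmem

include hCt hxk hY in
/-- the reduction of `y` in the chart ring of `C`: `(1, xb ^ (q² - 1))`, `xb = C.T.1 = x̄`. -/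
theorem one_pow_mem_Bbar : ((1 : Fk k M), C.T.1 ^ (q ^ 2 - 1)) ∈ C.Bbar := by
  have hB := BridgeInst.bridge H hA
  have hyO := elY_mem_O C x hx hB hCt hxk
  have ht0 : tA M q x hx ≠ 0 := hCt ▸ C.t_ne
  have hyL : elY M q x hx ∈ C.LN 0 q := by
    refine ⟨?_, ?_⟩
    · rw [pow_zero, one_mul, hCt]
      exact hY.y1
    · have e : C.t⁻¹ ^ q * elY M q x hx = (tB M q x hx)⁻¹ := by
        rw [hCt, elY, ← mul_assoc, ← mul_pow, inv_mul_cancel₀ ht0, one_pow, one_mul]
      rw [e, hCt]
      exact hY.y3'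
  have hmem := C.res_mem_Bbar hyO hyL
  rw [res_elY C x hx hB hCt hxk] at hmem
  have h2 : C.T.1 ^ (q ^ 2 - 1 - q) * C.T.2 = C.T.1 ^ (q ^ 2 - 1) := by
    rw [T_snd_eq_pow C x hx hB hCt, ← pow_add, sq_sub_one_sub_add]
  rwa [h2] at hmem

include hCt hxk hY in
/-- **Every place over `t = ∞` is a non-node**, on both components (chart `C.swap`): in
particular the cusps over `t = ∞`. -/
theorem isNonNode_swap_of_pole (P' : Place k (Fk k M))
    (hs : C.swap.T.1 ∈ P'.toValuationSubring.nonunits) :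
    IsNonNode₁ C.swap P' ∧ IsNonNode₂ C.swap P' := by
  have hB := BridgeInst.bridge H hA
  have hT : C.swap.T = (C.swap.T.1, C.swap.T.1 ^ q) := by
    refine Prod.ext rfl ?_
    show C.swap.T.2 = C.swap.T.1 ^ q
    rw [ChartCoord.swap_T]
    exact Ti_snd_eq_pow C x hx hB hCt
  exact isNonNode_of_one_pow_mem C.swap hT two_le_sq_sub_one
    (one_pow_mem_swap_Bbar H hA x hx C hCt hxk hY) P' hs

include hCt hxk hY in
/-- every zero of `x̄` is a non-node, on both components (chart `C`). -/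
theorem isNonNode_of_zero (P' : Place k (Fk k M))
    (hs : C.T.1 ∈ P'.toValuationSubring.nonunits) :
    IsNonNode₁ C P' ∧ IsNonNode₂ C P' := by
  have hB := BridgeInst.bridge H hA
  have hT : C.T = (C.T.1, C.T.1 ^ q) :=
    Prod.ext rfl (T_snd_eq_pow C x hx hB hCt)
  exact isNonNode_of_one_pow_mem C hT two_le_sq_sub_one
    (one_pow_mem_Bbar H hA x hx C hCt hxk hY) P' hs

omit [PerfectRing k q] in
/-- every place lies on the chart `C` or is a pole of `x̄` (a zero of `C.swap.T.1 = x̄⁻¹`). -/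
theorem mem_or_swap_mem_nonunits (P' : Place k (Fk k M)) :
    C.T.1 ∈ P'.toValuationSubring ∨ C.swap.T.1 ∈ P'.toValuationSubring.nonunits := by
  by_cases h : C.T.1 ∈ P'.toValuationSubring
  · exact Or.inl h
  · right
    have h1 := congrArg Prod.fst C.T_mul_Ti
    rw [Prod.fst_mul, Prod.fst_one] at h1
    rw [ChartCoord.swap_T, ValuationSubring.mem_nonunits_iff]
    rw [← ValuationSubring.valuation_le_one_iff, not_le] at h
    have h2 : P'.toValuationSubring.valuation C.T.1 * P'.toValuationSubring.valuation C.Ti.1 = 1 := by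
      rw [← map_mul, h1, map_one]
    rw [eq_inv_of_mul_eq_one_right h2]
    exact inv_lt_one_of_one_lt₀ h

include hCt hxk hY in
/-- the same in the form "`x̄` is not regular at `P'`". -/
theorem isNonNode_swap_of_not_mem (P' : Place k (Fk k M))
    (hs : C.T.1 ∉ P'.toValuationSubring) :
    IsNonNode₁ C.swap P' ∧ IsNonNode₂ C.swap P' :=
  isNonNode_swap_of_pole H hA x hx C hCt hxk hY P'
    ((mem_or_swap_mem_nonunits H hA C P').resolve_left hs)

include Hx hCt hxk hY in
/-- **the DATUM at the places over `t = ∞`, first component**: no non-node hypothesis. -/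
theorem exists_isSmoothPtRing₁_pole (P' : Place k (Fk k M))
    (hs : C.swap.T.1 ∈ P'.toValuationSubring.nonunits) :
    haveI := (chartHyp_swap_Mq H hA x hx Hx C hCt hxk hY).noeth
    haveI := (chartHyp_swap_Mq H hA x hx Hx C hCt hxk hY).ded₁
    haveI := (chartHyp_swap_Mq H hA x hx Hx C hCt hxk hY).frac₁
    ∃ t : R₁ C.swap (inertiaAct P (M * q)) P' (ValuationSubring.nonunits_subset hs),
      IsSmoothPtRing (R₁ C.swap (inertiaAct P (M * q)) P'
        (ValuationSubring.nonunits_subset hs)) q t ∧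
      Irreducible (loc₁ C.swap (inertiaAct P (M * q)) P'
        (ValuationSubring.nonunits_subset hs) t) ∧
      P'.ord ((loc₁ C.swap (inertiaAct P (M * q)) P' (ValuationSubring.nonunits_subset hs) t :
        P'.toValuationSubring) : Fk k M) = 1 :=
  exists_isSmoothPtRing₁_Mq H hA (chartHyp_swap_Mq H hA x hx Hx C hCt hxk hY)
    (ValuationSubring.nonunits_subset hs) (isNonNode_swap_of_pole H hA x hx C hCt hxk hY P' hs).1

include hCt in
omit [PerfectRing k q] in
theorem swap_T_snd_mem (P' : Place k (Fk k M))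
    (hs : C.swap.T.1 ∈ P'.toValuationSubring.nonunits) :
    C.swap.T.2 ∈ P'.toValuationSubring := by
  have hB := BridgeInst.bridge H hA
  have h2 : C.swap.T.2 = C.swap.T.1 ^ q := by
    rw [ChartCoord.swap_T]
    exact Ti_snd_eq_pow C x hx hB hCt
  rw [h2]
  exact pow_mem (ValuationSubring.nonunits_subset hs) q

include Hx hCt hxk hY in
/-- **the DATUM at the places over `t = ∞`, second component**: no non-node hypothesis. -/
theorem exists_isSmoothPtRing₂_pole (P' : Place k (Fk k M))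
    (hs : C.swap.T.1 ∈ P'.toValuationSubring.nonunits) :
    haveI := (chartHyp_swap_Mq H hA x hx Hx C hCt hxk hY).noeth
    haveI := (chartHyp_swap_Mq H hA x hx Hx C hCt hxk hY).ded₂
    haveI := (chartHyp_swap_Mq H hA x hx Hx C hCt hxk hY).frac₂
    ∃ t : R₂ C.swap (inertiaAct P (M * q)) P' (swap_T_snd_mem H hA x hx C hCt P' hs),
      IsSmoothPtRing (R₂ C.swap (inertiaAct P (M * q)) P'
        (swap_T_snd_mem H hA x hx C hCt P' hs)) q t ∧
      Irreducible (loc₂ C.swap (inertiaAct P (M * q)) P'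
        (swap_T_snd_mem H hA x hx C hCt P' hs) t) ∧
      P'.ord ((loc₂ C.swap (inertiaAct P (M * q)) P' (swap_T_snd_mem H hA x hx C hCt P' hs) t :
        P'.toValuationSubring) : Fk k M) = 1 :=
  exists_isSmoothPtRing₂_Mq H hA (chartHyp_swap_Mq H hA x hx Hx C hCt hxk hY)
    (swap_T_snd_mem H hA x hx C hCt P' hs)
    (isNonNode_swap_of_pole H hA x hx C hCt hxk hY P' hs).2

end Pole

end Fermat.Agent.S40x.Node.SmoothQbB
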