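import Fermat.Agent.S40x.Node.SmoothInst
import Fermat.Agent.S40x.Node.NodeRes
import Fermat.Agent.S40x.Node.PlaceIdeal

/-!
# P-S44, block R1 / N-alpha, item X7 at SMOOTH points: the residue field of the smooth-point ring
`R_P` is `k` (helper87)

Smooth-point twin of `Node/NodeRes` (helper50), in the vocabulary of `Node/SmoothChart` (abstract)
and `Node/SmoothInst` (instance): `R_P = SmRing P hB1P ρ` (resp. `R₁ C Γ P hT`, `R₂ C Γ P hT`),
`locP : R_P →+* O_P` the reduction onto the valuation ring of the place `P` of the component.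

Abstract part (`HasValues P` : every element of the chart ring `B1` has a value in `k` at `P`,
i.e. `P` is a `k`-rational point; true for `k` algebraically closed: `hasValues_of_finiteType`):
* `exists_value`, `algebraMap_residue_bijective` : the residue field of `O_P` is `k`;
* `evO : O_P →+* k`, `evP : R_P →+* k` : **the value at `P`**; `evP_surjective`,
  `ker_evP = maximalIdeal R_P`, `evP_eq_zero_iff`;
* `residueFieldEquiv : ResidueField R_P ≃+* k`, `isAlgClosed_residueField`,
  `charP_residueField`, `natCast_mem_maximalIdeal` (instance `[IsAlgClosed (ResidueField R)]` and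
  hypothesis `hpm` of `R2/NodeCover/SimpleRoot.conjugates_structure`, C3-ET at non-node places).

Instance part, for `R₁ C Γ P hT` and `R₂ C Γ P hT` of `Node/SmoothInst` (`k` algebraically closed):
* `hasValues₁`, `hasValues₂` from `Node/PlaceIdeal` (`κᵢ / k(Tᵢ)` finite separable);
* `ev₁`, `ev₁_surjective`, `ker_ev₁`, `ev₁_algebraMap_const` (a constant `c : W = A^Γ` has value
  its residue `R.π c`), **`exists_const_sub_mem₁`** (every element of `R_P` is congruent modulo the
  maximal ideal to a constant `c : W`), `residueFieldEquiv₁`, `isAlgClosed_residueField₁`,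
  `charP_residueField₁`, `natCast_mem_maximalIdeal₁`; the same with index `₂`.
-/

set_option autoImplicit false
set_option linter.unusedSectionVars false
set_option linter.style.haveILetI false

noncomputable section

namespace Fermat.Agent.S40x.Node.SmoothRes

open AlgebraicCurve IsLocalRing
open Fermat.Agent.S24.PD IsDedekindDomain
open Fermat.Agent.S40x.Node.SmoothChart

/-! ### The value at a rational place -/

section Value

variable {k E : Type*} [Field k] [Field E] [Algebra k E]
  {B1 : Type*} [CommRing B1] [IsDedekindDomain B1] [Algebra k B1] [Algebra B1 E]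
  [IsScalarTower k B1 E] [IsFractionRing B1 E]
  (P : Place k E) (hB1P : ∀ b : B1, algebraMap B1 E b ∈ P.toValuationSubring)

variable (B1) in
/-- **the chart ring has values in `k` at `P`** (the point `P` is `k`-rational). -/
def HasValues : Prop :=
  ∀ b : B1, ∃ c : k, algebraMap B1 E b - algebraMap k E c ∈ P.toValuationSubring.nonunits

variable {P}

include hB1P in
/-- every element of `O_P` is congruent to a constant modulo the maximal ideal. -/
theorem exists_value (hval : HasValues B1 P) (y : P.toValuationSubring) :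
    ∃ c : k, y - algebraMap k P.toValuationSubring c ∈ maximalIdeal P.toValuationSubring := by
  obtain ⟨n, d, hd, hyd⟩ := exists_frac P hB1P y
  obtain ⟨cn, hcn⟩ := hval n
  obtain ⟨cd, hcd⟩ := hval d
  have hcn' : toPlaceRing P hB1P n - algebraMap k P.toValuationSubring cn ∈
      maximalIdeal P.toValuationSubring := by
    rw [← ValuationSubring.coe_mem_nonunits_iff]
    exact hcn
  have hcd' : toPlaceRing P hB1P d - algebraMap k P.toValuationSubring cd ∈
      maximalIdeal P.toValuationSubring := by
    rw [← ValuationSubring.coe_mem_nonunits_iff]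
    exact hcd
  have hcd0 : cd ≠ 0 := by
    rintro rfl
    rw [map_zero, sub_zero] at hcd'
    exact hd hcd'
  refine ⟨cn / cd, ?_⟩
  have key : (y - algebraMap k P.toValuationSubring (cn / cd)) * toPlaceRing P hB1P d =
      (toPlaceRing P hB1P n - algebraMap k P.toValuationSubring cn) -
        algebraMap k P.toValuationSubring (cn / cd) *
          (toPlaceRing P hB1P d - algebraMap k P.toValuationSubring cd) := by
    have h1 : algebraMap k P.toValuationSubring (cn / cd) * algebraMap k P.toValuationSubring cd =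
        algebraMap k P.toValuationSubring cn := by
      rw [← map_mul, div_mul_cancel₀ _ hcd0]
    rw [sub_mul, hyd]
    linear_combination (-1 : P.toValuationSubring) * h1
  have hmem : (y - algebraMap k P.toValuationSubring (cn / cd)) * toPlaceRing P hB1P d ∈
      maximalIdeal P.toValuationSubring := by
    rw [key]
    exact Ideal.sub_mem _ hcn' (Ideal.mul_mem_left _ _ hcd')
  rcases (Ideal.IsMaximal.isPrime (maximalIdeal.isMaximal _)).mem_or_mem hmem with h | h
  · exact h
  · exact absurd h hd

include hB1P in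
/-- **the residue field of a `k`-rational place is `k`.** -/
theorem algebraMap_residue_bijective (hval : HasValues B1 P) :
    Function.Bijective (algebraMap k P.ResidueField) := by
  refine ⟨(algebraMap k P.ResidueField).injective, fun z => ?_⟩
  obtain ⟨y, rfl⟩ := IsLocalRing.residue_surjective z
  obtain ⟨c, hc⟩ := exists_value hB1P hval y
  refine ⟨c, ?_⟩
  rw [IsScalarTower.algebraMap_apply k P.toValuationSubring P.ResidueField,
    IsLocalRing.ResidueField.algebraMap_eq]
  symm
  rw [← sub_eq_zero, ← map_sub, IsLocalRing.residue_eq_zero_iff]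
  exact hc

/-- the residue field of `O_P` identified with `k`. -/
def kEquiv (hval : HasValues B1 P) : k ≃+* P.ResidueField :=
  RingEquiv.ofBijective (algebraMap k P.ResidueField) (algebraMap_residue_bijective hB1P hval)

/-- **the value at `P`** of an element of `O_P`. -/
def evO (hval : HasValues B1 P) : P.toValuationSubring →+* k :=
  (kEquiv hB1P hval).symm.toRingHom.comp (IsLocalRing.residue P.toValuationSubring)

theorem evO_apply (hval : HasValues B1 P) (y : P.toValuationSubring) :
    evO hB1P hval y = (kEquiv hB1P hval).symm (IsLocalRing.residue _ y) := rfl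

theorem evO_algebraMap (hval : HasValues B1 P) (c : k) :
    evO hB1P hval (algebraMap k P.toValuationSubring c) = c := by
  rw [evO_apply, RingEquiv.symm_apply_eq]
  show _ = algebraMap k P.ResidueField c
  rw [IsScalarTower.algebraMap_apply k P.toValuationSubring P.ResidueField,
    IsLocalRing.ResidueField.algebraMap_eq]

theorem evO_eq_zero_iff (hval : HasValues B1 P) (y : P.toValuationSubring) :
    evO hB1P hval y = 0 ↔ y ∈ maximalIdeal P.toValuationSubring := by
  rw [evO_apply, map_eq_zero_iff _ (kEquiv hB1P hval).symm.injective,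
    IsLocalRing.residue_eq_zero_iff]

theorem evO_surjective (hval : HasValues B1 P) : Function.Surjective (evO hB1P hval) :=
  fun c => ⟨algebraMap k P.toValuationSubring c, evO_algebraMap hB1P hval c⟩

/-- the value of an element of the chart ring. -/
theorem evO_toPlaceRing (hval : HasValues B1 P) (b : B1) (c : k) :
    evO hB1P hval (toPlaceRing P hB1P b) = c ↔
      algebraMap B1 E b - algebraMap k E c ∈ P.toValuationSubring.nonunits := by
  rw [← evO_algebraMap hB1P hval c, ← sub_eq_zero, ← map_sub, evO_eq_zero_iff,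
    ← ValuationSubring.coe_mem_nonunits_iff, evO_algebraMap]
  rfl

include hB1P in
/-- `HasValues` from the Nullstellensatz. -/
theorem hasValues_of_finiteType [IsAlgClosed k] [Algebra.FiniteType k B1] : HasValues B1 P := by
  intro b
  haveI : (primeOfPlace P hB1P).asIdeal.IsMaximal := (primeOfPlace P hB1P).isMaximal
  obtain ⟨c, hc⟩ := (bijective_algebraMap_quotient_of_isMaximal (K := k)
    (primeOfPlace P hB1P).asIdeal).2 (Ideal.Quotient.mk _ b)
  refine ⟨c, ?_⟩
  have h1 : b - algebraMap k B1 c ∈ (primeOfPlace P hB1P).asIdeal := by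
    rw [← Ideal.Quotient.eq_zero_iff_mem, map_sub, ← hc]
    exact sub_self _
  rw [mem_primeOfPlace_iff, ← ValuationSubring.coe_mem_nonunits_iff] at h1
  have h2 : algebraMap B1 E (b - algebraMap k B1 c) = algebraMap B1 E b - algebraMap k E c := by
    rw [map_sub, ← IsScalarTower.algebraMap_apply]
  rw [← h2]
  exact h1

end Value

/-! ### The smooth-point ring `R_P` -/

section SmRing

variable {k E : Type*} [Field k] [Field E] [Algebra k E]
  {B1 : Type*} [CommRing B1] [IsDedekindDomain B1] [Algebra k B1] [Algebra B1 E]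
  [IsScalarTower k B1 E] [IsFractionRing B1 E]
  {P : Place k E} (hB1P : ∀ b : B1, algebraMap B1 E b ∈ P.toValuationSubring)
  {B : Type*} [CommRing B] (ρ : B →+* B1) (hval : HasValues B1 P)

/-- **the value at `P`** of an element of the smooth-point ring `R_P`. -/
def evP : SmRing P hB1P ρ →+* k := (evO hB1P hval).comp (locP P hB1P ρ)

theorem evP_apply (r : SmRing P hB1P ρ) :
    evP hB1P ρ hval r = evO hB1P hval (locP P hB1P ρ r) := rfl

@[simp] theorem evP_algebraMap (b : B) :
    evP hB1P ρ hval (algebraMap B (SmRing P hB1P ρ) b) =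
      evO hB1P hval (toPlaceRing P hB1P (ρ b)) := by
  rw [evP_apply, locP_algebraMap]
  rfl

/-- the value of `b : B` at `P` is `c` as soon as `ρ b` is the constant `c`. -/
theorem evP_algebraMap_of_eq {b : B} {c : k} (hb : ρ b = algebraMap k B1 c) :
    evP hB1P ρ hval (algebraMap B (SmRing P hB1P ρ) b) = c := by
  rw [evP_algebraMap, hb]
  have h1 : toPlaceRing P hB1P (algebraMap k B1 c) = algebraMap k P.toValuationSubring c := by
    apply Subtype.ext
    rw [coe_toPlaceRing, ← IsScalarTower.algebraMap_apply]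
    rfl
  rw [h1, evO_algebraMap]

variable {ρ}

theorem evP_surjective (hρ : Function.Surjective ρ) :
    Function.Surjective (evP hB1P ρ hval) := by
  intro c
  obtain ⟨b, hb⟩ := hρ (algebraMap k B1 c)
  exact ⟨algebraMap B _ b, evP_algebraMap_of_eq hB1P ρ hval hb⟩

/-- the kernel of the value map is the maximal ideal of `R_P`. -/
theorem ker_evP (hρ : Function.Surjective ρ) :
    RingHom.ker (evP hB1P ρ hval) = maximalIdeal (SmRing P hB1P ρ) :=
  eq_maximalIdeal (RingHom.ker_isMaximal_of_surjective _ (evP_surjective hB1P hval hρ))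

theorem evP_eq_zero_iff (hρ : Function.Surjective ρ) (r : SmRing P hB1P ρ) :
    evP hB1P ρ hval r = 0 ↔ r ∈ maximalIdeal (SmRing P hB1P ρ) := by
  rw [← ker_evP hB1P hval hρ, RingHom.mem_ker]

/-- **the residue field of the smooth-point ring is `k`.** -/
def residueFieldEquiv (hρ : Function.Surjective ρ) : ResidueField (SmRing P hB1P ρ) ≃+* k :=
  (Ideal.quotEquivOfEq (ker_evP hB1P hval hρ).symm).trans
    (RingHom.quotientKerEquivOfSurjective (evP_surjective hB1P hval hρ))

theorem residueFieldEquiv_residue (hρ : Function.Surjective ρ) (r : SmRing P hB1P ρ) :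
    residueFieldEquiv hB1P hval hρ (residue _ r) = evP hB1P ρ hval r := rfl

include hval in
/-- **the residue field of the smooth-point ring is algebraically closed** (instance hypothesis
of `R2/NodeCover/SimpleRoot.conjugates_structure`). -/
theorem isAlgClosed_residueField [IsAlgClosed k] (hρ : Function.Surjective ρ) :
    IsAlgClosed (ResidueField (SmRing P hB1P ρ)) :=
  NodeRes.isAlgClosed_of_ringEquiv (residueFieldEquiv hB1P hval hρ).symm

include hval in
/-- the residue characteristic of the smooth-point ring. -/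
theorem charP_residueField (hρ : Function.Surjective ρ) (p : ℕ) [CharP k p] :
    CharP (ResidueField (SmRing P hB1P ρ)) p :=
  charP_of_injective_ringHom (f := (residueFieldEquiv hB1P hval hρ).symm.toRingHom)
    (residueFieldEquiv hB1P hval hρ).symm.injective p

include hval in
/-- `p` lies in the maximal ideal of the smooth-point ring (hypothesis `hpm` of
`R2/NodeCover/SimpleRoot.conjugates_structure`). -/
theorem natCast_mem_maximalIdeal (hρ : Function.Surjective ρ) (p : ℕ) [CharP k p] :
    ((p : ℕ) : SmRing P hB1P ρ) ∈ maximalIdeal (SmRing P hB1P ρ) := by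
  rw [← evP_eq_zero_iff hB1P hval hρ, map_natCast]
  exact CharP.cast_eq_zero k p

end SmRing

/-! ### The instance: the rings `R₁ C Γ P hT`, `R₂ C Γ P hT` of `Node/SmoothInst` -/

section Inst

open Fermat.Agent.S34x Fermat.Agent.S34x.C0two Fermat.Agent.S34x.Lattice2
open Fermat.Agent.S19x.Geo.LatticeFixed (IsFixed IsFixedK)
open Fermat.Agent.S33x.H1.LatticeFixed2 Fermat.Agent.S33x.H1.FixedDecomp
open Fermat.Agent.S33x.W.InstW
open Fermat.Agent.S40x.Node.NodeInst Fermat.Agent.S40x.Node.SmoothInst
open Fermat.Agent.S40x.Node.PlaceIdeal IntermediateField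

variable {K : Type*} [Field K] {A : ValuationSubring K} {F : Type*} [Field F] [Algebra K F]
  {S : SmallRing F} {k κ₁ κ₂ : Type*} [Field k] [Field κ₁] [Field κ₂] [Algebra k κ₁]
  [Algebra k κ₂] {R : RedSetup2 A S k (κ₁ × κ₂)} {C : ChartCoord R}
  {Γ : Set (SemilinearAut K F)}

/-- the reduction of a constant, first component (`NodeRes.rho1_algebraMap` without the hypothesis
that `k` is algebraically closed). -/
theorem rho1_algebraMap (c : fixedSubring (A := A) Γ) :
    rho1 C Γ (algebraMap (fixedSubring (A := A) Γ) (B0 C Γ) c) = algebraMap k C.B₁ (R.π (c : A)) := by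
  apply Subtype.ext
  rw [coe_rho1, resB_apply]
  have h1 : ((algebraMap (fixedSubring (A := A) Γ) (B0 C Γ) c : B0 C Γ) : F) =
      algebraMap K F (((c : A) : K)) := by
    show algebraMap (fixedSubring (A := A) Γ) F c = _
    rw [Algebra.algebraMap_eq_smul_one, fixedSubring_smul_eq, ← Algebra.algebraMap_eq_smul_one]
  have h2 : (⟨((algebraMap (fixedSubring (A := A) Γ) (B0 C Γ) c : B0 C Γ) : F), coe_mem_O _⟩ : S.O) =
      ⟨algebraMap K F (((c : A) : K)), R.algebraMap_mem (c : A)⟩ := Subtype.ext h1
  rw [h2, R.res_algebraMap]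
  rfl

/-- the reduction of a constant, second component. -/
theorem rho2_algebraMap (c : fixedSubring (A := A) Γ) :
    rho2 C Γ (algebraMap (fixedSubring (A := A) Γ) (B0 C Γ) c) = algebraMap k C.B₂ (R.π (c : A)) := by
  apply Subtype.ext
  rw [coe_rho2, resB_apply]
  have h1 : ((algebraMap (fixedSubring (A := A) Γ) (B0 C Γ) c : B0 C Γ) : F) =
      algebraMap K F (((c : A) : K)) := by
    show algebraMap (fixedSubring (A := A) Γ) F c = _
    rw [Algebra.algebraMap_eq_smul_one, fixedSubring_smul_eq, ← Algebra.algebraMap_eq_smul_one]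
  have h2 : (⟨((algebraMap (fixedSubring (A := A) Γ) (B0 C Γ) c : B0 C Γ) : F), coe_mem_O _⟩ : S.O) =
      ⟨algebraMap K F (((c : A) : K)), R.algebraMap_mem (c : A)⟩ := Subtype.ext h1
  rw [h2, R.res_algebraMap]
  rfl

/-- a constant `c : W = A^Γ` with prescribed residue (`FixData2.exists_fixed_coeff`). -/
theorem exists_const (hD : FixData2 R Γ) (cbar : k) :
    ∃ c : fixedSubring (A := A) Γ, R.π (c : A) = cbar := by
  obtain ⟨a, ha, hπ⟩ := hD.exists_fixed_coeff cbar
  exact ⟨⟨a, ha⟩, hπ⟩

/-! #### `HasValues` on the two components (`k` algebraically closed) -/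

section HasValues

variable [IsAlgClosed k]

/-- every place of the first component on the chart is `k`-rational. -/
theorem hasValues₁ [IsDedekindDomain C.B₁] [IsFractionRing C.B₁ κ₁]
    (hTr : Transcendental k C.T.1) [FiniteDimensional k⟮C.T.1⟯ κ₁]
    [Algebra.IsSeparable k⟮C.T.1⟯ κ₁] {P : Place k κ₁} (hT : C.T.1 ∈ P.toValuationSubring) :
    HasValues C.B₁ P := by
  intro b
  have hB : IsHalfChart C.T.1 C.B₁ := isHalfChart_restrictScalars C.T.1
  have hT0 : C.T.1 ≠ 0 := fun h0 => hTr (h0 ▸ isAlgebraic_zero)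
  have hP : 0 ≤ P.ord C.T.1 := (Fermat.Agent.S24.ZP.ord_nonneg_iff P hT0).mpr hT
  obtain ⟨c, hc⟩ := hB.exists_sub_mem_maxIdeal hTr P hP b
  refine ⟨c, ?_⟩
  rw [hB.mem_maxIdeal_iff] at hc
  exact hc

/-- every place of the second component on the chart is `k`-rational. -/
theorem hasValues₂ [IsDedekindDomain C.B₂] [IsFractionRing C.B₂ κ₂]
    (hTr : Transcendental k C.T.2) [FiniteDimensional k⟮C.T.2⟯ κ₂]
    [Algebra.IsSeparable k⟮C.T.2⟯ κ₂] {P : Place k κ₂} (hT : C.T.2 ∈ P.toValuationSubring) :
    HasValues C.B₂ P := by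
  intro b
  have hB : IsHalfChart C.T.2 C.B₂ := isHalfChart_restrictScalars C.T.2
  have hT0 : C.T.2 ≠ 0 := fun h0 => hTr (h0 ▸ isAlgebraic_zero)
  have hP : 0 ≤ P.ord C.T.2 := (Fermat.Agent.S24.ZP.ord_nonneg_iff P hT0).mpr hT
  obtain ⟨c, hc⟩ := hB.exists_sub_mem_maxIdeal hTr P hP b
  refine ⟨c, ?_⟩
  rw [hB.mem_maxIdeal_iff] at hc
  exact hc

end HasValues

variable
  (hlift : ∀ (b : ℕ) (y : κ₁ × κ₂), y ∈ R.redLat (C.LN 0 b) →
    ∃ (f : F) (hf : f ∈ S.O), f ∈ C.LN 0 b ∧ IsFixed Γ f ∧ R.res ⟨f, hf⟩ = y)
  (hL2 : C.IsL2)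

/-! #### First component -/

section First

variable [IsDedekindDomain C.B₁] [IsFractionRing C.B₁ κ₁]
  {P : Place k κ₁} (hT : C.T.1 ∈ P.toValuationSubring) (hval : HasValues C.B₁ P)

variable (C Γ) in
/-- **the value at `P`** on the smooth-point ring `R₁ C Γ P hT`. -/
def ev₁ : R₁ C Γ P hT →+* k := evP (algebraMap_B₁_mem P hT) (rho1 C Γ) hval

include hlift hL2 in
theorem ev₁_surjective : Function.Surjective (ev₁ C Γ hT hval) :=
  evP_surjective _ hval (rho1_surjective hlift hL2)

include hlift hL2 in
/-- the kernel of the value map is the maximal ideal of `R_P`. -/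
theorem ker_ev₁ : RingHom.ker (ev₁ C Γ hT hval) = maximalIdeal (R₁ C Γ P hT) :=
  ker_evP _ hval (rho1_surjective hlift hL2)

include hlift hL2 in
theorem ev₁_eq_zero_iff (r : R₁ C Γ P hT) :
    ev₁ C Γ hT hval r = 0 ↔ r ∈ maximalIdeal (R₁ C Γ P hT) :=
  evP_eq_zero_iff _ hval (rho1_surjective hlift hL2) r

/-- **the value of a constant** `c : W = A^Γ` at `P` is its residue. -/
theorem ev₁_algebraMap_const (c : fixedSubring (A := A) Γ) :
    ev₁ C Γ hT hval (algebraMap (fixedSubring (A := A) Γ) (R₁ C Γ P hT) c) = R.π (c : A) := by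
  rw [IsScalarTower.algebraMap_apply (fixedSubring (A := A) Γ) (B0 C Γ) (R₁ C Γ P hT)]
  exact evP_algebraMap_of_eq _ _ hval (rho1_algebraMap c)

include hlift hL2 hval in
/-- **constant residue field at a smooth point**: every element of `R_P` is congruent modulo the
maximal ideal to a constant `c : W = A^Γ`. -/
theorem exists_const_sub_mem₁ (hD : FixData2 R Γ) (r : R₁ C Γ P hT) :
    ∃ c : fixedSubring (A := A) Γ,
      r - algebraMap (fixedSubring (A := A) Γ) (R₁ C Γ P hT) c ∈ maximalIdeal (R₁ C Γ P hT) := by
  obtain ⟨c, hc⟩ := exists_const hD (ev₁ C Γ hT hval r)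
  refine ⟨c, ?_⟩
  rw [← ev₁_eq_zero_iff hlift hL2 hT hval, map_sub, ev₁_algebraMap_const, hc, sub_self]

include hlift hL2 in
/-- **the residue field of `R_P` is `k`.** -/
def residueFieldEquiv₁ : ResidueField (R₁ C Γ P hT) ≃+* k :=
  residueFieldEquiv _ hval (rho1_surjective hlift hL2)

theorem residueFieldEquiv₁_residue (r : R₁ C Γ P hT) :
    residueFieldEquiv₁ hlift hL2 hT hval (residue _ r) = ev₁ C Γ hT hval r := rfl

include hlift hL2 hval in
/-- **the residue field of `R_P` is algebraically closed.** -/
theorem isAlgClosed_residueField₁ [IsAlgClosed k] : IsAlgClosed (ResidueField (R₁ C Γ P hT)) :=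
  isAlgClosed_residueField _ hval (rho1_surjective hlift hL2)

include hlift hL2 hval in
theorem charP_residueField₁ (p : ℕ) [CharP k p] : CharP (ResidueField (R₁ C Γ P hT)) p :=
  charP_residueField _ hval (rho1_surjective hlift hL2) p

include hlift hL2 hval in
/-- `p` lies in the maximal ideal of `R_P`. -/
theorem natCast_mem_maximalIdeal₁ (p : ℕ) [CharP k p] :
    ((p : ℕ) : R₁ C Γ P hT) ∈ maximalIdeal (R₁ C Γ P hT) :=
  natCast_mem_maximalIdeal _ hval (rho1_surjective hlift hL2) p

end First

/-! #### Second component -/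

section Second

variable [IsDedekindDomain C.B₂] [IsFractionRing C.B₂ κ₂]
  {P : Place k κ₂} (hT : C.T.2 ∈ P.toValuationSubring) (hval : HasValues C.B₂ P)

variable (C Γ) in
/-- **the value at `P`** on the smooth-point ring `R₂ C Γ P hT`. -/
def ev₂ : R₂ C Γ P hT →+* k := evP (algebraMap_B₂_mem P hT) (rho2 C Γ) hval

include hlift hL2 in
theorem ev₂_surjective : Function.Surjective (ev₂ C Γ hT hval) :=
  evP_surjective _ hval (rho2_surjective hlift hL2)

include hlift hL2 in
/-- the kernel of the value map is the maximal ideal of `R_P`. -/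
theorem ker_ev₂ : RingHom.ker (ev₂ C Γ hT hval) = maximalIdeal (R₂ C Γ P hT) :=
  ker_evP _ hval (rho2_surjective hlift hL2)

include hlift hL2 in
theorem ev₂_eq_zero_iff (r : R₂ C Γ P hT) :
    ev₂ C Γ hT hval r = 0 ↔ r ∈ maximalIdeal (R₂ C Γ P hT) :=
  evP_eq_zero_iff _ hval (rho2_surjective hlift hL2) r

/-- **the value of a constant** `c : W = A^Γ` at `P` is its residue. -/
theorem ev₂_algebraMap_const (c : fixedSubring (A := A) Γ) :
    ev₂ C Γ hT hval (algebraMap (fixedSubring (A := A) Γ) (R₂ C Γ P hT) c) = R.π (c : A) := by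
  rw [IsScalarTower.algebraMap_apply (fixedSubring (A := A) Γ) (B0 C Γ) (R₂ C Γ P hT)]
  exact evP_algebraMap_of_eq _ _ hval (rho2_algebraMap c)

include hlift hL2 hval in
/-- **constant residue field at a smooth point**, second component. -/
theorem exists_const_sub_mem₂ (hD : FixData2 R Γ) (r : R₂ C Γ P hT) :
    ∃ c : fixedSubring (A := A) Γ,
      r - algebraMap (fixedSubring (A := A) Γ) (R₂ C Γ P hT) c ∈ maximalIdeal (R₂ C Γ P hT) := by
  obtain ⟨c, hc⟩ := exists_const hD (ev₂ C Γ hT hval r)
  refine ⟨c, ?_⟩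
  rw [← ev₂_eq_zero_iff hlift hL2 hT hval, map_sub, ev₂_algebraMap_const, hc, sub_self]

include hlift hL2 in
/-- **the residue field of `R_P` is `k`.** -/
def residueFieldEquiv₂ : ResidueField (R₂ C Γ P hT) ≃+* k :=
  residueFieldEquiv _ hval (rho2_surjective hlift hL2)

theorem residueFieldEquiv₂_residue (r : R₂ C Γ P hT) :
    residueFieldEquiv₂ hlift hL2 hT hval (residue _ r) = ev₂ C Γ hT hval r := rfl

include hlift hL2 hval in
/-- **the residue field of `R_P` is algebraically closed.** -/
theorem isAlgClosed_residueField₂ [IsAlgClosed k] : IsAlgClosed (ResidueField (R₂ C Γ P hT)) :=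
  isAlgClosed_residueField _ hval (rho2_surjective hlift hL2)

include hlift hL2 hval in
theorem charP_residueField₂ (p : ℕ) [CharP k p] : CharP (ResidueField (R₂ C Γ P hT)) p :=
  charP_residueField _ hval (rho2_surjective hlift hL2) p

include hlift hL2 hval in
/-- `p` lies in the maximal ideal of `R_P`. -/
theorem natCast_mem_maximalIdeal₂ (p : ℕ) [CharP k p] :
    ((p : ℕ) : R₂ C Γ P hT) ∈ maximalIdeal (R₂ C Γ P hT) :=
  natCast_mem_maximalIdeal _ hval (rho2_surjective hlift hL2) p

end Second

end Inst

end Fermat.Agent.S40x.Node.SmoothRes
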