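import Fermat.Agent.S40x.Node.SmoothRes
import Fermat.Agent.S40x.Node.PlaceIdealInst

/-!
# P-S44, block R1, item X7 at smooth points of the SECOND component: `HasValues C.B₂ P` with
instantiable hypotheses (helper17)

`Node/SmoothRes.hasValues₂` (frozen) asks for `[Algebra.IsSeparable k⟮C.T.2⟯ κ₂]`, which is FALSE at
the concrete level `M q` (`C.T.2 = x̄ ^ q`; helper65's flag on `NodePlace.exists_branch₂`).  Here
`C.B₂` is only required to be the half-chart ring of SOME `T'` with `κ₂ / k(T')` finite separable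
(`Node/PlaceIdeal.IsHalfChart T' C.B₂`; concrete level `T' = x̄`:
`PlaceIdealInst.chart_isHalfChart_B₂`), and the instances `IsDedekindDomain C.B₂`,
`IsFractionRing C.B₂ κ₂` needed by `SmoothRes.ev₂ …` are provided from the same data.

* `hasValues₂_of_isHalfChart`, `isDedekindDomain_B₂`, `isFractionRing_B₂`;
* `_of_pow` forms: one residue field `κ`, `C.T.2 = C.T.1 ^ q`, only `κ / k(C.T.1)` finite separable.
-/

set_option autoImplicit false
set_option linter.unusedSectionVars false
set_option linter.style.haveILetI false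

noncomputable section

namespace Fermat.Agent.S40x.Node.SmoothResB

open AlgebraicCurve IsLocalRing IntermediateField
open Fermat.Agent.S34x Fermat.Agent.S34x.C0two Fermat.Agent.S34x.Lattice2
open Fermat.Agent.S40x.Node.PlaceIdeal Fermat.Agent.S40x.Node.SmoothRes

section General

variable {K : Type*} [Field K] {A : ValuationSubring K} {F : Type*} [Field F] [Algebra K F]
  {S : SmallRing F} {k κ₁ κ₂ : Type*} [Field k] [Field κ₁] [Field κ₂] [Algebra k κ₁]
  [Algebra k κ₂] {R : RedSetup2 A S k (κ₁ × κ₂)} {C : ChartCoord R}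

variable {T' : κ₂} (hB : IsHalfChart T' C.B₂) (hTr : Transcendental k T')
  [FiniteDimensional k⟮T'⟯ κ₂] [Algebra.IsSeparable k⟮T'⟯ κ₂]

include hB hTr in
/-- `C.B₂` is a Dedekind domain (half-chart form). -/
theorem isDedekindDomain_B₂ : IsDedekindDomain C.B₂ := hB.isDedekindDomain hTr

include hB in
/-- `κ₂ = Frac C.B₂` (half-chart form). -/
theorem isFractionRing_B₂ : IsFractionRing C.B₂ κ₂ := hB.isFractionRing

include hB hTr in
/-- every place of the second component on the chart is `k`-rational (half-chart form: no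
separability of `κ₂ / k(C.T.2)`). -/
theorem hasValues₂_of_isHalfChart [IsAlgClosed k] [IsDedekindDomain C.B₂]
    [IsFractionRing C.B₂ κ₂] {P : Place k κ₂} (hT : C.T.2 ∈ P.toValuationSubring) :
    HasValues C.B₂ P := by
  intro b
  have hT' : T' ∈ P.toValuationSubring :=
    Fermat.Agent.S24.ZP.integralClosure_le_place C.T.2 P hT ⟨T', hB.T_mem⟩
  have hT0 : T' ≠ 0 := fun h0 => hTr (h0 ▸ isAlgebraic_zero)
  have hP : 0 ≤ P.ord T' := (Fermat.Agent.S24.ZP.ord_nonneg_iff P hT0).mpr hT'
  obtain ⟨c, hc⟩ := hB.exists_sub_mem_maxIdeal hTr P hP b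
  refine ⟨c, ?_⟩
  rw [hB.mem_maxIdeal_iff] at hc
  exact hc

end General

section Pow

variable {K : Type*} [Field K] {A : ValuationSubring K} {F : Type*} [Field F] [Algebra K F]
  {S : SmallRing F} {k κ : Type*} [Field k] [Field κ] [Algebra k κ]
  {R : RedSetup2 A S k (κ × κ)} {C : ChartCoord R}
  (hT₁ : Transcendental k C.T.1) [FiniteDimensional k⟮C.T.1⟯ κ]
  [Algebra.IsSeparable k⟮C.T.1⟯ κ] {q : ℕ} (hq : 0 < q) (hT2 : C.T.2 = C.T.1 ^ q)

include hT₁ hq hT2 in
theorem isDedekindDomain_B₂_of_pow : IsDedekindDomain C.B₂ :=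
  isDedekindDomain_B₂ (PlaceIdealInst.isHalfChart_B₂ C hq hT2) hT₁

include hq hT2 in
theorem isFractionRing_B₂_of_pow : IsFractionRing C.B₂ κ :=
  isFractionRing_B₂ (PlaceIdealInst.isHalfChart_B₂ C hq hT2)

include hT₁ hq hT2 in
/-- every place of the second component on the chart is `k`-rational (`C.T.2 = C.T.1 ^ q`). -/
theorem hasValues₂_of_pow [IsAlgClosed k] [IsDedekindDomain C.B₂] [IsFractionRing C.B₂ κ]
    {P : Place k κ} (hT : C.T.2 ∈ P.toValuationSubring) : HasValues C.B₂ P :=
  hasValues₂_of_isHalfChart (PlaceIdealInst.isHalfChart_B₂ C hq hT2) hT₁ hT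

end Pow

end Fermat.Agent.S40x.Node.SmoothResB

end
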