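import Fermat.Agent.S40x.Node.SmoothRes
import Fermat.Agent.S40x.Node.SmoothCtxB

/-!
# P-S44, block R1 / N-alpha, item X7 at SMOOTH points, discharged inside the CONTEXT BUNDLE
(helper87)

`Node/SmoothRes` gives the residue field of the smooth-point rings `R₁ D Γ P hT`, `R₂ D Γ P hT` of
`Node/SmoothInst` under the hypothesis `hval : HasValues D.Bᵢ P` (the place is `k`-rational on the
chart ring).  Here `hval` is discharged for the four half-chart rings `C.B₁`, `C.B₂`, `C.swap.B₁`,
`C.swap.B₂` of the context bundle `Cech.CtxMq.Ctx R C p q x Dt` (they are the half-chart rings of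
`x`, `x`, `x⁻¹`, `x⁻¹`, helper92's `Node/SmoothCtxB`; no hypothesis on `k(T₂) = k(x ^ q)` is used),
and the X7 statements are restated for a chart with `SmoothCtxB.ChartHyp` (`hlift`, `hL2` bundled).

* `hasValues_of_isHalfChart` : every place with `T ∈ O_P` is `k`-rational on the half-chart ring
  of `T` (`k` algebraically closed, `E / k(T)` finite separable);
* `mem_of_pow_mem` : `y ^ n ∈ O → y ∈ O` (`0 < n`);
* `hasValues_B₁`, `hasValues_B₂`, `hasValues_swap_B₁`, `hasValues_swap_B₂` : `HasValues D.Bᵢ P` from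
  `hT : D.T.i ∈ O_P` inside the context bundle, `D = C` or `D = C.swap`;
* for `H : ChartHyp R D Γ`: `isAlgClosed_residueField₁/₂`, `natCast_mem_maximalIdeal₁/₂`,
  `charP_residueField₁/₂`, `exists_const_sub_mem₁/₂`, `residueFieldEquiv₁/₂`;
* inside the bundle (`h`, `hG`, `hD`, `hF`), for `C` and `C.swap`, both components, everything
  discharged: `isAlgClosed_residueField_self₁` …, `natCast_mem_maximalIdeal_self₁` …,
  `exists_const_sub_mem_self₁` … (suffixes `self₁ self₂ swap₁ swap₂`).
-/

set_option autoImplicit false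
set_option linter.unusedSectionVars false
set_option linter.unusedVariables false
set_option linter.style.haveILetI false

noncomputable section

namespace Fermat.Agent.S40x.Node.SmoothResCtx

open AlgebraicCurve IsLocalRing IntermediateField
open Fermat.Agent.S34x Fermat.Agent.S34x.C0two Fermat.Agent.S34x.Lattice2
open Fermat.Agent.S19x.Geo.LatticeFixed (IsFixed IsFixedK)
open Fermat.Agent.S33x.H1.LatticeFixed2 Fermat.Agent.S33x.H1.FixedDecomp
open Fermat.Agent.S33x.W.InstW
open Fermat.Agent.S33x.Cech.CtxMq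
open Fermat.Agent.S40x.Node.NodeInst Fermat.Agent.S40x.Node.SmoothInst
open Fermat.Agent.S40x.Node.PlaceIdeal Fermat.Agent.S40x.Node.SmoothRes
open Fermat.Agent.S40x.Node.SmoothCtxB

/-! ### Rational places of a half-chart ring -/

section HalfChart

variable {k E : Type*} [Field k] [Field E] [Algebra k E]

/-- **every place on a half chart is `k`-rational** (`k` algebraically closed). -/
theorem hasValues_of_isHalfChart [IsAlgClosed k] {T : E} {B : Subalgebra k E}
    (hB : IsHalfChart T B) (hTr : Transcendental k T) [FiniteDimensional k⟮T⟯ E]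
    [Algebra.IsSeparable k⟮T⟯ E] {P : Place k E} (hT : T ∈ P.toValuationSubring) :
    HasValues B P := by
  intro b
  have hT0 : T ≠ 0 := fun h0 => hTr (h0 ▸ isAlgebraic_zero)
  have hP : 0 ≤ P.ord T := (Fermat.Agent.S24.ZP.ord_nonneg_iff P hT0).mpr hT
  obtain ⟨c, hc⟩ := hB.exists_sub_mem_maxIdeal hTr P hP b
  refine ⟨c, ?_⟩
  rw [hB.mem_maxIdeal_iff] at hc
  exact hc

/-- a valuation subring contains `y` as soon as it contains a positive power of `y`. -/
theorem mem_of_pow_mem (O : ValuationSubring E) {y : E} {n : ℕ} (hn : 0 < n) (h : y ^ n ∈ O) :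
    y ∈ O := by
  rw [← ValuationSubring.valuation_le_one_iff] at h ⊢
  rw [map_pow] at h
  exact (pow_le_one_iff_of_nonneg zero_le hn.ne').mp h

end HalfChart

/-! ### `HasValues` for the four half-chart rings of the context bundle -/

section CtxValues

variable {K : Type*} [Field K] [IsAlgClosed K] [CharZero K] {A : ValuationSubring K}
  {F : Type*} [Field F] [Algebra K F] {S : SmallRing F}
  {k : Type*} [Field k] [IsAlgClosed k] {E : Type*} [Field E] [Algebra k E]
  {R : RedSetup2 A S k (E × E)} {C : ChartCoord R} {p q : ℕ} {x : E} {Dt : Divisor K F}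
  (h : Ctx R C p q x Dt)

include h in
theorem hasValues_B₁ {P : Place k E} (hT : C.T.1 ∈ P.toValuationSubring) : HasValues C.B₁ P := by
  haveI := h.fin_x
  haveI := h.sep_x
  rw [T_fst h] at hT
  exact hasValues_of_isHalfChart (isHalfChart_B₁ h) h.hx hT

include h in
theorem hasValues_B₂ {P : Place k E} (hT : C.T.2 ∈ P.toValuationSubring) : HasValues C.B₂ P := by
  haveI := h.fin_x
  haveI := h.sep_x
  rw [T_snd h] at hT
  exact hasValues_of_isHalfChart (isHalfChart_B₂ h) h.hx (mem_of_pow_mem _ h.hq hT)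

include h in
theorem hasValues_swap_B₁ {P : Place k E} (hT : C.swap.T.1 ∈ P.toValuationSubring) :
    HasValues C.swap.B₁ P := by
  haveI := h.fin_x
  haveI := h.sep_x
  haveI := finiteDimensional_inv (k := k) x
  haveI := isSeparable_inv (k := k) x
  rw [swap_T_fst h] at hT
  exact hasValues_of_isHalfChart (isHalfChart_swap_B₁ h) (transcendental_inv h.hx) hT

include h in
theorem hasValues_swap_B₂ {P : Place k E} (hT : C.swap.T.2 ∈ P.toValuationSubring) :
    HasValues C.swap.B₂ P := by
  haveI := h.fin_x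
  haveI := h.sep_x
  haveI := finiteDimensional_inv (k := k) x
  haveI := isSeparable_inv (k := k) x
  rw [swap_T_snd h] at hT
  exact hasValues_of_isHalfChart (isHalfChart_swap_B₂ h) (transcendental_inv h.hx)
    (mem_of_pow_mem _ h.hq hT)

end CtxValues

/-! ### X7 for a chart with `ChartHyp` -/

section Hyp

variable {K : Type*} [Field K] {A : ValuationSubring K} {F : Type*} [Field F] [Algebra K F]
  {S : SmallRing F} {k : Type*} [Field k] {E : Type*} [Field E] [Algebra k E]
  {R : RedSetup2 A S k (E × E)} {D : ChartCoord R} {Γ : Set (SemilinearAut K F)}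
  (H : ChartHyp R D Γ)

section First

variable [IsDedekindDomain D.B₁] [IsFractionRing D.B₁ E] {P : Place k E}
  (hT : D.T.1 ∈ P.toValuationSubring) (hval : HasValues D.B₁ P)

include H hval in
theorem isAlgClosed_residueField₁ [IsAlgClosed k] :
    IsAlgClosed (ResidueField (R₁ D Γ P hT)) :=
  SmoothRes.isAlgClosed_residueField₁ H.hlift H.hL2 hT hval

include H hval in
theorem charP_residueField₁ (p : ℕ) [CharP k p] : CharP (ResidueField (R₁ D Γ P hT)) p :=
  SmoothRes.charP_residueField₁ H.hlift H.hL2 hT hval p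

include H hval in
theorem natCast_mem_maximalIdeal₁ (p : ℕ) [CharP k p] :
    ((p : ℕ) : R₁ D Γ P hT) ∈ maximalIdeal (R₁ D Γ P hT) :=
  SmoothRes.natCast_mem_maximalIdeal₁ H.hlift H.hL2 hT hval p

include H hval in
theorem exists_const_sub_mem₁ (hD : FixData2 R Γ) (r : R₁ D Γ P hT) :
    ∃ c : fixedSubring (A := A) Γ,
      r - algebraMap (fixedSubring (A := A) Γ) (R₁ D Γ P hT) c ∈ maximalIdeal (R₁ D Γ P hT) :=
  SmoothRes.exists_const_sub_mem₁ H.hlift H.hL2 hT hval hD r

include H in
/-- the residue field of `R_P` is `k`. -/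
def residueFieldEquiv₁ : ResidueField (R₁ D Γ P hT) ≃+* k :=
  SmoothRes.residueFieldEquiv₁ H.hlift H.hL2 hT hval

end First

section Second

variable [IsDedekindDomain D.B₂] [IsFractionRing D.B₂ E] {P : Place k E}
  (hT : D.T.2 ∈ P.toValuationSubring) (hval : HasValues D.B₂ P)

include H hval in
theorem isAlgClosed_residueField₂ [IsAlgClosed k] :
    IsAlgClosed (ResidueField (R₂ D Γ P hT)) :=
  SmoothRes.isAlgClosed_residueField₂ H.hlift H.hL2 hT hval

include H hval in
theorem charP_residueField₂ (p : ℕ) [CharP k p] : CharP (ResidueField (R₂ D Γ P hT)) p :=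
  SmoothRes.charP_residueField₂ H.hlift H.hL2 hT hval p

include H hval in
theorem natCast_mem_maximalIdeal₂ (p : ℕ) [CharP k p] :
    ((p : ℕ) : R₂ D Γ P hT) ∈ maximalIdeal (R₂ D Γ P hT) :=
  SmoothRes.natCast_mem_maximalIdeal₂ H.hlift H.hL2 hT hval p

include H hval in
theorem exists_const_sub_mem₂ (hD : FixData2 R Γ) (r : R₂ D Γ P hT) :
    ∃ c : fixedSubring (A := A) Γ,
      r - algebraMap (fixedSubring (A := A) Γ) (R₂ D Γ P hT) c ∈ maximalIdeal (R₂ D Γ P hT) :=
  SmoothRes.exists_const_sub_mem₂ H.hlift H.hL2 hT hval hD r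

include H in
/-- the residue field of `R_P` is `k`. -/
def residueFieldEquiv₂ : ResidueField (R₂ D Γ P hT) ≃+* k :=
  SmoothRes.residueFieldEquiv₂ H.hlift H.hL2 hT hval

end Second

end Hyp

/-! ### Inside the context bundle: both charts, both components, everything discharged -/

section Bundle

variable {K : Type*} [Field K] [IsAlgClosed K] [CharZero K] {A : ValuationSubring K}
  {F : Type*} [Field F] [Algebra K F] {S : SmallRing F}
  {k : Type*} [Field k] [IsAlgClosed k] {E : Type*} [Field E] [Algebra k E]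
  {R : RedSetup2 A S k (E × E)} {C : ChartCoord R} {p q : ℕ} {x : E} {Dt : Divisor K F}
  (h : Ctx R C p q x Dt) {Γ : Set (SemilinearAut K F)} (hG : CtxGal R C Γ)
  (hD : FixData2 R Γ) (hF : Submodule.span K {f : F | IsFixed Γ f} = ⊤)

/-! #### the chart `C` (`x ≠ ∞`) -/

section Self₁

variable [IsDedekindDomain C.B₁] [IsFractionRing C.B₁ E] {P : Place k E}
  (hT : C.T.1 ∈ P.toValuationSubring)

include h hG hD hF in
theorem isAlgClosed_residueField_self₁ : IsAlgClosed (ResidueField (R₁ C Γ P hT)) :=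
  isAlgClosed_residueField₁ (chartHyp_self h hG hD hF) hT (hasValues_B₁ h hT)

include h hG hD hF in
theorem natCast_mem_maximalIdeal_self₁ (p' : ℕ) [CharP k p'] :
    ((p' : ℕ) : R₁ C Γ P hT) ∈ maximalIdeal (R₁ C Γ P hT) :=
  natCast_mem_maximalIdeal₁ (chartHyp_self h hG hD hF) hT (hasValues_B₁ h hT) p'

include h hG hD hF in
theorem exists_const_sub_mem_self₁ (r : R₁ C Γ P hT) :
    ∃ c : fixedSubring (A := A) Γ,
      r - algebraMap (fixedSubring (A := A) Γ) (R₁ C Γ P hT) c ∈ maximalIdeal (R₁ C Γ P hT) :=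
  exists_const_sub_mem₁ (chartHyp_self h hG hD hF) hT (hasValues_B₁ h hT) hD r

end Self₁

section Self₂

variable [IsDedekindDomain C.B₂] [IsFractionRing C.B₂ E] {P : Place k E}
  (hT : C.T.2 ∈ P.toValuationSubring)

include h hG hD hF in
theorem isAlgClosed_residueField_self₂ : IsAlgClosed (ResidueField (R₂ C Γ P hT)) :=
  isAlgClosed_residueField₂ (chartHyp_self h hG hD hF) hT (hasValues_B₂ h hT)

include h hG hD hF in
theorem natCast_mem_maximalIdeal_self₂ (p' : ℕ) [CharP k p'] :
    ((p' : ℕ) : R₂ C Γ P hT) ∈ maximalIdeal (R₂ C Γ P hT) :=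
  natCast_mem_maximalIdeal₂ (chartHyp_self h hG hD hF) hT (hasValues_B₂ h hT) p'

include h hG hD hF in
theorem exists_const_sub_mem_self₂ (r : R₂ C Γ P hT) :
    ∃ c : fixedSubring (A := A) Γ,
      r - algebraMap (fixedSubring (A := A) Γ) (R₂ C Γ P hT) c ∈ maximalIdeal (R₂ C Γ P hT) :=
  exists_const_sub_mem₂ (chartHyp_self h hG hD hF) hT (hasValues_B₂ h hT) hD r

end Self₂

/-! #### the swapped chart `C.swap` (`x ≠ 0`; covers the cusps over `x = ∞`) -/

section Swap₁

variable [IsDedekindDomain C.swap.B₁] [IsFractionRing C.swap.B₁ E] {P : Place k E}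
  (hT : C.swap.T.1 ∈ P.toValuationSubring)

include h hG hD hF in
theorem isAlgClosed_residueField_swap₁ : IsAlgClosed (ResidueField (R₁ C.swap Γ P hT)) :=
  isAlgClosed_residueField₁ (chartHyp_swap h hG hD hF) hT (hasValues_swap_B₁ h hT)

include h hG hD hF in
theorem natCast_mem_maximalIdeal_swap₁ (p' : ℕ) [CharP k p'] :
    ((p' : ℕ) : R₁ C.swap Γ P hT) ∈ maximalIdeal (R₁ C.swap Γ P hT) :=
  natCast_mem_maximalIdeal₁ (chartHyp_swap h hG hD hF) hT (hasValues_swap_B₁ h hT) p'

include h hG hD hF in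
theorem exists_const_sub_mem_swap₁ (r : R₁ C.swap Γ P hT) :
    ∃ c : fixedSubring (A := A) Γ,
      r - algebraMap (fixedSubring (A := A) Γ) (R₁ C.swap Γ P hT) c ∈
        maximalIdeal (R₁ C.swap Γ P hT) :=
  exists_const_sub_mem₁ (chartHyp_swap h hG hD hF) hT (hasValues_swap_B₁ h hT) hD r

end Swap₁

section Swap₂

variable [IsDedekindDomain C.swap.B₂] [IsFractionRing C.swap.B₂ E] {P : Place k E}
  (hT : C.swap.T.2 ∈ P.toValuationSubring)

include h hG hD hF in
theorem isAlgClosed_residueField_swap₂ : IsAlgClosed (ResidueField (R₂ C.swap Γ P hT)) :=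
  isAlgClosed_residueField₂ (chartHyp_swap h hG hD hF) hT (hasValues_swap_B₂ h hT)

include h hG hD hF in
theorem natCast_mem_maximalIdeal_swap₂ (p' : ℕ) [CharP k p'] :
    ((p' : ℕ) : R₂ C.swap Γ P hT) ∈ maximalIdeal (R₂ C.swap Γ P hT) :=
  natCast_mem_maximalIdeal₂ (chartHyp_swap h hG hD hF) hT (hasValues_swap_B₂ h hT) p'

include h hG hD hF in
theorem exists_const_sub_mem_swap₂ (r : R₂ C.swap Γ P hT) :
    ∃ c : fixedSubring (A := A) Γ,
      r - algebraMap (fixedSubring (A := A) Γ) (R₂ C.swap Γ P hT) c ∈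
        maximalIdeal (R₂ C.swap Γ P hT) :=
  exists_const_sub_mem₂ (chartHyp_swap h hG hD hF) hT (hasValues_swap_B₂ h hT) hD r

end Swap₂

end Bundle

end Fermat.Agent.S40x.Node.SmoothResCtx
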