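import Fermat.Agent.S40x.Node.NodeOrdBridge
import Fermat.Agent.S40x.Node.SmoothCtxB
import Fermat.Agent.S40x.Node.Dense

/-!
# P-S44, seam R1 -> C3-SLOPE: the DOWNSTAIRS inputs of `smooth_slope_nodeOrd` (helper5)

`R2/Slope/NodeGlue.smooth_slope_nodeOrd` (helper41) takes, per smooth point (or cusp) and per side,
downstairs: `R₀`, `π₀ t₀ : R₀`, `hmax₀`, `hπ₀`, `hndvd₀`, `φ₀ : R₀ →+* F`, `hdense`, `hn3`.

Here `R₀ := SmoothInst.R₁ D Γ P hT = Localization.AtPrime (ptIdeal (phi P _ (rho1 D Γ)))` (resp.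
`R₂ D Γ P hT`) for a chart `D` (`D = C` or `D = C.swap`) of the two-valuation setting of
`Node/NodeValInst`, `π₀ := (p : R₀)`, `φ₀ := NodeOrdBridge.nodeEmb` (the SAME embedding through the
fixed field as for the node rings: it is defined for every prime of `B_0`).

* `redInfS_eq_of_forall`, `redZeroS_eq_of_forall` : the reduction of a localisation of `B_0` is
  determined by its values on `B_0`;
* `redInfS_eq_loc₁`, `redZeroS_eq_loc₂` : on `R_P` the reduction of `v_∞` (resp. `v_0`) is `loc`;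
* `hn3_smooth_inf`, `hn3_smooth_zero` : the literal `hn3` of `smooth_slope_nodeOrd`;
* `isAlgebraic_of_isFractionRing` : `E` is algebraic over `k[T]` as soon as it is the fraction
  field of the integral closure of `k[T]`;
* `smooth_input_inf`, `smooth_input_zero` : for a chart with `SmoothCtxB.ChartHyp` (helper92;
  discharged for `C` and `C.swap` inside the context bundle by `chartHyp_self`, `chartHyp_swap`):
  `∃ t, hmax₀ ∧ hπ₀ ∧ hndvd₀ ∧ hdense ∧ hn3` at every non-node place of the chart.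
-/

set_option autoImplicit false
set_option linter.unusedSectionVars false
set_option linter.style.haveILetI false

noncomputable section

namespace Fermat.Agent.S40x.Node.SmoothSlopeInput

open AlgebraicCurve IsLocalRing IntermediateField
open Fermat.Agent.S34x Fermat.Agent.S34x.C0two Fermat.Agent.S34x.Lattice2
open Fermat.Agent.S19x.Geo.LatticeFixed
open Fermat.Agent.S33x.H1.LatticeFixed2
open Fermat.Agent.S40x.Node Fermat.Agent.S40x.Node.NodeInst Fermat.Agent.S40x.Node.NodeFrac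
open Fermat.Agent.S40x.Node.NodeValInst Fermat.Agent.S40x.Node.NodeOrdBridge
open Fermat.Agent.S40x.Node.SmoothChart Fermat.Agent.S40x.Node.SmoothInst
open Fermat.Agent.S40x.Node.SmoothCtxB Fermat.Agent.S40x.Node.ValueGroupFixed
open Fermat.Agent.S40x.Node.Dense
open Fermat.Agent.S40x.R2.Slope (ordQ)
open Fermat.Agent.S40x.R2.SlopeB.PlaceInst (ordAt)

variable {K : Type*} [Field K] {A : ValuationSubring K} {F : Type*} [Field F] [Algebra K F]
  {V W : ValuationSubring F} {k E : Type*} [Field k] [Field E] [Algebra k E]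
  {Rd₁ : Gateway.C0.RedSetup A V k E} {Rd₂ : Gateway.C0.RedSetup A W k E} {hπ : Rd₁.π = Rd₂.π}
  {D : ChartCoord (redSetupTwoVal Rd₁ Rd₂ hπ)} {Γ : Set (SemilinearAut K F)}

theorem ord_nonneg_of_mem (P : Place k E) {y : E} (hy : y ∈ P.toValuationSubring) :
    0 ≤ P.ord y := by
  rcases eq_or_ne y 0 with h | h
  · rw [h, P.ord_zero]
  · exact (Fermat.Agent.S24.ZP.ord_nonneg_iff P h).mpr hy

/-! ### The reductions of a localisation of `B_0` -/

section Ext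

variable (m : Ideal (B0 D Γ)) [m.IsPrime]

/-- the reduction `R → E` of a localisation `R` of `B_0` at `v_∞` is determined on `B_0`. -/
theorem redInfS_eq_of_forall (hker1 : ∀ b : B0 D Γ, rho1 D Γ b = 0 → b ∈ m)
    (g : Localization.AtPrime m →+* E)
    (hg : ∀ b : B0 D Γ, g (algebraMap (B0 D Γ) (Localization.AtPrime m) b) =
      ((rho1 D Γ b : D.B₁) : E)) (r : Localization.AtPrime m) :
    redInfS (R₁ := Rd₁) m hker1 r = g r := by
  have : redInfS (R₁ := Rd₁) m hker1 = g := by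
    refine IsLocalization.ringHom_ext m.primeCompl ?_
    ext b
    rw [RingHom.comp_apply, RingHom.comp_apply, redInfS_algebraMap, hg]
  rw [this]

/-- the reduction `R → E` of a localisation `R` of `B_0` at `v_0` is determined on `B_0`. -/
theorem redZeroS_eq_of_forall (hker2 : ∀ b : B0 D Γ, rho2 D Γ b = 0 → b ∈ m)
    (g : Localization.AtPrime m →+* E)
    (hg : ∀ b : B0 D Γ, g (algebraMap (B0 D Γ) (Localization.AtPrime m) b) =
      ((rho2 D Γ b : D.B₂) : E)) (r : Localization.AtPrime m) :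
    redZeroS (R₂ := Rd₂) m hker2 r = g r := by
  have : redZeroS (R₂ := Rd₂) m hker2 = g := by
    refine IsLocalization.ringHom_ext m.primeCompl ?_
    ext b
    rw [RingHom.comp_apply, RingHom.comp_apply, redZeroS_algebraMap, hg]
  rw [this]

end Ext

/-! ### First component -/

section First

variable [IsDedekindDomain D.B₁] [IsFractionRing D.B₁ E]
  (P : Place k E) (hT : D.T.1 ∈ P.toValuationSubring)

/-- the prime of `B_0` at the point `P` of the first component. -/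
abbrev pt₁ : Ideal (B0 D Γ) := ptIdeal (phi P (algebraMap_B₁_mem P hT) (rho1 D Γ))

theorem hker1_pt (b : B0 D Γ) (hb : rho1 D Γ b = 0) : b ∈ pt₁ (Γ := Γ) P hT := by
  rw [mem_ptIdeal, (phi_eq_zero_iff P (algebraMap_B₁_mem P hT) (rho1 D Γ) b).mpr hb]
  exact Ideal.zero_mem _

/-- on `R_P` the reduction of `v_∞` is the reduction `loc₁` onto `O_P`. -/
theorem redInfS_eq_loc₁ (r : R₁ D Γ P hT) :
    redInfS (R₁ := Rd₁) (pt₁ (Γ := Γ) P hT) (hker1_pt P hT) r =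
      ((loc₁ D Γ P hT r : P.toValuationSubring) : E) :=
  redInfS_eq_of_forall (pt₁ (Γ := Γ) P hT) (hker1_pt P hT)
    (P.toValuationSubring.subtype.comp (loc₁ D Γ P hT))
    (fun b => coe_locP_algebraMap P (algebraMap_B₁_mem P hT) (rho1 D Γ) b) r

/-- **`hn3` at a smooth point, side `v_∞`** (literal of `smooth_slope_nodeOrd` with
`R₀ := R₁ D Γ P hT`, `(π₀, t₀) := (p, t)`, `φ₀ := nodeEmb`, `O := V`, `R := Rd₁`). -/
theorem hn3_smooth_inf [IsNoetherianRing (B0 D Γ)] {p : ℕ} {t : R₁ D Γ P hT}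
    (hsm : IsSmoothPtRing (R₁ D Γ P hT) p t) (hp : rho1 D Γ ((p : ℕ) : B0 D Γ) = 0)
    (ht : P.ord ((loc₁ D Γ P hT t : P.toValuationSubring) : E) = 1) :
    ∀ r : R₁ D Γ P hT, ¬ ((p : ℕ) : R₁ D Γ P hT) ∣ r →
      ordAt V Rd₁.res P (nodeEmb (pt₁ (Γ := Γ) P hT) r) = ordQ ((p : ℕ) : R₁ D Γ P hT) t r := by
  intro r hr
  have hcast : algebraMap (B0 D Γ) (R₁ D Γ P hT) ((p : ℕ) : B0 D Γ) = ((p : ℕ) : R₁ D Γ P hT) :=
    map_natCast _ p
  have hu : Rd₁.res ⟨nodeEmb (pt₁ (Γ := Γ) P hT) ((p : ℕ) : R₁ D Γ P hT),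
      nodeEmb_mem_V _ (hker1_pt P hT) _⟩ = 0 := by
    rw [res_nodeEmb _ (hker1_pt P hT), ← hcast, redInfS_algebraMap, hp]
    rfl
  have hP1 : ∀ y : R₁ D Γ P hT,
      0 ≤ P.ord (Rd₁.res ⟨nodeEmb (pt₁ (Γ := Γ) P hT) y, nodeEmb_mem_V _ (hker1_pt P hT) y⟩) := by
    intro y
    rw [res_nodeEmb _ (hker1_pt P hT), redInfS_eq_loc₁]
    exact ord_nonneg_of_mem P (loc₁ D Γ P hT y).2
  have hord : P.ord (Rd₁.res ⟨nodeEmb (pt₁ (Γ := Γ) P hT) t,
      nodeEmb_mem_V _ (hker1_pt P hT) t⟩) = 1 := by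
    rw [res_nodeEmb _ (hker1_pt P hT), redInfS_eq_loc₁]
    exact ht
  have key := @ordAt_eq_ordQ F _ k E _ _ _ V Rd₁.res P (R₁ D Γ P hT) _ _ _ _
    ((p : ℕ) : R₁ D Γ P hT) t hsm.maximalIdeal_eq hsm.prime_p hsm.not_dvd
    (nodeEmb (pt₁ (Γ := Γ) P hT)) (nodeEmb_mem_V _ (hker1_pt P hT)) hu hP1 hord r
  exact key hr

end First

/-! ### Second component -/

section Second

variable [IsDedekindDomain D.B₂] [IsFractionRing D.B₂ E]
  (P : Place k E) (hT : D.T.2 ∈ P.toValuationSubring)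

/-- the prime of `B_0` at the point `P` of the second component. -/
abbrev pt₂ : Ideal (B0 D Γ) := ptIdeal (phi P (algebraMap_B₂_mem P hT) (rho2 D Γ))

theorem hker2_pt (b : B0 D Γ) (hb : rho2 D Γ b = 0) : b ∈ pt₂ (Γ := Γ) P hT := by
  rw [mem_ptIdeal, (phi_eq_zero_iff P (algebraMap_B₂_mem P hT) (rho2 D Γ) b).mpr hb]
  exact Ideal.zero_mem _

/-- on `R_P` the reduction of `v_0` is the reduction `loc₂` onto `O_P`. -/
theorem redZeroS_eq_loc₂ (r : R₂ D Γ P hT) :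
    redZeroS (R₂ := Rd₂) (pt₂ (Γ := Γ) P hT) (hker2_pt P hT) r =
      ((loc₂ D Γ P hT r : P.toValuationSubring) : E) :=
  redZeroS_eq_of_forall (pt₂ (Γ := Γ) P hT) (hker2_pt P hT)
    (P.toValuationSubring.subtype.comp (loc₂ D Γ P hT))
    (fun b => coe_locP_algebraMap P (algebraMap_B₂_mem P hT) (rho2 D Γ) b) r

/-- **`hn3` at a smooth point, side `v_0`** (`R₀ := R₂ D Γ P hT`, `(π₀, t₀) := (p, t)`,
`φ₀ := nodeEmb`, `O := W`, `R := Rd₂`). -/
theorem hn3_smooth_zero [IsNoetherianRing (B0 D Γ)] {p : ℕ} {t : R₂ D Γ P hT}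
    (hsm : IsSmoothPtRing (R₂ D Γ P hT) p t) (hp : rho2 D Γ ((p : ℕ) : B0 D Γ) = 0)
    (ht : P.ord ((loc₂ D Γ P hT t : P.toValuationSubring) : E) = 1) :
    ∀ r : R₂ D Γ P hT, ¬ ((p : ℕ) : R₂ D Γ P hT) ∣ r →
      ordAt W Rd₂.res P (nodeEmb (pt₂ (Γ := Γ) P hT) r) = ordQ ((p : ℕ) : R₂ D Γ P hT) t r := by
  intro r hr
  have hcast : algebraMap (B0 D Γ) (R₂ D Γ P hT) ((p : ℕ) : B0 D Γ) = ((p : ℕ) : R₂ D Γ P hT) :=
    map_natCast _ p
  have hu : Rd₂.res ⟨nodeEmb (pt₂ (Γ := Γ) P hT) ((p : ℕ) : R₂ D Γ P hT),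
      nodeEmb_mem_W _ (hker2_pt P hT) _⟩ = 0 := by
    rw [res_nodeEmb_zero _ (hker2_pt P hT), ← hcast, redZeroS_algebraMap, hp]
    rfl
  have hP1 : ∀ y : R₂ D Γ P hT,
      0 ≤ P.ord (Rd₂.res ⟨nodeEmb (pt₂ (Γ := Γ) P hT) y, nodeEmb_mem_W _ (hker2_pt P hT) y⟩) := by
    intro y
    rw [res_nodeEmb_zero _ (hker2_pt P hT), redZeroS_eq_loc₂]
    exact ord_nonneg_of_mem P (loc₂ D Γ P hT y).2
  have hord : P.ord (Rd₂.res ⟨nodeEmb (pt₂ (Γ := Γ) P hT) t,
      nodeEmb_mem_W _ (hker2_pt P hT) t⟩) = 1 := by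
    rw [res_nodeEmb_zero _ (hker2_pt P hT), redZeroS_eq_loc₂]
    exact ht
  have key := @ordAt_eq_ordQ F _ k E _ _ _ W Rd₂.res P (R₂ D Γ P hT) _ _ _ _
    ((p : ℕ) : R₂ D Γ P hT) t hsm.maximalIdeal_eq hsm.prime_p hsm.not_dvd
    (nodeEmb (pt₂ (Γ := Γ) P hT)) (nodeEmb_mem_W _ (hker2_pt P hT)) hu hP1 hord r
  exact key hr

end Second

/-! ### (D) for a localisation of `B_0`, from the chart -/

section DenseChart

variable (m : Ideal (B0 D Γ)) [m.IsPrime]

theorem range_nodeEmb_ge' (f : F) (hf : f ∈ B0 D Γ) :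
    f ∈ RingHom.range (R := Localization.AtPrime m) (S := F) (nodeEmb m) :=
  ⟨algebraMap (B0 D Γ) (Localization.AtPrime m) ⟨f, hf⟩, nodeEmb_algebraMap m ⟨f, hf⟩⟩

/-- `E` is algebraic over `k[T₁]` as soon as it is the fraction field of `B₁`. -/
theorem isAlgebraic_of_frac₁ [IsFractionRing D.B₁ E] (z : E) :
    IsAlgebraic (Algebra.adjoin k {D.T.1}) z := by
  obtain ⟨a, b, -, rfl⟩ := IsFractionRing.div_surjective (A := D.B₁) z
  have ha : IsIntegral (Algebra.adjoin k {D.T.1}) (a : E) := D.mem_B₁_iff.mp a.2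
  have hb : IsIntegral (Algebra.adjoin k {D.T.1}) (b : E) := D.mem_B₁_iff.mp b.2
  have e : algebraMap D.B₁ E a / algebraMap D.B₁ E b = (a : E) * (b : E)⁻¹ := div_eq_mul_inv _ _
  rw [e]
  exact ha.isAlgebraic.mul hb.isAlgebraic.inv

/-- `E` is algebraic over `k[T₂]` as soon as it is the fraction field of `B₂`. -/
theorem isAlgebraic_of_frac₂ [IsFractionRing D.B₂ E] (z : E) :
    IsAlgebraic (Algebra.adjoin k {D.T.2}) z := by
  obtain ⟨a, b, -, rfl⟩ := IsFractionRing.div_surjective (A := D.B₂) z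
  have ha : IsIntegral (Algebra.adjoin k {D.T.2}) (a : E) := D.mem_B₂_iff.mp a.2
  have hb : IsIntegral (Algebra.adjoin k {D.T.2}) (b : E) := D.mem_B₂_iff.mp b.2
  have e : algebraMap D.B₂ E a / algebraMap D.B₂ E b = (a : E) * (b : E)⁻¹ := div_eq_mul_inv _ _
  rw [e]
  exact ha.isAlgebraic.mul hb.isAlgebraic.inv

/-- **(D) at `v_∞`** for every localisation of the fixed chart ring of a chart `D`. -/
theorem hdense_chart_inf (hl : HasFixedLifts D Γ) (hL2 : D.IsL2) [IsFractionRing D.B₁ E] :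
    ∀ x : F, V.valuation x = 1 →
      ∃ r1 ∈ RingHom.range (R := Localization.AtPrime m) (S := F) (nodeEmb m),
      ∃ r2 ∈ RingHom.range (R := Localization.AtPrime m) (S := F) (nodeEmb m),
        V.valuation r1 = 1 ∧ V.valuation r2 = 1 ∧ V.valuation (x * r2 - r1) < 1 := by
  refine dense_of_res Rd₁
    (RingHom.range (R := Localization.AtPrime m) (S := F) (nodeEmb m) : Set F) fun xbar => ?_
  obtain ⟨r1, r2, h1, h2, hr1, hr2, hne, heq⟩ := dense_fst hl hL2 isAlgebraic_of_frac₁ xbar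
  exact ⟨r1, r2, h1.1, h2.1, range_nodeEmb_ge' m r1 hr1, range_nodeEmb_ge' m r2 hr2, hne, heq⟩

/-- **(D) at `v_0`** for every localisation of the fixed chart ring of a chart `D`. -/
theorem hdense_chart_zero (hl : HasFixedLifts D Γ) (hL2 : D.IsL2) [IsFractionRing D.B₂ E] :
    ∀ x : F, W.valuation x = 1 →
      ∃ r1 ∈ RingHom.range (R := Localization.AtPrime m) (S := F) (nodeEmb m),
      ∃ r2 ∈ RingHom.range (R := Localization.AtPrime m) (S := F) (nodeEmb m),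
        W.valuation r1 = 1 ∧ W.valuation r2 = 1 ∧ W.valuation (x * r2 - r1) < 1 := by
  refine dense_of_res Rd₂
    (RingHom.range (R := Localization.AtPrime m) (S := F) (nodeEmb m) : Set F) fun xbar => ?_
  obtain ⟨r1, r2, h1, h2, hr1, hr2, hne, heq⟩ := dense_snd hl hL2 isAlgebraic_of_frac₂ xbar
  exact ⟨r1, r2, h1.2, h2.2, range_nodeEmb_ge' m r1 hr1, range_nodeEmb_ge' m r2 hr2, hne, heq⟩

end DenseChart

/-! ### The package at a non-node place of a chart with `ChartHyp` -/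

section Package

/-- **all the downstairs inputs of `smooth_slope_nodeOrd`, side `v_∞`**, at a non-node place
`P` of the first component lying on the chart `D`. -/
theorem smooth_input_inf (H : ChartHyp (redSetupTwoVal Rd₁ Rd₂ hπ) D Γ)
    (hD : FixData2 (redSetupTwoVal Rd₁ Rd₂ hπ) Γ) {ϖ : A} (hU : IsUnif Γ ϖ) {p : ℕ}
    (hϖp : (ϖ : K) = (p : K)) {P : Place k E} (hT : D.T.1 ∈ P.toValuationSubring)
    (hP : IsNonNode₁ D P) :
    haveI := H.noeth
    haveI := H.ded₁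
    haveI := H.frac₁
    ∃ t : R₁ D Γ P hT,
      maximalIdeal (R₁ D Γ P hT) = Ideal.span {((p : ℕ) : R₁ D Γ P hT), t} ∧
      Prime ((p : ℕ) : R₁ D Γ P hT) ∧ ¬ ((p : ℕ) : R₁ D Γ P hT) ∣ t ∧
      (∀ y : F, V.valuation y = 1 →
        ∃ r1 ∈ RingHom.range (R := R₁ D Γ P hT) (S := F) (nodeEmb (pt₁ (Γ := Γ) P hT)),
        ∃ r2 ∈ RingHom.range (R := R₁ D Γ P hT) (S := F) (nodeEmb (pt₁ (Γ := Γ) P hT)),
          V.valuation r1 = 1 ∧ V.valuation r2 = 1 ∧ V.valuation (y * r2 - r1) < 1) ∧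
      ∀ r : R₁ D Γ P hT, ¬ ((p : ℕ) : R₁ D Γ P hT) ∣ r →
        ordAt V Rd₁.res P (nodeEmb (pt₁ (Γ := Γ) P hT) r) =
          ordQ ((p : ℕ) : R₁ D Γ P hT) t r := by
  haveI := H.noeth
  haveI := H.ded₁
  haveI := H.frac₁
  obtain ⟨t, hsm, -, ht⟩ := SmoothCtxB.exists_isSmoothPtRing₁ H hD hU hϖp hT hP
  have hp : rho1 D Γ ((p : ℕ) : B0 D Γ) = 0 := by
    rw [← unifB_eq_natCast (C := D) hU.fixed hϖp]
    exact rho1_unifB hU.fixed hU.mem
  exact ⟨t, hsm.maximalIdeal_eq, hsm.prime_p, hsm.not_dvd,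
    hdense_chart_inf (pt₁ (Γ := Γ) P hT) H.hlift H.hL2, hn3_smooth_inf P hT hsm hp ht⟩

/-- **all the downstairs inputs of `smooth_slope_nodeOrd`, side `v_0`**, at a non-node place
`P` of the second component lying on the chart `D`. -/
theorem smooth_input_zero (H : ChartHyp (redSetupTwoVal Rd₁ Rd₂ hπ) D Γ)
    (hD : FixData2 (redSetupTwoVal Rd₁ Rd₂ hπ) Γ) {ϖ : A} (hU : IsUnif Γ ϖ) {p : ℕ}
    (hϖp : (ϖ : K) = (p : K)) {P : Place k E} (hT : D.T.2 ∈ P.toValuationSubring)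
    (hP : IsNonNode₂ D P) :
    haveI := H.noeth
    haveI := H.ded₂
    haveI := H.frac₂
    ∃ t : R₂ D Γ P hT,
      maximalIdeal (R₂ D Γ P hT) = Ideal.span {((p : ℕ) : R₂ D Γ P hT), t} ∧
      Prime ((p : ℕ) : R₂ D Γ P hT) ∧ ¬ ((p : ℕ) : R₂ D Γ P hT) ∣ t ∧
      (∀ y : F, W.valuation y = 1 →
        ∃ r1 ∈ RingHom.range (R := R₂ D Γ P hT) (S := F) (nodeEmb (pt₂ (Γ := Γ) P hT)),
        ∃ r2 ∈ RingHom.range (R := R₂ D Γ P hT) (S := F) (nodeEmb (pt₂ (Γ := Γ) P hT)),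
          W.valuation r1 = 1 ∧ W.valuation r2 = 1 ∧ W.valuation (y * r2 - r1) < 1) ∧
      ∀ r : R₂ D Γ P hT, ¬ ((p : ℕ) : R₂ D Γ P hT) ∣ r →
        ordAt W Rd₂.res P (nodeEmb (pt₂ (Γ := Γ) P hT) r) =
          ordQ ((p : ℕ) : R₂ D Γ P hT) t r := by
  haveI := H.noeth
  haveI := H.ded₂
  haveI := H.frac₂
  obtain ⟨t, hsm, -, ht⟩ := SmoothCtxB.exists_isSmoothPtRing₂ H hD hU hϖp hT hP
  have hp : rho2 D Γ ((p : ℕ) : B0 D Γ) = 0 := by
    rw [← unifB_eq_natCast (C := D) hU.fixed hϖp]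
    exact rho2_unifB hU.fixed hU.mem
  exact ⟨t, hsm.maximalIdeal_eq, hsm.prime_p, hsm.not_dvd,
    hdense_chart_zero (pt₂ (Γ := Γ) P hT) H.hlift H.hL2, hn3_smooth_zero P hT hsm hp ht⟩

end Package

end Fermat.Agent.S40x.Node.SmoothSlopeInput

end
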