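import Fermat.Agent.S40x.Node.SmoothSlopeInput

/-!
# P-S44, seam R1 -> C3-SLOPE: the valuation companions `hRO`, `hOp`, `hOt` (helper5)

Companions of `Node/SmoothSlopeInput` and `Node/NodeSlopeInput` asked for by the consumers
`R2/Asm/PlaceMqB.smooth_inf_Mq / smooth_zero_Mq / node_inf_Mq / node_zero_Mq` (helper41):

* generic, for every prime `m ⊇ ker rho1` of the fixed chart ring `B_0` and
  `φ₀ := NodeOrdBridge.nodeEmb m : (B_0)_m →+* F`:
  `valuation_nodeEmb_lt_one_iff` (`v_∞ (φ₀ r) < 1 ↔ redInfS r = 0`),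
  `valuation_nodeEmb_eq_one_iff` (`v_∞ (φ₀ r) = 1 ↔ redInfS r ≠ 0`), and the `v_0` twins;
  `valuation_nodeEmb_algebraMap_lt_one` (`rho1 b = 0 → v_∞ (φ₀ (j b)) < 1`: `hOu`, `hOp`),
  `valuation_nodeEmb_algebraMap_eq_one` (`rho1 b ≠ 0 → v_∞ (φ₀ (j b)) = 1`: `hOu'`);
* at a smooth point: `hOp_inf`, `hOt_inf`, `hOp_zero`, `hOt_zero`;
* `smooth_input_inf'`, `smooth_input_zero'` : `∃ t, IsSmoothPtRing R_P p t ∧ hOp ∧ hOt ∧ hdense ∧ hn3`.
-/

set_option autoImplicit false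
set_option linter.unusedSectionVars false
set_option linter.style.haveILetI false

noncomputable section

namespace Fermat.Agent.S40x.Node.SmoothSlopeVal

open AlgebraicCurve IsLocalRing IntermediateField
open Fermat.Agent.S34x Fermat.Agent.S34x.C0two Fermat.Agent.S34x.Lattice2
open Fermat.Agent.S19x.Geo.LatticeFixed
open Fermat.Agent.S33x.H1.LatticeFixed2
open Fermat.Agent.S40x.Node Fermat.Agent.S40x.Node.NodeInst Fermat.Agent.S40x.Node.NodeFrac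
open Fermat.Agent.S40x.Node.NodeValInst Fermat.Agent.S40x.Node.NodeOrdBridge
open Fermat.Agent.S40x.Node.SmoothChart Fermat.Agent.S40x.Node.SmoothInst
open Fermat.Agent.S40x.Node.SmoothCtxB Fermat.Agent.S40x.Node.ValueGroupFixed
open Fermat.Agent.S40x.Node.SmoothSlopeInput
open Fermat.Agent.S40x.R2.Slope (ordQ)
open Fermat.Agent.S40x.R2.SlopeB.PlaceInst (ordAt)

variable {K : Type*} [Field K] {A : ValuationSubring K} {F : Type*} [Field F] [Algebra K F]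
  {V W : ValuationSubring F} {k E : Type*} [Field k] [Field E] [Algebra k E]
  {Rd₁ : Gateway.C0.RedSetup A V k E} {Rd₂ : Gateway.C0.RedSetup A W k E} {hπ : Rd₁.π = Rd₂.π}
  {D : ChartCoord (redSetupTwoVal Rd₁ Rd₂ hπ)} {Γ : Set (SemilinearAut K F)}

/-! ### Generic: valuations of the image of a localisation of `B_0` -/

section Generic

variable (m : Ideal (B0 D Γ)) [m.IsPrime]
  (hker1 : ∀ b : B0 D Γ, rho1 D Γ b = 0 → b ∈ m) (hker2 : ∀ b : B0 D Γ, rho2 D Γ b = 0 → b ∈ m)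

theorem valuation_nodeEmb_lt_one_iff (r : Localization.AtPrime m) :
    V.valuation (nodeEmb m r) < 1 ↔ redInfS (R₁ := Rd₁) m hker1 r = 0 := by
  rw [← res_nodeEmb m hker1, Rd₁.res_ker]

theorem valuation_nodeEmb_eq_one_iff (r : Localization.AtPrime m) :
    V.valuation (nodeEmb m r) = 1 ↔ redInfS (R₁ := Rd₁) m hker1 r ≠ 0 := by
  rw [Ne, ← valuation_nodeEmb_lt_one_iff m hker1, not_lt]
  have hle : V.valuation (nodeEmb m r) ≤ 1 :=
    (V.valuation_le_one_iff _).mpr (nodeEmb_mem_V m hker1 r)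
  exact ⟨fun h => h.ge, fun h => le_antisymm hle h⟩

theorem valuation_nodeEmb_zero_lt_one_iff (r : Localization.AtPrime m) :
    W.valuation (nodeEmb m r) < 1 ↔ redZeroS (R₂ := Rd₂) m hker2 r = 0 := by
  rw [← res_nodeEmb_zero m hker2, Rd₂.res_ker]

theorem valuation_nodeEmb_zero_eq_one_iff (r : Localization.AtPrime m) :
    W.valuation (nodeEmb m r) = 1 ↔ redZeroS (R₂ := Rd₂) m hker2 r ≠ 0 := by
  rw [Ne, ← valuation_nodeEmb_zero_lt_one_iff m hker2, not_lt]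
  have hle : W.valuation (nodeEmb m r) ≤ 1 :=
    (W.valuation_le_one_iff _).mpr (nodeEmb_mem_W m hker2 r)
  exact ⟨fun h => h.ge, fun h => le_antisymm hle h⟩

include hker1 in
/-- `hOu`, `hOp`: an element of `B_0` with zero first reduction lies in the maximal ideal of
`v_∞`. -/
theorem valuation_nodeEmb_algebraMap_lt_one {b : B0 D Γ} (hb : rho1 D Γ b = 0) :
    V.valuation (nodeEmb m (algebraMap (B0 D Γ) (Localization.AtPrime m) b)) < 1 := by
  rw [valuation_nodeEmb_lt_one_iff (Rd₁ := Rd₁) m hker1, redInfS_algebraMap, hb]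
  rfl

include hker1 in
/-- `hOu'`: an element of `B_0` with non-zero first reduction is a unit of `v_∞`. -/
theorem valuation_nodeEmb_algebraMap_eq_one {b : B0 D Γ} (hb : rho1 D Γ b ≠ 0) :
    V.valuation (nodeEmb m (algebraMap (B0 D Γ) (Localization.AtPrime m) b)) = 1 := by
  rw [valuation_nodeEmb_eq_one_iff (Rd₁ := Rd₁) m hker1, redInfS_algebraMap]
  exact fun h0 => hb (Subtype.ext h0)

include hker2 in
/-- the `v_0` twin of `valuation_nodeEmb_algebraMap_lt_one`. -/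
theorem valuation_nodeEmb_zero_algebraMap_lt_one {b : B0 D Γ} (hb : rho2 D Γ b = 0) :
    W.valuation (nodeEmb m (algebraMap (B0 D Γ) (Localization.AtPrime m) b)) < 1 := by
  rw [valuation_nodeEmb_zero_lt_one_iff (Rd₂ := Rd₂) m hker2, redZeroS_algebraMap, hb]
  rfl

include hker2 in
/-- the `v_0` twin of `valuation_nodeEmb_algebraMap_eq_one`. -/
theorem valuation_nodeEmb_zero_algebraMap_eq_one {b : B0 D Γ} (hb : rho2 D Γ b ≠ 0) :
    W.valuation (nodeEmb m (algebraMap (B0 D Γ) (Localization.AtPrime m) b)) = 1 := by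
  rw [valuation_nodeEmb_zero_eq_one_iff (Rd₂ := Rd₂) m hker2, redZeroS_algebraMap]
  exact fun h0 => hb (Subtype.ext h0)

end Generic

/-! ### At a smooth point of the first component -/

section First

variable [IsDedekindDomain D.B₁] [IsFractionRing D.B₁ E]
  (P : Place k E) (hT : D.T.1 ∈ P.toValuationSubring)

/-- `hOp`, side `v_∞`. -/
theorem hOp_inf {p : ℕ} (hp : rho1 D Γ ((p : ℕ) : B0 D Γ) = 0) :
    V.valuation (nodeEmb (pt₁ (Γ := Γ) P hT) ((p : ℕ) : R₁ D Γ P hT)) < 1 := by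
  have hcast : algebraMap (B0 D Γ) (R₁ D Γ P hT) ((p : ℕ) : B0 D Γ) = ((p : ℕ) : R₁ D Γ P hT) :=
    map_natCast _ p
  rw [← hcast]
  exact valuation_nodeEmb_algebraMap_lt_one (Rd₁ := Rd₁) (pt₁ (Γ := Γ) P hT) (hker1_pt P hT) hp

/-- `hOt`, side `v_∞`. -/
theorem hOt_inf {t : R₁ D Γ P hT}
    (ht : P.ord ((loc₁ D Γ P hT t : P.toValuationSubring) : E) = 1) :
    V.valuation (nodeEmb (pt₁ (Γ := Γ) P hT) t) = 1 := by
  rw [valuation_nodeEmb_eq_one_iff (Rd₁ := Rd₁) (pt₁ (Γ := Γ) P hT) (hker1_pt P hT),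
    redInfS_eq_loc₁]
  intro h0
  rw [h0, P.ord_zero] at ht
  exact zero_ne_one ht

end First

/-! ### At a smooth point of the second component -/

section Second

variable [IsDedekindDomain D.B₂] [IsFractionRing D.B₂ E]
  (P : Place k E) (hT : D.T.2 ∈ P.toValuationSubring)

/-- `hOp`, side `v_0`. -/
theorem hOp_zero {p : ℕ} (hp : rho2 D Γ ((p : ℕ) : B0 D Γ) = 0) :
    W.valuation (nodeEmb (pt₂ (Γ := Γ) P hT) ((p : ℕ) : R₂ D Γ P hT)) < 1 := by
  have hcast : algebraMap (B0 D Γ) (R₂ D Γ P hT) ((p : ℕ) : B0 D Γ) = ((p : ℕ) : R₂ D Γ P hT) :=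
    map_natCast _ p
  rw [← hcast]
  exact valuation_nodeEmb_zero_algebraMap_lt_one (Rd₂ := Rd₂) (pt₂ (Γ := Γ) P hT)
    (hker2_pt P hT) hp

/-- `hOt`, side `v_0`. -/
theorem hOt_zero {t : R₂ D Γ P hT}
    (ht : P.ord ((loc₂ D Γ P hT t : P.toValuationSubring) : E) = 1) :
    W.valuation (nodeEmb (pt₂ (Γ := Γ) P hT) t) = 1 := by
  rw [valuation_nodeEmb_zero_eq_one_iff (Rd₂ := Rd₂) (pt₂ (Γ := Γ) P hT) (hker2_pt P hT),
    redZeroS_eq_loc₂]
  intro h0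
  rw [h0, P.ord_zero] at ht
  exact zero_ne_one ht

end Second

/-! ### The package with the valuation companions -/

section Package

/-- **all the downstairs inputs of `smooth_slope_nodeOrd` / `PlaceMqB.smooth_inf_Mq`, side `v_∞`**:
`∃ t, IsSmoothPtRing R_P p t ∧ hOp ∧ hOt ∧ hdense ∧ hn3` (`hRO = nodeEmb_mem_V`). -/
theorem smooth_input_inf' (H : ChartHyp (redSetupTwoVal Rd₁ Rd₂ hπ) D Γ)
    (hD : FixData2 (redSetupTwoVal Rd₁ Rd₂ hπ) Γ) {ϖ : A} (hU : IsUnif Γ ϖ) {p : ℕ}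
    (hϖp : (ϖ : K) = (p : K)) {P : Place k E} (hT : D.T.1 ∈ P.toValuationSubring)
    (hP : IsNonNode₁ D P) :
    haveI := H.noeth
    haveI := H.ded₁
    haveI := H.frac₁
    ∃ t : R₁ D Γ P hT, IsSmoothPtRing (R₁ D Γ P hT) p t ∧
      V.valuation (nodeEmb (pt₁ (Γ := Γ) P hT) ((p : ℕ) : R₁ D Γ P hT)) < 1 ∧
      V.valuation (nodeEmb (pt₁ (Γ := Γ) P hT) t) = 1 ∧
      (∀ y : F, V.valuation y = 1 →
        ∃ r1 ∈ RingHom.range (R := R₁ D Γ P hT) (S := F) (nodeEmb (pt₁ (Γ := Γ) P hT)),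
        ∃ r2 ∈ RingHom.range (R := R₁ D Γ P hT) (S := F) (nodeEmb (pt₁ (Γ := Γ) P hT)),
          V.valuation r1 = 1 ∧ V.valuation r2 = 1 ∧ V.valuation (y * r2 - r1) < 1) ∧
      ∀ r : R₁ D Γ P hT, ¬ ((p : ℕ) : R₁ D Γ P hT) ∣ r →
        ordAt V Rd₁.res P (nodeEmb (pt₁ (Γ := Γ) P hT) r) =
          ordQ ((p : ℕ) : R₁ D Γ P hT) t r := by
  haveI := H.noeth
  haveI := H.ded₁
  haveI := H.frac₁
  obtain ⟨t, hsm, -, ht⟩ := SmoothCtxB.exists_isSmoothPtRing₁ H hD hU hϖp hT hP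
  have hp : rho1 D Γ ((p : ℕ) : B0 D Γ) = 0 := by
    rw [← unifB_eq_natCast (C := D) hU.fixed hϖp]
    exact rho1_unifB hU.fixed hU.mem
  exact ⟨t, hsm, hOp_inf P hT hp, hOt_inf P hT ht,
    hdense_chart_inf (pt₁ (Γ := Γ) P hT) H.hlift H.hL2, hn3_smooth_inf P hT hsm hp ht⟩

/-- **all the downstairs inputs of `smooth_slope_nodeOrd` / `PlaceMqB.smooth_zero_Mq`, side
`v_0`**. -/
theorem smooth_input_zero' (H : ChartHyp (redSetupTwoVal Rd₁ Rd₂ hπ) D Γ)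
    (hD : FixData2 (redSetupTwoVal Rd₁ Rd₂ hπ) Γ) {ϖ : A} (hU : IsUnif Γ ϖ) {p : ℕ}
    (hϖp : (ϖ : K) = (p : K)) {P : Place k E} (hT : D.T.2 ∈ P.toValuationSubring)
    (hP : IsNonNode₂ D P) :
    haveI := H.noeth
    haveI := H.ded₂
    haveI := H.frac₂
    ∃ t : R₂ D Γ P hT, IsSmoothPtRing (R₂ D Γ P hT) p t ∧
      W.valuation (nodeEmb (pt₂ (Γ := Γ) P hT) ((p : ℕ) : R₂ D Γ P hT)) < 1 ∧
      W.valuation (nodeEmb (pt₂ (Γ := Γ) P hT) t) = 1 ∧
      (∀ y : F, W.valuation y = 1 →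
        ∃ r1 ∈ RingHom.range (R := R₂ D Γ P hT) (S := F) (nodeEmb (pt₂ (Γ := Γ) P hT)),
        ∃ r2 ∈ RingHom.range (R := R₂ D Γ P hT) (S := F) (nodeEmb (pt₂ (Γ := Γ) P hT)),
          W.valuation r1 = 1 ∧ W.valuation r2 = 1 ∧ W.valuation (y * r2 - r1) < 1) ∧
      ∀ r : R₂ D Γ P hT, ¬ ((p : ℕ) : R₂ D Γ P hT) ∣ r →
        ordAt W Rd₂.res P (nodeEmb (pt₂ (Γ := Γ) P hT) r) =
          ordQ ((p : ℕ) : R₂ D Γ P hT) t r := by
  haveI := H.noeth
  haveI := H.ded₂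
  haveI := H.frac₂
  obtain ⟨t, hsm, -, ht⟩ := SmoothCtxB.exists_isSmoothPtRing₂ H hD hU hϖp hT hP
  have hp : rho2 D Γ ((p : ℕ) : B0 D Γ) = 0 := by
    rw [← unifB_eq_natCast (C := D) hU.fixed hϖp]
    exact rho2_unifB hU.fixed hU.mem
  exact ⟨t, hsm, hOp_zero P hT hp, hOt_zero P hT ht,
    hdense_chart_zero (pt₂ (Γ := Γ) P hT) H.hlift H.hL2, hn3_smooth_zero P hT hsm hp ht⟩

end Package

end Fermat.Agent.S40x.Node.SmoothSlopeVal

end
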