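import Fermat.Agent.S40x.Node.NodeInst

/-!
# P-S44, block R1: the seam between the T-block (thickness) and the N-block (node rings) (helper35)

The T-block (`S40x/Thick`, T-lead helper73) delivers, at level `p M''`, ONE Bezout identity
`E + b * Ψ + E' = 1` in the BIG chart ring `BooAlg C` (over `A`, no Galois invariance of `E, b, E'`),
with `ρ₀ E = 0` and `ρ_∞ E' = 0`.  The N-block (`Node/NodeInst`, helper50) works in the `Γ`-fixed
chart ring `B0 C Γ` and needs `Ψ ∉ nodeIdeal s` for every node `s`.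

* `resBig C : BooAlg C →+* C.B₁ × C.B₂` : the reduction of the big chart ring, with values in the
  glue ring (`resBig_mem_BbarT`), compatible with `NodeInst.rho` (`resBig_incl`);
* `chi1_resBig_eq` : the two characters of a node agree on reductions of the big chart ring;
* **`not_mem_nodeIdeal_of_bezout`** : the seam lemma, element form;
* `not_mem_nodeIdeal_of_bezout'` : the same with `E, b, E'` given as elements of `F`.

No Galois-fixed Bezout identity is needed.
-/

set_option autoImplicit false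
set_option linter.unusedSectionVars false
set_option linter.style.haveILetI false

noncomputable section

namespace Fermat.Agent.S40x.Node.ThickSeam

open AlgebraicCurve IsLocalRing Module
open Fermat.Agent.S34x Fermat.Agent.S34x.C0two Fermat.Agent.S34x.Lattice2
open Fermat.Agent.S19x.Geo.LatticeFixed
open Fermat.Agent.S33x.H1.LatticeFixed2 Fermat.Agent.S33x.H1.FixedDecomp
open Fermat.Agent.S33x.H1 Fermat.Agent.S33x.H1.InstC1 Fermat.Agent.S33x.W.InstW
open Fermat.Agent.S40x.Node.NodeInst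

variable {K : Type*} [Field K] {A : ValuationSubring K} {F : Type*} [Field F] [Algebra K F]
  {S : SmallRing F} {k κ₁ κ₂ : Type*} [Field k] [CommRing κ₁] [CommRing κ₂] [Algebra k κ₁]
  [Algebra k κ₂] {R : RedSetup2 A S k (κ₁ × κ₂)} (C : ChartCoord R)
  (Γ : Set (SemilinearAut K F))

/-! ### The reduction of the big chart ring -/

variable {C}

theorem coe_mem_O_big (x : InstC4.BooAlg C) : (x : F) ∈ S.O := by
  obtain ⟨b, hb⟩ := (InstC4.mem_BooAlg C).mp x.2
  exact hb.2

theorem exists_mem_LN_big (x : InstC4.BooAlg C) : ∃ b, (x : F) ∈ C.LN 0 b := by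
  obtain ⟨b, hb⟩ := (InstC4.mem_BooAlg C).mp x.2
  exact ⟨b, hb.1⟩

variable (C)

/-- the inclusion `BooAlg C → S.O`. -/
def toOBig : InstC4.BooAlg C →+* S.O where
  toFun x := ⟨(x : F), coe_mem_O_big x⟩
  map_one' := rfl
  map_mul' _ _ := rfl
  map_zero' := rfl
  map_add' _ _ := rfl

/-- the reduction `BooAlg C → κ₁ × κ₂`. -/
def resBig0 : InstC4.BooAlg C →+* κ₁ × κ₂ := R.res.comp (toOBig C)

variable {C}

theorem resBig0_apply (x : InstC4.BooAlg C) :
    resBig0 C x = R.res ⟨(x : F), coe_mem_O_big x⟩ := rfl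

theorem resBig0_mem_Bbar (x : InstC4.BooAlg C) : resBig0 C x ∈ C.Bbar := by
  obtain ⟨b, hb⟩ := exists_mem_LN_big x
  exact C.res_mem_Bbar (coe_mem_O_big x) hb

theorem resBig0_fst_mem (x : InstC4.BooAlg C) : (resBig0 C x).1 ∈ C.B₁ :=
  (C.mem_Btilde_iff_prod.mp (C.Bbar_le_Btilde (resBig0_mem_Bbar x))).1

theorem resBig0_snd_mem (x : InstC4.BooAlg C) : (resBig0 C x).2 ∈ C.B₂ :=
  (C.mem_Btilde_iff_prod.mp (C.Bbar_le_Btilde (resBig0_mem_Bbar x))).2

variable (C)

/-- the first component of the reduction of the big chart ring. -/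
def resBig1 : InstC4.BooAlg C →+* C.B₁ :=
  ((RingHom.fst κ₁ κ₂).comp (resBig0 C)).codRestrict C.B₁ fun x => resBig0_fst_mem x

/-- the second component of the reduction of the big chart ring. -/
def resBig2 : InstC4.BooAlg C →+* C.B₂ :=
  ((RingHom.snd κ₁ κ₂).comp (resBig0 C)).codRestrict C.B₂ fun x => resBig0_snd_mem x

/-- **the reduction of the big chart ring** `BooAlg C → B₁ × B₂`. -/
def resBig : InstC4.BooAlg C →+* C.B₁ × C.B₂ := (resBig1 C).prod (resBig2 C)

variable {C}

theorem coe_resBig1 (x : InstC4.BooAlg C) : ((resBig1 C x : C.B₁) : κ₁) = (resBig0 C x).1 := rfl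

theorem coe_resBig2 (x : InstC4.BooAlg C) : ((resBig2 C x : C.B₂) : κ₂) = (resBig0 C x).2 := rfl

theorem incl_resBig (x : InstC4.BooAlg C) : C.incl (resBig C x) = resBig0 C x := rfl

/-- the reduction of the big chart ring takes its values in the glue ring. -/
theorem resBig_mem_BbarT (x : InstC4.BooAlg C) : resBig C x ∈ C.BbarT := by
  rw [ChartCoord.mem_BbarT_iff, incl_resBig]
  exact resBig0_mem_Bbar x

/-- `resBig1 x = 0` iff the first component of the reduction vanishes. -/
theorem resBig1_eq_zero_iff (x : InstC4.BooAlg C) :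
    resBig1 C x = 0 ↔ (R.res ⟨(x : F), coe_mem_O_big x⟩).1 = 0 := by
  rw [← resBig0_apply, ← coe_resBig1]
  exact ⟨fun h => by rw [h]; rfl, fun h => Subtype.ext h⟩

/-- `resBig2 x = 0` iff the second component of the reduction vanishes. -/
theorem resBig2_eq_zero_iff (x : InstC4.BooAlg C) :
    resBig2 C x = 0 ↔ (R.res ⟨(x : F), coe_mem_O_big x⟩).2 = 0 := by
  rw [← resBig0_apply, ← coe_resBig2]
  exact ⟨fun h => by rw [h]; rfl, fun h => Subtype.ext h⟩

variable {Γ}

/-- the inclusion of the `Γ`-fixed chart ring into the big chart ring. -/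
theorem coe_mem_BooAlg (x : B0 C Γ) : (x : F) ∈ InstC4.BooAlg C :=
  (InstC4.mem_BooAlg C).mpr (mem_B0_iff.mp x.2).1

/-- compatibility of the two reductions, first component. -/
theorem resBig1_incl (x : B0 C Γ) : resBig1 C ⟨(x : F), coe_mem_BooAlg x⟩ = rho1 C Γ x := rfl

/-- compatibility of the two reductions, second component. -/
theorem resBig2_incl (x : B0 C Γ) : resBig2 C ⟨(x : F), coe_mem_BooAlg x⟩ = rho2 C Γ x := rfl

/-! ### The seam lemma -/

section Seam

variable [IsAlgClosed k] (hL2 : C.IsL2)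

/-- the two characters of a node agree on the reduction of the big chart ring. -/
theorem chi1_resBig_eq (s : Goursat.Nodes C.BbarT hL2.h2) (x : InstC4.BooAlg C) :
    chi1 hL2 s (resBig1 C x) = chi2 hL2 s (resBig2 C x) :=
  chi1_eq_chi2_of_mem hL2 s (resBig_mem_BbarT x)

/-- **The seam T → N.**  One Bezout identity `E + b * Ψ + E' = 1` in the BIG chart ring, with
`ρ₀ E = 0` and `ρ_∞ E' = 0`, shows that the `Γ`-fixed element `Ψ` lies outside EVERY node ideal of
the `Γ`-fixed chart ring `B_0`. -/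
theorem not_mem_nodeIdeal_of_bezout (s : Goursat.Nodes C.BbarT hL2.h2) (Ψ : B0 C Γ)
    (E b E' : InstC4.BooAlg C) (hE : resBig2 C E = 0) (hE' : resBig1 C E' = 0)
    (hbez : E + b * ⟨(Ψ : F), coe_mem_BooAlg Ψ⟩ + E' = 1) :
    Ψ ∉ nodeIdeal (Γ := Γ) hL2 s := by
  intro hΨ
  rw [mem_nodeIdeal_iff] at hΨ
  have h1 : chi1 hL2 s (resBig1 C E) = 0 := by
    rw [chi1_resBig_eq hL2 s E, hE, map_zero]
  have h2 : chi1 hL2 s (resBig1 C E') = 0 := by
    rw [hE', map_zero]
  have h3 := congrArg (fun z => chi1 hL2 s (resBig1 C z)) hbez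
  simp only [map_add, map_mul, map_one] at h3
  rw [h1, h2, resBig1_incl, hΨ, mul_zero, add_zero, add_zero] at h3
  exact zero_ne_one h3

/-- the seam lemma with `E, b, E'` given as elements of `F` (the form in which the T-block states
its Bezout identity). -/
theorem not_mem_nodeIdeal_of_bezout' (s : Goursat.Nodes C.BbarT hL2.h2) (Ψ : B0 C Γ)
    {E b E' : F} (hEB : E ∈ InstC4.BooAlg C) (hbB : b ∈ InstC4.BooAlg C)
    (hE'B : E' ∈ InstC4.BooAlg C) (hEO : E ∈ S.O) (hE'O : E' ∈ S.O)
    (hE : (R.res ⟨E, hEO⟩).2 = 0) (hE' : (R.res ⟨E', hE'O⟩).1 = 0)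
    (hbez : E + b * (Ψ : F) + E' = 1) :
    Ψ ∉ nodeIdeal (Γ := Γ) hL2 s := by
  refine not_mem_nodeIdeal_of_bezout hL2 s Ψ ⟨E, hEB⟩ ⟨b, hbB⟩ ⟨E', hE'B⟩ ?_ ?_ ?_
  · exact (resBig2_eq_zero_iff _).mpr hE
  · exact (resBig1_eq_zero_iff _).mpr hE'
  · exact Subtype.ext hbez

end Seam

end Fermat.Agent.S40x.Node.ThickSeam
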