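/-
P-S44/S40, block R1, leaf (N0a-2) (helper9): DESCENT OF THE CHART RINGS (helper43's (Desc)).

In the context bundle `Cech.CtxMq.Ctx R C p q x Dt` + `CtxGal R C Gam` with `hD : FixData2 R Gam`
and `hF : span K {fixed} = top`: every element of the lattice `Lam C a b = L(a C_0 + b C_oo) ∩ O`
is an `A`-linear combination of `Gam`-FIXED elements of the same lattice (a fixed frame is an
`A`-basis).  Hence every element of the chart rings `BooAlg C`, `BzeroAlg C`, `BxAlg C`
(`H1/InstC4`) is a finite `A`-linear (a fortiori `K`-linear) combination of elements of the fixed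
chart rings `B_0 = InstW.fixedAlg Gam B`.

* `exists_fixed_comb_Lam`, `exists_fixed_comb_Boo`, `exists_fixed_comb_Bzero`,
  `exists_fixed_comb_Bx` : the generic bundle;
* `mem_span_fixedAlg_Boo` etc. : the same as membership in the `K`-span / `A`-span;
* `exists_fixed_comb_Boo_Mq` ... : the concrete level `M q` over `Qbar`, `Gam` = inertia
  (`InstMqFixedB.GamMq`), no hypothesis on fixed points left.
-/
import Fermat.Agent.S33x.W.InstMqFixedB

set_option autoImplicit false
set_option linter.style.haveILetI false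
set_option linter.unusedSectionVars false
set_option linter.unusedVariables false

noncomputable section

namespace Fermat.Agent.S40x.Node.Vocab2

open AlgebraicCurve Module IntermediateField IsLocalRing
open Fermat.Agent.Gateway.C0 Fermat.Agent.S34x.C0two Fermat.Agent.S34x.Lattice2
open Fermat.Agent.S33x.Cech.CtxMq Fermat.Agent.S33x.H1.InstC1
open Fermat.Agent.S33x.Cech Fermat.Agent.S33x.Cech.OfDirectSum
open Fermat.Agent.S19x.Geo.LatticeFixed (IsFixed)
open Fermat.Agent.S33x.H1.LatticeFixed2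
open Fermat.Agent.S33x.W.InstW (fixedAlg mem_fixedAlg)
open Fermat.Agent.S33x.W.InstMqFixedB
open Fermat.Agent.S33x.H1.InstC4

section Bundle

variable {K : Type*} [Field K] [IsAlgClosed K] [CharZero K] {A : ValuationSubring K}
  {F : Type*} [Field F] [Algebra K F] {S : SmallRing F}
  {k : Type*} [Field k] [IsAlgClosed k] {E : Type*} [Field E] [Algebra k E]
  {R : RedSetup2 A S k (E × E)} {C : ChartCoord R} {p q : ℕ} {x : E} {Dt : Divisor K F}
  (h : Ctx R C p q x Dt) {Γ : Set (SemilinearAut K F)} (hG : CtxGal R C Γ)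

include h hG in
/-- every element of `Lam C a b` is an `A`-linear combination of fixed elements of `Lam C a b`. -/
theorem exists_fixed_comb_Lam (hD : FixData2 R Γ)
    (hF : Submodule.span K {f : F | IsFixed Γ f} = ⊤) (a b : ℕ) {f : F} (hf : f ∈ Lam C a b) :
    ∃ (n : ℕ) (c : Fin n → A) (e : Fin n → F),
      (∀ i, e i ∈ Lam C a b) ∧ (∀ i, IsFixed Γ (e i)) ∧ f = ∑ i, (c i : K) • e i := by
  haveI : FiniteDimensional K (C.LN a b) := finiteDimensional_LN h a b
  obtain ⟨e, he⟩ := exists_fixedFrame2_of_stable hD hF (C.LN a b)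
    (h.hcart _ (finiteDimensional_LN h a b))
    (Fermat.Agent.S33x.H1.StableLN.stable_LN C hG.smul_t a b)
  obtain ⟨c, hc⟩ := he.exists_coeff hf.1 hf.2
  exact ⟨_, c, e, fun i => ⟨he.mem_V i, he.mem_O i⟩, he.fixed, hc⟩

include h hG in
/-- **(Desc)** for the chart ring `B_oo`. -/
theorem exists_fixed_comb_Boo (hD : FixData2 R Γ)
    (hF : Submodule.span K {f : F | IsFixed Γ f} = ⊤) {f : F} (hf : f ∈ BooAlg C) :
    ∃ (n : ℕ) (c : Fin n → A) (e : Fin n → F),
      (∀ i, e i ∈ fixedAlg Γ (BooAlg C)) ∧ f = ∑ i, (c i : K) • e i := by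
  obtain ⟨b, hb⟩ := (mem_BooAlg C).1 hf
  obtain ⟨n, c, e, he, hefix, hc⟩ := exists_fixed_comb_Lam h hG hD hF 0 b hb
  exact ⟨n, c, e, fun i => ⟨(mem_BooAlg C).2 ⟨b, he i⟩, hefix i⟩, hc⟩

include h hG in
/-- **(Desc)** for the chart ring `B_0`. -/
theorem exists_fixed_comb_Bzero (hD : FixData2 R Γ)
    (hF : Submodule.span K {f : F | IsFixed Γ f} = ⊤) {f : F} (hf : f ∈ BzeroAlg C) :
    ∃ (n : ℕ) (c : Fin n → A) (e : Fin n → F),
      (∀ i, e i ∈ fixedAlg Γ (BzeroAlg C)) ∧ f = ∑ i, (c i : K) • e i := by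
  obtain ⟨a, ha⟩ := (mem_BzeroAlg C).1 hf
  obtain ⟨n, c, e, he, hefix, hc⟩ := exists_fixed_comb_Lam h hG hD hF a 0 ha
  exact ⟨n, c, e, fun i => ⟨(mem_BzeroAlg C).2 ⟨a, he i⟩, hefix i⟩, hc⟩

include h hG in
/-- **(Desc)** for the overlap ring `B_x`. -/
theorem exists_fixed_comb_Bx (hD : FixData2 R Γ)
    (hF : Submodule.span K {f : F | IsFixed Γ f} = ⊤) {f : F} (hf : f ∈ BxAlg C) :
    ∃ (n : ℕ) (c : Fin n → A) (e : Fin n → F),
      (∀ i, e i ∈ fixedAlg Γ (BxAlg C)) ∧ f = ∑ i, (c i : K) • e i := by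
  obtain ⟨a, b, hab⟩ := (mem_BxAlg' C).1 hf
  obtain ⟨n, c, e, he, hefix, hc⟩ := exists_fixed_comb_Lam h hG hD hF a b hab
  exact ⟨n, c, e, fun i => ⟨(mem_BxAlg' C).2 ⟨a, b, he i⟩, hefix i⟩, hc⟩

include h hG in
/-- span form: `B_oo` is contained in the `K`-span of its fixed part. -/
theorem BooAlg_le_span_fixed (hD : FixData2 R Γ)
    (hF : Submodule.span K {f : F | IsFixed Γ f} = ⊤) {f : F} (hf : f ∈ BooAlg C) :
    f ∈ Submodule.span K ((fixedAlg Γ (BooAlg C) : Set F)) := by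
  obtain ⟨n, c, e, he, rfl⟩ := exists_fixed_comb_Boo h hG hD hF hf
  exact Submodule.sum_mem _ fun i _ => Submodule.smul_mem _ _ (Submodule.subset_span (he i))

include h hG in
theorem BzeroAlg_le_span_fixed (hD : FixData2 R Γ)
    (hF : Submodule.span K {f : F | IsFixed Γ f} = ⊤) {f : F} (hf : f ∈ BzeroAlg C) :
    f ∈ Submodule.span K ((fixedAlg Γ (BzeroAlg C) : Set F)) := by
  obtain ⟨n, c, e, he, rfl⟩ := exists_fixed_comb_Bzero h hG hD hF hf
  exact Submodule.sum_mem _ fun i _ => Submodule.smul_mem _ _ (Submodule.subset_span (he i))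

include h hG in
theorem BxAlg_le_span_fixed (hD : FixData2 R Γ)
    (hF : Submodule.span K {f : F | IsFixed Γ f} = ⊤) {f : F} (hf : f ∈ BxAlg C) :
    f ∈ Submodule.span K ((fixedAlg Γ (BxAlg C) : Set F)) := by
  obtain ⟨n, c, e, he, rfl⟩ := exists_fixed_comb_Bx h hG hD hF hf
  exact Submodule.sum_mem _ fun i _ => Submodule.smul_mem _ _ (Submodule.subset_span (he i))

end Bundle

/-! ### The concrete level `M q` over `Qbar` -/

section Concrete

open ModularCurve
open Fermat.Agent.Gateway.Hecke Fermat.Agent.Gateway.ESC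
open Fermat.Agent.Gateway.Red Fermat.Agent.Gateway.GoodRed
open Fermat.Agent.Gateway.GoodRed.ConjFamily
open Fermat.Agent.S34x.TwoVal
open Fermat.Agent.S34x.Inst.L2 Fermat.Agent.S34x.Inst.IsL2Inst
open Fermat.Agent.S34x.Inst.RedSetupInst Fermat.Agent.S34x.Inst.ElementYRed
open Fermat.Agent.S34x.Inst.ElementYInt Fermat.Agent.S34x.Inst.Charts
open Fermat.Agent.S34x.Inst Fermat.Agent.S34x.Inst.TheoremBMq
open Fermat.Agent.S56x.Flat.InertiaField
open Fermat.Agent.S33x.H1.FixData2Final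

attribute [-instance] IsScalarTower.of_algHom

local notation "Qbar" => AlgebraicClosure ℚ

variable {P : ValuationSubring Qbar} {k : Type} [Field k] {π : P →+* k} [IsAlgClosed k]
variable {M q : ℕ} [NeZero M] [NeZero q] [Fact q.Prime] [CharP k q]
variable {hdeg : finrankAlong Qbar (heckeAlphaBar Qbar M q) = q + 1} {hq : q.Prime}
  {hqM : ¬ q ∣ M}
variable {hrk : ∀ x ∈ maximalIdeal P, ∀ c : P, c ≠ 0 → ∃ j : ℕ, c ∣ x ^ j}
  {hπ : Function.Surjective π}
variable (H : ResidueFacts P π M q hdeg hq hqM hrk hπ) (hA : P.LiesOverPrime q)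
  (x : LaurentSeries ℤ) (hx : coeffMap (Int.castRingHom Qbar) x ∈ FBar Qbar M)
  (Hx : GoodLevelFactsT P π M q hπ hqM (tInt M x hx))

include Hx hA in
/-- the context bundle at the concrete level `M q` for the inertia group (as in
`InstMqFixedB.exists_directSum_fixed_Mq`). -/
theorem exists_ctx_Mq [PerfectRing k q] (C : ChartCoord (redSetup2 H hA))
    (hCt : C.t = tA M q x hx) (hxk : tbar k x ≠ 0) (hY : YFacts M q x hx) :
    ∃ (Dt : Divisor Qbar (FL Qbar (M * q))) (p' q' : ℕ) (xb : _),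
      Ctx (redSetup2 H hA) C p' q' xb Dt ∧ CtxGal (redSetup2 H hA) C (GamMq P M q) := by
  haveI : Algebra.IsAlgebraic ℚ Qbar := AlgebraicClosure.isAlgebraic ℚ
  haveI : CharZero Qbar := algebraRat.charZero Qbar
  have ht : Transcendental Qbar C.t := by
    rw [hCt]
    exact Charts.transcendental_tα Qbar M q Hx.trans
  haveI hfin : FiniteDimensional Qbar⟮C.t⟯ (FL Qbar (M * q)) := by
    rw [hCt]
    exact finiteDimensional_tA x hx Hx
  have hctx := ctx_of_chart H hA x hx Hx C hCt hxk hY (Dt := Charts.divT ht) (Charts.divT_apply ht)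
  have hgal := ctxGal_inertia H hA x hx Hx C hCt
  exact ⟨_, _, _, _, hctx, hgal⟩

include Hx hA in
/-- **(Desc) at level `M q`**: every element of the chart ring `B_oo` is a `P`-linear combination
of inertia-fixed elements of `B_oo`. -/
theorem exists_fixed_comb_Boo_Mq [PerfectRing k q] (C : ChartCoord (redSetup2 H hA))
    (hCt : C.t = tA M q x hx) (hxk : tbar k x ≠ 0) (hY : YFacts M q x hx)
    {f : FL Qbar (M * q)} (hf : f ∈ BooAlg C) :
    ∃ (n : ℕ) (c : Fin n → P) (e : Fin n → FL Qbar (M * q)),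
      (∀ i, e i ∈ fixedAlg (GamMq P M q) (BooAlg C)) ∧ f = ∑ i, (c i : Qbar) • e i := by
  haveI : CharZero Qbar := algebraRat.charZero Qbar
  obtain ⟨Dt, p', q', xb, hctx, hgal⟩ := exists_ctx_Mq H hA x hx Hx C hCt hxk hY
  exact exists_fixed_comb_Boo hctx hgal (fixData2_setOf H hA) (span_fixed_setOf P (M * q)) hf

include Hx hA in
/-- **(Desc) at level `M q`** for `B_0`. -/
theorem exists_fixed_comb_Bzero_Mq [PerfectRing k q] (C : ChartCoord (redSetup2 H hA))
    (hCt : C.t = tA M q x hx) (hxk : tbar k x ≠ 0) (hY : YFacts M q x hx)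
    {f : FL Qbar (M * q)} (hf : f ∈ BzeroAlg C) :
    ∃ (n : ℕ) (c : Fin n → P) (e : Fin n → FL Qbar (M * q)),
      (∀ i, e i ∈ fixedAlg (GamMq P M q) (BzeroAlg C)) ∧ f = ∑ i, (c i : Qbar) • e i := by
  haveI : CharZero Qbar := algebraRat.charZero Qbar
  obtain ⟨Dt, p', q', xb, hctx, hgal⟩ := exists_ctx_Mq H hA x hx Hx C hCt hxk hY
  exact exists_fixed_comb_Bzero hctx hgal (fixData2_setOf H hA) (span_fixed_setOf P (M * q)) hf

include Hx hA in
/-- **(Desc) at level `M q`** for `B_x`. -/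
theorem exists_fixed_comb_Bx_Mq [PerfectRing k q] (C : ChartCoord (redSetup2 H hA))
    (hCt : C.t = tA M q x hx) (hxk : tbar k x ≠ 0) (hY : YFacts M q x hx)
    {f : FL Qbar (M * q)} (hf : f ∈ BxAlg C) :
    ∃ (n : ℕ) (c : Fin n → P) (e : Fin n → FL Qbar (M * q)),
      (∀ i, e i ∈ fixedAlg (GamMq P M q) (BxAlg C)) ∧ f = ∑ i, (c i : Qbar) • e i := by
  haveI : CharZero Qbar := algebraRat.charZero Qbar
  obtain ⟨Dt, p', q', xb, hctx, hgal⟩ := exists_ctx_Mq H hA x hx Hx C hCt hxk hY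
  exact exists_fixed_comb_Bx hctx hgal (fixData2_setOf H hA) (span_fixed_setOf P (M * q)) hf

end Concrete

end Fermat.Agent.S40x.Node.Vocab2
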