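/-
P-S44/S40, block R1/C3 seam, leaf (N0a-4) (helper9), requested by helper94 (C3-CFE -> ASM):

* `exists_mul_pow_mem_inertiaInt` : every `c ∈ K0 P` is `a / p ^ n` with `a ∈ inertiaInt P`
  (so `K0 ⊆ R_(h)` for every prime `h` not dividing `p` of a ring containing `inertiaInt P`);
  `exists_eq_div_pow` : the same as an equation `c = a / p ^ n`;
* `isAlgebraic_K0` : `Qbar` is algebraic over `K0 P`.
-/
import Mathlib
import Fermat.Agent.S40x.Node.Vocab

set_option autoImplicit false
set_option linter.unusedSectionVars false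
set_option linter.unusedVariables false
set_option linter.style.haveILetI false

noncomputable section

namespace Fermat.Agent.S40x.Node.VocabConst

open IsLocalRing
open Fermat.Agent.S40x.Node.Vocab
open Fermat.Agent.S56x.Flat.InertiaField

local notation "Qbar" => AlgebraicClosure ℚ

variable (P : ValuationSubring Qbar) {p : ℕ} (hp : p.Prime) (hP : P.LiesOverPrime p)

include hp hP in
/-- every nonzero element of `inertiaInt P` is a unit times a power of `p`. -/
theorem exists_unit_mul_pow (c : inertiaInt P) (hc : c ≠ 0) :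
    ∃ (n : ℕ) (u : (inertiaInt P)ˣ), c = (u : inertiaInt P) * ((p : ℕ) : inertiaInt P) ^ n := by
  haveI := isDiscreteValuationRing_inertiaInt P hp hP
  have hirr : Irreducible (((p : ℕ) : inertiaInt P)) := by
    rw [IsDiscreteValuationRing.irreducible_iff_uniformizer]
    exact maximalIdeal_inertiaInt P hp hP
  obtain ⟨n, u, hu⟩ := IsDiscreteValuationRing.eq_unit_mul_pow_irreducible hc hirr
  exact ⟨n, u, hu⟩

include hp hP in
/-- **(i)** every `c ∈ K0 P` becomes integral after multiplication by a power of `p`. -/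
theorem exists_mul_pow_mem_inertiaInt {c : Qbar} (hc : c ∈ K0 P) :
    ∃ a ∈ inertiaInt P, ∃ n : ℕ, c * (p : Qbar) ^ n = a := by
  by_cases hcP : c ∈ P
  · exact ⟨c, ⟨hcP, hc⟩, 0, by simp⟩
  · have hc0 : c ≠ 0 := fun h => hcP (h ▸ P.zero_mem)
    have hci : c⁻¹ ∈ P := (P.mem_or_inv_mem c).resolve_left hcP
    have hciK : c⁻¹ ∈ K0 P := (K0 P).inv_mem hc
    set d : inertiaInt P := ⟨c⁻¹, hci, hciK⟩ with hd
    have hd0 : d ≠ 0 := by
      intro h
      have := congrArg (fun z : inertiaInt P => (z : Qbar)) h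
      exact inv_ne_zero hc0 (by simpa [hd] using this)
    obtain ⟨n, u, hu⟩ := exists_unit_mul_pow P hp hP d hd0
    refine ⟨((u⁻¹ : (inertiaInt P)ˣ) : inertiaInt P), ((u⁻¹ : (inertiaInt P)ˣ) : inertiaInt P).2,
      n, ?_⟩
    have h1 : c⁻¹ = ((u : inertiaInt P) : Qbar) * (p : Qbar) ^ n := by
      have := congrArg (fun z : inertiaInt P => (z : Qbar)) hu
      simpa [hd] using this
    have h2 : ((u : inertiaInt P) : Qbar) * (((u⁻¹ : (inertiaInt P)ˣ) : inertiaInt P) : Qbar) = 1 := by
      have h := congrArg (fun z : inertiaInt P => (z : Qbar)) (Units.mul_inv u)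
      exact h
    have hu0 : ((u : inertiaInt P) : Qbar) ≠ 0 := left_ne_zero_of_mul_eq_one h2
    have h3 : c = (((u : inertiaInt P) : Qbar) * (p : Qbar) ^ n)⁻¹ := by
      rw [← h1, inv_inv]
    have hp0 : (p : Qbar) ≠ 0 := Nat.cast_ne_zero.mpr hp.ne_zero
    rw [h3, mul_inv, mul_assoc, inv_mul_cancel₀ (pow_ne_zero n hp0), mul_one]
    exact (eq_inv_of_mul_eq_one_right h2).symm

include hp hP in
/-- the same as an equation `c = a / p ^ n`. -/
theorem exists_eq_div_pow {c : Qbar} (hc : c ∈ K0 P) :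
    ∃ a ∈ inertiaInt P, ∃ n : ℕ, c = a / (p : Qbar) ^ n := by
  obtain ⟨a, ha, n, h⟩ := exists_mul_pow_mem_inertiaInt P hp hP hc
  have hp0 : (p : Qbar) ≠ 0 := Nat.cast_ne_zero.mpr hp.ne_zero
  exact ⟨a, ha, n, by rw [← h, mul_div_assoc, div_self (pow_ne_zero n hp0), mul_one]⟩

/-- **(ii)** `Qbar` is algebraic over `K0 P`. -/
theorem isAlgebraic_K0 : Algebra.IsAlgebraic (K0 P) Qbar := by
  haveI : Algebra.IsAlgebraic ℚ Qbar := AlgebraicClosure.isAlgebraic ℚ
  exact Algebra.IsAlgebraic.tower_top (K := ℚ) (K0 P)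

/-- elementwise form: every `x : Qbar` is a root of a nonzero polynomial over `K0 P`. -/
theorem isAlgebraic_K0_apply (x : Qbar) : IsAlgebraic (K0 P) x :=
  (isAlgebraic_K0 P).isAlgebraic x

end Fermat.Agent.S40x.Node.VocabConst
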