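/-
P-S44/S40, block R1, leaf (N0a-3) (helper9): THE INERTIA-FIXED FUNCTION FIELDS AND CHANGE OF LEVEL.

`F0 P N` (of `Node/Vocab`) in `q`-expansion terms, and its behaviour under the three level maps
(all of which commute with the coefficientwise Galois action):

* `mem_F0_iff_coeffMap` : `f ∈ F0 P N ↔ ∀ τ ∈ I, coeffMap τ f = f` (as Laurent series);
* `alpha_mem_F0_iff`, `beta_mem_F0_iff` : `heckeAlphaBar f ∈ F0 P (N ℓ) ↔ f ∈ F0 P N`, same for
  `heckeBetaBar`;
* `inclusion_mem_F0_iff` : the same for the inclusion `FL_le_of_dvd` of levels `N ∣ N₂`;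
* `alpha0`, `beta0`, `incl0` : the induced `K0 P`-algebra homomorphisms `F0 P N → F0 P (N ℓ)`,
  `F0 P N → F0 P N₂`, with `coe_alpha0`, `coe_beta0`, `coe_incl0`.
-/
import Mathlib
import Fermat.Agent.S40x.Node.Vocab
import Fermat.Agent.S34x.TwoVal.Iota0Level
import Fermat.Prelude.Thm_ModularCurve_coeffMap_qExpand

set_option autoImplicit false
set_option linter.unusedSectionVars false
set_option linter.unusedVariables false
set_option linter.style.haveILetI false

noncomputable section

namespace Fermat.Agent.S40x.Node.VocabLevel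

open AlgebraicCurve IsLocalRing ModularCurve
open Fermat.Agent.S19x.Geo.LatticeFixed (IsFixed IsFixedK)
open Fermat.Agent.S33x.H1.FixData2Inst
open Fermat.Agent.S40x.Node.Vocab
open Fermat.Agent.Gateway.Hecke Fermat.Agent.S34x.TwoVal

local notation "Qbar" => AlgebraicClosure ℚ

variable (P : ValuationSubring Qbar)

/-- `F0` in `q`-expansion terms. -/
theorem mem_F0_iff_coeffMap {N : ℕ} {f : laurentBaseChange Qbar (modularFunctionFieldFull N)} :
    f ∈ F0 P N ↔ ∀ τ ∈ P.inertiaSubgroupIn ℚ,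
      coeffMap ((τ : Qbar ≃ₐ[ℚ] Qbar) : Qbar →+* Qbar) (f : LaurentSeries Qbar) =
        (f : LaurentSeries Qbar) := by
  constructor
  · intro hf τ hτ
    have h := hf (arithmeticGalois (modularFunctionFieldFull N) τ) ⟨τ, hτ, rfl⟩
    exact congrArg (fun z : laurentBaseChange Qbar (modularFunctionFieldFull N) =>
      (z : LaurentSeries Qbar)) h
  · rintro hf _ ⟨τ, hτ, rfl⟩
    exact Subtype.ext (hf τ hτ)

section HeckeMaps

variable (N ℓ : ℕ) [NeZero N] [NeZero ℓ]

theorem alpha_mem_F0_iff {f : laurentBaseChange Qbar (modularFunctionFieldFull N)} :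
    heckeAlphaBar Qbar N ℓ f ∈ F0 P (N * ℓ) ↔ f ∈ F0 P N := by
  rw [mem_F0_iff_coeffMap, mem_F0_iff_coeffMap]
  simp only [coe_heckeAlphaBar]

theorem beta_mem_F0_iff {f : laurentBaseChange Qbar (modularFunctionFieldFull N)} :
    heckeBetaBar Qbar N ℓ f ∈ F0 P (N * ℓ) ↔ f ∈ F0 P N := by
  rw [mem_F0_iff_coeffMap, mem_F0_iff_coeffMap]
  simp only [coe_heckeBetaBar, ModularCurve.coeffMap_qExpand]
  constructor
  · intro h τ hτ
    exact qExpand_injective ℓ (h τ hτ)
  · intro h τ hτ
    rw [h τ hτ]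

/-- `α^*` on the inertia-fixed function fields, as a `K0`-algebra homomorphism. -/
def alpha0 : F0 P N →ₐ[K0 P] F0 P (N * ℓ) where
  toFun f := ⟨heckeAlphaBar Qbar N ℓ (f : laurentBaseChange Qbar (modularFunctionFieldFull N)),
    (alpha_mem_F0_iff P N ℓ).2 f.2⟩
  map_one' := Subtype.ext (by simp)
  map_mul' a b := Subtype.ext (by simp)
  map_zero' := Subtype.ext (by simp)
  map_add' a b := Subtype.ext (by simp)
  commutes' c := Subtype.ext (by
    show heckeAlphaBar Qbar N ℓ (algebraMap Qbar _ (c : Qbar)) = algebraMap Qbar _ (c : Qbar)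
    exact (heckeAlphaBar Qbar N ℓ).commutes (c : Qbar))

@[simp] theorem coe_alpha0 (f : F0 P N) :
    ((alpha0 P N ℓ f : F0 P (N * ℓ)) :
      laurentBaseChange Qbar (modularFunctionFieldFull (N * ℓ))) =
      heckeAlphaBar Qbar N ℓ (f : laurentBaseChange Qbar (modularFunctionFieldFull N)) := rfl

/-- `β^*` on the inertia-fixed function fields, as a `K0`-algebra homomorphism. -/
def beta0 : F0 P N →ₐ[K0 P] F0 P (N * ℓ) where
  toFun f := ⟨heckeBetaBar Qbar N ℓ (f : laurentBaseChange Qbar (modularFunctionFieldFull N)),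
    (beta_mem_F0_iff P N ℓ).2 f.2⟩
  map_one' := Subtype.ext (by simp)
  map_mul' a b := Subtype.ext (by simp)
  map_zero' := Subtype.ext (by simp)
  map_add' a b := Subtype.ext (by simp)
  commutes' c := Subtype.ext (by
    show heckeBetaBar Qbar N ℓ (algebraMap Qbar _ (c : Qbar)) = algebraMap Qbar _ (c : Qbar)
    exact (heckeBetaBar Qbar N ℓ).commutes (c : Qbar))

@[simp] theorem coe_beta0 (f : F0 P N) :
    ((beta0 P N ℓ f : F0 P (N * ℓ)) :
      laurentBaseChange Qbar (modularFunctionFieldFull (N * ℓ))) =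
      heckeBetaBar Qbar N ℓ (f : laurentBaseChange Qbar (modularFunctionFieldFull N)) := rfl

end HeckeMaps

section Inclusion

variable {N N₂ : ℕ} [NeZero N] [NeZero N₂] (h : N ∣ N₂)

/-- membership in `F0` only depends on the `q`-expansion. -/
theorem mem_F0_iff_of_coe_eq {N N₂ : ℕ}
    {f : laurentBaseChange Qbar (modularFunctionFieldFull N)}
    {g : laurentBaseChange Qbar (modularFunctionFieldFull N₂)}
    (hfg : (g : LaurentSeries Qbar) = (f : LaurentSeries Qbar)) :
    g ∈ F0 P N₂ ↔ f ∈ F0 P N := by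
  rw [mem_F0_iff_coeffMap, mem_F0_iff_coeffMap, hfg]

/-- the inclusion of levels as a ring homomorphism. -/
def inclHom : FL Qbar N →+* FL Qbar N₂ :=
  (IntermediateField.inclusion (FL_le_of_dvd (L := Qbar) h)).toRingHom

theorem coe_inclHom (f : FL Qbar N) :
    ((inclHom h f : FL Qbar N₂) : LaurentSeries Qbar) = (f : LaurentSeries Qbar) :=
  IntermediateField.coe_inclusion _ f

theorem inclHom_algebraMap (c : Qbar) :
    inclHom h (algebraMap Qbar (FL Qbar N) c) = algebraMap Qbar (FL Qbar N₂) c :=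
  (IntermediateField.inclusion (FL_le_of_dvd (L := Qbar) h)).commutes c

theorem inclusion_mem_F0_iff {f : FL Qbar N} :
    inclHom h f ∈ F0 P N₂ ↔ f ∈ F0 P N :=
  mem_F0_iff_of_coe_eq P (coe_inclHom h f)

/-- the inclusion of levels on the inertia-fixed function fields. -/
def incl0 : F0 P N →ₐ[K0 P] F0 P N₂ :=
  { ((inclHom h).comp (F0 P N).subtype).codRestrict (F0 P N₂)
      (fun f => (inclusion_mem_F0_iff P h).2 f.2) with
    commutes' := fun c => Subtype.ext (inclHom_algebraMap h (c : Qbar)) }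

theorem coe_incl0 (f : F0 P N) :
    ((incl0 P h f : F0 P N₂) : FL Qbar N₂) = inclHom h (f : FL Qbar N) := rfl

theorem coe_coe_incl0 (f : F0 P N) :
    (((incl0 P h f : F0 P N₂) : FL Qbar N₂) : LaurentSeries Qbar) =
      ((f : FL Qbar N) : LaurentSeries Qbar) := by
  rw [coe_incl0, coe_inclHom]

end Inclusion

end Fermat.Agent.S40x.Node.VocabLevel
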